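import Fermat.Agent.S44.Bridge.NF
import Fermat.Agent.S44.Bridge.Rep

/-!
# S44 [H2-D](b), leaves (helper7; prefix `s44mn_`): number-field bookkeeping for the global data

* `s44mn_exists_nf_all` : finitely many elements of `F̄_N` are defined over EVERY subfield `L1 ⊆ ℚ̄`
  containing a suitable finite set (`∀ large L'` form of `s44b_exists_nf`);
* `s44mn_reps` : a subgroup `H ≤ G_ℚ` containing `Gal(ℚ̄/L0)` (`L0/ℚ` finite normal) has a finite
  set of representatives modulo "same restriction to `L0`";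
* `s44mn_coeffMap_mem`, `s44mn_act` : `Gal(L'/ℚ)` acts coefficientwise on `lg_F L' N`;
* `s44mn_iotaF_smul` : `σ • ιF x1 = ιF (σ|L' • x1)` for `L'/ℚ` normal;
* `s44mn_iotaF_fixed` : `σ` fixing `L0` pointwise fixes `ιF x0` for `x0` defined over `L0`;
* `s44mn_transport` : an identity `σ • ιF f = ιF(c) * ιF(a) * ιF(g) ^ p` in `F̄_N` is the identity
  `coeffMap (σ|L') f = c * a * g ^ p` in `L'((q))`.
-/

set_option autoImplicit false
set_option linter.unusedSectionVars false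

namespace Fermat.Agent.S44

open ModularCurve AlgebraicCurve Fermat.Agent.JT3 Fermat.Agent.SS

local notation "Qb" => AlgebraicClosure ℚ

/-- **descent to all large subfields.** -/
theorem s44mn_exists_nf_all (N : ℕ) [NeZero N] (S : Finset (modularFunctionFieldBar N)) :
    ∃ s : Finset Qb, ∀ L1 : IntermediateField ℚ Qb, (↑s : Set Qb) ⊆ L1 →
      ∀ x ∈ S, ∃ x1 : ↥(lg_F L1 N), ssm_al_iotaF L1 N x1 = x := by
  classical
  have hfg : ∀ x : modularFunctionFieldBar N, ∃ s : Finset Qb,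
      ∀ L1 : IntermediateField ℚ Qb, (↑s : Set Qb) ⊆ L1 →
        ∃ y1 ∈ laurentBaseChange L1 (modularFunctionFieldFull N),
          dsc_cm L1 Qb y1 = (x : LaurentSeries Qb) :=
    fun x => dsc_bc_exists_fg Qb (modularFunctionFieldFull N) x.2
  choose sel hsel using hfg
  refine ⟨S.biUnion sel, fun L1 hL1 x hx => ?_⟩
  obtain ⟨y1, hy1, hy⟩ := hsel x L1 (fun a ha => hL1 (by
    rw [Finset.mem_coe] at ha ⊢
    exact Finset.mem_biUnion.2 ⟨x, hx, ha⟩))
  rw [← lg_F_eq_laurentBaseChange] at hy1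
  exact ⟨⟨y1, hy1⟩, Subtype.ext hy⟩

/-- **finitely many representatives.** -/
theorem s44mn_reps (H : Subgroup s44_G) (L0 : IntermediateField ℚ Qb) [FiniteDimensional ℚ L0]
    [Normal ℚ L0] :
    ∃ R : Finset s44_G, (∀ ρ ∈ R, ρ ∈ H) ∧ ∀ σ ∈ H, ∃ ρ ∈ R, ∀ y ∈ L0, σ y = ρ y := by
  classical
  set res : s44_G →* (L0 ≃ₐ[ℚ] L0) := AlgEquiv.restrictNormalHom L0 with hres
  have hfin : Finite (L0 ≃ₐ[ℚ] L0) := inferInstance
  let _ : Fintype (L0 ≃ₐ[ℚ] L0) := Fintype.ofFinite _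
  -- for each element of the image choose a preimage in `H`
  have hch : ∀ g : L0 ≃ₐ[ℚ] L0, ∃ ρ : s44_G, (∃ σ ∈ H, res σ = g) → (ρ ∈ H ∧ res ρ = g) := by
    intro g
    by_cases h : ∃ σ ∈ H, res σ = g
    · obtain ⟨σ, hσ, hg⟩ := h
      exact ⟨σ, fun _ => ⟨hσ, hg⟩⟩
    · exact ⟨1, fun h' => absurd h' h⟩
  choose ρ hρ using hch
  refine ⟨(Finset.univ.filter fun g : L0 ≃ₐ[ℚ] L0 => ∃ σ ∈ H, res σ = g).image ρ, ?_, ?_⟩
  · intro r hr
    obtain ⟨g, hg, rfl⟩ := Finset.mem_image.1 hr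
    exact (hρ g (Finset.mem_filter.1 hg).2).1
  · intro σ hσ
    have hg : ∃ σ' ∈ H, res σ' = res σ := ⟨σ, hσ, rfl⟩
    refine ⟨ρ (res σ), Finset.mem_image.2 ⟨res σ, Finset.mem_filter.2 ⟨Finset.mem_univ _, hg⟩, rfl⟩,
      fun y hy => ?_⟩
    have h1 : res (ρ (res σ)) = res σ := (hρ (res σ) hg).2
    have h2 := AlgEquiv.restrictNormal_commutes σ L0 ⟨y, hy⟩
    have h3 := AlgEquiv.restrictNormal_commutes (ρ (res σ)) L0 ⟨y, hy⟩
    have h4 : (ρ (res σ)).restrictNormal L0 = σ.restrictNormal L0 := h1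
    rw [h4] at h3
    exact h2.symm.trans h3

section Act

variable (L' : IntermediateField ℚ Qb) (N : ℕ) [NeZero N]

/-- `Gal(L'/ℚ)` acts coefficientwise on `lg_F L' N`. -/
theorem s44mn_coeffMap_mem (τ : L' ≃ₐ[ℚ] L') {x : LaurentSeries L'} (hx : x ∈ lg_F L' N) :
    coeffMap (τ : L' →+* L') x ∈ lg_F L' N := by
  rw [lg_F_eq_laurentBaseChange] at hx ⊢
  exact coeffMap_mem_laurentBaseChange τ hx

/-- the coefficientwise action of `τ ∈ Gal(L'/ℚ)` on `lg_F L' N`. -/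
noncomputable def s44mn_act (τ : L' ≃ₐ[ℚ] L') (x : ↥(lg_F L' N)) : ↥(lg_F L' N) :=
  ⟨coeffMap (τ : L' →+* L') (x : LaurentSeries L'), s44mn_coeffMap_mem L' N τ x.2⟩

theorem s44mn_act_coe (τ : L' ≃ₐ[ℚ] L') (x : ↥(lg_F L' N)) :
    ((s44mn_act L' N τ x : ↥(lg_F L' N)) : LaurentSeries L') =
      coeffMap (τ : L' →+* L') (x : LaurentSeries L') := rfl

/-- `σ • ιF x1 = ιF (τ • x1)` when `τ` is the restriction of `σ`. -/
theorem s44mn_iotaF_smul_of (σ : s44_G) (τ : L' ≃ₐ[ℚ] L')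
    (hτ : ∀ x : L', algebraMap L' Qb (τ x) = σ (algebraMap L' Qb x)) (x1 : ↥(lg_F L' N)) :
    arithmeticGalois (modularFunctionFieldFull N) σ • ssm_al_iotaF L' N x1 =
      ssm_al_iotaF L' N (s44mn_act L' N τ x1) := by
  apply Subtype.ext
  rw [coe_arithmeticGalois_smul, ssm_al_coe_iotaF, ssm_al_coe_iotaF, s44mn_act_coe,
    coeffMap_coeffMap, coeffMap_coeffMap]
  apply coeffMap_congr
  ext a
  exact (hτ a).symm

/-- `σ • ιF x1 = ιF (σ|L' • x1)` for `L'/ℚ` normal. -/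
theorem s44mn_iotaF_smul [Normal ℚ L'] (σ : s44_G) (x1 : ↥(lg_F L' N)) :
    arithmeticGalois (modularFunctionFieldFull N) σ • ssm_al_iotaF L' N x1 =
      ssm_al_iotaF L' N (s44mn_act L' N (σ.restrictNormal L') x1) :=
  s44mn_iotaF_smul_of L' N σ (σ.restrictNormal L') (AlgEquiv.restrictNormal_commutes σ L') x1

/-- `σ` fixing `L'` pointwise fixes every function defined over `L'`. -/
theorem s44mn_iotaF_fixed (σ : s44_G) (hσ : ∀ y ∈ L', σ y = y) (x1 : ↥(lg_F L' N)) :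
    arithmeticGalois (modularFunctionFieldFull N) σ • ssm_al_iotaF L' N x1 =
      ssm_al_iotaF L' N x1 := by
  apply Subtype.ext
  rw [coe_arithmeticGalois_smul, ssm_al_coe_iotaF, coeffMap_coeffMap]
  apply coeffMap_congr
  ext a
  exact hσ _ a.2

/-- **transport of a Kummer relation from `F̄_N` to `L'((q))`.** -/
theorem s44mn_transport (σ : s44_G) (τ : L' ≃ₐ[ℚ] L')
    (hτ : ∀ x : L', algebraMap L' Qb (τ x) = σ (algebraMap L' Qb x))
    (f a g : ↥(lg_F L' N)) (c : L') (p : ℕ)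
    (h : arithmeticGalois (modularFunctionFieldFull N) σ • ssm_al_iotaF L' N f =
      algebraMap Qb (modularFunctionFieldBar N) (algebraMap L' Qb c) * ssm_al_iotaF L' N a *
        ssm_al_iotaF L' N g ^ p) :
    coeffMap (τ : L' →+* L') (f : LaurentSeries L') =
      algebraMap L' (LaurentSeries L') c * (a : LaurentSeries L') * (g : LaurentSeries L') ^ p := by
  rw [s44mn_iotaF_smul_of L' N σ τ hτ, ← ssm_al_iotaF_algebraMap, ← map_pow, ← map_mul,
    ← map_mul] at h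
  have h1 := ssm_al_iotaF_injective L' N h
  have h2 := congrArg (Subtype.val : ↥(lg_F L' N) → LaurentSeries L') h1
  exact h2

end Act

end Fermat.Agent.S44
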