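/-
S44 (Mazur–Ribet at `p`, Frey form), cell [H1] MONO-KUM (helper23; prefix `s44k_`).

The field-theoretic half of [MONO] (#3790 (3)): `Lb` is the function field of the unramified
`ℤ/p`-cover `Y_x → X` with constants extended to the field of definition of `v`; `Γ` acts through
the constants, `τ` is the deck transformation, `y^p = f_x`, `τ y = ζ y`.  If
`σ f_v = c_σ · f_v · f_x^{a(σ)} · g_σ^p` and `Φ = c · f_v · g^p` is `Γ`-fixed, then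
`ω := τ g / g` satisfies `σ ω = ζ^{-a(σ)} ω`; with a resolvent `β` (`σ β = ζ^{a(σ)} β`,
`u = β^p` the Kummer class of `a`) one gets `τ Φ = u⁻¹ · h^p · Φ` with `h = ω β` `Γ`-fixed.
Existence of `(Φ, g)` is Hilbert 90 plus a rigidification (`lc`).
Mathlib only.
-/
import Mathlib

set_option autoImplicit false

namespace Fermat.Agent.S44

section Omega

variable {Lb : Type*} [Field Lb] {Γ : Type*} [Group Γ] [MulSemiringAction Γ Lb]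

/-- **(K1)** the transformation law of `ω = τ g / g`. -/
theorem s44k_omega (τ : Lb ≃+* Lb) (hτΓ : ∀ (σ : Γ) (z : Lb), τ (σ • z) = σ • τ z)
    {ζ y g : Lb} (hζ0 : ζ ≠ 0) (hyτ : τ y = ζ * y) (hg0 : g ≠ 0)
    (a : Γ → ℤ) (e gσ : Γ → Lb) (heτ : ∀ σ, τ (e σ) = e σ) (hgτ : ∀ σ, τ (gσ σ) = gσ σ)
    (hg : ∀ σ, g = e σ * y ^ (a σ) * gσ σ * σ • g) (σ : Γ) :
    σ • (τ g / g) = ζ ^ (-(a σ)) * (τ g / g) := by
  have hσg0 : σ • g ≠ 0 := by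
    intro h
    apply hg0
    have := congrArg (fun z => σ⁻¹ • z) h
    simpa using this
  have hE0 : e σ * y ^ (a σ) * gσ σ ≠ 0 := by
    intro h
    apply hg0
    rw [hg σ, h, zero_mul]
  have hτg : τ g = ζ ^ (a σ) * (e σ * y ^ (a σ) * gσ σ) * σ • τ g := by
    conv_lhs => rw [hg σ]
    rw [map_mul, map_mul, map_mul, heτ, hgτ, map_zpow₀, hyτ, mul_zpow, hτΓ]
    ring
  have hτg0 : τ g ≠ 0 := by
    rw [Ne, map_eq_zero_iff τ τ.injective]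
    exact hg0
  have hστg0 : σ • τ g ≠ 0 := by
    intro h
    apply hτg0
    rw [hτg, h, mul_zero]
  have h1 : σ • (τ g / g) = σ • τ g / σ • g := by
    rw [div_eq_mul_inv, smul_mul', smul_inv'', div_eq_mul_inv]
  have hζa0 : ζ ^ (a σ) ≠ 0 := zpow_ne_zero _ hζ0
  have hkey : τ g * σ • g = ζ ^ (a σ) * σ • τ g * g := by
    calc τ g * σ • g = (ζ ^ (a σ) * (e σ * y ^ (a σ) * gσ σ) * σ • τ g) * σ • g := by rw [← hτg]
    _ = ζ ^ (a σ) * σ • τ g * (e σ * y ^ (a σ) * gσ σ * σ • g) := by ring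
    _ = ζ ^ (a σ) * σ • τ g * g := by rw [← hg σ]
  rw [h1, zpow_neg, div_eq_iff hσg0]
  have h2 : (ζ ^ (a σ))⁻¹ * (τ g / g) * σ • g = (ζ ^ (a σ))⁻¹ * (τ g * σ • g) / g := by ring
  rw [h2, hkey]
  field_simp

/-- **(K2)** if `Φ = c · f_v · g^p` is `Γ`-fixed, the hypothesis of (K1) holds.  `C` is the field
of constants: fixed by `τ`, stable under `Γ`, and closed under `p`-th roots in `Lb`. -/
theorem s44k_omega_of_fixed {p : ℕ} (hp : 0 < p) (τ : Lb ≃+* Lb)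
    (hτΓ : ∀ (σ : Γ) (z : Lb), τ (σ • z) = σ • τ z)
    (C : Subfield Lb) (hCτ : ∀ z ∈ C, τ z = z) (hCΓ : ∀ (σ : Γ), ∀ z ∈ C, σ • z ∈ C)
    (hCroot : ∀ z : Lb, z ^ p ∈ C → z ∈ C)
    {ζ y g fv c Φ : Lb} (hζ0 : ζ ≠ 0) (hy0 : y ≠ 0) (hyτ : τ y = ζ * y) (hg0 : g ≠ 0)
    (hfv0 : fv ≠ 0) (hc : c ∈ C) (hc0 : c ≠ 0)
    (a : Γ → ℤ) (cσ gσ : Γ → Lb) (hcσ : ∀ σ, cσ σ ∈ C) (hgτ : ∀ σ, τ (gσ σ) = gσ σ)
    (hrel : ∀ σ : Γ, σ • fv = cσ σ * fv * (y ^ p) ^ (a σ) * (gσ σ) ^ p)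
    (hΦ : Φ = c * fv * g ^ p) (hΦΓ : ∀ σ : Γ, σ • Φ = Φ) (σ : Γ) :
    σ • (τ g / g) = ζ ^ (-(a σ)) * (τ g / g) := by
  have hsmul0 : ∀ (ρ : Γ) (z : Lb), z ≠ 0 → ρ • z ≠ 0 := by
    intro ρ z hz h
    apply hz
    have := congrArg (fun w => ρ⁻¹ • w) h
    simpa using this
  have hgσ0 : ∀ ρ, gσ ρ ≠ 0 := by
    intro ρ h
    have h1 := hrel ρ
    rw [h, zero_pow hp.ne', mul_zero] at h1
    exact hsmul0 ρ fv hfv0 h1
  have hcσ0 : ∀ ρ, cσ ρ ≠ 0 := by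
    intro ρ h
    have h1 := hrel ρ
    rw [h, zero_mul, zero_mul, zero_mul] at h1
    exact hsmul0 ρ fv hfv0 h1
  have hyp0 : ∀ ρ, (y ^ p) ^ (a ρ) ≠ 0 := fun ρ => zpow_ne_zero _ (pow_ne_zero _ hy0)
  -- the constants `e ρ`
  let e : Γ → Lb := fun ρ => g / (y ^ (a ρ) * gσ ρ * ρ • g)
  have hden0 : ∀ ρ, y ^ (a ρ) * gσ ρ * ρ • g ≠ 0 := fun ρ =>
    mul_ne_zero (mul_ne_zero (zpow_ne_zero _ hy0) (hgσ0 ρ)) (hsmul0 ρ g hg0)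
  have heC : ∀ ρ, e ρ ∈ C := by
    intro ρ
    apply hCroot
    have h1 : ρ • Φ = ρ • c * (cσ ρ * fv * (y ^ p) ^ (a ρ) * (gσ ρ) ^ p) * (ρ • g) ^ p := by
      rw [hΦ, smul_mul', smul_mul', smul_pow', hrel ρ]
    have h2 : ρ • c * (cσ ρ * fv * (y ^ p) ^ (a ρ) * (gσ ρ) ^ p) * (ρ • g) ^ p =
        c * fv * g ^ p := by
      rw [← h1, hΦΓ ρ, hΦ]
    have h3 : (e ρ) ^ p = ρ • c * cσ ρ / c := by
      have hyy : (y ^ (a ρ)) ^ p = (y ^ p) ^ (a ρ) := by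
        rw [← zpow_natCast, ← zpow_mul, mul_comm, zpow_mul, zpow_natCast]
      show (g / (y ^ (a ρ) * gσ ρ * ρ • g)) ^ p = ρ • c * cσ ρ / c
      rw [div_pow, mul_pow, mul_pow, hyy]
      rw [div_eq_div_iff (mul_ne_zero (mul_ne_zero (hyp0 ρ) (pow_ne_zero _ (hgσ0 ρ)))
          (pow_ne_zero _ (hsmul0 ρ g hg0))) hc0]
      apply mul_left_cancel₀ hfv0
      linear_combination (-1 : Lb) * h2
    rw [h3]
    exact C.div_mem (C.mul_mem (hCΓ ρ c hc) (hcσ ρ)) hc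
  refine s44k_omega τ hτΓ hζ0 hyτ hg0 a e gσ (fun ρ => hCτ _ (heC ρ)) hgτ ?_ σ
  intro ρ
  show g = g / (y ^ (a ρ) * gσ ρ * ρ • g) * y ^ (a ρ) * gσ ρ * ρ • g
  have h5 : g / (y ^ (a ρ) * gσ ρ * ρ • g) * y ^ (a ρ) * gσ ρ * ρ • g =
      g / (y ^ (a ρ) * gσ ρ * ρ • g) * (y ^ (a ρ) * gσ ρ * ρ • g) := by ring
  rw [h5, div_mul_cancel₀ _ (hden0 ρ)]

/-- **(K3)** splitting `ω = h / β` with a resolvent `β`: `τ Φ = (β^p)⁻¹ · h^p · Φ`. -/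
theorem s44k_split {p : ℕ} (τ : Lb ≃+* Lb)
    {ζ g fv c Φ β : Lb} (hζ0 : ζ ≠ 0) (hg0 : g ≠ 0) (hβ0 : β ≠ 0)
    (a : Γ → ℤ) (hβ : ∀ σ : Γ, σ • β = ζ ^ (a σ) * β)
    (hω : ∀ σ : Γ, σ • (τ g / g) = ζ ^ (-(a σ)) * (τ g / g))
    (hfvτ : τ fv = fv) (hcτ : τ c = c) (hΦ : Φ = c * fv * g ^ p) :
    (∀ σ : Γ, σ • (τ g / g * β) = τ g / g * β) ∧
      τ Φ = (β ^ p)⁻¹ * (τ g / g * β) ^ p * Φ := by
  constructor
  · intro σ
    rw [smul_mul', hω σ, hβ σ, zpow_neg]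
    have := zpow_ne_zero (a σ) hζ0
    field_simp
  · have hgp0 : g ^ p ≠ 0 := pow_ne_zero _ hg0
    have hβp0 : β ^ p ≠ 0 := pow_ne_zero _ hβ0
    rw [hΦ, map_mul, map_mul, map_pow, hfvτ, hcτ, mul_pow, div_pow]
    field_simp

/-- the sheet count: for an additive `W` (a valuation of `Lb` composed with nothing),
`W (τ Φ) = W Φ - W (β^p) + p · W h`. -/
theorem s44k_sheet {p : ℕ} (τ : Lb ≃+* Lb) {Φ β h : Lb} (hΦ0 : Φ ≠ 0) (hβ0 : β ≠ 0) (hh0 : h ≠ 0)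
    (hτΦ : τ Φ = (β ^ p)⁻¹ * h ^ p * Φ)
    (W : Lb → ℤ) (hWmul : ∀ z w : Lb, z ≠ 0 → w ≠ 0 → W (z * w) = W z + W w) :
    W (τ Φ) = W Φ - W (β ^ p) + (p : ℤ) * W h := by
  have hW1 : W 1 = 0 := by
    have := hWmul 1 1 one_ne_zero one_ne_zero
    rw [mul_one] at this
    linarith
  have hWinv : ∀ z : Lb, z ≠ 0 → W z⁻¹ = - W z := by
    intro z hz
    have := hWmul z z⁻¹ hz (inv_ne_zero hz)
    rw [mul_inv_cancel₀ hz, hW1] at this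
    linarith
  have hWpow : ∀ (z : Lb) (n : ℕ), z ≠ 0 → W (z ^ n) = (n : ℤ) * W z := by
    intro z n hz
    induction n with
    | zero => simp [hW1]
    | succ n ih =>
      rw [pow_succ, hWmul _ _ (pow_ne_zero _ hz) hz, ih]
      push_cast
      ring
  have hβp0 : β ^ p ≠ 0 := pow_ne_zero _ hβ0
  rw [hτΦ, hWmul _ _ (mul_ne_zero (inv_ne_zero hβp0) (pow_ne_zero _ hh0)) hΦ0,
    hWmul _ _ (inv_ne_zero hβp0) (pow_ne_zero _ hh0), hWinv _ hβp0, hWpow h p hh0]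
  ring

end Omega

section Exists

open groupCohomology

variable {L Lb : Type*} [Field L] [Field Lb] [Algebra L Lb] [FiniteDimensional L Lb]

/-- Hilbert 90 core of (K4): a normalised (`lc (f σ) = 1`) family with `σ • fv1 = fv1 * (f σ)^p`
is a multiplicative 1-cocycle, hence a coboundary. -/
theorem s44k_h90 {p : ℕ} (lc : Lbˣ →* Lbˣ)
    (hlcΓ : ∀ (σ : Lb ≃ₐ[L] Lb) (z : Lbˣ), lc (σ • z) = σ • lc z)
    (hμ : ∀ ε : Lbˣ, ε ^ p = 1 → lc ε = ε)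
    (fv1 : Lbˣ) (f : (Lb ≃ₐ[L] Lb) → Lbˣ) (hlcf : ∀ σ, lc (f σ) = 1)
    (hrel1 : ∀ σ, σ • fv1 = fv1 * (f σ) ^ p) :
    ∃ g : Lbˣ, (∀ σ : Lb ≃ₐ[L] Lb, σ • (fv1 * g ^ p) = fv1 * g ^ p) ∧
      ∀ σ : Lb ≃ₐ[L] Lb, g = f σ * σ • g := by
  have hcoc : IsMulCocycle₁ f := by
    intro σ ρ
    have h2 : (σ * ρ) • fv1 = fv1 * ((f σ) ^ p * (σ • f ρ) ^ p) := by
      rw [mul_smul, hrel1 ρ, smul_mul', smul_pow', hrel1 σ, mul_assoc]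
    have h3 : (f (σ * ρ)) ^ p = (σ • f ρ * f σ) ^ p := by
      have h4 := hrel1 (σ * ρ)
      rw [h2] at h4
      have h5 := mul_left_cancel h4
      rw [mul_pow, ← h5, mul_comm]
    have h6 : (f (σ * ρ) / (σ • f ρ * f σ)) ^ p = 1 := by
      rw [div_pow, h3, div_self']
    have h7 := hμ _ h6
    simp only [map_div, map_mul, hlcf, hlcΓ, smul_one, mul_one, div_one] at h7
    exact (div_eq_one.mp h7.symm)
  obtain ⟨x, hx⟩ := isMulCoboundary₁_of_isMulCocycle₁_of_aut_to_units f hcoc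
  have hg : ∀ σ : Lb ≃ₐ[L] Lb, x⁻¹ = f σ * σ • x⁻¹ := by
    intro σ
    rw [← hx σ, smul_inv']
    apply Units.ext
    simp only [Units.val_mul, Units.val_div_eq_div_val, Units.val_inv_eq_inv_val]
    have hx0 : (x : Lb) ≠ 0 := x.ne_zero
    have hsx0 : ((σ • x : Lbˣ) : Lb) ≠ 0 := (σ • x).ne_zero
    field_simp
  refine ⟨x⁻¹, ?_, hg⟩
  intro σ
  rw [smul_mul', smul_pow', hrel1 σ, mul_assoc, ← mul_pow, ← hg σ]

/-- **(K4)** existence of `(Φ, g)`: Hilbert 90 with a rigidification `lc` (the leading coefficient at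
a `Γ`-fixed rational place).  `σ f_v = c_σ · f_v · b_σ^p` with constants `c_σ` implies that some
`c · f_v · g^p` (`c` a constant) is `Γ`-fixed, with `g = (lc b_σ)⁻¹ · b_σ · σ g`. -/
theorem s44k_exists {p : ℕ} (lc : Lbˣ →* Lbˣ)
    (hlcΓ : ∀ (σ : Lb ≃ₐ[L] Lb) (z : Lbˣ), lc (σ • z) = σ • lc z)
    (hlc : ∀ z, lc (lc z) = lc z) (hμ : ∀ ε : Lbˣ, ε ^ p = 1 → lc ε = ε)
    (fv : Lbˣ) (b cc : (Lb ≃ₐ[L] Lb) → Lbˣ) (hcc : ∀ σ, lc (cc σ) = cc σ)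
    (hrel : ∀ σ, σ • fv = cc σ * fv * (b σ) ^ p) :
    ∃ g c : Lbˣ, lc c = c ∧ (∀ σ : Lb ≃ₐ[L] Lb, σ • (c * fv * g ^ p) = c * fv * g ^ p) ∧
      ∀ σ : Lb ≃ₐ[L] Lb, g = (lc (b σ))⁻¹ * b σ * σ • g := by
  have hlcf : ∀ σ : Lb ≃ₐ[L] Lb, lc ((lc (b σ))⁻¹ * b σ) = 1 := by
    intro σ
    rw [map_mul, map_inv, hlc]
    exact inv_mul_cancel _
  have hrel1 : ∀ σ : Lb ≃ₐ[L] Lb,
      σ • ((lc fv)⁻¹ * fv) = (lc fv)⁻¹ * fv * ((lc (b σ))⁻¹ * b σ) ^ p := by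
    intro σ
    have h1 : σ • lc fv = cc σ * lc fv * (lc (b σ)) ^ p := by
      rw [← hlcΓ, hrel σ, map_mul, map_mul, map_pow, hcc]
    rw [smul_mul', smul_inv', h1, hrel σ]
    apply Units.ext
    simp only [Units.val_mul, Units.val_pow_eq_pow_val, Units.val_inv_eq_inv_val]
    have e1 : ((cc σ : Lbˣ) : Lb) ≠ 0 := (cc σ).ne_zero
    have e2 : ((lc fv : Lbˣ) : Lb) ≠ 0 := (lc fv).ne_zero
    have e3 : ((lc (b σ) : Lbˣ) : Lb) ≠ 0 := (lc (b σ)).ne_zero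
    have e4 : ((b σ : Lbˣ) : Lb) ≠ 0 := (b σ).ne_zero
    have e5 : ((fv : Lbˣ) : Lb) ≠ 0 := fv.ne_zero
    rw [mul_pow, inv_pow]
    field_simp
  obtain ⟨g, hg1, hg2⟩ := s44k_h90 lc hlcΓ hμ ((lc fv)⁻¹ * fv) _ hlcf hrel1
  exact ⟨g, (lc fv)⁻¹, by rw [map_inv, hlc], hg1, hg2⟩

end Exists

end Fermat.Agent.S44
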