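/-
S44 (Mazur–Ribet at `p`), cell [H1'] MONO-KUM for a FINITE GROUP (helper23; prefix `s44kf_`).

`Mono/Kummer.lean` states the existence step (K4) for `Γ = Lb ≃ₐ[L] Lb`.  Here the same package is
stated for an arbitrary finite group `G` acting faithfully on the field `Lb` (in the application
`G = Gal(L'/L₁)` acting on the constants of `Lb = L'·L₁(X)(y)`), with elements of `Lb` instead of
units, and the three steps (K4) + (K1) + (K3) are composed into ONE theorem `s44kf_main`.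
Mathlib only (+ `Mono/Kummer.lean`).
-/
import Mathlib
import Fermat.Agent.S44.Mono.Kummer

set_option autoImplicit false

namespace Fermat.Agent.S44

section Fin

variable {Lb : Type*} [Field Lb] {G : Type*} [Group G] [MulSemiringAction G Lb]

/-- the unit-level map induced by a multiplicative map with zero on a field -/
noncomputable def s44kf_unitsMap (lc : Lb →*₀ Lb) : Lbˣ →* Lbˣ where
  toFun z := Units.mk0 (lc z) ((map_ne_zero lc).mpr z.ne_zero)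
  map_one' := by
    apply Units.ext
    simp
  map_mul' z w := by
    apply Units.ext
    simp

@[simp] theorem s44kf_unitsMap_val (lc : Lb →*₀ Lb) (z : Lbˣ) :
    ((s44kf_unitsMap lc z : Lbˣ) : Lb) = lc z := rfl

/-- **(K4) for a finite group acting faithfully.** -/
theorem s44kf_exists [Finite G] [FaithfulSMul G Lb] {p : ℕ} (lc : Lb →*₀ Lb)
    (hlcG : ∀ (σ : G) (z : Lb), lc (σ • z) = σ • lc z)
    (hlc : ∀ z, lc (lc z) = lc z) (hμ : ∀ ε : Lb, ε ^ p = 1 → lc ε = ε)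
    {fv : Lb} (hfv0 : fv ≠ 0) (b cc : G → Lb) (hb0 : ∀ σ, b σ ≠ 0) (hcc0 : ∀ σ, cc σ ≠ 0)
    (hcc : ∀ σ, lc (cc σ) = cc σ)
    (hrel : ∀ σ : G, σ • fv = cc σ * fv * (b σ) ^ p) :
    ∃ g c : Lb, g ≠ 0 ∧ c ≠ 0 ∧ lc c = c ∧ (∀ σ : G, σ • (c * fv * g ^ p) = c * fv * g ^ p) ∧
      ∀ σ : G, g = (lc (b σ))⁻¹ * b σ * σ • g := by
  classical
  let L := FixedPoints.subfield G Lb
  let e : G ≃* (Lb ≃ₐ[L] Lb) := FixedPoints.toAlgAutMulEquiv G Lb
  have he : ∀ (σ : G) (z : Lb), e σ z = σ • z := fun σ z => rfl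
  have hes : ∀ (γ : Lb ≃ₐ[L] Lb) (z : Lb), γ z = e.symm γ • z := by
    intro γ z
    rw [← he, MulEquiv.apply_symm_apply]
  have hsmulU : ∀ (γ : Lb ≃ₐ[L] Lb) (z : Lbˣ), ((γ • z : Lbˣ) : Lb) = e.symm γ • (z : Lb) := by
    intro γ z
    exact hes γ z
  obtain ⟨g, c, hc, hfix, hg⟩ := s44k_exists (L := L) (p := p) (s44kf_unitsMap lc)
    (by
      intro γ z
      apply Units.ext
      rw [s44kf_unitsMap_val, hsmulU, hsmulU, s44kf_unitsMap_val, hlcG])
    (by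
      intro z
      apply Units.ext
      simp only [s44kf_unitsMap_val, hlc])
    (by
      intro ε hε
      apply Units.ext
      rw [s44kf_unitsMap_val]
      apply hμ
      have := congrArg Units.val hε
      simpa using this)
    (Units.mk0 fv hfv0) (fun γ => Units.mk0 (b (e.symm γ)) (hb0 _))
    (fun γ => Units.mk0 (cc (e.symm γ)) (hcc0 _))
    (by
      intro γ
      apply Units.ext
      simp only [s44kf_unitsMap_val, Units.val_mk0, hcc])
    (by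
      intro γ
      apply Units.ext
      rw [hsmulU]
      simp only [Units.val_mul, Units.val_pow_eq_pow_val, Units.val_mk0]
      exact hrel _)
  refine ⟨g, c, g.ne_zero, c.ne_zero, ?_, ?_, ?_⟩
  · have := congrArg Units.val hc
    simpa using this
  · intro σ
    have h1 := congrArg Units.val (hfix (e σ))
    rw [hsmulU, MulEquiv.symm_apply_apply] at h1
    simpa using h1
  · intro σ
    have h1 := congrArg Units.val (hg (e σ))
    simp only [Units.val_mul, Units.val_inv_eq_inv_val, s44kf_unitsMap_val, Units.val_mk0,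
      MulEquiv.symm_apply_apply] at h1
    rw [hsmulU, MulEquiv.symm_apply_apply] at h1
    exact h1

/-- **The Kummer package (K4) + (K1) + (K3) in one statement.**
`Lb` = function field of `Y_x` with constants extended, `G` = Galois group of the constants,
`τ` = deck transformation (`τ y = ζ y`), `lc` = leading coefficient at a `G`-fixed rational place,
`fv` (`τ`-fixed) with `σ fv = c_σ · fv · (y^{a σ} g_σ)^p`, `β` a resolvent of the cocycle `a`.
Then there is `Φ = c · fv · g^p`, `G`-fixed, with `h = (τ g / g) β` `G`-fixed and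
`τ Φ = (β^p)⁻¹ · h^p · Φ`. -/
theorem s44kf_main [Finite G] [FaithfulSMul G Lb] {p : ℕ} (τ : Lb ≃+* Lb)
    (hτG : ∀ (σ : G) (z : Lb), τ (σ • z) = σ • τ z)
    {ζ y : Lb} (hζ0 : ζ ≠ 0) (hy0 : y ≠ 0) (hyτ : τ y = ζ * y)
    (lc : Lb →*₀ Lb) (hlcG : ∀ (σ : G) (z : Lb), lc (σ • z) = σ • lc z)
    (hlc : ∀ z, lc (lc z) = lc z) (hμ : ∀ ε : Lb, ε ^ p = 1 → lc ε = ε)
    (hlcτ : ∀ z, τ (lc z) = lc z)
    {fv : Lb} (hfv0 : fv ≠ 0) (hfvτ : τ fv = fv)
    (a : G → ℤ) (cc gσ : G → Lb) (hcc0 : ∀ σ, cc σ ≠ 0) (hgσ0 : ∀ σ, gσ σ ≠ 0)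
    (hcc : ∀ σ, lc (cc σ) = cc σ) (hgτ : ∀ σ, τ (gσ σ) = gσ σ)
    (hrel : ∀ σ : G, σ • fv = cc σ * fv * (y ^ (a σ) * gσ σ) ^ p)
    {β : Lb} (hβ0 : β ≠ 0) (hβ : ∀ σ : G, σ • β = ζ ^ (a σ) * β) :
    ∃ g c : Lb, g ≠ 0 ∧ c ≠ 0 ∧ τ c = c ∧
      (∀ σ : G, σ • (c * fv * g ^ p) = c * fv * g ^ p) ∧
      (∀ σ : G, σ • (τ g / g * β) = τ g / g * β) ∧
      τ (c * fv * g ^ p) = (β ^ p)⁻¹ * (τ g / g * β) ^ p * (c * fv * g ^ p) := by
  obtain ⟨g, c, hg0, hc0, hlcc, hfix, hg⟩ := s44kf_exists (p := p) lc hlcG hlc hμ hfv0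
    (fun σ => y ^ (a σ) * gσ σ) cc (fun σ => mul_ne_zero (zpow_ne_zero _ hy0) (hgσ0 σ)) hcc0 hcc hrel
  have hcτ : τ c = c := by rw [← hlcc, hlcτ]
  have hω : ∀ σ : G, σ • (τ g / g) = ζ ^ (-(a σ)) * (τ g / g) := by
    intro σ
    refine s44k_omega τ hτG hζ0 hyτ hg0 a (fun σ => (lc (y ^ (a σ) * gσ σ))⁻¹) gσ ?_ hgτ ?_ σ
    · intro ρ
      rw [map_inv₀, hlcτ]
    · intro ρ
      show g = (lc (y ^ (a ρ) * gσ ρ))⁻¹ * y ^ (a ρ) * gσ ρ * ρ • g
      have h3 : (lc (y ^ (a ρ) * gσ ρ))⁻¹ * y ^ (a ρ) * gσ ρ * ρ • g =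
          (lc (y ^ (a ρ) * gσ ρ))⁻¹ * (y ^ (a ρ) * gσ ρ) * ρ • g := by ring
      rw [h3]
      exact hg ρ
  obtain ⟨h1, h2⟩ := s44k_split (p := p) τ hζ0 hg0 hβ0 a hβ hω hfvτ hcτ rfl
  exact ⟨g, c, hg0, hc0, hcτ, hfix, h1, h2⟩

end Fin

end Fermat.Agent.S44
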