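/-
S44 (Mazur–Ribet at `p`), cell [H1''] MONO-KUM, THE CONCRETE KUMMER FIELD (helper23; prefix `s44kr_`).

`Eb` a field with an action of a group `G` (in use: `Eb = L'·L₁(X)`, `G = Gal(L'/L₁)` acting on the
coefficients), `fx ∈ Eb` `G`-fixed, `ζ ∈ Eb` a `G`-fixed `p`-th root of unity, `X^p - fx`
irreducible.  We construct `Lb = Eb(y)`, `y^p = fx`, with
* the `G`-action (coefficientwise, `y` fixed), a `MulSemiringAction`;
* the deck transformation `τ : Lb ≃+* Lb`, `τ y = ζ y`, `τ|Eb = id`, commuting with `G`;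
and prove, for ANY realisation `(Lb, y, τ)` (`s44kr_IsReal`):
* the universal property (`s44kr_lift`, `s44kr_hom_ext`), equivariance of lifts;
* faithfulness of the `G`-action;
* `G`-fixed elements of `Lb` are polynomials in `y` with `G`-fixed coefficients (`s44kr_fixed`).
Mathlib only.
-/
import Mathlib
import Fermat.Agent.S44.Mono.KummerFin

set_option autoImplicit false

open Polynomial

namespace Fermat.Agent.S44

universe u v

/-- `(Lb, y, τ)` realises the Kummer extension `y^p = fx` of `Eb`, with its `G`-action and its deck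
transformation `τ`. -/
structure s44kr_IsReal (G : Type v) [Group G] {Eb : Type u} [Field Eb] [MulSemiringAction G Eb]
    (p : ℕ) (ζ fx : Eb) {Lb : Type u} [Field Lb] [Algebra Eb Lb] [MulSemiringAction G Lb]
    (y : Lb) (τ : Lb ≃+* Lb) : Prop where
  y_pow : y ^ p = algebraMap Eb Lb fx
  smul_y : ∀ σ : G, σ • y = y
  smul_algebraMap : ∀ (σ : G) (e : Eb), σ • algebraMap Eb Lb e = algebraMap Eb Lb (σ • e)
  τ_y : τ y = algebraMap Eb Lb ζ * y
  τ_algebraMap : ∀ e : Eb, τ (algebraMap Eb Lb e) = algebraMap Eb Lb e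
  τ_smul : ∀ (σ : G) (z : Lb), τ (σ • z) = σ • τ z
  gen : Algebra.adjoin Eb {y} = ⊤

section Construction

variable {G : Type v} [Group G] {Eb : Type u} [Field Eb] [MulSemiringAction G Eb]

/-- the Kummer polynomial is fixed by `σ` when `fx` is -/
theorem s44kr_map_poly {p : ℕ} {fx : Eb} (σ : G) (hσ : σ • fx = fx) :
    (X ^ p - C fx : Eb[X]).map (MulSemiringAction.toRingEquiv G Eb σ : Eb →+* Eb) =
      X ^ p - C fx := by
  rw [Polynomial.map_sub, Polynomial.map_pow, Polynomial.map_X, Polynomial.map_C]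
  congr 2

/-- the action of `σ` on `AdjoinRoot (X^p - fx)` -/
noncomputable def s44kr_act {p : ℕ} {fx : Eb} (hfx : ∀ σ : G, σ • fx = fx) (σ : G) :
    AdjoinRoot (X ^ p - C fx : Eb[X]) →+* AdjoinRoot (X ^ p - C fx : Eb[X]) :=
  AdjoinRoot.map (MulSemiringAction.toRingEquiv G Eb σ : Eb →+* Eb) _ _
    (by rw [s44kr_map_poly σ (hfx σ)])

theorem s44kr_act_of {p : ℕ} {fx : Eb} (hfx : ∀ σ : G, σ • fx = fx) (σ : G) (e : Eb) :
    s44kr_act hfx σ (AdjoinRoot.of _ e) = AdjoinRoot.of (X ^ p - C fx : Eb[X]) (σ • e) := by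
  rw [s44kr_act, AdjoinRoot.map_of]
  rfl

theorem s44kr_act_root {p : ℕ} {fx : Eb} (hfx : ∀ σ : G, σ • fx = fx) (σ : G) :
    s44kr_act hfx σ (AdjoinRoot.root _) = AdjoinRoot.root (X ^ p - C fx : Eb[X]) := by
  rw [s44kr_act, AdjoinRoot.map_root]

theorem s44kr_act_one {p : ℕ} {fx : Eb} (hfx : ∀ σ : G, σ • fx = fx) :
    s44kr_act (p := p) hfx (1 : G) = RingHom.id _ := by
  apply AdjoinRoot.ringHom_ext
  · ext e
    simp only [RingHom.comp_apply, s44kr_act_of, one_smul, RingHom.id_apply]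
  · rw [s44kr_act_root, RingHom.id_apply]

theorem s44kr_act_mul {p : ℕ} {fx : Eb} (hfx : ∀ σ : G, σ • fx = fx) (σ ρ : G) :
    s44kr_act (p := p) hfx (σ * ρ) = (s44kr_act hfx σ).comp (s44kr_act hfx ρ) := by
  apply AdjoinRoot.ringHom_ext
  · ext e
    simp only [RingHom.comp_apply, s44kr_act_of, mul_smul]
  · rw [RingHom.comp_apply, s44kr_act_root, s44kr_act_root, s44kr_act_root]

/-- the `G`-action on the Kummer field as a `MulSemiringAction` -/
@[instance_reducible]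
noncomputable def s44kr_action {p : ℕ} {fx : Eb} (hfx : ∀ σ : G, σ • fx = fx) :
    MulSemiringAction G (AdjoinRoot (X ^ p - C fx : Eb[X])) where
  smul σ z := s44kr_act hfx σ z
  one_smul z := by
    show s44kr_act hfx 1 z = z
    rw [s44kr_act_one, RingHom.id_apply]
  mul_smul σ ρ z := by
    show s44kr_act hfx (σ * ρ) z = s44kr_act hfx σ (s44kr_act hfx ρ z)
    rw [s44kr_act_mul, RingHom.comp_apply]
  smul_zero σ := map_zero _
  smul_add σ z w := map_add _ z w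
  smul_one σ := map_one _
  smul_mul σ z w := map_mul _ z w

/-- the deck transformation as a ring endomorphism -/
noncomputable def s44kr_tauHom {p : ℕ} {fx : Eb} (ζ : Eb) (hζ : ζ ^ p = 1) :
    AdjoinRoot (X ^ p - C fx : Eb[X]) →+* AdjoinRoot (X ^ p - C fx : Eb[X]) :=
  AdjoinRoot.lift (AdjoinRoot.of _) (AdjoinRoot.of _ ζ * AdjoinRoot.root _) (by
    rw [eval₂_sub, eval₂_pow, eval₂_X, eval₂_C, mul_pow, ← map_pow, hζ, map_one, one_mul]
    have h := AdjoinRoot.eval₂_root (X ^ p - C fx : Eb[X])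
    rw [eval₂_sub, eval₂_pow, eval₂_X, eval₂_C] at h
    exact h)

theorem s44kr_tauHom_of {p : ℕ} {fx : Eb} (ζ : Eb) (hζ : ζ ^ p = 1) (e : Eb) :
    s44kr_tauHom (fx := fx) ζ hζ (AdjoinRoot.of _ e) = AdjoinRoot.of _ e := by
  rw [s44kr_tauHom, AdjoinRoot.lift_of]

theorem s44kr_tauHom_root {p : ℕ} {fx : Eb} (ζ : Eb) (hζ : ζ ^ p = 1) :
    s44kr_tauHom (fx := fx) ζ hζ (AdjoinRoot.root _) = AdjoinRoot.of _ ζ * AdjoinRoot.root _ := by
  rw [s44kr_tauHom, AdjoinRoot.lift_root]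

theorem s44kr_tauHom_comp {p : ℕ} {fx : Eb} (ζ ζ' : Eb) (hζ : ζ ^ p = 1) (hζ' : ζ' ^ p = 1) :
    (s44kr_tauHom (fx := fx) ζ hζ).comp (s44kr_tauHom ζ' hζ') =
      s44kr_tauHom (ζ * ζ') (by rw [mul_pow, hζ, hζ', one_mul]) := by
  apply AdjoinRoot.ringHom_ext
  · ext e
    simp only [RingHom.comp_apply, s44kr_tauHom_of]
  · rw [RingHom.comp_apply, s44kr_tauHom_root, map_mul, s44kr_tauHom_of, s44kr_tauHom_root,
      s44kr_tauHom_root, map_mul]
    ring

theorem s44kr_tauHom_one {p : ℕ} {fx : Eb} :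
    s44kr_tauHom (fx := fx) (p := p) 1 (one_pow p) = RingHom.id _ := by
  apply AdjoinRoot.ringHom_ext
  · ext e
    simp only [RingHom.comp_apply, s44kr_tauHom_of, RingHom.id_apply]
  · rw [s44kr_tauHom_root, map_one, one_mul, RingHom.id_apply]

/-- the deck transformation as a ring automorphism -/
noncomputable def s44kr_tau {p : ℕ} {fx : Eb} (ζ : Eb) (hζ : ζ ^ p = 1) (hp : p ≠ 0) :
    AdjoinRoot (X ^ p - C fx : Eb[X]) ≃+* AdjoinRoot (X ^ p - C fx : Eb[X]) :=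
  have hζ0 : ζ ≠ 0 := by
    rintro rfl
    rw [zero_pow hp] at hζ
    exact zero_ne_one hζ
  have hinv : ζ⁻¹ ^ p = 1 := by rw [inv_pow, hζ, inv_one]
  RingEquiv.ofRingHom (s44kr_tauHom ζ hζ) (s44kr_tauHom ζ⁻¹ hinv)
    (by
      rw [s44kr_tauHom_comp]
      simp only [mul_inv_cancel₀ hζ0]
      exact s44kr_tauHom_one)
    (by
      rw [s44kr_tauHom_comp]
      simp only [inv_mul_cancel₀ hζ0]
      exact s44kr_tauHom_one)

theorem s44kr_tau_apply {p : ℕ} {fx : Eb} (ζ : Eb) (hζ : ζ ^ p = 1) (hp : p ≠ 0)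
    (z : AdjoinRoot (X ^ p - C fx : Eb[X])) :
    s44kr_tau ζ hζ hp z = s44kr_tauHom ζ hζ z := rfl

/-- **Existence of a realisation.** -/
theorem s44kr_exists {p : ℕ} (hp : p ≠ 0) {ζ fx : Eb}
    (hirr : Irreducible (X ^ p - C fx : Eb[X])) (hζ : ζ ^ p = 1)
    (hζG : ∀ σ : G, σ • ζ = ζ) (hfx : ∀ σ : G, σ • fx = fx) :
    ∃ (Lb : Type u) (_ : Field Lb) (_ : Algebra Eb Lb) (_ : MulSemiringAction G Lb) (y : Lb)
      (τ : Lb ≃+* Lb), s44kr_IsReal G p ζ fx y τ := by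
  have : Fact (Irreducible (X ^ p - C fx : Eb[X])) := ⟨hirr⟩
  refine ⟨AdjoinRoot (X ^ p - C fx : Eb[X]), inferInstance, inferInstance, s44kr_action hfx,
    AdjoinRoot.root _, s44kr_tau ζ hζ hp, ?_⟩
  let _ := s44kr_action (p := p) hfx
  have hsm : ∀ (σ : G) (z : AdjoinRoot (X ^ p - C fx : Eb[X])), σ • z = s44kr_act hfx σ z :=
    fun σ z => rfl
  refine ⟨?_, ?_, ?_, ?_, ?_, ?_, ?_⟩
  · have h := AdjoinRoot.eval₂_root (X ^ p - C fx : Eb[X])
    rw [eval₂_sub, eval₂_pow, eval₂_X, eval₂_C, sub_eq_zero] at h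
    exact h
  · intro σ
    rw [hsm, s44kr_act_root]
  · intro σ e
    rw [hsm, AdjoinRoot.algebraMap_eq, s44kr_act_of]
  · rw [s44kr_tau_apply, s44kr_tauHom_root, AdjoinRoot.algebraMap_eq]
  · intro e
    rw [s44kr_tau_apply, AdjoinRoot.algebraMap_eq, s44kr_tauHom_of]
  · intro σ z
    rw [hsm, hsm, s44kr_tau_apply, s44kr_tau_apply]
    have hcomp : (s44kr_tauHom (fx := fx) ζ hζ).comp (s44kr_act hfx σ) =
        (s44kr_act hfx σ).comp (s44kr_tauHom ζ hζ) := by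
      apply AdjoinRoot.ringHom_ext
      · ext e
        simp only [RingHom.comp_apply, s44kr_act_of, s44kr_tauHom_of]
      · rw [RingHom.comp_apply, RingHom.comp_apply, s44kr_act_root, s44kr_tauHom_root, map_mul,
          s44kr_act_of, s44kr_act_root, hζG]
    exact RingHom.congr_fun hcomp z
  · exact AdjoinRoot.adjoinRoot_eq_top

end Construction

section Real

variable {G : Type v} [Group G] {Eb : Type u} [Field Eb] [MulSemiringAction G Eb]
  {p : ℕ} {ζ fx : Eb} {Lb : Type u} [Field Lb] [Algebra Eb Lb] [MulSemiringAction G Lb]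
  {y : Lb} {τ : Lb ≃+* Lb}

/-- ring homomorphisms out of `Lb` are determined on `Eb` and `y` -/
theorem s44kr_hom_ext (h : s44kr_IsReal G p ζ fx y τ) {Ω : Type*} [Semiring Ω] {j j' : Lb →+* Ω}
    (h1 : ∀ e : Eb, j (algebraMap Eb Lb e) = j' (algebraMap Eb Lb e)) (h2 : j y = j' y) :
    j = j' := by
  ext z
  have hz : z ∈ Algebra.adjoin Eb {y} := by rw [h.gen]; exact Algebra.mem_top
  induction hz using Algebra.adjoin_induction with
  | mem x hx =>
    rw [Set.mem_singleton_iff] at hx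
    rw [hx, h2]
  | algebraMap r => exact h1 r
  | add x y' _ _ hx hy => rw [map_add, map_add, hx, hy]
  | mul x y' _ _ hx hy => rw [map_mul, map_mul, hx, hy]

/-- a realisation is `AdjoinRoot (X^p - fx)` -/
noncomputable def s44kr_equiv (h : s44kr_IsReal G p ζ fx y τ)
    (hirr : Irreducible (X ^ p - C fx : Eb[X])) :
    AdjoinRoot (X ^ p - C fx : Eb[X]) ≃ₐ[Eb] Lb :=
  haveI : Fact (Irreducible (X ^ p - C fx : Eb[X])) := ⟨hirr⟩
  let φ : AdjoinRoot (X ^ p - C fx : Eb[X]) →ₐ[Eb] Lb :=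
    AdjoinRoot.liftAlgHom _ (Algebra.ofId Eb Lb) y (by
      rw [eval₂_sub, eval₂_pow, eval₂_X, eval₂_C, h.y_pow]
      exact sub_self _)
  AlgEquiv.ofBijective φ ⟨φ.toRingHom.injective, by
    rw [← AlgHom.range_eq_top, eq_top_iff, ← h.gen]
    apply Algebra.adjoin_le
    rintro x hx
    rw [Set.mem_singleton_iff] at hx
    exact ⟨AdjoinRoot.root _, by rw [hx]; exact AdjoinRoot.liftAlgHom_root _ _ _ _⟩⟩

theorem s44kr_equiv_mk (h : s44kr_IsReal G p ζ fx y τ)
    (hirr : Irreducible (X ^ p - C fx : Eb[X])) (Q : Eb[X]) :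
    s44kr_equiv h hirr (AdjoinRoot.mk _ Q) = eval₂ (algebraMap Eb Lb) y Q := rfl

/-- **universal property**: a `p`-th root of `fx` in an extension gives a homomorphism. -/
theorem s44kr_lift (h : s44kr_IsReal G p ζ fx y τ) (hirr : Irreducible (X ^ p - C fx : Eb[X]))
    {Ω : Type*} [CommRing Ω] (i : Eb →+* Ω) (w : Ω) (hw : w ^ p = i fx) :
    ∃ j : Lb →+* Ω, (∀ e : Eb, j (algebraMap Eb Lb e) = i e) ∧ j y = w := by
  let ψ : AdjoinRoot (X ^ p - C fx : Eb[X]) →+* Ω := AdjoinRoot.lift i w (by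
    rw [eval₂_sub, eval₂_pow, eval₂_X, eval₂_C, hw]
    exact sub_self _)
  refine ⟨ψ.comp (s44kr_equiv h hirr).symm.toAlgHom.toRingHom, ?_, ?_⟩
  · intro e
    have h1 : (s44kr_equiv h hirr).symm (algebraMap Eb Lb e) = AdjoinRoot.of _ e := by
      rw [AlgEquiv.commutes, AdjoinRoot.algebraMap_eq]
    show ψ ((s44kr_equiv h hirr).symm (algebraMap Eb Lb e)) = i e
    rw [h1]
    exact AdjoinRoot.lift_of _
  · have h1 : (s44kr_equiv h hirr).symm y = AdjoinRoot.root _ := by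
      rw [AlgEquiv.symm_apply_eq]
      have := s44kr_equiv_mk h hirr X
      rw [eval₂_X] at this
      exact this.symm
    show ψ ((s44kr_equiv h hirr).symm y) = w
    rw [h1]
    exact AdjoinRoot.lift_root _

/-- homomorphisms out of `Lb` that are equivariant on `Eb` and send `y` to a fixed element are
equivariant. -/
theorem s44kr_hom_equivariant (h : s44kr_IsReal G p ζ fx y τ) {Ω : Type*} [Semiring Ω]
    [MulSemiringAction G Ω] (j : Lb →+* Ω)
    (h1 : ∀ (σ : G) (e : Eb), j (algebraMap Eb Lb (σ • e)) = σ • j (algebraMap Eb Lb e))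
    (h2 : ∀ σ : G, σ • j y = j y) (σ : G) (z : Lb) : j (σ • z) = σ • j z := by
  have hcomp : j.comp (MulSemiringAction.toRingHom G Lb σ) =
      (MulSemiringAction.toRingHom G Ω σ).comp j := by
    apply s44kr_hom_ext h
    · intro e
      simp only [RingHom.comp_apply, MulSemiringAction.toRingHom_apply]
      rw [h.smul_algebraMap, h1]
    · simp only [RingHom.comp_apply, MulSemiringAction.toRingHom_apply]
      rw [h.smul_y, h2]
  exact RingHom.congr_fun hcomp z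

/-- the action on `Lb` is faithful if the action on `Eb` is -/
theorem s44kr_faithful (h : s44kr_IsReal G p ζ fx y τ) [FaithfulSMul G Eb] : FaithfulSMul G Lb := by
  refine ⟨fun {σ ρ} hσρ => ?_⟩
  apply FaithfulSMul.eq_of_smul_eq_smul (α := Eb)
  intro e
  have := hσρ (algebraMap Eb Lb e)
  rw [h.smul_algebraMap, h.smul_algebraMap] at this
  exact (algebraMap Eb Lb).injective this

/-- the action of `σ` on a polynomial expression in `y` -/
theorem s44kr_smul_eval (h : s44kr_IsReal G p ζ fx y τ) (σ : G) (Q : Eb[X]) :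
    σ • eval₂ (algebraMap Eb Lb) y Q =
      eval₂ (algebraMap Eb Lb) y (Q.map (MulSemiringAction.toRingHom G Eb σ)) := by
  have h1 : σ • eval₂ (algebraMap Eb Lb) y Q =
      MulSemiringAction.toRingHom G Lb σ (eval₂ (algebraMap Eb Lb) y Q) := rfl
  rw [h1, Polynomial.hom_eval₂, eval₂_map]
  congr 1
  · ext e
    simp only [RingHom.comp_apply, MulSemiringAction.toRingHom_apply]
    exact h.smul_algebraMap σ e
  · exact h.smul_y σ

/-- **`G`-fixed elements of `Lb` are polynomials in `y` with `G`-fixed coefficients.** -/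
theorem s44kr_fixed (h : s44kr_IsReal G p ζ fx y τ) (hirr : Irreducible (X ^ p - C fx : Eb[X]))
    (hp : p ≠ 0) {E : Type*} [Field E] (ι : E →+* Eb)
    (hE : ∀ e : Eb, (∀ σ : G, σ • e = e) → e ∈ ι.range) (z : Lb) (hz : ∀ σ : G, σ • z = z) :
    ∃ Q : E[X], z = eval₂ ((algebraMap Eb Lb).comp ι) y Q := by
  have hmonic : (X ^ p - C fx : Eb[X]).Monic := monic_X_pow_sub_C fx hp
  obtain ⟨Q₀, hQ₀⟩ := AdjoinRoot.mk_surjective ((s44kr_equiv h hirr).symm z)
  set Q₁ := Q₀ %ₘ (X ^ p - C fx : Eb[X]) with hQ₁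
  have hmk : AdjoinRoot.mk (X ^ p - C fx : Eb[X]) Q₁ = AdjoinRoot.mk _ Q₀ := by
    rw [AdjoinRoot.mk_eq_mk]
    refine ⟨-(Q₀ /ₘ (X ^ p - C fx : Eb[X])), ?_⟩
    have := modByMonic_add_div Q₀ (X ^ p - C fx : Eb[X])
    rw [hQ₁]
    linear_combination this
  have hz1 : z = eval₂ (algebraMap Eb Lb) y Q₁ := by
    rw [← s44kr_equiv_mk h hirr, hmk, hQ₀, AlgEquiv.apply_symm_apply]
  have hdeg : Q₁.degree < (X ^ p - C fx : Eb[X]).degree := degree_modByMonic_lt Q₀ hmonic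
  have hfix : ∀ σ : G, Q₁.map (MulSemiringAction.toRingHom G Eb σ) = Q₁ := by
    intro σ
    have h1 : eval₂ (algebraMap Eb Lb) y (Q₁.map (MulSemiringAction.toRingHom G Eb σ) - Q₁) = 0 := by
      rw [eval₂_sub, ← s44kr_smul_eval h, ← hz1, hz σ, sub_self]
    have h2 : AdjoinRoot.mk (X ^ p - C fx : Eb[X])
        (Q₁.map (MulSemiringAction.toRingHom G Eb σ) - Q₁) = 0 := by
      apply (s44kr_equiv h hirr).injective
      rw [s44kr_equiv_mk, h1, map_zero]
    rw [AdjoinRoot.mk_eq_zero] at h2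
    have h3 : (Q₁.map (MulSemiringAction.toRingHom G Eb σ) - Q₁).degree <
        (X ^ p - C fx : Eb[X]).degree :=
      lt_of_le_of_lt (degree_sub_le _ _) (max_lt (lt_of_le_of_lt (degree_map_le) hdeg) hdeg)
    exact sub_eq_zero.mp (eq_zero_of_dvd_of_degree_lt h2 h3)
  have hlift : Q₁ ∈ Polynomial.lifts ι := by
    rw [Polynomial.lifts_iff_coeff_lifts]
    intro n
    apply hE
    intro σ
    have := congrArg (fun R => R.coeff n) (hfix σ)
    simpa [coeff_map] using this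
  obtain ⟨Q, hQ⟩ := hlift
  refine ⟨Q, ?_⟩
  rw [hz1, ← hQ]
  exact (eval₂_map ι (algebraMap Eb Lb) y).trans rfl

/-- **The Kummer package on a realisation**, all data in `Eb`:
`σ fv = c_σ · fv · fx^{a σ} · g_σ^p` in `Eb`, `β ∈ Eb` a resolvent of `a`, `lc` a leading-coefficient
map on `Lb` with values in `Eb`.  Then `Φ = c · fv · g^p` (`c` a `τ`-fixed constant, `g ∈ Lb`) is
`G`-fixed, `h = (τ g / g) β` is `G`-fixed and `τ Φ = (β^p)⁻¹ h^p Φ`. -/
theorem s44kr_main (h : s44kr_IsReal G p ζ fx y τ) [Finite G] [FaithfulSMul G Eb] (hp : p ≠ 0)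
    (hζ0 : ζ ≠ 0) (hfx0 : fx ≠ 0)
    (lc : Lb →*₀ Lb) (hlcG : ∀ (σ : G) (z : Lb), lc (σ • z) = σ • lc z)
    (hlc : ∀ z, lc (lc z) = lc z) (hμ : ∀ ε : Lb, ε ^ p = 1 → lc ε = ε)
    (hlcE : ∀ z, lc z ∈ (algebraMap Eb Lb).range)
    {fv : Eb} (hfv0 : fv ≠ 0) (a : G → ℤ) (cc gσ : G → Eb) (hcc0 : ∀ σ, cc σ ≠ 0)
    (hgσ0 : ∀ σ, gσ σ ≠ 0)
    (hcc : ∀ σ, lc (algebraMap Eb Lb (cc σ)) = algebraMap Eb Lb (cc σ))
    (hrel : ∀ σ : G, σ • fv = cc σ * fv * fx ^ (a σ) * (gσ σ) ^ p)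
    {β : Eb} (hβ0 : β ≠ 0) (hβ : ∀ σ : G, σ • β = ζ ^ (a σ) * β) :
    ∃ g c : Lb, g ≠ 0 ∧ c ≠ 0 ∧ τ c = c ∧
      (∀ σ : G, σ • (c * algebraMap Eb Lb fv * g ^ p) = c * algebraMap Eb Lb fv * g ^ p) ∧
      (∀ σ : G, σ • (τ g / g * algebraMap Eb Lb β) = τ g / g * algebraMap Eb Lb β) ∧
      τ (c * algebraMap Eb Lb fv * g ^ p) =
        (algebraMap Eb Lb β ^ p)⁻¹ * (τ g / g * algebraMap Eb Lb β) ^ p *
          (c * algebraMap Eb Lb fv * g ^ p) := by
  have := s44kr_faithful h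
  have hinj := (algebraMap Eb Lb).injective
  have hy0 : y ≠ 0 := by
    rintro rfl
    have := h.y_pow
    rw [zero_pow hp] at this
    exact hfx0 (hinj (by rw [map_zero]; exact this.symm))
  refine s44kf_main (p := p) τ h.τ_smul (ζ := algebraMap Eb Lb ζ) (y := y)
    ((_root_.map_ne_zero _).mpr hζ0) hy0 h.τ_y lc hlcG hlc hμ ?_
    ((_root_.map_ne_zero _).mpr hfv0) (h.τ_algebraMap fv) a (fun σ => algebraMap Eb Lb (cc σ))
    (fun σ => algebraMap Eb Lb (gσ σ)) (fun σ => (_root_.map_ne_zero _).mpr (hcc0 σ))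
    (fun σ => (_root_.map_ne_zero _).mpr (hgσ0 σ)) hcc (fun σ => h.τ_algebraMap _) ?_
    ((_root_.map_ne_zero _).mpr hβ0) ?_
  · intro z
    obtain ⟨e, he⟩ := hlcE z
    rw [← he, h.τ_algebraMap]
  · intro σ
    rw [h.smul_algebraMap, hrel σ, map_mul, map_mul, map_mul, map_pow, map_zpow₀, mul_pow,
      ← h.y_pow, mul_assoc (algebraMap Eb Lb (cc σ) * algebraMap Eb Lb fv)]
    congr 2
    rw [← zpow_natCast (y ^ (a σ)) p, ← zpow_mul, mul_comm, zpow_mul, zpow_natCast]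
  · intro σ
    rw [h.smul_algebraMap, hβ σ, map_mul, map_zpow₀]

end Real

end Fermat.Agent.S44
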