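/-
Project S44 (Mazur–Ribet at `p`), cell [H2] MONO-MAIN, SUB [H2-K] KUM-Ω (helper23).  Prefix `s44kq_`.

THE KUMMER PACKAGE INSIDE A BIG FIELD `Ω` (in use: `Ω = L'((q))` with `G ≤ Gal(L'/ℚ)` acting on the
coefficients, `E = L'(X)` the function field, `y ∈ Ω` the `p`-th root series of `f_x`).

`E ≤ Ω` a `G`-stable subfield, `ζ ∈ E` a primitive `p`-th root of unity with `σ ζ = ζ ^ k σ`,
`y ∈ Ω` with `y ^ p ∈ E` not a `p`-th power in `E` and `σ (y ^ p) = (e_σ y ^ {k σ}) ^ p`.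
Then `Lb := E(y)` is `G`-stable, the deck transformation `τ` (`τ y = ζ y`, `τ|_E = id`) exists,
commutes with `G`, has fixed field `E` and order `p`; and for `fv ∈ E` with
`σ fv = c_σ · fv · (y ^ p) ^ {a σ} · g_σ ^ p` and a resolvent `β` (`σ β = ζ ^ {a σ} β`) the
conclusion of `s44kf_main` holds: `Φ = c · fv · g ^ p` and `h = (τ g / g) β` are `G`-fixed and
`τ Φ · β ^ p = h ^ p · Φ`.
-/
import Mathlib
import Fermat.Agent.S44.Mono.KummerFin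
import Fermat.Agent.S44.Mono.KummerReal

set_option autoImplicit false
set_option linter.style.haveILetI false

noncomputable section

namespace Fermat.Agent.S44

open Polynomial

variable {Ω : Type*} [Field Ω] {G : Type*} [Group G] [MulSemiringAction G Ω]

/-- polynomial values stay in a subfield -/
theorem s44kq_eval₂_mem {K : Type*} [Semiring K] (S : Subfield Ω) (f : K →+* Ω) (x : Ω)
    (hf : ∀ e, f e ∈ S) (hx : x ∈ S) (R : K[X]) : eval₂ f x R ∈ S := by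
  rw [eval₂_eq_sum_range]
  exact S.sum_mem fun i _ => S.mul_mem (hf _) (S.pow_mem hx i)

/-- two `p`-th roots differ by a power of `ζ`. -/
theorem s44kq_root_eq {p : ℕ} (hp : 0 < p) {ζ : Ω} (hζ : IsPrimitiveRoot ζ p) {x w : Ω}
    (hw : w ≠ 0) (h : x ^ p = w ^ p) : ∃ i : ℕ, x = ζ ^ i * w := by
  have h1 : (x / w) ^ p = 1 := by rw [div_pow, h, div_self (pow_ne_zero _ hw)]
  have : NeZero p := ⟨hp.ne'⟩
  obtain ⟨i, -, hi⟩ := hζ.eq_pow_of_pow_eq_one h1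
  exact ⟨i, by rw [hi, div_mul_cancel₀ _ hw]⟩

/-! ### The field `Lb = E(y)` as the image of `E[X] / (X ^ p - y ^ p)` -/

section Build

variable (E : Subfield Ω) {p : ℕ} (y : Ω) (hyE : y ^ p ∈ E)

/-- the Kummer polynomial `X ^ p - y ^ p` over `E` -/
abbrev s44kq_P : (↥E)[X] := X ^ p - C (⟨y ^ p, hyE⟩ : ↥E)

/-- the evaluation `E[X] / (X ^ p - y ^ p) → Ω`, `X ↦ y` -/
def s44kq_phi : AdjoinRoot (s44kq_P E y hyE) →+* Ω :=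
  AdjoinRoot.lift E.subtype y (by
    rw [eval₂_sub, eval₂_pow, eval₂_X, eval₂_C]
    exact sub_self _)

theorem s44kq_phi_of (e : ↥E) : s44kq_phi E y hyE (AdjoinRoot.of _ e) = (e : Ω) := by
  rw [s44kq_phi, AdjoinRoot.lift_of]; rfl

theorem s44kq_phi_root : s44kq_phi E y hyE (AdjoinRoot.root _) = y := by
  rw [s44kq_phi, AdjoinRoot.lift_root]

theorem s44kq_phi_mk (R : (↥E)[X]) :
    s44kq_phi E y hyE (AdjoinRoot.mk _ R) = eval₂ E.subtype y R := by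
  rw [s44kq_phi, AdjoinRoot.lift_mk]

variable [Fact (Irreducible (s44kq_P E y hyE))]

/-- `Lb = E(y)` -/
def s44kq_Lb : Subfield Ω := (s44kq_phi E y hyE).fieldRange

theorem s44kq_le_Lb : E ≤ s44kq_Lb E y hyE := fun e he =>
  ⟨AdjoinRoot.of _ ⟨e, he⟩, s44kq_phi_of E y hyE ⟨e, he⟩⟩

theorem s44kq_y_mem : y ∈ s44kq_Lb E y hyE := ⟨AdjoinRoot.root _, s44kq_phi_root E y hyE⟩

theorem s44kq_gen {z : Ω} (hz : z ∈ s44kq_Lb E y hyE) :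
    ∃ R : (↥E)[X], z = eval₂ E.subtype y R := by
  obtain ⟨w, rfl⟩ := hz
  obtain ⟨R, rfl⟩ := AdjoinRoot.mk_surjective w
  exact ⟨R, s44kq_phi_mk E y hyE R⟩

theorem s44kq_eval₂_mem_Lb (R : (↥E)[X]) : eval₂ E.subtype y R ∈ s44kq_Lb E y hyE :=
  ⟨AdjoinRoot.mk _ R, s44kq_phi_mk E y hyE R⟩

/-- `Lb` is stable under `G` as soon as `E` is and `σ y ∈ Lb`. -/
theorem s44kq_stable (hE : ∀ (σ : G), ∀ x ∈ E, σ • x ∈ E)
    (hy : ∀ σ : G, σ • y ∈ s44kq_Lb E y hyE) (σ : G) {z : Ω} (hz : z ∈ s44kq_Lb E y hyE) :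
    σ • z ∈ s44kq_Lb E y hyE := by
  obtain ⟨R, rfl⟩ := s44kq_gen E y hyE hz
  have h1 : σ • eval₂ E.subtype y R =
      eval₂ ((MulSemiringAction.toRingHom G Ω σ).comp E.subtype) (σ • y) R :=
    hom_eval₂ R E.subtype (MulSemiringAction.toRingHom G Ω σ) y
  rw [h1]
  exact s44kq_eval₂_mem _ _ _ (fun e => s44kq_le_Lb E y hyE (hE σ _ e.2)) (hy σ) R

/-- the isomorphism `E[X] / (X ^ p - y ^ p) ≃ Lb` -/
def s44kq_psi : AdjoinRoot (s44kq_P E y hyE) ≃+* ↥(s44kq_Lb E y hyE) :=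
  (s44kq_phi E y hyE).rangeRestrictFieldEquiv

theorem s44kq_psi_coe (w : AdjoinRoot (s44kq_P E y hyE)) :
    ((s44kq_psi E y hyE w : ↥(s44kq_Lb E y hyE)) : Ω) = s44kq_phi E y hyE w := rfl

variable {ζ : Ω} (hζE : ζ ∈ E) (hζp : ζ ^ p = 1) (hp0 : p ≠ 0)

/-- the deck transformation of `Lb / E`: `τ y = ζ y`. -/
def s44kq_tau : ↥(s44kq_Lb E y hyE) ≃+* ↥(s44kq_Lb E y hyE) :=
  (s44kq_psi E y hyE).symm.trans
    ((s44kr_tau (fx := (⟨y ^ p, hyE⟩ : ↥E)) (⟨ζ, hζE⟩ : ↥E) (Subtype.ext hζp) hp0).trans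
      (s44kq_psi E y hyE))

theorem s44kq_tau_psi (w : AdjoinRoot (s44kq_P E y hyE)) :
    s44kq_tau E y hyE hζE hζp hp0 (s44kq_psi E y hyE w) =
      s44kq_psi E y hyE (s44kr_tauHom (fx := (⟨y ^ p, hyE⟩ : ↥E)) (⟨ζ, hζE⟩ : ↥E)
        (Subtype.ext hζp) w) := by
  rw [s44kq_tau, RingEquiv.trans_apply, RingEquiv.trans_apply, RingEquiv.symm_apply_apply,
    s44kr_tau_apply]

theorem s44kq_tau_E (z : ↥(s44kq_Lb E y hyE)) (hz : (z : Ω) ∈ E) :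
    s44kq_tau E y hyE hζE hζp hp0 z = z := by
  have h1 : z = s44kq_psi E y hyE (AdjoinRoot.of _ ⟨(z : Ω), hz⟩) :=
    Subtype.ext (by rw [s44kq_psi_coe, s44kq_phi_of])
  rw [h1, s44kq_tau_psi]
  congr 1
  exact s44kr_tauHom_of _ _ _

theorem s44kq_tau_y :
    ((s44kq_tau E y hyE hζE hζp hp0 ⟨y, s44kq_y_mem E y hyE⟩ : ↥(s44kq_Lb E y hyE)) : Ω) =
      ζ * y := by
  have h1 : (⟨y, s44kq_y_mem E y hyE⟩ : ↥(s44kq_Lb E y hyE)) =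
      s44kq_psi E y hyE (AdjoinRoot.root _) :=
    Subtype.ext (by rw [s44kq_psi_coe, s44kq_phi_root])
  rw [h1, s44kq_tau_psi, s44kq_psi_coe]
  have h2 := s44kr_tauHom_root (fx := (⟨y ^ p, hyE⟩ : ↥E)) (⟨ζ, hζE⟩ : ↥E) (Subtype.ext hζp)
  rw [show s44kr_tauHom (fx := (⟨y ^ p, hyE⟩ : ↥E)) (⟨ζ, hζE⟩ : ↥E) (Subtype.ext hζp)
    (AdjoinRoot.root (s44kq_P E y hyE)) = _ from h2, map_mul]
  erw [s44kq_phi_of, s44kq_phi_root]

/-- ring homomorphisms out of `Lb = E(y)` are determined on `E` and `y`. -/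
theorem s44kq_hom_ext {S : Type*} [Semiring S] {f g : ↥(s44kq_Lb E y hyE) →+* S}
    (hfgE : ∀ z : ↥(s44kq_Lb E y hyE), (z : Ω) ∈ E → f z = g z)
    (hfgy : f ⟨y, s44kq_y_mem E y hyE⟩ = g ⟨y, s44kq_y_mem E y hyE⟩) : f = g := by
  have h1 : f.comp (s44kq_psi E y hyE).toRingHom = g.comp (s44kq_psi E y hyE).toRingHom := by
    apply AdjoinRoot.ringHom_ext
    · ext e
      simp only [RingHom.comp_apply, RingEquiv.toRingHom_eq_coe, RingEquiv.coe_toRingHom]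
      apply hfgE
      rw [s44kq_psi_coe, s44kq_phi_of]
      exact e.2
    · simp only [RingHom.comp_apply, RingEquiv.toRingHom_eq_coe, RingEquiv.coe_toRingHom]
      have h2 : s44kq_psi E y hyE (AdjoinRoot.root _) = ⟨y, s44kq_y_mem E y hyE⟩ :=
        Subtype.ext (by rw [s44kq_psi_coe, s44kq_phi_root])
      rw [h2, hfgy]
  ext z
  obtain ⟨w, rfl⟩ := (s44kq_psi E y hyE).surjective z
  exact congrArg (fun F => F w) h1

/-- `τ` has order dividing `p`. -/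
theorem s44kq_tau_pow (z : ↥(s44kq_Lb E y hyE)) :
    (⇑(s44kq_tau E y hyE hζE hζp hp0))^[p] z = z := by
  have hE : ∀ (j : ℕ) (z : ↥(s44kq_Lb E y hyE)), (z : Ω) ∈ E →
      ((s44kq_tau E y hyE hζE hζp hp0).toRingHom ^ j) z = z := by
    intro j
    induction j with
    | zero => intro z _; rfl
    | succ j ih =>
      intro z hz
      rw [pow_succ]
      show ((s44kq_tau E y hyE hζE hζp hp0).toRingHom ^ j)
        ((s44kq_tau E y hyE hζE hζp hp0) z) = z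
      rw [s44kq_tau_E E y hyE hζE hζp hp0 z hz, ih z hz]
  have hy : ∀ j : ℕ, ((s44kq_tau E y hyE hζE hζp hp0).toRingHom ^ j)
      ⟨y, s44kq_y_mem E y hyE⟩ =
        (⟨ζ, s44kq_le_Lb E y hyE hζE⟩ : ↥(s44kq_Lb E y hyE)) ^ j * ⟨y, s44kq_y_mem E y hyE⟩ := by
    intro j
    induction j with
    | zero => rw [pow_zero, pow_zero, one_mul]; rfl
    | succ j ih =>
      rw [pow_succ']
      show (s44kq_tau E y hyE hζE hζp hp0)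
        (((s44kq_tau E y hyE hζE hζp hp0).toRingHom ^ j) ⟨y, s44kq_y_mem E y hyE⟩) = _
      rw [ih, map_mul, map_pow,
        s44kq_tau_E E y hyE hζE hζp hp0 ⟨ζ, s44kq_le_Lb E y hyE hζE⟩ hζE]
      have h3 : (s44kq_tau E y hyE hζE hζp hp0) ⟨y, s44kq_y_mem E y hyE⟩ =
          (⟨ζ, s44kq_le_Lb E y hyE hζE⟩ : ↥(s44kq_Lb E y hyE)) * ⟨y, s44kq_y_mem E y hyE⟩ :=
        Subtype.ext (s44kq_tau_y E y hyE hζE hζp hp0)
      rw [h3, pow_succ]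
      ring
  have h1 : (s44kq_tau E y hyE hζE hζp hp0).toRingHom ^ p = RingHom.id _ := by
    apply s44kq_hom_ext E y hyE
    · intro z hz
      rw [hE p z hz, RingHom.id_apply]
    · rw [hy p, RingHom.id_apply]
      have h4 : (⟨ζ, s44kq_le_Lb E y hyE hζE⟩ : ↥(s44kq_Lb E y hyE)) ^ p = 1 :=
        Subtype.ext hζp
      rw [h4, one_mul]
  have h2 := congrArg (fun F : ↥(s44kq_Lb E y hyE) →+* ↥(s44kq_Lb E y hyE) => F z) h1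
  simp only [RingHom.id_apply] at h2
  rw [RingHom.coe_pow] at h2
  exact h2

theorem s44kq_tauHom_mk (Q : (↥E)[X]) :
    s44kr_tauHom (fx := (⟨y ^ p, hyE⟩ : ↥E)) (⟨ζ, hζE⟩ : ↥E) (Subtype.ext hζp)
      (AdjoinRoot.mk (s44kq_P E y hyE) Q) =
      AdjoinRoot.mk (s44kq_P E y hyE) (Q.comp (C (⟨ζ, hζE⟩ : ↥E) * X)) := by
  rw [s44kr_tauHom, AdjoinRoot.lift_mk, comp, hom_eval₂]
  congr 1

/-- **the fixed field of `τ` is `E`.** -/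
theorem s44kq_tau_fixed (hζ : IsPrimitiveRoot ζ p) (z : ↥(s44kq_Lb E y hyE))
    (hz : s44kq_tau E y hyE hζE hζp hp0 z = z) : (z : Ω) ∈ E := by
  have hmonic : (s44kq_P E y hyE).Monic := monic_X_pow_sub_C _ hp0
  have hdegP : (s44kq_P E y hyE).degree = p := degree_X_pow_sub_C (Nat.pos_of_ne_zero hp0) _
  obtain ⟨w, rfl⟩ := (s44kq_psi E y hyE).surjective z
  obtain ⟨Q₀, rfl⟩ := AdjoinRoot.mk_surjective w
  set Q₁ := Q₀ %ₘ s44kq_P E y hyE with hQ₁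
  have hmk : AdjoinRoot.mk (s44kq_P E y hyE) Q₁ = AdjoinRoot.mk _ Q₀ := by
    rw [AdjoinRoot.mk_eq_mk]
    refine ⟨-(Q₀ /ₘ s44kq_P E y hyE), ?_⟩
    have := modByMonic_add_div Q₀ (s44kq_P E y hyE)
    rw [hQ₁]
    linear_combination this
  have hdeg : Q₁.degree < (p : WithBot ℕ) := hdegP ▸ degree_modByMonic_lt Q₀ hmonic
  rw [← hmk] at hz ⊢
  rw [s44kq_tau_psi, s44kq_tauHom_mk E y hyE hζE hζp] at hz
  have h1 := (s44kq_psi E y hyE).injective hz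
  have h2 : AdjoinRoot.mk (s44kq_P E y hyE) (Q₁.comp (C (⟨ζ, hζE⟩ : ↥E) * X) - Q₁) = 0 := by
    rw [map_sub, h1, sub_self]
  rw [AdjoinRoot.mk_eq_zero] at h2
  have hdeg2 : (Q₁.comp (C (⟨ζ, hζE⟩ : ↥E) * X)).degree < (p : WithBot ℕ) := by
    refine lt_of_le_of_lt ?_ hdeg
    rw [degree_le_iff_coeff_zero]
    intro n hn
    rw [comp_C_mul_X_coeff, coeff_eq_zero_of_degree_lt hn, zero_mul]
  have h3 : Q₁.comp (C (⟨ζ, hζE⟩ : ↥E) * X) - Q₁ = 0 :=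
    eq_zero_of_dvd_of_degree_lt h2
      (hdegP ▸ lt_of_le_of_lt (degree_sub_le _ _) (max_lt hdeg2 hdeg))
  have hcoeff : ∀ n : ℕ, n ≠ 0 → Q₁.coeff n = 0 := by
    intro n hn
    by_cases hnp : n < p
    · have h4 := congrArg (fun R => R.coeff n) h3
      simp only [coeff_sub, comp_C_mul_X_coeff, coeff_zero] at h4
      have h5 : Q₁.coeff n * ((⟨ζ, hζE⟩ : ↥E) ^ n - 1) = 0 := by
        rw [mul_sub, mul_one]; exact h4
      rcases mul_eq_zero.1 h5 with h | h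
      · exact h
      · exfalso
        have h6 : ζ ^ n = 1 := by
          have := congrArg Subtype.val (sub_eq_zero.1 h)
          simpa using this
        exact hn (Nat.eq_zero_of_dvd_of_lt ((hζ.pow_eq_one_iff_dvd n).1 h6) hnp)
    · apply coeff_eq_zero_of_degree_lt
      exact lt_of_lt_of_le hdeg (by exact_mod_cast not_lt.1 hnp)
  have hQ : Q₁ = C (Q₁.coeff 0) := by
    ext n
    rcases Nat.eq_zero_or_pos n with rfl | hn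
    · rw [coeff_C_zero]
    · rw [hcoeff n hn.ne', coeff_C, if_neg hn.ne']
  rw [s44kq_psi_coe, s44kq_phi_mk, hQ, eval₂_C]
  exact (Q₁.coeff 0).2

end Build

/-- the Kummer package inside a big field `Ω`. -/
structure s44kq_Pack (E : Subfield Ω) (p : ℕ) (ζ y fv β : Ω) (lc : Ω →*₀ Ω)
    (Lb : Subfield Ω) (τ : ↥Lb ≃+* ↥Lb) (c : Ω) (g Φ h : ↥Lb) : Prop where
  le : E ≤ Lb
  y_mem : y ∈ Lb
  gen : ∀ z ∈ Lb, ∃ R : (↥E)[X], z = eval₂ E.subtype y R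
  stable : ∀ (σ : G), ∀ z ∈ Lb, σ • z ∈ Lb
  τ_E : ∀ z : ↥Lb, (z : Ω) ∈ E → τ z = z
  τ_y : ∀ hy : y ∈ Lb, ((τ ⟨y, hy⟩ : ↥Lb) : Ω) = ζ * y
  τ_smul : ∀ (σ : G) (z : ↥Lb) (hz : σ • (z : Ω) ∈ Lb),
    ((τ ⟨σ • (z : Ω), hz⟩ : ↥Lb) : Ω) = σ • ((τ z : ↥Lb) : Ω)
  τ_fixed : ∀ z : ↥Lb, τ z = z → (z : Ω) ∈ E
  τ_pow : ∀ z : ↥Lb, (⇑τ)^[p] z = z
  g_ne : g ≠ 0
  c_ne : c ≠ 0
  c_lc : lc c = c
  Φ_eq : (Φ : Ω) = c * fv * (g : Ω) ^ p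
  h_eq : (h : Ω) = ((τ g : ↥Lb) : Ω) / g * β
  Φ_fix : ∀ σ : G, σ • (Φ : Ω) = Φ
  h_fix : ∀ σ : G, σ • (h : Ω) = h
  rel : ((τ Φ : ↥Lb) : Ω) * β ^ p = (h : Ω) ^ p * Φ

/-- **[H2-K]**: the Kummer package for `Lb = E(y) ⊆ Ω`. -/
theorem s44kq_main [Finite G] (E : Subfield Ω) (hE : ∀ (σ : G), ∀ x ∈ E, σ • x ∈ E)
    (hfaith : ∀ σ : G, (∀ x ∈ E, σ • x = x) → σ = 1)
    {p : ℕ} (hp : p.Prime) {ζ : Ω} (hζ : IsPrimitiveRoot ζ p) (hζE : ζ ∈ E)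
    (k : G → ℕ) (hk : ∀ σ, σ • ζ = ζ ^ k σ)
    {y : Ω} (hyE : y ^ p ∈ E) (hy0 : y ≠ 0) (hirr : ∀ b ∈ E, b ^ p ≠ y ^ p)
    (hyG : ∀ σ : G, ∃ e ∈ E, σ • (y ^ p) = (e * y ^ k σ) ^ p)
    (lc : Ω →*₀ Ω) (hlcE : ∀ z, lc z ∈ E) (hlcG : ∀ (σ : G) z, lc (σ • z) = σ • lc z)
    (hlc : ∀ z, lc (lc z) = lc z) (hμ : ∀ ε : Ω, ε ^ p = 1 → lc ε = ε)
    {fv : Ω} (hfvE : fv ∈ E) (hfv0 : fv ≠ 0)
    (a : G → ℕ) (cc gσ : G → Ω) (hcc0 : ∀ σ, cc σ ≠ 0) (hcc : ∀ σ, lc (cc σ) = cc σ)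
    (hgE : ∀ σ, gσ σ ∈ E) (hg0 : ∀ σ, gσ σ ≠ 0)
    (hrel : ∀ σ, σ • fv = cc σ * (fv * (y ^ p) ^ a σ) * gσ σ ^ p)
    {β : Ω} (hβ0 : β ≠ 0) (hβE : β ∈ E) (hβ : ∀ σ, σ • β = ζ ^ a σ * β) :
    ∃ (Lb : Subfield Ω) (τ : ↥Lb ≃+* ↥Lb) (c : Ω) (g Φ h : ↥Lb),
      s44kq_Pack (G := G) E p ζ y fv β lc Lb τ c g Φ h := by
  classical
  have hp0 : p ≠ 0 := hp.ne_zero
  have hζp : ζ ^ p = 1 := hζ.pow_eq_one
  have hζ0 : ζ ≠ 0 := hζ.ne_zero hp0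
  have hirrP : Irreducible (s44kq_P E y hyE) :=
    X_pow_sub_C_irreducible_of_prime hp fun b hb => hirr b b.2 (congrArg Subtype.val hb)
  haveI : Fact (Irreducible (s44kq_P E y hyE)) := ⟨hirrP⟩
  have hle := s44kq_le_Lb E y hyE
  have hyLb := s44kq_y_mem E y hyE
  -- the action of `G` on `y`
  have hyG' : ∀ σ : G, ∃ e ∈ E, σ • y = e * y ^ k σ := by
    intro σ
    obtain ⟨e, he, h⟩ := hyG σ
    have hey : e * y ^ k σ ≠ 0 := by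
      intro h0
      rw [h0, zero_pow hp0] at h
      exact pow_ne_zero p hy0 ((smul_eq_zero_iff_eq σ).1 h)
    rw [smul_pow'] at h
    obtain ⟨i, hi⟩ := s44kq_root_eq hp.pos hζ hey h
    exact ⟨ζ ^ i * e, E.mul_mem (E.pow_mem hζE i) he, by rw [hi]; ring⟩
  have hstable : ∀ (σ : G), ∀ z ∈ s44kq_Lb E y hyE, σ • z ∈ s44kq_Lb E y hyE := by
    intro σ z hz
    refine s44kq_stable E y hyE hE (fun ρ => ?_) σ hz
    obtain ⟨e, he, h⟩ := hyG' ρ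
    rw [h]
    exact (s44kq_Lb E y hyE).mul_mem (hle he) ((s44kq_Lb E y hyE).pow_mem hyLb _)
  haveI : IsInvariantSubfield G (s44kq_Lb E y hyE) := ⟨fun σ {x} hx => hstable σ x hx⟩
  have hsmul_coe : ∀ (σ : G) (z : ↥(s44kq_Lb E y hyE)),
      ((σ • z : ↥(s44kq_Lb E y hyE)) : Ω) = σ • (z : Ω) := fun _ _ => rfl
  haveI : FaithfulSMul G ↥(s44kq_Lb E y hyE) := by
    refine ⟨fun {σ ρ} h => ?_⟩
    have h1 : ρ⁻¹ * σ = 1 := by
      apply hfaith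
      intro x hx
      have h2 := congrArg Subtype.val (h ⟨x, hle hx⟩)
      rw [hsmul_coe, hsmul_coe] at h2
      rw [mul_smul, h2, inv_smul_smul]
    exact (inv_mul_eq_one.1 h1).symm
  -- the deck transformation
  set τ := s44kq_tau E y hyE hζE hζp hp0 with hτdef
  have hτE : ∀ z : ↥(s44kq_Lb E y hyE), (z : Ω) ∈ E → τ z = z :=
    s44kq_tau_E E y hyE hζE hζp hp0
  have hτy : τ ⟨y, hyLb⟩ = ⟨ζ, hle hζE⟩ * ⟨y, hyLb⟩ :=
    Subtype.ext (s44kq_tau_y E y hyE hζE hζp hp0)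
  have hτG : ∀ (σ : G) (z : ↥(s44kq_Lb E y hyE)), τ (σ • z) = σ • τ z := by
    intro σ z
    have h1 : τ.toRingHom.comp (MulSemiringAction.toRingHom G ↥(s44kq_Lb E y hyE) σ) =
        (MulSemiringAction.toRingHom G ↥(s44kq_Lb E y hyE) σ).comp τ.toRingHom := by
      apply s44kq_hom_ext E y hyE
      · intro z hz
        simp only [RingHom.comp_apply, MulSemiringAction.toRingHom_apply,
          RingEquiv.toRingHom_eq_coe, RingEquiv.coe_toRingHom]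
        rw [hτE z hz, hτE (σ • z) (by rw [hsmul_coe]; exact hE σ _ hz)]
      · simp only [RingHom.comp_apply, MulSemiringAction.toRingHom_apply,
          RingEquiv.toRingHom_eq_coe, RingEquiv.coe_toRingHom]
        obtain ⟨e, he, h⟩ := hyG' σ
        have h2 : σ • (⟨y, hyLb⟩ : ↥(s44kq_Lb E y hyE)) =
            ⟨e, hle he⟩ * (⟨y, hyLb⟩ : ↥(s44kq_Lb E y hyE)) ^ k σ := Subtype.ext h
        have h3 : σ • (⟨ζ, hle hζE⟩ : ↥(s44kq_Lb E y hyE)) =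
            (⟨ζ, hle hζE⟩ : ↥(s44kq_Lb E y hyE)) ^ k σ := Subtype.ext (hk σ)
        rw [h2, map_mul, map_pow, hτE ⟨e, hle he⟩ he, hτy, smul_mul', h2, h3]
        ring
    have h2 := congrArg (fun F : ↥(s44kq_Lb E y hyE) →+* ↥(s44kq_Lb E y hyE) => F z) h1
    simpa only [RingHom.comp_apply, MulSemiringAction.toRingHom_apply,
      RingEquiv.toRingHom_eq_coe, RingEquiv.coe_toRingHom] using h2
  -- the leading coefficient on `Lb`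
  let lcb : ↥(s44kq_Lb E y hyE) →*₀ ↥(s44kq_Lb E y hyE) :=
    { toFun := fun z => ⟨lc (z : Ω), hle (hlcE _)⟩
      map_zero' := Subtype.ext (map_zero lc)
      map_one' := Subtype.ext (map_one lc)
      map_mul' := fun z w => Subtype.ext (map_mul lc (z : Ω) w) }
  have hlcb_coe : ∀ z, ((lcb z : ↥(s44kq_Lb E y hyE)) : Ω) = lc (z : Ω) := fun _ => rfl
  have hlcbG : ∀ (σ : G) (z : ↥(s44kq_Lb E y hyE)), lcb (σ • z) = σ • lcb z :=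
    fun σ z => Subtype.ext (hlcG σ z)
  have hlcb : ∀ z, lcb (lcb z) = lcb z := fun z => Subtype.ext (hlc z)
  have hμb : ∀ ε : ↥(s44kq_Lb E y hyE), ε ^ p = 1 → lcb ε = ε := fun ε h =>
    Subtype.ext (hμ ε (by
      have := congrArg Subtype.val h
      simpa using this))
  have hlcbτ : ∀ z, τ (lcb z) = lcb z := fun z => hτE _ (hlcE _)
  have hccE : ∀ σ, cc σ ∈ E := fun σ => by rw [← hcc σ]; exact hlcE _
  -- the data as elements of `Lb`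
  have hy0' : (⟨y, hyLb⟩ : ↥(s44kq_Lb E y hyE)) ≠ 0 := fun h => hy0 (congrArg Subtype.val h)
  have hζ0' : (⟨ζ, hle hζE⟩ : ↥(s44kq_Lb E y hyE)) ≠ 0 := fun h => hζ0 (congrArg Subtype.val h)
  have hfv0' : (⟨fv, hle hfvE⟩ : ↥(s44kq_Lb E y hyE)) ≠ 0 :=
    fun h => hfv0 (congrArg Subtype.val h)
  have hβ0' : (⟨β, hle hβE⟩ : ↥(s44kq_Lb E y hyE)) ≠ 0 := fun h => hβ0 (congrArg Subtype.val h)
  have hrel' : ∀ σ : G, σ • (⟨fv, hle hfvE⟩ : ↥(s44kq_Lb E y hyE)) =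
      ⟨cc σ, hle (hccE σ)⟩ * ⟨fv, hle hfvE⟩ *
        ((⟨y, hyLb⟩ : ↥(s44kq_Lb E y hyE)) ^ ((a σ : ℕ) : ℤ) * ⟨gσ σ, hle (hgE σ)⟩) ^ p := by
    intro σ
    apply Subtype.ext
    rw [hsmul_coe]
    show σ • fv = cc σ * fv * (y ^ ((a σ : ℕ) : ℤ) * gσ σ) ^ p
    rw [hrel σ, zpow_natCast, mul_pow, ← pow_mul, ← pow_mul, mul_comm (a σ) p]
    ring
  obtain ⟨g, c, hg0, hc0, hlcc, hfix, hg⟩ := s44kf_exists (p := p) lcb hlcbG hlcb hμb hfv0'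
    (fun σ => (⟨y, hyLb⟩ : ↥(s44kq_Lb E y hyE)) ^ ((a σ : ℕ) : ℤ) * ⟨gσ σ, hle (hgE σ)⟩)
    (fun σ => ⟨cc σ, hle (hccE σ)⟩)
    (fun σ => mul_ne_zero (zpow_ne_zero _ hy0') fun h => hg0 σ (congrArg Subtype.val h))
    (fun σ h => hcc0 σ (congrArg Subtype.val h)) (fun σ => Subtype.ext (hcc σ)) hrel'
  have hcτ : τ c = c := by rw [← hlcc, hlcbτ]
  have hω : ∀ σ : G, σ • (τ g / g) =
      (⟨ζ, hle hζE⟩ : ↥(s44kq_Lb E y hyE)) ^ (-((a σ : ℕ) : ℤ)) * (τ g / g) := by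
    intro σ
    refine s44k_omega τ hτG hζ0' hτy hg0 (fun σ => ((a σ : ℕ) : ℤ))
      (fun σ => (lcb ((⟨y, hyLb⟩ : ↥(s44kq_Lb E y hyE)) ^ ((a σ : ℕ) : ℤ) *
        ⟨gσ σ, hle (hgE σ)⟩))⁻¹)
      (fun σ => ⟨gσ σ, hle (hgE σ)⟩) ?_ (fun ρ => hτE _ (hgE ρ)) ?_ σ
    · intro ρ
      rw [map_inv₀, hlcbτ]
    · intro ρ
      show g = (lcb ((⟨y, hyLb⟩ : ↥(s44kq_Lb E y hyE)) ^ ((a ρ : ℕ) : ℤ) *
        ⟨gσ ρ, hle (hgE ρ)⟩))⁻¹ * (⟨y, hyLb⟩ : ↥(s44kq_Lb E y hyE)) ^ ((a ρ : ℕ) : ℤ) *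
        ⟨gσ ρ, hle (hgE ρ)⟩ * ρ • g
      have h3 : (lcb ((⟨y, hyLb⟩ : ↥(s44kq_Lb E y hyE)) ^ ((a ρ : ℕ) : ℤ) *
          ⟨gσ ρ, hle (hgE ρ)⟩))⁻¹ * (⟨y, hyLb⟩ : ↥(s44kq_Lb E y hyE)) ^ ((a ρ : ℕ) : ℤ) *
          ⟨gσ ρ, hle (hgE ρ)⟩ * ρ • g =
          (lcb ((⟨y, hyLb⟩ : ↥(s44kq_Lb E y hyE)) ^ ((a ρ : ℕ) : ℤ) *
          ⟨gσ ρ, hle (hgE ρ)⟩))⁻¹ * ((⟨y, hyLb⟩ : ↥(s44kq_Lb E y hyE)) ^ ((a ρ : ℕ) : ℤ) *
          ⟨gσ ρ, hle (hgE ρ)⟩) * ρ • g := by ring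
      rw [h3]
      exact hg ρ
  have hβ' : ∀ σ : G, σ • (⟨β, hle hβE⟩ : ↥(s44kq_Lb E y hyE)) =
      (⟨ζ, hle hζE⟩ : ↥(s44kq_Lb E y hyE)) ^ ((a σ : ℕ) : ℤ) * ⟨β, hle hβE⟩ := by
    intro σ
    apply Subtype.ext
    rw [hsmul_coe]
    show σ • β = ζ ^ ((a σ : ℕ) : ℤ) * β
    rw [zpow_natCast, hβ σ]
  obtain ⟨h1, h2⟩ := s44k_split (p := p) τ hζ0' hg0 hβ0' (fun σ => ((a σ : ℕ) : ℤ)) hβ' hω
    (hτE ⟨fv, hle hfvE⟩ hfvE) hcτ (rfl : c * ⟨fv, hle hfvE⟩ * g ^ p = c * ⟨fv, hle hfvE⟩ * g ^ p)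
  refine ⟨s44kq_Lb E y hyE, τ, (c : Ω), g, c * ⟨fv, hle hfvE⟩ * g ^ p,
    τ g / g * ⟨β, hle hβE⟩, ?_⟩
  exact
    { le := hle
      y_mem := hyLb
      gen := fun z hz => s44kq_gen E y hyE hz
      stable := hstable
      τ_E := hτE
      τ_y := fun _ => s44kq_tau_y E y hyE hζE hζp hp0
      τ_smul := fun σ z hz => congrArg Subtype.val (hτG σ z)
      τ_fixed := s44kq_tau_fixed E y hyE hζE hζp hp0 hζ
      τ_pow := s44kq_tau_pow E y hyE hζE hζp hp0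
      g_ne := hg0
      c_ne := fun h => hc0 (Subtype.ext h)
      c_lc := congrArg Subtype.val hlcc
      Φ_eq := rfl
      h_eq := rfl
      Φ_fix := fun σ => congrArg Subtype.val (hfix σ)
      h_fix := fun σ => congrArg Subtype.val (h1 σ)
      rel := by
        have h3 := congrArg Subtype.val h2
        have hβp : β ^ p ≠ 0 := pow_ne_zero _ hβ0
        rw [h3]
        show (β ^ p)⁻¹ * ((τ g / g * ⟨β, hle hβE⟩ : ↥(s44kq_Lb E y hyE)) : Ω) ^ p *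
          ((c * ⟨fv, hle hfvE⟩ * g ^ p : ↥(s44kq_Lb E y hyE)) : Ω) * β ^ p = _
        field_simp }

/-- **[H2-K], degenerate case `X = 0`**: no cover; `σ fv = c_σ · fv · g_σ ^ p` for all `σ` ⟹
`Φ = c · fv · g ^ p` is `G`-fixed for a constant `c` and some `g ∈ E`. -/
theorem s44kq_main_triv [Finite G] (E : Subfield Ω) (hE : ∀ (σ : G), ∀ x ∈ E, σ • x ∈ E)
    (hfaith : ∀ σ : G, (∀ x ∈ E, σ • x = x) → σ = 1) {p : ℕ}
    (lc : Ω →*₀ Ω) (hlcE : ∀ z, lc z ∈ E) (hlcG : ∀ (σ : G) z, lc (σ • z) = σ • lc z)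
    (hlc : ∀ z, lc (lc z) = lc z) (hμ : ∀ ε : Ω, ε ^ p = 1 → lc ε = ε)
    {fv : Ω} (hfvE : fv ∈ E) (hfv0 : fv ≠ 0)
    (cc gσ : G → Ω) (hcc0 : ∀ σ, cc σ ≠ 0) (hcc : ∀ σ, lc (cc σ) = cc σ)
    (hgE : ∀ σ, gσ σ ∈ E) (hg0 : ∀ σ, gσ σ ≠ 0)
    (hrel : ∀ σ, σ • fv = cc σ * fv * gσ σ ^ p) :
    ∃ c g : Ω, g ∈ E ∧ g ≠ 0 ∧ c ≠ 0 ∧ lc c = c ∧
      ∀ σ : G, σ • (c * fv * g ^ p) = c * fv * g ^ p := by
  classical
  haveI : IsInvariantSubfield G E := ⟨fun σ {x} hx => hE σ x hx⟩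
  have hsmul_coe : ∀ (σ : G) (z : ↥E), ((σ • z : ↥E) : Ω) = σ • (z : Ω) := fun _ _ => rfl
  haveI : FaithfulSMul G ↥E := by
    refine ⟨fun {σ ρ} h => ?_⟩
    have h1 : ρ⁻¹ * σ = 1 := by
      apply hfaith
      intro x hx
      have h2 := congrArg Subtype.val (h ⟨x, hx⟩)
      rw [hsmul_coe, hsmul_coe] at h2
      rw [mul_smul, h2, inv_smul_smul]
    exact (inv_mul_eq_one.1 h1).symm
  let lcb : ↥E →*₀ ↥E :=
    { toFun := fun z => ⟨lc (z : Ω), hlcE _⟩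
      map_zero' := Subtype.ext (map_zero lc)
      map_one' := Subtype.ext (map_one lc)
      map_mul' := fun z w => Subtype.ext (map_mul lc (z : Ω) w) }
  have hccE : ∀ σ, cc σ ∈ E := fun σ => by rw [← hcc σ]; exact hlcE _
  obtain ⟨g, c, hg0', hc0, hlcc, hfix, -⟩ := s44kf_exists (p := p) lcb
    (fun σ z => Subtype.ext (hlcG σ z)) (fun z => Subtype.ext (hlc z))
    (fun ε h => Subtype.ext (hμ ε (by
      have := congrArg Subtype.val h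
      simpa using this)))
    (fv := (⟨fv, hfvE⟩ : ↥E)) (fun h => hfv0 (congrArg Subtype.val h))
    (fun σ => (⟨gσ σ, hgE σ⟩ : ↥E)) (fun σ => (⟨cc σ, hccE σ⟩ : ↥E))
    (fun σ h => hg0 σ (congrArg Subtype.val h)) (fun σ h => hcc0 σ (congrArg Subtype.val h))
    (fun σ => Subtype.ext (hcc σ)) (fun σ => Subtype.ext (hrel σ))
  exact ⟨c, g, g.2, fun h => hg0' (Subtype.ext h), fun h => hc0 (Subtype.ext h),
    congrArg Subtype.val hlcc, fun σ => congrArg Subtype.val (hfix σ)⟩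

end Fermat.Agent.S44
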