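/-
Project S44 (Mazur–Ribet at `p`), cell [H2] MONO-MAIN, SUB [H2-K] KUM-Ω, LAYER B (helper23).
Prefix `s44kq_`.

The Laurent-series instance of `Mono/KummerQ.lean`: `Ω = L((q))`, a group `G` acting on the field
`L` acts on `Ω` coefficientwise (`s44kq_lsAction`), the leading coefficient as a constant series
(`s44kq_lc`), `p`-th roots of Laurent series (`s44kq_exists_root`), and `s44kq_main_ls` =
`s44kq_main` with the hypotheses on the action and on `lc` discharged.
-/
import Mathlib
import Fermat.Prelude.Def_ModularCurve_LaurentCoeff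
import Fermat.Agent.S44.Mono.KummerQ

set_option autoImplicit false
set_option linter.style.haveILetI false

noncomputable section

namespace Fermat.Agent.S44

open ModularCurve

section Coeff

variable {R S : Type*} [CommRing R] [CommRing S]

theorem s44kq_coeffMap_eq_zero_iff {φ : R →+* S} (hφ : Function.Injective φ)
    (x : LaurentSeries R) : coeffMap φ x = 0 ↔ x = 0 := by
  constructor
  · intro h
    ext k
    have := congrArg (fun y : LaurentSeries S => y.coeff k) h
    simp only [coeffMap_coeff, HahnSeries.coeff_zero] at this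
    rw [HahnSeries.coeff_zero]
    exact hφ (this.trans (map_zero φ).symm)
  · rintro rfl
    exact map_zero _

theorem s44kq_order_coeffMap {φ : R →+* S} (hφ : Function.Injective φ) (x : LaurentSeries R) :
    (coeffMap φ x).order = x.order := by
  by_cases hx : x = 0
  · rw [hx, map_zero, HahnSeries.order_zero, HahnSeries.order_zero]
  have hx' : coeffMap φ x ≠ 0 := fun h => hx ((s44kq_coeffMap_eq_zero_iff hφ x).mp h)
  apply le_antisymm
  · apply HahnSeries.order_le_of_coeff_ne_zero
    rw [coeffMap_coeff]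
    intro h
    exact hx (HahnSeries.coeff_order_eq_zero.mp (hφ (h.trans (map_zero φ).symm)))
  · apply HahnSeries.order_le_of_coeff_ne_zero
    intro h
    apply hx'
    apply HahnSeries.coeff_order_eq_zero.mp
    rw [coeffMap_coeff, h, map_zero]

theorem s44kq_leadingCoeff_coeffMap {φ : R →+* S} (hφ : Function.Injective φ)
    (x : LaurentSeries R) : (coeffMap φ x).leadingCoeff = φ x.leadingCoeff := by
  rw [HahnSeries.leadingCoeff_eq, HahnSeries.leadingCoeff_eq, s44kq_order_coeffMap hφ,
    coeffMap_coeff]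

end Coeff

section Action

variable {L : Type*} [Field L] {G : Type*} [Group G] [MulSemiringAction G L]

/-- the coefficientwise action of `G` on `L((q))` is Mathlib's scalar action on Hahn series. -/
theorem s44kq_smul_def (σ : G) (z : LaurentSeries L) :
    σ • z = coeffMap (MulSemiringAction.toRingHom G L σ) z := rfl

/-- the coefficientwise action of `G` on `L((q))` (extending Mathlib's `DistribMulAction` on Hahn
series) is by ring automorphisms. -/
@[instance_reducible]
def s44kq_lsAction : MulSemiringAction G (LaurentSeries L) :=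
  { (inferInstance : DistribMulAction G (LaurentSeries L)) with
    smul_one := fun σ => by rw [s44kq_smul_def, map_one]
    smul_mul := fun σ z w => by rw [s44kq_smul_def, s44kq_smul_def, s44kq_smul_def, map_mul] }

attribute [local instance] s44kq_lsAction

theorem s44kq_smul_coeff (σ : G) (z : LaurentSeries L) (n : ℤ) :
    (σ • z).coeff n = σ • z.coeff n := rfl

theorem s44kq_smul_algebraMap (σ : G) (c : L) :
    σ • algebraMap L (LaurentSeries L) c = algebraMap L (LaurentSeries L) (σ • c) := by
  show coeffMap (MulSemiringAction.toRingHom G L σ) (algebraMap L (LaurentSeries L) c) = _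
  rw [coeffMap_algebraMap]
  rfl

end Action

section Lc

variable (L : Type*) [Field L]

/-- the leading coefficient as a constant series. -/
def s44kq_lc : LaurentSeries L →*₀ LaurentSeries L where
  toFun z := algebraMap L (LaurentSeries L) z.leadingCoeff
  map_zero' := by rw [HahnSeries.leadingCoeff_zero, map_zero]
  map_one' := by rw [HahnSeries.leadingCoeff_one, map_one]
  map_mul' z w := by rw [HahnSeries.leadingCoeff_mul, map_mul]

variable {L}

theorem s44kq_lc_apply (z : LaurentSeries L) :
    s44kq_lc L z = algebraMap L (LaurentSeries L) z.leadingCoeff := rfl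

theorem s44kq_lc_mem (E : IntermediateField L (LaurentSeries L)) (z : LaurentSeries L) :
    s44kq_lc L z ∈ E := E.algebraMap_mem _

theorem s44kq_leadingCoeff_algebraMap (c : L) :
    (algebraMap L (LaurentSeries L) c).leadingCoeff = c := by
  rw [algebraMap_laurentSeries_eq_single, HahnSeries.leadingCoeff_of_single]

theorem s44kq_lc_algebraMap (c : L) :
    s44kq_lc L (algebraMap L (LaurentSeries L) c) = algebraMap L (LaurentSeries L) c := by
  rw [s44kq_lc_apply, s44kq_leadingCoeff_algebraMap]

theorem s44kq_lc_lc (z : LaurentSeries L) : s44kq_lc L (s44kq_lc L z) = s44kq_lc L z :=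
  s44kq_lc_algebraMap _

variable {G : Type*} [Group G] [MulSemiringAction G L]

attribute [local instance] s44kq_lsAction

theorem s44kq_lc_smul (σ : G) (z : LaurentSeries L) :
    s44kq_lc L (σ • z) = σ • s44kq_lc L z := by
  rw [s44kq_lc_apply, s44kq_lc_apply, s44kq_smul_algebraMap]
  congr 1
  exact s44kq_leadingCoeff_coeffMap (φ := MulSemiringAction.toRingHom G L σ)
    (MulAction.injective σ) z

theorem s44kq_lc_root_of_unity {p : ℕ} (hp : 0 < p) {ζ : L} (hζ : IsPrimitiveRoot ζ p)
    {ε : LaurentSeries L} (hε : ε ^ p = 1) : s44kq_lc L ε = ε := by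
  have hζΩ : IsPrimitiveRoot (algebraMap L (LaurentSeries L) ζ) p :=
    hζ.map_of_injective (algebraMap L (LaurentSeries L)).injective
  obtain ⟨i, hi⟩ := s44kq_root_eq hp hζΩ one_ne_zero (hε.trans (one_pow p).symm)
  rw [hi, mul_one, ← map_pow, s44kq_lc_algebraMap]

end Lc

section Root

variable {L : Type*} [Field L]

/-- `p`-th roots of `1`-units of `L⟦q⟧` (Hensel's lemma). -/
theorem s44kq_ps_root {p : ℕ} (hp0 : p ≠ 0) (hpL : (p : L) ≠ 0) (u : PowerSeries L)
    (hu : PowerSeries.constantCoeff u = 1) :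
    ∃ w : PowerSeries L, w ^ p = u ∧ PowerSeries.constantCoeff w = 1 := by
  have hH : HenselianRing (PowerSeries L) (Ideal.span {PowerSeries.X}) := inferInstance
  have hmem : ∀ φ : PowerSeries L, φ ∈ Ideal.span {(PowerSeries.X : PowerSeries L)} ↔
      PowerSeries.constantCoeff φ = 0 := by
    intro φ
    rw [Ideal.mem_span_singleton, PowerSeries.X_dvd_iff]
  obtain ⟨w, hw, hw1⟩ := hH.is_henselian (Polynomial.X ^ p - Polynomial.C u)
    (Polynomial.monic_X_pow_sub_C u hp0) 1
    (by
      rw [Polynomial.eval_sub, Polynomial.eval_pow, Polynomial.eval_X, Polynomial.eval_C, one_pow,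
        hmem, map_sub, map_one, hu, sub_self])
    (by
      apply IsUnit.map
      rw [Polynomial.derivative_sub, Polynomial.derivative_X_pow, Polynomial.derivative_C, sub_zero,
        Polynomial.eval_mul, Polynomial.eval_pow, Polynomial.eval_X, one_pow, mul_one,
        Polynomial.eval_C, PowerSeries.isUnit_iff_constantCoeff, map_natCast]
      exact isUnit_iff_ne_zero.2 hpL)
  refine ⟨w, ?_, ?_⟩
  · rw [Polynomial.IsRoot, Polynomial.eval_sub, Polynomial.eval_pow, Polynomial.eval_X,
      Polynomial.eval_C] at hw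
    exact sub_eq_zero.1 hw
  · rw [hmem, map_sub, map_one] at hw1
    exact sub_eq_zero.1 hw1

/-- **`p`-th roots of Laurent series**: order divisible by `p`, leading coefficient a `p`-th
power, `p ≠ 0` in `L`. -/
theorem s44kq_exists_root {p : ℕ} (hp0 : p ≠ 0) (hpL : (p : L) ≠ 0) {z : LaurentSeries L}
    (hz : z ≠ 0) (hord : (p : ℤ) ∣ z.order) (hlc : ∃ κ : L, κ ^ p = z.leadingCoeff) :
    ∃ y : LaurentSeries L, y ^ p = z := by
  obtain ⟨m, hm⟩ := hord
  obtain ⟨κ, hκ⟩ := hlc
  have hc0 : z.leadingCoeff ≠ 0 := HahnSeries.leadingCoeff_ne_zero.2 hz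
  have hpsp : PowerSeries.constantCoeff z.powerSeriesPart = z.leadingCoeff := by
    rw [← PowerSeries.coeff_zero_eq_constantCoeff_apply, LaurentSeries.powerSeriesPart_coeff,
      HahnSeries.leadingCoeff_eq]
    simp
  obtain ⟨w, hw, -⟩ := s44kq_ps_root hp0 hpL
    (PowerSeries.C z.leadingCoeff⁻¹ * z.powerSeriesPart)
    (by rw [map_mul, PowerSeries.constantCoeff_C, hpsp, inv_mul_cancel₀ hc0])
  refine ⟨HahnSeries.single m κ * (w : LaurentSeries L), ?_⟩
  have h1 : ((w : LaurentSeries L)) ^ p =
      ((PowerSeries.C z.leadingCoeff⁻¹ * z.powerSeriesPart : PowerSeries L) : LaurentSeries L) := by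
    rw [← hw]
    exact (map_pow (HahnSeries.ofPowerSeries ℤ L) w p).symm
  rw [mul_pow, h1, HahnSeries.single_pow, hκ]
  conv_rhs => rw [← LaurentSeries.single_order_mul_powerSeriesPart z]
  rw [hm, nsmul_eq_mul]
  have h2 : ((PowerSeries.C z.leadingCoeff⁻¹ * z.powerSeriesPart : PowerSeries L) :
      LaurentSeries L) = HahnSeries.single 0 z.leadingCoeff⁻¹ *
        (z.powerSeriesPart : LaurentSeries L) := by
    rw [PowerSeries.coe_mul, PowerSeries.coe_C]
    rfl
  rw [h2, ← mul_assoc, HahnSeries.single_mul_single, add_zero, mul_inv_cancel₀ hc0]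

end Root

section MainLS

variable {L : Type*} [Field L] {G : Type*} [Group G] [MulSemiringAction G L]

attribute [local instance] s44kq_lsAction

/-- **[H2-K] for `Ω = L((q))`**: `s44kq_main` with the coefficientwise action and the leading
coefficient map filled in. -/
theorem s44kq_main_ls [Finite G] [FaithfulSMul G L] (E : IntermediateField L (LaurentSeries L))
    (hE : ∀ (σ : G), ∀ x ∈ E, coeffMap (MulSemiringAction.toRingHom G L σ) x ∈ E)
    {p : ℕ} (hp : p.Prime) {ζ : L} (hζ : IsPrimitiveRoot ζ p)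
    (k : G → ℕ) (hk : ∀ σ : G, σ • ζ = ζ ^ k σ)
    {y : LaurentSeries L} (hyE : y ^ p ∈ E) (hy0 : y ≠ 0) (hirr : ∀ b ∈ E, b ^ p ≠ y ^ p)
    (hyG : ∀ σ : G, ∃ e ∈ E,
      coeffMap (MulSemiringAction.toRingHom G L σ) (y ^ p) = (e * y ^ k σ) ^ p)
    {fv : LaurentSeries L} (hfvE : fv ∈ E) (hfv0 : fv ≠ 0)
    (a : G → ℕ) (cc : G → L) (gσ : G → LaurentSeries L) (hcc0 : ∀ σ, cc σ ≠ 0)
    (hgE : ∀ σ, gσ σ ∈ E) (hg0 : ∀ σ, gσ σ ≠ 0)
    (hrel : ∀ σ : G, coeffMap (MulSemiringAction.toRingHom G L σ) fv =
      algebraMap L (LaurentSeries L) (cc σ) * (fv * (y ^ p) ^ a σ) * gσ σ ^ p)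
    {β : L} (hβ0 : β ≠ 0) (hβ : ∀ σ : G, σ • β = ζ ^ a σ * β) :
    ∃ (Lb : Subfield (LaurentSeries L)) (τ : ↥Lb ≃+* ↥Lb) (c : LaurentSeries L) (g Φ h : ↥Lb),
      s44kq_Pack (G := G) E.toSubfield p (algebraMap L (LaurentSeries L) ζ) y fv
        (algebraMap L (LaurentSeries L) β) (s44kq_lc L) Lb τ c g Φ h := by
  have hinj : Function.Injective (algebraMap L (LaurentSeries L)) :=
    (algebraMap L (LaurentSeries L)).injective
  refine s44kq_main (G := G) E.toSubfield hE ?_ hp (hζ.map_of_injective hinj)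
    (E.algebraMap_mem ζ) k ?_ hyE hy0 hirr hyG (s44kq_lc L) (s44kq_lc_mem E)
    (fun σ z => s44kq_lc_smul σ z) s44kq_lc_lc
    (fun ε hε => s44kq_lc_root_of_unity hp.pos hζ hε) hfvE hfv0 a
    (fun σ => algebraMap L (LaurentSeries L) (cc σ)) gσ
    (fun σ => (_root_.map_ne_zero _).2 (hcc0 σ)) (fun σ => s44kq_lc_algebraMap _) hgE hg0 hrel
    ((_root_.map_ne_zero _).2 hβ0) (E.algebraMap_mem β) ?_
  · intro σ hσ
    have h1 : ∀ c : L, σ • c = (1 : G) • c := by
      intro c
      have h2 := hσ _ (E.algebraMap_mem c)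
      rw [s44kq_smul_algebraMap] at h2
      rw [one_smul]
      exact hinj h2
    exact FaithfulSMul.eq_of_smul_eq_smul h1
  · intro σ
    rw [s44kq_smul_algebraMap, hk σ, map_pow]
  · intro σ
    rw [s44kq_smul_algebraMap, hβ σ, map_mul, map_pow]

end MainLS

end Fermat.Agent.S44
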