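/-
Project S44 (Mazur–Ribet at `p`), cell [H2] MONO-MAIN, SUB [H2-K] KUM-Ω, LAYER C (helper23).
Prefix `s44kq_`.

TRANSPORT of the Kummer package along a field embedding `ι : Ω₁ → Ω₂` (in use: the coefficientwise
base change `L'₁((q)) → L'₂((q))` for number fields `L'₁ ⊆ L'₂`): if `(Lb₂, τ₂)` is the Kummer
field `E₂(ι y)` with its deck transformation over a bigger base `E₂ ⊇ ι E₁`, then `ι Lb₁ ⊆ Lb₂`,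
`τ₂ ∘ ι = ι ∘ τ₁` on `Lb₁`, and the relation `τ Φ · β ^ p = h ^ p · Φ` is transported.
-/
import Mathlib
import Fermat.Agent.S44.Mono.KummerQ

set_option autoImplicit false

noncomputable section

namespace Fermat.Agent.S44

open Polynomial

section HomExt

variable {Ω : Type*} [Field Ω] {E Lb : Subfield Ω} {y : Ω}

/-- ring homomorphisms out of `Lb = E(y)` are determined on `E` and `y` (from the generation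
clause of the package). -/
theorem s44kq_gen_hom_ext (hle : E ≤ Lb) (hy : y ∈ Lb)
    (hgen : ∀ z ∈ Lb, ∃ R : (↥E)[X], z = eval₂ E.subtype y R)
    {S : Type*} [Semiring S] {f g : ↥Lb →+* S}
    (hfgE : ∀ z : ↥Lb, (z : Ω) ∈ E → f z = g z) (hfgy : f ⟨y, hy⟩ = g ⟨y, hy⟩) : f = g := by
  have hcomp : f.comp (Subfield.inclusion hle) = g.comp (Subfield.inclusion hle) := by
    ext e
    exact hfgE _ e.2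
  ext z
  obtain ⟨R, hR⟩ := hgen z z.2
  have hz : z = eval₂ (Subfield.inclusion hle) (⟨y, hy⟩ : ↥Lb) R := by
    apply Subtype.ext
    have h1 := hom_eval₂ R (Subfield.inclusion hle) Lb.subtype (⟨y, hy⟩ : ↥Lb)
    rw [hR]
    exact h1.symm
  rw [hz, hom_eval₂, hom_eval₂, hcomp, hfgy]

end HomExt

section Transport

variable {Ω₁ Ω₂ : Type*} [Field Ω₁] [Field Ω₂] (ι : Ω₁ →+* Ω₂)
  {E₁ Lb₁ : Subfield Ω₁} {E₂ Lb₂ : Subfield Ω₂} {y ζ : Ω₁}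

/-- `ι` maps `Lb₁ = E₁(y)` into any subfield containing `ι E₁` and `ι y`. -/
theorem s44kq_map_mem (hgen₁ : ∀ z ∈ Lb₁, ∃ R : (↥E₁)[X], z = eval₂ E₁.subtype y R)
    (hE : ∀ x ∈ E₁, ι x ∈ Lb₂) (hy₂ : ι y ∈ Lb₂) {z : Ω₁} (hz : z ∈ Lb₁) : ι z ∈ Lb₂ := by
  obtain ⟨R, rfl⟩ := hgen₁ z hz
  rw [hom_eval₂]
  exact s44kq_eval₂_mem Lb₂ _ _ (fun e : ↥E₁ => hE (e : Ω₁) e.2) hy₂ R

/-- the restriction of `ι` to `Lb₁ → Lb₂`. -/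
def s44kq_mapLb (h : ∀ z ∈ Lb₁, ι z ∈ Lb₂) : ↥Lb₁ →+* ↥Lb₂ :=
  (ι.comp Lb₁.subtype).codRestrict Lb₂ fun z => h z z.2

@[simp] theorem s44kq_mapLb_coe (h : ∀ z ∈ Lb₁, ι z ∈ Lb₂) (z : ↥Lb₁) :
    ((s44kq_mapLb ι h z : ↥Lb₂) : Ω₂) = ι (z : Ω₁) := rfl

variable (hle₁ : E₁ ≤ Lb₁) (hy₁ : y ∈ Lb₁)
  (hgen₁ : ∀ z ∈ Lb₁, ∃ R : (↥E₁)[X], z = eval₂ E₁.subtype y R)
  (τ₁ : ↥Lb₁ ≃+* ↥Lb₁) (hτE₁ : ∀ z : ↥Lb₁, (z : Ω₁) ∈ E₁ → τ₁ z = z)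
  (hτy₁ : ((τ₁ ⟨y, hy₁⟩ : ↥Lb₁) : Ω₁) = ζ * y)
  (hE : ∀ x ∈ E₁, ι x ∈ E₂) (hy₂ : ι y ∈ Lb₂)
  (τ₂ : ↥Lb₂ ≃+* ↥Lb₂) (hτE₂ : ∀ z : ↥Lb₂, (z : Ω₂) ∈ E₂ → τ₂ z = z)
  (hτy₂ : ((τ₂ ⟨ι y, hy₂⟩ : ↥Lb₂) : Ω₂) = ι ζ * ι y)

include hle₁ hgen₁ hτE₁ hτy₁ hE hτE₂ hτy₂ in
/-- **the deck transformations are compatible**: `τ₂ ∘ ι = ι ∘ τ₁` on `Lb₁`. -/
theorem s44kq_transport (h : ∀ z ∈ Lb₁, ι z ∈ Lb₂) (z : ↥Lb₁) :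
    τ₂ (s44kq_mapLb ι h z) = s44kq_mapLb ι h (τ₁ z) := by
  have key : (τ₂.toRingHom.comp (s44kq_mapLb ι h)) = (s44kq_mapLb ι h).comp τ₁.toRingHom := by
    apply s44kq_gen_hom_ext hle₁ hy₁ hgen₁
    · intro w hw
      simp only [RingHom.comp_apply, RingEquiv.toRingHom_eq_coe, RingEquiv.coe_toRingHom]
      rw [hτE₁ w hw, hτE₂ _ (by rw [s44kq_mapLb_coe]; exact hE _ hw)]
    · simp only [RingHom.comp_apply, RingEquiv.toRingHom_eq_coe, RingEquiv.coe_toRingHom]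
      apply Subtype.ext
      rw [s44kq_mapLb_coe, hτy₁, map_mul]
      exact hτy₂
  exact congrArg (fun F : ↥Lb₁ →+* ↥Lb₂ => F z) key

include hle₁ hgen₁ hτE₁ hτy₁ hE hτE₂ hτy₂ in
/-- compatibility of the iterates. -/
theorem s44kq_transport_iter (h : ∀ z ∈ Lb₁, ι z ∈ Lb₂) (j : ℕ) (z : ↥Lb₁) :
    (⇑τ₂)^[j] (s44kq_mapLb ι h z) = s44kq_mapLb ι h ((⇑τ₁)^[j] z) := by
  induction j generalizing z with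
  | zero => rfl
  | succ j ih =>
    rw [Function.iterate_succ_apply, Function.iterate_succ_apply,
      s44kq_transport ι hle₁ hy₁ hgen₁ τ₁ hτE₁ hτy₁ hE hy₂ τ₂ hτE₂ hτy₂ h z, ih]

include hle₁ hgen₁ hτE₁ hτy₁ hE hτE₂ hτy₂ in
/-- **the Kummer relation is transported.** -/
theorem s44kq_transport_rel (h : ∀ z ∈ Lb₁, ι z ∈ Lb₂) {p : ℕ} {β : Ω₁} {Φ hh : ↥Lb₁}
    (hrel : ((τ₁ Φ : ↥Lb₁) : Ω₁) * β ^ p = (hh : Ω₁) ^ p * Φ) :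
    ((τ₂ (s44kq_mapLb ι h Φ) : ↥Lb₂) : Ω₂) * ι β ^ p =
      ((s44kq_mapLb ι h hh : ↥Lb₂) : Ω₂) ^ p * (s44kq_mapLb ι h Φ : ↥Lb₂) := by
  rw [s44kq_transport ι hle₁ hy₁ hgen₁ τ₁ hτE₁ hτy₁ hE hy₂ τ₂ hτE₂ hτy₂ h Φ,
    s44kq_mapLb_coe, s44kq_mapLb_coe, s44kq_mapLb_coe, ← map_pow, ← map_pow, ← map_mul,
    ← map_mul, hrel]

end Transport

end Fermat.Agent.S44
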