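/-
Project S44 (Mazur–Ribet at `p`), cell [H2] MONO-MAIN, SUB [S-TR] (helper23). Prefix `s44kq_`.

TRANSPORT OF THE WHOLE KUMMER PACKAGE along a field embedding `ι : Ω₁ → Ω₂` which is equivariant
for a map of groups `ρ : G₂ → G₁` (`σ • ι z = ι (ρ σ • z)`; in use: `Ω_i = L'_i((q))` for normal
number fields `L'₁ ⊆ L'₂`, `ι` the coefficientwise inclusion, `ρ` the restriction
`Gal(L'₂/ℚ) → Gal(L'₁/ℚ)`): a package over `(E₁, y)` gives the package over `(E₂, ι y)` with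
`Lb₂ = E₂(ι y)`, its canonical deck transformation, and `g₂ = ι g₁`, `Φ₂ = ι Φ₁`, `h₂ = ι h₁`,
`τ₂^j ∘ ι = ι ∘ τ₁^j`.
-/
import Mathlib
import Fermat.Agent.S44.Mono.KummerQ
import Fermat.Agent.S44.Mono.KummerQL
import Fermat.Agent.S44.Mono.KummerQT

set_option autoImplicit false
set_option linter.style.haveILetI false

noncomputable section

namespace Fermat.Agent.S44

open Polynomial ModularCurve

section PackTransport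

variable {Ω₁ Ω₂ : Type*} [Field Ω₁] [Field Ω₂]
  {G₁ G₂ : Type*} [Group G₁] [Group G₂] [MulSemiringAction G₁ Ω₁] [MulSemiringAction G₂ Ω₂]

/-- **[S-TR], abstract form**: the Kummer package is transported along an equivariant embedding. -/
theorem s44kq_pack_transport (ι : Ω₁ →+* Ω₂) (ρ : G₂ → G₁)
    (hρ : ∀ (σ : G₂) (z : Ω₁), σ • ι z = ι (ρ σ • z))
    {E₁ : Subfield Ω₁} (E₂ : Subfield Ω₂) (hE : ∀ x ∈ E₁, ι x ∈ E₂)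
    (hE₂ : ∀ (σ : G₂), ∀ x ∈ E₂, σ • x ∈ E₂)
    {p : ℕ} (hp : p.Prime) {ζ y fv β : Ω₁} (hζ : IsPrimitiveRoot ζ p) (hζE : ζ ∈ E₁)
    (hyE : y ^ p ∈ E₁) (hirr : ∀ b ∈ E₂, b ^ p ≠ ι y ^ p)
    {lc₁ : Ω₁ →*₀ Ω₁} (lc₂ : Ω₂ →*₀ Ω₂) (hlc : ∀ z, lc₂ (ι z) = ι (lc₁ z))
    {Lb₁ : Subfield Ω₁} {τ₁ : ↥Lb₁ ≃+* ↥Lb₁} {c : Ω₁} {g Φ h : ↥Lb₁}
    (P₁ : s44kq_Pack (G := G₁) E₁ p ζ y fv β lc₁ Lb₁ τ₁ c g Φ h) :
    ∃ (Lb₂ : Subfield Ω₂) (τ₂ : ↥Lb₂ ≃+* ↥Lb₂) (hmap : ∀ z ∈ Lb₁, ι z ∈ Lb₂),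
      s44kq_Pack (G := G₂) E₂ p (ι ζ) (ι y) (ι fv) (ι β) lc₂ Lb₂ τ₂ (ι c)
        (s44kq_mapLb ι hmap g) (s44kq_mapLb ι hmap Φ) (s44kq_mapLb ι hmap h) ∧
      ∀ (j : ℕ) (z : ↥Lb₁),
        (⇑τ₂)^[j] (s44kq_mapLb ι hmap z) = s44kq_mapLb ι hmap ((⇑τ₁)^[j] z) := by
  classical
  have hp0 : p ≠ 0 := hp.ne_zero
  have hιinj : Function.Injective ι := ι.injective
  have hζ₂ : IsPrimitiveRoot (ι ζ) p := hζ.map_of_injective hιinj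
  have hζp₂ : ι ζ ^ p = 1 := hζ₂.pow_eq_one
  have hζE₂ : ι ζ ∈ E₂ := hE _ hζE
  have hyE₂ : ι y ^ p ∈ E₂ := by rw [← map_pow]; exact hE _ hyE
  have hirrP : Irreducible (s44kq_P E₂ (ι y) hyE₂) :=
    X_pow_sub_C_irreducible_of_prime hp fun b hb => hirr b b.2 (congrArg Subtype.val hb)
  haveI : Fact (Irreducible (s44kq_P E₂ (ι y) hyE₂)) := ⟨hirrP⟩
  have hle₂ := s44kq_le_Lb E₂ (ι y) hyE₂
  have hy₂ := s44kq_y_mem E₂ (ι y) hyE₂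
  have hmap : ∀ z ∈ Lb₁, ι z ∈ s44kq_Lb E₂ (ι y) hyE₂ := fun z hz =>
    s44kq_map_mem ι P₁.gen (fun x hx => hle₂ (hE x hx)) hy₂ hz
  set τ₂ := s44kq_tau E₂ (ι y) hyE₂ hζE₂ hζp₂ hp0 with hτ₂
  have hτE₂ : ∀ z : ↥(s44kq_Lb E₂ (ι y) hyE₂), (z : Ω₂) ∈ E₂ → τ₂ z = z :=
    s44kq_tau_E E₂ (ι y) hyE₂ hζE₂ hζp₂ hp0
  have hτy₂ : ((τ₂ ⟨ι y, hy₂⟩ : ↥(s44kq_Lb E₂ (ι y) hyE₂)) : Ω₂) = ι ζ * ι y :=
    s44kq_tau_y E₂ (ι y) hyE₂ hζE₂ hζp₂ hp0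
  have htr : ∀ z : ↥Lb₁, τ₂ (s44kq_mapLb ι hmap z) = s44kq_mapLb ι hmap (τ₁ z) :=
    s44kq_transport ι P₁.le P₁.y_mem P₁.gen τ₁ P₁.τ_E (P₁.τ_y P₁.y_mem) hE hy₂ τ₂ hτE₂ hτy₂ hmap
  have htri : ∀ (j : ℕ) (z : ↥Lb₁),
      (⇑τ₂)^[j] (s44kq_mapLb ι hmap z) = s44kq_mapLb ι hmap ((⇑τ₁)^[j] z) :=
    s44kq_transport_iter ι P₁.le P₁.y_mem P₁.gen τ₁ P₁.τ_E (P₁.τ_y P₁.y_mem) hE hy₂ τ₂ hτE₂
      hτy₂ hmap
  -- stability of `Lb₂`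
  have hyσ : ∀ σ : G₂, σ • ι y ∈ s44kq_Lb E₂ (ι y) hyE₂ := fun σ => by
    rw [hρ]
    exact hmap _ (P₁.stable (ρ σ) y P₁.y_mem)
  have hstable : ∀ (σ : G₂), ∀ z ∈ s44kq_Lb E₂ (ι y) hyE₂, σ • z ∈ s44kq_Lb E₂ (ι y) hyE₂ :=
    fun σ z hz => s44kq_stable E₂ (ι y) hyE₂ hE₂ hyσ σ hz
  haveI : IsInvariantSubfield G₂ (s44kq_Lb E₂ (ι y) hyE₂) := ⟨fun σ {x} hx => hstable σ x hx⟩
  have hsmul_coe : ∀ (σ : G₂) (z : ↥(s44kq_Lb E₂ (ι y) hyE₂)),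
      ((σ • z : ↥(s44kq_Lb E₂ (ι y) hyE₂)) : Ω₂) = σ • (z : Ω₂) := fun _ _ => rfl
  -- `τ₂` commutes with `G₂`
  have hτG : ∀ (σ : G₂) (z : ↥(s44kq_Lb E₂ (ι y) hyE₂)), τ₂ (σ • z) = σ • τ₂ z := by
    intro σ z
    have h1 : τ₂.toRingHom.comp
        (MulSemiringAction.toRingHom G₂ ↥(s44kq_Lb E₂ (ι y) hyE₂) σ) =
        (MulSemiringAction.toRingHom G₂ ↥(s44kq_Lb E₂ (ι y) hyE₂) σ).comp τ₂.toRingHom := by
      apply s44kq_hom_ext E₂ (ι y) hyE₂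
      · intro z hz
        simp only [RingHom.comp_apply, MulSemiringAction.toRingHom_apply,
          RingEquiv.toRingHom_eq_coe, RingEquiv.coe_toRingHom]
        rw [hτE₂ z hz, hτE₂ (σ • z) (by rw [hsmul_coe]; exact hE₂ σ _ hz)]
      · simp only [RingHom.comp_apply, MulSemiringAction.toRingHom_apply,
          RingEquiv.toRingHom_eq_coe, RingEquiv.coe_toRingHom]
        apply Subtype.ext
        rw [hsmul_coe, hτy₂]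
        -- `σ • ⟨ι y⟩ = mapLb ⟨ρ σ • y⟩`
        have hmem₁ : ρ σ • y ∈ Lb₁ := P₁.stable (ρ σ) y P₁.y_mem
        have h2 : σ • (⟨ι y, hy₂⟩ : ↥(s44kq_Lb E₂ (ι y) hyE₂)) =
            s44kq_mapLb ι hmap ⟨ρ σ • y, hmem₁⟩ := Subtype.ext (by
          rw [hsmul_coe, s44kq_mapLb_coe]
          exact hρ σ y)
        rw [h2, htr, s44kq_mapLb_coe]
        have h3 := P₁.τ_smul (ρ σ) ⟨y, P₁.y_mem⟩ hmem₁
        rw [h3, P₁.τ_y P₁.y_mem, ← map_mul, hρ]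
    have h2 := congrArg (fun F : ↥(s44kq_Lb E₂ (ι y) hyE₂) →+* ↥(s44kq_Lb E₂ (ι y) hyE₂) => F z) h1
    simpa only [RingHom.comp_apply, MulSemiringAction.toRingHom_apply,
      RingEquiv.toRingHom_eq_coe, RingEquiv.coe_toRingHom] using h2
  have hmapinj : Function.Injective (s44kq_mapLb ι hmap) := (s44kq_mapLb ι hmap).injective
  refine ⟨s44kq_Lb E₂ (ι y) hyE₂, τ₂, hmap, ?_, htri⟩
  exact
    { le := hle₂
      y_mem := hy₂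
      gen := fun z hz => s44kq_gen E₂ (ι y) hyE₂ hz
      stable := hstable
      τ_E := hτE₂
      τ_y := fun _ => hτy₂
      τ_smul := fun σ z hz => by
        have h := congrArg Subtype.val (hτG σ z)
        rw [hsmul_coe] at h
        exact h
      τ_fixed := fun z hz => s44kq_tau_fixed E₂ (ι y) hyE₂ hζE₂ hζp₂ hp0 hζ₂ z hz
      τ_pow := s44kq_tau_pow E₂ (ι y) hyE₂ hζE₂ hζp₂ hp0
      g_ne := fun h0 => P₁.g_ne (hmapinj (h0.trans (map_zero _).symm))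
      c_ne := fun h0 => P₁.c_ne (hιinj (h0.trans (map_zero _).symm))
      c_lc := by rw [hlc, P₁.c_lc]
      Φ_eq := by
        rw [s44kq_mapLb_coe, s44kq_mapLb_coe, P₁.Φ_eq, map_mul, map_mul, map_pow]
      h_eq := by
        rw [htr, s44kq_mapLb_coe, s44kq_mapLb_coe, s44kq_mapLb_coe, P₁.h_eq, map_mul, map_div₀]
      Φ_fix := fun σ => by rw [s44kq_mapLb_coe, hρ, P₁.Φ_fix]
      h_fix := fun σ => by rw [s44kq_mapLb_coe, hρ, P₁.h_fix]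
      rel := s44kq_transport_rel ι P₁.le P₁.y_mem P₁.gen τ₁ P₁.τ_E (P₁.τ_y P₁.y_mem) hE hy₂ τ₂
        hτE₂ hτy₂ hmap P₁.rel }

end PackTransport

/-! ### the Laurent-series instance -/

section TransportLS

variable {L₁ L₂ : Type*} [Field L₁] [Field L₂] (f : L₁ →+* L₂)
  {G₁ G₂ : Type*} [Group G₁] [Group G₂] [MulSemiringAction G₁ L₁] [MulSemiringAction G₂ L₂]

attribute [local instance] s44kq_lsAction

theorem s44kq_coeffMap_algebraMap (c : L₁) :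
    coeffMap f (algebraMap L₁ (LaurentSeries L₁) c) = algebraMap L₂ (LaurentSeries L₂) (f c) := by
  rw [algebraMap_laurentSeries_eq_single, algebraMap_laurentSeries_eq_single, coeffMap_single]

/-- the coefficientwise map is equivariant as soon as `f` is. -/
theorem s44kq_coeffMap_smul (ρ : G₂ → G₁) (hρ : ∀ (σ : G₂) (a : L₁), σ • f a = f (ρ σ • a))
    (σ : G₂) (z : LaurentSeries L₁) : σ • coeffMap f z = coeffMap f (ρ σ • z) := by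
  rw [s44kq_smul_def, s44kq_smul_def, coeffMap_coeffMap, coeffMap_coeffMap]
  exact coeffMap_congr (RingHom.ext fun a => hρ σ a) z

/-- the coefficientwise map commutes with the leading-coefficient maps. -/
theorem s44kq_lc_coeffMap (z : LaurentSeries L₁) :
    s44kq_lc L₂ (coeffMap f z) = coeffMap f (s44kq_lc L₁ z) := by
  rw [s44kq_lc_apply, s44kq_lc_apply, s44kq_coeffMap_algebraMap,
    s44kq_leadingCoeff_coeffMap f.injective]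

/-- **[S-TR] for `Ω_i = L_i((q))`**: the package over `L₁` gives the package over `L₂`. -/
theorem s44kq_pack_transport_ls (ρ : G₂ → G₁)
    (hρ : ∀ (σ : G₂) (a : L₁), σ • f a = f (ρ σ • a))
    {E₁ : IntermediateField L₁ (LaurentSeries L₁)} (E₂ : IntermediateField L₂ (LaurentSeries L₂))
    (hE : ∀ x ∈ E₁, coeffMap f x ∈ E₂)
    (hE₂ : ∀ (σ : G₂), ∀ x ∈ E₂, coeffMap (MulSemiringAction.toRingHom G₂ L₂ σ) x ∈ E₂)
    {p : ℕ} (hp : p.Prime) {ζ β : L₁} {y fv : LaurentSeries L₁} (hζ : IsPrimitiveRoot ζ p)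
    (hyE : y ^ p ∈ E₁) (hirr : ∀ b ∈ E₂, b ^ p ≠ coeffMap f y ^ p)
    {Lb₁ : Subfield (LaurentSeries L₁)} {τ₁ : ↥Lb₁ ≃+* ↥Lb₁} {c : LaurentSeries L₁}
    {g Φ h : ↥Lb₁}
    (P₁ : s44kq_Pack (G := G₁) E₁.toSubfield p (algebraMap L₁ (LaurentSeries L₁) ζ) y fv
      (algebraMap L₁ (LaurentSeries L₁) β) (s44kq_lc L₁) Lb₁ τ₁ c g Φ h) :
    ∃ (Lb₂ : Subfield (LaurentSeries L₂)) (τ₂ : ↥Lb₂ ≃+* ↥Lb₂)
      (hmap : ∀ z ∈ Lb₁, coeffMap f z ∈ Lb₂),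
      s44kq_Pack (G := G₂) E₂.toSubfield p (algebraMap L₂ (LaurentSeries L₂) (f ζ))
        (coeffMap f y) (coeffMap f fv) (algebraMap L₂ (LaurentSeries L₂) (f β)) (s44kq_lc L₂)
        Lb₂ τ₂ (coeffMap f c) (s44kq_mapLb (coeffMap f) hmap g) (s44kq_mapLb (coeffMap f) hmap Φ)
        (s44kq_mapLb (coeffMap f) hmap h) ∧
      ∀ (j : ℕ) (z : ↥Lb₁), (⇑τ₂)^[j] (s44kq_mapLb (coeffMap f) hmap z) =
        s44kq_mapLb (coeffMap f) hmap ((⇑τ₁)^[j] z) := by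
  have hinj : Function.Injective (algebraMap L₁ (LaurentSeries L₁)) :=
    (algebraMap L₁ (LaurentSeries L₁)).injective
  have h := s44kq_pack_transport (G₁ := G₁) (G₂ := G₂) (coeffMap f) ρ
    (s44kq_coeffMap_smul f ρ hρ) (E₁ := E₁.toSubfield) E₂.toSubfield hE hE₂ hp
    (hζ.map_of_injective hinj) (E₁.algebraMap_mem ζ) hyE hirr (s44kq_lc L₂)
    (s44kq_lc_coeffMap f) P₁
  rw [s44kq_coeffMap_algebraMap, s44kq_coeffMap_algebraMap] at h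
  exact h

end TransportLS

end Fermat.Agent.S44
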