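/-
S44, cell [H2] MONO-MAIN (owner helper4), sub-cell [H2-D] GLOBAL DATA, part (a) (helper19, second of
helper17): THE GROUP `H`.  Prefix `s44md_`.

`ζ` a primitive `p`-th root of unity, `β ∈ Qbar`, `X, V ∈ J` (`p X = 0`; `J` any `G_ℚ`-module).
`H := {σ ∈ G_ℚ | ∃ k n : ℤ/p, σ ζ = ζ^k, σ X = k X, σ V = V + n X, σ β = ζ^n β}`
(helper7's "put `β` into the group" in the `χ`-twisted setting of helper4's design (I')).

* `s44md_H`            : it is a subgroup (`(k,n)(k',n') = (k k', n + k n')`);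
* `s44md_kz, s44md_az` : the character `k̄` and the twisted cocycle `ā` on `H`, determined by `ζ`
                         and `β` alone (`s44md_kz_az_eq`), `s44md_kz_mul`, `s44md_az_mul`;
* `s44md_open`         : `H ⊇ Gal(Qbar / L)`, `L ∋ ζ, β` a number field (`J = J₀(N)`);
* `s44md_kummer_X/_V`  : `σ f_X = c f_X^k̄ g^p`, `σ f_V = c f_V f_X^ā g^p` for ALL `σ ∈ H`;
* `s44md_inertia_le`   : the inertia group `Γ` of the frame lies in `H` (binders of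
                         `s44bg_Mono_stmt`), `s44md_az_inertia` : `ā = a` on `Γ`.
So `β` itself is the global resolvent (`β, β⁻¹ ∈ A` by hypothesis): no Hilbert 90 in [H2-D].
-/
import Fermat.Agent.S44.Bridge.ExtGroup
import Fermat.Agent.S44.Frame2

set_option autoImplicit false
set_option linter.unusedSectionVars false

namespace Fermat.Agent.S44

open ModularCurve AlgebraicCurve Fermat.Agent.JT3

section Abs

variable {p : ℕ} [Fact p.Prime]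

theorem s44md_pow_congr {ζ : s44_Qb} (hζ : ζ ^ p = 1) {a b : ℕ}
    (h : (a : ZMod p) = (b : ZMod p)) : ζ ^ a = ζ ^ b := by
  have h1 : a % p = b % p := (ZMod.natCast_eq_natCast_iff' a b p).mp h
  rw [pow_eq_pow_mod a hζ, pow_eq_pow_mod b hζ, h1]

theorem s44md_nsmul_congr {J : Type*} [AddCommGroup J] {X : J} (hX : p • X = 0) {a b : ℕ}
    (h : (a : ZMod p) = (b : ZMod p)) : a • X = b • X := by
  have h1 : a % p = b % p := (ZMod.natCast_eq_natCast_iff' a b p).mp h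
  rw [nsmul_eq_mod_nsmul a hX, nsmul_eq_mod_nsmul b hX, h1]

variable {J : Type*} [AddCommGroup J] [DistribMulAction s44_G J]

/-- the membership predicate of `s44md_H` -/
def s44md_Rel (ζ β : s44_Qb) (X V : J) (σ : s44_G) (k n : ZMod p) : Prop :=
  σ ζ = ζ ^ k.val ∧ σ • X = k.val • X ∧ σ • V = V + n.val • X ∧ σ β = ζ ^ n.val * β

theorem s44md_rel_one (ζ β : s44_Qb) (X V : J) : s44md_Rel (p := p) ζ β X V 1 1 0 := by
  have h1 : (1 : ZMod p).val = 1 := ZMod.val_one p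
  refine ⟨?_, ?_, ?_, ?_⟩
  · rw [h1, pow_one]; rfl
  · rw [h1, one_smul, one_nsmul]
  · rw [ZMod.val_zero, zero_nsmul, add_zero, one_smul]
  · rw [ZMod.val_zero, pow_zero, one_mul]; rfl

theorem s44md_rel_mul {ζ β : s44_Qb} (hζ : ζ ^ p = 1) {X V : J} (hX : p • X = 0)
    {σ τ : s44_G} {k n k' n' : ZMod p} (h : s44md_Rel ζ β X V σ k n)
    (h' : s44md_Rel ζ β X V τ k' n') : s44md_Rel ζ β X V (σ * τ) (k * k') (n + k * n') := by
  obtain ⟨h1, h2, h3, h4⟩ := h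
  obtain ⟨h1', h2', h3', h4'⟩ := h'
  have ek : (((k * k').val : ℕ) : ZMod p) = ((k.val * k'.val : ℕ) : ZMod p) := by
    rw [ZMod.natCast_zmod_val, Nat.cast_mul, ZMod.natCast_zmod_val, ZMod.natCast_zmod_val]
  have en : (((n + k * n').val : ℕ) : ZMod p) = ((n.val + k.val * n'.val : ℕ) : ZMod p) := by
    rw [ZMod.natCast_zmod_val, Nat.cast_add, Nat.cast_mul, ZMod.natCast_zmod_val,
      ZMod.natCast_zmod_val, ZMod.natCast_zmod_val]
  refine ⟨?_, ?_, ?_, ?_⟩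
  · rw [s44md_pow_congr hζ ek, AlgEquiv.mul_apply, h1', map_pow, h1, ← pow_mul]
  · rw [s44md_nsmul_congr hX ek, mul_smul, h2', smul_comm σ k'.val X, h2, mul_nsmul,
      smul_comm k'.val k.val X]
  · rw [s44md_nsmul_congr hX en, mul_smul, h3', smul_add, h3, smul_comm σ n'.val X, h2, add_nsmul,
      add_assoc, mul_nsmul, smul_comm n'.val k.val X]
  · rw [s44md_pow_congr hζ en, AlgEquiv.mul_apply, h4', map_mul, map_pow, h1, h4, ← pow_mul,
      pow_add]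
    ring

theorem s44md_rel_k_ne_zero {ζ β : s44_Qb} (hζ : IsPrimitiveRoot ζ p) {X V : J}
    {σ : s44_G} {k n : ZMod p} (h : s44md_Rel ζ β X V σ k n) : k ≠ 0 := by
  intro hk
  have h1 := h.1
  rw [hk, ZMod.val_zero, pow_zero] at h1
  have h2 : ζ = 1 := σ.injective (h1.trans (map_one σ).symm)
  have hp : p.Prime := Fact.out
  exact hp.one_lt.ne' (hζ.unique (h2 ▸ IsPrimitiveRoot.one))

theorem s44md_rel_inv {ζ β : s44_Qb} (hζ : IsPrimitiveRoot ζ p) {X V : J} (hX : p • X = 0)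
    {σ : s44_G} {k n : ZMod p} (h : s44md_Rel ζ β X V σ k n) :
    s44md_Rel ζ β X V σ⁻¹ k⁻¹ (-(n * k⁻¹)) := by
  have hk := s44md_rel_k_ne_zero hζ h
  have hζp : ζ ^ p = 1 := hζ.pow_eq_one
  obtain ⟨h1, h2, h3, h4⟩ := h
  have hinv : ∀ x : s44_Qb, σ⁻¹ (σ x) = x := fun x => by
    show (σ⁻¹ * σ) x = x
    rw [inv_mul_cancel]; rfl
  have ek : ((k.val * (k⁻¹).val : ℕ) : ZMod p) = ((1 : ℕ) : ZMod p) := by
    rw [Nat.cast_mul, ZMod.natCast_zmod_val, ZMod.natCast_zmod_val, Nat.cast_one,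
      mul_inv_cancel₀ hk]
  have en : ((n.val + k.val * (-(n * k⁻¹)).val : ℕ) : ZMod p) = ((0 : ℕ) : ZMod p) := by
    rw [Nat.cast_add, Nat.cast_mul, ZMod.natCast_zmod_val, ZMod.natCast_zmod_val,
      ZMod.natCast_zmod_val, Nat.cast_zero]
    field_simp
    ring
  refine ⟨?_, ?_, ?_, ?_⟩
  · have e : σ (ζ ^ (k⁻¹).val) = ζ := by
      rw [map_pow, h1, ← pow_mul, s44md_pow_congr hζp ek, pow_one]
    calc σ⁻¹ ζ = σ⁻¹ (σ (ζ ^ (k⁻¹).val)) := by rw [e]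
      _ = ζ ^ (k⁻¹).val := hinv _
  · have e : σ • ((k⁻¹).val • X) = X := by
      rw [smul_comm σ (k⁻¹).val X, h2, ← mul_nsmul, s44md_nsmul_congr hX ek, one_nsmul]
    calc σ⁻¹ • X = σ⁻¹ • σ • ((k⁻¹).val • X) := by rw [e]
      _ = (k⁻¹).val • X := inv_smul_smul σ _
  · have e : σ • (V + (-(n * k⁻¹)).val • X) = V := by
      rw [smul_add, h3, smul_comm σ _ X, h2, ← mul_nsmul, add_assoc, ← add_nsmul,
        s44md_nsmul_congr hX en, zero_nsmul, add_zero]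
    calc σ⁻¹ • V = σ⁻¹ • σ • (V + (-(n * k⁻¹)).val • X) := by rw [e]
      _ = V + (-(n * k⁻¹)).val • X := inv_smul_smul σ _
  · have e : σ (ζ ^ (-(n * k⁻¹)).val * β) = β := by
      rw [map_mul, map_pow, h1, h4, ← pow_mul, ← mul_assoc, ← pow_add, add_comm,
        s44md_pow_congr hζp en, pow_zero, one_mul]
    calc σ⁻¹ β = σ⁻¹ (σ (ζ ^ (-(n * k⁻¹)).val * β)) := by rw [e]
      _ = ζ ^ (-(n * k⁻¹)).val * β := hinv _

/-- membership from `ℕ`-valued data -/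
theorem s44md_rel_of_nat {ζ : s44_Qb} (hζp : ζ ^ p = 1) (β : s44_Qb) {X : J} (hX : p • X = 0)
    (V : J) {σ : s44_G} {i a : ℕ} (h1 : σ ζ = ζ ^ i) (h2 : σ • X = i • X)
    (h3 : σ • V = V + a • X) (h4 : σ β = ζ ^ a * β) :
    s44md_Rel ζ β X V σ (i : ZMod p) (a : ZMod p) := by
  have ei : ((((i : ZMod p)).val : ℕ) : ZMod p) = ((i : ℕ) : ZMod p) := ZMod.natCast_zmod_val _
  have ea : ((((a : ZMod p)).val : ℕ) : ZMod p) = ((a : ℕ) : ZMod p) := ZMod.natCast_zmod_val _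
  refine ⟨?_, ?_, ?_, ?_⟩
  · rw [s44md_pow_congr hζp ei, h1]
  · rw [s44md_nsmul_congr hX ei, h2]
  · rw [s44md_nsmul_congr hX ea, h3]
  · rw [s44md_pow_congr hζp ea, h4]

/-- uniqueness of the parameters `(k, n)` of `σ` -/
theorem s44md_rel_unique {ζ β : s44_Qb} (hζ : IsPrimitiveRoot ζ p) (hβ : β ≠ 0) {X V : J}
    {σ : s44_G} {k n k' n' : ZMod p} (h : s44md_Rel ζ β X V σ k n)
    (h' : s44md_Rel ζ β X V σ k' n') : k = k' ∧ n = n' := by
  have hp : p.Prime := Fact.out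
  constructor
  · have e : ζ ^ k.val = ζ ^ k'.val := h.1.symm.trans h'.1
    exact ZMod.val_injective p (hζ.pow_inj (ZMod.val_lt k) (ZMod.val_lt k') e)
  · have e : ζ ^ n.val = ζ ^ n'.val :=
      mul_right_cancel₀ hβ (h.2.2.2.symm.trans h'.2.2.2)
    exact ZMod.val_injective p (hζ.pow_inj (ZMod.val_lt n) (ZMod.val_lt n') e)

/-- **the group `H` of [H2-D]**: the `σ ∈ G_ℚ` acting on `(ζ, X, V, β)` through the affine group
`(k, n)`: `σ ζ = ζ ^ k`, `σ X = k X`, `σ V = V + n X`, `σ β = ζ ^ n β`. -/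
def s44md_H {ζ : s44_Qb} (hζ : IsPrimitiveRoot ζ p) (β : s44_Qb) {X : J} (hX : p • X = 0)
    (V : J) : Subgroup s44_G where
  carrier := {σ | ∃ k n : ZMod p, s44md_Rel ζ β X V σ k n}
  one_mem' := ⟨1, 0, s44md_rel_one ζ β X V⟩
  mul_mem' := by
    rintro σ τ ⟨k, n, h⟩ ⟨k', n', h'⟩
    exact ⟨k * k', n + k * n', s44md_rel_mul hζ.pow_eq_one hX h h'⟩
  inv_mem' := by
    rintro σ ⟨k, n, h⟩
    exact ⟨k⁻¹, -(n * k⁻¹), s44md_rel_inv hζ hX h⟩

theorem s44md_mem_H {ζ : s44_Qb} (hζ : IsPrimitiveRoot ζ p) (β : s44_Qb) {X : J}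
    (hX : p • X = 0) (V : J) (σ : s44_G) :
    σ ∈ s44md_H hζ β hX V ↔ ∃ k n : ZMod p, s44md_Rel ζ β X V σ k n := Iff.rfl

section Chars

variable {ζ : s44_Qb} (hζ : IsPrimitiveRoot ζ p) (β : s44_Qb) {X : J} (hX : p • X = 0) (V : J)

/-- the character `k̄ : H → (ℤ/p)` (`σ ζ = ζ ^ k̄(σ)`) -/
noncomputable def s44md_kz (σ : s44md_H hζ β hX V) : ZMod p := σ.2.choose

/-- the twisted cocycle `ā : H → ℤ/p` (`σ β = ζ ^ ā(σ) β`) -/
noncomputable def s44md_az (σ : s44md_H hζ β hX V) : ZMod p := σ.2.choose_spec.choose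

theorem s44md_rel (σ : s44md_H hζ β hX V) :
    s44md_Rel ζ β X V (σ : s44_G) (s44md_kz hζ β hX V σ) (s44md_az hζ β hX V σ) :=
  σ.2.choose_spec.choose_spec

theorem s44md_kz_ne_zero (σ : s44md_H hζ β hX V) : s44md_kz hζ β hX V σ ≠ 0 :=
  s44md_rel_k_ne_zero hζ (s44md_rel hζ β hX V σ)

theorem s44md_kz_az_eq (hβ : β ≠ 0) (σ : s44md_H hζ β hX V) {k n : ZMod p}
    (h : s44md_Rel ζ β X V (σ : s44_G) k n) :
    s44md_kz hζ β hX V σ = k ∧ s44md_az hζ β hX V σ = n :=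
  s44md_rel_unique hζ hβ (s44md_rel hζ β hX V σ) h

theorem s44md_kz_mul (hβ : β ≠ 0) (σ τ : s44md_H hζ β hX V) :
    s44md_kz hζ β hX V (σ * τ) = s44md_kz hζ β hX V σ * s44md_kz hζ β hX V τ :=
  (s44md_kz_az_eq hζ β hX V hβ (σ * τ)
    (s44md_rel_mul hζ.pow_eq_one hX (s44md_rel hζ β hX V σ) (s44md_rel hζ β hX V τ))).1

theorem s44md_az_mul (hβ : β ≠ 0) (σ τ : s44md_H hζ β hX V) :
    s44md_az hζ β hX V (σ * τ) =
      s44md_az hζ β hX V σ + s44md_kz hζ β hX V σ * s44md_az hζ β hX V τ :=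
  (s44md_kz_az_eq hζ β hX V hβ (σ * τ)
    (s44md_rel_mul hζ.pow_eq_one hX (s44md_rel hζ β hX V σ) (s44md_rel hζ β hX V τ))).2

theorem s44md_kz_one (hβ : β ≠ 0) : s44md_kz hζ β hX V 1 = 1 :=
  (s44md_kz_az_eq hζ β hX V hβ 1 (s44md_rel_one ζ β X V)).1

theorem s44md_az_one (hβ : β ≠ 0) : s44md_az hζ β hX V 1 = 0 :=
  (s44md_kz_az_eq hζ β hX V hβ 1 (s44md_rel_one ζ β X V)).2

theorem s44md_mem_H_of_nat {σ : s44_G} {i a : ℕ} (h1 : σ ζ = ζ ^ i) (h2 : σ • X = i • X)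
    (h3 : σ • V = V + a • X) (h4 : σ β = ζ ^ a * β) : σ ∈ s44md_H hζ β hX V :=
  ⟨_, _, s44md_rel_of_nat hζ.pow_eq_one β hX V h1 h2 h3 h4⟩

theorem s44md_kz_az_of_nat (hβ : β ≠ 0) (σ : s44md_H hζ β hX V) {i a : ℕ}
    (h1 : (σ : s44_G) ζ = ζ ^ i) (h2 : (σ : s44_G) • X = i • X)
    (h3 : (σ : s44_G) • V = V + a • X) (h4 : (σ : s44_G) β = ζ ^ a * β) :
    s44md_kz hζ β hX V σ = (i : ZMod p) ∧ s44md_az hζ β hX V σ = (a : ZMod p) :=
  s44md_kz_az_eq hζ β hX V hβ σ (s44md_rel_of_nat hζ.pow_eq_one β hX V h1 h2 h3 h4)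

/-- an element fixing `ζ, β, X, V` lies in `H` -/
theorem s44md_mem_H_of_fix {σ : s44_G} (h1 : σ ζ = ζ) (h2 : σ • X = X) (h3 : σ • V = V)
    (h4 : σ β = β) : σ ∈ s44md_H hζ β hX V :=
  s44md_mem_H_of_nat hζ β hX V (i := 1) (a := 0) (by rw [pow_one, h1]) (by rw [one_nsmul, h2])
    (by rw [zero_nsmul, add_zero, h3]) (by rw [pow_zero, one_mul, h4])

end Chars

end Abs

/-! ### the case of `J₀(N)` -/

section JZ

variable (N : ℕ) [NeZero N] {p : ℕ} [Fact p.Prime]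

local notation "Qb" => AlgebraicClosure ℚ
local notation "FN" => modularFunctionFieldBar N

variable {ζ : s44_Qb} (hζ : IsPrimitiveRoot ζ p) (β : s44_Qb) {X : JZero N} (hX : p • X = 0)
  (V : JZero N)

/-- **`H` is open**: it contains `Gal(ℚ̄ / L)` for a number field `L ∋ ζ, β`, `L ⊇ L0`. -/
theorem s44md_open (L0 : IntermediateField ℚ Qb) [FiniteDimensional ℚ L0] :
    ∃ L : IntermediateField ℚ Qb, FiniteDimensional ℚ L ∧ L0 ≤ L ∧ ζ ∈ L ∧ β ∈ L ∧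
      ∀ σ : s44_G, (∀ y ∈ L, σ y = y) → σ ∈ s44md_H hζ β hX V := by
  obtain ⟨LX, hLX, hfX⟩ := egs_exists_fixing N X
  obtain ⟨LV, hLV, hfV⟩ := egs_exists_fixing N V
  have : Algebra.IsAlgebraic ℚ Qb := AlgebraicClosure.isAlgebraic ℚ
  have : FiniteDimensional ℚ ↥(IntermediateField.adjoin ℚ ({ζ, β} : Set Qb)) :=
    IntermediateField.finiteDimensional_adjoin fun x _ => Algebra.IsIntegral.isIntegral x
  refine ⟨(L0 ⊔ IntermediateField.adjoin ℚ ({ζ, β} : Set Qb)) ⊔ (LX ⊔ LV), inferInstance,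
    le_sup_left.trans le_sup_left, ?_, ?_, fun σ hσ => ?_⟩
  · exact (le_sup_right.trans le_sup_left :
      IntermediateField.adjoin ℚ ({ζ, β} : Set Qb) ≤ _)
      (IntermediateField.subset_adjoin ℚ _ (Set.mem_insert _ _))
  · exact (le_sup_right.trans le_sup_left :
      IntermediateField.adjoin ℚ ({ζ, β} : Set Qb) ≤ _)
      (IntermediateField.subset_adjoin ℚ _ (Set.mem_insert_of_mem _ rfl))
  · have hζL : ζ ∈ (L0 ⊔ IntermediateField.adjoin ℚ ({ζ, β} : Set Qb)) ⊔ (LX ⊔ LV) :=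
      (le_sup_right.trans le_sup_left :
        IntermediateField.adjoin ℚ ({ζ, β} : Set Qb) ≤ _)
        (IntermediateField.subset_adjoin ℚ _ (Set.mem_insert _ _))
    have hβL : β ∈ (L0 ⊔ IntermediateField.adjoin ℚ ({ζ, β} : Set Qb)) ⊔ (LX ⊔ LV) :=
      (le_sup_right.trans le_sup_left :
        IntermediateField.adjoin ℚ ({ζ, β} : Set Qb) ≤ _)
        (IntermediateField.subset_adjoin ℚ _ (Set.mem_insert_of_mem _ rfl))
    refine s44md_mem_H_of_fix hζ β hX V (hσ ζ hζL) ?_ ?_ (hσ β hβL)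
    · exact hfX σ fun y hy => hσ y ((le_sup_left.trans le_sup_right : LX ≤ _) hy)
    · exact hfV σ fun y hy => hσ y ((le_sup_right.trans le_sup_right : LV ≤ _) hy)

/-- **the Kummer relation of `X`** for every `σ ∈ H` and every representative. -/
theorem s44md_kummer_X (σ : s44md_H hζ β hX V) {fX : FN} (hfX : s44f_Rep N p X fX) :
    ∃ (c : Qb) (g : FN), c ≠ 0 ∧ g ≠ 0 ∧
      arithmeticGalois (modularFunctionFieldFull N) (σ : s44_G) • fX =
        algebraMap Qb FN c * fX ^ (s44md_kz hζ β hX V σ).val * g ^ p :=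
  s44b_kummer_of_smul_eq_nsmul N (σ : s44_G) _ hfX (s44md_rel hζ β hX V σ).2.1

/-- **the Kummer relation of `V`** for every `σ ∈ H` and all representatives. -/
theorem s44md_kummer_V (σ : s44md_H hζ β hX V) {fX fV : FN} (hfX : s44f_Rep N p X fX)
    (hfV : s44f_Rep N p V fV) :
    ∃ (c : Qb) (g : FN), c ≠ 0 ∧ g ≠ 0 ∧
      arithmeticGalois (modularFunctionFieldFull N) (σ : s44_G) • fV =
        algebraMap Qb FN c * (fV * fX ^ (s44md_az hζ β hX V σ).val) * g ^ p :=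
  s44b_kummer_of_ext N (σ : s44_G) _ hfX hfV (s44md_rel hζ β hX V σ).2.2.1

end JZ

/-! ### the frame: the inertia group lies in `H` -/

section Frame

variable {P : FreyPackage} {M : ℕ} [NeZero M] [NeZero (M * P.p)] (Fr : s44_Frame P M)

/-- **`Γ ≤ H`** from the binders of `s44bg_Mono_stmt`. -/
theorem s44md_inertia_le [Fact P.p.Prime] (hζ : IsPrimitiveRoot Fr.ζ P.p) {X V : JZero (M * P.p)}
    (hX : P.p • X = 0) {a : s44_G → ℕ} {β : s44_Qb} (hchi : Fr.ChiEigen X)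
    (hext : ∀ σ ∈ Fr.Γ, σ • V = V + a σ • X) (hβ : ∀ σ ∈ Fr.Γ, σ β = Fr.ζ ^ a σ * β) :
    Fr.Γ ≤ s44md_H hζ β hX V := by
  intro σ hσ
  have h1 : (σ Fr.ζ) ^ P.p = 1 := by rw [← map_pow, hζ.pow_eq_one, map_one]
  have : NeZero P.p := ⟨P.hp0⟩
  obtain ⟨i, -, hi⟩ := hζ.eq_pow_of_pow_eq_one h1
  exact s44md_mem_H_of_nat hζ β hX V hi.symm (hchi σ hσ i hi.symm) (hext σ hσ) (hβ σ hσ)

/-- on `Γ` the cocycle `ā` is the given `a`. -/
theorem s44md_az_inertia [Fact P.p.Prime] (hζ : IsPrimitiveRoot Fr.ζ P.p)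
    {X V : JZero (M * P.p)} (hX : P.p • X = 0) {a : s44_G → ℕ} {β : s44_Qb} (hβ0 : β ≠ 0)
    (hchi : Fr.ChiEigen X) (hext : ∀ σ ∈ Fr.Γ, σ • V = V + a σ • X)
    (hβ : ∀ σ ∈ Fr.Γ, σ β = Fr.ζ ^ a σ * β) (σ : s44md_H hζ β hX V) (hσ : (σ : s44_G) ∈ Fr.Γ) :
    s44md_az hζ β hX V σ = (a (σ : s44_G) : ZMod P.p) := by
  have h1 : ((σ : s44_G) Fr.ζ) ^ P.p = 1 := by rw [← map_pow, hζ.pow_eq_one, map_one]
  have : NeZero P.p := ⟨P.hp0⟩
  obtain ⟨i, -, hi⟩ := hζ.eq_pow_of_pow_eq_one h1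
  exact (s44md_kz_az_of_nat hζ β hX V hβ0 σ hi.symm (hchi _ hσ i hi.symm) (hext _ hσ)
    (hβ _ hσ)).2

end Frame

end Fermat.Agent.S44
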