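import Fermat.Agent.S44.Mono.DataB
import Fermat.Agent.S44.Mono.DataGroup
import Fermat.Agent.S44.Mono.DataNF
import Fermat.Agent.MZ.C.Defs
import Fermat.Agent.JT3.Gateway.DescentField

/-!
# S44 [H2-D](c) GLUE (helper7; prefix `s44mn_`): the finite-level Kummer data of [H2-K]

From `DataGroup.lean` (helper19: the group `H`, the characters `kz, az`) and `DataB.lean` (helper17:
`s44mdb_descent`) to the hypothesis list of helper23's `s44kq_main`, for every sufficiently large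
normal number field `L' ⊆ ℚ̄` and the FINITE group `G := image of H in Gal(L'/ℚ)` acting
coefficientwise on `Ω = L'((q))`.

* `s44mn_order_dvd`      : a representing function has `q`-order divisible by `p`;
* `s44mn_rep_normalize`  : a representing function with leading coefficient `1`;
* `s44mn_G`              : `G := H.map (restrictNormalHom L')`;
* `s44mn_KData`          : the data `(k, a, e, cc, gv)` indexed by `G`, with the relations
  `g ζ1 = ζ1 ^ k g`, `g β1 = ζ1 ^ a g · β1`, `g • fx1 = (e g) ^ p · fx1 ^ k g`,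
  `g • fv1 = cc g · (fv1 · fx1 ^ a g) · (gv g) ^ p`;
* `s44mn_glue`           : existence of `T0` and, for every finite normal `L' ⊇ T0`, of the data;
* `s44mn_glue_frame`     : the same from the binders of `s44bg_Mono_stmt`, with `Γ|L' ≤ G`.
-/

set_option autoImplicit false
set_option linter.unusedSectionVars false

namespace Fermat.Agent.S44

open ModularCurve AlgebraicCurve Fermat.Agent.JT3 Fermat.Agent.SS

local notation "Qb" => AlgebraicClosure ℚ

section Norm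

variable (N : ℕ) [NeZero N] {p : ℕ}

local notation "FN" => modularFunctionFieldBar N

/-- the `q`-order of a representing function is divisible by `p`. -/
theorem s44mn_order_dvd {z : JZero N} {f : FN} (hf : s44f_Rep N p z f) :
    (p : ℤ) ∣ (f : LaurentSeries Qb).order := by
  obtain ⟨-, D, -, hfv⟩ := hf
  have h := hfv (Fermat.Agent.MZ.mzc_cuspInf N)
  rw [Fermat.Agent.MZ.mzc_cuspInf_ord] at h
  exact ⟨_, h.symm⟩

/-- a representing function with leading coefficient `1`. -/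
theorem s44mn_rep_normalize {z : JZero N} {f : FN} (hf : s44f_Rep N p z f) :
    ∃ f' : FN, s44f_Rep N p z f' ∧ (f' : LaurentSeries Qb).leadingCoeff = 1 := by
  have hf0 : f ≠ 0 := hf.1
  have hf0' : (f : LaurentSeries Qb) ≠ 0 := fun h => hf0 (Subtype.ext h)
  set c : Qb := ((f : LaurentSeries Qb).leadingCoeff)⁻¹ with hc
  have hlc : (f : LaurentSeries Qb).leadingCoeff ≠ 0 := HahnSeries.leadingCoeff_ne_zero.2 hf0'
  have hc0 : c ≠ 0 := inv_ne_zero hlc
  refine ⟨algebraMap Qb FN c * f, ?_, ?_⟩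
  · have h1 := (s44b_rep_pth N (p := p) (z := z) (f := f) hc0 (one_ne_zero (α := FN))).2 hf
    rwa [one_pow, mul_one] at h1
  · have e1 : ((algebraMap Qb FN c * f : FN) : LaurentSeries Qb) =
        algebraMap Qb (LaurentSeries Qb) c * (f : LaurentSeries Qb) := rfl
    have e2 : algebraMap Qb (LaurentSeries Qb) c = HahnSeries.single 0 c := by
      have h1 : algebraMap Qb (PowerSeries Qb) c = PowerSeries.C c := by simp
      rw [HahnSeries.algebraMap_apply', h1, HahnSeries.ofPowerSeries_C]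
      rfl
    rw [e1, HahnSeries.leadingCoeff_mul, e2, HahnSeries.leadingCoeff_of_single, hc,
      inv_mul_cancel₀ hlc]

end Norm

section Glue

variable (N : ℕ) [NeZero N] {p : ℕ} [hpF : Fact p.Prime]

local notation "FN" => modularFunctionFieldBar N

/-- the image of a subgroup of `G_ℚ` in `Gal(L'/ℚ)`. -/
noncomputable def s44mn_G (H : Subgroup s44_G) (L' : IntermediateField ℚ Qb) [Normal ℚ L'] :
    Subgroup (L' ≃ₐ[ℚ] L') :=
  H.map (AlgEquiv.restrictNormalHom L')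

theorem s44mn_mem_G {H : Subgroup s44_G} {L' : IntermediateField ℚ Qb} [Normal ℚ L']
    {σ : s44_G} (hσ : σ ∈ H) : σ.restrictNormal L' ∈ s44mn_G H L' :=
  Subgroup.mem_map_of_mem (AlgEquiv.restrictNormalHom L') hσ

theorem s44mn_G_mono {H H' : Subgroup s44_G} (h : H ≤ H') (L' : IntermediateField ℚ Qb)
    [Normal ℚ L'] : s44mn_G H L' ≤ s44mn_G H' L' :=
  Subgroup.map_mono h

/-- **the finite-level Kummer data** indexed by a subgroup `G ≤ Gal(L'/ℚ)`. -/
structure s44mn_KData (L' : IntermediateField ℚ Qb) (p : ℕ) (G : Subgroup (L' ≃ₐ[ℚ] L'))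
    (ζ1 β1 : L') (fx1 fv1 : ↥(lg_F L' N)) (k a : ↥G → ℕ) (e gv : ↥G → ↥(lg_F L' N))
    (cc : ↥G → L') : Prop where
  zeta : ∀ g : ↥G, (g : L' ≃ₐ[ℚ] L') ζ1 = ζ1 ^ k g
  beta : ∀ g : ↥G, (g : L' ≃ₐ[ℚ] L') β1 = ζ1 ^ a g * β1
  k_ne : ∀ g : ↥G, ¬ p ∣ k g
  e_ne : ∀ g : ↥G, e g ≠ 0
  gv_ne : ∀ g : ↥G, gv g ≠ 0
  cc_ne : ∀ g : ↥G, cc g ≠ 0
  relX : ∀ g : ↥G, coeffMap (((g : L' ≃ₐ[ℚ] L') : L' ≃ₐ[ℚ] L') : L' →+* L')
    (fx1 : LaurentSeries L') = (e g : LaurentSeries L') ^ p * (fx1 : LaurentSeries L') ^ k g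
  relV : ∀ g : ↥G, coeffMap (((g : L' ≃ₐ[ℚ] L') : L' ≃ₐ[ℚ] L') : L' →+* L')
    (fv1 : LaurentSeries L') = algebraMap L' (LaurentSeries L') (cc g) *
      ((fv1 : LaurentSeries L') * (fx1 : LaurentSeries L') ^ a g) * (gv g : LaurentSeries L') ^ p

variable {ζ : Qb} (hζ : IsPrimitiveRoot ζ p) (β : Qb) {X : JZero N} (hX : p • X = 0) (V : JZero N)

/-- **[H2-D](c) GLUE.** -/
theorem s44mn_glue (hβ0 : β ≠ 0) (hV : p • V = 0) :
    ∃ T0 : Finset Qb, ∀ L' : IntermediateField ℚ Qb, FiniteDimensional ℚ L' → ∀ _ : Normal ℚ L',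
      (↑T0 : Set Qb) ⊆ L' →
      ∃ (ζ1 β1 : L') (fx1 fv1 : ↥(lg_F L' N)),
        algebraMap L' Qb ζ1 = ζ ∧ algebraMap L' Qb β1 = β ∧
        s44f_Rep N p X (ssm_al_iotaF L' N fx1) ∧ s44f_Rep N p V (ssm_al_iotaF L' N fv1) ∧
        (fx1 : LaurentSeries L').leadingCoeff = 1 ∧ (p : ℤ) ∣ (fx1 : LaurentSeries L').order ∧
        ∃ (k a : ↥(s44mn_G (s44md_H hζ β hX V) L') → ℕ)
          (e gv : ↥(s44mn_G (s44md_H hζ β hX V) L') → ↥(lg_F L' N))
          (cc : ↥(s44mn_G (s44md_H hζ β hX V) L') → L'),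
          s44mn_KData N L' p (s44mn_G (s44md_H hζ β hX V) L') ζ1 β1 fx1 fv1 k a e gv cc := by
  classical
  obtain ⟨fX0, hfX0⟩ := s44b_rep_exists N hX
  obtain ⟨fX, hfX, hlcX⟩ := s44mn_rep_normalize N hfX0
  obtain ⟨fV, hfV⟩ := s44b_rep_exists N hV
  obtain ⟨T0, hT0⟩ := s44mdb_descent N hpF.out hζ hβ0 hfX hfV
  refine ⟨T0, fun L' hfd hn hsub => ?_⟩
  obtain ⟨ζ1, β1, fx1, fv1, hζ1, hβ1, hfx1, hfv1, hrel⟩ := hT0 L' hfd hn hsub
  have hinj : Function.Injective (algebraMap L' Qb) := (algebraMap L' Qb).injective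
  refine ⟨ζ1, β1, fx1, fv1, hζ1, hβ1, by rw [hfx1]; exact hfX, by rw [hfv1]; exact hfV, ?_, ?_, ?_⟩
  · -- leading coefficient
    have h1 : ((ssm_al_iotaF L' N fx1 : FN) : LaurentSeries Qb).leadingCoeff = 1 := by
      rw [hfx1]; exact hlcX
    rw [ssm_al_coe_iotaF, gd_leadingCoeff_coeffMap hinj] at h1
    exact hinj (h1.trans (map_one _).symm)
  · -- order
    have h1 := s44mn_order_dvd N hfX
    rw [← hfx1, ssm_al_coe_iotaF, gd_order_coeffMap hinj] at h1
    exact h1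
  · -- the data indexed by `G`
    have hlift : ∀ g : ↥(s44mn_G (s44md_H hζ β hX V) L'),
        ∃ σ : s44_G, σ ∈ s44md_H hζ β hX V ∧ σ.restrictNormal L' = (g : L' ≃ₐ[ℚ] L') := by
      intro g
      obtain ⟨σ, hσ, hg⟩ := Subgroup.mem_map.1 g.2
      exact ⟨σ, hσ, hg⟩
    choose σ hσH hσg using hlift
    have hdata : ∀ g : ↥(s44mn_G (s44md_H hζ β hX V) L'),
        ∃ (κ c : L') (gx gv : ↥(lg_F L' N)), κ ≠ 0 ∧ c ≠ 0 ∧ gx ≠ 0 ∧ gv ≠ 0 ∧
          coeffMap (((g : L' ≃ₐ[ℚ] L') : L' ≃ₐ[ℚ] L') : L' →+* L') (fx1 : LaurentSeries L') =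
            algebraMap L' (LaurentSeries L') (κ ^ p) * (fx1 : LaurentSeries L') ^
              (s44md_kz hζ β hX V ⟨σ g, hσH g⟩).val * (gx : LaurentSeries L') ^ p ∧
          coeffMap (((g : L' ≃ₐ[ℚ] L') : L' ≃ₐ[ℚ] L') : L' →+* L') (fv1 : LaurentSeries L') =
            algebraMap L' (LaurentSeries L') c * (fv1 : LaurentSeries L') *
              (fx1 : LaurentSeries L') ^ (s44md_az hζ β hX V ⟨σ g, hσH g⟩).val *
                (gv : LaurentSeries L') ^ p := by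
      intro g
      have h := (hrel (σ g) _ _ (s44md_rel hζ β hX V ⟨σ g, hσH g⟩)).2.2
      rw [hσg g] at h
      exact h
    choose κ c gx gv hκ hc hgx hgv hrx hrv using hdata
    refine ⟨fun g => (s44md_kz hζ β hX V ⟨σ g, hσH g⟩).val,
      fun g => (s44md_az hζ β hX V ⟨σ g, hσH g⟩).val,
      fun g => algebraMap L' ↥(lg_F L' N) (κ g) * gx g, gv, c, ?_⟩
    refine ⟨fun g => ?_, fun g => ?_, fun g => ?_, fun g => ?_, hgv, hc, fun g => ?_, fun g => ?_⟩
    · have h := (hrel (σ g) _ _ (s44md_rel hζ β hX V ⟨σ g, hσH g⟩)).1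
      rw [hσg g] at h
      exact h
    · have h := (hrel (σ g) _ _ (s44md_rel hζ β hX V ⟨σ g, hσH g⟩)).2.1
      rw [hσg g] at h
      exact h
    · intro hdvd
      apply s44md_kz_ne_zero hζ β hX V ⟨σ g, hσH g⟩
      have h1 : ((s44md_kz hζ β hX V ⟨σ g, hσH g⟩).val : ZMod p) = 0 :=
        (ZMod.natCast_eq_zero_iff _ _).2 hdvd
      have : NeZero p := ⟨hpF.out.ne_zero⟩
      rwa [ZMod.natCast_zmod_val] at h1
    · exact mul_ne_zero ((_root_.map_ne_zero _).2 (hκ g)) (hgx g)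
    · rw [hrx g]
      have e1 : ((algebraMap L' ↥(lg_F L' N) (κ g) * gx g : ↥(lg_F L' N)) : LaurentSeries L') =
          algebraMap L' (LaurentSeries L') (κ g) * (gx g : LaurentSeries L') := rfl
      rw [e1, mul_pow, ← map_pow]
      ring
    · rw [hrv g]
      ring

end Glue

section Frame

variable {P : FreyPackage} {M : ℕ} [NeZero M] [NeZero (M * P.p)] (Fr : s44_Frame P M)

/-- **`Γ|L' ≤ G`** from the binders of `s44bg_Mono_stmt`. -/
theorem s44mn_inertia_le_G [Fact P.p.Prime] (hζ : IsPrimitiveRoot Fr.ζ P.p)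
    {X V : JZero (M * P.p)} (hX : P.p • X = 0) {a : s44_G → ℕ} {β : s44_Qb}
    (hchi : Fr.ChiEigen X) (hext : ∀ σ ∈ Fr.Γ, σ • V = V + a σ • X)
    (hβ : ∀ σ ∈ Fr.Γ, σ β = Fr.ζ ^ a σ * β) (L' : IntermediateField ℚ Qb) [Normal ℚ L'] :
    s44mn_G Fr.Γ L' ≤ s44mn_G (s44md_H hζ β hX V) L' :=
  s44mn_G_mono (s44md_inertia_le Fr hζ hX hchi hext hβ) L'

/-- the restriction of an element of the inertia group lies in `G`. -/
theorem s44mn_inertia_mem_G [Fact P.p.Prime] (hζ : IsPrimitiveRoot Fr.ζ P.p)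
    {X V : JZero (M * P.p)} (hX : P.p • X = 0) {a : s44_G → ℕ} {β : s44_Qb}
    (hchi : Fr.ChiEigen X) (hext : ∀ σ ∈ Fr.Γ, σ • V = V + a σ • X)
    (hβ : ∀ σ ∈ Fr.Γ, σ β = Fr.ζ ^ a σ * β) (L' : IntermediateField ℚ Qb) [Normal ℚ L']
    {σ : s44_G} (hσ : σ ∈ Fr.Γ) : σ.restrictNormal L' ∈ s44mn_G (s44md_H hζ β hX V) L' :=
  s44mn_inertia_le_G Fr hζ hX hchi hext hβ L' (s44mn_mem_G hσ)

end Frame

section NotPower

variable (N : ℕ) [NeZero N] {p : ℕ}

/-- **`hirr` of [H2-K]**: a function over `L'` representing `X ≠ 0` is not a constant times a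
`p`-th power in `lg_F L' N`. -/
theorem s44mn_not_const_mul_pth_power (hp0 : p ≠ 0) {X : JZero N} (hX0 : X ≠ 0)
    (L' : IntermediateField ℚ Qb) {fx1 : ↥(lg_F L' N)}
    (hfx : s44f_Rep N p X (ssm_al_iotaF L' N fx1)) (c : L') (b : ↥(lg_F L' N)) :
    algebraMap L' ↥(lg_F L' N) c * b ^ p ≠ fx1 := by
  intro h
  have hfx0 : fx1 ≠ 0 := by
    rintro rfl
    exact hfx.1 (map_zero _)
  have hc0 : c ≠ 0 := by
    rintro rfl
    rw [map_zero, zero_mul] at h
    exact hfx0 h.symm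
  have hb0 : b ≠ 0 := by
    rintro rfl
    rw [zero_pow hp0, mul_zero] at h
    exact hfx0 h.symm
  have h1 : ssm_al_iotaF L' N fx1 =
      algebraMap Qb (modularFunctionFieldBar N) (algebraMap L' Qb c) * ssm_al_iotaF L' N b ^ p := by
    rw [← h, map_mul, map_pow, ssm_al_iotaF_algebraMap]
  have h2 : s44f_Rep N p (0 : JZero N) (ssm_al_iotaF L' N fx1) := by
    rw [h1]
    exact s44b_rep_zero_of N ((_root_.map_ne_zero _).2 hc0)
      ((_root_.map_ne_zero (ssm_al_iotaF L' N)).2 hb0)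
  exact hX0 (s44b_rep_inj N hp0 hfx h2)

/-- in particular it is not a `p`-th power. -/
theorem s44mn_not_pth_power (hp0 : p ≠ 0) {X : JZero N} (hX0 : X ≠ 0)
    (L' : IntermediateField ℚ Qb) {fx1 : ↥(lg_F L' N)}
    (hfx : s44f_Rep N p X (ssm_al_iotaF L' N fx1)) (b : ↥(lg_F L' N)) : b ^ p ≠ fx1 := by
  have := s44mn_not_const_mul_pth_power N hp0 hX0 L' hfx 1 b
  rwa [map_one, one_mul] at this

end NotPower

end Fermat.Agent.S44
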