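/-
Project S44 (Mazur–Ribet at `p`), cell [H2] MONO-MAIN, SUB [S-TR] (K-UNIF) (helper23).
Prefix `s44kv_`.

THE KUMMER PACKAGE OVER ALL LARGE NORMAL NUMBER FIELDS, COMPATIBLY.

* `s44kv_pth_power_descend` : `p ∤ [E : F]` ⟹ an element of `F` which is a `p`-th power in `E` is
  a `p`-th power in `F` (norm argument);
* `s44kv_not_pth_power_E`   : `hirr` of [H2-K] at the Legendre cover: `f ∈ lg_F k N` not a `p`-th
  power, `p ≥ 5` ⟹ `φ(f)` is not a `p`-th power in `lg_E k N`;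
* `s44kv_pack_one`          : the package over ONE field `L` (`E = lg_E L N`, `fv = φ(fv1)`,
  `y ^ p = φ(fx1)`) from the finite-level Kummer data;
* `s44kv_unif`              : (K-UNIF).
-/
import Mathlib
import Fermat.Agent.S44.Mono.KummerQL
import Fermat.Agent.S44.Mono.KummerQU
import Fermat.Agent.S44.Mono.DataGlue
import Fermat.Agent.S44.Res.RamInst
import Fermat.Agent.SS.Model.ALBC
import Fermat.Agent.S28.Formal.Subst

set_option autoImplicit false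
set_option linter.unusedSectionVars false
set_option linter.style.haveILetI false

noncomputable section

namespace Fermat.Agent.S44

open ModularCurve AlgebraicCurve Fermat.Agent.JT3 Fermat.Agent.SS Fermat.Agent.S28

local notation "Qb" => AlgebraicClosure ℚ

/-! ### `p`-th powers and extensions of degree prime to `p` -/

section Norm

/-- if `p ∤ [E : F]`, an element of `F` which is a `p`-th power in `E` is a `p`-th power in `F`. -/
theorem s44kv_pth_power_descend {F E : Type*} [Field F] [Field E] [Algebra F E]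
    [Module.Finite F E] {p : ℕ} (hp : p.Prime) (hpn : ¬ p ∣ Module.finrank F E) {f : F} {b : E}
    (h : b ^ p = algebraMap F E f) : ∃ b' : F, b' ^ p = f := by
  by_cases hf : f = 0
  · exact ⟨0, by rw [hf, zero_pow hp.ne_zero]⟩
  set n := Module.finrank F E with hn
  have hcop : Nat.Coprime p n := (Nat.Prime.coprime_iff_not_dvd hp).2 hpn
  have hnorm : Algebra.norm F b ^ p = f ^ n := by
    rw [← map_pow, h, Algebra.norm_algebraMap]
  have hgcd : ((p : ℤ)) * Int.gcdA p n + (n : ℤ) * Int.gcdB p n = 1 := by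
    have := Int.gcd_eq_gcd_ab (p : ℤ) (n : ℤ)
    rw [Int.gcd_natCast_natCast, hcop] at this
    exact_mod_cast this.symm
  refine ⟨f ^ Int.gcdA p n * Algebra.norm F b ^ Int.gcdB p n, ?_⟩
  have h1 : (Algebra.norm F b ^ Int.gcdB p n) ^ p = (f ^ (n : ℤ)) ^ Int.gcdB p n := by
    rw [← zpow_natCast (Algebra.norm F b ^ Int.gcdB p n) p, ← zpow_mul, mul_comm, zpow_mul,
      zpow_natCast, hnorm, zpow_natCast]
  have h2 : (f ^ Int.gcdA p n) ^ p = f ^ ((p : ℤ) * Int.gcdA p n) := by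
    rw [← zpow_natCast (f ^ Int.gcdA p n) p, ← zpow_mul, mul_comm]
  rw [mul_pow, h1, h2, ← zpow_mul, ← zpow_add₀ hf, hgcd, zpow_one]

end Norm

section Leg

variable {k : Type*} [Field k] (N : ℕ) [NeZero N]

/-- **`hirr` at the Legendre cover.** -/
theorem s44kv_not_pth_power_E (h2 : (2 : k) ≠ 0) {p : ℕ} (hp : p.Prime) (hp5 : 5 ≤ p)
    {f : ↥(lg_F k N)} (hf : ∀ b : ↥(lg_F k N), b ^ p ≠ f) :
    ∀ b ∈ lg_E k N, b ^ p ≠ lg_phi k (f : LaurentSeries k) := by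
  intro b hb h
  letI := algebraAlong (lg_phiE (L := k) (N := N))
  haveI : Module.Finite ↥(lg_F k N) ↥(lg_E k N) := s44rr_finiteAlong N h2
  have hnd : ¬ p ∣ Module.finrank ↥(lg_F k N) ↥(lg_E k N) :=
    (s44rr_not_dvd_finrank (k := k) N h2 p hp hp5).1
  have h' : (⟨b, hb⟩ : ↥(lg_E k N)) ^ p = algebraMap ↥(lg_F k N) ↥(lg_E k N) f :=
    Subtype.ext h
  obtain ⟨b', hb'⟩ := s44kv_pth_power_descend hp hnd h'
  exact hf b' hb'

end Leg

/-! ### the `p`-th root of `φ(fx1)` -/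

section Root

variable {L : Type*} [Field L]

theorem s44kv_leadingCoeff_qExpand (n : ℕ) [NeZero n] (f : LaurentSeries L) :
    (qExpand L n f).leadingCoeff = f.leadingCoeff := by
  rw [HahnSeries.leadingCoeff_eq, HahnSeries.leadingCoeff_eq, fs_qExpand_order,
    qExpand_coeff_mul]

/-- `φ(f)` has a `p`-th root in `L((q))` when `f` has leading coefficient `1` and order divisible
by `p`. -/
theorem s44kv_exists_root [CharZero L] {p : ℕ} (hp0 : p ≠ 0) {f : LaurentSeries L} (hf : f ≠ 0)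
    (hlc : f.leadingCoeff = 1) (hord : (p : ℤ) ∣ f.order) :
    ∃ y : LaurentSeries L, y ^ p = lg_phi L f := by
  refine s44kq_exists_root hp0 (by exact_mod_cast hp0) ?_ ?_ ⟨1, ?_⟩
  · exact fun h => hf ((map_eq_zero (lg_phi L)).1 h)
  · rw [lg_phi_apply, fs_qExpand_order]
    exact Dvd.dvd.mul_left hord _
  · rw [lg_phi_apply, s44kv_leadingCoeff_qExpand, hlc, one_pow]

end Root

/-! ### the package over one field -/

section One

variable {L : Type*} [Field L] [CharZero L] {G : Type*} [Group G] [MulSemiringAction G L]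

attribute [local instance] s44kq_lsAction

/-- **the Kummer package at the Legendre cover over one field `L`** from the finite-level Kummer
data (shape of helper7's `s44mn_KData`). -/
theorem s44kv_pack_one [Finite G] [FaithfulSMul G L] (N : ℕ) [NeZero N] {p : ℕ} (hp : p.Prime)
    (hp5 : 5 ≤ p) {ζ β : L} (hζ : IsPrimitiveRoot ζ p) (hβ0 : β ≠ 0) {fx fv : ↥(lg_F L N)}
    (hfx : ∀ b : ↥(lg_F L N), b ^ p ≠ fx) (hfv0 : fv ≠ 0)
    (k a : G → ℕ) (e gv : G → ↥(lg_F L N)) (cc : G → L)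
    (hk : ∀ σ : G, σ • ζ = ζ ^ k σ) (ha : ∀ σ : G, σ • β = ζ ^ a σ * β)
    (hgv0 : ∀ σ, gv σ ≠ 0) (hcc0 : ∀ σ, cc σ ≠ 0)
    (relX : ∀ σ : G, coeffMap (MulSemiringAction.toRingHom G L σ) (fx : LaurentSeries L) =
      (e σ : LaurentSeries L) ^ p * (fx : LaurentSeries L) ^ k σ)
    (relV : ∀ σ : G, coeffMap (MulSemiringAction.toRingHom G L σ) (fv : LaurentSeries L) =
      algebraMap L (LaurentSeries L) (cc σ) *
        ((fv : LaurentSeries L) * (fx : LaurentSeries L) ^ a σ) * (gv σ : LaurentSeries L) ^ p)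
    {y : LaurentSeries L} (hy : y ^ p = lg_phi L (fx : LaurentSeries L)) :
    ∃ (Lb : Subfield (LaurentSeries L)) (τ : ↥Lb ≃+* ↥Lb) (c : LaurentSeries L) (g Φ h : ↥Lb),
      s44kq_Pack (G := G) (lg_E L N).toSubfield p (algebraMap L (LaurentSeries L) ζ) y
        (lg_phi L (fv : LaurentSeries L)) (algebraMap L (LaurentSeries L) β) (s44kq_lc L)
        Lb τ c g Φ h := by
  have h2 : (2 : L) ≠ 0 := two_ne_zero
  have hfx0 : (fx : LaurentSeries L) ≠ 0 := by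
    intro h0
    refine hfx 0 ?_
    rw [zero_pow hp.ne_zero]
    exact (Subtype.ext h0).symm
  have hφinj : Function.Injective (lg_phi L) := (lg_phi L).toRingHom.injective
  refine s44kq_main_ls (G := G) (lg_E L N) (fun σ x hx => ssm_al_coeffMap_mem_E_bc _ N hx) hp hζ
    k hk ?_ ?_ ?_ ?_ (lg_phi_mem_E L N fv.2) ?_ a cc (fun σ => lg_phi L (gv σ : LaurentSeries L))
    hcc0 (fun σ => lg_phi_mem_E L N (gv σ).2) ?_ ?_ hβ0 ha
  · rw [hy]
    exact lg_phi_mem_E L N fx.2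
  · intro hy0
    rw [hy0, zero_pow hp.ne_zero] at hy
    exact hfx0 (hφinj (hy.symm.trans (map_zero _).symm))
  · rw [hy]
    exact s44kv_not_pth_power_E N h2 hp hp5 hfx
  · intro σ
    refine ⟨lg_phi L (e σ : LaurentSeries L), lg_phi_mem_E L N (e σ).2, ?_⟩
    rw [mul_pow, ← pow_mul, mul_comm (k σ) p, pow_mul, hy, lg_coeffMap_phi, relX σ, map_mul,
      map_pow, map_pow]
  · intro h0
    exact hfv0 (Subtype.ext (hφinj (h0.trans (map_zero _).symm)))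
  · intro σ h0
    exact hgv0 σ (Subtype.ext (hφinj (h0.trans (map_zero _).symm)))
  · intro σ
    rw [lg_coeffMap_phi, relV σ, map_mul, map_mul, map_mul, map_pow, map_pow, hy,
      AlgHom.commutes]

end One

/-! ### two normal number fields `L₁ ≤ L₂ ⊆ ℚ̄` -/

section Step

variable (N : ℕ) [NeZero N] {p : ℕ} (H : Subgroup s44_G) {L₁ L₂ : IntermediateField ℚ Qb}
  (hle : L₁ ≤ L₂)

/-- the inclusion `L₁ → L₂` as a ring homomorphism. -/
def s44kv_incl : ↥L₁ →+* ↥L₂ := (IntermediateField.inclusion hle).toRingHom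

theorem s44kv_incl_algebraMap (a : ↥L₁) :
    algebraMap ↥L₂ Qb (s44kv_incl hle a) = algebraMap ↥L₁ Qb a := rfl

/-- the coefficient embeddings are compatible. -/
theorem s44kv_iota_incl (z : LaurentSeries ↥L₁) :
    ssm_al_iota ↥L₂ (coeffMap (s44kv_incl hle) z) = ssm_al_iota ↥L₁ z := by
  rw [ssm_al_iota, coeffMap_coeffMap]
  exact coeffMap_congr (RingHom.ext fun a => s44kv_incl_algebraMap hle a) z

theorem s44kv_iotaF_bcF (x : ↥(lg_F ↥L₁ N)) :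
    ssm_al_iotaF ↥L₂ N (ssm_al_bcF (s44kv_incl hle) N x) = ssm_al_iotaF ↥L₁ N x :=
  Subtype.ext (s44kv_iota_incl hle (x : LaurentSeries ↥L₁))

variable [Normal ℚ L₁] [Normal ℚ L₂]

/-- a restriction map `G₂ → G₁` for the images of `H` (by choice of lifts). -/
theorem s44kv_exists_rho :
    ∃ ρ : ↥(s44mn_G H L₂) → ↥(s44mn_G H L₁), ∀ (σ : ↥(s44mn_G H L₂)) (a : ↥L₁),
      σ • s44kv_incl hle a = s44kv_incl hle (ρ σ • a) := by
  have hlift : ∀ σ' : ↥(s44mn_G H L₂), ∃ σ : s44_G, σ ∈ H ∧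
      σ.restrictNormal L₂ = (σ' : ↥L₂ ≃ₐ[ℚ] ↥L₂) := by
    intro σ'
    obtain ⟨σ, hσ, hg⟩ := Subgroup.mem_map.1 σ'.2
    exact ⟨σ, hσ, hg⟩
  choose σ hσH hσ using hlift
  refine ⟨fun σ' => ⟨(σ σ').restrictNormal L₁, s44mn_mem_G (hσH σ')⟩, fun σ' a => ?_⟩
  apply (algebraMap ↥L₂ Qb).injective
  have h1 : σ' • s44kv_incl hle a = (σ σ').restrictNormal L₂ (s44kv_incl hle a) := by
    rw [hσ σ']
    rfl
  rw [h1, AlgEquiv.restrictNormal_commutes, s44kv_incl_algebraMap, s44kv_incl_algebraMap]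
  exact (AlgEquiv.restrictNormal_commutes (σ σ') L₁ a).symm

attribute [local instance] s44kq_lsAction

/-- **(K-UNIF), one step**: the package over `L₁` gives the package over `L₂ ⊇ L₁`. -/
theorem s44kv_step (hp : p.Prime) (hp5 : 5 ≤ p) {ζ1 β1 : ↥L₁} (hζ : IsPrimitiveRoot ζ1 p)
    {fx1 fv1 : ↥(lg_F ↥L₁ N)} {y : LaurentSeries ↥L₁}
    (hy : y ^ p = lg_phi ↥L₁ (fx1 : LaurentSeries ↥L₁))
    (hfx2 : ∀ b : ↥(lg_F ↥L₂ N), b ^ p ≠ ssm_al_bcF (s44kv_incl hle) N fx1)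
    {Lb₁ : Subfield (LaurentSeries ↥L₁)} {τ₁ : ↥Lb₁ ≃+* ↥Lb₁} {c : LaurentSeries ↥L₁}
    {g Φ h : ↥Lb₁}
    (P₁ : s44kq_Pack (G := ↥(s44mn_G H L₁)) (lg_E ↥L₁ N).toSubfield p
      (algebraMap ↥L₁ (LaurentSeries ↥L₁) ζ1) y (lg_phi ↥L₁ (fv1 : LaurentSeries ↥L₁))
      (algebraMap ↥L₁ (LaurentSeries ↥L₁) β1) (s44kq_lc ↥L₁) Lb₁ τ₁ c g Φ h) :
    ∃ (Lb₂ : Subfield (LaurentSeries ↥L₂)) (τ₂ : ↥Lb₂ ≃+* ↥Lb₂)
      (hmap : ∀ z ∈ Lb₁, coeffMap (s44kv_incl hle) z ∈ Lb₂),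
      s44kq_Pack (G := ↥(s44mn_G H L₂)) (lg_E ↥L₂ N).toSubfield p
        (algebraMap ↥L₂ (LaurentSeries ↥L₂) (s44kv_incl hle ζ1)) (coeffMap (s44kv_incl hle) y)
        (lg_phi ↥L₂ ((ssm_al_bcF (s44kv_incl hle) N fv1 : ↥(lg_F ↥L₂ N)) : LaurentSeries ↥L₂))
        (algebraMap ↥L₂ (LaurentSeries ↥L₂) (s44kv_incl hle β1)) (s44kq_lc ↥L₂) Lb₂ τ₂
        (coeffMap (s44kv_incl hle) c) (s44kq_mapLb (coeffMap (s44kv_incl hle)) hmap g)
        (s44kq_mapLb (coeffMap (s44kv_incl hle)) hmap Φ)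
        (s44kq_mapLb (coeffMap (s44kv_incl hle)) hmap h) ∧
      ∀ (j : ℕ) (z : ↥Lb₁), (⇑τ₂)^[j] (s44kq_mapLb (coeffMap (s44kv_incl hle)) hmap z) =
        s44kq_mapLb (coeffMap (s44kv_incl hle)) hmap ((⇑τ₁)^[j] z) := by
  obtain ⟨ρ, hρ⟩ := s44kv_exists_rho H hle
  have h2 : (2 : ↥L₂) ≠ 0 := two_ne_zero
  have hyE : y ^ p ∈ lg_E ↥L₁ N := by
    rw [hy]
    exact lg_phi_mem_E ↥L₁ N fx1.2
  have hirr : ∀ b ∈ lg_E ↥L₂ N, b ^ p ≠ coeffMap (s44kv_incl hle) y ^ p := by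
    rw [← map_pow, hy, lg_coeffMap_phi]
    exact s44kv_not_pth_power_E N h2 hp hp5 hfx2
  have key := s44kq_pack_transport_ls (G₁ := ↥(s44mn_G H L₁)) (G₂ := ↥(s44mn_G H L₂))
    (s44kv_incl hle) ρ hρ (E₁ := lg_E ↥L₁ N) (lg_E ↥L₂ N)
    (fun x hx => ssm_al_coeffMap_mem_E_bc _ N hx)
    (fun σ x hx => ssm_al_coeffMap_mem_E_bc _ N hx) hp hζ hyE hirr P₁
  rw [lg_coeffMap_phi] at key
  exact key

end Step

/-! ### (K-UNIF) -/

section Unif

/-- a finite-dimensional subfield of `ℚ̄` is contained in every subfield containing a suitable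
finite set. -/
theorem s44kv_exists_gen (L₁ : IntermediateField ℚ Qb) [FiniteDimensional ℚ L₁] :
    ∃ T : Finset Qb, ∀ L' : IntermediateField ℚ Qb, (↑T : Set Qb) ⊆ L' → L₁ ≤ L' := by
  have h1 : L₁.toSubalgebra.toSubmodule.FG := Module.Finite.iff_fg.1 ‹FiniteDimensional ℚ L₁›
  have hfg : L₁.FG := IntermediateField.fg_of_fg_toSubalgebra _ (Subalgebra.fg_of_fg_toSubmodule h1)
  obtain ⟨T, hT⟩ := hfg
  exact ⟨T, fun L' h => by rw [← hT]; exact IntermediateField.adjoin_le_iff.2 h⟩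

variable (N : ℕ) [NeZero N] {p : ℕ} [hpF : Fact p.Prime]

local notation "FN" => modularFunctionFieldBar N

attribute [local instance] s44kq_lsAction

/-- **(K-UNIF)**: the Kummer package at the Legendre cover over EVERY large normal number field
`L'`, with `y`, `c`, `g`, `Φ` and all `τ^j h` having images in `ℚ̄((q))` independent of `L'`. -/
theorem s44kv_unif (hp5 : 5 ≤ p) {ζ : Qb} (hζ : IsPrimitiveRoot ζ p) (β : Qb) {X : JZero N}
    (hX : p • X = 0) (V : JZero N) (hβ0 : β ≠ 0) (hV : p • V = 0) (hX0 : X ≠ 0) :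
    ∃ (T₁ : Finset Qb) (fX fV : FN) (ybar cbar gbar Φbar : LaurentSeries Qb)
      (hbar : ℕ → LaurentSeries Qb),
      s44f_Rep N p X fX ∧ s44f_Rep N p V fV ∧ (fX : LaurentSeries Qb).leadingCoeff = 1 ∧
      ybar ^ p = lg_phi Qb (fX : LaurentSeries Qb) ∧
      ∀ L' : IntermediateField ℚ Qb, FiniteDimensional ℚ L' → ∀ _ : Normal ℚ L',
        (↑T₁ : Set Qb) ⊆ L' →
        ∃ (ζ1 β1 : ↥L') (fx1 fv1 : ↥(lg_F ↥L' N)) (y c : LaurentSeries ↥L')
          (Lb : Subfield (LaurentSeries ↥L')) (τ : ↥Lb ≃+* ↥Lb) (g Φ h : ↥Lb),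
          algebraMap ↥L' Qb ζ1 = ζ ∧ algebraMap ↥L' Qb β1 = β ∧
          ssm_al_iotaF ↥L' N fx1 = fX ∧ ssm_al_iotaF ↥L' N fv1 = fV ∧
          y ^ p = lg_phi ↥L' (fx1 : LaurentSeries ↥L') ∧
          s44kq_Pack (G := ↥(s44mn_G (s44md_H hζ β hX V) L')) (lg_E ↥L' N).toSubfield p
            (algebraMap ↥L' (LaurentSeries ↥L') ζ1) y (lg_phi ↥L' (fv1 : LaurentSeries ↥L'))
            (algebraMap ↥L' (LaurentSeries ↥L') β1) (s44kq_lc ↥L') Lb τ c g Φ h ∧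
          ssm_al_iota ↥L' y = ybar ∧ ssm_al_iota ↥L' c = cbar ∧
          ssm_al_iota ↥L' (g : LaurentSeries ↥L') = gbar ∧
          ssm_al_iota ↥L' (Φ : LaurentSeries ↥L') = Φbar ∧
          ∀ j : ℕ, ssm_al_iota ↥L' (((⇑τ)^[j] h : ↥Lb) : LaurentSeries ↥L') = hbar j := by
  classical
  have hp : p.Prime := hpF.out
  have hp0 : p ≠ 0 := hp.ne_zero
  obtain ⟨T0, hT0⟩ := s44mn_glue N hζ β hX V hβ0 hV
  obtain ⟨L₁, hfd₁, hn₁, hT0L₁, -⟩ := s44b_exists_nf N ∅ T0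
  haveI := hfd₁
  haveI := hn₁
  obtain ⟨T₁, hT₁⟩ := s44kv_exists_gen L₁
  obtain ⟨ζ1, β1, fx1, fv1, hζ1, hβ1, hrepX, hrepV, hlc, hord, k, a, e, gv, cc, KD⟩ :=
    hT0 L₁ hfd₁ hn₁ hT0L₁
  have hinj₁ : Function.Injective (algebraMap ↥L₁ Qb) := (algebraMap ↥L₁ Qb).injective
  have hζ1' : IsPrimitiveRoot ζ1 p :=
    IsPrimitiveRoot.of_map_of_injective (f := algebraMap ↥L₁ Qb) (by rw [hζ1]; exact hζ) hinj₁
  have hβ1' : β1 ≠ 0 := by
    rintro rfl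
    rw [map_zero] at hβ1
    exact hβ0 hβ1.symm
  have hfx10 : (fx1 : LaurentSeries ↥L₁) ≠ 0 := by
    intro h0
    apply hrepX.1
    rw [show fx1 = 0 from Subtype.ext h0, map_zero]
  have hfv10 : fv1 ≠ 0 := by
    rintro rfl
    exact hrepV.1 (map_zero _)
  obtain ⟨y₁, hy₁⟩ := s44kv_exists_root hp0 hfx10 hlc hord
  obtain ⟨Lb₁, τ₁, c₁, g₁, Φ₁, h₁, P₁⟩ := s44kv_pack_one
    (G := ↥(s44mn_G (s44md_H hζ β hX V) L₁)) N hp hp5 hζ1' hβ1'
    (s44mn_not_pth_power N hp0 hX0 L₁ hrepX) hfv10 k a e gv cc KD.zeta KD.beta KD.gv_ne KD.cc_ne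
    KD.relX KD.relV hy₁
  refine ⟨T₁, ssm_al_iotaF ↥L₁ N fx1, ssm_al_iotaF ↥L₁ N fv1, ssm_al_iota ↥L₁ y₁,
    ssm_al_iota ↥L₁ c₁, ssm_al_iota ↥L₁ (g₁ : LaurentSeries ↥L₁),
    ssm_al_iota ↥L₁ (Φ₁ : LaurentSeries ↥L₁),
    fun j => ssm_al_iota ↥L₁ (((⇑τ₁)^[j] h₁ : ↥Lb₁) : LaurentSeries ↥L₁), hrepX, hrepV, ?_, ?_, ?_⟩
  · rw [ssm_al_coe_iotaF, s44kq_leadingCoeff_coeffMap hinj₁, hlc, map_one]
  · rw [ssm_al_coe_iotaF, ← map_pow, hy₁]
    exact lg_coeffMap_phi _ _ _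
  · intro L' hfd hn hsub
    haveI := hfd
    haveI := hn
    have hle : L₁ ≤ L' := hT₁ L' hsub
    have hfx2 : ∀ b : ↥(lg_F ↥L' N), b ^ p ≠ ssm_al_bcF (s44kv_incl hle) N fx1 := by
      refine s44mn_not_pth_power N hp0 hX0 L' ?_
      rw [s44kv_iotaF_bcF]
      exact hrepX
    obtain ⟨Lb₂, τ₂, hmap, P₂, hiter⟩ := s44kv_step N (s44md_H hζ β hX V) hle hp hp5 hζ1' hy₁
      hfx2 P₁
    refine ⟨s44kv_incl hle ζ1, s44kv_incl hle β1, ssm_al_bcF (s44kv_incl hle) N fx1,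
      ssm_al_bcF (s44kv_incl hle) N fv1, coeffMap (s44kv_incl hle) y₁,
      coeffMap (s44kv_incl hle) c₁, Lb₂, τ₂, s44kq_mapLb (coeffMap (s44kv_incl hle)) hmap g₁,
      s44kq_mapLb (coeffMap (s44kv_incl hle)) hmap Φ₁,
      s44kq_mapLb (coeffMap (s44kv_incl hle)) hmap h₁, ?_, ?_, s44kv_iotaF_bcF N hle fx1,
      s44kv_iotaF_bcF N hle fv1, ?_, P₂, s44kv_iota_incl hle y₁, s44kv_iota_incl hle c₁,
      s44kv_iota_incl hle _, s44kv_iota_incl hle _, fun j => ?_⟩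
    · rw [s44kv_incl_algebraMap, hζ1]
    · rw [s44kv_incl_algebraMap, hβ1]
    · rw [← map_pow, hy₁]
      exact lg_coeffMap_phi _ _ _
    · rw [hiter j h₁]
      exact s44kv_iota_incl hle _

end Unif

end Fermat.Agent.S44
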