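/-
S44, cell [H2] MONO-MAIN, sub-cell [H2-R] (helper3; prefix `s44mr_`): FIELDS OF RATIONALITY OF PLACES,
ABSTRACT FORM.

`ssd_exists_stab` / `ssd_rational` (SS/Descent/Rational.lean, helper20) are stated for the fields
`laurentBaseChange L F₀`, `F₀ ⊆ ℚ((q))`.  The Kummer field `𝕃 = E(y)`, `y ^ p = f_x`, of [H2] is NOT of
this form (`y` has coefficients in a number field), so here is the same argument for an ARBITRARY
function field `Fb / Kb` (`Kb` algebraically closed of characteristic zero) with a group `G` acting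
by semilinear automorphisms (`ρ : G →* SemilinearAut Kb Fb`), every element of `Fb` being fixed by
the `g` fixing a finite set of constants (`s44mr_Fin ρ`).

* `s44mr_value_fixed` : `g` fixes the place `P` and the function `y` ⟹ it fixes the value `y(P)`;
* `s44mr_exists_stab` : the stabiliser of a place is open;
* `s44mr_rational`    : for `z ∈ Fb` there is a finite `s ⊆ Kb` such that for every model `F' / K'`
  of `Fb / Kb` (`Fb = F' · Kb`, `K' ⊇ s` the fixed field of its stabiliser, `F'` fixed by that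
  stabiliser) the zeros and poles of every model `z' ∈ F'` of `z` are `K'`-rational (`ss_RatPlace`).
-/
import Mathlib
import Fermat.Agent.SS.Descent.Rational
import Fermat.Agent.JT3.Descent.ConstExt
import Fermat.Agent.JT3.Descent.FieldOfDef

set_option autoImplicit false
set_option linter.unusedSectionVars false

noncomputable section

namespace Fermat.Agent.S44

open AlgebraicCurve Fermat.Agent.JT3 Fermat.Agent.S24 Fermat.Agent.SS IntermediateField

universe u v

section Abs

variable {Kb : Type*} {Fb : Type*} [Field Kb] [Field Fb] [Algebra Kb Fb]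

/-- if the semilinear automorphism `g` fixes the place `P` and the function `y`, its base
automorphism fixes the value of `y` at `P`. -/
theorem s44mr_value_fixed (P : Place Kb Fb) (g : SemilinearAut Kb Fb) (hgP : g • P = P)
    (y : Fb) (hy : g • y = y) (c : Kb)
    (hc : y - algebraMap Kb Fb c ∈ P.toValuationSubring.nonunits) :
    SemilinearAut.baseAut g c = c := by
  have hgc : g • (y - algebraMap Kb Fb c) =
      y - algebraMap Kb Fb (SemilinearAut.baseAut g c) := by
    rw [smul_sub, hy, SemilinearAut.smul_algebraMap]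
  by_cases h0 : y - algebraMap Kb Fb c = 0
  · rw [h0, smul_zero] at hgc
    have h1 : algebraMap Kb Fb c = algebraMap Kb Fb (SemilinearAut.baseAut g c) := by
      rw [← sub_eq_zero.1 h0, ← sub_eq_zero.1 hgc.symm]
    exact ((algebraMap Kb Fb).injective h1).symm
  · have h1 : 0 < P.ord (y - algebraMap Kb Fb c) := (ssd_mem_nonunits_iff P h0).1 hc
    have h2 : 0 < P.ord (y - algebraMap Kb Fb (SemilinearAut.baseAut g c)) := by
      have := SemilinearAut.ord_smul g P (y - algebraMap Kb Fb c)
      rw [hgP, hgc] at this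
      rw [this]
      exact h1
    by_contra hne
    have hd : SemilinearAut.baseAut g c - c ≠ 0 := sub_ne_zero.2 hne
    have h3 : P.ord (algebraMap Kb Fb (SemilinearAut.baseAut g c - c)) = 0 :=
      hw_ord_algebraMap P _
    have hd' : algebraMap Kb Fb (SemilinearAut.baseAut g c - c) ≠ 0 := by
      rwa [Ne, map_eq_zero]
    have h20 : y - algebraMap Kb Fb (SemilinearAut.baseAut g c) ≠ 0 := by
      intro h
      rw [h] at h2
      simp at h2
    have hsum : (y - algebraMap Kb Fb c) + -(y - algebraMap Kb Fb (SemilinearAut.baseAut g c)) =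
        algebraMap Kb Fb (SemilinearAut.baseAut g c - c) := by
      rw [map_sub]; ring
    have h4 := hw_ord_add_ge P h0 (neg_ne_zero.2 h20) (by rw [hsum]; exact hd')
    rw [hsum, h3, hw_ord_neg] at h4
    have := lt_min h1 h2
    omega

variable {G : Type*} [Group G] (ρ : G →* SemilinearAut Kb Fb)

/-- `g` fixes the finite set `s` of constants. -/
def s44mr_FixesSet (s : Finset Kb) (g : G) : Prop :=
  ∀ c ∈ s, SemilinearAut.baseAut (ρ g) c = c

/-- every element of `Fb` is fixed by the `g ∈ G` fixing a finite set of constants. -/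
def s44mr_Fin : Prop :=
  ∀ y : Fb, ∃ s : Finset Kb, ∀ g : G, s44mr_FixesSet ρ s g → ρ g • y = y

theorem s44mr_fixesSet_mono {s t : Finset Kb} (h : s ⊆ t) {g : G} (hg : s44mr_FixesSet ρ t g) :
    s44mr_FixesSet ρ s g := fun c hc => hg c (h hc)

variable [IsAlgClosed Kb] [CharZero Kb]

/-- **the stabiliser of a place is open.** -/
theorem s44mr_exists_stab (hfin : s44mr_Fin ρ) (x0 : Fb) [FiniteDimensional Kb⟮x0⟯ Fb]
    (P : Place Kb Fb) :
    ∃ s : Finset Kb, ∀ g : G, s44mr_FixesSet ρ s g → ρ g • P = P := by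
  classical
  obtain ⟨π, hπ⟩ := IsDiscreteValuationRing.exists_irreducible P.toValuationSubring
  set t : Fb := (π : Fb) with ht
  have htP : P.ord t = 1 := P.ord_coe_irreducible hπ
  have hZ : {P' : Place Kb Fb | P'.ord t ≠ 0}.Finite := jt_finite_ord_ne_zero (K := Kb) x0 t
  obtain ⟨st, hst⟩ := hfin t
  have hsep : ∀ P' : Place Kb Fb, P' ≠ P → ∃ y : Fb, 0 < P.ord y ∧ P'.ord y ≤ 0 := fun P' hP' =>
    ssd_exists_sep (Ne.symm hP') (by rw [htP]; norm_num)
  set ysel : Place Kb Fb → Fb := fun P' =>
    if h : P' ≠ P then (hsep P' h).choose else 1 with hysel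
  have hysel_spec : ∀ P', P' ≠ P → 0 < P.ord (ysel P') ∧ P'.ord (ysel P') ≤ 0 := by
    intro P' hP'
    rw [hysel]
    simp only [dif_pos hP']
    exact (hsep P' hP').choose_spec
  set ssel : Place Kb Fb → Finset Kb := fun P' => (hfin (ysel P')).choose with hssel
  have hssel_spec : ∀ P' (g : G), s44mr_FixesSet ρ (ssel P') g → ρ g • ysel P' = ysel P' :=
    fun P' => (hfin (ysel P')).choose_spec
  refine ⟨st ∪ hZ.toFinset.biUnion ssel, fun g hg => ?_⟩
  have hgt : ρ g • t = t := hst g (s44mr_fixesSet_mono ρ Finset.subset_union_left hg)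
  have hgP : (ρ g • P).ord t = 1 := by
    have := SemilinearAut.ord_smul (ρ g) P t
    rw [hgt] at this
    rw [this, htP]
  by_contra hne
  have hmemZ : ρ g • P ∈ hZ.toFinset := by
    rw [Set.Finite.mem_toFinset, Set.mem_setOf_eq, hgP]
    norm_num
  have hy := hysel_spec (ρ g • P) hne
  have hfix : ρ g • ysel (ρ g • P) = ysel (ρ g • P) := by
    apply hssel_spec
    intro x hx
    exact hg x (Finset.mem_union_right _ (Finset.mem_biUnion.2 ⟨ρ g • P, hmemZ, hx⟩))
  have := SemilinearAut.ord_smul (ρ g) P (ysel (ρ g • P))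
  rw [hfix] at this
  omega

/-- **fields of rationality, abstract form.** For `z ∈ Fb` there is a finite set `s ⊆ Kb` such that
for every model `F' / K'` of `Fb / Kb`:
* `hs`   : `K' ⊇ s`,
* `htop` : `Fb = F' · Kb`,
* `hF'`  : the elements of `F'` are fixed by the `g ∈ G` fixing `K'`,
* `hK'`  : a constant fixed by all `g ∈ G` fixing `K'` lies in `K'`,
and every model `z' ∈ F'` of `z`, the zeros and poles of `z'` are `K'`-rational places of `F' / K'`. -/
theorem s44mr_rational (hfin : s44mr_Fin ρ) (x0 : Fb) [FiniteDimensional Kb⟮x0⟯ Fb] (z : Fb) :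
    ∃ s : Finset Kb, ∀ (K' : Type u) (F' : Type v) [Field K'] [Field F'] [Algebra K' Kb]
      [Algebra K' F'] [Algebra F' Fb] [Algebra K' Fb] [IsScalarTower K' F' Fb]
      [IsScalarTower K' Kb Fb] [Algebra.IsAlgebraic K' Kb] [Algebra.IsSeparable K' Kb],
      (↑s : Set Kb) ⊆ Set.range (algebraMap K' Kb) →
      (∀ y : Fb, y ∈ Subfield.closure
        (Set.range (algebraMap F' Fb) ∪ Set.range (algebraMap Kb Fb))) →
      (∀ g : G, (∀ c : K', SemilinearAut.baseAut (ρ g) (algebraMap K' Kb c) = algebraMap K' Kb c) →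
        ∀ x : F', ρ g • algebraMap F' Fb x = algebraMap F' Fb x) →
      (∀ c : Kb, (∀ g : G,
        (∀ c' : K', SemilinearAut.baseAut (ρ g) (algebraMap K' Kb c') = algebraMap K' Kb c') →
          SemilinearAut.baseAut (ρ g) c = c) → c ∈ Set.range (algebraMap K' Kb)) →
      ∀ z' : F', algebraMap F' Fb z' = z →
        ∀ v : Place K' F', v.ord z' ≠ 0 → ss_RatPlace v := by
  classical
  have hZ : {P : Place Kb Fb | P.ord z ≠ 0}.Finite := jt_finite_ord_ne_zero (K := Kb) x0 z
  set ssel : Place Kb Fb → Finset Kb := fun P => (s44mr_exists_stab ρ hfin x0 P).choose with hssel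
  have hssel_spec : ∀ P (g : G), s44mr_FixesSet ρ (ssel P) g → ρ g • P = P :=
    fun P => (s44mr_exists_stab ρ hfin x0 P).choose_spec
  refine ⟨hZ.toFinset.biUnion ssel, ?_⟩
  intro K' F' _ _ _ _ _ _ _ _ _ _ hs htop hF' hK' z' hz' v hv a ha
  obtain ⟨P, hP⟩ := dsc_exists_place (K0 := K') (Kbar := Kb) (F0 := F') (Fbar := Fb)
    (dsc_hgen_of_closure (K0 := K') htop) v
  have hPZ : P ∈ hZ.toFinset := by
    rw [Set.Finite.mem_toFinset, Set.mem_setOf_eq, ← hz', hP]
    exact hv
  have hstab : ∀ g : G,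
      (∀ c : K', SemilinearAut.baseAut (ρ g) (algebraMap K' Kb c) = algebraMap K' Kb c) →
      ρ g • P = P := by
    intro g hg
    apply hssel_spec
    intro x hx
    obtain ⟨x1, rfl⟩ := hs (Finset.mem_coe.2 (Finset.mem_biUnion.2 ⟨P, hPZ, hx⟩))
    exact hg x1
  rcases eq_or_ne a 0 with rfl | ha0
  · exact ⟨0, by simp⟩
  have hbca0 : algebraMap F' Fb a ≠ 0 := by
    rwa [Ne, map_eq_zero]
  have hbca : algebraMap F' Fb a ∈ P.toValuationSubring := by
    rw [hw_mem_iff_ord_nonneg P hbca0, hP]
    exact (hw_mem_iff_ord_nonneg v ha0).1 ha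
  have _ : Algebra.IsAlgebraic Kb⟮x0⟯ Fb := Algebra.IsAlgebraic.of_finite _ _
  obtain ⟨c, hc⟩ := hw_exists_const x0 P hbca
  have hcnon : algebraMap F' Fb a - algebraMap Kb Fb c ∈ P.toValuationSubring.nonunits := by
    rcases hc with hc | hc
    · rw [hc, sub_self]
      simp
    · exact ssd_mem_nonunits_of_ord_pos P hc
  -- the value is fixed by the stabiliser of `K'`, hence lies in `K'`
  obtain ⟨c1, hc1⟩ := hK' c (fun g hg =>
    s44mr_value_fixed P (ρ g) (hstab g hg) _ (hF' g hg a) c hcnon)
  refine ⟨c1, ?_⟩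
  by_cases h0 : a - algebraMap K' F' c1 = 0
  · rw [h0]
    simp
  · have hcomp : algebraMap F' Fb (algebraMap K' F' c1) = algebraMap Kb Fb c := by
      rw [← IsScalarTower.algebraMap_apply K' F' Fb, IsScalarTower.algebraMap_apply K' Kb Fb, hc1]
    rw [ssd_mem_nonunits_iff v h0, ← hP, map_sub, hcomp]
    have h0' : algebraMap F' Fb (a - algebraMap K' F' c1) ≠ 0 := by
      rwa [Ne, map_eq_zero]
    rw [map_sub, hcomp] at h0'
    exact (ssd_mem_nonunits_iff P h0').1 hcnon

end Abs

end Fermat.Agent.S44
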