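/-
S44, cell [H2] MONO-MAIN, sub-cell [H2-R] (helper3; prefix `s44mr_`): `s44mr_rational` in HOM FORM
(the model `F' / K'` is mapped to `Fb / Kb` by ring homomorphisms `ι : F' →+* Fb`, `κ : K' →+* Kb`
instead of `Algebra` instances, so that concrete instances never have to unfold instance diamonds).
-/
import Mathlib
import Fermat.Agent.S44.Mono.RationalAbs

set_option autoImplicit false
set_option linter.unusedSectionVars false
set_option linter.style.haveILetI false

noncomputable section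

namespace Fermat.Agent.S44

open AlgebraicCurve Fermat.Agent.JT3 Fermat.Agent.S24 Fermat.Agent.SS IntermediateField

universe u v

variable {Kb : Type*} {Fb : Type*} [Field Kb] [Field Fb] [Algebra Kb Fb]
  {G : Type*} [Group G] (ρ : G →* SemilinearAut Kb Fb) [IsAlgClosed Kb] [CharZero Kb]

/-- **fields of rationality, abstract form with homomorphisms.** -/
theorem s44mr_rational_hom (hfin : s44mr_Fin ρ) (x0 : Fb) [FiniteDimensional Kb⟮x0⟯ Fb] (z : Fb) :
    ∃ s : Finset Kb, ∀ (K' : Type u) (F' : Type v) [Field K'] [Field F'] [Algebra K' F']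
      [CharZero K'] (κ : K' →+* Kb) (ι : F' →+* Fb),
      κ.IsIntegral →
      (∀ c : K', ι (algebraMap K' F' c) = algebraMap Kb Fb (κ c)) →
      (↑s : Set Kb) ⊆ Set.range κ →
      (∀ y : Fb, y ∈ Subfield.closure (Set.range ι ∪ Set.range (algebraMap Kb Fb))) →
      (∀ g : G, (∀ c : K', SemilinearAut.baseAut (ρ g) (κ c) = κ c) →
        ∀ x : F', ρ g • ι x = ι x) →
      (∀ c : Kb, (∀ g : G, (∀ c' : K', SemilinearAut.baseAut (ρ g) (κ c') = κ c') →
        SemilinearAut.baseAut (ρ g) c = c) → c ∈ Set.range κ) →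
      ∀ z' : F', ι z' = z → ∀ v : Place K' F', v.ord z' ≠ 0 → ss_RatPlace v := by
  obtain ⟨s, hs⟩ := s44mr_rational.{u, v} ρ hfin x0 z
  refine ⟨s, ?_⟩
  intro K' F' _ _ _ _ κ ι hκ hcomm hsK htop hF' hK' z' hz' v hv
  letI : Algebra K' Kb := κ.toAlgebra
  letI : Algebra F' Fb := ι.toAlgebra
  letI : Algebra K' Fb := ((algebraMap Kb Fb).comp κ).toAlgebra
  have _ : IsScalarTower K' Kb Fb := IsScalarTower.of_algebraMap_eq (fun _ => rfl)
  have _ : IsScalarTower K' F' Fb := IsScalarTower.of_algebraMap_eq (fun c => (hcomm c).symm)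
  have _ : Algebra.IsIntegral K' Kb := ⟨hκ⟩
  have _ : Algebra.IsAlgebraic K' Kb := Algebra.IsIntegral.isAlgebraic
  exact hs K' F' hsK htop hF' hK' z' hz' v hv

end Fermat.Agent.S44
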