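/-
S44, cell [H2] MONO-MAIN, sub-cell [H2-R] (helper3; prefix `s44mr_`): FIELDS OF RATIONALITY OF PLACES
FOR SUBFIELDS OF `ℚ̄((q))` DEFINED OVER A NUMBER FIELD (e.g. the Kummer field `𝕃̄ = ℚ̄ · E(y)`,
`y ^ p = f_x`, `y` the `p`-th root series with leading coefficient `1`).

`Fb ≤ ℚ̄((q))` an intermediate field generated over `ℚ̄` by series which are fixed, coefficientwise,
by the stabiliser `s44mr_stab s₀ ≤ G_ℚ` of a finite set `s₀` of constants (`s44mr_DefOver Fb s₀`:
"`Fb` is defined over `ℚ(s₀)`").  Then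
* `s44mr_rho`  : `s44mr_stab s₀` acts on `Fb` by semilinear automorphisms (coefficientwise);
* `s44mr_fin`  : every element of `Fb` is fixed by the `τ` fixing a finite set of constants;
* **`s44mr_rational_laurent`** : for `z ∈ Fb` there is a finite `s ⊆ ℚ̄` such that for every
  subfield `L' ⊆ ℚ̄` containing `s₀ ∪ s` and every model `F' ≤ L'((q))` of `Fb` (`F' ↪ Fb`
  coefficientwise, `Fb = ℚ̄ · F'`), the zeros and poles of every model `z' ∈ F'` of `z` are
  `L'`-rational places of `F' / L'` (`ss_RatPlace`: = the hypothesis `hrat` of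
  `ssl_hrat_of_places` / `ssl_node_locEq`).
-/
import Mathlib
import Fermat.Agent.S44.Mono.RationalHom
import Fermat.Agent.S28.Bridge.Descent

set_option autoImplicit false
set_option linter.unusedSectionVars false
set_option linter.style.haveILetI false

noncomputable section

namespace Fermat.Agent.S44

open AlgebraicCurve ModularCurve Fermat.Agent.JT3 Fermat.Agent.S24 Fermat.Agent.S28
  Fermat.Agent.SS IntermediateField

universe u

local notation "Qb" => AlgebraicClosure ℚ
local notation "GQ" => (AlgebraicClosure ℚ ≃ₐ[ℚ] AlgebraicClosure ℚ)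

/-- the stabiliser in `G_ℚ` of a finite set of constants -/
def s44mr_stab (s₀ : Finset Qb) : Subgroup GQ where
  carrier := {τ | ∀ c ∈ s₀, τ c = c}
  one_mem' := fun _ _ => rfl
  mul_mem' := fun {σ τ} hσ hτ c hc => by
    show σ (τ c) = c
    rw [hτ c hc, hσ c hc]
  inv_mem' := fun {σ} hσ c hc => by
    show σ.symm c = c
    exact (AlgEquiv.symm_apply_eq σ).2 (hσ c hc).symm

theorem s44mr_mem_stab {s₀ : Finset Qb} {τ : GQ} : τ ∈ s44mr_stab s₀ ↔ ∀ c ∈ s₀, τ c = c :=
  Iff.rfl

variable (Fb : IntermediateField Qb (LaurentSeries Qb)) (s₀ : Finset Qb)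

/-- `Fb` is generated over `ℚ̄` by series which are fixed coefficientwise by the stabiliser of
`s₀`. -/
def s44mr_DefOver : Prop :=
  ∃ S : Set (LaurentSeries Qb), Fb = IntermediateField.adjoin Qb S ∧
    ∀ x ∈ S, ∀ τ ∈ s44mr_stab s₀, coeffMap ((τ : GQ) : Qb →+* Qb) x = x

variable {Fb s₀}

/-- `Fb` is stable under the coefficientwise action of the stabiliser of `s₀`. -/
theorem s44mr_coeffMap_mem (h : s44mr_DefOver Fb s₀) {τ : GQ} (hτ : τ ∈ s44mr_stab s₀)
    {x : LaurentSeries Qb} (hx : x ∈ Fb) : coeffMap ((τ : GQ) : Qb →+* Qb) x ∈ Fb := by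
  obtain ⟨S, hFb, hS⟩ := h
  rw [hFb] at hx ⊢
  induction hx using IntermediateField.adjoin_induction with
  | mem y hy =>
    rw [hS y hy τ hτ]
    exact IntermediateField.subset_adjoin Qb S hy
  | algebraMap r =>
    rw [bd_coeffMap_algebraMap]
    exact IntermediateField.algebraMap_mem _ _
  | add x y _ _ hx hy => rw [map_add]; exact add_mem hx hy
  | inv x _ hx => rw [map_inv₀]; exact inv_mem hx
  | mul x y _ _ hx hy => rw [map_mul]; exact mul_mem hx hy

/-- every element of `Fb` is fixed by the `τ` in the stabiliser of `s₀` fixing a finite set of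
constants. -/
theorem s44mr_exists_fix (h : s44mr_DefOver Fb s₀) {x : LaurentSeries Qb} (hx : x ∈ Fb) :
    ∃ s : Finset Qb, ∀ τ : GQ, τ ∈ s44mr_stab s₀ → (∀ c ∈ s, τ c = c) →
      coeffMap ((τ : GQ) : Qb →+* Qb) x = x := by
  classical
  obtain ⟨S, hFb, hS⟩ := h
  rw [hFb] at hx
  induction hx using IntermediateField.adjoin_induction with
  | mem y hy => exact ⟨∅, fun τ hτ _ => hS y hy τ hτ⟩
  | algebraMap r =>
    refine ⟨{r}, fun τ _ hc => ?_⟩
    rw [bd_coeffMap_algebraMap]
    congr 1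
    exact hc r (Finset.mem_singleton_self r)
  | add x y _ _ hx hy =>
    obtain ⟨s1, h1⟩ := hx
    obtain ⟨s2, h2⟩ := hy
    refine ⟨s1 ∪ s2, fun τ hτ hc => ?_⟩
    rw [map_add, h1 τ hτ (fun c hc' => hc c (Finset.mem_union_left _ hc')),
      h2 τ hτ (fun c hc' => hc c (Finset.mem_union_right _ hc'))]
  | inv x _ hx =>
    obtain ⟨s1, h1⟩ := hx
    refine ⟨s1, fun τ hτ hc => ?_⟩
    rw [map_inv₀, h1 τ hτ hc]
  | mul x y _ _ hx hy =>
    obtain ⟨s1, h1⟩ := hx
    obtain ⟨s2, h2⟩ := hy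
    refine ⟨s1 ∪ s2, fun τ hτ hc => ?_⟩
    rw [map_mul, h1 τ hτ (fun c hc' => hc c (Finset.mem_union_left _ hc')),
      h2 τ hτ (fun c hc' => hc c (Finset.mem_union_right _ hc'))]

/-- the coefficientwise action of `τ` in the stabiliser of `s₀` on `Fb`, as a ring automorphism -/
def s44mr_ringAut (h : s44mr_DefOver Fb s₀) (τ : s44mr_stab s₀) : Fb ≃+* Fb where
  toFun x := ⟨coeffMap (((τ : GQ)) : Qb →+* Qb) (x : LaurentSeries Qb),
    s44mr_coeffMap_mem h τ.2 x.2⟩
  invFun x := ⟨coeffMap (((τ : GQ).symm) : Qb →+* Qb) (x : LaurentSeries Qb),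
    s44mr_coeffMap_mem h (τ⁻¹).2 x.2⟩
  left_inv x := Subtype.ext <| by
    show coeffMap (((τ : GQ).symm) : Qb →+* Qb)
      (coeffMap (((τ : GQ)) : Qb →+* Qb) (x : LaurentSeries Qb)) = (x : LaurentSeries Qb)
    rw [coeffMap_coeffMap,
      coeffMap_congr (g := RingHom.id Qb)
        (RingHom.ext fun a => (τ : GQ).symm_apply_apply a) (x : LaurentSeries Qb),
      coeffMap_id]
  right_inv x := Subtype.ext <| by
    show coeffMap (((τ : GQ)) : Qb →+* Qb)
      (coeffMap (((τ : GQ).symm) : Qb →+* Qb) (x : LaurentSeries Qb)) = (x : LaurentSeries Qb)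
    rw [coeffMap_coeffMap,
      coeffMap_congr (g := RingHom.id Qb)
        (RingHom.ext fun a => (τ : GQ).apply_symm_apply a) (x : LaurentSeries Qb),
      coeffMap_id]
  map_mul' x y := Subtype.ext (map_mul (coeffMap (((τ : GQ)) : Qb →+* Qb))
    (x : LaurentSeries Qb) (y : LaurentSeries Qb))
  map_add' x y := Subtype.ext (map_add (coeffMap (((τ : GQ)) : Qb →+* Qb))
    (x : LaurentSeries Qb) (y : LaurentSeries Qb))

@[simp]
theorem s44mr_coe_ringAut (h : s44mr_DefOver Fb s₀) (τ : s44mr_stab s₀) (x : Fb) :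
    (s44mr_ringAut h τ x : LaurentSeries Qb) =
      coeffMap (((τ : GQ)) : Qb →+* Qb) (x : LaurentSeries Qb) := rfl

/-- **the semilinear action of the stabiliser of `s₀` on `Fb`.** -/
def s44mr_rho (h : s44mr_DefOver Fb s₀) : s44mr_stab s₀ →* SemilinearAut Qb Fb where
  toFun τ := ⟨(s44mr_ringAut h τ, (τ : GQ).toRingEquiv), fun a =>
    Subtype.ext (bd_coeffMap_algebraMap (((τ : GQ)) : Qb →+* Qb) a)⟩
  map_one' := by
    refine Subtype.ext (Prod.ext (RingEquiv.ext fun x => Subtype.ext ?_) rfl)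
    show coeffMap ((((1 : s44mr_stab s₀) : GQ)) : Qb →+* Qb) (x : LaurentSeries Qb) =
      (x : LaurentSeries Qb)
    rw [show ((((1 : s44mr_stab s₀) : GQ)) : Qb →+* Qb) = RingHom.id Qb from
      RingHom.ext fun _ => rfl, coeffMap_id]
  map_mul' σ τ := by
    refine Subtype.ext (Prod.ext (RingEquiv.ext fun x => Subtype.ext ?_) rfl)
    show coeffMap ((((σ * τ : s44mr_stab s₀) : GQ)) : Qb →+* Qb) (x : LaurentSeries Qb) =
      coeffMap (((σ : GQ)) : Qb →+* Qb) (coeffMap (((τ : GQ)) : Qb →+* Qb) (x : LaurentSeries Qb))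
    rw [coeffMap_coeffMap]
    exact coeffMap_congr (RingHom.ext fun _ => rfl) _

theorem s44mr_baseAut_rho (h : s44mr_DefOver Fb s₀) (τ : s44mr_stab s₀) (c : Qb) :
    SemilinearAut.baseAut (s44mr_rho h τ) c = (τ : GQ) c := rfl

theorem s44mr_coe_rho_smul (h : s44mr_DefOver Fb s₀) (τ : s44mr_stab s₀) (x : Fb) :
    ((s44mr_rho h τ • x : Fb) : LaurentSeries Qb) =
      coeffMap (((τ : GQ)) : Qb →+* Qb) (x : LaurentSeries Qb) := rfl

/-- every element of `Fb` is fixed by the `τ` fixing a finite set of constants. -/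
theorem s44mr_fin (h : s44mr_DefOver Fb s₀) : s44mr_Fin (s44mr_rho h) := by
  intro y
  obtain ⟨s, hs⟩ := s44mr_exists_fix h y.2
  refine ⟨s, fun g hg => Subtype.ext ?_⟩
  rw [s44mr_coe_rho_smul]
  exact hs g g.2 (fun c hc => hg c hc)

/-! ### the models over subfields of `ℚ̄` -/

section Model

variable (L' : Type u) [Field L'] [Algebra L' Qb]

/-- the coefficientwise embedding of a model `F' ≤ L'((q))` into `Fb` -/
def s44mr_bcHom (F' : IntermediateField L' (LaurentSeries L'))
    (hle : ∀ x ∈ F', coeffMap (algebraMap L' Qb) x ∈ Fb) : F' →+* Fb where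
  toFun x := ⟨coeffMap (algebraMap L' Qb) (x : LaurentSeries L'), hle _ x.2⟩
  map_one' := Subtype.ext (map_one _)
  map_mul' _ _ := Subtype.ext (map_mul _ _ _)
  map_zero' := Subtype.ext (map_zero _)
  map_add' _ _ := Subtype.ext (map_add _ _ _)

@[simp]
theorem s44mr_coe_bcHom (F' : IntermediateField L' (LaurentSeries L'))
    (hle : ∀ x ∈ F', coeffMap (algebraMap L' Qb) x ∈ Fb) (x : F') :
    (s44mr_bcHom L' F' hle x : LaurentSeries Qb) =
      coeffMap (algebraMap L' Qb) (x : LaurentSeries L') := rfl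

end Model

section Side

variable (L' : Type u) [Field L'] [Algebra L' Qb] (F' : IntermediateField L' (LaurentSeries L'))
  (hle : ∀ x ∈ F', coeffMap (algebraMap L' Qb) x ∈ Fb)

/-- compatibility of `s44mr_bcHom` with the constants -/
theorem s44mr_bcHom_algebraMap (c : L') :
    s44mr_bcHom L' F' hle (algebraMap L' F' c) = algebraMap Qb Fb (algebraMap L' Qb c) := by
  apply Subtype.ext
  show coeffMap (algebraMap L' Qb) (algebraMap L' (LaurentSeries L') c) =
    algebraMap Qb (LaurentSeries Qb) (algebraMap L' Qb c)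
  rw [bd_coeffMap_algebraMap]

/-- `Fb = F' · ℚ̄` in closure form -/
theorem s44mr_mem_closure
    (hgen : ∀ y ∈ Fb, y ∈ IntermediateField.adjoin Qb
      (coeffMap (algebraMap L' Qb) '' (F' : Set (LaurentSeries L')))) (y : Fb) :
    y ∈ Subfield.closure
      (Set.range (s44mr_bcHom L' F' hle) ∪ Set.range (algebraMap Qb Fb)) := by
  set S := Subfield.closure
      (Set.range (s44mr_bcHom L' F' hle) ∪ Set.range (algebraMap Qb Fb)) with hS
  have hle2 : Subfield.closure
      (Set.range (algebraMap Qb (LaurentSeries Qb)) ∪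
        (coeffMap (algebraMap L' Qb) '' (F' : Set (LaurentSeries L')))) ≤
      S.map Fb.val.toRingHom := by
    rw [Subfield.closure_le]
    rintro z (⟨a, rfl⟩ | ⟨w, hw, rfl⟩)
    · exact ⟨algebraMap Qb Fb a, Subfield.subset_closure (Or.inr ⟨a, rfl⟩), rfl⟩
    · exact ⟨s44mr_bcHom L' F' hle ⟨w, hw⟩, Subfield.subset_closure (Or.inl ⟨_, rfl⟩), rfl⟩
  have hy := hgen y y.2
  rw [← IntermediateField.mem_toSubfield, IntermediateField.adjoin_toSubfield] at hy
  obtain ⟨y', hy', hyy⟩ := hle2 hy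
  have : y' = y := Subtype.ext hyy
  rwa [← this]

end Side

/-- **fields of rationality for a subfield of `ℚ̄((q))` defined over a number field.** -/
theorem s44mr_rational_laurent (h : s44mr_DefOver Fb s₀) (x0 : Fb)
    [FiniteDimensional Qb⟮x0⟯ Fb] (z : Fb) :
    ∃ s : Finset Qb, ∀ (L' : Type u) [Field L'] [Algebra ℚ L'] [Algebra L' Qb]
      [IsScalarTower ℚ L' Qb] (F' : IntermediateField L' (LaurentSeries L')),
      (↑s₀ : Set Qb) ⊆ Set.range (algebraMap L' Qb) →
      (↑s : Set Qb) ⊆ Set.range (algebraMap L' Qb) →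
      (∀ x ∈ F', coeffMap (algebraMap L' Qb) x ∈ Fb) →
      (∀ y ∈ Fb, y ∈ IntermediateField.adjoin Qb
        (coeffMap (algebraMap L' Qb) '' (F' : Set (LaurentSeries L')))) →
      ∀ z' : F', coeffMap (algebraMap L' Qb) (z' : LaurentSeries L') = (z : LaurentSeries Qb) →
        ∀ v : Place L' F', v.ord z' ≠ 0 → ss_RatPlace v := by
  obtain ⟨s, hs⟩ := s44mr_rational_hom.{u, u} (s44mr_rho h) (s44mr_fin h) x0 z
  refine ⟨s, ?_⟩
  intro L' _ _ _ _ F' hs₀ hsL hle hgen z' hz' v hv
  have _ : IsAlgClosure ℚ Qb := ⟨inferInstance, AlgebraicClosure.isAlgebraic ℚ⟩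
  have _ : IsGalois ℚ Qb := inferInstance
  have _ : Algebra.IsAlgebraic ℚ Qb := AlgebraicClosure.isAlgebraic ℚ
  have _ : Algebra.IsAlgebraic L' Qb := Algebra.IsAlgebraic.tower_top (K := ℚ) L'
  have _ : CharZero L' := algebraRat.charZero L'
  have hint : (algebraMap L' Qb).IsIntegral := fun c =>
    (Algebra.IsAlgebraic.isAlgebraic (R := L') c).isIntegral
  -- the automorphisms fixing `L'` lie in the stabiliser of `s₀`
  have hstab : ∀ τ : GQ, (∀ c : L', τ (algebraMap L' Qb c) = algebraMap L' Qb c) →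
      τ ∈ s44mr_stab s₀ := by
    intro τ hτ c hc
    obtain ⟨c1, rfl⟩ := hs₀ (Finset.mem_coe.2 hc)
    exact hτ c1
  refine hs L' F' (algebraMap L' Qb) (s44mr_bcHom L' F' hle) hint
    (s44mr_bcHom_algebraMap L' F' hle) hsL (s44mr_mem_closure L' F' hle hgen) ?_ ?_ z'
    (Subtype.ext hz') v hv
  · -- `F'` is fixed by the automorphisms fixing `L'`
    intro g hg x
    apply Subtype.ext
    rw [s44mr_coe_rho_smul, s44mr_coe_bcHom, coeffMap_coeffMap]
    exact coeffMap_congr (RingHom.ext fun c => hg c) _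
  · -- Galois correspondence
    intro c hc
    set M : IntermediateField ℚ Qb := (IsScalarTower.toAlgHom ℚ L' Qb).fieldRange with hM
    have hcM : c ∈ M := by
      rw [← InfiniteGalois.fixedField_fixingSubgroup M, IntermediateField.mem_fixedField_iff]
      intro τ hτ
      rw [IntermediateField.mem_fixingSubgroup_iff] at hτ
      have hτ' : ∀ x : L', τ (algebraMap L' Qb x) = algebraMap L' Qb x := fun x =>
        hτ _ ⟨x, rfl⟩
      exact hc ⟨τ, hstab τ hτ'⟩ hτ'
    obtain ⟨c1, hc1⟩ := hcM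
    exact ⟨c1, hc1⟩

end Fermat.Agent.S44
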