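/-
S44, cell [H2] MONO-MAIN, sub-cell [H2-R] (helper3; prefix `s44mr_`): PRODUCERS OF `s44mr_DefOver`
AND OF THE MODEL HYPOTHESES (`hle`, `hgen`) OF `s44mr_rational_laurent`.

* `s44mr_defOver_adjoin`, `s44mr_defOver_mono`, `s44mr_defOver_sup`, `s44mr_defOver_simple`;
* `s44mr_defOver_full N`  : `modularFunctionFieldFullC ℚ̄ N` is defined over `ℚ` (`s₀ = ∅`);
* `s44mr_defOver_lgE N`   : the Legendre field `lg_E ℚ̄ N` is defined over `ℚ`;
* `s44mr_IsModel F' Fb`   : `F' ≤ L'((q))` is a model of `Fb` (`hle ∧ hgen`), with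
  `s44mr_isModel_full`, `s44mr_isModel_lgE`, `s44mr_isModel_sup_simple`.
-/
import Mathlib
import Fermat.Agent.S44.Mono.RationalLaurent
import Fermat.Agent.SS.Model.ALBC

set_option autoImplicit false
set_option linter.unusedSectionVars false
set_option linter.style.haveILetI false

noncomputable section

namespace Fermat.Agent.S44

open AlgebraicCurve ModularCurve Fermat.Agent.JT3 Fermat.Agent.S24 Fermat.Agent.S28
  Fermat.Agent.SS IntermediateField

universe u

local notation "Qb" => AlgebraicClosure ℚ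
local notation "GQ" => (AlgebraicClosure ℚ ≃ₐ[ℚ] AlgebraicClosure ℚ)

/-! ### producers of `s44mr_DefOver` -/

theorem s44mr_defOver_adjoin {s₀ : Finset Qb} (S : Set (LaurentSeries Qb))
    (hS : ∀ x ∈ S, ∀ τ ∈ s44mr_stab s₀, coeffMap ((τ : GQ) : Qb →+* Qb) x = x) :
    s44mr_DefOver (IntermediateField.adjoin Qb S) s₀ := ⟨S, rfl, hS⟩

theorem s44mr_stab_anti {s₀ s₁ : Finset Qb} (h : s₀ ⊆ s₁) : s44mr_stab s₁ ≤ s44mr_stab s₀ :=
  fun _ hτ c hc => hτ c (h hc)

theorem s44mr_defOver_mono {Fb : IntermediateField Qb (LaurentSeries Qb)} {s₀ s₁ : Finset Qb}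
    (h : s₀ ⊆ s₁) (hF : s44mr_DefOver Fb s₀) : s44mr_DefOver Fb s₁ := by
  obtain ⟨S, hFb, hS⟩ := hF
  exact ⟨S, hFb, fun x hx τ hτ => hS x hx τ (s44mr_stab_anti h hτ)⟩

theorem s44mr_defOver_sup {F1 F2 : IntermediateField Qb (LaurentSeries Qb)} {s₀ : Finset Qb}
    (h1 : s44mr_DefOver F1 s₀) (h2 : s44mr_DefOver F2 s₀) : s44mr_DefOver (F1 ⊔ F2) s₀ := by
  obtain ⟨S1, hF1, hS1⟩ := h1
  obtain ⟨S2, hF2, hS2⟩ := h2
  refine ⟨S1 ∪ S2, ?_, ?_⟩
  · rw [IntermediateField.adjoin_union, hF1, hF2]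
  · rintro x (hx | hx) τ hτ
    · exact hS1 x hx τ hτ
    · exact hS2 x hx τ hτ

/-- adjoining one more series fixed by the stabiliser of `s₀` (e.g. the `p`-th root series of a
function defined over `ℚ(s₀)`). -/
theorem s44mr_defOver_simple {Fb : IntermediateField Qb (LaurentSeries Qb)} {s₀ : Finset Qb}
    (h : s44mr_DefOver Fb s₀) (y : LaurentSeries Qb)
    (hy : ∀ τ ∈ s44mr_stab s₀, coeffMap ((τ : GQ) : Qb →+* Qb) y = y) :
    s44mr_DefOver (Fb ⊔ Qb⟮y⟯) s₀ :=
  s44mr_defOver_sup h (s44mr_defOver_adjoin {y} (fun x hx τ hτ => by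
    rw [Set.mem_singleton_iff] at hx
    rw [hx]
    exact hy τ hτ))

/-- the full level-`N` field over `ℚ̄` is defined over `ℚ`. -/
theorem s44mr_defOver_full (N : ℕ) [NeZero N] :
    s44mr_DefOver (modularFunctionFieldFullC Qb N) ∅ := by
  refine ⟨divisorExpansionsC Qb N, rfl, ?_⟩
  rintro x ⟨d, hd, _, rfl⟩ τ _
  haveI := hd
  rw [coeffMap_qExpand, coeffMap_jqModC]

/-- the Legendre field over `ℚ̄` is defined over `ℚ`. -/
theorem s44mr_defOver_lgE (N : ℕ) [NeZero N] : s44mr_DefOver (lg_E Qb N) ∅ := by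
  rw [ssm_f4 Qb N]
  exact s44mr_defOver_full _

/-! ### models -/

section Model

variable (L' : Type u) [Field L'] [Algebra L' Qb]

/-- `F' ≤ L'((q))` is a model of `Fb ≤ ℚ̄((q))`: the coefficientwise embedding maps `F'` into `Fb`
and `Fb = ℚ̄ · F'`. -/
def s44mr_IsModel (F' : IntermediateField L' (LaurentSeries L'))
    (Fb : IntermediateField Qb (LaurentSeries Qb)) : Prop :=
  (∀ x ∈ F', coeffMap (algebraMap L' Qb) x ∈ Fb) ∧
    ∀ y ∈ Fb, y ∈ IntermediateField.adjoin Qb
      (coeffMap (algebraMap L' Qb) '' (F' : Set (LaurentSeries L')))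

/-- the full level-`N` field over `L'` is a model of the one over `ℚ̄`. -/
theorem s44mr_isModel_full (N : ℕ) [NeZero N] :
    s44mr_IsModel L' (modularFunctionFieldFullC L' N) (modularFunctionFieldFullC Qb N) := by
  refine ⟨fun x hx => ssm_al_coeffMap_mem (algebraMap L' Qb) N hx, fun y hy => ?_⟩
  have hle : modularFunctionFieldFullC Qb N ≤ IntermediateField.adjoin Qb
      (coeffMap (algebraMap L' Qb) '' (modularFunctionFieldFullC L' N : Set (LaurentSeries L'))) := by
    rw [modularFunctionFieldFullC, IntermediateField.adjoin_le_iff]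
    rintro x ⟨d, hd, hdN, rfl⟩
    haveI := hd
    refine IntermediateField.subset_adjoin Qb _ ⟨qExpand L' d (jqModC L'), ?_, ?_⟩
    · exact jqModCd_mem_full L' N hdN
    · rw [coeffMap_qExpand, coeffMap_jqModC]
  exact hle hy

/-- the Legendre field over `L'` is a model of the one over `ℚ̄`. -/
theorem s44mr_isModel_lgE [CharZero L'] (N : ℕ) [NeZero N] :
    s44mr_IsModel L' (lg_E L' N) (lg_E Qb N) := by
  rw [ssm_f4 Qb N, ssm_f4 L' N]
  exact s44mr_isModel_full L' _

/-- adjoining a series `y'` over `L'` and its image `y` over `ℚ̄`. -/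
theorem s44mr_isModel_sup_simple {F' : IntermediateField L' (LaurentSeries L')}
    {Fb : IntermediateField Qb (LaurentSeries Qb)} (h : s44mr_IsModel L' F' Fb)
    (y' : LaurentSeries L') :
    s44mr_IsModel L' (F' ⊔ L'⟮y'⟯) (Fb ⊔ Qb⟮coeffMap (algebraMap L' Qb) y'⟯) := by
  obtain ⟨hle, hgen⟩ := h
  constructor
  · intro x hx
    have hsup : F' ⊔ L'⟮y'⟯ = IntermediateField.adjoin L' ((F' : Set (LaurentSeries L')) ∪ {y'}) := by
      rw [IntermediateField.adjoin_union, IntermediateField.adjoin_self]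
    rw [hsup] at hx
    induction hx using IntermediateField.adjoin_induction with
    | mem w hw =>
      rcases hw with hw | hw
      · exact (le_sup_left : Fb ≤ _) (hle w hw)
      · rw [Set.mem_singleton_iff] at hw
        rw [hw]
        exact (le_sup_right : Qb⟮coeffMap (algebraMap L' Qb) y'⟯ ≤ _)
          (IntermediateField.mem_adjoin_simple_self Qb _)
    | algebraMap r =>
      rw [bd_coeffMap_algebraMap]
      exact IntermediateField.algebraMap_mem _ _
    | add a b _ _ ha hb => rw [map_add]; exact add_mem ha hb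
    | inv a _ ha => rw [map_inv₀]; exact inv_mem ha
    | mul a b _ _ ha hb => rw [map_mul]; exact mul_mem ha hb
  · intro y hy
    have hle2 : Fb ⊔ Qb⟮coeffMap (algebraMap L' Qb) y'⟯ ≤ IntermediateField.adjoin Qb
        (coeffMap (algebraMap L' Qb) '' ((F' ⊔ L'⟮y'⟯ : IntermediateField L' (LaurentSeries L')) :
          Set (LaurentSeries L'))) := by
      refine sup_le ?_ ?_
      · intro w hw
        refine IntermediateField.adjoin.mono Qb _ _ ?_ (hgen w hw)
        exact Set.image_mono (SetLike.coe_subset_coe.2 le_sup_left)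
      · rw [IntermediateField.adjoin_le_iff]
        intro w hw
        rw [Set.mem_singleton_iff] at hw
        rw [hw]
        exact IntermediateField.subset_adjoin Qb _ ⟨y', (le_sup_right : L'⟮y'⟯ ≤ _)
          (IntermediateField.mem_adjoin_simple_self L' y'), rfl⟩
    exact hle2 hy

end Model

/-- **`s44mr_rational_laurent` in terms of `s44mr_IsModel`.** -/
theorem s44mr_rational_model {Fb : IntermediateField Qb (LaurentSeries Qb)} {s₀ : Finset Qb}
    (h : s44mr_DefOver Fb s₀) (x0 : Fb) [FiniteDimensional Qb⟮x0⟯ Fb] (z : Fb) :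
    ∃ s : Finset Qb, ∀ (L' : Type u) [Field L'] [Algebra ℚ L'] [Algebra L' Qb]
      [IsScalarTower ℚ L' Qb] (F' : IntermediateField L' (LaurentSeries L')),
      (↑s₀ : Set Qb) ⊆ Set.range (algebraMap L' Qb) →
      (↑s : Set Qb) ⊆ Set.range (algebraMap L' Qb) → s44mr_IsModel L' F' Fb →
      ∀ z' : F', coeffMap (algebraMap L' Qb) (z' : LaurentSeries L') = (z : LaurentSeries Qb) →
        ∀ v : Place L' F', v.ord z' ≠ 0 → ss_RatPlace v := by
  obtain ⟨s, hs⟩ := s44mr_rational_laurent.{u} h x0 z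
  exact ⟨s, fun L' _ _ _ _ F' h0 h1 hM => hs L' F' h0 h1 hM.1 hM.2⟩

end Fermat.Agent.S44
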