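/-
Project S44 (Mazur–Ribet at `p`), cell [H2] MONO-MAIN, SUB [S-RAT] (helper23). Prefix `s44kw_`.

THE RATIONALITY INSTANCE FOR THE KUMMER PACKAGE OF `s44kv_unif`.

* `s44kw_Lb_eq`     : the field `Lb` of a package over `E'.toSubfield` is `(E' ⊔ K⟮y⟯).toSubfield`;
* `s44kw_finite`    : `lg_E L N ⊔ L⟮y⟯` is finite over `L(λ)` when `y ^ p ∈ lg_E L N`;
* `s44kw_defOver`   : `lg_E ℚ̄ N ⊔ ℚ̄⟮ι y⟯` is defined over every finite `s₀` generating a field
  of definition of `y`;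
* `s44kw_unif_rat`  : (K-UNIF) with `Lb = (lg_E L' N ⊔ L'⟮y⟯).toSubfield` and the rationality of the
  zeros and poles of `Φ` and of all `τ^j h`.
-/
import Mathlib
import Fermat.Agent.S44.Mono.KummerUnif
import Fermat.Agent.S44.Mono.RationalInst
import Fermat.Agent.JT3.Inst.FunFieldFacts

set_option autoImplicit false
set_option linter.unusedSectionVars false
set_option linter.style.haveILetI false

noncomputable section

namespace Fermat.Agent.S44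

open ModularCurve AlgebraicCurve Fermat.Agent.JT3 Fermat.Agent.SS Fermat.Agent.S28
  IntermediateField Polynomial

local notation "Qb" => AlgebraicClosure ℚ
local notation "GQ" => (AlgebraicClosure ℚ ≃ₐ[ℚ] AlgebraicClosure ℚ)

/-! ### `Lb = E(y)` as an intermediate field -/

section LbEq

variable {K Ω : Type*} [Field K] [Field Ω] [Algebra K Ω] {G : Type*} [Group G]
  [MulSemiringAction G Ω]

/-- the field of a Kummer package over `E'.toSubfield` is `E' ⊔ K⟮y⟯`. -/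
theorem s44kw_Lb_eq {E' : IntermediateField K Ω} {p : ℕ} {ζ y fv β : Ω} {lc : Ω →*₀ Ω}
    {Lb : Subfield Ω} {τ : ↥Lb ≃+* ↥Lb} {c : Ω} {g Φ h : ↥Lb}
    (P : s44kq_Pack (G := G) E'.toSubfield p ζ y fv β lc Lb τ c g Φ h) :
    Lb = (E' ⊔ K⟮y⟯).toSubfield := by
  apply le_antisymm
  · intro z hz
    obtain ⟨R, rfl⟩ := P.gen z hz
    refine s44kq_eval₂_mem (E' ⊔ K⟮y⟯).toSubfield _ _ (fun e => ?_) ?_ R
    · exact (le_sup_left : E' ≤ E' ⊔ K⟮y⟯) e.2
    · exact (le_sup_right : K⟮y⟯ ≤ E' ⊔ K⟮y⟯) (mem_adjoin_simple_self K y)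
  · let Lb' : IntermediateField K Ω :=
      { Lb with algebraMap_mem' := fun k => P.le (E'.algebraMap_mem k) }
    have h1 : E' ≤ Lb' := fun e he => P.le he
    have h2 : K⟮y⟯ ≤ Lb' := by
      rw [adjoin_simple_le_iff]
      exact P.y_mem
    exact fun z hz => (sup_le h1 h2 : E' ⊔ K⟮y⟯ ≤ Lb') hz

end LbEq

/-! ### finiteness over `L(λ)` -/

section Fin

theorem s44kw_isAlgebraic_coe_iff {k Ω : Type*} [Field k] [Field Ω] [Algebra k Ω]
    (F : IntermediateField k Ω) (x e : F) :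
    IsAlgebraic k⟮(x : Ω)⟯ (e : Ω) ↔ IsAlgebraic k⟮x⟯ e := by
  have hmap : (k⟮x⟯).map F.val = k⟮(x : Ω)⟯ := by
    rw [IntermediateField.adjoin_map, Set.image_singleton]
    rfl
  let f : k⟮x⟯ ≃+* k⟮(x : Ω)⟯ :=
    ((IntermediateField.equivMap k⟮x⟯ F.val).trans (IntermediateField.equivOfEq hmap)).toRingEquiv
  refine isAlgebraic_ringHom_iff_of_comp_eq f (F.val : ↥F →+* Ω) F.val.injective ?_
  ext r
  rfl

variable (L : Type*) [Field L] [CharZero L] (N : ℕ) [NeZero N]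

/-- `λ` as an element of `lg_E L N ⊔ L⟮y⟯`. -/
def s44kw_lam (y : LaurentSeries L) : ↥(lg_E L N ⊔ L⟮y⟯) :=
  ⟨lg_lam L, (le_sup_left : lg_E L N ≤ lg_E L N ⊔ L⟮y⟯) (lg_lam_mem_E L N)⟩

/-- **the Kummer field is finite over `L(λ)`.** -/
theorem s44kw_finite {y : LaurentSeries L} {p : ℕ} (hp0 : p ≠ 0) (hy : y ^ p ∈ lg_E L N) :
    FiniteDimensional L⟮s44kw_lam L N y⟯ ↥(lg_E L N ⊔ L⟮y⟯) := by
  have hfin : FiniteDimensional L⟮(lg_lamE N : lg_E L N)⟯ (lg_E L N) := lgf_finite L N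
  have halg : Algebra.IsAlgebraic L⟮(lg_lamE N : lg_E L N)⟯ (lg_E L N) :=
    Algebra.IsAlgebraic.of_finite _ _
  have hsub : ∀ z ∈ lgf_gens L N, z ∈ lg_E L N := fun z hz => by
    have := IntermediateField.subset_adjoin L (lgf_gens L N) hz
    rwa [← lgf_E_eq_adjoin] at this
  -- elements of `lg_E` are algebraic over `L(λ)` inside the Kummer field
  have key : ∀ w : ↥(lg_E L N ⊔ L⟮y⟯), (w : LaurentSeries L) ∈ lg_E L N →
      IsAlgebraic L⟮s44kw_lam L N y⟯ w := by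
    intro w hw
    have h1 : IsAlgebraic L⟮(lg_lamE N : lg_E L N)⟯ (⟨w, hw⟩ : lg_E L N) :=
      halg.isAlgebraic _
    have h2 := (s44kw_isAlgebraic_coe_iff (lg_E L N) (lg_lamE N) ⟨w, hw⟩).2 h1
    exact (s44kw_isAlgebraic_coe_iff (lg_E L N ⊔ L⟮y⟯) (s44kw_lam L N y) w).1 h2
  refine lgf_finite_of_gens (lg_E L N ⊔ L⟮y⟯) (lgf_gens L N ∪ {y})
    ((lgf_gens_finite L N).union (Set.finite_singleton _)) ?_ (s44kw_lam L N y) ?_
  · rw [IntermediateField.adjoin_union, ← lgf_E_eq_adjoin]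
  · rintro w (hw | hw)
    · exact key w (hsub _ hw)
    · rw [Set.mem_singleton_iff] at hw
      refine IsAlgebraic.of_pow (Nat.pos_of_ne_zero hp0) (key (w ^ p) ?_)
      rw [SubmonoidClass.coe_pow, hw]
      exact hy

end Fin

/-! ### fields of definition -/

section Def

/-- a finite-dimensional subfield of `ℚ̄` is generated by a finite set. -/
theorem s44kw_exists_adjoin (L₁ : IntermediateField ℚ Qb) [FiniteDimensional ℚ L₁] :
    ∃ T : Finset Qb, IntermediateField.adjoin ℚ (↑T : Set Qb) = L₁ := by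
  have h1 : L₁.toSubalgebra.toSubmodule.FG := Module.Finite.iff_fg.1 ‹FiniteDimensional ℚ L₁›
  exact IntermediateField.fg_of_fg_toSubalgebra _ (Subalgebra.fg_of_fg_toSubmodule h1)

/-- an automorphism fixing a generating set fixes the field pointwise. -/
theorem s44kw_fix_of_adjoin {T : Finset Qb} {L₁ : IntermediateField ℚ Qb}
    (hT : IntermediateField.adjoin ℚ (↑T : Set Qb) = L₁) {τ : GQ} (hτ : τ ∈ s44mr_stab T) :
    ∀ a ∈ L₁, τ a = a := by
  intro a ha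
  rw [← hT] at ha
  induction ha using IntermediateField.adjoin_induction with
  | mem x hx => exact hτ x (Finset.mem_coe.1 hx)
  | algebraMap r => exact τ.commutes r
  | add x y _ _ hx hy => rw [map_add, hx, hy]
  | inv x _ hx => rw [map_inv₀, hx]
  | mul x y _ _ hx hy => rw [map_mul, hx, hy]

variable (N : ℕ) [NeZero N]

/-- the Kummer field over `ℚ̄` is defined over every finite generating set of a field of
definition of `y`. -/
theorem s44kw_defOver (L₁ : IntermediateField ℚ Qb) {s₀ : Finset Qb}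
    (hs₀ : IntermediateField.adjoin ℚ (↑s₀ : Set Qb) = L₁) (y : LaurentSeries ↥L₁) :
    s44mr_DefOver (lg_E Qb N ⊔ Qb⟮ssm_al_iota ↥L₁ y⟯) s₀ := by
  refine s44mr_defOver_simple
    (s44mr_defOver_mono (Finset.empty_subset _) (s44mr_defOver_lgE N)) _ (fun τ hτ => ?_)
  rw [ssm_al_iota, coeffMap_coeffMap]
  refine coeffMap_congr (RingHom.ext fun a => ?_) y
  exact s44kw_fix_of_adjoin hs₀ hτ _ a.2

end Def

/-! ### (K-UNIF) with rationality -/

section UnifRat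

/-- the Kummer field `E(y)` over `L`, as an intermediate field of `L((q))`. -/
abbrev s44kw_F (L : Type*) [Field L] (N : ℕ) [NeZero N] (y : LaurentSeries L) :
    IntermediateField L (LaurentSeries L) := lg_E L N ⊔ L⟮y⟯

/-- iterates of a map of order dividing `p`. -/
theorem s44kw_iterate_mod {α : Type*} (f : α → α) {p : ℕ} (hf : ∀ z, f^[p] z = z) (j : ℕ)
    (z : α) : f^[j] z = f^[j % p] z := by
  have h1 : ∀ m : ℕ, ∀ z, (f^[p])^[m] z = z := by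
    intro m
    induction m with
    | zero => intro z; rfl
    | succ m ih => intro z; rw [Function.iterate_succ_apply, hf, ih]
  conv_lhs => rw [← Nat.mod_add_div j p]
  rw [Function.iterate_add_apply, Function.iterate_mul, h1]

variable (N : ℕ) [NeZero N] {p : ℕ} [hpF : Fact p.Prime]

local notation "FN" => modularFunctionFieldBar N

attribute [local instance] s44kq_lsAction

set_option synthInstance.maxHeartbeats 400000
set_option maxHeartbeats 1000000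

/-- the model statement for the Kummer fields. -/
theorem s44kw_isModel (L' : IntermediateField ℚ Qb) (y : LaurentSeries ↥L') :
    s44mr_IsModel ↥L' (s44kw_F ↥L' N y) (s44kw_F Qb N (ssm_al_iota ↥L' y)) :=
  s44mr_isModel_sup_simple ↥L' (s44mr_isModel_lgE ↥L' N) y

/-- **(K-UNIF) + [S-RAT]**: the Kummer package of `s44kv_unif` with `Lb = E(y)` as an intermediate
field, and the rationality of the zeros and poles of `Φ` and of all `τ^j h`. -/
theorem s44kw_unif_rat (hp5 : 5 ≤ p) {ζ : Qb} (hζ : IsPrimitiveRoot ζ p) (β : Qb) {X : JZero N}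
    (hX : p • X = 0) (V : JZero N) (hβ0 : β ≠ 0) (hV : p • V = 0) (hX0 : X ≠ 0) :
    ∃ (T₂ : Finset Qb) (fX fV : FN) (ybar cbar gbar Φbar : LaurentSeries Qb)
      (hbar : ℕ → LaurentSeries Qb),
      s44f_Rep N p X fX ∧ s44f_Rep N p V fV ∧ (fX : LaurentSeries Qb).leadingCoeff = 1 ∧
      ybar ^ p = lg_phi Qb (fX : LaurentSeries Qb) ∧
      ∀ L' : IntermediateField ℚ Qb, FiniteDimensional ℚ L' → ∀ _ : Normal ℚ L',
        (↑T₂ : Set Qb) ⊆ L' →
        ∃ (ζ1 β1 : ↥L') (fx1 fv1 : ↥(lg_F ↥L' N)) (y c : LaurentSeries ↥L')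
          (τ : ↥(s44kw_F ↥L' N y).toSubfield ≃+* ↥(s44kw_F ↥L' N y).toSubfield)
          (g Φ h : ↥(s44kw_F ↥L' N y).toSubfield),
          algebraMap ↥L' Qb ζ1 = ζ ∧ algebraMap ↥L' Qb β1 = β ∧
          ssm_al_iotaF ↥L' N fx1 = fX ∧ ssm_al_iotaF ↥L' N fv1 = fV ∧
          y ^ p = lg_phi ↥L' (fx1 : LaurentSeries ↥L') ∧
          s44kq_Pack (G := ↥(s44mn_G (s44md_H hζ β hX V) L')) (lg_E ↥L' N).toSubfield p
            (algebraMap ↥L' (LaurentSeries ↥L') ζ1) y (lg_phi ↥L' (fv1 : LaurentSeries ↥L'))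
            (algebraMap ↥L' (LaurentSeries ↥L') β1) (s44kq_lc ↥L') (s44kw_F ↥L' N y).toSubfield
            τ c g Φ h ∧
          ssm_al_iota ↥L' y = ybar ∧ ssm_al_iota ↥L' c = cbar ∧
          ssm_al_iota ↥L' (g : LaurentSeries ↥L') = gbar ∧
          ssm_al_iota ↥L' (Φ : LaurentSeries ↥L') = Φbar ∧
          (∀ j : ℕ, ssm_al_iota ↥L'
            (((⇑τ)^[j] h : ↥(s44kw_F ↥L' N y).toSubfield) : LaurentSeries ↥L') = hbar j) ∧
          (∀ v : Place ↥L' ↥(s44kw_F ↥L' N y),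
            v.ord (⟨(Φ : LaurentSeries ↥L'), Φ.2⟩ : ↥(s44kw_F ↥L' N y)) ≠ 0 → ss_RatPlace v) ∧
          ∀ (j : ℕ) (v : Place ↥L' ↥(s44kw_F ↥L' N y)),
            v.ord (⟨(((⇑τ)^[j] h : ↥(s44kw_F ↥L' N y).toSubfield) : LaurentSeries ↥L'),
              ((⇑τ)^[j] h).2⟩ : ↥(s44kw_F ↥L' N y)) ≠ 0 → ss_RatPlace v := by
  classical
  have hp : p.Prime := hpF.out
  obtain ⟨T₁, fX, fV, ybar, cbar, gbar, Φbar, hbar, hrX, hrV, hlc, hyb, hall⟩ :=
    s44kv_unif N hp5 hζ β hX V hβ0 hV hX0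
  -- a reference field
  obtain ⟨L₀, hfd₀, hn₀, hT₁L₀, -⟩ := s44b_exists_nf N ∅ T₁
  haveI := hfd₀
  haveI := hn₀
  obtain ⟨s₀, hs₀⟩ := s44kw_exists_adjoin L₀
  obtain ⟨ζ0, β0, fx0, fv0, y₀, c₀, Lb₀, τ₀, g₀, Φ₀, h₀, -, -, -, -, -, P₀, hyb₀, -, -, hΦ₀, hh₀⟩ :=
    hall L₀ hfd₀ hn₀ hT₁L₀
  have hdef : s44mr_DefOver (s44kw_F Qb N ybar) s₀ := by
    rw [← hyb₀]
    exact s44kw_defOver N L₀ hs₀ y₀
  have hybE : ybar ^ p ∈ lg_E Qb N := by
    rw [hyb]
    refine lg_phi_mem_E Qb N ?_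
    rw [lg_F_eq_bar]
    exact fX.2
  haveI : FiniteDimensional Qb⟮s44kw_lam Qb N ybar⟯ ↥(s44kw_F Qb N ybar) :=
    s44kw_finite Qb N hp.ne_zero hybE
  have hM₀ : s44mr_IsModel ↥L₀ (s44kw_F ↥L₀ N y₀) (s44kw_F Qb N ybar) := by
    have := s44kw_isModel N L₀ y₀
    rwa [hyb₀] at this
  have hLb₀ := s44kw_Lb_eq P₀
  have hΦmem : Φbar ∈ s44kw_F Qb N ybar := by
    rw [← hΦ₀]
    exact hM₀.1 _ (hLb₀.le Φ₀.2)
  have hhmem : ∀ j, hbar j ∈ s44kw_F Qb N ybar := fun j => by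
    rw [← hh₀ j]
    exact hM₀.1 _ (hLb₀.le ((⇑τ₀)^[j] h₀).2)
  obtain ⟨sΦ, hsΦ⟩ := s44mr_rational_model.{0} hdef (s44kw_lam Qb N ybar) ⟨Φbar, hΦmem⟩
  have hsh : ∀ j, ∃ s : Finset Qb, _ := fun j =>
    s44mr_rational_model.{0} hdef (s44kw_lam Qb N ybar) ⟨hbar j, hhmem j⟩
  choose sh hsh using hsh
  refine ⟨T₁ ∪ s₀ ∪ sΦ ∪ (Finset.range p).biUnion sh, fX, fV, ybar, cbar, gbar, Φbar, hbar, hrX,
    hrV, hlc, hyb, ?_⟩
  intro L' hfd hn hsub
  haveI := hfd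
  haveI := hn
  have hmem : ∀ a, a ∈ (T₁ ∪ s₀ ∪ sΦ ∪ (Finset.range p).biUnion sh : Finset Qb) → a ∈ L' :=
    fun a ha => hsub (Finset.mem_coe.2 ha)
  have hrange : ∀ s : Finset Qb, (∀ a ∈ s, a ∈ L') →
      (↑s : Set Qb) ⊆ Set.range (algebraMap ↥L' Qb) := fun s hs a ha =>
    ⟨⟨a, hs a (Finset.mem_coe.1 ha)⟩, rfl⟩
  obtain ⟨ζ1, β1, fx1, fv1, y, c, Lb, τ, g, Φ, h, e1, e2, e3, e4, e5, P, b1, b2, b3, b4, b5⟩ :=
    hall L' hfd hn (fun a ha => hmem a (by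
      rw [Finset.mem_coe] at ha
      simp [ha]))
  have hLb := s44kw_Lb_eq P
  subst hLb
  have hM : s44mr_IsModel ↥L' (s44kw_F ↥L' N y) (s44kw_F Qb N ybar) := by
    have := s44kw_isModel N L' y
    rwa [b1] at this
  have hs₀L : (↑s₀ : Set Qb) ⊆ Set.range (algebraMap ↥L' Qb) :=
    hrange s₀ fun a ha => hmem a (by simp [ha])
  refine ⟨ζ1, β1, fx1, fv1, y, c, τ, g, Φ, h, e1, e2, e3, e4, e5, P, b1, b2, b3, b4, b5, ?_, ?_⟩
  · intro v hv
    exact hsΦ ↥L' (s44kw_F ↥L' N y) hs₀L (hrange sΦ fun a ha => hmem a (by simp [ha])) hM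
      ⟨(Φ : LaurentSeries ↥L'), Φ.2⟩ b4 v hv
  · intro j v hv
    have hjlt : j % p < p := Nat.mod_lt _ hp.pos
    have hiter : (⇑τ)^[j] h = (⇑τ)^[j % p] h := s44kw_iterate_mod _ P.τ_pow j h
    have hv' : v.ord (⟨(((⇑τ)^[j % p] h : ↥(s44kw_F ↥L' N y).toSubfield) : LaurentSeries ↥L'),
        ((⇑τ)^[j % p] h).2⟩ : ↥(s44kw_F ↥L' N y)) ≠ 0 := by
      have e : (⟨(((⇑τ)^[j] h : ↥(s44kw_F ↥L' N y).toSubfield) : LaurentSeries ↥L'),
          ((⇑τ)^[j] h).2⟩ : ↥(s44kw_F ↥L' N y)) =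
          ⟨(((⇑τ)^[j % p] h : ↥(s44kw_F ↥L' N y).toSubfield) : LaurentSeries ↥L'),
            ((⇑τ)^[j % p] h).2⟩ := Subtype.ext (congrArg Subtype.val hiter)
      rwa [← e]
    exact hsh (j % p) ↥L' (s44kw_F ↥L' N y) hs₀L
      (hrange (sh (j % p)) fun a ha => hmem a (by
        refine Finset.mem_union_right _ (Finset.mem_biUnion.2 ⟨j % p, Finset.mem_range.2 hjlt, ha⟩)))
      hM ⟨_, ((⇑τ)^[j % p] h).2⟩ (b5 (j % p)) v hv'

end UnifRat

end Fermat.Agent.S44
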