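/-
S44 (Mazur–Ribet at `p`), cell [H2] MONO-MAIN, sub-cell [H2-G] GAUSS-INV (helper8; prefix `s44mg_`).

`L` a field, `O ≤ L` a valuation subring, `G` a group acting on `L` by field automorphisms which
preserve `O` (`hstab`).  `G` acts on `Ω = L((q))` coefficientwise (`s44mg_act`).

* `s44mg_isBdd_act`, `s44mg_isQuot_act` : the Gauss ring `gq_bddSubring` and the field of bounded
  quotients `gq_quotField` are `G`-stable; `s44mg_res_act` : an inert `g` acts trivially on the
  residue field of the Gauss ring.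
* `s44mg_gauss_inv` (`O` a DVR, `G` finite): a nonzero bounded series which is coefficientwise
  `G`-fixed is a `G`-fixed constant `c ∈ L` times a Gauss unit (average the denominator:
  `z = z1 / z2 = z1 ∏_{g ≠ 1} g z2 / ∏_g g z2`).  `s44mg_gauss_inv'` : the same for any nonzero
  element of `gq_quotField`; `s44mg_valuation_eq` : the valuation form in the Gauss valuation ring
  `gq_valSubOf π _ _ E _` of a subfield `E ≤ gq_quotField`.

The Gauss ring `gq_valSubOf π _ _ E _` is a DVR with uniformiser `π`: `SS.ssm_ga_isDVR`.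
-/
import Mathlib
import Fermat.Agent.JT3.Bridge.GaussVal

set_option autoImplicit false

open IsLocalRing

namespace Fermat.Agent.S44

open Fermat.Agent.JT3

section Red

/-- nonzero reduction = some coefficient is a unit -/
theorem s44mg_red_ne_zero_iff {O : Type*} [CommRing O] [IsLocalRing O] (y : LaurentSeries O) :
    ModularCurve.coeffMap (residue O) y ≠ 0 ↔ ∃ n : ℤ, IsUnit (y.coeff n) := by
  constructor
  · intro h
    by_contra hcon
    push Not at hcon
    apply h
    ext n
    rw [ModularCurve.coeffMap_coeff, HahnSeries.coeff_zero, residue_eq_zero_iff]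
    exact (mem_maximalIdeal _).mpr (hcon n)
  · rintro ⟨n, hn⟩ h0
    have h1 : residue O (y.coeff n) = 0 := by
      have := congrArg (fun z : LaurentSeries (ResidueField O) => z.coeff n) h0
      simpa using this
    exact (mem_maximalIdeal _).mp ((residue_eq_zero_iff _).mp h1) hn

end Red

section Act

variable {L : Type*} [Field L] (O : ValuationSubring L)
variable {G : Type*} [Group G] [MulSemiringAction G L]

/-- the coefficientwise action of `g` on `L((q))` -/
noncomputable def s44mg_act (g : G) : LaurentSeries L →+* LaurentSeries L :=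
  ModularCurve.coeffMap (MulSemiringAction.toRingHom G L g)

@[simp] theorem s44mg_act_coeff (g : G) (z : LaurentSeries L) (n : ℤ) :
    (s44mg_act g z).coeff n = g • z.coeff n := rfl

theorem s44mg_act_const (g : G) (c : L) :
    s44mg_act g (algebraMap L (LaurentSeries L) c) = algebraMap L (LaurentSeries L) (g • c) :=
  ModularCurve.coeffMap_algebraMap _ c

/-- the restriction of `g` to `O` -/
noncomputable def s44mg_res (hstab : ∀ (g : G) (x : L), x ∈ O → g • x ∈ O) (g : G) : ↥O →+* ↥O :=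
  (MulSemiringAction.toRingHom G L g).restrict O O (hstab g)

@[simp] theorem s44mg_res_coe (hstab : ∀ (g : G) (x : L), x ∈ O → g • x ∈ O) (g : G) (x : ↥O) :
    ((s44mg_res O hstab g x : ↥O) : L) = g • (x : L) := rfl

theorem s44mg_iota_res (hstab : ∀ (g : G) (x : L), x ∈ O → g • x ∈ O) (g : G)
    (y : LaurentSeries ↥O) :
    ModularCurve.coeffMap (algebraMap ↥O L) (ModularCurve.coeffMap (s44mg_res O hstab g) y) =
      s44mg_act g (ModularCurve.coeffMap (algebraMap ↥O L) y) := by
  ext n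
  rfl

theorem s44mg_red_res (hstab : ∀ (g : G) (x : L), x ∈ O → g • x ∈ O) (g : G)
    {y : LaurentSeries ↥O} (hy : ModularCurve.coeffMap (residue ↥O) y ≠ 0) :
    ModularCurve.coeffMap (residue ↥O) (ModularCurve.coeffMap (s44mg_res O hstab g) y) ≠ 0 := by
  obtain ⟨n, hn⟩ := (s44mg_red_ne_zero_iff y).mp hy
  exact (s44mg_red_ne_zero_iff _).mpr ⟨n, hn.map (s44mg_res O hstab g)⟩

/-- the coefficientwise action preserves boundedness -/
theorem s44mg_isBdd_act (hstab : ∀ (g : G) (x : L), x ∈ O → g • x ∈ O) (g : G)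
    {z : LaurentSeries L} (hz : gq_IsBdd ↥O L z) : gq_IsBdd ↥O L (s44mg_act g z) := by
  obtain ⟨z1, z2, hz2, hzz⟩ := hz
  refine ⟨ModularCurve.coeffMap (s44mg_res O hstab g) z1,
    ModularCurve.coeffMap (s44mg_res O hstab g) z2, s44mg_red_res O hstab g hz2, ?_⟩
  rw [s44mg_iota_res, s44mg_iota_res, ← map_mul, hzz]

theorem s44mg_res_injective (hstab : ∀ (g : G) (x : L), x ∈ O → g • x ∈ O) (g : G) :
    Function.Injective (s44mg_res O hstab g) := by
  intro a b hab
  apply Subtype.ext
  have h1 : g • (a : L) = g • (b : L) := congrArg Subtype.val hab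
  exact (MulAction.injective g) h1

/-- the field of bounded quotients is stable under the coefficientwise action -/
theorem s44mg_isQuot_act (hstab : ∀ (g : G) (x : L), x ∈ O → g • x ∈ O) (g : G)
    {z : LaurentSeries L} (hz : gq_IsQuot ↥O L z) : gq_IsQuot ↥O L (s44mg_act g z) := by
  obtain ⟨z1, z2, hz2, hzz⟩ := hz
  refine ⟨ModularCurve.coeffMap (s44mg_res O hstab g) z1,
    ModularCurve.coeffMap (s44mg_res O hstab g) z2, ?_, ?_⟩
  · intro h0
    apply hz2
    ext n
    have h1 := congrArg (fun w : LaurentSeries ↥O => w.coeff n) h0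
    simp only [ModularCurve.coeffMap_coeff, HahnSeries.coeff_zero] at h1
    have h2 : z2.coeff n = 0 := s44mg_res_injective O hstab g (h1.trans (map_zero _).symm)
    rw [h2]
    rfl
  · rw [s44mg_iota_res, s44mg_iota_res, ← map_mul, hzz]

/-- an inert `g` acts trivially on the residue field of the Gauss ring -/
theorem s44mg_res_act (hstab : ∀ (g : G) (x : L), x ∈ O → g • x ∈ O) (g : G)
    (hin : ∀ x : L, x ∈ O → g • x - x ∈ O.nonunits)
    {z : LaurentSeries L} (hz : gq_IsBdd ↥O L z) :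
    gq_res ↥O L ⟨s44mg_act g z, s44mg_isBdd_act O hstab g hz⟩ = gq_res ↥O L ⟨z, hz⟩ := by
  have hcomp : (residue ↥O).comp (s44mg_res O hstab g) = residue ↥O := by
    ext x
    rw [RingHom.comp_apply, ← sub_eq_zero, ← map_sub, residue_eq_zero_iff]
    obtain ⟨hmem, h⟩ := (O.mem_nonunits_iff_exists_mem_maximalIdeal).mp (hin x x.2)
    exact h
  have hred : ∀ y : LaurentSeries ↥O, ModularCurve.coeffMap (residue ↥O)
      (ModularCurve.coeffMap (s44mg_res O hstab g) y) = ModularCurve.coeffMap (residue ↥O) y := by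
    intro y
    rw [ModularCurve.coeffMap_coeffMap, hcomp]
  obtain ⟨z1, z2, hz2, hzz⟩ := hz
  have e1 := gq_res_eq (O := ↥O) (K := L) ⟨z, ⟨z1, z2, hz2, hzz⟩⟩ (z1 := z1) (z2 := z2) hz2 hzz
  have hz2' : ModularCurve.coeffMap (residue ↥O)
      (ModularCurve.coeffMap (s44mg_res O hstab g) z2) ≠ 0 := by
    rw [hred]
    exact hz2
  have hzz' : s44mg_act g z * ModularCurve.coeffMap (algebraMap ↥O L)
      (ModularCurve.coeffMap (s44mg_res O hstab g) z2) =
      ModularCurve.coeffMap (algebraMap ↥O L) (ModularCurve.coeffMap (s44mg_res O hstab g) z1) := by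
    rw [s44mg_iota_res, s44mg_iota_res, ← map_mul, hzz]
  have e2 := gq_res_eq (O := ↥O) (K := L)
    ⟨s44mg_act g z, s44mg_isBdd_act O hstab g ⟨z1, z2, hz2, hzz⟩⟩ hz2' hzz'
  rw [hred, hred] at e2
  exact e2.trans e1.symm

end Act


section Main

variable {L : Type*} [Field L] (O : ValuationSubring L) [IsDiscreteValuationRing ↥O]
variable {G : Type*} [Group G] [Finite G] [MulSemiringAction G L]

/-- **[H2-G] GAUSS-INV.** A nonzero bounded series which is coefficientwise fixed by a finite group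
`G` of automorphisms of `L` preserving the DVR `O` is a `G`-fixed constant times a Gauss unit. -/
theorem s44mg_gauss_inv (hstab : ∀ (g : G) (x : L), x ∈ O → g • x ∈ O)
    {z : LaurentSeries L} (hz : gq_IsBdd ↥O L z) (hz0 : z ≠ 0)
    (hfix : ∀ g : G, s44mg_act g z = z) :
    ∃ c : L, c ≠ 0 ∧ (∀ g : G, g • c = c) ∧
      gq_IsBdd ↥O L (algebraMap L (LaurentSeries L) c⁻¹ * z) ∧
      gq_IsBdd ↥O L (algebraMap L (LaurentSeries L) c * z⁻¹) := by
  classical
  cases nonempty_fintype G
  obtain ⟨z1, z2, hz2, hzz⟩ := hz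
  have hinjL : Function.Injective (algebraMap ↥O L) := IsFractionRing.injective ↥O L
  have hinj : Function.Injective (ModularCurve.coeffMap (algebraMap ↥O L)) :=
    gq_coeffMap_injective hinjL
  have hφ1 : s44mg_res O hstab 1 = RingHom.id _ := by
    ext x
    simp
  have hφmul : ∀ g h : G, (s44mg_res O hstab g).comp (s44mg_res O hstab h) =
      s44mg_res O hstab (g * h) := by
    intro g h
    ext x
    simp [mul_smul]
  -- the norm of the denominator
  set D : LaurentSeries ↥O := ∏ g : G, ModularCurve.coeffMap (s44mg_res O hstab g) z2 with hD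
  have hredD : ModularCurve.coeffMap (residue ↥O) D ≠ 0 := by
    rw [hD, map_prod, Finset.prod_ne_zero_iff]
    intro g _
    exact s44mg_red_res O hstab g hz2
  have hDfix : ∀ h : G, s44mg_act h (ModularCurve.coeffMap (algebraMap ↥O L) D) =
      ModularCurve.coeffMap (algebraMap ↥O L) D := by
    intro h
    rw [← s44mg_iota_res O hstab]
    congr 1
    rw [hD, map_prod]
    simp_rw [ModularCurve.coeffMap_coeffMap, hφmul]
    exact Fintype.prod_equiv (Equiv.mulLeft h) _ _ (fun g => rfl)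
  -- the numerator
  set Nm : LaurentSeries ↥O :=
    z1 * ∏ g ∈ (Finset.univ : Finset G).erase 1, ModularCurve.coeffMap (s44mg_res O hstab g) z2 with hNm
  have hNmz : ModularCurve.coeffMap (algebraMap ↥O L) Nm =
      z * ModularCurve.coeffMap (algebraMap ↥O L) D := by
    have h1 : D = z2 * ∏ g ∈ (Finset.univ : Finset G).erase 1, ModularCurve.coeffMap (s44mg_res O hstab g) z2 := by
      rw [hD, ← Finset.mul_prod_erase Finset.univ _ (Finset.mem_univ (1 : G)), hφ1]
      rw [ModularCurve.coeffMap_id]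
    rw [hNm, h1, map_mul, map_mul, ← hzz]
    ring
  have hD0 : ModularCurve.coeffMap (algebraMap ↥O L) D ≠ 0 := by
    intro h0
    have : D = 0 := hinj (by rw [h0, map_zero])
    rw [this, map_zero] at hredD
    exact hredD rfl
  have hNm0 : Nm ≠ 0 := by
    intro h0
    rw [h0, map_zero] at hNmz
    rcases mul_eq_zero.mp hNmz.symm with h | h
    · exact hz0 h
    · exact hD0 h
  have hNmfix : ∀ h : G, s44mg_act h (ModularCurve.coeffMap (algebraMap ↥O L) Nm) =
      ModularCurve.coeffMap (algebraMap ↥O L) Nm := by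
    intro h
    rw [hNmz, map_mul, hfix, hDfix]
  clear_value Nm D
  -- divide the numerator by its content
  obtain ⟨π, hπirr⟩ := IsDiscreteValuationRing.exists_irreducible ↥O
  have hπ : maximalIdeal ↥O = Ideal.span {π} := hπirr.maximalIdeal_eq
  obtain ⟨e, Nm', hNm', hredNm'⟩ := gq_exists_pow_mul π hπ Nm hNm0
  obtain ⟨n, hn⟩ := (s44mg_red_ne_zero_iff Nm').mp hredNm'
  obtain ⟨u, hu⟩ := hn
  have hcoeff : Nm.coeff n = π ^ e * (u : ↥O) := by
    rw [hNm', gq_algebraMap_eq_single, HahnSeries.coeff_single_zero_mul, hu]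
  have hπ0 : π ≠ 0 := hπirr.ne_zero
  have hιNm : ModularCurve.coeffMap (algebraMap ↥O L) Nm =
      algebraMap L (LaurentSeries L) (algebraMap ↥O L (π ^ e)) *
        ModularCurve.coeffMap (algebraMap ↥O L) Nm' := by
    rw [hNm', map_mul, gq_coeffMap_algebraMap]
  have hc0 : algebraMap ↥O L (Nm.coeff n) ≠ 0 := by
    rw [hcoeff]
    intro h0
    have h1 : (π ^ e * (u : ↥O) : ↥O) = 0 := hinjL (by rw [map_zero]; exact h0)
    rcases mul_eq_zero.mp h1 with h | h
    · exact hπ0 (pow_eq_zero_iff (M₀ := ↥O) (a := π) (n := e) (by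
        rintro rfl
        simp at h) |>.mp h)
    · exact u.ne_zero h
  have hcvi : algebraMap ↥O L (Nm.coeff n) * algebraMap ↥O L ((u⁻¹ : (↥O)ˣ) : ↥O) =
      algebraMap ↥O L (π ^ e) := by
    rw [← map_mul, hcoeff, mul_assoc, Units.mul_inv, mul_one]
  have hviL : (algebraMap ↥O L (Nm.coeff n))⁻¹ * algebraMap ↥O L (π ^ e) =
      algebraMap ↥O L ((u⁻¹ : (↥O)ˣ) : ↥O) := by
    rw [inv_mul_eq_iff_eq_mul₀ hc0, hcvi]
  refine ⟨algebraMap ↥O L (Nm.coeff n), hc0, ?_, ?_, ?_⟩
  · intro g
    have := congrArg (fun w : LaurentSeries L => w.coeff n) (hNmfix g)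
    exact this
  · refine ⟨algebraMap ↥O (LaurentSeries ↥O) ((u⁻¹ : (↥O)ˣ) : ↥O) * Nm', D, hredD, ?_⟩
    rw [mul_assoc, ← hNmz, hιNm, ← mul_assoc, ← map_mul, hviL, map_mul, gq_coeffMap_algebraMap]
  · refine ⟨D, algebraMap ↥O (LaurentSeries ↥O) ((u⁻¹ : (↥O)ˣ) : ↥O) * Nm', ?_, ?_⟩
    · rw [map_mul]
      refine mul_ne_zero ?_ hredNm'
      exact (((u⁻¹).isUnit.map (algebraMap ↥O (LaurentSeries ↥O))).map
        (ModularCurve.coeffMap (residue ↥O))).ne_zero
    · rw [map_mul, gq_coeffMap_algebraMap]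
      have h1 : algebraMap L (LaurentSeries L) (algebraMap ↥O L (Nm.coeff n)) * z⁻¹ *
          (algebraMap L (LaurentSeries L) (algebraMap ↥O L ((u⁻¹ : (↥O)ˣ) : ↥O)) *
            ModularCurve.coeffMap (algebraMap ↥O L) Nm') =
          z⁻¹ * (algebraMap L (LaurentSeries L) (algebraMap ↥O L (Nm.coeff n) *
            algebraMap ↥O L ((u⁻¹ : (↥O)ˣ) : ↥O)) * ModularCurve.coeffMap (algebraMap ↥O L) Nm') := by
        rw [map_mul]
        ring
      rw [h1, hcvi, ← hιNm, hNmz, ← mul_assoc, inv_mul_cancel₀ hz0, one_mul]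

/-- the same for an arbitrary nonzero element of the field of bounded quotients -/
theorem s44mg_gauss_inv' (hstab : ∀ (g : G) (x : L), x ∈ O → g • x ∈ O)
    {z : LaurentSeries L} (hz : gq_IsQuot ↥O L z) (hz0 : z ≠ 0)
    (hfix : ∀ g : G, s44mg_act g z = z) :
    ∃ c : L, c ≠ 0 ∧ (∀ g : G, g • c = c) ∧
      gq_IsBdd ↥O L (algebraMap L (LaurentSeries L) c⁻¹ * z) ∧
      gq_IsBdd ↥O L (algebraMap L (LaurentSeries L) c * z⁻¹) := by
  obtain ⟨π, hπirr⟩ := IsDiscreteValuationRing.exists_irreducible ↥O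
  have hπ : maximalIdeal ↥O = Ideal.span {π} := hπirr.maximalIdeal_eq
  rcases gq_isBdd_or_inv π hπirr.ne_zero hπ hz with h | h
  · exact s44mg_gauss_inv O hstab h hz0 hfix
  · obtain ⟨c, hc0, hcfix, h1, h2⟩ := s44mg_gauss_inv O hstab h (inv_ne_zero hz0)
      (fun g => by rw [map_inv₀, hfix])
    refine ⟨c⁻¹, inv_ne_zero hc0, fun g => by rw [smul_inv'', hcfix], ?_, ?_⟩
    · rw [inv_inv] at h2 ⊢
      exact h2
    · exact h1

/-- valuation form: a `G`-fixed element of a subfield `E` of the field of bounded quotients has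
the Gauss valuation of a `G`-fixed constant. -/
theorem s44mg_valuation_eq (hstab : ∀ (g : G) (x : L), x ∈ O → g • x ∈ O)
    (π : ↥O) (hπ0 : π ≠ 0) (hπ : maximalIdeal ↥O = Ideal.span {π})
    (E : IntermediateField L (LaurentSeries L)) (hE : E ≤ gq_quotField ↥O L)
    (z : ↥E) (hz0 : z ≠ 0) (hfix : ∀ g : G, s44mg_act g (z : LaurentSeries L) = z) :
    ∃ c : L, c ≠ 0 ∧ (∀ g : G, g • c = c) ∧
      (gq_valSubOf π hπ0 hπ E hE).valuation z =
        (gq_valSubOf π hπ0 hπ E hE).valuation (algebraMap L ↥E c) := by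
  have hz0' : (z : LaurentSeries L) ≠ 0 := fun h => hz0 (Subtype.ext h)
  obtain ⟨c, hc0, hcfix, h1, h2⟩ := s44mg_gauss_inv' O hstab (hE z.2) hz0' hfix
  refine ⟨c, hc0, hcfix, ?_⟩
  set V := gq_valSubOf π hπ0 hπ E hE with hV
  have hcE : algebraMap L ↥E c ≠ 0 := by
    rw [Ne, map_eq_zero]
    exact hc0
  have m1 : (algebraMap L ↥E c)⁻¹ * z ∈ V := by
    rw [hV, gq_mem_valSubOf]
    have : (((algebraMap L ↥E c)⁻¹ * z : ↥E) : LaurentSeries L) =
        algebraMap L (LaurentSeries L) c⁻¹ * z := by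
      rw [MulMemClass.coe_mul, IntermediateField.coe_inv, map_inv₀]
      rfl
    rw [this]
    exact h1
  have m2 : algebraMap L ↥E c * z⁻¹ ∈ V := by
    rw [hV, gq_mem_valSubOf]
    have : ((algebraMap L ↥E c * z⁻¹ : ↥E) : LaurentSeries L) =
        algebraMap L (LaurentSeries L) c * (z : LaurentSeries L)⁻¹ := by
      rw [MulMemClass.coe_mul, IntermediateField.coe_inv]
      rfl
    rw [this]
    exact h2
  rw [← V.valuation_le_one_iff, map_mul, map_inv₀] at m1 m2
  have hvc : V.valuation (algebraMap L ↥E c) ≠ 0 := (map_ne_zero _).mpr hcE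
  have hvz : V.valuation z ≠ 0 := (map_ne_zero _).mpr hz0
  apply le_antisymm
  · rwa [inv_mul_le_iff₀ (zero_lt_iff.mpr hvc), mul_one] at m1
  · rwa [mul_inv_le_iff₀ (zero_lt_iff.mpr hvz), one_mul] at m2

end Main

end Fermat.Agent.S44
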