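/-
Project S44 (Mazur–Ribet at `p`), cell [H2-A] of [H2] MONO-MAIN (helper4): THE INVARIANT SLOPE
LEMMA AT A NODE `u v = a` OVER A (possibly wildly ramified) BASE.  Prefix `s44ms_`.

`A0` a discrete valuation ring (uniformiser `π`, fraction field `K`), `R` a noetherian integrally
closed local domain over `A0` with fraction field `F`, `𝔪_R = (π, u, v)`, `u v = a ∈ A0 ∖ 0`
(`= π^M · unit`), `P₁ ∋ u`, `P₂ ∋ v` the two vertical primes (`s44n_Node`).  A family of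
automorphisms `σ i` of `(F, R, A0)` fixing `u` and a function `z ∈ Fˣ` (`s44ms_Aut`).  Suppose
* `hdiv` : `m ∣ ord_𝔮 z` at every horizontal prime `𝔮` of `R`,
* `hrat` : the horizontal primes at which `z` is not a unit are `K`-rational.
For a rational horizontal prime `𝔮` let `c_𝔮 ∈ A0` be its `u`-coordinate (`u - c_𝔮 ∈ 𝔮`) and
`n_𝔮 := ord_𝔮 z / m`.  Then `e₀ := ∏ (u - c_𝔮) ^ n_𝔮` satisfies: `z / e₀ ^ m` has no horizontal
divisor, `e₀` is a unit at `P₂`, `e₀ / C` is a unit at `P₁` for the CONSTANT `C := ∏ c_𝔮 ^ n_𝔮`,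
`e₀ / u ^ N ≡ 1` modulo `P₂` (`N := ∑ n_𝔮`), and `C` IS FIXED BY EVERY `σ i`
(the `σ i` permute the bad primes, `c_{σ𝔮} = σ c_𝔮`, `n_{σ𝔮} = n_𝔮`).  Consequently, for additive
order functions `W₁, W₂, ν` as in `s44n_slope_congr`:

  `s44ms_main`  : `M · (ν z - m N) = W₁ z - W₂ z - m · W₁ C`,  and `e ∣ W₁ C` as soon as the
                  invariant constants have `W₁`-value in `e ℤ`;
  `s44ms_congr` : if moreover `M = e m₀` and `e ∣ W₂ z` then `e ∣ W₁ z` and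
                  `m₀ · ν z ≡ (W₁ z - W₂ z) / e  (mod m)`.

In the application `A0 = A ∩ L'` for a big number field `L'`, the `σ i` are the elements of the
inertia group acting on the coefficients, `e = v_π(p)`, `m₀ = 1`, `m = p` (for `Φ`) or `m = 1`
(for `h`): the wild ramification of the base is divided out although no model over a small base
is ever constructed.
-/
import Mathlib
import Fermat.Agent.S44.Node.Slope
import Fermat.Agent.SS.Local.NodePE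
import Fermat.Agent.SS.Local.Equations

set_option autoImplicit false
set_option linter.unusedSectionVars false
set_option linter.unusedVariables false
set_option linter.style.haveILetI false

namespace Fermat.Agent.S44

open Fermat.Agent.SS IsLocalRing

/-! ### additive functions on `Fˣ` -/

section Additive

variable {F : Type*} [Field F]

/-- `f (a b) = f a + f b` on `Fˣ` -/
def s44ms_Add (f : F → ℤ) : Prop := ∀ a b : F, a ≠ 0 → b ≠ 0 → f (a * b) = f a + f b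

namespace s44ms_Add

variable {f : F → ℤ} (hf : s44ms_Add f)
include hf

theorem map_one : f 1 = 0 := by
  have := hf 1 1 one_ne_zero one_ne_zero
  rw [mul_one] at this
  linarith

theorem map_pow (a : F) (n : ℕ) (ha : a ≠ 0) : f (a ^ n) = n * f a := by
  induction n with
  | zero => rw [pow_zero, hf.map_one]; simp
  | succ k ih =>
    rw [pow_succ, hf _ _ (pow_ne_zero k ha) ha, ih]
    push_cast
    ring

theorem map_inv (a : F) (ha : a ≠ 0) : f a⁻¹ = - f a := by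
  have := hf a a⁻¹ ha (inv_ne_zero ha)
  rw [mul_inv_cancel₀ ha, hf.map_one] at this
  linarith

theorem map_zpow (a : F) (n : ℤ) (ha : a ≠ 0) : f (a ^ n) = n * f a := by
  obtain ⟨k, rfl | rfl⟩ := n.eq_nat_or_neg
  · rw [zpow_natCast, hf.map_pow a k ha]
  · rw [zpow_neg, zpow_natCast, hf.map_inv _ (pow_ne_zero k ha), hf.map_pow a k ha]
    ring

theorem map_div (a b : F) (ha : a ≠ 0) (hb : b ≠ 0) : f (a / b) = f a - f b := by
  rw [div_eq_mul_inv, hf a _ ha (inv_ne_zero hb), hf.map_inv b hb]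
  ring

theorem map_prod {ι : Type*} (s : Finset ι) (g : ι → F) (hg : ∀ i ∈ s, g i ≠ 0) :
    f (∏ i ∈ s, g i) = ∑ i ∈ s, f (g i) := by
  classical
  induction s using Finset.induction_on with
  | empty => simp [hf.map_one]
  | insert a s ha ih =>
    rw [Finset.prod_insert ha, Finset.sum_insert ha,
      hf _ _ (hg a (Finset.mem_insert_self a s))
        (Finset.prod_ne_zero_iff.2 fun i hi => hg i (Finset.mem_insert_of_mem hi)),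
      ih fun i hi => hg i (Finset.mem_insert_of_mem hi)]

end s44ms_Add

end Additive

/-! ### the `u`-coordinate of a rational horizontal prime through the node -/

section Coord

variable {A0 K R F : Type*} [CommRing A0] [IsDomain A0] [IsDiscreteValuationRing A0]
  [Field K] [Algebra A0 K] [IsFractionRing A0 K]
  [CommRing R] [IsDomain R] [IsLocalRing R] [IsNoetherianRing R] [Algebra A0 R]
  [Field F] [Algebra R F] [IsFractionRing R F] [Algebra K F] [Algebra A0 F]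
  [IsScalarTower A0 K F] [IsScalarTower A0 R F]

omit [IsLocalRing R] [IsNoetherianRing R] [IsDomain R] in
/-- the `u`-coordinate of a prime not containing `π` is unique. -/
theorem s44ms_coord_unique {π : A0} (hπ : Irreducible π) (𝔮 : Ideal R) [𝔮.IsPrime]
    (hπ𝔮 : algebraMap A0 R π ∉ 𝔮) {u : R} {c c' : A0}
    (hc : u - algebraMap A0 R c ∈ 𝔮) (hc' : u - algebraMap A0 R c' ∈ 𝔮) : c = c' := by
  by_contra hne
  have h0 : c' - c ≠ 0 := sub_ne_zero.2 (Ne.symm hne)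
  apply ssl_np_const_not_mem hπ 𝔮 hπ𝔮 h0
  have : algebraMap A0 R (c' - c) = (u - algebraMap A0 R c) - (u - algebraMap A0 R c') := by
    rw [map_sub]; ring
  rw [this]
  exact 𝔮.sub_mem hc hc'

/-- **the coordinate of a rational horizontal prime**: if `u - c ∈ 𝔮` for a `K`-rational horizontal
prime `𝔮` through the node `u v = a`, then `c ≠ 0`, `π ∣ c`, `c c' = a` with `π ∣ c'`, and `u - c`
is a local equation of `𝔮` modulo vertical divisors. -/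
theorem s44ms_coord_spec {π : A0} (hπ : Irreducible π) {u v : R} {a : A0} (ha : a ≠ 0)
    (huv : u * v = algebraMap A0 R a)
    (hm : maximalIdeal R = Ideal.span {algebraMap A0 R π, u, v})
    (𝔮 : Ideal R) (h𝔮 : ssl_Horiz (algebraMap A0 R π) 𝔮)
    (hrat : ∀ z : F, ssl_MemAt F 𝔮 z → ∃ (c : K) (b s : R), b ∈ 𝔮 ∧ s ∉ 𝔮 ∧
      (z - algebraMap K F c) * algebraMap R F s = algebraMap R F b) :
    ∃ c : A0, u - algebraMap A0 R c ∈ 𝔮 ∧ c ≠ 0 ∧ π ∣ c ∧ (∃ c' : A0, π ∣ c' ∧ c * c' = a) ∧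
      ssl_LocEq (algebraMap A0 R π) 𝔮 (u - algebraMap A0 R c) := by
  obtain ⟨h𝔮p, h𝔮h, hπ𝔮⟩ := h𝔮
  have := h𝔮p
  have hπm : algebraMap A0 R π ∈ maximalIdeal R := by
    rw [hm]; exact Ideal.subset_span (by simp)
  have hum : u ∈ maximalIdeal R := by
    rw [hm]; exact Ideal.subset_span (by simp)
  have hvm : v ∈ maximalIdeal R := by
    rw [hm]; exact Ideal.subset_span (by simp)
  obtain ⟨P, hP⟩ := ssl_np_section (F := F) hπ hπm 𝔮 hπ𝔮 hrat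
  have h𝔮m : 𝔮 ≤ maximalIdeal R := le_maximalIdeal (Ideal.IsPrime.ne_top inferInstance)
  have hloc : ∀ x ∈ maximalIdeal R, π ∣ P x := by
    intro x hx
    by_contra hnd
    have hux : IsUnit (P x) := by
      by_contra hnu
      have : P x ∈ maximalIdeal A0 := (mem_maximalIdeal _).mpr hnu
      rw [hπ.maximalIdeal_eq, Ideal.mem_span_singleton] at this
      exact hnd this
    have h1 : x - algebraMap A0 R (P x) ∈ maximalIdeal R := by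
      apply h𝔮m
      rw [← hP]
      exact ssn_sub_mem_ker P x
    have h2 : algebraMap A0 R (P x) ∈ maximalIdeal R := by
      have : algebraMap A0 R (P x) = x - (x - algebraMap A0 R (P x)) := by ring
      rw [this]
      exact Ideal.sub_mem _ hx h1
    exact (mem_maximalIdeal _).mp h2 (hux.map (algebraMap A0 R))
  have hu : π ∣ P u := hloc u hum
  have hv : π ∣ P v := hloc v hvm
  have hPuv : P u * P v = a := by
    have := congrArg P huv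
    rwa [map_mul, AlgHom.commutes, Algebra.algebraMap_self_apply] at this
  have hPu0 : P u ≠ 0 := by
    rintro h0
    rw [h0, zero_mul] at hPuv
    exact ha hPuv.symm
  have hπ0 : π ≠ 0 := hπ.ne_zero
  refine ⟨P u, ?_, hPu0, hu, ⟨P v, hv, hPuv⟩, ?_, ?_, ?_⟩
  · rw [← hP]
    exact ssn_sub_mem_ker P u
  · rw [← hP]
    exact ssn_sub_mem_ker P u
  · intro z hz
    refine ⟨algebraMap A0 R (P u), ssl_np_const_not_mem hπ 𝔮 hπ𝔮 hPu0, ?_⟩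
    rw [← hP] at hz
    obtain ⟨w, hw⟩ := ssn_smul hm hπ0 huv P hu hv hz
    exact ⟨w, hw⟩
  · rintro 𝔮' ⟨h𝔮'p, h𝔮'h, hπ𝔮'⟩ ht
    have := h𝔮'p
    have hle : 𝔮 ≤ 𝔮' := by
      rw [← hP]
      exact ssn_prime hm hπ0 huv P hu hv 𝔮' ht (ssl_np_const_not_mem hπ 𝔮' hπ𝔮' hPu0)
    have hfin : 𝔮.FiniteHeight := by
      rw [Ideal.finiteHeight_iff]
      right
      rw [h𝔮h]
      exact ENat.one_ne_top
    have hh : 𝔮'.height ≤ 𝔮.height := by rw [h𝔮h, h𝔮'h]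
    exact (Ideal.eq_of_le_of_height_le 𝔮 hle hh).symm

end Coord

/-! ### uniqueness of the order at a prime, transport along automorphisms -/

section Order

variable {R : Type*} [CommRing R] [IsDomain R]
  {F : Type*} [Field F] [Algebra R F] [IsFractionRing R F]

/-- a positive power of an element of `𝔮` is not a unit at `𝔮`. -/
theorem s44ms_not_unitAt_pow (𝔮 : Ideal R) [𝔮.IsPrime] {t : R} (ht : t ∈ 𝔮) {n : ℕ} (hn : n ≠ 0) :
    ¬ ssl_UnitAt F 𝔮 (algebraMap R F t ^ n) := by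
  rintro ⟨a, s, ha, hs, h⟩
  apply ha
  have h1 : t ^ n * s = a := by
    apply IsFractionRing.injective R F
    rw [map_mul, map_pow]
    exact h
  rw [← h1]
  exact 𝔮.mul_mem_right _ (𝔮.pow_mem_of_mem ht n (Nat.pos_of_ne_zero hn))

/-- an integral power of an element of `𝔮` which is a unit at `𝔮` is the trivial power. -/
theorem s44ms_zpow_eq_zero_of_unitAt (𝔮 : Ideal R) [𝔮.IsPrime] {t : R} (ht : t ∈ 𝔮) {k : ℤ}
    (h : ssl_UnitAt F 𝔮 (algebraMap R F t ^ k)) : k = 0 := by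
  by_contra hk
  obtain ⟨n, rfl | rfl⟩ := k.eq_nat_or_neg
  · have hn : n ≠ 0 := by
      rintro rfl
      exact hk rfl
    rw [zpow_natCast] at h
    exact s44ms_not_unitAt_pow 𝔮 ht hn h
  · have hn : n ≠ 0 := by
      rintro rfl
      exact hk (by simp)
    have h' := ssl_unitAt_inv 𝔮 h
    rw [zpow_neg, inv_inv, zpow_natCast] at h'
    exact s44ms_not_unitAt_pow 𝔮 ht hn h'

/-- **uniqueness of the order**: if `z / (t^n)^m` and `z / (t^n')^m` are units at `𝔮 ∋ t`, `m ≠ 0`,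
then `n = n'`. -/
theorem s44ms_order_unique (𝔮 : Ideal R) [𝔮.IsPrime] {t : R} (ht : t ∈ 𝔮) (ht0 : t ≠ 0) {m : ℕ}
    (hm : m ≠ 0) {z : F} (hz : z ≠ 0) {n n' : ℤ}
    (h : ssl_UnitAt F 𝔮 (z / (algebraMap R F t ^ n) ^ m))
    (h' : ssl_UnitAt F 𝔮 (z / (algebraMap R F t ^ n') ^ m)) : n = n' := by
  have htF : algebraMap R F t ≠ 0 := ssl_algebraMap_ne_zero ht0
  have h1 : ssl_UnitAt F 𝔮 (algebraMap R F t ^ ((n - n') * (m : ℤ))) := by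
    have h2 := ssl_unitAt_div 𝔮 h' h
    have e : z / (algebraMap R F t ^ n') ^ m / (z / (algebraMap R F t ^ n) ^ m) =
        algebraMap R F t ^ ((n - n') * (m : ℤ)) := by
      rw [← zpow_natCast (algebraMap R F t ^ n') m, ← zpow_natCast (algebraMap R F t ^ n) m,
        ← zpow_mul, ← zpow_mul, sub_mul, zpow_sub₀ htF]
      have h3 : algebraMap R F t ^ (n' * (m : ℤ)) ≠ 0 := zpow_ne_zero _ htF
      have h4 : algebraMap R F t ^ (n * (m : ℤ)) ≠ 0 := zpow_ne_zero _ htF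
      field_simp
    rwa [e] at h2
  have h5 := s44ms_zpow_eq_zero_of_unitAt 𝔮 ht h1
  have hm' : (m : ℤ) ≠ 0 := by exact_mod_cast hm
  have := (mul_eq_zero.1 h5).resolve_right hm'
  linarith

end Order

/-! ### automorphisms of the node datum -/

section Aut

variable {A0 R F : Type*} [CommRing A0] [CommRing R] [IsDomain R] [Algebra A0 R]
  [Field F] [Algebra R F] [IsFractionRing R F]

/-- a compatible automorphism of `(F, R, A0)` fixing the node parameter `u` and the function `z`. -/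
structure s44ms_Aut (u : R) (z : F) (σ : F ≃+* F) (σR : R ≃+* R) (σ0 : A0 ≃+* A0) : Prop where
  compatF : ∀ r : R, σ (algebraMap R F r) = algebraMap R F (σR r)
  compat0 : ∀ c : A0, σR (algebraMap A0 R c) = algebraMap A0 R (σ0 c)
  fix_u : σR u = u
  fix_z : σ z = z

/-- the image of an ideal under an automorphism of `R`. -/
def s44ms_img (σR : R ≃+* R) (𝔮 : Ideal R) : Ideal R := 𝔮.comap (σR.symm : R →+* R)

omit [IsDomain R] in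
theorem s44ms_mem_img {σR : R ≃+* R} {𝔮 : Ideal R} {x : R} :
    x ∈ s44ms_img σR 𝔮 ↔ σR.symm x ∈ 𝔮 := Iff.rfl

omit [IsDomain R] in
theorem s44ms_apply_mem_img {σR : R ≃+* R} {𝔮 : Ideal R} {x : R} :
    σR x ∈ s44ms_img σR 𝔮 ↔ x ∈ 𝔮 := by
  rw [s44ms_mem_img, RingEquiv.symm_apply_apply]

omit [IsDomain R] in
theorem s44ms_img_symm_img (σR : R ≃+* R) (𝔮 : Ideal R) :
    s44ms_img σR.symm (s44ms_img σR 𝔮) = 𝔮 := by
  ext x
  rw [s44ms_mem_img, s44ms_mem_img, RingEquiv.symm_symm, RingEquiv.symm_apply_apply]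

omit [IsDomain R] in
theorem s44ms_img_img_symm (σR : R ≃+* R) (𝔮 : Ideal R) :
    s44ms_img σR (s44ms_img σR.symm 𝔮) = 𝔮 := by
  ext x
  rw [s44ms_mem_img, s44ms_mem_img, RingEquiv.symm_symm, RingEquiv.apply_symm_apply]

omit [IsDomain R] in
instance s44ms_img_isPrime (σR : R ≃+* R) (𝔮 : Ideal R) [𝔮.IsPrime] :
    (s44ms_img σR 𝔮).IsPrime := Ideal.comap_isPrime _ 𝔮

omit [IsDomain R] in
theorem s44ms_img_height (σR : R ≃+* R) (𝔮 : Ideal R) :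
    (s44ms_img σR 𝔮).height = 𝔮.height := RingEquiv.height_comap σR.symm 𝔮

namespace s44ms_Aut

variable {u : R} {z : F} {σ : F ≃+* F} {σR : R ≃+* R} {σ0 : A0 ≃+* A0}

/-- the inverse automorphism. -/
theorem symm (h : s44ms_Aut u z σ σR σ0) : s44ms_Aut u z σ.symm σR.symm σ0.symm where
  compatF r := by
    rw [RingEquiv.symm_apply_eq, h.compatF, RingEquiv.apply_symm_apply]
  compat0 c := by
    rw [RingEquiv.symm_apply_eq, h.compat0, RingEquiv.apply_symm_apply]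
  fix_u := by rw [RingEquiv.symm_apply_eq, h.fix_u]
  fix_z := by rw [RingEquiv.symm_apply_eq, h.fix_z]

/-- transport of units. -/
theorem unitAt (h : s44ms_Aut u z σ σR σ0) {𝔮 : Ideal R} {x : F} (hx : ssl_UnitAt F 𝔮 x) :
    ssl_UnitAt F (s44ms_img σR 𝔮) (σ x) := by
  obtain ⟨a, s, ha, hs, hxs⟩ := hx
  refine ⟨σR a, σR s, fun hm => ha (s44ms_apply_mem_img.1 hm),
    fun hm => hs (s44ms_apply_mem_img.1 hm), ?_⟩
  rw [← h.compatF, ← h.compatF, ← map_mul, hxs]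

theorem unitAt_iff (h : s44ms_Aut u z σ σR σ0) {𝔮 : Ideal R} {x : F} :
    ssl_UnitAt F (s44ms_img σR 𝔮) (σ x) ↔ ssl_UnitAt F 𝔮 x := by
  refine ⟨fun hx => ?_, h.unitAt⟩
  have := h.symm.unitAt hx
  rwa [s44ms_img_symm_img, RingEquiv.symm_apply_apply] at this

end s44ms_Aut

end Aut

/-! ### the canonical factorisation and its invariance -/

section Main

variable {A0 K R F : Type*} [CommRing A0] [IsDomain A0] [IsDiscreteValuationRing A0]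
  [Field K] [Algebra A0 K] [IsFractionRing A0 K]
  [CommRing R] [IsDomain R] [IsLocalRing R] [IsNoetherianRing R] [IsIntegrallyClosed R]
  [Algebra A0 R]
  [Field F] [Algebra R F] [IsFractionRing R F] [Algebra K F] [Algebra A0 F]
  [IsScalarTower A0 K F] [IsScalarTower A0 R F]

omit [IsLocalRing R] [IsNoetherianRing R] [IsIntegrallyClosed R] in
/-- an automorphism of the node datum permutes the horizontal primes. -/
theorem s44ms_Aut.horiz {π : A0} (hπ : Irreducible π) {u : R} {z : F} {σ : F ≃+* F}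
    {σR : R ≃+* R} {σ0 : A0 ≃+* A0} (h : s44ms_Aut u z σ σR σ0) {𝔮 : Ideal R}
    (h𝔮 : ssl_Horiz (algebraMap A0 R π) 𝔮) :
    ssl_Horiz (algebraMap A0 R π) (s44ms_img σR 𝔮) := by
  obtain ⟨hp, h1, hπ𝔮⟩ := h𝔮
  haveI := hp
  refine ⟨inferInstance, by rw [s44ms_img_height, h1], ?_⟩
  intro hmem
  rw [s44ms_mem_img, h.symm.compat0] at hmem
  have hirr : Irreducible (σ0.symm π) :=
    (MulEquiv.irreducible_iff (σ0.symm : A0 ≃* A0)).2 hπ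
  obtain ⟨w, hw⟩ := IsDiscreteValuationRing.associated_of_irreducible A0 hirr hπ
  apply hπ𝔮
  rw [← hw, map_mul]
  exact 𝔮.mul_mem_right _ hmem

/-- **the canonical factorisation.** -/
theorem s44ms_factor {π : A0} (hπ : Irreducible π) {u v : R} {a : A0} (ha : a ≠ 0)
    (huv : u * v = algebraMap A0 R a)
    (hm : maximalIdeal R = Ideal.span {algebraMap A0 R π, u, v})
    (m : ℕ) (hm0 : m ≠ 0) {z : F} (hz : z ≠ 0)
    (hdiv : ∀ 𝔮 : Ideal R, ssl_Horiz (algebraMap A0 R π) 𝔮 →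
      ∃ G : F, G ≠ 0 ∧ ssl_UnitAt F 𝔮 (z / G ^ m))
    (hrat : ∀ 𝔮 : Ideal R, ssl_Horiz (algebraMap A0 R π) 𝔮 → ¬ ssl_UnitAt F 𝔮 z →
      ∀ y : F, ssl_MemAt F 𝔮 y → ∃ (c : K) (b s : R), b ∈ 𝔮 ∧ s ∉ 𝔮 ∧
        (y - algebraMap K F c) * algebraMap R F s = algebraMap R F b)
    {ι : Type*} (σ : ι → F ≃+* F) (σR : ι → R ≃+* R) (σ0 : ι → A0 ≃+* A0)
    (hAut : ∀ i, s44ms_Aut u z (σ i) (σR i) (σ0 i)) :
    ∃ (Q : Finset (Ideal R)) (c : Ideal R → A0) (n : Ideal R → ℤ),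
      (∀ 𝔮 ∈ Q, c 𝔮 ≠ 0 ∧ π ∣ c 𝔮 ∧ ∃ c' : A0, π ∣ c' ∧ c 𝔮 * c' = a) ∧
      (∀ 𝔮' : Ideal R, ssl_Horiz (algebraMap A0 R π) 𝔮' → ssl_UnitAt F 𝔮'
        (z / (∏ 𝔮 ∈ Q, algebraMap R F (u - algebraMap A0 R (c 𝔮)) ^ n 𝔮) ^ m)) ∧
      (∀ i, σ i (∏ 𝔮 ∈ Q, algebraMap A0 F (c 𝔮) ^ n 𝔮) =
        ∏ 𝔮 ∈ Q, algebraMap A0 F (c 𝔮) ^ n 𝔮) := by
  classical
  set ϖ : R := algebraMap A0 R π with hϖ
  -- the finite set of bad horizontal primes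
  have hfin : {𝔮 : Ideal R | ssl_Horiz ϖ 𝔮 ∧ ¬ ssl_UnitAt F 𝔮 z}.Finite :=
    (ssl_finite_support (R := R) hz).subset fun 𝔮 h => ⟨h.1.1, h.1.2.1, h.2⟩
  set Q : Finset (Ideal R) := hfin.toFinset with hQ
  have hmemQ : ∀ 𝔮 : Ideal R, 𝔮 ∈ Q ↔ ssl_Horiz ϖ 𝔮 ∧ ¬ ssl_UnitAt F 𝔮 z := fun 𝔮 => by
    rw [hQ, Set.Finite.mem_toFinset]; rfl
  -- the coordinates
  have hexc : ∀ 𝔮 : Ideal R, 𝔮 ∈ Q → ∃ c : A0, u - algebraMap A0 R c ∈ 𝔮 ∧ c ≠ 0 ∧ π ∣ c ∧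
      (∃ c' : A0, π ∣ c' ∧ c * c' = a) ∧ ssl_LocEq ϖ 𝔮 (u - algebraMap A0 R c) := by
    intro 𝔮 h𝔮Q
    obtain ⟨hH, hnu⟩ := (hmemQ 𝔮).1 h𝔮Q
    exact s44ms_coord_spec (K := K) (F := F) hπ ha huv hm 𝔮 hH (hrat 𝔮 hH hnu)
  choose! c hc using hexc
  -- the orders
  have hexn : ∀ 𝔮 : Ideal R, 𝔮 ∈ Q → ∃ n : ℤ,
      ssl_UnitAt F 𝔮 (z / (algebraMap R F (u - algebraMap A0 R (c 𝔮)) ^ n) ^ m) := by
    intro 𝔮 h𝔮Q
    obtain ⟨hH, hnu⟩ := (hmemQ 𝔮).1 h𝔮Q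
    haveI := hH.1
    obtain ⟨hmem, -, -, -, ht⟩ := hc 𝔮 h𝔮Q
    obtain ⟨G, hG0, hG⟩ := hdiv 𝔮 hH
    obtain ⟨n, hn⟩ := ssl_exists_zpow (F := F) 𝔮 hH.2.1 ht.1 ht.2.1 hG0
    refine ⟨n, ?_⟩
    have htF : algebraMap R F (u - algebraMap A0 R (c 𝔮)) ≠ 0 :=
      ssl_algebraMap_ne_zero (ssl_locEq_ne_zero hH ht)
    have h1 : z / (algebraMap R F (u - algebraMap A0 R (c 𝔮)) ^ n) ^ m =
        (z / G ^ m) * (G / algebraMap R F (u - algebraMap A0 R (c 𝔮)) ^ n) ^ m := by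
      have h2 : algebraMap R F (u - algebraMap A0 R (c 𝔮)) ^ n ≠ 0 := zpow_ne_zero n htF
      rw [div_pow]
      field_simp
    rw [h1]
    exact ssl_unitAt_mul 𝔮 hG (ssl_unitAt_pow 𝔮 hn m)
  choose! n hn using hexn
  refine ⟨Q, c, n, fun 𝔮 h𝔮 => ⟨(hc 𝔮 h𝔮).2.1, (hc 𝔮 h𝔮).2.2.1, (hc 𝔮 h𝔮).2.2.2.1⟩, ?_, ?_⟩
  · -- `z / e₀ ^ m` has no horizontal divisor
    set T : Ideal R → R := fun 𝔮 => u - algebraMap A0 R (c 𝔮) with hT
    set e₀ : F := ∏ 𝔮 ∈ Q, algebraMap R F (T 𝔮) ^ n 𝔮 with he₀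
    have hfac0 : ∀ 𝔮 ∈ Q, algebraMap R F (T 𝔮) ^ n 𝔮 ≠ 0 := fun 𝔮 h𝔮 =>
      zpow_ne_zero _ (ssl_algebraMap_ne_zero
        (ssl_locEq_ne_zero ((hmemQ 𝔮).1 h𝔮).1 (hc 𝔮 h𝔮).2.2.2.2))
    intro 𝔮' hH'
    haveI := hH'.1
    have hother : ∀ 𝔮 ∈ Q, 𝔮 ≠ 𝔮' → ssl_UnitAt F 𝔮' (algebraMap R F (T 𝔮) ^ n 𝔮) := by
      intro 𝔮 h𝔮 hne
      exact ssl_unitAt_zpow 𝔮' (ssl_locEq_unitAt (hc 𝔮 h𝔮).2.2.2.2 hH' (Ne.symm hne)) _
    by_cases hmem : 𝔮' ∈ Q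
    · have hsplit : e₀ = algebraMap R F (T 𝔮') ^ n 𝔮' *
          ∏ 𝔮 ∈ Q.erase 𝔮', algebraMap R F (T 𝔮) ^ n 𝔮 := by
        rw [he₀]
        exact (Finset.mul_prod_erase Q (fun 𝔮 => algebraMap R F (T 𝔮) ^ n 𝔮) hmem).symm
      have hrest : ssl_UnitAt F 𝔮' (∏ 𝔮 ∈ Q.erase 𝔮', algebraMap R F (T 𝔮) ^ n 𝔮) :=
        ssl_unitAt_prod 𝔮' _ _ fun 𝔮 h𝔮 =>
          hother 𝔮 (Finset.mem_of_mem_erase h𝔮) (Finset.ne_of_mem_erase h𝔮)
      have h1 : z / e₀ ^ m = (z / (algebraMap R F (T 𝔮') ^ n 𝔮') ^ m) *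
          ((∏ 𝔮 ∈ Q.erase 𝔮', algebraMap R F (T 𝔮) ^ n 𝔮) ^ m)⁻¹ := by
        rw [hsplit, mul_pow]
        have h2 : (algebraMap R F (T 𝔮') ^ n 𝔮') ^ m ≠ 0 := pow_ne_zero m (hfac0 𝔮' hmem)
        have h3 : (∏ 𝔮 ∈ Q.erase 𝔮', algebraMap R F (T 𝔮) ^ n 𝔮) ^ m ≠ 0 :=
          pow_ne_zero m (ssl_unitAt_ne_zero 𝔮' hrest)
        field_simp
      rw [h1]
      exact ssl_unitAt_mul 𝔮' (hn 𝔮' hmem) (ssl_unitAt_inv 𝔮' (ssl_unitAt_pow 𝔮' hrest m))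
    · have hgu : ssl_UnitAt F 𝔮' z := by
        by_contra hnu
        exact hmem ((hmemQ 𝔮').2 ⟨hH', hnu⟩)
      have hall : ssl_UnitAt F 𝔮' e₀ :=
        ssl_unitAt_prod 𝔮' _ _ fun 𝔮 h𝔮 => hother 𝔮 h𝔮 fun h => hmem (h ▸ h𝔮)
      exact ssl_unitAt_div 𝔮' hgu (ssl_unitAt_pow 𝔮' hall m)
  · -- invariance of the constant
    intro i
    have hA := hAut i
    set φ : Ideal R → Ideal R := s44ms_img (σR i) with hφ
    -- `φ` preserves `Q`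
    have hφQ : ∀ 𝔮 ∈ Q, φ 𝔮 ∈ Q := by
      intro 𝔮 h𝔮
      obtain ⟨hH, hnu⟩ := (hmemQ 𝔮).1 h𝔮
      refine (hmemQ _).2 ⟨hA.horiz hπ hH, fun hu => hnu ?_⟩
      have := hA.unitAt_iff (𝔮 := 𝔮) (x := z)
      rw [hA.fix_z] at this
      exact this.1 hu
    have hφQ' : ∀ 𝔮 ∈ Q, s44ms_img (σR i).symm 𝔮 ∈ Q := by
      intro 𝔮 h𝔮
      obtain ⟨hH, hnu⟩ := (hmemQ 𝔮).1 h𝔮
      refine (hmemQ _).2 ⟨hA.symm.horiz hπ hH, fun hu => hnu ?_⟩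
      have := hA.symm.unitAt_iff (𝔮 := 𝔮) (x := z)
      rw [hA.symm.fix_z] at this
      exact this.1 hu
    -- equivariance of the coordinate
    have hσT : ∀ 𝔮 : Ideal R, (σR i) (u - algebraMap A0 R (c 𝔮)) =
        u - algebraMap A0 R (σ0 i (c 𝔮)) := by
      intro 𝔮
      rw [map_sub, hA.fix_u, hA.compat0]
    have hcφ : ∀ 𝔮 ∈ Q, c (φ 𝔮) = σ0 i (c 𝔮) := by
      intro 𝔮 h𝔮
      have hH' := ((hmemQ _).1 (hφQ 𝔮 h𝔮)).1
      haveI := hH'.1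
      refine s44ms_coord_unique hπ (φ 𝔮) hH'.2.2 (u := u) (hc _ (hφQ 𝔮 h𝔮)).1 ?_
      rw [← hσT 𝔮]
      exact s44ms_apply_mem_img.2 (hc 𝔮 h𝔮).1
    -- invariance of the order
    have hnφ : ∀ 𝔮 ∈ Q, n (φ 𝔮) = n 𝔮 := by
      intro 𝔮 h𝔮
      have hH' := ((hmemQ _).1 (hφQ 𝔮 h𝔮)).1
      haveI := hH'.1
      obtain ⟨hmem', -, -, -, ht'⟩ := hc _ (hφQ 𝔮 h𝔮)
      have h1 := hn _ (hφQ 𝔮 h𝔮)
      have h2 := hA.unitAt (hn 𝔮 h𝔮)
      rw [map_div₀, map_pow, map_zpow₀, hA.fix_z, hA.compatF, hσT 𝔮, ← hcφ 𝔮 h𝔮] at h2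
      exact s44ms_order_unique (φ 𝔮) hmem' (ssl_locEq_ne_zero hH' ht') hm0 hz h1 h2
    -- the image of a constant
    have hσc : ∀ x : A0, σ i (algebraMap A0 F x) = algebraMap A0 F (σ0 i x) := by
      intro x
      rw [IsScalarTower.algebraMap_apply A0 R F, hA.compatF, hA.compat0,
        ← IsScalarTower.algebraMap_apply A0 R F]
    rw [map_prod]
    have h3 : ∀ 𝔮 ∈ Q, σ i (algebraMap A0 F (c 𝔮) ^ n 𝔮) =
        algebraMap A0 F (c (φ 𝔮)) ^ n (φ 𝔮) := by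
      intro 𝔮 h𝔮
      rw [map_zpow₀, hσc, hcφ 𝔮 h𝔮, hnφ 𝔮 h𝔮]
    rw [Finset.prod_congr rfl h3]
    refine Finset.prod_bij' (fun 𝔮 _ => φ 𝔮) (fun 𝔮 _ => s44ms_img (σR i).symm 𝔮)
      (fun 𝔮 h𝔮 => hφQ 𝔮 h𝔮) (fun 𝔮 h𝔮 => hφQ' 𝔮 h𝔮) ?_ ?_ ?_
    · intro 𝔮 _
      exact s44ms_img_symm_img (σR i) 𝔮
    · intro 𝔮 _
      exact s44ms_img_img_symm (σR i) 𝔮
    · intro 𝔮 _
      rfl

/-- **THE INVARIANT SLOPE FORMULA**: `M (ν z - m N) = W₁ z - W₂ z - m e k`. -/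
theorem s44ms_main {π : A0} (hπ : Irreducible π) {u v : R} {a : A0} (ha : a ≠ 0)
    (huv : u * v = algebraMap A0 R a)
    (hm : maximalIdeal R = Ideal.span {algebraMap A0 R π, u, v})
    {M : ℕ} {P₁ P₂ : Ideal R} (hN : s44n_Node (algebraMap A0 R π) u v M P₁ P₂)
    (m : ℕ) (hm0 : m ≠ 0) {z : F} (hz : z ≠ 0)
    (hdiv : ∀ 𝔮 : Ideal R, ssl_Horiz (algebraMap A0 R π) 𝔮 →
      ∃ G : F, G ≠ 0 ∧ ssl_UnitAt F 𝔮 (z / G ^ m))
    (hrat : ∀ 𝔮 : Ideal R, ssl_Horiz (algebraMap A0 R π) 𝔮 → ¬ ssl_UnitAt F 𝔮 z →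
      ∀ y : F, ssl_MemAt F 𝔮 y → ∃ (c : K) (b s : R), b ∈ 𝔮 ∧ s ∉ 𝔮 ∧
        (y - algebraMap K F c) * algebraMap R F s = algebraMap R F b)
    {ι : Type*} (σ : ι → F ≃+* F) (σR : ι → R ≃+* R) (σ0 : ι → A0 ≃+* A0)
    (hAut : ∀ i, s44ms_Aut u z (σ i) (σR i) (σ0 i))
    (W₁ W₂ ν : F → ℤ) (hW₁mul : s44ms_Add W₁) (hW₂mul : s44ms_Add W₂) (hνmul : s44ms_Add ν)
    (hW₁unit : ∀ x : F, ssl_UnitAt F P₁ x → W₁ x = 0)
    (hW₂unit : ∀ x : F, ssl_UnitAt F P₂ x → W₂ x = 0)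
    (hW₁lam : W₁ (algebraMap R F (algebraMap A0 R π)) = 1)
    (hW₂lam : W₂ (algebraMap R F (algebraMap A0 R π)) = 1)
    (hνunit : ∀ ω : Rˣ, ν (algebraMap R F (ω : R)) = 0)
    (hνlam : ν (algebraMap R F (algebraMap A0 R π)) = 0) (hνu : ν (algebraMap R F u) = 1)
    (hνred : ∀ x : F, (∃ b s : R, b ∈ P₂ ∧ s ∉ P₂ ∧
      (x - 1) * algebraMap R F s = algebraMap R F b) → ν x = 0)
    (e : ℤ) (hbase : ∀ c : K, c ≠ 0 → (∀ i, σ i (algebraMap K F c) = algebraMap K F c) →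
      e ∣ W₁ (algebraMap K F c)) :
    ∃ k N : ℤ, (M : ℤ) * (ν z - m * N) = W₁ z - W₂ z - m * (e * k) := by
  classical
  haveI := hN.prime₁
  haveI := hN.prime₂
  set lam : R := algebraMap A0 R π with hlam
  obtain ⟨Q, c, n, hcs, hhor, hinv⟩ :=
    s44ms_factor (K := K) hπ ha huv hm m hm0 hz hdiv hrat σ σR σ0 hAut
  set T : Ideal R → R := fun 𝔮 => u - algebraMap A0 R (c 𝔮) with hT
  set e₀ : F := ∏ 𝔮 ∈ Q, algebraMap R F (T 𝔮) ^ n 𝔮 with he₀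
  set C : F := ∏ 𝔮 ∈ Q, algebraMap A0 F (c 𝔮) ^ n 𝔮 with hC
  set N : ℤ := ∑ 𝔮 ∈ Q, n 𝔮 with hNdef
  have hl0 : algebraMap R F lam ≠ 0 := ssl_algebraMap_ne_zero (s44n_lam_ne_zero hN)
  have hu0 : algebraMap R F u ≠ 0 := ssl_algebraMap_ne_zero (s44n_u_ne_zero hN)
  have hv0 : algebraMap R F v ≠ 0 := ssl_algebraMap_ne_zero (s44n_v_ne_zero hN)
  -- `π ∣ x` ⟹ `x ∈ P_i`
  have hmemP : ∀ (P : Ideal R), lam ∈ P → ∀ x : A0, π ∣ x → algebraMap A0 R x ∈ P := by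
    intro P hP x hx
    obtain ⟨y, rfl⟩ := hx
    rw [map_mul]
    exact P.mul_mem_right _ hP
  -- the factors
  have hT2 : ∀ 𝔮 ∈ Q, T 𝔮 ∉ P₂ := by
    intro 𝔮 h𝔮 hmem
    apply hN.u_not_mem₂
    have h1 := hmemP P₂ hN.lam_mem₂ (c 𝔮) (hcs 𝔮 h𝔮).2.1
    have : u = T 𝔮 + algebraMap A0 R (c 𝔮) := by rw [hT]; ring
    rw [this]
    exact P₂.add_mem hmem h1
  have hT0 : ∀ 𝔮 ∈ Q, algebraMap R F (T 𝔮) ≠ 0 := fun 𝔮 h𝔮 =>
    ssl_algebraMap_ne_zero fun h0 => hT2 𝔮 h𝔮 (h0 ▸ P₂.zero_mem)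
  have hc0 : ∀ 𝔮 ∈ Q, algebraMap A0 F (c 𝔮) ≠ 0 := by
    intro 𝔮 h𝔮
    rw [IsScalarTower.algebraMap_apply A0 R F]
    refine ssl_algebraMap_ne_zero fun h0 => ?_
    -- `algebraMap A0 R` is injective on nonzero constants, as they avoid the horizontal primes;
    -- use instead `c c' = a`, `u v = a ≠ 0`
    obtain ⟨c', -, hcc'⟩ := (hcs 𝔮 h𝔮).2.2
    have h1 : algebraMap A0 R (c 𝔮) * algebraMap A0 R c' = u * v := by
      rw [← map_mul, hcc', huv]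
    rw [h0, zero_mul] at h1
    exact mul_ne_zero (s44n_u_ne_zero hN) (s44n_v_ne_zero hN) h1.symm
  -- (i) `e₀` is a unit at `P₂`
  have he₀2 : ssl_UnitAt F P₂ e₀ :=
    ssl_unitAt_prod P₂ _ _ fun 𝔮 h𝔮 =>
      ssl_unitAt_zpow P₂ (ssl_unitAt_algebraMap P₂ (hT2 𝔮 h𝔮)) _
  have he₀0 : e₀ ≠ 0 := ssl_unitAt_ne_zero P₂ he₀2
  have hC0 : C ≠ 0 := Finset.prod_ne_zero_iff.2 fun 𝔮 h𝔮 => zpow_ne_zero _ (hc0 𝔮 h𝔮)
  -- (ii) `e₀ / C` is a unit at `P₁`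
  have hfac1 : ∀ 𝔮 ∈ Q, ssl_UnitAt F P₁ (algebraMap R F (T 𝔮) / algebraMap A0 F (c 𝔮)) := by
    intro 𝔮 h𝔮
    obtain ⟨c', hc'π, hcc'⟩ := (hcs 𝔮 h𝔮).2.2
    have hc'1 : algebraMap A0 R c' ∈ P₁ := hmemP P₁ hN.lam_mem₁ c' hc'π
    have hnum : algebraMap A0 R c' - v ∉ P₁ := by
      intro hmem
      apply hN.v_not_mem₁
      have : v = algebraMap A0 R c' - (algebraMap A0 R c' - v) := by ring
      rw [this]
      exact P₁.sub_mem hc'1 hmem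
    have heq : algebraMap R F (T 𝔮) / algebraMap A0 F (c 𝔮) =
        algebraMap R F (algebraMap A0 R c' - v) / algebraMap R F v := by
      rw [div_eq_div_iff (hc0 𝔮 h𝔮) hv0, IsScalarTower.algebraMap_apply A0 R F, ← map_mul,
        ← map_mul]
      congr 1
      have h1 : algebraMap A0 R (c 𝔮) * algebraMap A0 R c' = u * v := by
        rw [← map_mul, hcc', huv]
      rw [hT]
      linear_combination (-1 : R) * h1
    rw [heq]
    exact ssl_unitAt_div P₁ (ssl_unitAt_algebraMap P₁ hnum)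
      (ssl_unitAt_algebraMap P₁ hN.v_not_mem₁)
  have he₀C : ssl_UnitAt F P₁ (e₀ / C) := by
    have : e₀ / C = ∏ 𝔮 ∈ Q, (algebraMap R F (T 𝔮) / algebraMap A0 F (c 𝔮)) ^ n 𝔮 := by
      rw [he₀, hC, ← Finset.prod_div_distrib]
      exact Finset.prod_congr rfl fun 𝔮 _ => (div_zpow _ _ _).symm
    rw [this]
    exact ssl_unitAt_prod P₁ _ _ fun 𝔮 h𝔮 => ssl_unitAt_zpow P₁ (hfac1 𝔮 h𝔮) _
  -- (iii) `ν (T 𝔮) = 1`
  have hνT : ∀ 𝔮 ∈ Q, ν (algebraMap R F (T 𝔮)) = 1 := by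
    intro 𝔮 h𝔮
    have hx : ν (algebraMap R F (T 𝔮) / algebraMap R F u) = 0 := by
      refine hνred _ ⟨-algebraMap A0 R (c 𝔮), u, ?_, hN.u_not_mem₂, ?_⟩
      · exact P₂.neg_mem (hmemP P₂ hN.lam_mem₂ (c 𝔮) (hcs 𝔮 h𝔮).2.1)
      · rw [sub_mul, div_mul_cancel₀ _ hu0, one_mul, ← map_sub]
        congr 1
        rw [hT]
        ring
    rw [hνmul.map_div _ _ (hT0 𝔮 h𝔮) hu0, hνu] at hx
    linarith
  have hνe₀ : ν e₀ = N := by
    rw [he₀, hνmul.map_prod Q _ fun 𝔮 h𝔮 => zpow_ne_zero _ (hT0 𝔮 h𝔮), hNdef]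
    refine Finset.sum_congr rfl fun 𝔮 h𝔮 => ?_
    rw [hνmul.map_zpow _ _ (hT0 𝔮 h𝔮), hνT 𝔮 h𝔮, mul_one]
  have hW₂e₀ : W₂ e₀ = 0 := hW₂unit _ he₀2
  have hW₁e₀ : W₁ e₀ = W₁ C := by
    have h := hW₁unit _ he₀C
    rw [hW₁mul.map_div _ _ he₀0 hC0] at h
    linarith
  -- the invariant constant
  obtain ⟨k, hk⟩ : e ∣ W₁ C := by
    set CK : K := ∏ 𝔮 ∈ Q, algebraMap A0 K (c 𝔮) ^ n 𝔮 with hCK
    have hCKC : algebraMap K F CK = C := by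
      rw [hCK, hC, map_prod]
      refine Finset.prod_congr rfl fun 𝔮 _ => ?_
      rw [map_zpow₀, ← IsScalarTower.algebraMap_apply A0 K F]
    have hCK0 : CK ≠ 0 := by
      intro h0
      apply hC0
      rw [← hCKC, h0, map_zero]
    have := hbase CK hCK0 fun i => by rw [hCKC]; exact hinv i
    rwa [hCKC] at this
  -- the monomial identity for `G = z / e₀ ^ m`
  have hep : e₀ ^ m ≠ 0 := pow_ne_zero m he₀0
  have hG : z / e₀ ^ m ≠ 0 := div_ne_zero hz hep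
  obtain ⟨b₁, h₁⟩ := ssl_exists_zpow (F := F) P₁ hN.height₁ hN.lam_mem₁ hN.gen₁ hG
  obtain ⟨b₂, h₂⟩ := ssl_exists_zpow (F := F) P₂ hN.height₂ hN.lam_mem₂ hN.gen₂ hG
  obtain ⟨ω, hω⟩ := s44n_monomial hN hG hhor h₁ h₂
  have hω0 : algebraMap R F (ω : R) ≠ 0 := ssl_algebraMap_ne_zero ω.ne_zero
  have hW₁G : W₁ (z / e₀ ^ m) = b₁ := by
    have h := hW₁unit _ h₁
    rw [hW₁mul.map_div _ _ hG (zpow_ne_zero _ hl0), hW₁mul.map_zpow _ _ hl0, hW₁lam] at h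
    linarith
  have hW₂G : W₂ (z / e₀ ^ m) = b₂ := by
    have h := hW₂unit _ h₂
    rw [hW₂mul.map_div _ _ hG (zpow_ne_zero _ hl0), hW₂mul.map_zpow _ _ hl0, hW₂lam] at h
    linarith
  have hW₁z : W₁ z = b₁ + m * W₁ C := by
    have h := hW₁mul.map_div z (e₀ ^ m) hz hep
    rw [hW₁G, hW₁mul.map_pow e₀ m he₀0, hW₁e₀] at h
    linarith
  have hW₂z : W₂ z = b₂ := by
    have h := hW₂mul.map_div z (e₀ ^ m) hz hep
    rw [hW₂G, hW₂mul.map_pow e₀ m he₀0, hW₂e₀] at h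
    linarith
  have hνG : (M : ℤ) * ν (z / e₀ ^ m) = b₁ - b₂ := by
    have h := congrArg ν hω
    rw [hνmul.map_pow _ M hG,
      hνmul _ _ (mul_ne_zero (zpow_ne_zero _ hl0) (zpow_ne_zero _ hu0)) hω0,
      hνmul _ _ (zpow_ne_zero _ hl0) (zpow_ne_zero _ hu0),
      hνmul.map_zpow _ _ hl0, hνmul.map_zpow _ _ hu0, hνlam, hνu, hνunit] at h
    linarith
  have hνz : ν z = ν (z / e₀ ^ m) + m * N := by
    have h := hνmul.map_div z (e₀ ^ m) hz hep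
    rw [hνmul.map_pow e₀ m he₀0, hνe₀] at h
    linarith
  refine ⟨k, N, ?_⟩
  rw [hνz, hW₁z, hW₂z, hk]
  have : (M : ℤ) * (ν (z / e₀ ^ m) + m * N - m * N) = (M : ℤ) * ν (z / e₀ ^ m) := by ring
  rw [this, hνG]
  ring

/-- **the invariant slope congruence**: thickness `M = e m₀`, `e ∣ W₂ z` ⟹ `e ∣ W₁ z` and
`m₀ ν z ≡ (W₁ z - W₂ z) / e (mod m)`. -/
theorem s44ms_congr {π : A0} (hπ : Irreducible π) {u v : R} {a : A0} (ha : a ≠ 0)
    (huv : u * v = algebraMap A0 R a)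
    (hm : maximalIdeal R = Ideal.span {algebraMap A0 R π, u, v})
    {M : ℕ} {P₁ P₂ : Ideal R} (hN : s44n_Node (algebraMap A0 R π) u v M P₁ P₂)
    (m : ℕ) (hm0 : m ≠ 0) {z : F} (hz : z ≠ 0)
    (hdiv : ∀ 𝔮 : Ideal R, ssl_Horiz (algebraMap A0 R π) 𝔮 →
      ∃ G : F, G ≠ 0 ∧ ssl_UnitAt F 𝔮 (z / G ^ m))
    (hrat : ∀ 𝔮 : Ideal R, ssl_Horiz (algebraMap A0 R π) 𝔮 → ¬ ssl_UnitAt F 𝔮 z →
      ∀ y : F, ssl_MemAt F 𝔮 y → ∃ (c : K) (b s : R), b ∈ 𝔮 ∧ s ∉ 𝔮 ∧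
        (y - algebraMap K F c) * algebraMap R F s = algebraMap R F b)
    {ι : Type*} (σ : ι → F ≃+* F) (σR : ι → R ≃+* R) (σ0 : ι → A0 ≃+* A0)
    (hAut : ∀ i, s44ms_Aut u z (σ i) (σR i) (σ0 i))
    (W₁ W₂ ν : F → ℤ) (hW₁mul : s44ms_Add W₁) (hW₂mul : s44ms_Add W₂) (hνmul : s44ms_Add ν)
    (hW₁unit : ∀ x : F, ssl_UnitAt F P₁ x → W₁ x = 0)
    (hW₂unit : ∀ x : F, ssl_UnitAt F P₂ x → W₂ x = 0)
    (hW₁lam : W₁ (algebraMap R F (algebraMap A0 R π)) = 1)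
    (hW₂lam : W₂ (algebraMap R F (algebraMap A0 R π)) = 1)
    (hνunit : ∀ ω : Rˣ, ν (algebraMap R F (ω : R)) = 0)
    (hνlam : ν (algebraMap R F (algebraMap A0 R π)) = 0) (hνu : ν (algebraMap R F u) = 1)
    (hνred : ∀ x : F, (∃ b s : R, b ∈ P₂ ∧ s ∉ P₂ ∧
      (x - 1) * algebraMap R F s = algebraMap R F b) → ν x = 0)
    (e m₀ : ℕ) (he : e ≠ 0) (hM : M = e * m₀)
    (hbase : ∀ c : K, c ≠ 0 → (∀ i, σ i (algebraMap K F c) = algebraMap K F c) →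
      (e : ℤ) ∣ W₁ (algebraMap K F c))
    (hW₂z : (e : ℤ) ∣ W₂ z) :
    ∃ A B : ℤ, W₁ z = e * A ∧ W₂ z = e * B ∧ (m₀ : ℤ) * ν z ≡ A - B [ZMOD (m : ℤ)] := by
  obtain ⟨k, N, h⟩ := s44ms_main (K := K) hπ ha huv hm hN m hm0 hz hdiv hrat σ σR σ0 hAut
    W₁ W₂ ν hW₁mul hW₂mul hνmul hW₁unit hW₂unit hW₁lam hW₂lam hνunit hνlam hνu hνred (e : ℤ) hbase
  obtain ⟨B, hB⟩ := hW₂z
  have he' : (e : ℤ) ≠ 0 := by exact_mod_cast he
  -- `W₁ z = e (m₀ (ν z - m N) + B + m k)`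
  have hW₁ : W₁ z = e * ((m₀ : ℤ) * (ν z - m * N) + B + m * k) := by
    rw [hM] at h
    push_cast at h
    rw [hB] at h
    linear_combination (-1 : ℤ) * h
  refine ⟨(m₀ : ℤ) * (ν z - m * N) + B + m * k, B, hW₁, hB, ?_⟩
  rw [Int.modEq_iff_dvd]
  refine ⟨-(m₀ : ℤ) * N + k, ?_⟩
  ring

end Main

end Fermat.Agent.S44
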