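/-
Project S44 (Mazur–Ribet at `p`), cell [H2-S] of [H2] MONO-MAIN (helper4): THE NORMALISED ORDER
AT A NODE ALONG A BRANCH — axiomatic characterisation + uniqueness.  Prefix `s44nu_`.

`R` a noetherian local domain with fraction field `F`, `𝔪_R = (λ, u, v)`, `P₂ ∋ λ, v` a prime of
height one which is locally generated by `λ` (the branch `v = 0` of a node `u v = λ^M·unit`, or
the unique vertical component through a smooth point with `v = 0`…).  The function

  `ν(x) := ord_ū ( x / λ^{ord_{P₂} x}  mod P₂ )`        (order at the closed point of the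
                                                         `λ`-normalised reduction to `P₂`)

is characterised by the five properties `s44nu_IsNu` (exactly the hypotheses `hνmul, hνunit,
hνlam, hνu, hνred` of `s44ms_main`).  `s44nu_unique` : two functions with these properties agree
on `Fˣ`.  `s44nu_comap` : the properties pull back along a local injection `S → R` with
`P₂ ∩ S = 𝔭₂` (same `λ`, `u`) — hence `ν_R` restricted to `Frac S` IS `ν_S` (étale sheets of a
node: `Mono/EtSheet`), and any function of the shape `ord_Q ∘ red ∘ normalise` with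
`ord_Q (red u) = 1`, `ord_Q (red ω) = 0` for `ω ∈ Rˣ` IS `ν` (dictionary [H2-N]).
-/
import Mathlib
import Fermat.Agent.S44.Mono.SlopeInv

set_option autoImplicit false
set_option linter.unusedSectionVars false
set_option linter.unusedVariables false
set_option linter.style.haveILetI false

namespace Fermat.Agent.S44

open Fermat.Agent.SS IsLocalRing

section Nu

variable {R : Type*} [CommRing R] [IsDomain R] [IsLocalRing R] [IsNoetherianRing R]
  {F : Type*} [Field F] [Algebra R F] [IsFractionRing R F]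

/-- the five characteristic properties of the normalised order at the closed point along the
branch `P₂` (uniformiser `λ` of `R_{P₂}`, uniformiser `ū` of `R/P₂`). -/
structure s44nu_IsNu (lam u : R) (P₂ : Ideal R) (ν : F → ℤ) : Prop where
  add : s44ms_Add ν
  unit : ∀ ω : Rˣ, ν (algebraMap R F (ω : R)) = 0
  lam : ν (algebraMap R F lam) = 0
  u : ν (algebraMap R F u) = 1
  red : ∀ x : F, (∃ b s : R, b ∈ P₂ ∧ s ∉ P₂ ∧
    (x - 1) * algebraMap R F s = algebraMap R F b) → ν x = 0

omit [IsDomain R] in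
/-- every element outside `P₂` is `u ^ j · unit` modulo `P₂`. -/
theorem s44nu_decomp {lam u v : R} (hm : maximalIdeal R = Ideal.span {lam, u, v})
    (P₂ : Ideal R) [hP : P₂.IsPrime] (hlam : lam ∈ P₂) (hv : v ∈ P₂) {a : R} (ha : a ∉ P₂) :
    ∃ (j : ℕ) (ω : Rˣ) (t : R), t ∈ P₂ ∧ a = u ^ j * (ω : R) + t := by
  classical
  set Q := R ⧸ P₂ with hQ
  set q : R →+* Q := Ideal.Quotient.mk P₂ with hq
  have hqs : Function.Surjective q := Ideal.Quotient.mk_surjective
  haveI : Nontrivial Q := Ideal.Quotient.nontrivial_iff.2 hP.ne_top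
  haveI : IsLocalRing Q := IsLocalRing.of_surjective' q hqs
  -- the maximal ideal of `Q` is generated by `q u`
  have hmQ : maximalIdeal Q = Ideal.span {q u} := by
    apply le_antisymm
    · intro x hx
      obtain ⟨y, rfl⟩ := hqs x
      have hy : y ∈ maximalIdeal R := by
        by_contra hy
        have : IsUnit y := IsLocalRing.notMem_maximalIdeal.1 hy
        exact (IsLocalRing.mem_maximalIdeal _).1 hx (this.map q)
      rw [hm] at hy
      obtain ⟨c1, z, hz, rfl⟩ := Ideal.mem_span_insert.1 hy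
      obtain ⟨c2, z', hz', rfl⟩ := Ideal.mem_span_insert.1 hz
      obtain ⟨c3, rfl⟩ := Ideal.mem_span_singleton'.1 hz'
      have h1 : q lam = 0 := Ideal.Quotient.eq_zero_iff_mem.2 hlam
      have h2 : q v = 0 := Ideal.Quotient.eq_zero_iff_mem.2 hv
      rw [map_add, map_add, map_mul, map_mul, map_mul, h1, h2, mul_zero, mul_zero, zero_add,
        add_zero]
      exact Ideal.mul_mem_left _ _ (Ideal.mem_span_singleton_self _)
    · rw [Ideal.span_le, Set.singleton_subset_iff]
      refine (IsLocalRing.mem_maximalIdeal _).2 fun hu => ?_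
      have hu' : u ∈ maximalIdeal R := by
        rw [hm]; exact Ideal.subset_span (by simp)
      -- a unit of `Q` lifts to a unit of `R`
      obtain ⟨w, hw⟩ := hu.exists_right_inv
      obtain ⟨w', rfl⟩ := hqs w
      have h1 : u * w' - 1 ∈ P₂ := by
        rw [← Ideal.Quotient.eq_zero_iff_mem, map_sub, map_mul, map_one]
        exact sub_eq_zero.2 hw
      have h2 : u * w' ∈ maximalIdeal R := Ideal.mul_mem_right _ _ hu'
      have h3 : u * w' - 1 ∈ maximalIdeal R := IsLocalRing.le_maximalIdeal hP.ne_top h1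
      have : (1 : R) ∈ maximalIdeal R := by
        have := (maximalIdeal R).sub_mem h2 h3
        simp at this
      exact (IsLocalRing.mem_maximalIdeal _).1 this isUnit_one
  -- Krull intersection
  have hqa : q a ≠ 0 := fun h => ha (Ideal.Quotient.eq_zero_iff_mem.1 h)
  have hK : ⨅ i : ℕ, maximalIdeal Q ^ i = ⊥ :=
    Ideal.iInf_pow_eq_bot_of_isLocalRing _ (IsLocalRing.maximalIdeal.isMaximal Q).ne_top
  have hex : ∃ n : ℕ, q a ∉ maximalIdeal Q ^ n := by
    by_contra hcon
    push Not at hcon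
    have : q a ∈ ⨅ i : ℕ, maximalIdeal Q ^ i := by
      rw [Ideal.mem_iInf]; exact hcon
    rw [hK] at this
    exact hqa (by simpa using this)
  have hn := Nat.find_spec hex
  have hn0 : Nat.find hex ≠ 0 := by
    intro h0
    rw [h0, pow_zero] at hn
    exact hn (by simp)
  obtain ⟨j, hj⟩ := Nat.exists_eq_succ_of_ne_zero hn0
  have hmem : q a ∈ maximalIdeal Q ^ j := by
    by_contra hcon
    have := Nat.find_min' hex hcon
    omega
  rw [hmQ, Ideal.span_singleton_pow, Ideal.mem_span_singleton] at hmem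
  obtain ⟨c, hc⟩ := hmem
  obtain ⟨c', rfl⟩ := hqs c
  have hcu : IsUnit c' := by
    rw [← IsLocalRing.notMem_maximalIdeal]
    intro hc'
    apply hn
    rw [hj, pow_succ, hc]
    refine Ideal.mul_mem_mul ?_ ?_
    · rw [hmQ, Ideal.span_singleton_pow]; exact Ideal.mem_span_singleton_self _
    · by_contra hcon
      have : IsUnit (q c') := IsLocalRing.notMem_maximalIdeal.1 hcon
      obtain ⟨w, hw⟩ := this.exists_right_inv
      obtain ⟨w', rfl⟩ := hqs w
      have h1 : c' * w' - 1 ∈ P₂ := by
        rw [← Ideal.Quotient.eq_zero_iff_mem, map_sub, map_mul, map_one]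
        exact sub_eq_zero.2 hw
      have h2 : c' * w' ∈ maximalIdeal R := Ideal.mul_mem_right _ _ hc'
      have h3 : c' * w' - 1 ∈ maximalIdeal R := IsLocalRing.le_maximalIdeal hP.ne_top h1
      have : (1 : R) ∈ maximalIdeal R := by
        have := (maximalIdeal R).sub_mem h2 h3
        simp at this
      exact (IsLocalRing.mem_maximalIdeal _).1 this isUnit_one
  refine ⟨j, hcu.unit, a - u ^ j * c', ?_, by simp⟩
  rw [← Ideal.Quotient.eq_zero_iff_mem, map_sub, map_mul, map_pow, hc]
  exact sub_self _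

/-- the value of `ν` on an element `u ^ j · unit + (element of P₂)` is `j`. -/
theorem s44nu_IsNu.eq_of_decomp {lam u : R} {P₂ : Ideal R} [hP : P₂.IsPrime] {ν : F → ℤ}
    (h : s44nu_IsNu lam u P₂ ν) (hu : u ∉ P₂) {a : R} {j : ℕ} {ω : Rˣ} {t : R} (ht : t ∈ P₂)
    (ha : a = u ^ j * (ω : R) + t) : ν (algebraMap R F a) = j := by
  set s : R := u ^ j * (ω : R) with hs
  have hsP : s ∉ P₂ := by
    intro hmem
    rcases hP.mem_or_mem hmem with h1 | h1
    · exact hu (hP.mem_of_pow_mem j h1)
    · exact hP.ne_top (Ideal.eq_top_of_isUnit_mem _ h1 ω.isUnit)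
  have hs0 : algebraMap R F s ≠ 0 := ssl_algebraMap_ne_zero fun h0 => hsP (h0 ▸ P₂.zero_mem)
  have hu0 : algebraMap R F u ≠ 0 := ssl_algebraMap_ne_zero fun h0 => hu (h0 ▸ P₂.zero_mem)
  have ha0 : algebraMap R F a ≠ 0 := by
    refine ssl_algebraMap_ne_zero fun h0 => hsP ?_
    have : s = a - t := by rw [ha]; ring
    rw [this, h0, zero_sub]
    exact P₂.neg_mem ht
  set x : F := algebraMap R F a / algebraMap R F s with hx
  have hx0 : x ≠ 0 := div_ne_zero ha0 hs0
  have hνx : ν x = 0 := by
    refine h.red x ⟨t, s, ht, hsP, ?_⟩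
    rw [hx, sub_mul, div_mul_cancel₀ _ hs0, one_mul, ← map_sub, ha]
    congr 1
    ring
  have hνs : ν (algebraMap R F s) = j := by
    rw [hs, map_mul, map_pow, h.add _ _ (pow_ne_zero j hu0)
      (ssl_algebraMap_ne_zero ω.ne_zero), h.add.map_pow _ j hu0, h.u, h.unit]
    ring
  have : algebraMap R F a = x * algebraMap R F s := by rw [hx, div_mul_cancel₀ _ hs0]
  rw [this, h.add _ _ hx0 hs0, hνx, hνs, zero_add]

/-- **uniqueness of the normalised order at the closed point along the branch `P₂`.** -/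
theorem s44nu_unique [IsIntegrallyClosed R] {lam u v : R}
    (hm : maximalIdeal R = Ideal.span {lam, u, v})
    (P₂ : Ideal R) [hP : P₂.IsPrime] (h1 : P₂.height = 1) (hlam : lam ∈ P₂) (hv : v ∈ P₂)
    (hu : u ∉ P₂) (hgen : ∀ z ∈ P₂, ∃ s : R, s ∉ P₂ ∧ lam ∣ s * z)
    {ν ν' : F → ℤ} (h : s44nu_IsNu lam u P₂ ν) (h' : s44nu_IsNu lam u P₂ ν')
    {x : F} (hx : x ≠ 0) : ν x = ν' x := by
  obtain ⟨n, a, s, haP, hsP, hxs⟩ := ssl_exists_zpow (F := F) P₂ h1 hlam hgen hx
  have hl0 : algebraMap R F lam ≠ 0 := by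
    refine ssl_algebraMap_ne_zero fun h0 => ?_
    -- `λ = 0` would force `P₂ = ⊥`
    have hbot : P₂ = ⊥ := by
      rw [eq_bot_iff]
      intro z hz
      obtain ⟨s, hs, hd⟩ := hgen z hz
      rw [h0, zero_dvd_iff] at hd
      rcases mul_eq_zero.mp hd with h2 | h2
      · exact absurd (h2 ▸ P₂.zero_mem) hs
      · rw [h2]; exact Ideal.zero_mem _
    rw [hbot, Ideal.height_bot] at h1
    exact zero_ne_one h1
  have ha0 : algebraMap R F a ≠ 0 := ssl_algebraMap_ne_zero fun h0 => haP (h0 ▸ P₂.zero_mem)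
  have hs0 : algebraMap R F s ≠ 0 := ssl_algebraMap_ne_zero fun h0 => hsP (h0 ▸ P₂.zero_mem)
  have hxe : x = algebraMap R F lam ^ n * (algebraMap R F a / algebraMap R F s) := by
    rw [← hxs]
    field_simp
  obtain ⟨j, ω, t, ht, hat⟩ := s44nu_decomp hm P₂ hlam hv haP
  obtain ⟨j', ω', t', ht', hst⟩ := s44nu_decomp hm P₂ hlam hv hsP
  have key : ∀ μ : F → ℤ, s44nu_IsNu lam u P₂ μ → μ x = (j : ℤ) - j' := by
    intro μ hμ
    rw [hxe, hμ.add _ _ (zpow_ne_zero n hl0) (div_ne_zero ha0 hs0), hμ.add.map_zpow _ n hl0,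
      hμ.lam, hμ.add.map_div _ _ ha0 hs0, hμ.eq_of_decomp hu ht hat, hμ.eq_of_decomp hu ht' hst]
    ring
  rw [key ν h, key ν' h']

end Nu

/-! ### pull-back along an extension of local rings -/

section Comap

variable {S : Type*} [CommRing S] [IsDomain S] [IsLocalRing S] [IsNoetherianRing S]
  {FS : Type*} [Field FS] [Algebra S FS] [IsFractionRing S FS]
  {R : Type*} [CommRing R] [IsDomain R] [IsLocalRing R] [IsNoetherianRing R]
  {FR : Type*} [Field FR] [Algebra R FR] [IsFractionRing R FR]
  [Algebra S R] [Algebra FS FR] [Algebra S FR] [IsScalarTower S FS FR] [IsScalarTower S R FR]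

/-- the characteristic properties pull back along `S → R` when `P₂ ∩ S = 𝔭₂`. -/
theorem s44nu_IsNu.comap {lam u : S} {𝔭₂ : Ideal S} {P₂ : Ideal R}
    (hP : P₂.comap (algebraMap S R) = 𝔭₂) {ν : FR → ℤ}
    (h : s44nu_IsNu (algebraMap S R lam) (algebraMap S R u) P₂ ν) :
    s44nu_IsNu lam u 𝔭₂ (fun x : FS => ν (algebraMap FS FR x)) := by
  have hcomm : ∀ r : S, algebraMap FS FR (algebraMap S FS r) = algebraMap R FR (algebraMap S R r) := by
    intro r
    rw [← IsScalarTower.algebraMap_apply S FS FR, IsScalarTower.algebraMap_apply S R FR]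
  refine ⟨?_, ?_, ?_, ?_, ?_⟩
  · intro a b ha hb
    show ν (algebraMap FS FR (a * b)) = _
    rw [map_mul]
    exact h.add _ _ ((map_ne_zero _).2 ha) ((map_ne_zero _).2 hb)
  · intro ω
    show ν (algebraMap FS FR (algebraMap S FS (ω : S))) = 0
    rw [hcomm]
    exact h.unit (Units.map (algebraMap S R : S →* R) ω)
  · show ν (algebraMap FS FR (algebraMap S FS lam)) = 0
    rw [hcomm]; exact h.lam
  · show ν (algebraMap FS FR (algebraMap S FS u)) = 1
    rw [hcomm]; exact h.u
  · rintro x ⟨b, s, hb, hs, hxs⟩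
    show ν (algebraMap FS FR x) = 0
    refine h.red _ ⟨algebraMap S R b, algebraMap S R s, ?_, ?_, ?_⟩
    · rw [← hP] at hb; exact hb
    · rw [← hP] at hs; exact hs
    · rw [← hcomm, ← hcomm, ← hxs, map_mul, map_sub, map_one]

end Comap

end Fermat.Agent.S44
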