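/-
S44 project, cell [H2] MONO-MAIN, abstract part of [H2-S] (helper13; architect ruling R4.5).
Prefix `s44mh_`.  Namespace `Fermat.Agent.S44`.  Mathlib only.

THE SHEET COUNT.  `Lb` a field, `τ` a ring automorphism of `Lb` (the deck transformation of the
Kummer cover), `Φ, β, h ∈ Lb` with `τ Φ = (β ^ p)⁻¹ h ^ p Φ`, `τ β = β` (`s44k_split`).

* `s44mh_iter`      : `τ^j Φ = (β ^ p)⁻¹ ^ j · (∏_{i<j} τ^i h) ^ p · Φ`;
* `s44mh_sheet_eq`  : for an additive `W : Lb → ℤ`:
                      `W (τ^j Φ) = W Φ - j · W (β ^ p) + p · ∑_{i<j} W (τ^i h)`;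
* `s44mh_sheet_dvd` : if `W (β ^ p) = 0` and `e ∣ W (τ^i h)` for all `i` then
                      `p · e ∣ W (τ^j Φ) - W Φ`  (`W ∘ τ^j` = the other sheets over the same base
                      valuation);
* `s44mh_conj`      : TRANSITIVITY OF `⟨τ⟩` ON THE PRIMES OVER A PRIME OF THE BASE: `BY ⊆ Lb` a
                      `τ`-stable subring, integral over a subring `A ⊆ BY` which contains the
                      `τ`-fixed elements of `BY`, `τ ^ n = id` on `BY`; two primes `P, Q` of `BY`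
                      with `P ∩ A = Q ∩ A` are conjugate: `z ∈ Q ↔ τ^j z ∈ P` for some `j < n`.
-/
import Mathlib

set_option autoImplicit false
set_option linter.unusedSectionVars false

namespace Fermat.Agent.S44

section Sheet

variable {Lb : Type*} [Field Lb]

/-- **iteration** of `τ Φ = (β ^ p)⁻¹ h ^ p Φ`. -/
theorem s44mh_iter {p : ℕ} (τ : Lb ≃+* Lb) {Φ β h : Lb} (hτβ : τ β = β)
    (hτΦ : τ Φ = (β ^ p)⁻¹ * h ^ p * Φ) (j : ℕ) :
    (⇑τ)^[j] Φ = ((β ^ p)⁻¹) ^ j * (∏ i ∈ Finset.range j, (⇑τ)^[i] h) ^ p * Φ := by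
  induction j with
  | zero => simp
  | succ j ih =>
    rw [Function.iterate_succ_apply', ih, map_mul, map_mul, map_pow, map_pow, map_inv₀, map_pow,
      hτβ, hτΦ, map_prod, Finset.prod_range_succ' (fun i => (⇑τ)^[i] h)]
    have h1 : ∀ i ∈ Finset.range j, τ ((⇑τ)^[i] h) = (⇑τ)^[i + 1] h := by
      intro i _
      rw [Function.iterate_succ_apply']
    rw [Finset.prod_congr rfl h1, Function.iterate_zero, id_eq]
    ring

variable (W : Lb → ℤ) (hWmul : ∀ z w : Lb, z ≠ 0 → w ≠ 0 → W (z * w) = W z + W w)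

include hWmul in
theorem s44mh_W_one : W 1 = 0 := by
  have := hWmul 1 1 one_ne_zero one_ne_zero
  rw [mul_one] at this
  linarith

include hWmul in
theorem s44mh_W_inv {z : Lb} (hz : z ≠ 0) : W z⁻¹ = - W z := by
  have := hWmul z z⁻¹ hz (inv_ne_zero hz)
  rw [mul_inv_cancel₀ hz, s44mh_W_one W hWmul] at this
  linarith

include hWmul in
theorem s44mh_W_pow {z : Lb} (hz : z ≠ 0) (n : ℕ) : W (z ^ n) = (n : ℤ) * W z := by
  induction n with
  | zero => simp [s44mh_W_one W hWmul]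
  | succ n ih =>
    rw [pow_succ, hWmul _ _ (pow_ne_zero _ hz) hz, ih]
    push_cast
    ring

include hWmul in
theorem s44mh_W_prod {ι : Type*} (s : Finset ι) (f : ι → Lb) (hf : ∀ i ∈ s, f i ≠ 0) :
    W (∏ i ∈ s, f i) = ∑ i ∈ s, W (f i) := by
  classical
  induction s using Finset.induction_on with
  | empty => simp [s44mh_W_one W hWmul]
  | insert a s ha ih =>
    rw [Finset.prod_insert ha, Finset.sum_insert ha,
      hWmul _ _ (hf a (Finset.mem_insert_self a s))
        (Finset.prod_ne_zero_iff.2 fun i hi => hf i (Finset.mem_insert_of_mem hi)),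
      ih fun i hi => hf i (Finset.mem_insert_of_mem hi)]

include hWmul in
/-- **the sheet count, iterated.** -/
theorem s44mh_sheet_eq {p : ℕ} (τ : Lb ≃+* Lb) {Φ β h : Lb} (hΦ0 : Φ ≠ 0) (hβ0 : β ≠ 0)
    (hh0 : h ≠ 0) (hτβ : τ β = β) (hτΦ : τ Φ = (β ^ p)⁻¹ * h ^ p * Φ) (j : ℕ) :
    W ((⇑τ)^[j] Φ) = W Φ - (j : ℤ) * W (β ^ p) +
      (p : ℤ) * ∑ i ∈ Finset.range j, W ((⇑τ)^[i] h) := by
  have hβp0 : β ^ p ≠ 0 := pow_ne_zero _ hβ0
  have hiter : ∀ i : ℕ, (⇑τ)^[i] h ≠ 0 := by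
    intro i
    induction i with
    | zero => simpa using hh0
    | succ i ih => rw [Function.iterate_succ_apply']; exact (map_ne_zero τ).2 ih
  have hprod0 : ∏ i ∈ Finset.range j, (⇑τ)^[i] h ≠ 0 :=
    Finset.prod_ne_zero_iff.2 fun i _ => hiter i
  rw [s44mh_iter τ hτβ hτΦ j,
    hWmul _ _ (mul_ne_zero (pow_ne_zero _ (inv_ne_zero hβp0)) (pow_ne_zero _ hprod0)) hΦ0,
    hWmul _ _ (pow_ne_zero _ (inv_ne_zero hβp0)) (pow_ne_zero _ hprod0),
    s44mh_W_pow W hWmul (inv_ne_zero hβp0), s44mh_W_inv W hWmul hβp0,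
    s44mh_W_pow W hWmul hprod0, s44mh_W_prod W hWmul _ _ fun i _ => hiter i]
  ring

include hWmul in
/-- **the sheets over one base valuation agree modulo `p e`** on `Φ`, when `β ^ p` is a unit and
the values of the `τ^i h` are divisible by `e`. -/
theorem s44mh_sheet_dvd {p : ℕ} (τ : Lb ≃+* Lb) {Φ β h : Lb} (hΦ0 : Φ ≠ 0) (hβ0 : β ≠ 0)
    (hh0 : h ≠ 0) (hτβ : τ β = β) (hτΦ : τ Φ = (β ^ p)⁻¹ * h ^ p * Φ)
    (hWβ : W (β ^ p) = 0) (e : ℤ) (hWh : ∀ i : ℕ, e ∣ W ((⇑τ)^[i] h)) (j : ℕ) :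
    (p : ℤ) * e ∣ W ((⇑τ)^[j] Φ) - W Φ := by
  rw [s44mh_sheet_eq W hWmul τ hΦ0 hβ0 hh0 hτβ hτΦ j, hWβ, mul_zero, sub_zero, add_sub_cancel_left]
  exact mul_dvd_mul_left _ (Finset.dvd_sum fun i _ => hWh i)

end Sheet

section Conj

variable {A BY : Type*} [CommRing A] [CommRing BY] [IsDomain BY] [Algebra A BY]

/-- the iterates of a ring endomorphism as ring homomorphisms -/
def s44mh_pow (ρ : BY →+* BY) : ℕ → BY →+* BY
  | 0 => RingHom.id BY
  | j + 1 => ρ.comp (s44mh_pow ρ j)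

theorem s44mh_pow_apply (ρ : BY →+* BY) (j : ℕ) (z : BY) : s44mh_pow ρ j z = (⇑ρ)^[j] z := by
  induction j with
  | zero => rfl
  | succ j ih =>
    rw [Function.iterate_succ_apply', ← ih]
    rfl

/-- **transitivity of `⟨ρ⟩` on the primes over a prime of the base**: `BY` a domain, integral over
`A`; `ρ` a ring endomorphism of `BY` with `ρ ^ n = id`, trivial on `A`, whose fixed elements come
from `A`.  Two primes `P, Q` of `BY` with the same contraction to `A` are conjugate. -/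
theorem s44mh_conj [Algebra.IsIntegral A BY] (ρ : BY →+* BY) {n : ℕ} (hn : 0 < n)
    (hρn : ∀ z : BY, (⇑ρ)^[n] z = z)
    (hρA : ∀ a : A, ρ (algebraMap A BY a) = algebraMap A BY a)
    (hfix : ∀ z : BY, ρ z = z → z ∈ (algebraMap A BY).range)
    (P Q : Ideal BY) [hP : P.IsPrime] [hQ : Q.IsPrime]
    (hPQ : P.comap (algebraMap A BY) = Q.comap (algebraMap A BY)) :
    ∃ j < n, ∀ z : BY, z ∈ Q ↔ (⇑ρ)^[j] z ∈ P := by
  classical
  -- the conjugates of `P`
  set Pj : ℕ → Ideal BY := fun j => P.comap (s44mh_pow ρ j) with hPj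
  have hPjprime : ∀ j, (Pj j).IsPrime := fun j => Ideal.comap_isPrime _ _
  have hmemPj : ∀ j (z : BY), z ∈ Pj j ↔ (⇑ρ)^[j] z ∈ P := by
    intro j z
    rw [hPj, Ideal.mem_comap, s44mh_pow_apply]
  -- all conjugates have the contraction of `P`
  have hPjA : ∀ j, (Pj j).comap (algebraMap A BY) = P.comap (algebraMap A BY) := by
    intro j
    ext a
    rw [Ideal.mem_comap, hmemPj, Ideal.mem_comap]
    have : (⇑ρ)^[j] (algebraMap A BY a) = algebraMap A BY a := by
      induction j with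
      | zero => rfl
      | succ j ih => rw [Function.iterate_succ_apply', ih, hρA]
    rw [this]
  -- `Q ⊆ ⋃ P_j`
  have hsub : (Q : Set BY) ⊆ ⋃ j ∈ ((Finset.range n : Finset ℕ) : Set ℕ), Pj j := by
    intro b hb
    by_cases hb0 : b = 0
    · refine Set.mem_biUnion (Finset.mem_coe.2 (Finset.mem_range.2 hn)) ?_
      rw [hb0]
      exact (Pj 0).zero_mem
    -- the norm
    set N : BY := ∏ j ∈ Finset.range n, (⇑ρ)^[j] b with hN
    have hρN : ρ N = N := by
      rw [hN, map_prod]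
      have h1 : ∀ j ∈ Finset.range n, ρ ((⇑ρ)^[j] b) = (⇑ρ)^[j + 1] b := by
        intro j _
        rw [Function.iterate_succ_apply']
      rw [Finset.prod_congr rfl h1]
      have h2 := Finset.prod_range_succ (fun j => (⇑ρ)^[j] b) n
      have h3 := Finset.prod_range_succ' (fun j => (⇑ρ)^[j] b) n
      rw [h2, hρn b, Function.iterate_zero, id_eq] at h3
      exact (mul_right_cancel₀ hb0 h3).symm
    obtain ⟨a, ha⟩ := hfix N hρN
    have hNQ : N ∈ Q := by
      rw [hN, ← Finset.mul_prod_erase _ _ (Finset.mem_range.2 hn)]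
      exact Q.mul_mem_right _ (by simpa using hb)
    have haQ : a ∈ Q.comap (algebraMap A BY) := by
      rw [Ideal.mem_comap, ha]; exact hNQ
    rw [← hPQ, Ideal.mem_comap, ha, hN, Ideal.IsPrime.prod_mem_iff] at haQ
    obtain ⟨j, hj, hjP⟩ := haQ
    exact Set.mem_biUnion (Finset.mem_coe.2 hj) ((hmemPj j b).2 hjP)
  obtain ⟨j, hj, hQle⟩ := (Ideal.subset_union_prime 0 0 (fun i _ _ _ => hPjprime i)).1 hsub
  refine ⟨j, Finset.mem_range.1 hj, fun z => ?_⟩
  rw [← hmemPj]
  constructor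
  · exact fun hz => hQle hz
  · intro hz
    by_contra hzQ
    have hlt := Ideal.comap_lt_comap_of_integral_mem_sdiff (R := A) hQle
      (⟨hz, hzQ⟩ : z ∈ ((Pj j : Ideal BY) : Set BY) \ (Q : Set BY)) (Algebra.IsIntegral.isIntegral z)
    rw [hPjA j, hPQ] at hlt
    exact lt_irrefl _ hlt

end Conj

section Closure

variable {A E Lb : Type*} [CommRing A] [Field E] [Field Lb] [Algebra A E] [Algebra E Lb]
  [Algebra A Lb] [IsScalarTower A E Lb]

/-- the restriction of `τ ∈ Aut(Lb / E)` to the integral closure of `A` in `Lb`. -/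
noncomputable def s44mh_rho (τ : Lb ≃ₐ[E] Lb) : integralClosure A Lb →+* integralClosure A Lb :=
  ((τ.restrictScalars A).mapIntegralClosure : integralClosure A Lb →ₐ[A] integralClosure A Lb)

theorem s44mh_rho_coe (τ : Lb ≃ₐ[E] Lb) (z : integralClosure A Lb) :
    ((s44mh_rho (A := A) τ z : integralClosure A Lb) : Lb) = τ (z : Lb) := rfl

theorem s44mh_rho_iter_coe (τ : Lb ≃ₐ[E] Lb) (j : ℕ) (z : integralClosure A Lb) :
    (((⇑(s44mh_rho (A := A) τ))^[j] z : integralClosure A Lb) : Lb) = (⇑τ)^[j] (z : Lb) := by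
  induction j with
  | zero => rfl
  | succ j ih => rw [Function.iterate_succ_apply', Function.iterate_succ_apply', s44mh_rho_coe, ih]

/-- **transitivity of `⟨τ⟩` on the primes of the integral closure `B_Y` of `A` in `Lb`** over a
prime of `A`: `A` integrally closed in `E`, `E` the fixed field of `τ`, `τ ^ n = id`. -/
theorem s44mh_conj_closure (hic : ∀ z : E, IsIntegral A z → z ∈ (algebraMap A E).range)
    (τ : Lb ≃ₐ[E] Lb) {n : ℕ} (hn : 0 < n) (hτn : ∀ z : Lb, (⇑τ)^[n] z = z)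
    (hfix : ∀ z : Lb, τ z = z → z ∈ (algebraMap E Lb).range)
    (P Q : Ideal (integralClosure A Lb)) [hP : P.IsPrime] [hQ : Q.IsPrime]
    (hPQ : P.comap (algebraMap A (integralClosure A Lb)) =
      Q.comap (algebraMap A (integralClosure A Lb))) :
    ∃ j < n, ∀ z : integralClosure A Lb, z ∈ Q ↔ (⇑(s44mh_rho (A := A) τ))^[j] z ∈ P := by
  refine s44mh_conj (s44mh_rho (A := A) τ) hn ?_ ?_ ?_ P Q hPQ
  · intro z
    apply Subtype.ext
    rw [s44mh_rho_iter_coe, hτn]
  · intro a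
    apply Subtype.ext
    rw [s44mh_rho_coe]
    show τ (algebraMap A Lb a) = algebraMap A Lb a
    rw [IsScalarTower.algebraMap_apply A E Lb, τ.commutes]
  · intro z hz
    have hz' : τ (z : Lb) = (z : Lb) := by
      rw [← s44mh_rho_coe (A := A), hz]
    obtain ⟨c, hc⟩ := hfix _ hz'
    have hcint : IsIntegral A c := by
      have h1 : IsIntegral A (algebraMap E Lb c) := by rw [hc]; exact z.2
      exact (isIntegral_algebraMap_iff (algebraMap E Lb).injective).1 h1
    obtain ⟨a, ha⟩ := hic c hcint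
    refine ⟨a, Subtype.ext ?_⟩
    show algebraMap A Lb a = (z : Lb)
    rw [IsScalarTower.algebraMap_apply A E Lb, ha, hc]

end Closure

end Fermat.Agent.S44
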