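/-
Project S44 (Mazur–Ribet at `p`), cell [H2-S] of [H2] MONO-MAIN (helper4): NORMALISED ORDER
FUNCTIONS `W : F → ℤ` FROM A "UNIT PREDICATE" AND A UNIFORMISER.  Prefix `s44vw_`.

`U : F → Prop` a subgroup of `Fˣ` (the units of a discrete valuation ring of `F`), `ϖ ∈ Fˣ` with
`ϖ ^ n ∈ U → n = 0` and `∀ x ≠ 0, ∃ n, x / ϖ ^ n ∈ U`.  Then

* `s44vw_exists`  : there is a unique additive `W : F → ℤ` with `W = 0` on `U`, `W ϖ = 1`;
                    `W x = n ↔ x / ϖ ^ n ∈ U`;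
* `s44vw_unitAt`  : the instance `U = ssl_UnitAt F 𝔮` (`𝔮` a prime of height one of a noetherian
                    integrally closed domain, locally generated by `t`);
* `s44vw_vUnit`   : the instance `U = ssl_VUnit V` (`V` a valuation subring with uniformiser `ϖ`);
* `s44vw_transport` : if `τ ϖ = ϖ` and `U' x ↔ U (τ x)` then `W' = W ∘ τ` on `Fˣ`
                    (conjugate sheets of a Kummer cover).
-/
import Mathlib
import Fermat.Agent.S44.Mono.SlopeInv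

set_option autoImplicit false
set_option linter.unusedSectionVars false
set_option linter.unusedVariables false
set_option linter.style.haveILetI false

namespace Fermat.Agent.S44

open Fermat.Agent.SS IsLocalRing

section Abs

variable {F : Type*} [Field F]

/-- the hypotheses on a unit predicate with uniformiser `ϖ`. -/
structure s44vw_Unif (U : F → Prop) (ϖ : F) : Prop where
  one : U 1
  mul : ∀ a b : F, U a → U b → U (a * b)
  inv : ∀ a : F, U a → U a⁻¹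
  ne_zero : ∀ a : F, U a → a ≠ 0
  unif_ne : ϖ ≠ 0
  zpow : ∀ n : ℤ, U (ϖ ^ n) → n = 0
  ex : ∀ x : F, x ≠ 0 → ∃ n : ℤ, U (x / ϖ ^ n)

/-- `W` is the normalised order function of `(U, ϖ)`. -/
structure s44vw_IsW (U : F → Prop) (ϖ : F) (W : F → ℤ) : Prop where
  add : s44ms_Add W
  unit : ∀ x : F, U x → W x = 0
  unif : W ϖ = 1
  iff : ∀ x : F, x ≠ 0 → ∀ n : ℤ, U (x / ϖ ^ n) ↔ W x = n

theorem s44vw_Unif.div {U : F → Prop} {ϖ : F} (h : s44vw_Unif U ϖ) {a b : F} (ha : U a)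
    (hb : U b) : U (a / b) := by
  rw [div_eq_mul_inv]; exact h.mul _ _ ha (h.inv _ hb)

/-- uniqueness of the exponent. -/
theorem s44vw_Unif.exp_unique {U : F → Prop} {ϖ : F} (h : s44vw_Unif U ϖ) {x : F} (hx : x ≠ 0)
    {n n' : ℤ} (hn : U (x / ϖ ^ n)) (hn' : U (x / ϖ ^ n')) : n = n' := by
  have h1 : U (x / ϖ ^ n' / (x / ϖ ^ n)) := h.div hn' hn
  have h2 : x / ϖ ^ n' / (x / ϖ ^ n) = ϖ ^ (n - n') := by
    rw [zpow_sub₀ h.unif_ne]
    have h3 : ϖ ^ n ≠ 0 := zpow_ne_zero _ h.unif_ne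
    have h4 : ϖ ^ n' ≠ 0 := zpow_ne_zero _ h.unif_ne
    field_simp
  rw [h2] at h1
  have := h.zpow _ h1
  omega

/-- **existence of the normalised order function.** -/
theorem s44vw_exists {U : F → Prop} {ϖ : F} (h : s44vw_Unif U ϖ) : ∃ W : F → ℤ, s44vw_IsW U ϖ W := by
  classical
  set W : F → ℤ := fun x => if hx : x = 0 then 0 else (h.ex x hx).choose with hW
  have hWspec : ∀ x : F, x ≠ 0 → U (x / ϖ ^ W x) := by
    intro x hx
    have : W x = (h.ex x hx).choose := by rw [hW]; simp [hx]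
    rw [this]
    exact (h.ex x hx).choose_spec
  have hiff : ∀ x : F, x ≠ 0 → ∀ n : ℤ, U (x / ϖ ^ n) ↔ W x = n := by
    intro x hx n
    constructor
    · intro hn; exact h.exp_unique hx (hWspec x hx) hn
    · rintro rfl; exact hWspec x hx
  refine ⟨W, ?_, ?_, ?_, hiff⟩
  · intro a b ha hb
    rw [← hiff (a * b) (mul_ne_zero ha hb)]
    have h1 := h.mul _ _ (hWspec a ha) (hWspec b hb)
    have h2 : a / ϖ ^ W a * (b / ϖ ^ W b) = a * b / ϖ ^ (W a + W b) := by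
      rw [zpow_add₀ h.unif_ne]
      have h3 : ϖ ^ W a ≠ 0 := zpow_ne_zero _ h.unif_ne
      have h4 : ϖ ^ W b ≠ 0 := zpow_ne_zero _ h.unif_ne
      field_simp
    rwa [h2] at h1
  · intro x hx
    rw [← hiff x (h.ne_zero x hx), zpow_zero, div_one]
    exact hx
  · rw [← hiff ϖ h.unif_ne, zpow_one, div_self h.unif_ne]
    exact h.one

theorem s44vw_IsW.unique {U : F → Prop} {ϖ : F} {W W' : F → ℤ} (hW : s44vw_IsW U ϖ W)
    (hW' : s44vw_IsW U ϖ W') {x : F} (hx : x ≠ 0) : W x = W' x := by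
  have := (hW.iff x hx (W x)).2 rfl
  exact ((hW'.iff x hx (W x)).1 this).symm

theorem s44vw_IsW.spec {U : F → Prop} {ϖ : F} {W : F → ℤ} (hW : s44vw_IsW U ϖ W)
    {x : F} (hx : x ≠ 0) : U (x / ϖ ^ W x) := (hW.iff x hx (W x)).2 rfl

/-- **transport along an automorphism** fixing the uniformiser and exchanging the unit
predicates. -/
theorem s44vw_transport {U U' : F → Prop} {ϖ : F} {W W' : F → ℤ} (hW : s44vw_IsW U ϖ W)
    (hW' : s44vw_IsW U' ϖ W') (τ : F →+* F) (hτϖ : τ ϖ = ϖ) (hUU' : ∀ x : F, U' x ↔ U (τ x))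
    {x : F} (hx : x ≠ 0) : W' x = W (τ x) := by
  have h1 : U' (x / ϖ ^ W' x) := hW'.spec hx
  rw [hUU', map_div₀, map_zpow₀, hτϖ] at h1
  exact ((hW.iff (τ x) ((map_ne_zero τ).2 hx) (W' x)).1 h1).symm

end Abs

/-! ### the two instances -/

section UnitAt

variable {R : Type*} [CommRing R] [IsDomain R] [IsNoetherianRing R] [IsIntegrallyClosed R]
  {F : Type*} [Field F] [Algebra R F] [IsFractionRing R F]

/-- the units at a prime of height one which is locally generated by `t`. -/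
theorem s44vw_unitAt (𝔮 : Ideal R) [h𝔮 : 𝔮.IsPrime] (h1 : 𝔮.height = 1) {t : R} (ht : t ∈ 𝔮)
    (hgen : ∀ z ∈ 𝔮, ∃ s : R, s ∉ 𝔮 ∧ t ∣ s * z) :
    s44vw_Unif (ssl_UnitAt F 𝔮) (algebraMap R F t) := by
  have ht0 : t ≠ 0 := by
    rintro rfl
    have hbot : 𝔮 = ⊥ := by
      rw [eq_bot_iff]
      intro z hz
      obtain ⟨s, hs, hd⟩ := hgen z hz
      rw [zero_dvd_iff] at hd
      rcases mul_eq_zero.mp hd with h2 | h2
      · exact absurd (h2 ▸ 𝔮.zero_mem) hs
      · rw [h2]; exact Ideal.zero_mem _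
    rw [hbot, Ideal.height_bot] at h1
    exact zero_ne_one h1
  refine ⟨ssl_unitAt_one 𝔮, fun a b ha hb => ssl_unitAt_mul 𝔮 ha hb,
    fun a ha => ssl_unitAt_inv 𝔮 ha, fun a ha => ssl_unitAt_ne_zero 𝔮 ha,
    ssl_algebraMap_ne_zero ht0, fun n hn => s44ms_zpow_eq_zero_of_unitAt 𝔮 ht hn,
    fun x hx => ssl_exists_zpow 𝔮 h1 ht hgen hx⟩

end UnitAt

section VUnit

variable {F : Type*} [Field F]

/-- the units of a valuation subring with a uniformiser `ϖ`. -/
theorem s44vw_vUnit (V : ValuationSubring F) {ϖ : F} (hϖ0 : ϖ ≠ 0) (hϖ : ϖ ∈ V.nonunits)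
    (hex : ∀ x : F, x ≠ 0 → ∃ n : ℤ, ssl_VUnit V (x / ϖ ^ n)) :
    s44vw_Unif (ssl_VUnit V) ϖ := by
  refine ⟨ssl_vUnit_one, fun a b ha hb => ssl_vUnit_mul ha hb, fun a ha => ssl_vUnit_inv ha,
    fun a ha => ha.1, hϖ0, ?_, hex⟩
  intro n hn
  by_contra hne
  -- a nonzero power of `ϖ` or its inverse is a positive power of `ϖ`, a non-unit
  have key : ∀ k : ℕ, k ≠ 0 → ϖ ^ k ∈ V.nonunits := by
    intro k hk
    obtain ⟨j, rfl⟩ := Nat.exists_eq_succ_of_ne_zero hk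
    rw [pow_succ]
    have hϖV : ϖ ∈ V := ValuationSubring.nonunits_subset hϖ
    have h1 : ϖ ^ j ∈ V := V.pow_mem hϖV j
    rw [ValuationSubring.mem_nonunits_iff_or]
    right
    intro hinv
    have h2 : ϖ⁻¹ = (ϖ ^ j * ϖ)⁻¹ * ϖ ^ j := by
      rw [mul_inv, mul_comm (ϖ ^ j)⁻¹, mul_assoc, inv_mul_cancel₀ (pow_ne_zero j hϖ0), mul_one]
    have h3 : ϖ⁻¹ ∈ V := by rw [h2]; exact V.mul_mem _ _ hinv h1
    rw [ValuationSubring.mem_nonunits_iff_or] at hϖ
    rcases hϖ with h0 | h0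
    · exact hϖ0 h0
    · exact h0 h3
  obtain ⟨k, rfl | rfl⟩ := n.eq_nat_or_neg
  · have hk : k ≠ 0 := by rintro rfl; exact hne rfl
    rw [zpow_natCast] at hn
    exact ssl_vUnit_not_mem_nonunits hn (key k hk)
  · have hk : k ≠ 0 := by rintro rfl; exact hne (by simp)
    rw [zpow_neg, zpow_natCast] at hn
    have hn' := ssl_vUnit_inv hn
    rw [inv_inv] at hn'
    exact ssl_vUnit_not_mem_nonunits hn' (key k hk)

end VUnit

end Fermat.Agent.S44
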