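/-
Project S44 (Mazur–Ribet at `p`), cell [H2-S] of [H2] MONO-MAIN (helper4): THE TWO-NODE ARGUMENT,
ABSTRACT FORM.  Prefix `s44pa_`.

`A0` a DVR (`π`, `K`), `Lb` a field over `K` (the Kummer field), `R, R' ⊆ Lb` two node-sheet rings
(`u v = a`, thickness `e`, branches `P₁ ∋ u` (`0`-sheet) and `P₂ ∋ v` (`∞`-sheet)), one function
`Wi` vanishing on the units at `P₂` AND at `P₂'` (the same `∞`-sheet at both nodes), `W₀`, `W₀'` the
normalised orders at `P₁`, `P₁'`, conjugate under a power of the deck transformation `τ`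
(`W₀' = W₀ ∘ τ^j`).  `Φ = c · fv · g ^ p`, `τ Φ = (β ^ p)⁻¹ h ^ p Φ`, `β` a unit constant; `Φ` and
all `τ^i h` fixed by a family of automorphisms of the node data (the inertia group), whose fixed
constants have `π`-order in `e ℤ`, and with `e ∣ Wi Φ`, `e ∣ Wi (τ^i h)`.

* `s44pa_node` : `s44ms_congr` with `m₀ = 1`, the constants hypothesis in the `K`-form;
* `s44pa_pair` : the arithmetic;
* `s44pa_main` : `ν fv ≡ ν' fv (mod p)` for the normalised node orders `ν, ν'` (`s44nu_IsNu`).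
-/
import Mathlib
import Fermat.Agent.S44.Mono.SlopeInv
import Fermat.Agent.S44.Mono.NuDef
import Fermat.Agent.S44.Mono.ValW
import Fermat.Agent.S44.Mono.SheetAbs

set_option autoImplicit false
set_option linter.unusedSectionVars false
set_option linter.unusedVariables false
set_option linter.style.haveILetI false

namespace Fermat.Agent.S44

open Fermat.Agent.SS IsLocalRing

section Node

variable {A0 K R F : Type*} [CommRing A0] [IsDomain A0] [IsDiscreteValuationRing A0]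
  [Field K] [Algebra A0 K] [IsFractionRing A0 K]
  [CommRing R] [IsDomain R] [IsLocalRing R] [IsNoetherianRing R] [IsIntegrallyClosed R]
  [Algebra A0 R]
  [Field F] [Algebra R F] [IsFractionRing R F] [Algebra K F] [Algebra A0 F]
  [IsScalarTower A0 K F] [IsScalarTower A0 R F]

/-- the constants hypothesis, `K`-form: a nonzero constant fixed by the family is
`π ^ (e n) · unit`. -/
def s44pa_Base (π : A0) (e : ℕ) {ι : Type*} (σ : ι → F ≃+* F) : Prop :=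
  ∀ c : K, c ≠ 0 → (∀ i, σ i (algebraMap K F c) = algebraMap K F c) →
    ∃ (n : ℤ) (ω : A0ˣ), c = algebraMap A0 K π ^ ((e : ℤ) * n) * algebraMap A0 K (ω : A0)

omit [IsDomain A0] [IsDiscreteValuationRing A0] [IsFractionRing A0 K] [IsLocalRing R]
  [IsNoetherianRing R] [IsIntegrallyClosed R] in
/-- the value of an additive function, normalised at `π` and trivial on the units of `R`, on a
constant `π ^ k · unit`. -/
theorem s44pa_W_const {π : A0} {W : F → ℤ} (hW : s44ms_Add W)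
    (hWunit : ∀ ω : Rˣ, W (algebraMap R F (ω : R)) = 0)
    (hWlam : W (algebraMap R F (algebraMap A0 R π)) = 1)
    (hπ0 : algebraMap R F (algebraMap A0 R π) ≠ 0) (k : ℤ) (ω : A0ˣ) :
    W (algebraMap K F (algebraMap A0 K π ^ k * algebraMap A0 K (ω : A0))) = k := by
  have h1 : algebraMap K F (algebraMap A0 K π) = algebraMap R F (algebraMap A0 R π) := by
    rw [← IsScalarTower.algebraMap_apply A0 K F, IsScalarTower.algebraMap_apply A0 R F]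
  have h2 : algebraMap K F (algebraMap A0 K (ω : A0)) =
      algebraMap R F ((Units.map (algebraMap A0 R : A0 →* R) ω : Rˣ) : R) := by
    rw [← IsScalarTower.algebraMap_apply A0 K F, IsScalarTower.algebraMap_apply A0 R F]
    rfl
  have hω0 : algebraMap R F ((Units.map (algebraMap A0 R : A0 →* R) ω : Rˣ) : R) ≠ 0 :=
    ssl_algebraMap_ne_zero (Units.ne_zero _)
  rw [map_mul, map_zpow₀, h1, h2, hW _ _ (zpow_ne_zero k hπ0) hω0, hW.map_zpow _ k hπ0, hWlam,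
    hWunit]
  ring

omit [IsIntegrallyClosed R] in
/-- a normalised node order vanishes on the nonzero constants. -/
theorem s44pa_nu_const {π : A0} (hπ : Irreducible π) {u : R} {Q : Ideal R} {μ : F → ℤ}
    (hμ : s44nu_IsNu (algebraMap A0 R π) u Q μ)
    (hπ0 : algebraMap R F (algebraMap A0 R π) ≠ 0) {c : K} (hc : c ≠ 0) :
    μ (algebraMap K F c) = 0 := by
  obtain ⟨n, ω, hcn⟩ := IsDiscreteValuationRing.exists_units_eq_smul_zpow_of_irreducible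
    (K := K) hπ hc
  have h1 : algebraMap K F (algebraMap A0 K π) = algebraMap R F (algebraMap A0 R π) := by
    rw [← IsScalarTower.algebraMap_apply A0 K F, IsScalarTower.algebraMap_apply A0 R F]
  have h2 : algebraMap K F (algebraMap A0 K (ω : A0)) =
      algebraMap R F ((Units.map (algebraMap A0 R : A0 →* R) ω : Rˣ) : R) := by
    rw [← IsScalarTower.algebraMap_apply A0 K F, IsScalarTower.algebraMap_apply A0 R F]
    rfl
  have hω0 : algebraMap R F ((Units.map (algebraMap A0 R : A0 →* R) ω : Rˣ) : R) ≠ 0 :=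
    ssl_algebraMap_ne_zero (Units.ne_zero _)
  rw [hcn, Units.smul_def, Algebra.smul_def, map_mul, map_zpow₀, h1, h2,
    hμ.add _ _ hω0 (zpow_ne_zero n hπ0), hμ.add.map_zpow _ n hπ0, hμ.lam, hμ.unit]
  ring

/-- **the slope congruence at one node-sheet**, thickness `e`. -/
theorem s44pa_node {π : A0} (hπ : Irreducible π) {u v : R} {a : A0} (ha : a ≠ 0)
    (huv : u * v = algebraMap A0 R a)
    (hm : maximalIdeal R = Ideal.span {algebraMap A0 R π, u, v})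
    {e : ℕ} (he : e ≠ 0) {P₁ P₂ : Ideal R} (hN : s44n_Node (algebraMap A0 R π) u v e P₁ P₂)
    (m : ℕ) (hm0 : m ≠ 0) {z : F} (hz : z ≠ 0)
    (hdiv : ∀ 𝔮 : Ideal R, ssl_Horiz (algebraMap A0 R π) 𝔮 →
      ∃ G : F, G ≠ 0 ∧ ssl_UnitAt F 𝔮 (z / G ^ m))
    (hrat : ∀ 𝔮 : Ideal R, ssl_Horiz (algebraMap A0 R π) 𝔮 → ¬ ssl_UnitAt F 𝔮 z →
      ∀ y : F, ssl_MemAt F 𝔮 y → ∃ (c : K) (b s : R), b ∈ 𝔮 ∧ s ∉ 𝔮 ∧
        (y - algebraMap K F c) * algebraMap R F s = algebraMap R F b)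
    {ι : Type*} (σ : ι → F ≃+* F) (σR : ι → R ≃+* R) (σ0 : ι → A0 ≃+* A0)
    (hAut : ∀ i, s44ms_Aut u z (σ i) (σR i) (σ0 i))
    (W₁ W₂ ν : F → ℤ)
    (hW₁ : s44vw_IsW (ssl_UnitAt F P₁) (algebraMap R F (algebraMap A0 R π)) W₁)
    (hW₂mul : s44ms_Add W₂) (hW₂unit : ∀ x : F, ssl_UnitAt F P₂ x → W₂ x = 0)
    (hW₂lam : W₂ (algebraMap R F (algebraMap A0 R π)) = 1)
    (hν : s44nu_IsNu (algebraMap A0 R π) u P₂ ν)
    (hbase : s44pa_Base (K := K) π e σ)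
    (hW₂z : (e : ℤ) ∣ W₂ z) :
    ∃ A B : ℤ, W₁ z = e * A ∧ W₂ z = e * B ∧ ν z ≡ A - B [ZMOD (m : ℤ)] := by
  haveI := hN.prime₁
  have hπ0 : algebraMap R F (algebraMap A0 R π) ≠ 0 :=
    ssl_algebraMap_ne_zero (s44n_lam_ne_zero hN)
  have hunit₁ : ∀ ω : Rˣ, W₁ (algebraMap R F (ω : R)) = 0 := by
    intro ω
    refine hW₁.unit _ (ssl_unitAt_algebraMap P₁ fun hmem => ?_)
    exact hN.prime₁.ne_top (Ideal.eq_top_of_isUnit_mem _ hmem ω.isUnit)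
  obtain ⟨A, B, h1, h2, h3⟩ := s44ms_congr (K := K) hπ ha huv hm hN m hm0 hz hdiv hrat σ σR σ0
    hAut W₁ W₂ ν hW₁.add hW₂mul hν.add hW₁.unit hW₂unit hW₁.unif hW₂lam hν.unit hν.lam hν.u
    hν.red e 1 he (by ring) (by
      intro c hc hfix
      obtain ⟨n, ω, rfl⟩ := hbase c hc hfix
      rw [s44pa_W_const hW₁.add hunit₁ hW₁.unif hπ0]
      exact dvd_mul_right _ _) hW₂z
  refine ⟨A, B, h1, h2, ?_⟩
  simpa using h3

end Node

/-! ### the arithmetic -/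

section Pair

/-- the two-node arithmetic. -/
theorem s44pa_pair {p e : ℕ} (he : e ≠ 0) {a a' b b' w w' x x' : ℤ}
    (h1 : w = e * a) (h2 : x = e * b) (h3 : w' = e * a') (h4 : x' = e * b') (hxx : x = x')
    (hconj : (p : ℤ) * e ∣ w' - w) {n n' : ℤ} (hn : n ≡ a - b [ZMOD (p : ℤ)])
    (hn' : n' ≡ a' - b' [ZMOD (p : ℤ)]) : n ≡ n' [ZMOD (p : ℤ)] := by
  have he' : (e : ℤ) ≠ 0 := by exact_mod_cast he
  have hb : b = b' := by
    have : (e : ℤ) * b = e * b' := by rw [← h2, ← h4, hxx]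
    exact mul_left_cancel₀ he' this
  obtain ⟨k, hk⟩ := hconj
  have ha : a' - a = p * k := by
    have : (e : ℤ) * (a' - a) = e * (p * k) := by
      rw [mul_sub, ← h3, ← h1, hk]; ring
    exact mul_left_cancel₀ he' this
  have h5 : a - b ≡ a' - b' [ZMOD (p : ℤ)] := by
    rw [Int.modEq_iff_dvd]
    refine ⟨k, ?_⟩
    rw [hb]
    linarith
  exact (hn.trans h5).trans hn'.symm

end Pair

/-! ### two node-sheets -/

section Main

variable {A0 K Lb : Type*} [CommRing A0] [IsDomain A0] [IsDiscreteValuationRing A0]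
  [Field K] [Algebra A0 K] [IsFractionRing A0 K]
  [Field Lb] [Algebra K Lb] [Algebra A0 Lb] [IsScalarTower A0 K Lb]
  {R : Type*} [CommRing R] [IsDomain R] [IsLocalRing R] [IsNoetherianRing R]
  [IsIntegrallyClosed R] [Algebra A0 R] [Algebra R Lb] [IsFractionRing R Lb]
  [IsScalarTower A0 R Lb]
  {R' : Type*} [CommRing R'] [IsDomain R'] [IsLocalRing R'] [IsNoetherianRing R']
  [IsIntegrallyClosed R'] [Algebra A0 R'] [Algebra R' Lb] [IsFractionRing R' Lb]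
  [IsScalarTower A0 R' Lb]

/-- **THE TWO-NODE THEOREM**: `ν fv ≡ ν' fv (mod p)`. -/
theorem s44pa_main {π : A0} (hπ : Irreducible π) {e p : ℕ} (he : e ≠ 0) (hp : p ≠ 0)
    -- the node-sheet `R`
    {u v : R} {a : A0} (ha : a ≠ 0) (huv : u * v = algebraMap A0 R a)
    (hm : maximalIdeal R = Ideal.span {algebraMap A0 R π, u, v})
    {P₁ P₂ : Ideal R} (hN : s44n_Node (algebraMap A0 R π) u v e P₁ P₂)
    -- the node-sheet `R'`
    {u' v' : R'} {a' : A0} (ha' : a' ≠ 0) (huv' : u' * v' = algebraMap A0 R' a')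
    (hm' : maximalIdeal R' = Ideal.span {algebraMap A0 R' π, u', v'})
    {P₁' P₂' : Ideal R'} (hN' : s44n_Node (algebraMap A0 R' π) u' v' e P₁' P₂')
    -- the Kummer data
    (τ : Lb ≃+* Lb) {Φ β h fv g : Lb} {c : K} (hc : c ≠ 0) (hfv : fv ≠ 0) (hg : g ≠ 0)
    (hh0 : h ≠ 0) (hΦ : Φ = algebraMap K Lb c * fv * g ^ p)
    (hβ : ∃ ω : A0ˣ, β = algebraMap A0 Lb (ω : A0)) (hτβ : τ β = β)
    (hτΦ : τ Φ = (β ^ p)⁻¹ * h ^ p * Φ)
    -- horizontal divisors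
    (hdivΦ : ∀ 𝔮 : Ideal R, ssl_Horiz (algebraMap A0 R π) 𝔮 →
      ∃ G : Lb, G ≠ 0 ∧ ssl_UnitAt Lb 𝔮 (Φ / G ^ p))
    (hdivΦ' : ∀ 𝔮 : Ideal R', ssl_Horiz (algebraMap A0 R' π) 𝔮 →
      ∃ G : Lb, G ≠ 0 ∧ ssl_UnitAt Lb 𝔮 (Φ / G ^ p))
    (hratΦ : ∀ 𝔮 : Ideal R, ssl_Horiz (algebraMap A0 R π) 𝔮 → ¬ ssl_UnitAt Lb 𝔮 Φ →
      ∀ y : Lb, ssl_MemAt Lb 𝔮 y → ∃ (c : K) (b s : R), b ∈ 𝔮 ∧ s ∉ 𝔮 ∧
        (y - algebraMap K Lb c) * algebraMap R Lb s = algebraMap R Lb b)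
    (hratΦ' : ∀ 𝔮 : Ideal R', ssl_Horiz (algebraMap A0 R' π) 𝔮 → ¬ ssl_UnitAt Lb 𝔮 Φ →
      ∀ y : Lb, ssl_MemAt Lb 𝔮 y → ∃ (c : K) (b s : R'), b ∈ 𝔮 ∧ s ∉ 𝔮 ∧
        (y - algebraMap K Lb c) * algebraMap R' Lb s = algebraMap R' Lb b)
    (hrath : ∀ j : ℕ, ∀ 𝔮 : Ideal R, ssl_Horiz (algebraMap A0 R π) 𝔮 →
      ¬ ssl_UnitAt Lb 𝔮 ((⇑τ)^[j] h) →
      ∀ y : Lb, ssl_MemAt Lb 𝔮 y → ∃ (c : K) (b s : R), b ∈ 𝔮 ∧ s ∉ 𝔮 ∧
        (y - algebraMap K Lb c) * algebraMap R Lb s = algebraMap R Lb b)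
    -- the inertia family
    {ι : Type*} (σ : ι → Lb ≃+* Lb) (σR : ι → R ≃+* R) (σR' : ι → R' ≃+* R')
    (σ0 : ι → A0 ≃+* A0)
    (hcF : ∀ i (r : R), σ i (algebraMap R Lb r) = algebraMap R Lb (σR i r))
    (hcF' : ∀ i (r : R'), σ i (algebraMap R' Lb r) = algebraMap R' Lb (σR' i r))
    (hc0 : ∀ i (x : A0), σR i (algebraMap A0 R x) = algebraMap A0 R (σ0 i x))
    (hc0' : ∀ i (x : A0), σR' i (algebraMap A0 R' x) = algebraMap A0 R' (σ0 i x))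
    (hσu : ∀ i, σR i u = u) (hσu' : ∀ i, σR' i u' = u')
    (hσΦ : ∀ i, σ i Φ = Φ) (hσh : ∀ i (j : ℕ), σ i ((⇑τ)^[j] h) = (⇑τ)^[j] h)
    (hbase : s44pa_Base (K := K) π e σ)
    -- the order functions
    (W₀ W₀' Wi ν ν' : Lb → ℤ)
    (hW₀ : s44vw_IsW (ssl_UnitAt Lb P₁) (algebraMap R Lb (algebraMap A0 R π)) W₀)
    (hW₀' : s44vw_IsW (ssl_UnitAt Lb P₁') (algebraMap R' Lb (algebraMap A0 R' π)) W₀')
    (hconj : ∃ j : ℕ, ∀ x : Lb, x ≠ 0 → W₀' x = W₀ ((⇑τ)^[j] x))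
    (hWimul : s44ms_Add Wi) (hWiunit : ∀ x : Lb, ssl_UnitAt Lb P₂ x → Wi x = 0)
    (hWiunit' : ∀ x : Lb, ssl_UnitAt Lb P₂' x → Wi x = 0)
    (hWilam : Wi (algebraMap A0 Lb π) = 1)
    (hWiΦ : (e : ℤ) ∣ Wi Φ) (hWih : ∀ j : ℕ, (e : ℤ) ∣ Wi ((⇑τ)^[j] h))
    (hν : s44nu_IsNu (algebraMap A0 R π) u P₂ ν)
    (hν' : s44nu_IsNu (algebraMap A0 R' π) u' P₂' ν') :
    ν fv ≡ ν' fv [ZMOD (p : ℤ)] := by
  classical
  have hlamR : algebraMap R Lb (algebraMap A0 R π) = algebraMap A0 Lb π :=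
    (IsScalarTower.algebraMap_apply A0 R Lb π).symm
  have hlamR' : algebraMap R' Lb (algebraMap A0 R' π) = algebraMap A0 Lb π :=
    (IsScalarTower.algebraMap_apply A0 R' Lb π).symm
  have hc' : algebraMap K Lb c ≠ 0 := (map_ne_zero _).2 hc
  have hΦ0 : Φ ≠ 0 := by
    rw [hΦ]; exact mul_ne_zero (mul_ne_zero hc' hfv) (pow_ne_zero _ hg)
  obtain ⟨ωβ, hωβ⟩ := hβ
  have hβ0 : β ≠ 0 := by
    rw [hωβ, IsScalarTower.algebraMap_apply A0 R Lb]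
    exact ssl_algebraMap_ne_zero
      (Units.ne_zero (Units.map (algebraMap A0 R : A0 →* R) ωβ))
  have hiter0 : ∀ j : ℕ, (⇑τ)^[j] h ≠ 0 := by
    intro j
    induction j with
    | zero => simpa using hh0
    | succ j ih => rw [Function.iterate_succ_apply']; exact (map_ne_zero τ).2 ih
  -- node `R`, `Φ`
  obtain ⟨A, B, hA, hB, hAB⟩ := s44pa_node (K := K) hπ ha huv hm he hN p hp hΦ0 hdivΦ hratΦ σ σR σ0
    (fun i => ⟨hcF i, hc0 i, hσu i, hσΦ i⟩) W₀ Wi ν hW₀ hWimul hWiunit (by rw [hlamR]; exact hWilam)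
    hν hbase hWiΦ
  -- node `R'`, `Φ`
  obtain ⟨A', B', hA', hB', hAB'⟩ := s44pa_node (K := K) hπ ha' huv' hm' he hN' p hp hΦ0 hdivΦ'
    hratΦ' σ σR' σ0 (fun i => ⟨hcF' i, hc0' i, hσu' i, hσΦ i⟩) W₀' Wi ν' hW₀' hWimul hWiunit'
    (by rw [hlamR']; exact hWilam) hν' hbase hWiΦ
  -- node `R`, the `τ^j h`, `m = 1`
  have hWh : ∀ j : ℕ, (e : ℤ) ∣ W₀ ((⇑τ)^[j] h) := by
    intro j
    obtain ⟨Aj, Bj, hAj, -, -⟩ := s44pa_node (K := K) hπ ha huv hm he hN 1 one_ne_zero (hiter0 j)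
      (fun 𝔮 h𝔮 => by
        haveI := h𝔮.1
        refine ⟨(⇑τ)^[j] h, hiter0 j, ?_⟩
        rw [pow_one, div_self (hiter0 j)]
        exact ssl_unitAt_one 𝔮)
      (hrath j) σ σR σ0 (fun i => ⟨hcF i, hc0 i, hσu i, hσh i j⟩) W₀ Wi ν hW₀ hWimul hWiunit
      (by rw [hlamR]; exact hWilam) hν hbase (hWih j)
    exact ⟨Aj, hAj⟩
  -- `W₀ (β ^ p) = 0`
  have hWβ : W₀ (β ^ p) = 0 := by
    haveI := hN.prime₁
    refine hW₀.unit _ ?_
    rw [hωβ, IsScalarTower.algebraMap_apply A0 R Lb, ← map_pow]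
    refine ssl_unitAt_algebraMap P₁ fun hmem => ?_
    exact hN.prime₁.ne_top (Ideal.eq_top_of_isUnit_mem _ hmem
      ((Units.map (algebraMap A0 R : A0 →* R) ωβ).isUnit.pow p))
  obtain ⟨j, hj⟩ := hconj
  have hdvd := s44mh_sheet_dvd W₀ hW₀.add τ hΦ0 hβ0 hh0 hτβ hτΦ hWβ (e : ℤ) hWh j
  rw [← hj Φ hΦ0] at hdvd
  have key : ν Φ ≡ ν' Φ [ZMOD (p : ℤ)] :=
    s44pa_pair he hA hB hA' hB' rfl hdvd hAB hAB'
  -- from `Φ` to `fv`
  have hconst : ∀ (μ : Lb → ℤ), s44ms_Add μ → μ (algebraMap K Lb c) + μ fv + p * μ g = μ Φ := by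
    intro μ hμ
    rw [hΦ, hμ _ _ (mul_ne_zero hc' hfv) (pow_ne_zero _ hg), hμ _ _ hc' hfv, hμ.map_pow _ _ hg]
  have h1 := hconst ν hν.add
  have h2 := hconst ν' hν'.add
  rw [s44pa_nu_const hπ hν (ssl_algebraMap_ne_zero (s44n_lam_ne_zero hN)) hc] at h1
  rw [s44pa_nu_const hπ hν' (ssl_algebraMap_ne_zero (s44n_lam_ne_zero hN')) hc] at h2
  have h3 : ν fv ≡ ν Φ [ZMOD (p : ℤ)] := by
    rw [Int.modEq_iff_dvd]; exact ⟨ν g, by linarith⟩
  have h4 : ν' fv ≡ ν' Φ [ZMOD (p : ℤ)] := by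
    rw [Int.modEq_iff_dvd]; exact ⟨ν' g, by linarith⟩
  exact (h3.trans key).trans h4.symm

end Main

end Fermat.Agent.S44
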