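/-
S44 [H2-U] UNIFORM NODE, Legendre instance (helper29; prefix `s44mu_`).

`ssm_nl_node_of → ssm_nlb_node` re-run with the sigma-free conclusion of `Mono/UNodeAbs.lean`.

**`s44mu_node`** : `L ⊆ Q̄` a number field containing a primitive `N'`-th root of unity, `O` a
discrete valuation ring of `L` of residue characteristic `q` odd, `q ∤ N'`, `π` a uniformiser.  At
every maximal crossing point `𝔫` of the `λ`-chart of the Legendre cover `lg_E L (N' q)` over `O`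
there are `u, v ∈ lg_E L (N' q)` with

* `u v = q` EXACTLY (thickness `e = v_π(q)`), `u, v ∈ 𝔫 B_𝔫`, `𝔫 B_𝔫 = (π, u, v)`, `u` a unit at
  the component `P1 = 𝔪(V1) ∩ B12`, `v` a unit at `P2 = 𝔪(V2) ∩ B12` (`s44mu_NodeAtU`);
* `σ_E u = u` and `σ_E v = v` for EVERY inert automorphism `σ` of `(L, O)` (ONE pair for all `σ`):
  `u, v` come from the function field over the small base `ℚ(ζ_{N'})`.
-/
import Mathlib
import Fermat.Agent.S44.Mono.UNodeAbs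
import Fermat.Agent.SS.Model.NodeLegB

set_option autoImplicit false
set_option linter.unusedSectionVars false
set_option linter.unusedVariables false
set_option linter.style.haveILetI false

noncomputable section

open ModularCurve IntermediateField IsLocalRing Polynomial
open Fermat.Agent.JT3 Fermat.Agent.SS

namespace Fermat.Agent.S44

section Node

variable {L0 L : Type*} [Field L0] [Field L] [CharZero L0] [CharZero L]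
  [Algebra L0 (AlgebraicClosure ℚ)] [Algebra L (AlgebraicClosure ℚ)]
  (f : L0 →+* L) (O0 : ValuationSubring L0) (O : ValuationSubring L)
  (hO : ∀ x : L0, x ∈ O0 ↔ f x ∈ O)
  [IsDiscreteValuationRing O0] [IsDiscreteValuationRing O]
  {π : O} (hπ : Irreducible π)
  (N' q : ℕ) [NeZero N'] [NeZero q] [hq : Fact q.Prime]
  [CharP (ResidueField O0) q] [CharP (ResidueField O) q]
  (hq2 : ¬ 2 ∣ q) (hqN' : ¬ q ∣ N')
  (hπ0 : Irreducible ((q : ℕ) : ↥O0))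

include hO in
set_option synthInstance.maxHeartbeats 200000 in
set_option maxHeartbeats 3200000 in
/-- `ssm_nl_node_of` with named coordinates (no `σ`). -/
theorem s44mu_nl_node_of
    -- level-`N'` inputs over the small base
    (hprime0 : Prime (algebraMap ↥O0 (fc_chart ↥O0 ({lg_lamE N'} : Set ↥(lg_E L0 N')))
      ((q : ℕ) : ↥O0)))
    (hic0 : IsIntegrallyClosed (fc_chart ↥O0 ({lg_lamE N'} : Set ↥(lg_E L0 N')) ⧸
      (Ideal.span {algebraMap ↥O0 (fc_chart ↥O0 ({lg_lamE N'} : Set ↥(lg_E L0 N')))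
          ((q : ℕ) : ↥O0)} :
        Ideal (fc_chart ↥O0 ({lg_lamE N'} : Set ↥(lg_E L0 N'))))))
    (F0 : ssm_i1_Facts ↥O0 q (lg_lamE (N' * q) : ↥(lg_E L0 (N' * q)))
      (ssm_gl_W L0 N' q hq2 hqN' (lg_lamE (N' * q))) (ssm_gl_V1 O0 hπ0 N' q)
      (ssm_gl_V2 O0 hπ0 N' q hq2 hqN'))
    (hEC0 : ∀ 𝔫' : Ideal (fc_chart ↥O0 ({lg_lamE N'} : Set ↥(lg_E L0 N'))), 𝔫'.IsMaximal →
      algebraMap ↥O0 (fc_chart ↥O0 ({lg_lamE N'} : Set ↥(lg_E L0 N'))) ((q : ℕ) : ↥O0) ∈ 𝔫' →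
      (⟨lg_lamE N', fc_x_mem_chart _⟩ : fc_chart ↥O0 ({lg_lamE N'} : Set ↥(lg_E L0 N'))) ∉ 𝔫' →
      (⟨lg_lamE N', fc_x_mem_chart _⟩ :
        fc_chart ↥O0 ({lg_lamE N'} : Set ↥(lg_E L0 N'))) - 1 ∉ 𝔫' →
      (⟨lg_lamE N', fc_x_mem_chart _⟩ :
        fc_chart ↥O0 ({lg_lamE N'} : Set ↥(lg_E L0 N'))) ^ (q ^ 2) -
        ⟨lg_lamE N', fc_x_mem_chart _⟩ ∈ 𝔫' →
      tq_GenBy (algebraMap ↥O0 (fc_chart ↥O0 ({lg_lamE N'} : Set ↥(lg_E L0 N')))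
          ((q : ℕ) : ↥O0))
        ((⟨lg_lamE N', fc_x_mem_chart _⟩ :
          fc_chart ↥O0 ({lg_lamE N'} : Set ↥(lg_E L0 N'))) ^ (q ^ 2) -
          ⟨lg_lamE N', fc_x_mem_chart _⟩) 𝔫')
    -- level-`N'` inputs over the big base
    (hprime : Prime (algebraMap ↥O (fc_chart ↥O ({lg_lamE N'} : Set ↥(lg_E L N'))) π))
    (hic : IsIntegrallyClosed (fc_chart ↥O ({lg_lamE N'} : Set ↥(lg_E L N')) ⧸
      (Ideal.span {algebraMap ↥O (fc_chart ↥O ({lg_lamE N'} : Set ↥(lg_E L N'))) π} :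
        Ideal (fc_chart ↥O ({lg_lamE N'} : Set ↥(lg_E L N'))))))
    (F : ssm_i1_Facts ↥O q (lg_lamE (N' * q) : ↥(lg_E L (N' * q)))
      (ssm_gl_W L N' q hq2 hqN' (lg_lamE (N' * q))) (ssm_gl_V1 O hπ N' q)
      (ssm_gl_V2 O hπ N' q hq2 hqN'))
    (hEC : ∀ 𝔫' : Ideal (fc_chart ↥O ({lg_lamE N'} : Set ↥(lg_E L N'))), 𝔫'.IsMaximal →
      algebraMap ↥O (fc_chart ↥O ({lg_lamE N'} : Set ↥(lg_E L N'))) π ∈ 𝔫' →
      (⟨lg_lamE N', fc_x_mem_chart _⟩ : fc_chart ↥O ({lg_lamE N'} : Set ↥(lg_E L N'))) ∉ 𝔫' →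
      (⟨lg_lamE N', fc_x_mem_chart _⟩ : fc_chart ↥O ({lg_lamE N'} : Set ↥(lg_E L N'))) - 1 ∉ 𝔫' →
      (⟨lg_lamE N', fc_x_mem_chart _⟩ : fc_chart ↥O ({lg_lamE N'} : Set ↥(lg_E L N'))) ^ (q ^ 2) -
        ⟨lg_lamE N', fc_x_mem_chart _⟩ ∈ 𝔫' →
      tq_GenBy (algebraMap ↥O (fc_chart ↥O ({lg_lamE N'} : Set ↥(lg_E L N'))) π)
        ((⟨lg_lamE N', fc_x_mem_chart _⟩ :
          fc_chart ↥O ({lg_lamE N'} : Set ↥(lg_E L N'))) ^ (q ^ 2) -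
          ⟨lg_lamE N', fc_x_mem_chart _⟩) 𝔫')
    -- thickness one over the small base
    (hthick : ∀ 𝔫0 : Ideal (fc_chart ↥O0 ({lg_lamE (N' * q)} : Set ↥(lg_E L0 (N' * q)))),
      𝔫0.IsMaximal →
      ssm_tp_P (fc_chart ↥O0 ({lg_lamE (N' * q)} : Set ↥(lg_E L0 (N' * q))))
        (ssm_gl_V1 O0 hπ0 N' q) ≤ 𝔫0 →
      ssm_tp_P (fc_chart ↥O0 ({lg_lamE (N' * q)} : Set ↥(lg_E L0 (N' * q))))
        (ssm_gl_V2 O0 hπ0 N' q hq2 hqN') ≤ 𝔫0 →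
      ∃ u v : ↥(lg_E L0 (N' * q)), u * v = ((q : ℕ) : ↥(lg_E L0 (N' * q))) ∧
        (∃ s t : fc_chart ↥O0 ({lg_lamE (N' * q)} : Set ↥(lg_E L0 (N' * q))), s ∉ 𝔫0 ∧
          t ∈ ssm_tp_P (fc_chart ↥O0 ({lg_lamE (N' * q)} : Set ↥(lg_E L0 (N' * q))))
            (ssm_gl_V2 O0 hπ0 N' q hq2 hqN') ∧ (s : ↥(lg_E L0 (N' * q))) * u = t) ∧
        (∃ s t : fc_chart ↥O0 ({lg_lamE (N' * q)} : Set ↥(lg_E L0 (N' * q))), s ∉ 𝔫0 ∧
          t ∈ ssm_tp_P (fc_chart ↥O0 ({lg_lamE (N' * q)} : Set ↥(lg_E L0 (N' * q))))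
            (ssm_gl_V1 O0 hπ0 N' q) ∧ (s : ↥(lg_E L0 (N' * q))) * v = t) ∧
        (∀ z ∈ ssm_tp_P (fc_chart ↥O0 ({lg_lamE (N' * q)} : Set ↥(lg_E L0 (N' * q))))
            (ssm_gl_V2 O0 hπ0 N' q hq2 hqN'),
          ∃ s c : fc_chart ↥O0 ({lg_lamE (N' * q)} : Set ↥(lg_E L0 (N' * q))), s ∉ 𝔫0 ∧
            (s : ↥(lg_E L0 (N' * q))) * (z : ↥(lg_E L0 (N' * q))) = u * c) ∧
        (∀ z ∈ ssm_tp_P (fc_chart ↥O0 ({lg_lamE (N' * q)} : Set ↥(lg_E L0 (N' * q))))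
            (ssm_gl_V1 O0 hπ0 N' q),
          ∃ s c : fc_chart ↥O0 ({lg_lamE (N' * q)} : Set ↥(lg_E L0 (N' * q))), s ∉ 𝔫0 ∧
            (s : ↥(lg_E L0 (N' * q))) * (z : ↥(lg_E L0 (N' * q))) = v * c) ∧
        (∃ s t : fc_chart ↥O0 ({lg_lamE (N' * q)} : Set ↥(lg_E L0 (N' * q))), s ∉ 𝔫0 ∧
          t ∉ ssm_tp_P (fc_chart ↥O0 ({lg_lamE (N' * q)} : Set ↥(lg_E L0 (N' * q))))
            (ssm_gl_V1 O0 hπ0 N' q) ∧ (s : ↥(lg_E L0 (N' * q))) * u = t) ∧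
        (∃ s t : fc_chart ↥O0 ({lg_lamE (N' * q)} : Set ↥(lg_E L0 (N' * q))), s ∉ 𝔫0 ∧
          t ∉ ssm_tp_P (fc_chart ↥O0 ({lg_lamE (N' * q)} : Set ↥(lg_E L0 (N' * q))))
            (ssm_gl_V2 O0 hπ0 N' q hq2 hqN') ∧ (s : ↥(lg_E L0 (N' * q))) * v = t)) :
    ∀ 𝔫 : Ideal (fc_chart ↥O ({lg_lamE (N' * q)} : Set ↥(lg_E L (N' * q)))), 𝔫.IsMaximal →
      ssm_tp_P (fc_chart ↥O ({lg_lamE (N' * q)} : Set ↥(lg_E L (N' * q))))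
        (ssm_gl_V1 O hπ N' q) ≤ 𝔫 →
      ssm_tp_P (fc_chart ↥O ({lg_lamE (N' * q)} : Set ↥(lg_E L (N' * q))))
        (ssm_gl_V2 O hπ N' q hq2 hqN') ≤ 𝔫 →
      ∃ u v : ↥(lg_E L0 (N' * q)),
        s44mu_NodeAtU π (fc_chart1_le (lg_lamE (N' * q) : ↥(lg_E L (N' * q))))
          (ssm_tp_P (fc_chart ↥O ({lg_lamE (N' * q), (lg_lamE (N' * q))⁻¹} :
            Set ↥(lg_E L (N' * q)))) (ssm_gl_V1 O hπ N' q))
          (ssm_tp_P (fc_chart ↥O ({lg_lamE (N' * q), (lg_lamE (N' * q))⁻¹} :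
            Set ↥(lg_E L (N' * q)))) (ssm_gl_V2 O hπ N' q hq2 hqN')) 𝔫
          (ssm_bc_j f (N' * q) u) (ssm_bc_j f (N' * q) v) ((q : ℕ) : ↥O) := by
  intro 𝔫 h𝔫 hP1 hP2
  letI := ssm_gi_algebra (ssm_al_E_le L N' q)
  haveI := ssm_gt_isScalarTower O (ssm_al_E_le L N' q)
  letI := ssm_gi_algebra (ssm_al_E_le L0 N' q)
  haveI := ssm_gt_isScalarTower O0 (ssm_al_E_le L0 N' q)
  haveI := ssm_go_isScalarTower O (lg_E L (N' * q))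
  haveI := ssm_go_isScalarTower O0 (lg_E L0 (N' * q))
  have C0 := ssm_nl_cross O0 hπ0 N' q hq2 hqN' hprime0 hic0 F0 hEC0
  have C1 := ssm_nl_cross O hπ N' q hq2 hqN' hprime hic F hEC
  have H0 := ssm_gl_hyp O0 hπ0 N' q hq2 hqN' hprime0
  have H := ssm_gl_hyp O hπ N' q hq2 hqN' hprime
  have hx0 : Transcendental L0 (lg_lamE (L := L0) (N' * q)) :=
    lgf_lam_transcendental L0 (N' * q) two_ne_zero
  have hx : Transcendental L (lg_lamE (L := L) (N' * q)) :=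
    lgf_lam_transcendental L (N' * q) two_ne_zero
  have hC0 := ssm_tp_ff_chart (L := L0) hπ0 hx0
  have hC12 := ssm_tp_ff_chart12 (L := L) hπ hx
  haveI : IsIntegrallyClosed (Algebra.adjoin ↥O0 ({lg_lamE (N' * q)} : Set ↥(lg_E L0 (N' * q)))) :=
    fc_ff_isIntegrallyClosed (fc_ff_transcendental (L := L0) hx0)
  haveI : FaithfulSMul (Algebra.adjoin ↥O0 ({lg_lamE (N' * q)} : Set ↥(lg_E L0 (N' * q))))
      ↥(lg_E L0 (N' * q)) :=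
    (faithfulSMul_iff_algebraMap_injective _ _).2 Subtype.val_injective
  haveI : IsIntegrallyClosed (Algebra.adjoin ↥O ({lg_lamE (N' * q)} : Set ↥(lg_E L (N' * q)))) :=
    fc_ff_isIntegrallyClosed (fc_ff_transcendental (L := L) hx)
  haveI : FaithfulSMul (Algebra.adjoin ↥O ({lg_lamE (N' * q)} : Set ↥(lg_E L (N' * q))))
      ↥(lg_E L (N' * q)) :=
    (faithfulSMul_iff_algebraMap_injective _ _).2 Subtype.val_injective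
  haveI : CharZero ↥(lg_E L0 (N' * q)) :=
    charZero_of_injective_algebraMap (algebraMap L0 ↥(lg_E L0 (N' * q))).injective
  have hqmax : (Ideal.span {((q : ℕ) : ↥O0)} : Ideal ↥O0).IsMaximal := by
    rw [← hπ0.maximalIdeal_eq]
    exact IsLocalRing.maximalIdeal.isMaximal _
  refine s44mu_nx_node (ssm_bc_j f (N' * q)) (ssm_gb_resHom f O0 O hO)
    (ssm_bc_j_algebraMapO f O0 O hO (N' * q))
    (fc_chart ↥O0 ({lg_lamE (N' * q)} : Set ↥(lg_E L0 (N' * q))))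
    (fc_chart ↥O ({lg_lamE (N' * q)} : Set ↥(lg_E L (N' * q))))
    (fc_chart ↥O ({lg_lamE (N' * q), (lg_lamE (N' * q))⁻¹} : Set ↥(lg_E L (N' * q))))
    (fc_chart1_le _) (fun b hb => ssm_bc_chart_lam f O0 O hO (N' * q) hb) π
    q hq.out
    (Nat.cast_ne_zero.2 (NeZero.ne q)) hqmax
    (ssm_gl_V1 O0 hπ0 N' q) (ssm_gl_V2 O0 hπ0 N' q hq2 hqN')
    (ssm_gl_V1 O hπ N' q) (ssm_gl_V2 O hπ N' q hq2 hqN')
    (fun b hb => hC0.le H0.over1 hb) (fun b hb => hC0.le H0.over2 hb)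
    (fun b hb => hC12.le H.over1 hb) (fun b hb => hC12.le H.over2 hb)
    (ssm_bc_nonunits1 f O0 O hO hπ0 hπ (N' * q))
    (ssm_bc_nonunits2 f O0 O hO hπ0 hπ N' q hq.out hq2 hqN')
    C0 (map_natCast _ _) C1 (ssm_cpi_phi_algebraMap _ _) ?_ ?_ ?_ hthick 𝔫 h𝔫 hP1 hP2
  · exact ssm_bc_j_lam f (N' * q)
  · have h := ssm_bc_j_WE f N' q hq.out hq2 hqN' (lg_lamE (N' * q))
    rw [ssm_bc_j_lam] at h
    exact h
  · intro b
    exact ssm_nx_chart_isIntegral (lg_lamE (N' * q) : ↥(lg_E L0 (N' * q))) b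

end Node

section NF

variable (L : Type) [Field L] [NumberField L] [Algebra L (AlgebraicClosure ℚ)]
  (O : ValuationSubring L) [IsDiscreteValuationRing O] {π : O} (hπ : Irreducible π)
variable (N' q : ℕ) [NeZero N'] [NeZero q] [hq : Fact q.Prime] [CharP (ResidueField O) q]
  (hq2 : ¬ 2 ∣ q) (hqN' : ¬ q ∣ N') (ζ : L) (hζ : IsPrimitiveRoot ζ N')

include hζ in
set_option synthInstance.maxHeartbeats 400000 in
set_option maxHeartbeats 3200000 in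
/-- **[H2-U] THE UNIFORM NODE of the Legendre cover over `(L, O, π)`**: at every maximal crossing
point of the `λ`-chart, ONE pair of local coordinates `u, v` with `u v = q` exactly, fixed by every
inert automorphism of `(L, O)`. -/
theorem s44mu_node :
    ∀ 𝔫 : Ideal (fc_chart ↥O ({lg_lamE (N' * q)} : Set ↥(lg_E L (N' * q)))), 𝔫.IsMaximal →
      ssm_tp_P (fc_chart ↥O ({lg_lamE (N' * q)} : Set ↥(lg_E L (N' * q))))
        (ssm_gl_V1 O hπ N' q) ≤ 𝔫 →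
      ssm_tp_P (fc_chart ↥O ({lg_lamE (N' * q)} : Set ↥(lg_E L (N' * q))))
        (ssm_gl_V2 O hπ N' q hq2 hqN') ≤ 𝔫 →
      ∃ u v : ↥(lg_E L (N' * q)),
        s44mu_NodeAtU π (fc_chart1_le (lg_lamE (N' * q) : ↥(lg_E L (N' * q))))
          (ssm_tp_P (fc_chart ↥O ({lg_lamE (N' * q), (lg_lamE (N' * q))⁻¹} :
            Set ↥(lg_E L (N' * q)))) (ssm_gl_V1 O hπ N' q))
          (ssm_tp_P (fc_chart ↥O ({lg_lamE (N' * q), (lg_lamE (N' * q))⁻¹} :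
            Set ↥(lg_E L (N' * q)))) (ssm_gl_V2 O hπ N' q hq2 hqN')) 𝔫 u v ((q : ℕ) : ↥O) ∧
        ∀ (σ : L ≃+* L), ss_Inert O σ →
          ssm_sg_aut (N' * q) σ u = u ∧ ssm_sg_aut (N' * q) σ v = v := by
  intro 𝔫 h𝔫 hP1 hP2
  letI := ssm_sb_algebra ζ
  haveI := ssm_sb_numberField N' ζ hζ
  haveI := ssm_sb_isDVR O N' q hqN' ζ hζ
  haveI := ssm_sb_charP O N' q hqN' ζ hζ
  have hπ0 := ssm_sb_irreducible O N' q hqN' ζ hζ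
  have hqO0 := ssm_sb_q_mem0 O N' q hqN' ζ hζ
  have hqO : ((q : ℕ) : O) ∈ maximalIdeal O := ssm_fln_q_mem L O q
  have hq2' : q ≠ 2 := ssm_fl_ne_two q hq2
  have hζ0 := ssm_sb_zeta_prim N' ζ hζ
  have hp0 := ssm_ll_prime (ssm_sb_L0 ζ) N' hπ0 q hqO0 hq2' hqN' (ssm_sb_zeta ζ) hζ0
  have hp := ssm_ll_prime L N' hπ q hqO hq2' hqN' ζ hζ
  obtain ⟨u, v, huv⟩ :=
    s44mu_nl_node_of (ssm_sb_f ζ) (ssm_sb_O0 O ζ) O (ssm_sb_hO O ζ) hπ N' q hq2 hqN' hπ0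
    hp0.1 (ssm_ll_ic1 (ssm_sb_L0 ζ) N' hπ0 q hqO0 hq2' hqN' (ssm_sb_zeta ζ) hζ0)
    (ssm_fl_facts (ssm_sb_O0 O ζ) hπ0 N' q hq2 hqN' hp0.1)
    (fun 𝔫' h1 h2 h3 h4 h5 =>
      ssm_ll_EC (ssm_sb_L0 ζ) N' hπ0 q hqO0 hq2' hqN' 𝔫' h1 h2 h3 h4 h5)
    hp.1 (ssm_ll_ic1 L N' hπ q hqO hq2' hqN' ζ hζ) (ssm_fl_facts O hπ N' q hq2 hqN' hp.1)
    (fun 𝔫' h1 h2 h3 h4 h5 => ssm_ll_EC L N' hπ q hqO hq2' hqN' 𝔫' h1 h2 h3 h4 h5)
    (ssm_nlb_thick_nf (ssm_sb_L0 ζ) (ssm_sb_O0 O ζ) N' q hq2 hqN' hπ0 (ssm_sb_zeta ζ) hζ0)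
    𝔫 h𝔫 hP1 hP2
  refine ⟨_, _, huv, fun σ hσ => ⟨?_, ?_⟩⟩
  · exact ssm_bc_sigma_fix (ssm_sb_f ζ) (N' * q) σ (ssm_sb_fixed O N' q hqN' ζ hζ σ hσ) u
  · exact ssm_bc_sigma_fix (ssm_sb_f ζ) (N' * q) σ (ssm_sb_fixed O N' q hqN' ζ hζ σ hσ) v

include hζ in
/-- consistency: `s44mu_node` gives back `ssm_nlb_node` for every inert `σ`. -/
theorem s44mu_node_nodeAt (σ : L ≃+* L) (hσ : ss_Inert O σ)
    (𝔫 : Ideal (fc_chart ↥O ({lg_lamE (N' * q)} : Set ↥(lg_E L (N' * q))))) (h𝔫 : 𝔫.IsMaximal)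
    (h1 : ssm_tp_P (fc_chart ↥O ({lg_lamE (N' * q)} : Set ↥(lg_E L (N' * q))))
      (ssm_gl_V1 O hπ N' q) ≤ 𝔫)
    (h2 : ssm_tp_P (fc_chart ↥O ({lg_lamE (N' * q)} : Set ↥(lg_E L (N' * q))))
      (ssm_gl_V2 O hπ N' q hq2 hqN') ≤ 𝔫) :
    ss_NodeAt π (ssm_sg_aut (N' * q) σ) (ssm_sg_base O σ hσ)
      (fc_chart1_le (lg_lamE (N' * q) : ↥(lg_E L (N' * q))))
      (ssm_tp_P (fc_chart ↥O ({lg_lamE (N' * q), (lg_lamE (N' * q))⁻¹} :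
        Set ↥(lg_E L (N' * q)))) (ssm_gl_V1 O hπ N' q))
      (ssm_tp_P (fc_chart ↥O ({lg_lamE (N' * q), (lg_lamE (N' * q))⁻¹} :
        Set ↥(lg_E L (N' * q)))) (ssm_gl_V2 O hπ N' q hq2 hqN')) 𝔫 := by
  obtain ⟨u, v, huv, hfix⟩ := s44mu_node L O hπ N' q hq2 hqN' ζ hζ 𝔫 h𝔫 h1 h2
  exact huv.nodeAt _ _ (map_natCast _ q) (hfix σ hσ).1

end NF

end Fermat.Agent.S44
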