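/-
S44 (Mazur–Ribet at `p`), cell [H2] MONO-MAIN, leaf (INERT-GLUE) of the assembly (helper8; prefix
`s44mi_`; architect's ruling R6.4).

`A` a valuation subring of `ℚ̄` above `p`, `Γ = A.inertiaSubgroupIn ℚ`, `L' ⊆ ℚ̄` a normal number
field, `O' = A ∩ L'`, `Γ|L' = s44mn_G Γ L' ≤ Gal(L'/ℚ)` the image of `Γ`.

* `s44mi_inert` : every `g ∈ Γ|L'` is `ss_Inert O'` (from `ssd_inert`);
  `s44mi_stab`, `s44mi_triv` : the hypotheses `hstab`, `hin` of `s44mg_gauss_inv` / `s44mv_*` for the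
  group `↥(Γ|L')` acting on `L'`; `s44mi_act_eq` : `s44mg_act g = coeffMap g` (by `rfl`);
* `s44mi_exists_zpow` : `c ∈ L'^×` is `π ^ m · unit`;
* `s44mi_base` : **`hbase`**: `c ∈ L'^×` fixed by `Γ|L'` is `π ^ (e n) · unit`, `p = π ^ e · unit`
  (from helper7's `s44b_inertia_fixed_dvd_nf`) — the hypothesis `hbase` of `s44mv_W_dvd`;
  `s44mi_paBase` : the same in the literal shape `s44pa_Base` of helper4's `s44pa_main`;
* `s44mi_fix_of_inert` : the fixed clause of `s44mu_node` (`ssm_sg_aut N σ u = u` for every inert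
  `σ`) gives coefficientwise fixedness under `Γ|L'`.
-/
import Mathlib
import Fermat.Agent.S44.Bridge.TameNF
import Fermat.Agent.S44.Mono.DataGlue
import Fermat.Agent.S44.Mono.PairAbs
import Fermat.Agent.SS.Descent.Generic
import Fermat.Agent.SS.Model.GaussSigma
import Fermat.Agent.S44.Mono.UNode
import Fermat.Agent.S44.Mono.GaussInv

set_option autoImplicit false
set_option linter.unusedSectionVars false

open IsLocalRing

namespace Fermat.Agent.S44

open Fermat.Agent.JT3 Fermat.Agent.SS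

local notation "Qb" => AlgebraicClosure ℚ

section Inert

variable (A : ValuationSubring Qb) (L' : IntermediateField ℚ Qb) [Normal ℚ L']

/-- the restriction to `L'` of an element of the inertia group of `A` is inert at `A ∩ L'`. -/
theorem s44mi_inert_restrict {σ : Qb ≃ₐ[ℚ] Qb} (hσ : σ ∈ A.inertiaSubgroupIn ℚ) :
    ss_Inert (A.comap (algebraMap ↥L' Qb)) (σ.restrictNormal L').toRingEquiv :=
  ssd_inert A σ hσ ↥L' (σ.restrictNormal L') fun x => AlgEquiv.restrictNormal_commutes σ L' x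

/-- every element of the image `Γ|L'` of the inertia group is inert at `A ∩ L'`. -/
theorem s44mi_inert {g : ↥L' ≃ₐ[ℚ] ↥L'} (hg : g ∈ s44mn_G (A.inertiaSubgroupIn ℚ) L') :
    ss_Inert (A.comap (algebraMap ↥L' Qb)) g.toRingEquiv := by
  obtain ⟨σ, hσ, rfl⟩ := Subgroup.mem_map.1 hg
  exact s44mi_inert_restrict A L' hσ

/-- `Γ|L'` preserves `O' = A ∩ L'` (the hypothesis `hstab` of `s44mg_gauss_inv`, `s44mv_*`). -/
theorem s44mi_stab (g : ↥(s44mn_G (A.inertiaSubgroupIn ℚ) L')) (x : ↥L')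
    (hx : x ∈ A.comap (algebraMap ↥L' Qb)) : g • x ∈ A.comap (algebraMap ↥L' Qb) :=
  ssm_gs_mem (s44mi_inert A L' g.2) hx

/-- `Γ|L'` acts trivially on the residue field of `O'` (the hypothesis `hin` of `s44mv_inert`). -/
theorem s44mi_triv (g : ↥(s44mn_G (A.inertiaSubgroupIn ℚ) L')) (x : ↥L')
    (hx : x ∈ A.comap (algebraMap ↥L' Qb)) :
    g • x - x ∈ (A.comap (algebraMap ↥L' Qb)).nonunits :=
  (s44mi_inert A L' g.2 x hx).1

end Inert

section Base

variable (p : ℕ) [hp : Fact p.Prime] (A : ValuationSubring Qb) (hA : A.LiesOverPrime p)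
  (L' : IntermediateField ℚ Qb) [Normal ℚ L']
  [IsDiscreteValuationRing ↥(A.comap (algebraMap ↥L' Qb))]

omit [Normal ℚ L'] in
/-- every nonzero element of `L'` is a power of the uniformiser times a unit of `O' = A ∩ L'`. -/
theorem s44mi_exists_zpow {π : ↥(A.comap (algebraMap ↥L' Qb))} (hπ : Irreducible π) {c : ↥L'}
    (hc : c ≠ 0) :
    ∃ (m : ℤ) (ω : (↥(A.comap (algebraMap ↥L' Qb)))ˣ),
      c = (π : ↥L') ^ m * ((ω : ↥(A.comap (algebraMap ↥L' Qb))) : ↥L') := by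
  rcases (A.comap (algebraMap ↥L' Qb)).mem_or_inv_mem c with h | h
  · have h0 : (⟨c, h⟩ : ↥(A.comap (algebraMap ↥L' Qb))) ≠ 0 := fun h1 =>
      hc (congrArg Subtype.val h1)
    obtain ⟨n, u, hu⟩ := IsDiscreteValuationRing.eq_unit_mul_pow_irreducible h0 hπ
    refine ⟨n, u, ?_⟩
    have := congrArg (Subtype.val : ↥(A.comap (algebraMap ↥L' Qb)) → ↥L') hu
    rw [zpow_natCast, mul_comm]
    simpa using this
  · have h0 : (⟨c⁻¹, h⟩ : ↥(A.comap (algebraMap ↥L' Qb))) ≠ 0 := fun h1 =>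
      inv_ne_zero hc (congrArg Subtype.val h1)
    obtain ⟨n, u, hu⟩ := IsDiscreteValuationRing.eq_unit_mul_pow_irreducible h0 hπ
    refine ⟨-(n : ℤ), u⁻¹, ?_⟩
    have h1 : c⁻¹ = ((u : ↥(A.comap (algebraMap ↥L' Qb))) : ↥L') * (π : ↥L') ^ n := by
      have := congrArg (Subtype.val : ↥(A.comap (algebraMap ↥L' Qb)) → ↥L') hu
      simpa using this
    have h2 : ((u : ↥(A.comap (algebraMap ↥L' Qb))) : ↥L') *
        (((u⁻¹ : (↥(A.comap (algebraMap ↥L' Qb)))ˣ) : ↥(A.comap (algebraMap ↥L' Qb))) : ↥L') = 1 := by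
      have h3 : ((u : ↥(A.comap (algebraMap ↥L' Qb))) *
        ((u⁻¹ : (↥(A.comap (algebraMap ↥L' Qb)))ˣ) : ↥(A.comap (algebraMap ↥L' Qb))) :
          ↥(A.comap (algebraMap ↥L' Qb))) = 1 := Units.mul_inv u
      exact congrArg (Subtype.val : ↥(A.comap (algebraMap ↥L' Qb)) → ↥L') h3
    have hπL : (π : ↥L') ≠ 0 := fun h3 => hπ.ne_zero (Subtype.ext h3)
    rw [← inv_inv c, h1, mul_inv, zpow_neg, zpow_natCast, mul_comm]
    congr 1
    exact inv_eq_of_mul_eq_one_right h2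

include hA in
/-- **`hbase`**: a nonzero element of `L'` fixed by `Γ|L'` is `π ^ (e n) · unit`, where
`p = π ^ e · unit` (`e` the ramification index of `O'`). -/
theorem s44mi_base {π : ↥(A.comap (algebraMap ↥L' Qb))} (hπ : Irreducible π) {e : ℕ}
    {u : ↥(A.comap (algebraMap ↥L' Qb))} (hu : IsUnit u)
    (hpe : ((p : ℕ) : ↥(A.comap (algebraMap ↥L' Qb))) = π ^ e * u) (c : ↥L') (hc : c ≠ 0)
    (hfix : ∀ g ∈ s44mn_G (A.inertiaSubgroupIn ℚ) L', g c = c) :
    ∃ (n : ℤ) (ω : (↥(A.comap (algebraMap ↥L' Qb)))ˣ),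
      c = (π : ↥L') ^ ((e : ℤ) * n) * ((ω : ↥(A.comap (algebraMap ↥L' Qb))) : ↥L') := by
  obtain ⟨m, ω, hm⟩ := s44mi_exists_zpow A L' hπ hc
  have hdvd : (e : ℤ) ∣ m :=
    s44b_inertia_fixed_dvd_nf p A hA L' (fun σ hσ => hfix _ (s44mn_mem_G hσ)) hπ.not_isUnit
      hπ.ne_zero hu ω.isUnit hpe hm
  obtain ⟨n, rfl⟩ := hdvd
  exact ⟨n, ω, hm⟩

end Base

section PaBase

variable (p : ℕ) [hp : Fact p.Prime] (A : ValuationSubring Qb) (hA : A.LiesOverPrime p)
  (L' : IntermediateField ℚ Qb) [Normal ℚ L']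
  [IsDiscreteValuationRing ↥(A.comap (algebraMap ↥L' Qb))]

include hA in
/-- **the constants hypothesis `s44pa_Base` of `s44pa_main`** for `K = L'`, `A0 = O' = A ∩ L'` and
any family `σ` of automorphisms of a field `F ⊇ L'` which induces every element of `Γ|L'` on the
constants. -/
theorem s44mi_paBase {F : Type*} [Field F] [Algebra ↥L' F] {ι : Type*} (σ : ι → F ≃+* F)
    (hσ : ∀ g ∈ s44mn_G (A.inertiaSubgroupIn ℚ) L', ∃ i, ∀ c : ↥L',
      σ i (algebraMap ↥L' F c) = algebraMap ↥L' F (g c))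
    {π : ↥(A.comap (algebraMap ↥L' Qb))} (hπ : Irreducible π) {e : ℕ}
    {u : ↥(A.comap (algebraMap ↥L' Qb))} (hu : IsUnit u)
    (hpe : ((p : ℕ) : ↥(A.comap (algebraMap ↥L' Qb))) = π ^ e * u) :
    s44pa_Base (K := ↥L') (F := F) π e σ := by
  intro c hc hfix
  refine s44mi_base p A hA L' hπ hu hpe c hc fun g hg => ?_
  obtain ⟨i, hi⟩ := hσ g hg
  have h1 := hfix i
  rw [hi c] at h1
  exact (algebraMap ↥L' F).injective h1

end PaBase

section UFix

variable (A : ValuationSubring Qb) (L' : IntermediateField ℚ Qb) [Normal ℚ L']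
  (N : ℕ) [NeZero N]

/-- **the fixed clause of `s44mu_node` for `Γ|L'`**: an element `u` of `lg_E L' N` which is fixed
by `ssm_sg_aut N σ` for every inert `σ` is coefficientwise fixed by `Γ|L'`. -/
theorem s44mi_fix_of_inert {u : ↥(lg_E ↥L' N)}
    (hu : ∀ σ : ↥L' ≃+* ↥L', ss_Inert (A.comap (algebraMap ↥L' Qb)) σ → ssm_sg_aut N σ u = u)
    {g : ↥L' ≃ₐ[ℚ] ↥L'} (hg : g ∈ s44mn_G (A.inertiaSubgroupIn ℚ) L') :
    ModularCurve.coeffMap ((g.toRingEquiv : ↥L' ≃+* ↥L') : ↥L' →+* ↥L') (u : LaurentSeries ↥L') =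
      (u : LaurentSeries ↥L') :=
  congrArg Subtype.val (hu g.toRingEquiv (s44mi_inert A L' hg))

end UFix

section Act

variable (A : ValuationSubring Qb) (L' : IntermediateField ℚ Qb) [Normal ℚ L']

/-- the coefficientwise action `s44mg_act` of a subgroup of `Gal(L'/ℚ)` is `coeffMap`. -/
theorem s44mi_act_eq (G : Subgroup (↥L' ≃ₐ[ℚ] ↥L')) (g : ↥G) (z : LaurentSeries ↥L') :
    s44mg_act g z =
      ModularCurve.coeffMap ((((g : ↥L' ≃ₐ[ℚ] ↥L')).toRingEquiv : ↥L' ≃+* ↥L') : ↥L' →+* ↥L') z :=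
  rfl

end Act

end Fermat.Agent.S44
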