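/-
S44, cell [H2-C] ETALE-SHEET, part 1 (helper26): the finite étale algebra `T = S[ε]`.
Mathlib only.  Prefix `s44me_`.

`S` an integrally closed domain with fraction field `E`, `LL / E` a finite separable field extension
generated by a root `ε` of a monic `P0 ∈ S[X]`, irreducible over `E`, with `P0'(ε)` a unit of
`S[ε]`.  Then

* `s44me_adjoin_eq`  : `S[ε]` is the integral closure of `S` in `LL`;
* `s44me_exists_poly`: every integral element is `Q(ε)`, `Q ∈ S[X]`;
* `s44me_aeval_eq_zero_iff` : `Q(ε) = 0 ↔ P0 ∣ Q`.
-/
import Mathlib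

set_option autoImplicit false
set_option linter.unusedSectionVars false
set_option linter.unusedVariables false
set_option linter.style.haveILetI false

noncomputable section

namespace Fermat.Agent.S44

open Polynomial

section Closure

variable {S : Type*} [CommRing S] [IsDomain S] [IsIntegrallyClosed S]
  (E : Type*) [Field E] [Algebra S E] [IsFractionRing S E]
  {LL : Type*} [Field LL] [Algebra E LL] [Algebra S LL] [IsScalarTower S E LL]
  [FiniteDimensional E LL] [Algebra.IsSeparable E LL]

/-- the étale datum: `ε` is a root of the monic `P0`, irreducible over `E`, generating `LL`, and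
`P0'(ε)` is a unit of `S[ε]`. -/
structure s44me_Gen (P0 : S[X]) (eps : LL) : Prop where
  monic : P0.Monic
  irr : Irreducible (P0.map (algebraMap S E))
  root : aeval eps P0 = 0
  gen : Algebra.adjoin E ({eps} : Set LL) = ⊤
  unit : ∃ t ∈ Algebra.adjoin S ({eps} : Set LL), aeval eps (derivative P0) * t = 1

variable {E} {P0 : S[X]} {eps : LL}

include E in
theorem s44me_torsionFree : Module.IsTorsionFree S LL :=
  Module.IsTorsionFree.trans_faithfulSMul S E LL

theorem s44me_isIntegral (h : s44me_Gen E P0 eps) : IsIntegral S eps :=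
  ⟨P0, h.monic, by rw [← aeval_def]; exact h.root⟩

theorem s44me_minpoly_field (h : s44me_Gen E P0 eps) :
    minpoly E eps = P0.map (algebraMap S E) := by
  refine (minpoly.eq_of_irreducible_of_monic h.irr ?_ (h.monic.map _)).symm
  rw [aeval_map_algebraMap]
  exact h.root

theorem s44me_minpoly (h : s44me_Gen E P0 eps) : minpoly S eps = P0 := by
  have h1 := minpoly.isIntegrallyClosed_eq_field_fractions' E (s44me_isIntegral h)
  rw [s44me_minpoly_field h] at h1
  exact (Polynomial.map_injective _ (IsFractionRing.injective S E) h1).symm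

theorem s44me_aeval_eq_zero_iff (h : s44me_Gen E P0 eps) (Q : S[X]) :
    aeval eps Q = 0 ↔ P0 ∣ Q := by
  haveI := s44me_torsionFree (S := S) (E := E) (LL := LL)
  rw [← s44me_minpoly h]
  exact (minpoly.isIntegrallyClosed_dvd_iff (s44me_isIntegral h) Q)

/-- `P0'(ε)` has a unit norm: there is `d0 ∈ Sˣ` with `N(P0'(ε)) = d0`. -/
theorem s44me_norm_unit (h : s44me_Gen E P0 eps) :
    ∃ a0 t0 : S, a0 * t0 = 1 ∧
      algebraMap S E a0 = Algebra.norm E (aeval eps (derivative P0)) := by
  obtain ⟨t, ht, hat⟩ := h.unit
  have hta : IsIntegral S t := by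
    have hle : Algebra.adjoin S ({eps} : Set LL) ≤ integralClosure S LL :=
      Algebra.adjoin_le (by rintro x (rfl : x = eps); exact s44me_isIntegral h)
    exact hle ht
  have haa : IsIntegral S (aeval eps (derivative P0)) := by
    have hle : Algebra.adjoin S ({eps} : Set LL) ≤ integralClosure S LL :=
      Algebra.adjoin_le (by rintro x (rfl : x = eps); exact s44me_isIntegral h)
    exact hle (aeval_mem_adjoin_singleton _ _)
  obtain ⟨a0, ha0⟩ := IsIntegrallyClosed.isIntegral_iff.1 (Algebra.isIntegral_norm E haa)
  obtain ⟨t0, ht0⟩ := IsIntegrallyClosed.isIntegral_iff.1 (Algebra.isIntegral_norm E hta)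
  refine ⟨a0, t0, ?_, ha0⟩
  apply IsFractionRing.injective S E
  rw [map_mul, ha0, ht0, ← map_mul, hat, map_one, map_one]

/-- **(1)** `S[ε]` is the integral closure of `S` in `LL`. -/
theorem s44me_adjoin_eq (h : s44me_Gen E P0 eps) :
    Algebra.adjoin S ({eps} : Set LL) = integralClosure S LL := by
  apply le_antisymm
  · exact Algebra.adjoin_le (by rintro x (rfl : x = eps); exact s44me_isIntegral h)
  · intro z hz
    have hintE : IsIntegral E eps := (s44me_isIntegral h).tower_top
    let B : PowerBasis E LL := PowerBasis.ofAdjoinEqTop hintE h.gen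
    have hBgen : B.gen = eps := rfl
    have hmem := Algebra.discr_mul_isIntegral_mem_adjoin (R := S) (K := E) (B := B)
      (by rw [hBgen]; exact s44me_isIntegral h) hz
    have hd := Algebra.discr_powerBasis_eq_norm (K := E) B
    rw [hBgen] at hmem
    rw [hBgen, s44me_minpoly_field h, derivative_map, aeval_map_algebraMap] at hd
    obtain ⟨a0, t0, hat, ha0⟩ := s44me_norm_unit h
    rw [← ha0] at hd
    set sg : S := (-1) ^ (Module.finrank E LL * (Module.finrank E LL - 1) / 2) with hsg
    have hsg2 : sg * sg = 1 := by
      rw [hsg, ← pow_add, ← two_mul, pow_mul]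
      simp
    have hd' : Algebra.discr E B.basis = algebraMap S E (sg * a0) := by
      rw [hd, map_mul, hsg, map_pow, map_neg, map_one]
    have hz' : z = algebraMap S LL (sg * t0) * (Algebra.discr E B.basis • z) := by
      rw [hd', Algebra.smul_def, ← IsScalarTower.algebraMap_apply, ← mul_assoc, ← map_mul]
      have : sg * t0 * (sg * a0) = 1 := by
        calc sg * t0 * (sg * a0) = (sg * sg) * (a0 * t0) := by ring
          _ = 1 := by rw [hsg2, hat, one_mul]
      rw [this, map_one, one_mul]
    rw [hz']
    exact Subalgebra.mul_mem _ (Subalgebra.algebraMap_mem _ _) hmem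

/-- every integral element is a polynomial in `ε` over `S`. -/
theorem s44me_exists_poly (h : s44me_Gen E P0 eps) {z : LL} (hz : IsIntegral S z) :
    ∃ Q : S[X], aeval eps Q = z := by
  have hz' : z ∈ Algebra.adjoin S ({eps} : Set LL) := by
    rw [s44me_adjoin_eq h]; exact hz
  rw [Algebra.adjoin_singleton_eq_range_aeval] at hz'
  exact hz'

/-! ### the ring `T = integralClosure S LL` -/

/-- the generator as an element of `T`. -/
def s44me_e (h : s44me_Gen E P0 eps) : ↥(integralClosure S LL) := ⟨eps, s44me_isIntegral h⟩

theorem s44me_coe_e (h : s44me_Gen E P0 eps) : ((s44me_e h : ↥(integralClosure S LL)) : LL) = eps :=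
  rfl

theorem s44me_coe_aeval (h : s44me_Gen E P0 eps) (Q : S[X]) :
    ((aeval (s44me_e h) Q : ↥(integralClosure S LL)) : LL) = aeval eps Q :=
  (Subalgebra.aeval_coe _ (s44me_e h) Q).symm

/-- every element of `T` is a polynomial in the generator. -/
theorem s44me_exists_poly' (h : s44me_Gen E P0 eps) (t : ↥(integralClosure S LL)) :
    ∃ Q : S[X], aeval (s44me_e h) Q = t := by
  obtain ⟨Q, hQ⟩ := s44me_exists_poly h t.2
  exact ⟨Q, Subtype.ext (by rw [s44me_coe_aeval, hQ])⟩

theorem s44me_aeval_e_eq_zero_iff (h : s44me_Gen E P0 eps) (Q : S[X]) :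
    aeval (s44me_e h) Q = 0 ↔ P0 ∣ Q := by
  rw [← s44me_aeval_eq_zero_iff h, ← s44me_coe_aeval h, ← Subalgebra.coe_eq_zero]

theorem s44me_aeval_e_P0 (h : s44me_Gen E P0 eps) : aeval (s44me_e h) P0 = 0 :=
  (s44me_aeval_e_eq_zero_iff h P0).2 dvd_rfl

/-- `P0'(ε)` is a unit of `T`. -/
theorem s44me_isUnit_derivative (h : s44me_Gen E P0 eps) :
    IsUnit (aeval (s44me_e h) (derivative P0)) := by
  obtain ⟨t, ht, hat⟩ := h.unit
  rw [s44me_adjoin_eq h] at ht
  refine IsUnit.of_mul_eq_one (⟨t, ht⟩ : ↥(integralClosure S LL)) ?_
  apply Subtype.ext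
  rw [Subalgebra.coe_mul, s44me_coe_aeval]
  exact hat

/-- **`T` is formally unramified over `S`.** -/
theorem s44me_formallyUnramified (h : s44me_Gen E P0 eps) :
    Algebra.FormallyUnramified S ↥(integralClosure S LL) := by
  constructor
  have hD0 : KaehlerDifferential.D S ↥(integralClosure S LL) (s44me_e h) = 0 := by
    have h1 := (KaehlerDifferential.D S ↥(integralClosure S LL)).map_aeval P0 (s44me_e h)
    rw [s44me_aeval_e_P0, map_zero] at h1
    exact ((s44me_isUnit_derivative h).smul_eq_zero).1 h1.symm
  have hall : ∀ t : ↥(integralClosure S LL),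
      KaehlerDifferential.D S ↥(integralClosure S LL) t = 0 := by
    intro t
    obtain ⟨Q, rfl⟩ := s44me_exists_poly' h t
    rw [Derivation.map_aeval, hD0, smul_zero]
  have hspan := KaehlerDifferential.span_range_derivation S ↥(integralClosure S LL)
  have hbot : Submodule.span ↥(integralClosure S LL)
      (Set.range (KaehlerDifferential.D S ↥(integralClosure S LL))) = ⊥ := by
    rw [Submodule.span_eq_bot]
    rintro _ ⟨t, rfl⟩
    exact hall t
  rw [hbot] at hspan
  exact (Submodule.subsingleton_iff _).1 (subsingleton_of_bot_eq_top hspan)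

end Closure

section Local

variable {S : Type*} [CommRing S] [IsDomain S] [IsIntegrallyClosed S] [IsNoetherianRing S]
  [IsLocalRing S]
  {E : Type*} [Field E] [Algebra S E] [IsFractionRing S E]
  {LL : Type*} [Field LL] [Algebra E LL] [Algebra S LL] [IsScalarTower S E LL]
  [FiniteDimensional E LL] [Algebra.IsSeparable E LL]
  {P0 : S[X]} {eps : LL}

include E in
/-- `T` is a finite `S`-module. -/
theorem s44me_T_finite : Module.Finite S ↥(integralClosure S LL) :=
  IsIntegralClosure.finite S E LL ↥(integralClosure S LL)

include E in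
/-- `T` is noetherian. -/
theorem s44me_T_noetherian : IsNoetherianRing ↥(integralClosure S LL) :=
  IsIntegralClosure.isNoetherianRing S E LL ↥(integralClosure S LL)

include E in
/-- `T` is integrally closed. -/
theorem s44me_T_integrallyClosed : IsIntegrallyClosed ↥(integralClosure S LL) :=
  integralClosure.isIntegrallyClosedOfFiniteExtension E

include E in
/-- `LL = Frac T`. -/
theorem s44me_T_isFractionRing : IsFractionRing ↥(integralClosure S LL) LL :=
  integralClosure.isFractionRing_of_finite_extension E LL

/-- a maximal ideal of `T` lies over the maximal ideal of `S`. -/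
theorem s44me_comap_max (NN : Ideal ↥(integralClosure S LL)) [hNN : NN.IsMaximal] :
    NN.comap (algebraMap S ↥(integralClosure S LL)) = IsLocalRing.maximalIdeal S := by
  haveI : Algebra.IsIntegral S ↥(integralClosure S LL) := inferInstance
  have hmax : (NN.comap (algebraMap S ↥(integralClosure S LL))).IsMaximal :=
    Ideal.isMaximal_comap_of_isIntegral_of_isMaximal NN
  exact IsLocalRing.eq_maximalIdeal hmax

variable (NN : Ideal ↥(integralClosure S LL)) [hNN : NN.IsMaximal]
  (R : Type*) [CommRing R] [Algebra ↥(integralClosure S LL) R] [hloc : IsLocalization.AtPrime R NN]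
  [Algebra S R] [IsScalarTower S ↥(integralClosure S LL) R]

include hloc in
theorem s44me_R_isLocalRing : IsLocalRing R := IsLocalization.AtPrime.isLocalRing R NN

include E hloc in
theorem s44me_R_noetherian : IsNoetherianRing R := by
  haveI := s44me_T_noetherian (S := S) (E := E) (LL := LL)
  exact IsLocalization.isNoetherianRing NN.primeCompl R inferInstance

include hloc in
theorem s44me_R_isDomain : IsDomain R :=
  IsLocalization.isDomain_of_le_nonZeroDivisors (M := NN.primeCompl) R
    NN.primeCompl_le_nonZeroDivisors

include E hloc in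
theorem s44me_R_integrallyClosed : IsIntegrallyClosed R := by
  haveI := s44me_T_integrallyClosed (S := S) (E := E) (LL := LL)
  exact isIntegrallyClosed_of_isLocalization R NN.primeCompl NN.primeCompl_le_nonZeroDivisors

include hloc in
/-- `S → R` is a local homomorphism. -/
theorem s44me_isLocalHom [IsLocalRing R] : IsLocalHom (algebraMap S R) := by
  constructor
  intro s hs
  by_contra hns
  have hsm : s ∈ IsLocalRing.maximalIdeal S := (IsLocalRing.mem_maximalIdeal s).2 hns
  rw [← s44me_comap_max NN, Ideal.mem_comap] at hsm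
  have h1 : algebraMap ↥(integralClosure S LL) R (algebraMap S _ s) ∈
      IsLocalRing.maximalIdeal R := by
    rw [← IsLocalization.AtPrime.map_eq_maximalIdeal NN R]
    exact Ideal.mem_map_of_mem _ hsm
  rw [← IsScalarTower.algebraMap_apply] at h1
  exact (IsLocalRing.mem_maximalIdeal _).1 h1 hs

include hloc in
/-- **(2)** `R = T_𝔑` is unramified over `S`: `𝔪_S R = 𝔪_R`. -/
theorem s44me_map_maximalIdeal [IsLocalRing R] (h : s44me_Gen E P0 eps) :
    (IsLocalRing.maximalIdeal S).map (algebraMap S R) = IsLocalRing.maximalIdeal R := by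
  haveI := s44me_isLocalHom NN R
  haveI := s44me_T_finite (S := S) (E := E) (LL := LL)
  haveI : Algebra.FormallyUnramified S ↥(integralClosure S LL) := s44me_formallyUnramified h
  haveI : Algebra.FormallyUnramified ↥(integralClosure S LL) R :=
    Algebra.FormallyUnramified.of_isLocalization NN.primeCompl
  haveI : Algebra.FormallyUnramified S R :=
    Algebra.FormallyUnramified.comp S ↥(integralClosure S LL) R
  haveI : Algebra.EssFiniteType ↥(integralClosure S LL) R :=
    Algebra.EssFiniteType.of_isLocalization R NN.primeCompl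
  haveI : Algebra.EssFiniteType S R := Algebra.EssFiniteType.comp S ↥(integralClosure S LL) R
  exact Algebra.FormallyUnramified.map_maximalIdeal

end Local

end Fermat.Agent.S44
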