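/-
S44 project, cell [H2-CI] (helper16): THE ARTIN–SCHREIER GENERATOR of the Kummer extension
`LL = E(y)`, `y ^ p = D ^ p (1 + λ ^ p H)`, as an étale datum `s44me_Gen` (helper26's
`Mono/EtAlg.lean`).  Prefix `s44mci_`.

`S` a domain with fraction field `E`, `λ, w ∈ S` with `p = λ ^ (p - 1) w`, `w ∈ Sˣ`; `H ∈ S` with
`1 + λ ^ p H ∈ Sˣ`; `P0` the Artin–Schreier polynomial of `s44g_AS`
(`(1 + λ X) ^ p = 1 + λ ^ p P0`, `P0 = X ^ p + w X + λ Q` monic of degree `p`);
`ε := (y / D - 1) / λ`.  Then `P := P0 - H` is monic, `P(ε) = 0`, `P' = w (1 + λ X) ^ (p - 1)` and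
`P'(ε)` is a unit of `S[ε]`; if `[LL : E] = p` and `LL = E(y)` then `s44me_Gen E P ε`.
-/
import Mathlib
import Fermat.Agent.S44.Etale.AS
import Fermat.Agent.S44.Mono.EtAlg

set_option autoImplicit false
set_option linter.unusedSectionVars false
set_option linter.style.haveILetI false

noncomputable section

namespace Fermat.Agent.S44

open Polynomial

section AS

variable {S : Type*} [CommRing S] [IsDomain S]

/-- the derivative of the Artin–Schreier polynomial: `P0' = w (1 + λ X) ^ (p - 1)`. -/
theorem s44mci_derivative {p : ℕ} (hp : p.Prime) {lam w : S} (hlam0 : lam ≠ 0)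
    (hpe : (p : S) = lam ^ (p - 1) * w) {P0 : S[X]}
    (hP0 : (1 + C lam * X) ^ p = 1 + C (lam ^ p) * P0) :
    derivative P0 = C w * (1 + C lam * X) ^ (p - 1) := by
  have h1 := congrArg derivative hP0
  rw [derivative_pow, derivative_add, derivative_add, derivative_one, zero_add, zero_add,
    derivative_mul, derivative_mul, derivative_C, derivative_C, zero_mul, zero_mul, zero_add,
    zero_add, derivative_X, mul_one] at h1
  have h2 : C (lam ^ p) * derivative P0 = C (lam ^ p) * (C w * (1 + C lam * X) ^ (p - 1)) := by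
    rw [← h1]
    have e1 : (p : S) * lam = lam ^ p * w := by
      rw [hpe]
      have : lam ^ p = lam ^ (p - 1) * lam := by
        rw [← pow_succ]; congr 1; have := hp.two_le; omega
      rw [this]; ring
    have e3 : ((p : ℕ) : S[X]) = C (p : S) := (map_natCast C p).symm
    have e4 : C (lam ^ p) * (C w * (1 + C lam * X) ^ (p - 1)) =
        C ((p : S) * lam) * (1 + C lam * X) ^ (p - 1) := by
      rw [e1, C_mul]; ring
    rw [e4, C_mul, ← e3]
    ring
  exact mul_left_cancel₀ (by rw [Ne, C_eq_zero]; exact pow_ne_zero p hlam0) h2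

end AS

section Gen

variable {S : Type*} [CommRing S] [IsDomain S]
  (E : Type*) [Field E] [Algebra S E] [IsFractionRing S E]
  {LL : Type*} [Field LL] [Algebra E LL] [Algebra S LL] [IsScalarTower S E LL]

variable {E}

/-- the Artin–Schreier generator `ε = (y / D - 1) / λ`. -/
def s44mci_eps (lam : S) (D : E) (y : LL) : LL :=
  (y / algebraMap E LL D - 1) / algebraMap S LL lam

theorem s44mci_one_add_eps {lam : S} (hlam0 : lam ≠ 0) {D : E} (y : LL) :
    1 + algebraMap S LL lam * s44mci_eps lam D y = y / algebraMap E LL D := by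
  have h0 : algebraMap S LL lam ≠ 0 := by
    rw [IsScalarTower.algebraMap_apply S E LL]
    exact (_root_.map_ne_zero _).2 ((map_ne_zero_iff _ (IsFractionRing.injective S E)).2 hlam0)
  unfold s44mci_eps
  field_simp
  ring

variable [FiniteDimensional E LL]

/-- **the étale datum of the Artin–Schreier generator.** -/
theorem s44mci_gen {p : ℕ} (hp : p.Prime) {lam w w' : S} (hlam0 : lam ≠ 0)
    (hpe : (p : S) = lam ^ (p - 1) * w) (hw : w * w' = 1) {P0 : S[X]}
    (hP0 : (1 + C lam * X) ^ p = 1 + C (lam ^ p) * P0) (hmonic : P0.Monic)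
    (hdeg : P0.natDegree = p) {y : LL} {D : E} (hD : D ≠ 0) {H η' : S}
    (hη : (1 + lam ^ p * H) * η' = 1)
    (hy : y ^ p = algebraMap E LL D ^ p * algebraMap S LL (1 + lam ^ p * H))
    (hfin : Module.finrank E LL = p) (hgen : Algebra.adjoin E ({y} : Set LL) = ⊤) :
    s44me_Gen E (P0 - C H) (s44mci_eps lam D y) := by
  have h2p := hp.two_le
  set eps : LL := s44mci_eps lam D y with heps
  have hDL : algebraMap E LL D ≠ 0 := (_root_.map_ne_zero _).2 hD
  have hlamL : algebraMap S LL lam ≠ 0 := by
    rw [IsScalarTower.algebraMap_apply S E LL]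
    exact (_root_.map_ne_zero _).2 ((map_ne_zero_iff _ (IsFractionRing.injective S E)).2 hlam0)
  have h1 : 1 + algebraMap S LL lam * eps = y / algebraMap E LL D := s44mci_one_add_eps hlam0 y
  have h1p : (1 + algebraMap S LL lam * eps) ^ p = algebraMap S LL (1 + lam ^ p * H) := by
    rw [h1, div_pow, hy, mul_div_assoc, mul_comm, div_mul_cancel₀ _ (pow_ne_zero p hDL)]
  have hroot0 : aeval eps P0 = algebraMap S LL H :=
    s44g_AS_root' hP0 (mem_nonZeroDivisors_of_ne_zero hlamL) eps H h1p
  have hmonic' : (P0 - C H).Monic := by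
    apply hmonic.sub_of_left
    rw [degree_eq_natDegree hmonic.ne_zero, hdeg]
    exact lt_of_le_of_lt degree_C_le (by exact_mod_cast hp.pos)
  have hdeg' : (P0 - C H).natDegree = p := by
    rw [natDegree_sub_eq_left_of_natDegree_lt, hdeg]
    rw [natDegree_C, hdeg]; exact hp.pos
  have hroot : aeval eps (P0 - C H) = 0 := by
    rw [map_sub, aeval_C, hroot0, sub_self]
  -- `y ∈ E[ε]`
  have hgen' : Algebra.adjoin E ({eps} : Set LL) = ⊤ := by
    rw [eq_top_iff, ← hgen]
    apply Algebra.adjoin_le
    rintro z (rfl : z = y)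
    have hz : z = algebraMap E LL D * (1 + algebraMap S LL lam * eps) := by
      rw [h1, mul_div_cancel₀ _ hDL]
    rw [hz, IsScalarTower.algebraMap_apply S E LL]
    refine Subalgebra.mul_mem _ (Subalgebra.algebraMap_mem _ _)
      (Subalgebra.add_mem _ (Subalgebra.one_mem _)
        (Subalgebra.mul_mem _ (Subalgebra.algebraMap_mem _ _)
          (Algebra.subset_adjoin (Set.mem_singleton _))))
  refine ⟨hmonic', ?_, hroot, hgen', ?_⟩
  · -- irreducibility: `P.map` is the minimal polynomial of `ε`
    have hint : IsIntegral E eps := Algebra.IsIntegral.isIntegral eps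
    have hmapmonic : ((P0 - C H).map (algebraMap S E)).Monic := hmonic'.map _
    have hrootE : aeval eps ((P0 - C H).map (algebraMap S E)) = 0 := by
      rw [aeval_map_algebraMap]; exact hroot
    have hdvd : minpoly E eps ∣ (P0 - C H).map (algebraMap S E) := minpoly.dvd E eps hrootE
    have hdegmin : (minpoly E eps).natDegree = p := by
      rw [← IntermediateField.adjoin.finrank hint]
      have htop : IntermediateField.adjoin E ({eps} : Set LL) = ⊤ := by
        rw [← IntermediateField.toSubalgebra_inj, IntermediateField.adjoin_simple_toSubalgebra_of_isAlgebraic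
          hint.isAlgebraic, hgen', IntermediateField.top_toSubalgebra]
      rw [htop, IntermediateField.finrank_top', hfin]
    have heq : (P0 - C H).map (algebraMap S E) = minpoly E eps := by
      refine Polynomial.eq_of_monic_of_dvd_of_natDegree_le (minpoly.monic hint) hmapmonic hdvd ?_
      rw [hmonic'.natDegree_map, hdeg', hdegmin]
    rw [heq]
    exact minpoly.irreducible hint
  · -- the derivative is a unit
    have hder : derivative (P0 - C H) = C w * (1 + C lam * X) ^ (p - 1) := by
      rw [derivative_sub, derivative_C, sub_zero]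
      exact s44mci_derivative hp hlam0 hpe hP0
    refine ⟨algebraMap S LL w' * (1 + algebraMap S LL lam * eps) * algebraMap S LL η', ?_, ?_⟩
    · have hεmem : eps ∈ Algebra.adjoin S ({eps} : Set LL) :=
        Algebra.subset_adjoin (Set.mem_singleton _)
      exact Subalgebra.mul_mem _ (Subalgebra.mul_mem _ (Subalgebra.algebraMap_mem _ _)
        (Subalgebra.add_mem _ (Subalgebra.one_mem _)
          (Subalgebra.mul_mem _ (Subalgebra.algebraMap_mem _ _) hεmem)))
        (Subalgebra.algebraMap_mem _ _)
    · rw [hder]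
      simp only [map_mul, map_pow, map_add, map_one, aeval_C, aeval_X]
      have e1 : (1 + algebraMap S LL lam * eps) ^ (p - 1) * (1 + algebraMap S LL lam * eps) =
          algebraMap S LL (1 + lam ^ p * H) := by
        rw [← pow_succ, ← h1p]; congr 1; omega
      have e2 : algebraMap S LL w * algebraMap S LL w' = 1 := by rw [← map_mul, hw, map_one]
      have e3 : algebraMap S LL (1 + lam ^ p * H) * algebraMap S LL η' = 1 := by
        rw [← map_mul, hη, map_one]
      calc algebraMap S LL w * (1 + algebraMap S LL lam * eps) ^ (p - 1) *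
            (algebraMap S LL w' * (1 + algebraMap S LL lam * eps) * algebraMap S LL η')
          = (algebraMap S LL w * algebraMap S LL w') *
              ((1 + algebraMap S LL lam * eps) ^ (p - 1) * (1 + algebraMap S LL lam * eps)) *
              algebraMap S LL η' := by ring
        _ = 1 := by rw [e1, e2, one_mul, e3]

end Gen

end Fermat.Agent.S44
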