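/-
S44 project, cell [H2-CI] (helper16): the node datum `s44n_Node` (helper4's `Node/Slope.lean`) from
the abstract node data `s44tl_NodeData` of `Tor/LocNode.lean`, and the EXPLICIT instance for the
local ring `B_𝔫 = ssl_locSub F0 𝔫` of a chart at an ordinary double point.  Prefix `s44mci_`.

* `s44mci_node`        : `s44tl_NodeData π 𝔮 u k → s44n_Node π (u true) (u false) k (𝔮 false) (𝔮 true)`
                         (`P₁ := 𝔮 false ∋ u true`, `P₂ := 𝔮 true ∋ u false`);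
* `s44mci_max_eq`      : `𝔪_S = (π, u true, u false)`;
* `s44mci_nodeData`    : the node data of `B_𝔫` with NAMED witnesses: branches `(P_i ∩ B) B_𝔫`
                         (`s44tl_br`), parameters `⟨u, _⟩`, `⟨v, _⟩` (the `u, v` of `ss_NodeAt`);
* `s44mci_chart_node`  : `s44n_Node` for `B_𝔫`.
-/
import Mathlib
import Fermat.Agent.S44.Node.Slope
import Fermat.Agent.S44.Tor.LocInst

set_option autoImplicit false
set_option linter.unusedSectionVars false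
set_option linter.style.haveILetI false
set_option linter.unusedVariables false

namespace Fermat.Agent.S44

open Fermat.Agent.SS Fermat.Agent.JT3 IsLocalRing

universe u v

section abs

variable {S : Type u} [CommRing S] [IsDomain S] [IsNoetherianRing S] [IsIntegrallyClosed S]
  [IsLocalRing S] {π : S} {𝔮 : Bool → Ideal S} {u : Bool → S} {k : ℕ}

/-- **the node datum of `Node/Slope.lean` from the abstract node data.** -/
theorem s44mci_node (N : s44tl_NodeData π 𝔮 u k) (hπ0 : π ≠ 0) :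
    s44n_Node π (u true) (u false) k (𝔮 false) (𝔮 true) where
  prime₁ := N.prime false
  prime₂ := N.prime true
  height₁ := N.height hπ0 false
  height₂ := N.height hπ0 true
  lam_mem₁ := N.π_mem false
  lam_mem₂ := N.π_mem true
  gen₁ := N.vgen false
  gen₂ := N.vgen true
  vert := fun 𝔮' h𝔮' h1 hπ => by
    haveI := h𝔮'
    obtain ⟨b, hb⟩ := N.classify hπ0 𝔮' h1 hπ
    cases b
    · exact Or.inl hb.symm
    · exact Or.inr hb.symm
  u_not_mem₂ := N.u_not_mem true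
  v_not_mem₁ := N.u_not_mem false
  mul_eq := N.u_mul

omit [IsDomain S] [IsNoetherianRing S] [IsIntegrallyClosed S] in
/-- `𝔪_S = (π, u, v)`. -/
theorem s44mci_max_eq (N : s44tl_NodeData π 𝔮 u k) :
    maximalIdeal S = Ideal.span {π, u true, u false} := by
  apply le_antisymm N.max_le
  rw [Ideal.span_le]
  rintro x (rfl | rfl | hx)
  · exact le_maximalIdeal (N.prime true).ne_top (N.π_mem true)
  · exact N.u_max true
  · rw [Set.mem_singleton_iff] at hx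
    subst hx
    exact N.u_max false

end abs

section inst

variable {A0 : Type*} [CommRing A0] [IsDomain A0] [IsDiscreteValuationRing A0]
  {F0 : Type v} [Field F0] [Algebra A0 F0]
variable {B B12 : Subalgebra A0 F0} [IsFractionRing B F0] [IsNoetherianRing B]
  [IsIntegrallyClosed B]
variable {𝔫 : Ideal B} [h𝔫 : 𝔫.IsPrime] {π : A0}

/-- **the node data of `B_𝔫` with named witnesses**: branches `𝔮 true = (P1 ∩ B) B_𝔫`,
`𝔮 false = (P2 ∩ B) B_𝔫`, parameters `u` (unit at `P1`), `v` (unit at `P2`). -/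
theorem s44mci_nodeData (hle : B ≤ B12) {P1 P2 : Ideal B12} [hP1 : P1.IsPrime]
    [hP2 : P2.IsPrime] (hπ : Irreducible π) (hϖ0 : algebraMap A0 F0 π ≠ 0)
    (hπ𝔫 : algebraMap A0 B π ∈ 𝔫)
    (hrad : Ideal.span {algebraMap A0 B12 π} = P1 ⊓ P2) {ξ : F0}
    (hξS : ξ ∈ sfc_S B.toSubring (algebraMap A0 F0 π))
    (hclear : ∀ z ∈ B12, ∃ k : ℕ, ξ ^ k * z ∈ B)
    {u v : F0} {a : A0} (huv : u * v = algebraMap A0 F0 a)
    (hu : ∃ s t : B, s ∉ 𝔫 ∧ t ∈ 𝔫 ∧ (s : F0) * u = t)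
    (hv : ∃ s t : B, s ∉ 𝔫 ∧ t ∈ 𝔫 ∧ (s : F0) * v = t)
    (hgen : ∀ z ∈ 𝔫, ∃ s c1 c2 c3 : B, s ∉ 𝔫 ∧
      (s : F0) * (z : F0) = algebraMap A0 F0 π * c1 + u * c2 + v * c3)
    (hu1 : ∃ s t : B12, s ∉ P1 ∧ t ∉ P1 ∧ (s : F0) * u = t)
    (hv2 : ∃ s t : B12, s ∉ P2 ∧ t ∉ P2 ∧ (s : F0) * v = t)
    (huS : u ∈ ssl_locSub F0 𝔫) (hvS : v ∈ ssl_locSub F0 𝔫) :
    haveI := ssl_loc_isLocalRing (F0 := F0) 𝔫
    ∃ k : ℕ, a ≠ 0 ∧ Associated a (π ^ k) ∧
      s44tl_NodeData (algebraMap B (ssl_locSub F0 𝔫) (algebraMap A0 B π))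
        (fun b => cond b (s44tl_br 𝔫 hle P1) (s44tl_br 𝔫 hle P2))
        (fun b => cond b (⟨u, huS⟩ : ssl_locSub F0 𝔫) ⟨v, hvS⟩) k := by
  haveI := ssl_loc_isLocalRing (F0 := F0) 𝔫
  obtain ⟨su, tu, hsu, htu, hsut⟩ := hu
  obtain ⟨sv, tv, hsv, htv, hsvt⟩ := hv
  set uR : ssl_locSub F0 𝔫 := ⟨u, huS⟩ with huR
  set vR : ssl_locSub F0 𝔫 := ⟨v, hvS⟩ with hvR
  have huvR : uR * vR = algebraMap B (ssl_locSub F0 𝔫) (algebraMap A0 B a) := Subtype.ext huv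
  have hmaxeq := IsLocalization.AtPrime.map_eq_maximalIdeal 𝔫 (ssl_locSub F0 𝔫)
  have humax : uR ∈ maximalIdeal (ssl_locSub F0 𝔫) := by
    rw [← hmaxeq]; exact ssl_loc_mem_map_of 𝔫 hsu htu hsut
  have hvmax : vR ∈ maximalIdeal (ssl_locSub F0 𝔫) := by
    rw [← hmaxeq]; exact ssl_loc_mem_map_of 𝔫 hsv htv hsvt
  have hu0 : u ≠ 0 := by
    rintro rfl
    obtain ⟨s, t, hs, ht, hst⟩ := hu1
    rw [mul_zero] at hst
    have : t = 0 := Subtype.ext hst.symm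
    exact ht (this ▸ P1.zero_mem)
  have hv0 : v ≠ 0 := by
    rintro rfl
    obtain ⟨s, t, hs, ht, hst⟩ := hv2
    rw [mul_zero] at hst
    have : t = 0 := Subtype.ext hst.symm
    exact ht (this ▸ P2.zero_mem)
  have ha0 : a ≠ 0 := by
    rintro rfl
    rw [map_zero] at huv
    exact mul_ne_zero hu0 hv0 huv
  have hπP : algebraMap A0 B12 π ∈ P1 ⊓ P2 := hrad ▸ Ideal.mem_span_singleton_self _
  have hred := s44tl_redB (hle := hle) hrad hξS hclear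
  have hred' : ∀ b : B, Subalgebra.inclusion hle b ∈ P2 → Subalgebra.inclusion hle b ∈ P1 →
      ∃ c : B, b = algebraMap A0 B π * c := fun b h2 h1 => hred b h1 h2
  have hpass1 : s44tl_tr hle P1 ≤ 𝔫 :=
    s44tl_pass_aux hπ hϖ0 hπ𝔫 hred hπP.2 ha0 huvR ((mem_maximalIdeal _).1 hvmax) hv2
  have hpass2 : s44tl_tr hle P2 ≤ 𝔫 :=
    s44tl_pass_aux hπ hϖ0 hπ𝔫 hred' hπP.1 ha0 (by rw [mul_comm]; exact huvR)
      ((mem_maximalIdeal _).1 humax) hu1
  obtain ⟨k, hk⟩ := IsDiscreteValuationRing.associated_pow_irreducible ha0 hπ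
  obtain ⟨e, he⟩ := hk.symm
  refine ⟨k, ha0, hk, ?_, ?_, ?_, ?_, ?_, ?_, ?_⟩
  · intro b
    cases b
    · exact s44tl_br_prime hpass2
    · exact s44tl_br_prime hpass1
  · intro b
    cases b
    · exact s44tl_pi_mem_br hπP.2
    · exact s44tl_pi_mem_br hπP.1
  · intro s h1 h2
    exact s44tl_br_rad hred h1 h2
  · intro b
    cases b
    · exact s44tl_not_mem_br hpass2 hv2
    · exact s44tl_not_mem_br hpass1 hu1
  · intro b
    cases b
    · exact hvmax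
    · exact humax
  · refine ⟨((e.isUnit.map (algebraMap A0 B)).map (algebraMap B (ssl_locSub F0 𝔫))).unit, ?_⟩
    rw [IsUnit.unit_spec]
    show uR * vR = _
    rw [huvR, ← he, map_mul, map_mul, map_pow, map_pow]
  · show maximalIdeal (ssl_locSub F0 𝔫) ≤
      Ideal.span {algebraMap B (ssl_locSub F0 𝔫) (algebraMap A0 B π), uR, vR}
    rw [← hmaxeq, Ideal.map_le_iff_le_comap]
    intro z hz
    obtain ⟨s, c1, c2, c3, hs, hsz⟩ := hgen z hz
    have h1 : algebraMap B (ssl_locSub F0 𝔫) s * algebraMap B (ssl_locSub F0 𝔫) z =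
        algebraMap B (ssl_locSub F0 𝔫) (algebraMap A0 B π) * algebraMap B (ssl_locSub F0 𝔫) c1 +
          uR * algebraMap B (ssl_locSub F0 𝔫) c2 + vR * algebraMap B (ssl_locSub F0 𝔫) c3 :=
      Subtype.ext hsz
    have h2 : algebraMap B (ssl_locSub F0 𝔫) s * algebraMap B (ssl_locSub F0 𝔫) z ∈
        Ideal.span {algebraMap B (ssl_locSub F0 𝔫) (algebraMap A0 B π), uR, vR} := by
      rw [h1]
      refine Ideal.add_mem _ (Ideal.add_mem _ ?_ ?_) ?_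
      · exact Ideal.mul_mem_right _ _ (Ideal.subset_span (by simp))
      · exact Ideal.mul_mem_right _ _ (Ideal.subset_span (by simp))
      · exact Ideal.mul_mem_right _ _ (Ideal.subset_span (by simp))
    rw [Ideal.mem_comap]
    exact (Ideal.unit_mul_mem_iff_mem _ (ssl_loc_isUnit 𝔫 hs)).1 h2

/-- **`s44n_Node` for the local ring `B_𝔫` of a chart at an ordinary double point**
(`P₁ := (P2 ∩ B) B_𝔫 ∋ u`, `P₂ := (P1 ∩ B) B_𝔫 ∋ v`). -/
theorem s44mci_chart_node (hle : B ≤ B12) {P1 P2 : Ideal B12} [hP1 : P1.IsPrime]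
    [hP2 : P2.IsPrime] (hπ : Irreducible π) (hϖ0 : algebraMap A0 F0 π ≠ 0)
    (hπ𝔫 : algebraMap A0 B π ∈ 𝔫)
    (hrad : Ideal.span {algebraMap A0 B12 π} = P1 ⊓ P2) {ξ : F0}
    (hξS : ξ ∈ sfc_S B.toSubring (algebraMap A0 F0 π))
    (hclear : ∀ z ∈ B12, ∃ k : ℕ, ξ ^ k * z ∈ B)
    {u v : F0} {a : A0} (huv : u * v = algebraMap A0 F0 a)
    (hu : ∃ s t : B, s ∉ 𝔫 ∧ t ∈ 𝔫 ∧ (s : F0) * u = t)
    (hv : ∃ s t : B, s ∉ 𝔫 ∧ t ∈ 𝔫 ∧ (s : F0) * v = t)
    (hgen : ∀ z ∈ 𝔫, ∃ s c1 c2 c3 : B, s ∉ 𝔫 ∧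
      (s : F0) * (z : F0) = algebraMap A0 F0 π * c1 + u * c2 + v * c3)
    (hu1 : ∃ s t : B12, s ∉ P1 ∧ t ∉ P1 ∧ (s : F0) * u = t)
    (hv2 : ∃ s t : B12, s ∉ P2 ∧ t ∉ P2 ∧ (s : F0) * v = t)
    (huS : u ∈ ssl_locSub F0 𝔫) (hvS : v ∈ ssl_locSub F0 𝔫) :
    haveI := ssl_loc_isNoetherianRing (F0 := F0) 𝔫
    haveI := ssl_loc_isIntegrallyClosed (F0 := F0) 𝔫
    haveI := ssl_loc_isLocalRing (F0 := F0) 𝔫
    ∃ k : ℕ, a ≠ 0 ∧ Associated a (π ^ k) ∧
      s44n_Node (algebraMap B (ssl_locSub F0 𝔫) (algebraMap A0 B π))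
        (⟨u, huS⟩ : ssl_locSub F0 𝔫) ⟨v, hvS⟩ k (s44tl_br 𝔫 hle P2) (s44tl_br 𝔫 hle P1) ∧
      maximalIdeal (ssl_locSub F0 𝔫) =
        Ideal.span {algebraMap B (ssl_locSub F0 𝔫) (algebraMap A0 B π),
          (⟨u, huS⟩ : ssl_locSub F0 𝔫), ⟨v, hvS⟩} := by
  haveI := ssl_loc_isNoetherianRing (F0 := F0) 𝔫
  haveI := ssl_loc_isIntegrallyClosed (F0 := F0) 𝔫
  haveI := ssl_loc_isLocalRing (F0 := F0) 𝔫
  obtain ⟨k, ha0, hk, N⟩ := s44mci_nodeData hle hπ hϖ0 hπ𝔫 hrad hξS hclear huv hu hv hgen hu1 hv2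
    huS hvS
  have hN := s44mci_node N (s44tl_pi_ne_zero 𝔫 hϖ0)
  have hmax := s44mci_max_eq N
  simp only [cond_true, cond_false] at hN hmax
  exact ⟨k, ha0, hk, hN, hmax⟩

end inst

end Fermat.Agent.S44
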