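/-
S44 project, cell [H2-CI] (helper16): THE ARTIN–SCHREIER POLYNOMIAL SPLITS ON THE VERTICAL BRANCHES.
Prefix `s44mci_`.

`S` a noetherian integrally closed domain, `F = Frac S`, `𝔮` a prime of height one containing `π`,
generated by `π` locally at `𝔮` (`hgen`), with `S ⧸ 𝔮` integrally closed (the branch is normal);
`λ = π ^ m u₀` (`u₀ ∈ Sˣ`), `(1 + λ) ^ p = 1`, `P0` the Artin–Schreier polynomial
(`(1 + λ X) ^ p = 1 + λ ^ p P0`), `H ∈ S`.  If `f = D ^ p (1 + λ ^ p H)` (local étale form) and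
`f = G ^ p (1 + π ^ n b)`, `n ≥ p m + 1`, `b ∈ S_𝔮` (split form on the branch), then

  `s44mci_branch_root` : `∃ r : S, ∀ j : ℕ, (P0 - H)(r + j) ∈ 𝔮`,

i.e. `P0 - H` has the `p` roots `r, r + 1, …, r + p - 1` modulo `𝔮` (pairwise distinct modulo every
proper ideal containing `p`).

* `s44mci_lift_root`   : a root in `S_𝔮 / π` of a monic polynomial over `S` lifts to `S`
                         (`S ⧸ 𝔮` integrally closed, `S_𝔮 / π = Frac (S ⧸ 𝔮)`);
* `s44mci_AS_shift`    : `P0 (s + 1) ≡ P0 (s) mod λ` (from `(1 + λ) ^ p = 1`).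
-/
import Mathlib
import Fermat.Agent.SS.Local.Height1
import Fermat.Agent.S44.SFCp.Loc2
import Fermat.Agent.S44.Etale.InstBase

set_option autoImplicit false
set_option linter.unusedSectionVars false
set_option linter.style.haveILetI false

noncomputable section

namespace Fermat.Agent.S44

open Fermat.Agent.SS Polynomial

section lift

variable {S : Type*} [CommRing S] (𝔮 : Ideal S) [h𝔮 : 𝔮.IsPrime]
  [hic : IsIntegrallyClosed (S ⧸ 𝔮)]
  (R : Type*) [CommRing R] [Algebra S R] [IsLocalization.AtPrime R 𝔮]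

/-- a root modulo `π S_𝔮` of a monic polynomial over `S` is congruent to an element of `S`. -/
theorem s44mci_lift_root {π : S} (hπ : π ∈ 𝔮) (hgen : ∀ x ∈ 𝔮, ∃ y, y ∉ 𝔮 ∧ π ∣ x * y)
    {P : S[X]} (hP : P.Monic) {t : R} (ht : algebraMap S R π ∣ aeval t P) :
    ∃ r : S, algebraMap S R π ∣ t - algebraMap S R r := by
  set K := FractionRing (S ⧸ 𝔮)
  set g : S →+* K := (algebraMap (S ⧸ 𝔮) K).comp (Ideal.Quotient.mk 𝔮) with hg
  have hgu : ∀ y : 𝔮.primeCompl, IsUnit (g y) := by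
    intro y
    apply IsUnit.mk0
    rw [hg, RingHom.comp_apply, Ne, IsFractionRing.to_map_eq_zero_iff,
      Ideal.Quotient.eq_zero_iff_mem]
    exact y.2
  set ρ : R →+* K := IsLocalization.lift (M := 𝔮.primeCompl) hgu with hρ
  have hρS : ∀ s : S, ρ (algebraMap S R s) = g s := fun s => IsLocalization.lift_eq hgu s
  have hgπ : g π = 0 := by
    rw [hg, RingHom.comp_apply, Ideal.Quotient.eq_zero_iff_mem.2 hπ, map_zero]
  have h1 : ρ (aeval t P) = 0 := by
    obtain ⟨z, hz⟩ := ht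
    rw [hz, map_mul, hρS, hgπ, zero_mul]
  have hcomp : ρ.comp (algebraMap S R) = g := RingHom.ext hρS
  have h2 : eval₂ (algebraMap (S ⧸ 𝔮) K) (ρ t) (P.map (Ideal.Quotient.mk 𝔮)) = 0 := by
    rw [eval₂_map]
    rw [aeval_def, hom_eval₂, hcomp] at h1
    exact h1
  have hint : IsIntegral (S ⧸ 𝔮) (ρ t) := ⟨P.map _, hP.map _, h2⟩
  obtain ⟨rbar, hr⟩ := IsIntegrallyClosed.isIntegral_iff.1 hint
  obtain ⟨r, rfl⟩ := Ideal.Quotient.mk_surjective rbar
  refine ⟨r, ?_⟩
  apply s44gi_atPrime_dvd 𝔮 R π hgen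
  intro hu
  have h3 : ρ (t - algebraMap S R r) = 0 := by
    rw [map_sub, hρS, hg, RingHom.comp_apply, hr, sub_self]
  have h4 := hu.map ρ
  rw [h3] at h4
  exact not_isUnit_zero h4

end lift

section shift

variable {S : Type*} [CommRing S] [IsDomain S]

/-- `(1 + λ) ^ a = 1 + λ c`. -/
theorem s44mci_one_add_pow (lam : S) (a : ℕ) : ∃ c : S, (1 + lam) ^ a = 1 + lam * c := by
  induction a with
  | zero => exact ⟨0, by simp⟩
  | succ a ih =>
    obtain ⟨c, hc⟩ := ih
    exact ⟨c + 1 + lam * c, by rw [pow_succ, hc]; ring⟩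

/-- `P0 (s + 1) ≡ P0 (s)` modulo `λ` when `(1 + λ) ^ p = 1`. -/
theorem s44mci_AS_shift {p : ℕ} (hp : 0 < p) {lam : S} (hlam0 : lam ≠ 0)
    (hζ : (1 + lam) ^ p = 1) {P0 : S[X]}
    (hP0 : (1 + C lam * X) ^ p = 1 + C (lam ^ p) * P0) (s : S) :
    lam ∣ P0.eval (s + 1) - P0.eval s := by
  obtain ⟨q, rfl⟩ : ∃ q, p = q + 1 := ⟨p - 1, by omega⟩
  set ζ' : S := (1 + lam) ^ q with hζ'
  have hζζ' : (1 + lam) * ζ' = 1 := by rw [hζ', ← pow_succ', hζ]
  obtain ⟨c, hc⟩ := s44mci_one_add_pow lam q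
  have hev : ∀ z : S, (1 + lam * z) ^ (q + 1) = 1 + lam ^ (q + 1) * P0.eval z := by
    intro z
    have := congrArg (eval z) hP0
    simpa only [eval_pow, eval_add, eval_one, eval_mul, eval_C, eval_X] using this
  have h1 : lam ^ (q + 1) * P0.eval (s + 1) = lam ^ (q + 1) * P0.eval (s * ζ') := by
    have e1 : 1 + lam * (s + 1) = (1 + lam) * (1 + lam * (s * ζ')) := by
      have : (1 + lam) * (1 + lam * (s * ζ')) = 1 + lam + lam * s * ((1 + lam) * ζ') := by ring
      rw [this, hζζ']; ring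
    have e2 := hev (s + 1)
    rw [e1, mul_pow, hζ, one_mul, hev] at e2
    exact (add_left_cancel e2).symm
  have h2 : P0.eval (s + 1) = P0.eval (s * ζ') :=
    mul_left_cancel₀ (pow_ne_zero _ hlam0) h1
  rw [h2]
  have h3 : s * ζ' - s ∣ P0.eval (s * ζ') - P0.eval s := sub_dvd_eval_sub _ _ P0
  refine dvd_trans ?_ h3
  exact ⟨s * c, by rw [hζ', hc]; ring⟩

end shift

section branch

variable {S : Type*} [CommRing S] [IsDomain S] [IsNoetherianRing S] [IsIntegrallyClosed S]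
  {F : Type*} [Field F] [Algebra S F] [IsFractionRing S F]

/-- **the Artin–Schreier polynomial `P0 - H` has the roots `r + j` modulo the branch `𝔮`.** -/
theorem s44mci_branch_root (𝔮 : Ideal S) [h𝔮 : 𝔮.IsPrime] (h1 : 𝔮.height = 1)
    [hic : IsIntegrallyClosed (S ⧸ 𝔮)] {π lam u0 u0' : S} {p m n : ℕ} (hp : p.Prime)
    (hm : 0 < m) (hn : p * m + 1 ≤ n) (hπ : π ∈ 𝔮)
    (hgen : ∀ z ∈ 𝔮, ∃ s : S, s ∉ 𝔮 ∧ π ∣ s * z) (hlam : lam = π ^ m * u0)
    (hu0 : u0 * u0' = 1) (hζ : (1 + lam) ^ p = 1) (hlam0 : lam ≠ 0) {P0 : S[X]}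
    (hP0 : (1 + C lam * X) ^ p = 1 + C (lam ^ p) * P0) (hmonic : P0.Monic)
    (hdeg : P0.natDegree = p) {f D G b : F} {H : S} (hD : D ≠ 0)
    (hb : ssl_MemAt F 𝔮 b)
    (hfD : f = D ^ p * (1 + algebraMap S F lam ^ p * algebraMap S F H))
    (hfG : f = G ^ p * (1 + algebraMap S F π ^ n * b)) :
    ∃ r : S, ∀ j : ℕ, (P0 - C H).eval (r + (j : S)) ∈ 𝔮 := by
  have h2p := hp.two_le
  have hgen' : ∀ x ∈ 𝔮, ∃ y, y ∉ 𝔮 ∧ π ∣ x * y := fun x hx => by
    obtain ⟨s, hs, hd⟩ := hgen x hx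
    exact ⟨s, hs, by rw [mul_comm]; exact hd⟩
  set V : ValuationSubring F := ssl_valAt (F := F) 𝔮 h1 with hV
  have hSV : ∀ s : S, algebraMap S F s ∈ V := fun s =>
    (ssl_mem_valAt 𝔮 h1).2 (ssl_memAt_algebraMap 𝔮 s)
  have hbV : b ∈ V := (ssl_mem_valAt 𝔮 h1).2 hb
  have hπ0 : π ≠ 0 := by
    rintro rfl
    apply hlam0
    rw [hlam, zero_pow hm.ne', zero_mul]
  have hπF : algebraMap S F π ≠ 0 := ssl_algebraMap_ne_zero hπ0
  have hlamF : algebraMap S F lam ≠ 0 := ssl_algebraMap_ne_zero hlam0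
  have hu0F : algebraMap S F u0 * algebraMap S F u0' = 1 := by rw [← map_mul, hu0, map_one]
  have hu00 : algebraMap S F u0 ≠ 0 := left_ne_zero_of_mul_eq_one hu0F
  -- `1 + π ^ n b` is a unit of `V`
  have hn0 : 0 < n := by omega
  have hUb : ssl_UnitAt F 𝔮 (1 + algebraMap S F π ^ n * b) := by
    obtain ⟨a, s, hs, h⟩ := hb
    refine ⟨s + π ^ n * a, s, ?_, hs, ?_⟩
    · intro hmem
      apply hs
      have h2 : π ^ n * a ∈ 𝔮 := Ideal.mul_mem_right _ _ (Ideal.pow_mem_of_mem _ hπ n hn0)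
      have h3 := Ideal.sub_mem _ hmem h2
      rwa [add_sub_cancel_right] at h3
    · rw [map_add, map_mul, map_pow, ← h]; ring
  have hUbV := (ssl_vUnit_valAt 𝔮 h1).2 hUb
  obtain ⟨hUb0, -, hUbinv⟩ := hUbV
  -- `x := G / D`, `x ^ p - 1 = λ ^ p H''`
  set ζ : F := 1 + algebraMap S F lam with hζdef
  have hζp : ζ ^ p = 1 := by
    rw [hζdef, ← map_one (algebraMap S F), ← map_add, ← map_pow, hζ, map_one]
  have hζ1 : ζ ≠ 1 := by
    rw [hζdef]
    intro h
    exact hlamF (by linear_combination h)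
  have hprim : IsPrimitiveRoot ζ p := by
    have h := IsPrimitiveRoot.orderOf ζ
    haveI : Fact p.Prime := ⟨hp⟩
    rwa [orderOf_eq_prime hζp hζ1] at h
  have hpow : algebraMap S F π ^ n = algebraMap S F lam ^ p *
      (algebraMap S F u0' ^ p * algebraMap S F π ^ (n - p * m)) := by
    have e1 : algebraMap S F lam ^ p = algebraMap S F π ^ (p * m) * algebraMap S F u0 ^ p := by
      rw [hlam, map_mul, map_pow, mul_pow, ← pow_mul, mul_comm m p]
    have e2 : algebraMap S F u0 ^ p * algebraMap S F u0' ^ p = 1 := by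
      rw [← mul_pow, hu0F, one_pow]
    have e3 : algebraMap S F π ^ n = algebraMap S F π ^ (p * m) *
        algebraMap S F π ^ (n - p * m) := by
      rw [← pow_add]; congr 1; omega
    rw [e1, e3]
    calc algebraMap S F π ^ (p * m) * algebraMap S F π ^ (n - p * m)
        = algebraMap S F π ^ (p * m) * (algebraMap S F u0 ^ p * algebraMap S F u0' ^ p) *
            algebraMap S F π ^ (n - p * m) := by rw [e2, mul_one]
      _ = _ := by ring
  set c1 : F := algebraMap S F u0' ^ p * algebraMap S F π ^ (n - p * m) with hc1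
  have hc1V : c1 ∈ V :=
    V.mul_mem _ _ (V.pow_mem (hSV u0') p) (V.pow_mem (hSV π) _)
  set x : F := G / D with hx
  have hDp : D ^ p ≠ 0 := pow_ne_zero p hD
  have hxp : x ^ p * (1 + algebraMap S F π ^ n * b) =
      1 + algebraMap S F lam ^ p * algebraMap S F H := by
    have h2 : D ^ p * (1 + algebraMap S F lam ^ p * algebraMap S F H) =
        G ^ p * (1 + algebraMap S F π ^ n * b) := by rw [← hfD, hfG]
    rw [hx, div_pow]
    field_simp
    linear_combination (-1 : F) * h2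
  have hd : ∃ H' ∈ V, x ^ p - 1 = (ζ - 1) ^ p * H' :=
    ⟨(algebraMap S F H - c1 * b) * (1 + algebraMap S F π ^ n * b)⁻¹,
      V.mul_mem _ _ (sub_mem (hSV H) (V.mul_mem _ _ hc1V hbV)) hUbinv, by
      have h3 : ζ - 1 = algebraMap S F lam := by rw [hζdef]; ring
      rw [h3]
      have h4 : x ^ p = (1 + algebraMap S F lam ^ p * algebraMap S F H) *
          (1 + algebraMap S F π ^ n * b)⁻¹ := by
        rw [← hxp, mul_assoc, mul_inv_cancel₀ hUb0, mul_one]
      rw [h4]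
      have h5 : algebraMap S F lam ^ p * ((algebraMap S F H - c1 * b) *
          (1 + algebraMap S F π ^ n * b)⁻¹) =
          (algebraMap S F lam ^ p * algebraMap S F H - algebraMap S F π ^ n * b) *
            (1 + algebraMap S F π ^ n * b)⁻¹ := by
        rw [hpow]; ring
      rw [h5]
      field_simp
      ring⟩
  obtain ⟨ε, hεV, hxε⟩ := s44s_root_cong V hp hprim hd
  have hζ1' : ζ - 1 = algebraMap S F lam := by rw [hζdef]; ring
  rw [hζ1'] at hxε
  have hx1 : x = 1 + algebraMap S F lam * ε := by linear_combination hxε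
  -- work in `R = S_𝔮 ⊆ F`
  have hεR : ε ∈ ssl_locSub F 𝔮 := (ssl_mem_locSub 𝔮 ε).2 ((ssl_mem_valAt 𝔮 h1).1 hεV)
  set t : ssl_locSub F 𝔮 := ⟨ε, hεR⟩ with ht
  -- `(1 + λ ε) ^ p = 1 + λ ^ p P0(ε)`
  have hAS : (1 + algebraMap S F lam * ε) ^ p =
      1 + algebraMap S F lam ^ p * aeval ε P0 := by
    have := congrArg (aeval ε) hP0
    simpa only [map_pow, map_add, map_one, map_mul, aeval_C, aeval_X] using this
  -- `P0(ε) - H = π z`, `z ∈ V`
  have hkey : aeval ε P0 - algebraMap S F H = algebraMap S F π *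
      (-(algebraMap S F u0' ^ p * algebraMap S F π ^ (n - p * m - 1) * b * x ^ p)) := by
    have h6 : (1 + algebraMap S F lam ^ p * aeval ε P0) * (1 + algebraMap S F π ^ n * b) =
        1 + algebraMap S F lam ^ p * algebraMap S F H := by rw [← hAS, ← hx1, hxp]
    have h7 : algebraMap S F π ^ (n - p * m) =
        algebraMap S F π * algebraMap S F π ^ (n - p * m - 1) := by
      rw [← pow_succ']; congr 1; omega
    have h8 : algebraMap S F lam ^ p * (aeval ε P0 - algebraMap S F H) =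
        algebraMap S F lam ^ p * (algebraMap S F π *
          (-(algebraMap S F u0' ^ p * algebraMap S F π ^ (n - p * m - 1) * b * x ^ p))) := by
      rw [hx1, hAS]
      rw [hpow, hc1, h7] at h6
      linear_combination h6
    exact mul_left_cancel₀ (pow_ne_zero p hlamF) h8
  have hxV : x ∈ V := by
    rw [hx1]
    exact V.add_mem _ _ V.one_mem (V.mul_mem _ _ (hSV lam) hεV)
  have hzV : -(algebraMap S F u0' ^ p * algebraMap S F π ^ (n - p * m - 1) * b * x ^ p) ∈
      ssl_locSub F 𝔮 := by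
    refine (ssl_mem_locSub 𝔮 _).2 ((ssl_mem_valAt 𝔮 h1).1 ?_)
    exact V.neg_mem _ (V.mul_mem _ _ (V.mul_mem _ _ (V.mul_mem _ _ (V.pow_mem (hSV u0') p)
      (V.pow_mem (hSV π) _)) hbV) (V.pow_mem hxV p))
  have hdvd : algebraMap S (ssl_locSub F 𝔮) π ∣ aeval t (P0 - C H) := by
    refine ⟨⟨_, hzV⟩, Subtype.ext ?_⟩
    have e1 : ((aeval t (P0 - C H) : ssl_locSub F 𝔮) : F) = aeval ε (P0 - C H) := by
      have := (aeval_algebraMap_apply F t (P0 - C H)).symm
      exact this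
    rw [e1, map_sub, aeval_C]
    exact hkey
  have hmonic' : (P0 - C H).Monic := by
    apply hmonic.sub_of_left
    rw [degree_eq_natDegree hmonic.ne_zero, hdeg]
    exact lt_of_le_of_lt degree_C_le (by exact_mod_cast hp.pos)
  obtain ⟨r, hr⟩ := s44mci_lift_root 𝔮 (ssl_locSub F 𝔮) hπ hgen' hmonic' hdvd
  -- `P(r) ∈ 𝔮`
  have hcontr : ∀ s : S, algebraMap S (ssl_locSub F 𝔮) π ∣ algebraMap S (ssl_locSub F 𝔮) s →
      s ∈ 𝔮 := by
    intro s hs
    by_contra hs𝔮
    have hu : IsUnit (algebraMap S (ssl_locSub F 𝔮) s) :=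
      (IsLocalization.AtPrime.isUnit_to_map_iff (ssl_locSub F 𝔮) 𝔮 s).2 hs𝔮
    exact s44gi_atPrime_not_isUnit 𝔮 (ssl_locSub F 𝔮) π hπ (isUnit_of_dvd_unit hs hu)
  have hr0 : (P0 - C H).eval r ∈ 𝔮 := by
    apply hcontr
    have e2 : algebraMap S (ssl_locSub F 𝔮) ((P0 - C H).eval r) =
        aeval (algebraMap S (ssl_locSub F 𝔮) r) (P0 - C H) := by
      rw [aeval_algebraMap_apply, coe_aeval_eq_eval]
    rw [e2]
    have h9 : t - algebraMap S (ssl_locSub F 𝔮) r ∣
        aeval t (P0 - C H) - aeval (algebraMap S (ssl_locSub F 𝔮) r) (P0 - C H) := by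
      rw [aeval_def, aeval_def, eval₂_eq_eval_map, eval₂_eq_eval_map]
      exact sub_dvd_eval_sub _ _ _
    have h10 := dvd_sub hdvd (hr.trans h9)
    rwa [sub_sub_cancel] at h10
  -- the shifts
  have hπlam : π ∣ lam := ⟨π ^ (m - 1) * u0, by
    rw [hlam]
    have : π ^ m = π * π ^ (m - 1) := by rw [← pow_succ']; congr 1; omega
    rw [this]; ring⟩
  refine ⟨r, fun j => ?_⟩
  induction j with
  | zero => simpa using hr0
  | succ j ih =>
    have h11 := s44mci_AS_shift hp.pos hlam0 hζ hP0 (r + (j : S))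
    have h12 : (P0 - C H).eval (r + ((j + 1 : ℕ) : S)) =
        (P0 - C H).eval (r + (j : S)) + (P0.eval (r + (j : S) + 1) - P0.eval (r + (j : S))) := by
      simp only [eval_sub, eval_C]
      push_cast
      ring_nf
    rw [h12]
    exact 𝔮.add_mem ih (Ideal.mem_of_dvd _ (hπlam.trans h11) hπ)

end branch

end Fermat.Agent.S44
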