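/-
S44, cell [H2-C] ETALE-SHEET, part 2 (helper26): the primes of `T = S[ε]` over a prime `𝔭` of `S`
modulo which `P0` splits into distinct linear factors, and the transfer of a node
`s44n_Node lam u v m 𝔭₁ 𝔭₂` of `S` to the local rings `R = T_𝔑`.  Prefix `s44me_`.
-/
import Mathlib
import Fermat.Agent.S44.Mono.EtAlg
import Fermat.Agent.S44.Node.Slope

set_option autoImplicit false
set_option linter.unusedSectionVars false
set_option linter.unusedVariables false
set_option linter.style.haveILetI false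

noncomputable section

namespace Fermat.Agent.S44

open Polynomial Fermat.Agent.SS

section Lift

variable {S : Type*} [CommRing S] [IsDomain S] [IsIntegrallyClosed S]
  {E : Type*} [Field E] [Algebra S E] [IsFractionRing S E]
  {LL : Type*} [Field LL] [Algebra E LL] [Algebra S LL] [IsScalarTower S E LL]
  [FiniteDimensional E LL] [Algebra.IsSeparable E LL]
  {P0 : S[X]} {eps : LL}

/-- evaluation at the generator, as a ring homomorphism. -/
def s44me_ev (h : s44me_Gen E P0 eps) : S[X] →+* ↥(integralClosure S LL) :=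
  (aeval (s44me_e h) : S[X] →ₐ[S] ↥(integralClosure S LL)).toRingHom

theorem s44me_ev_apply (h : s44me_Gen E P0 eps) (Q : S[X]) :
    s44me_ev h Q = aeval (s44me_e h) Q := rfl

theorem s44me_aeval_surjective (h : s44me_Gen E P0 eps) :
    Function.Surjective (s44me_ev h) :=
  fun t => s44me_exists_poly' h t

/-- the universal property of `T = S[X]/(P0)`. -/
def s44me_lift (h : s44me_Gen E P0 eps) {A : Type*} [CommRing A] (ψ : S →+* A) (a : A)
    (ha : P0.eval₂ ψ a = 0) : ↥(integralClosure S LL) →+* A :=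
  RingHom.liftOfSurjective (s44me_ev h) (s44me_aeval_surjective h)
    ⟨eval₂RingHom ψ a, by
      intro Q hQ
      rw [RingHom.mem_ker] at hQ ⊢
      rw [s44me_ev_apply] at hQ
      obtain ⟨Q1, rfl⟩ := (s44me_aeval_e_eq_zero_iff h Q).1 hQ
      rw [coe_eval₂RingHom, eval₂_mul, ha, zero_mul]⟩

theorem s44me_lift_aeval (h : s44me_Gen E P0 eps) {A : Type*} [CommRing A] (ψ : S →+* A) (a : A)
    (ha : P0.eval₂ ψ a = 0) (Q : S[X]) :
    s44me_lift h ψ a ha (aeval (s44me_e h) Q) = Q.eval₂ ψ a :=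
  RingHom.liftOfSurjective_comp_apply (s44me_ev h) (s44me_aeval_surjective h) _ Q

theorem s44me_lift_algebraMap (h : s44me_Gen E P0 eps) {A : Type*} [CommRing A] (ψ : S →+* A)
    (a : A) (ha : P0.eval₂ ψ a = 0) (s : S) :
    s44me_lift h ψ a ha (algebraMap S _ s) = ψ s := by
  have := s44me_lift_aeval h ψ a ha (C s)
  rwa [aeval_C, eval₂_C] at this

theorem s44me_lift_e (h : s44me_Gen E P0 eps) {A : Type*} [CommRing A] (ψ : S →+* A)
    (a : A) (ha : P0.eval₂ ψ a = 0) :
    s44me_lift h ψ a ha (s44me_e h) = a := by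
  have := s44me_lift_aeval h ψ a ha X
  rwa [aeval_X, eval₂_X] at this

end Lift

section Branch

variable {S : Type*} [CommRing S] [IsDomain S] [IsIntegrallyClosed S] [IsLocalRing S]
  {E : Type*} [Field E] [Algebra S E] [IsFractionRing S E]
  {LL : Type*} [Field LL] [Algebra E LL] [Algebra S LL] [IsScalarTower S E LL]
  [FiniteDimensional E LL] [Algebra.IsSeparable E LL]
  {P0 : S[X]} {eps : LL}

/-- `P0` splits modulo `𝔭` into linear factors with roots `r i`, pairwise distinct modulo the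
maximal ideal. -/
structure s44me_Split (P0 : S[X]) (𝔭 : Ideal S) {ι : Type*} [Fintype ι] (r : ι → S) : Prop where
  cong : ∃ G : S[X], (∀ n, G.coeff n ∈ 𝔭) ∧ P0 = ∏ i, (X - C (r i)) + G
  dist : ∀ i j, i ≠ j → r i - r j ∉ IsLocalRing.maximalIdeal S

variable {𝔭 : Ideal S} {ι : Type*} [Fintype ι] {r : ι → S}

omit [IsDomain S] [IsIntegrallyClosed S] in
theorem s44me_eval_mem_of_coeff {G : S[X]} (hG : ∀ n, G.coeff n ∈ 𝔭) (x : S) : G.eval x ∈ 𝔭 := by
  rw [eval_eq_sum_range]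
  exact Ideal.sum_mem _ fun n _ => Ideal.mul_mem_right _ _ (hG n)

omit [IsDomain S] [IsIntegrallyClosed S] in
theorem s44me_split_eval (hs : s44me_Split P0 𝔭 r) (i : ι) : P0.eval (r i) ∈ 𝔭 := by
  obtain ⟨G, hG, e⟩ := hs.cong
  rw [e, eval_add, eval_prod]
  have : ∏ j, (X - C (r j)).eval (r i) = 0 :=
    Finset.prod_eq_zero (Finset.mem_univ i) (by simp)
  rw [this, zero_add]
  exact s44me_eval_mem_of_coeff hG _

/-- the branch homomorphism `T → S ⧸ 𝔭`, `ε ↦ r i`. -/
def s44me_phi (h : s44me_Gen E P0 eps) (hs : s44me_Split P0 𝔭 r) (i : ι) :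
    ↥(integralClosure S LL) →+* S ⧸ 𝔭 :=
  s44me_lift h (Ideal.Quotient.mk 𝔭) (Ideal.Quotient.mk 𝔭 (r i)) (by
    rw [eval₂_at_apply, Ideal.Quotient.eq_zero_iff_mem]
    exact s44me_split_eval hs i)

theorem s44me_phi_aeval (h : s44me_Gen E P0 eps) (hs : s44me_Split P0 𝔭 r) (i : ι) (Q : S[X]) :
    s44me_phi h hs i (aeval (s44me_e h) Q) = Ideal.Quotient.mk 𝔭 (Q.eval (r i)) := by
  rw [s44me_phi, s44me_lift_aeval, eval₂_at_apply]

theorem s44me_phi_algebraMap (h : s44me_Gen E P0 eps) (hs : s44me_Split P0 𝔭 r) (i : ι) (s : S) :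
    s44me_phi h hs i (algebraMap S _ s) = Ideal.Quotient.mk 𝔭 s := by
  rw [s44me_phi, s44me_lift_algebraMap]

theorem s44me_phi_e (h : s44me_Gen E P0 eps) (hs : s44me_Split P0 𝔭 r) (i : ι) :
    s44me_phi h hs i (s44me_e h) = Ideal.Quotient.mk 𝔭 (r i) := by
  rw [s44me_phi, s44me_lift_e]

/-- every value of the branch homomorphism comes from `S`. -/
theorem s44me_phi_exists (h : s44me_Gen E P0 eps) (hs : s44me_Split P0 𝔭 r) (i : ι)
    (t : ↥(integralClosure S LL)) :
    ∃ s : S, s44me_phi h hs i t = Ideal.Quotient.mk 𝔭 s := by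
  obtain ⟨Q, rfl⟩ := s44me_exists_poly' h t
  exact ⟨_, s44me_phi_aeval h hs i Q⟩

/-- the prime `𝔓_i` of `T` over `𝔭` on the sheet `i`. -/
def s44me_P (h : s44me_Gen E P0 eps) (hs : s44me_Split P0 𝔭 r) (i : ι) :
    Ideal ↥(integralClosure S LL) :=
  RingHom.ker (s44me_phi h hs i)

theorem s44me_mem_P (h : s44me_Gen E P0 eps) (hs : s44me_Split P0 𝔭 r) (i : ι)
    (t : ↥(integralClosure S LL)) : t ∈ s44me_P h hs i ↔ s44me_phi h hs i t = 0 :=
  RingHom.mem_ker

theorem s44me_aeval_mem_P (h : s44me_Gen E P0 eps) (hs : s44me_Split P0 𝔭 r) (i : ι) (Q : S[X]) :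
    aeval (s44me_e h) Q ∈ s44me_P h hs i ↔ Q.eval (r i) ∈ 𝔭 := by
  rw [s44me_mem_P, s44me_phi_aeval, Ideal.Quotient.eq_zero_iff_mem]

theorem s44me_algebraMap_mem_P (h : s44me_Gen E P0 eps) (hs : s44me_Split P0 𝔭 r) (i : ι) (s : S) :
    algebraMap S ↥(integralClosure S LL) s ∈ s44me_P h hs i ↔ s ∈ 𝔭 := by
  rw [s44me_mem_P, s44me_phi_algebraMap, Ideal.Quotient.eq_zero_iff_mem]

theorem s44me_comap_P (h : s44me_Gen E P0 eps) (hs : s44me_Split P0 𝔭 r) (i : ι) :
    (s44me_P h hs i).comap (algebraMap S ↥(integralClosure S LL)) = 𝔭 := by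
  ext s
  rw [Ideal.mem_comap, s44me_algebraMap_mem_P]

theorem s44me_P_isPrime [h𝔭 : 𝔭.IsPrime] (h : s44me_Gen E P0 eps) (hs : s44me_Split P0 𝔭 r)
    (i : ι) : (s44me_P h hs i).IsPrime :=
  RingHom.ker_isPrime _

theorem s44me_map_le_P (h : s44me_Gen E P0 eps) (hs : s44me_Split P0 𝔭 r) (i : ι) :
    𝔭.map (algebraMap S ↥(integralClosure S LL)) ≤ s44me_P h hs i := by
  rw [Ideal.map_le_iff_le_comap, s44me_comap_P]

theorem s44me_e_sub_mem_P (h : s44me_Gen E P0 eps) (hs : s44me_Split P0 𝔭 r) (i : ι) :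
    s44me_e h - algebraMap S _ (r i) ∈ s44me_P h hs i := by
  rw [s44me_mem_P, map_sub, s44me_phi_e, s44me_phi_algebraMap, sub_self]

theorem s44me_e_sub_not_mem_P (h𝔭 : 𝔭 ≠ ⊤) (h : s44me_Gen E P0 eps) (hs : s44me_Split P0 𝔭 r)
    {i j : ι} (hij : i ≠ j) :
    s44me_e h - algebraMap S _ (r j) ∉ s44me_P h hs i := by
  intro hmem
  rw [s44me_mem_P, map_sub, s44me_phi_e, s44me_phi_algebraMap, ← map_sub,
    Ideal.Quotient.eq_zero_iff_mem] at hmem
  exact hs.dist i j hij (IsLocalRing.le_maximalIdeal h𝔭 hmem)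

/-- `𝔓_i = (ε - r_i) T + 𝔭 T`. -/
theorem s44me_mem_P_iff (h : s44me_Gen E P0 eps) (hs : s44me_Split P0 𝔭 r) (i : ι)
    (t : ↥(integralClosure S LL)) :
    t ∈ s44me_P h hs i ↔ ∃ (a : ↥(integralClosure S LL)) (z : S), z ∈ 𝔭 ∧
      t = (s44me_e h - algebraMap S _ (r i)) * a + algebraMap S _ z := by
  constructor
  · intro ht
    obtain ⟨Q, rfl⟩ := s44me_exists_poly' h t
    rw [s44me_aeval_mem_P] at ht
    refine ⟨aeval (s44me_e h) (Q /ₘ (X - C (r i))), Q.eval (r i), ht, ?_⟩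
    have hQ := modByMonic_add_div Q (q := X - C (r i))
    rw [modByMonic_X_sub_C_eq_C_eval] at hQ
    conv_lhs => rw [← hQ]
    rw [map_add, map_mul, aeval_C, map_sub, aeval_X, aeval_C]
    ring
  · rintro ⟨a, z, hz, rfl⟩
    exact Ideal.add_mem _ (Ideal.mul_mem_right _ _ (s44me_e_sub_mem_P h hs i))
      ((s44me_algebraMap_mem_P h hs i z).2 hz)

theorem s44me_aeval_mem_map (h : s44me_Gen E P0 eps) {G : S[X]} (hG : ∀ n, G.coeff n ∈ 𝔭) :
    aeval (s44me_e h) G ∈ 𝔭.map (algebraMap S ↥(integralClosure S LL)) := by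
  rw [aeval_eq_sum_range]
  refine Ideal.sum_mem _ fun n _ => ?_
  rw [Algebra.smul_def]
  exact Ideal.mul_mem_right _ _ (Ideal.mem_map_of_mem _ (hG n))

/-- `∏ (ε - r_j) ∈ 𝔭 T`. -/
theorem s44me_prod_mem_map (h : s44me_Gen E P0 eps) (hs : s44me_Split P0 𝔭 r) :
    ∏ j, (s44me_e h - algebraMap S _ (r j)) ∈ 𝔭.map (algebraMap S ↥(integralClosure S LL)) := by
  obtain ⟨G, hG, e⟩ := hs.cong
  have h0 : aeval (s44me_e h) (∏ i, (X - C (r i)) + G) = 0 := by
    rw [← e]; exact s44me_aeval_e_P0 h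
  rw [map_add, map_prod] at h0
  have h1 : ∏ j, (s44me_e h - algebraMap S ↥(integralClosure S LL) (r j)) =
      -aeval (s44me_e h) G := by
    rw [eq_neg_iff_add_eq_zero, ← h0]
    congr 1
    refine Finset.prod_congr rfl fun j _ => ?_
    rw [map_sub, aeval_X, aeval_C]
  rw [h1]
  exact Ideal.neg_mem_iff _ |>.2 (s44me_aeval_mem_map h hG)

/-- **classification**: every prime of `T` containing `𝔭 T` contains some `𝔓_i`. -/
theorem s44me_exists_P_le (h : s44me_Gen E P0 eps) (hs : s44me_Split P0 𝔭 r)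
    (𝔔 : Ideal ↥(integralClosure S LL)) [h𝔔 : 𝔔.IsPrime]
    (hle : 𝔭.map (algebraMap S ↥(integralClosure S LL)) ≤ 𝔔) : ∃ i, s44me_P h hs i ≤ 𝔔 := by
  have h1 := hle (s44me_prod_mem_map h hs)
  rw [Ideal.IsPrime.prod_mem_iff] at h1
  obtain ⟨i, -, hi⟩ := h1
  refine ⟨i, fun t ht => ?_⟩
  obtain ⟨a, z, hz, rfl⟩ := (s44me_mem_P_iff h hs i t).1 ht
  exact Ideal.add_mem _ (Ideal.mul_mem_right _ _ hi) (hle (Ideal.mem_map_of_mem _ hz))

/-- a proper ideal of `T` contains at most one `𝔓_i`. -/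
theorem s44me_P_le_unique (h : s44me_Gen E P0 eps) (hs : s44me_Split P0 𝔭 r)
    (𝔔 : Ideal ↥(integralClosure S LL)) (h𝔔 : 𝔔 ≠ ⊤) {i j : ι}
    (hi : s44me_P h hs i ≤ 𝔔) (hj : s44me_P h hs j ≤ 𝔔) : i = j := by
  by_contra hij
  have h1 := 𝔔.sub_mem (hj (s44me_e_sub_mem_P h hs j)) (hi (s44me_e_sub_mem_P h hs i))
  have h2 : s44me_e h - algebraMap S ↥(integralClosure S LL) (r j) -
      (s44me_e h - algebraMap S ↥(integralClosure S LL) (r i)) =
      algebraMap S ↥(integralClosure S LL) (r i - r j) := by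
    rw [map_sub]; ring
  rw [h2] at h1
  have h3 : r i - r j ∈ 𝔔.comap (algebraMap S ↥(integralClosure S LL)) := h1
  have h4 : 𝔔.comap (algebraMap S ↥(integralClosure S LL)) ≠ ⊤ := by
    intro htop
    apply h𝔔
    rw [Ideal.eq_top_iff_one] at htop ⊢
    have := htop
    rwa [Ideal.mem_comap, map_one] at this
  exact hs.dist i j hij (IsLocalRing.le_maximalIdeal h4 h3)

/-- local generation transfers to `𝔭 T`. -/
theorem s44me_map_gen [h𝔭 : 𝔭.IsPrime] {lam : S}
    (hgen : ∀ z ∈ 𝔭, ∃ s : S, s ∉ 𝔭 ∧ lam ∣ s * z)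
    (x : ↥(integralClosure S LL)) (hx : x ∈ 𝔭.map (algebraMap S ↥(integralClosure S LL))) :
    ∃ s : S, s ∉ 𝔭 ∧ algebraMap S ↥(integralClosure S LL) lam ∣ algebraMap S _ s * x := by
  unfold Ideal.map at hx
  induction hx using Submodule.span_induction with
  | mem x hx =>
    obtain ⟨z, hz, rfl⟩ := hx
    obtain ⟨s, hs, hd⟩ := hgen z hz
    exact ⟨s, hs, by rw [← map_mul]; exact map_dvd _ hd⟩
  | zero => exact ⟨1, fun h1 => h𝔭.ne_top ((Ideal.eq_top_iff_one _).2 h1), by simp⟩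
  | add x y _ _ hx hy =>
    obtain ⟨s, hs, hd⟩ := hx
    obtain ⟨s', hs', hd'⟩ := hy
    refine ⟨s * s', fun hmem => (h𝔭.mem_or_mem hmem).elim hs hs', ?_⟩
    rw [map_mul, mul_add]
    refine dvd_add ?_ ?_
    · rw [mul_right_comm]; exact Dvd.dvd.mul_right hd _
    · rw [mul_assoc]; exact Dvd.dvd.mul_left hd' _
  | smul a x _ hx =>
    obtain ⟨s, hs, hd⟩ := hx
    exact ⟨s, hs, by rw [smul_eq_mul, mul_left_comm]; exact Dvd.dvd.mul_left hd _⟩

/-- **local generation of `𝔓_i` by `lam`.** -/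
theorem s44me_P_gen [h𝔭 : 𝔭.IsPrime] (h : s44me_Gen E P0 eps) (hs : s44me_Split P0 𝔭 r) {lam : S}
    (hgen : ∀ z ∈ 𝔭, ∃ s : S, s ∉ 𝔭 ∧ lam ∣ s * z) (i : ι)
    (t : ↥(integralClosure S LL)) (ht : t ∈ s44me_P h hs i) :
    ∃ s : ↥(integralClosure S LL), s ∉ s44me_P h hs i ∧
      algebraMap S ↥(integralClosure S LL) lam ∣ s * t := by
  classical
  haveI hP := s44me_P_isPrime h hs i
  obtain ⟨a, z, hz, rfl⟩ := (s44me_mem_P_iff h hs i t).1 ht
  set s0 : ↥(integralClosure S LL) :=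
    ∏ j ∈ Finset.univ.erase i, (s44me_e h - algebraMap S _ (r j)) with hs0
  have hs0P : s0 ∉ s44me_P h hs i := by
    rw [hs0, Ideal.IsPrime.prod_mem_iff]
    rintro ⟨j, hj, hmem⟩
    exact s44me_e_sub_not_mem_P h𝔭.ne_top h hs (Finset.ne_of_mem_erase hj).symm hmem
  have hprod : (s44me_e h - algebraMap S _ (r i)) * s0 =
      ∏ j, (s44me_e h - algebraMap S ↥(integralClosure S LL) (r j)) := by
    rw [hs0]
    exact Finset.mul_prod_erase Finset.univ
      (fun j => s44me_e h - algebraMap S ↥(integralClosure S LL) (r j)) (Finset.mem_univ i)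
  obtain ⟨s1, hs1, hd1⟩ := s44me_map_gen hgen _ (s44me_prod_mem_map h hs)
  obtain ⟨s2, hs2, hd2⟩ := hgen z hz
  refine ⟨algebraMap S _ s1 * s0 * algebraMap S _ s2, ?_, ?_⟩
  · intro hmem
    rcases hP.mem_or_mem hmem with h1 | h1
    · rcases hP.mem_or_mem h1 with h2 | h2
      · exact hs1 ((s44me_algebraMap_mem_P h hs i s1).1 h2)
      · exact hs0P h2
    · exact hs2 ((s44me_algebraMap_mem_P h hs i s2).1 h1)
  · have e1 : algebraMap S ↥(integralClosure S LL) s1 * s0 * algebraMap S _ s2 *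
        ((s44me_e h - algebraMap S _ (r i)) * a + algebraMap S _ z) =
        algebraMap S _ s2 * a * (algebraMap S _ s1 *
          ((s44me_e h - algebraMap S _ (r i)) * s0)) +
        algebraMap S _ s1 * s0 * algebraMap S _ (s2 * z) := by
      rw [map_mul]; ring
    rw [e1, hprod]
    exact dvd_add (Dvd.dvd.mul_left hd1 _) (Dvd.dvd.mul_left (map_dvd _ hd2) _)

end Branch

section Node

variable {S : Type*} [CommRing S] [IsDomain S] [IsIntegrallyClosed S] [IsNoetherianRing S]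
  [IsLocalRing S]
  {E : Type*} [Field E] [Algebra S E] [IsFractionRing S E]
  {LL : Type*} [Field LL] [Algebra E LL] [Algebra S LL] [IsScalarTower S E LL]
  [FiniteDimensional E LL] [Algebra.IsSeparable E LL]
  {P0 : S[X]} {eps : LL}
  {𝔭 : Ideal S} {ι : Type*} [Fintype ι] {r : ι → S}
  (h : s44me_Gen E P0 eps) (hs : s44me_Split P0 𝔭 r)
  (NN : Ideal ↥(integralClosure S LL)) [hNN : NN.IsMaximal]
  (R : Type*) [CommRing R] [Algebra ↥(integralClosure S LL) R] [hloc : IsLocalization.AtPrime R NN]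
  [Algebra S R] [IsScalarTower S ↥(integralClosure S LL) R]

/-- exactly one sheet prime over `𝔭` lies in the maximal ideal `𝔑`: existence. -/
theorem s44me_exists_sheet (h𝔭 : 𝔭 ≠ ⊤) : ∃ i, s44me_P h hs i ≤ NN := by
  haveI : NN.IsPrime := hNN.isPrime
  apply s44me_exists_P_le h hs NN
  rw [Ideal.map_le_iff_le_comap, s44me_comap_max NN]
  exact IsLocalRing.le_maximalIdeal h𝔭

theorem s44me_sheet_unique {i j : ι} (hi : s44me_P h hs i ≤ NN) (hj : s44me_P h hs j ≤ NN) :
    i = j :=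
  s44me_P_le_unique h hs NN hNN.ne_top hi hj

variable {i : ι} (hle : s44me_P h hs i ≤ NN)

include hle in
theorem s44me_disjoint : Disjoint (NN.primeCompl : Set ↥(integralClosure S LL))
    (s44me_P h hs i : Set ↥(integralClosure S LL)) :=
  Set.disjoint_left.2 fun x hx hxP => hx (hle hxP)

include hle hloc in
/-- the localised sheet prime is prime. -/
theorem s44me_PR_isPrime [h𝔭 : 𝔭.IsPrime] :
    ((s44me_P h hs i).map (algebraMap ↥(integralClosure S LL) R)).IsPrime :=
  IsLocalization.isPrime_of_isPrime_disjoint NN.primeCompl R _ (s44me_P_isPrime h hs i)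
    (s44me_disjoint h hs NN hle)

include hle hloc in
theorem s44me_algebraMap_mem_PR [h𝔭 : 𝔭.IsPrime] (t : ↥(integralClosure S LL)) :
    algebraMap ↥(integralClosure S LL) R t ∈
      (s44me_P h hs i).map (algebraMap ↥(integralClosure S LL) R) ↔ t ∈ s44me_P h hs i := by
  have hu := IsLocalization.under_map_of_isPrime_disjoint NN.primeCompl R
    (s44me_P_isPrime h hs i) (s44me_disjoint h hs NN hle)
  constructor
  · intro ht
    rw [← hu]
    exact ht
  · intro ht
    exact Ideal.mem_map_of_mem _ ht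

include hle hloc in
theorem s44me_algebraMapS_mem_PR [h𝔭 : 𝔭.IsPrime] (s : S) :
    algebraMap S R s ∈ (s44me_P h hs i).map (algebraMap ↥(integralClosure S LL) R) ↔ s ∈ 𝔭 := by
  rw [IsScalarTower.algebraMap_apply S ↥(integralClosure S LL) R,
    s44me_algebraMap_mem_PR h hs NN R hle, s44me_algebraMap_mem_P]

include hle hloc in
/-- a prime of `R` lying over a prime containing `𝔭` contains the localised sheet prime. -/
theorem s44me_PR_le (𝔮 : Ideal R) [h𝔮 : 𝔮.IsPrime] (h𝔭𝔮 : 𝔭 ≤ 𝔮.comap (algebraMap S R)) :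
    (s44me_P h hs i).map (algebraMap ↥(integralClosure S LL) R) ≤ 𝔮 := by
  set 𝔮T := 𝔮.comap (algebraMap ↥(integralClosure S LL) R) with h𝔮T
  haveI : 𝔮T.IsPrime := Ideal.comap_isPrime _ _
  have h1 : 𝔭.map (algebraMap S ↥(integralClosure S LL)) ≤ 𝔮T := by
    rw [Ideal.map_le_iff_le_comap]
    intro s hs'
    have := h𝔭𝔮 hs'
    rw [Ideal.mem_comap] at this ⊢
    rw [h𝔮T, Ideal.mem_comap, ← IsScalarTower.algebraMap_apply]
    exact this
  obtain ⟨j, hj⟩ := s44me_exists_P_le h hs 𝔮T h1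
  have h2 : 𝔮T ≤ NN := by
    intro t ht
    by_contra htN
    have hu : IsUnit (algebraMap ↥(integralClosure S LL) R t) :=
      IsLocalization.map_units R (⟨t, htN⟩ : NN.primeCompl)
    exact h𝔮.ne_top (Ideal.eq_top_of_isUnit_mem _ ht hu)
  have hji : j = i := s44me_sheet_unique h hs NN (hj.trans h2) hle
  subst hji
  rw [Ideal.map_le_iff_le_comap]
  exact hj

include hle hloc in
/-- **local generation of the localised sheet prime by `lam`.** -/
theorem s44me_PR_gen [h𝔭 : 𝔭.IsPrime] {lam : S}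
    (hgen : ∀ z ∈ 𝔭, ∃ s : S, s ∉ 𝔭 ∧ lam ∣ s * z) (z : R)
    (hz : z ∈ (s44me_P h hs i).map (algebraMap ↥(integralClosure S LL) R)) :
    ∃ s : R, s ∉ (s44me_P h hs i).map (algebraMap ↥(integralClosure S LL) R) ∧
      algebraMap S R lam ∣ s * z := by
  haveI hP := s44me_P_isPrime h hs i
  obtain ⟨⟨⟨t, ht⟩, ⟨w, hw⟩⟩, e⟩ := (IsLocalization.mem_map_algebraMap_iff NN.primeCompl R).1 hz
  simp only at e
  obtain ⟨s1, hs1, hd⟩ := s44me_P_gen h hs hgen i t ht
  refine ⟨algebraMap ↥(integralClosure S LL) R (s1 * w), ?_, ?_⟩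
  · rw [s44me_algebraMap_mem_PR h hs NN R hle]
    intro hmem
    rcases hP.mem_or_mem hmem with h1 | h1
    · exact hs1 h1
    · exact hw (hle h1)
  · have e1 : algebraMap ↥(integralClosure S LL) R (s1 * w) * z =
        algebraMap ↥(integralClosure S LL) R (s1 * t) := by
      rw [map_mul, map_mul, mul_assoc, mul_comm _ z, e]
    rw [e1, IsScalarTower.algebraMap_apply S ↥(integralClosure S LL) R]
    exact map_dvd _ hd

include hle hloc in
/-- **the localised sheet prime has height one.** -/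
theorem s44me_PR_height [h𝔭 : 𝔭.IsPrime] [IsDomain R] [IsNoetherianRing R]
    (h1 : 𝔭.height = 1) {lam : S} (hlam : lam ∈ 𝔭) (hlam0 : lam ≠ 0) :
    ((s44me_P h hs i).map (algebraMap ↥(integralClosure S LL) R)).height = 1 := by
  haveI hPR := s44me_PR_isPrime h hs NN R hle
  set PR := (s44me_P h hs i).map (algebraMap ↥(integralClosure S LL) R) with hPRdef
  have hinjT : Function.Injective (algebraMap ↥(integralClosure S LL) R) :=
    IsLocalization.injective R NN.primeCompl_le_nonZeroDivisors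
  have hinjSLL : Function.Injective (algebraMap S LL) := by
    rw [IsScalarTower.algebraMap_eq S E LL]
    exact (algebraMap E LL).injective.comp (IsFractionRing.injective S E)
  have hinjS : Function.Injective (algebraMap S ↥(integralClosure S LL)) := by
    intro a b hab
    apply hinjSLL
    have := congrArg (algebraMap ↥(integralClosure S LL) LL) hab
    rwa [← IsScalarTower.algebraMap_apply, ← IsScalarTower.algebraMap_apply] at this
  have hlamR : algebraMap S R lam ∈ PR := (s44me_algebraMapS_mem_PR h hs NN R hle lam).2 hlam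
  have hlamR0 : algebraMap S R lam ≠ 0 := by
    rw [IsScalarTower.algebraMap_apply S ↥(integralClosure S LL) R]
    intro h0
    exact hlam0 (hinjS (hinjT (by rw [h0, map_zero, map_zero])))
  apply le_antisymm
  · apply Ideal.height_le_one_of_isPrincipal_of_mem_minimalPrimes
      (Ideal.span {algebraMap S R lam}) PR
    refine ⟨⟨hPR, (Ideal.span_singleton_le_iff_mem _).2 hlamR⟩, ?_⟩
    rintro Q ⟨hQ, hQlam⟩ hQle
    haveI := hQ
    rw [Ideal.span_singleton_le_iff_mem] at hQlam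
    set Q0 := Q.comap (algebraMap S R) with hQ0
    haveI : Q0.IsPrime := Ideal.comap_isPrime _ _
    have hQ0ne : Q0 ≠ ⊥ := by
      intro hbot
      have : lam ∈ Q0 := hQlam
      rw [hbot, Ideal.mem_bot] at this
      exact hlam0 this
    have hQ0le : Q0 ≤ 𝔭 := by
      intro s hs'
      exact (s44me_algebraMapS_mem_PR h hs NN R hle s).1 (hQle hs')
    have hQ0 : Q0 = 𝔭 := ssl_eq_of_le_of_ne_bot hQ0ne h1 hQ0le
    exact s44me_PR_le h hs NN R hle Q hQ0.ge
  · rw [Order.one_le_iff_pos, pos_iff_ne_zero, Ne, Ideal.height_eq_zero_iff_eq_bot]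
    intro hbot
    rw [hbot, Ideal.mem_bot] at hlamR
    exact hlamR0 hlamR

include hle hloc in
/-- **residue degree one**: `S ⧸ 𝔭 → R ⧸ 𝔓R` is surjective. -/
theorem s44me_PR_res_surj [h𝔭 : 𝔭.IsPrime] (z : R) :
    ∃ s : S, z - algebraMap S R s ∈
      (s44me_P h hs i).map (algebraMap ↥(integralClosure S LL) R) := by
  obtain ⟨⟨t, ⟨w, hw⟩⟩, e⟩ := IsLocalization.surj NN.primeCompl z
  simp only at e
  obtain ⟨st, hst⟩ := s44me_phi_exists h hs i t
  obtain ⟨sw, hsw⟩ := s44me_phi_exists h hs i w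
  -- `sw` is a unit of `S`
  have hswu : IsUnit sw := by
    by_contra hnu
    have hm : sw ∈ IsLocalRing.maximalIdeal S := (IsLocalRing.mem_maximalIdeal sw).2 hnu
    rw [← s44me_comap_max NN, Ideal.mem_comap] at hm
    have h1 : w - algebraMap S _ sw ∈ s44me_P h hs i := by
      rw [s44me_mem_P, map_sub, hsw, s44me_phi_algebraMap, sub_self]
    have h2 := NN.add_mem (hle h1) hm
    rw [sub_add_cancel] at h2
    exact hw h2
  obtain ⟨swi, hswi⟩ := hswu.exists_right_inv
  obtain ⟨c, hc⟩ : ∃ c : S, c = st * swi := ⟨_, rfl⟩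
  refine ⟨c, ?_⟩
  have hnum : t - algebraMap S _ c * w ∈ s44me_P h hs i := by
    rw [s44me_mem_P, map_sub, map_mul, hst, hsw, s44me_phi_algebraMap, ← map_mul, ← map_sub]
    rw [Ideal.Quotient.eq_zero_iff_mem]
    have : st - c * sw = 0 := by
      rw [hc, mul_assoc, mul_comm swi sw, hswi, mul_one, sub_self]
    rw [this]
    exact Ideal.zero_mem _
  have hwu : IsUnit (algebraMap ↥(integralClosure S LL) R w) :=
    IsLocalization.map_units R (⟨w, hw⟩ : NN.primeCompl)
  obtain ⟨wi, hwi⟩ := hwu.exists_right_inv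
  have e3 : algebraMap ↥(integralClosure S LL) R (t - algebraMap S _ c * w) =
      z * algebraMap ↥(integralClosure S LL) R w -
        algebraMap S R c * algebraMap ↥(integralClosure S LL) R w := by
    rw [map_sub, map_mul, ← IsScalarTower.algebraMap_apply, e]
  have e2 : z - algebraMap S R c =
      algebraMap ↥(integralClosure S LL) R (t - algebraMap S _ c * w) * wi := by
    rw [e3, ← sub_mul, mul_assoc, hwi, mul_one]
  rw [e2]
  exact Ideal.mul_mem_right _ _ (Ideal.mem_map_of_mem _ hnum)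

include E hloc in
omit [IsNoetherianRing S] in
theorem s44me_algebraMapSR_injective : Function.Injective (algebraMap S R) := by
  have hinjT : Function.Injective (algebraMap ↥(integralClosure S LL) R) :=
    IsLocalization.injective R NN.primeCompl_le_nonZeroDivisors
  have hinjSLL : Function.Injective (algebraMap S LL) := by
    rw [IsScalarTower.algebraMap_eq S E LL]
    exact (algebraMap E LL).injective.comp (IsFractionRing.injective S E)
  have hinjS : Function.Injective (algebraMap S ↥(integralClosure S LL)) := by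
    intro a b hab
    apply hinjSLL
    have := congrArg (algebraMap ↥(integralClosure S LL) LL) hab
    rwa [← IsScalarTower.algebraMap_apply, ← IsScalarTower.algebraMap_apply] at this
  rw [IsScalarTower.algebraMap_eq S ↥(integralClosure S LL) R]
  exact hinjT.comp hinjS

include hle in
/-- the maximal ideal of `T` containing a given sheet prime is unique. -/
theorem s44me_max_unique (NN' : Ideal ↥(integralClosure S LL)) [hNN' : NN'.IsMaximal]
    (hle' : s44me_P h hs i ≤ NN') : NN = NN' := by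
  refine hNN.eq_of_le hNN'.ne_top fun t ht => ?_
  obtain ⟨s, hs'⟩ := s44me_phi_exists h hs i t
  have h1 : t - algebraMap S _ s ∈ s44me_P h hs i := by
    rw [s44me_mem_P, map_sub, hs', s44me_phi_algebraMap, sub_self]
  have hsm : s ∈ IsLocalRing.maximalIdeal S := by
    rw [← s44me_comap_max NN, Ideal.mem_comap]
    have := NN.sub_mem ht (hle h1)
    rwa [sub_sub_cancel] at this
  rw [← s44me_comap_max NN', Ideal.mem_comap] at hsm
  have := NN'.add_mem (hle' h1) hsm
  rwa [sub_add_cancel] at this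

end Node

section Main

variable {S : Type*} [CommRing S] [IsDomain S] [IsIntegrallyClosed S] [IsNoetherianRing S]
  [IsLocalRing S]
  {E : Type*} [Field E] [Algebra S E] [IsFractionRing S E]
  {LL : Type*} [Field LL] [Algebra E LL] [Algebra S LL] [IsScalarTower S E LL]
  [FiniteDimensional E LL] [Algebra.IsSeparable E LL]
  {P0 : S[X]} {eps : LL}
  {lam u v : S} {m : ℕ} {𝔭₁ 𝔭₂ : Ideal S}
  {ι₁ ι₂ : Type*} [Fintype ι₁] [Fintype ι₂] {r₁ : ι₁ → S} {r₂ : ι₂ → S}
  (h : s44me_Gen E P0 eps) (hN : s44n_Node lam u v m 𝔭₁ 𝔭₂)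
  (hs₁ : s44me_Split P0 𝔭₁ r₁) (hs₂ : s44me_Split P0 𝔭₂ r₂)
  (NN : Ideal ↥(integralClosure S LL)) [hNN : NN.IsMaximal]
  (R : Type*) [CommRing R] [Algebra ↥(integralClosure S LL) R] [hloc : IsLocalization.AtPrime R NN]
  [Algebra S R] [IsScalarTower S ↥(integralClosure S LL) R] [IsDomain R] [IsNoetherianRing R]
  {i₁ : ι₁} {i₂ : ι₂} (hle₁ : s44me_P h hs₁ i₁ ≤ NN) (hle₂ : s44me_P h hs₂ i₂ ≤ NN)

include hN hle₁ hle₂ hloc in
/-- **(3) NODE TRANSFER**: the local ring `R = T_𝔑` of the étale cover at a point over the node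
carries the node `u v = lam ^ m · unit` with branches the two sheet primes through `𝔑`. -/
theorem s44me_node :
    s44n_Node (algebraMap S R lam) (algebraMap S R u) (algebraMap S R v) m
      ((s44me_P h hs₁ i₁).map (algebraMap ↥(integralClosure S LL) R))
      ((s44me_P h hs₂ i₂).map (algebraMap ↥(integralClosure S LL) R)) := by
  haveI := hN.prime₁
  haveI := hN.prime₂
  have hlam0 : lam ≠ 0 := s44n_lam_ne_zero hN
  have hinj := s44me_algebraMapSR_injective (E := E) NN R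
  have hlamR0 : algebraMap S R lam ≠ 0 := fun h0 => hlam0 (hinj (by rw [h0, map_zero]))
  haveI hP₁ := s44me_PR_isPrime h hs₁ NN R hle₁
  haveI hP₂ := s44me_PR_isPrime h hs₂ NN R hle₂
  have hl₁ := (s44me_algebraMapS_mem_PR h hs₁ NN R hle₁ lam).2 hN.lam_mem₁
  have hl₂ := (s44me_algebraMapS_mem_PR h hs₂ NN R hle₂ lam).2 hN.lam_mem₂
  refine
    { prime₁ := hP₁
      prime₂ := hP₂
      height₁ := s44me_PR_height h hs₁ NN R hle₁ hN.height₁ hN.lam_mem₁ hlam0
      height₂ := s44me_PR_height h hs₂ NN R hle₂ hN.height₂ hN.lam_mem₂ hlam0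
      lam_mem₁ := hl₁
      lam_mem₂ := hl₂
      gen₁ := s44me_PR_gen h hs₁ NN R hle₁ hN.gen₁
      gen₂ := s44me_PR_gen h hs₂ NN R hle₂ hN.gen₂
      vert := ?_
      u_not_mem₂ := fun hmem =>
        hN.u_not_mem₂ ((s44me_algebraMapS_mem_PR h hs₂ NN R hle₂ u).1 hmem)
      v_not_mem₁ := fun hmem =>
        hN.v_not_mem₁ ((s44me_algebraMapS_mem_PR h hs₁ NN R hle₁ v).1 hmem)
      mul_eq := ?_ }
  · intro 𝔮 h𝔮 h𝔮1 hlam𝔮
    haveI := h𝔮
    set 𝔮0 := 𝔮.comap (algebraMap S R) with h𝔮0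
    haveI : 𝔮0.IsPrime := Ideal.comap_isPrime _ _
    have hspan : Ideal.span {lam} ≤ 𝔮0 := (Ideal.span_singleton_le_iff_mem _).2 hlam𝔮
    obtain ⟨p, hp, hp𝔮⟩ := Ideal.exists_minimalPrimes_le hspan
    haveI hpp : p.IsPrime := hp.1.1
    have hlamp : lam ∈ p := (Ideal.span_singleton_le_iff_mem _).1 hp.1.2
    have hp1 : p.height = 1 := by
      apply le_antisymm
      · exact Ideal.height_le_one_of_isPrincipal_of_mem_minimalPrimes (Ideal.span {lam}) p hp
      · rw [Order.one_le_iff_pos, pos_iff_ne_zero, Ne, Ideal.height_eq_zero_iff_eq_bot]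
        intro hbot
        rw [hbot, Ideal.mem_bot] at hlamp
        exact hlam0 hlamp
    rcases hN.vert p hpp hp1 hlamp with rfl | rfl
    · left
      have hle := s44me_PR_le h hs₁ NN R hle₁ 𝔮 hp𝔮
      have hne : (s44me_P h hs₁ i₁).map (algebraMap ↥(integralClosure S LL) R) ≠ ⊥ := by
        intro hbot
        rw [hbot, Ideal.mem_bot] at hl₁
        exact hlamR0 hl₁
      exact (ssl_eq_of_le_of_ne_bot hne h𝔮1 hle).symm
    · right
      have hle := s44me_PR_le h hs₂ NN R hle₂ 𝔮 hp𝔮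
      have hne : (s44me_P h hs₂ i₂).map (algebraMap ↥(integralClosure S LL) R) ≠ ⊥ := by
        intro hbot
        rw [hbot, Ideal.mem_bot] at hl₂
        exact hlamR0 hl₂
      exact (ssl_eq_of_le_of_ne_bot hne h𝔮1 hle).symm
  · obtain ⟨ε, hε⟩ := hN.mul_eq
    refine ⟨Units.map (algebraMap S R : S →* R) ε, ?_⟩
    rw [← map_mul, hε, map_mul, map_pow]
    rfl

include hN in
/-- **(3')** existence form: every maximal ideal `𝔑` of `T` contains exactly one sheet prime over
each branch, and the node transfers. -/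
theorem s44me_node_exists :
    ∃ (i₁ : ι₁) (i₂ : ι₂), s44me_P h hs₁ i₁ ≤ NN ∧ s44me_P h hs₂ i₂ ≤ NN ∧
      (∀ j, s44me_P h hs₁ j ≤ NN → j = i₁) ∧ (∀ j, s44me_P h hs₂ j ≤ NN → j = i₂) := by
  obtain ⟨i₁, hi₁⟩ := s44me_exists_sheet h hs₁ NN hN.prime₁.ne_top
  obtain ⟨i₂, hi₂⟩ := s44me_exists_sheet h hs₂ NN hN.prime₂.ne_top
  exact ⟨i₁, i₂, hi₁, hi₂, fun j hj => s44me_sheet_unique h hs₁ NN hj hi₁,
    fun j hj => s44me_sheet_unique h hs₂ NN hj hi₂⟩

end Main

end Fermat.Agent.S44
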