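/-
S44, cell [H2-C] ETALE-SHEET, part 3 (helper26): producers of the splitting datum `s44me_Split`.

* `s44me_split_of_roots` : a monic `P0` of degree `card ι` with roots `r i` modulo the prime `𝔭`,
  pairwise distinct modulo `𝔪_S`, splits modulo `𝔭`;
* `s44me_split_AS`       : the Artin–Schreier shape: roots `r0 + j`, `j < p`, `p ∈ 𝔪_S`.
Prefix `s44me_`.
-/
import Mathlib
import Fermat.Agent.S44.Mono.EtSheet

set_option autoImplicit false
set_option linter.unusedSectionVars false
set_option linter.unusedVariables false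
set_option linter.style.haveILetI false

noncomputable section

namespace Fermat.Agent.S44

open Polynomial

section Split

variable {S : Type*} [CommRing S] [IsLocalRing S] {P0 : S[X]} {𝔭 : Ideal S}

/-- a monic polynomial with as many roots modulo `𝔭` (pairwise distinct modulo `𝔪_S`) as its degree
splits modulo `𝔭`. -/
theorem s44me_split_of_roots [h𝔭 : 𝔭.IsPrime] {ι : Type*} [Fintype ι] (r : ι → S)
    (hmonic : P0.Monic) (hdeg : P0.natDegree = Fintype.card ι)
    (hroot : ∀ i, P0.eval (r i) ∈ 𝔭)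
    (hdist : ∀ i j, i ≠ j → r i - r j ∉ IsLocalRing.maximalIdeal S) :
    s44me_Split P0 𝔭 r := by
  classical
  refine ⟨?_, hdist⟩
  set f := Ideal.Quotient.mk 𝔭 with hf
  have hinj : Function.Injective (fun i => f (r i)) := by
    intro i j hij
    by_contra hne
    apply hdist i j hne
    have h1 : f (r i - r j) = 0 := by rw [map_sub]; exact sub_eq_zero.2 hij
    rw [hf, Ideal.Quotient.eq_zero_iff_mem] at h1
    exact IsLocalRing.le_maximalIdeal h𝔭.ne_top h1
  set s : Multiset (S ⧸ 𝔭) := (Finset.univ : Finset ι).val.map (fun i => f (r i)) with hsdef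
  have hnodup : s.Nodup := (Multiset.nodup_map_iff_of_injective hinj).2 Finset.univ.nodup
  have hPb_monic : (P0.map f).Monic := hmonic.map f
  have hPb0 : P0.map f ≠ 0 := hPb_monic.ne_zero
  have hle : s ≤ (P0.map f).roots := by
    rw [Multiset.le_iff_subset hnodup]
    intro x hx
    rw [hsdef, Multiset.mem_map] at hx
    obtain ⟨i, -, rfl⟩ := hx
    rw [mem_roots hPb0, IsRoot.def, eval_map, eval₂_at_apply, hf,
      Ideal.Quotient.eq_zero_iff_mem]
    exact hroot i
  have hdvd := (Multiset.prod_X_sub_C_dvd_iff_le_roots hPb0 s).2 hle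
  have hPi : (s.map fun a => X - C a).prod = (∏ i, (X - C (r i))).map f := by
    rw [hsdef, Multiset.map_map, Polynomial.map_prod]
    rw [Finset.prod_eq_multiset_prod]
    congr 1
    refine Multiset.map_congr rfl fun i _ => ?_
    simp only [Function.comp_apply, Polynomial.map_sub, map_X, map_C]
  have hPimonic : (s.map fun a => X - C a).prod.Monic := monic_multisetProd_X_sub_C s
  have hPideg : (s.map fun a => X - C a).prod.natDegree = Fintype.card ι := by
    rw [natDegree_multiset_prod_X_sub_C_eq_card, hsdef, Multiset.card_map]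
    rfl
  have heq : (s.map fun a => X - C a).prod = P0.map f :=
    (eq_of_monic_of_dvd_of_natDegree_le hPimonic hPb_monic hdvd
      (by rw [hPideg, hmonic.natDegree_map, hdeg])).symm
  refine ⟨P0 - ∏ i, (X - C (r i)), fun n => ?_, by ring⟩
  rw [← Ideal.Quotient.eq_zero_iff_mem, ← hf, ← coeff_map, Polynomial.map_sub, ← hPi, heq, sub_self,
    coeff_zero]

/-- **the Artin–Schreier shape**: roots `r0 + j`, `j < p`. -/
theorem s44me_split_AS [h𝔭 : 𝔭.IsPrime] {p : ℕ} (hp : p.Prime)
    (hpm : (p : S) ∈ IsLocalRing.maximalIdeal S)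
    (hmonic : P0.Monic) (hdeg : P0.natDegree = p) (r0 : S)
    (hroot : ∀ j : ℕ, P0.eval (r0 + j) ∈ 𝔭) :
    s44me_Split P0 𝔭 (fun j : Fin p => r0 + ((j : ℕ) : S)) := by
  refine s44me_split_of_roots _ hmonic (by rw [hdeg, Fintype.card_fin]) (fun j => hroot j) ?_
  intro i j hij hmem
  have e1 : r0 + ((i : ℕ) : S) - (r0 + ((j : ℕ) : S)) = (((i : ℕ) : ℤ) - ((j : ℕ) : ℤ) : ℤ) := by
    push_cast; ring
  rw [e1] at hmem
  set d : ℤ := ((i : ℕ) : ℤ) - ((j : ℕ) : ℤ) with hd
  have hdp : ¬ (p : ℤ) ∣ d := by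
    intro hdvd
    apply hij
    have hi := i.2
    have hj := j.2
    have h1 : ((j : ℕ) : ℤ) ≡ ((i : ℕ) : ℤ) [ZMOD (p : ℤ)] := Int.modEq_iff_dvd.2 hdvd
    have h2 : (j : ℕ) ≡ (i : ℕ) [MOD p] := Int.natCast_modEq_iff.1 h1
    exact Fin.ext (Nat.ModEq.eq_of_lt_of_lt h2 hj hi).symm
  have hcop : IsCoprime d (p : ℤ) :=
    (Int.isCoprime_iff_gcd_eq_one.2 (by
      have := (Nat.Prime.coprime_iff_not_dvd hp).2 (fun h => hdp (Int.natCast_dvd.2 h))
      rw [Int.gcd_comm]
      exact this))
  obtain ⟨a, b, hab⟩ := hcop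
  have h1 : ((a * d + b * (p : ℤ) : ℤ) : S) = 1 := by rw [hab]; simp
  have h2 : ((a * d + b * (p : ℤ) : ℤ) : S) ∈ IsLocalRing.maximalIdeal S := by
    push_cast
    exact Ideal.add_mem _ (Ideal.mul_mem_left _ _ hmem) (Ideal.mul_mem_left _ _ hpm)
  rw [h1] at h2
  exact (IsLocalRing.maximalIdeal.isMaximal S).ne_top ((Ideal.eq_top_iff_one _).2 h2)

end Split

end Fermat.Agent.S44
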