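/-
S44 project, cell [H2-CI] (helper16): THE INPUTS OF THE NODE TRANSFER `s44me_node` (helper26,
`Mono/EtSheet.lean`) AT A NODE, abstract form.  Prefix `s44mci_`.

`S` a noetherian integrally closed local domain with node data `N : s44tl_NodeData π 𝔮 u k`,
`E = Frac S`, `LL = E(y)`, `y ^ p = f`, `[LL : E] = p`; `λ = π ^ m u₀` with `(1 + λ) ^ p = 1`,
`p = λ ^ (p - 1) w`, `w ∈ Sˣ`; `f = D ^ p (1 + λ ^ p H)`, `H ∈ S` (local étale form, (T-LOC)) and
`f = G ^ p (1 + π ^ n b)`, `n ≥ p m + 1`, `b ∈ S_{𝔮 β}` for both branches (global split form).  Then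
with `P := P0 - H` (Artin–Schreier polynomial) and `ε := (y / D - 1) / λ`:

  `s44mci_sheet` : `s44me_Gen E P ε`, `s44n_Node π (u true) (u false) k (𝔮 false) (𝔮 true)`,
                   `s44me_Split P (𝔮 false) (r₁ + ·)`, `s44me_Split P (𝔮 true) (r₂ + ·)`.
-/
import Mathlib
import Fermat.Agent.S44.Mono.CINode
import Fermat.Agent.S44.Mono.CIGen
import Fermat.Agent.S44.Mono.CIRoots
import Fermat.Agent.S44.Mono.EtSplit

set_option autoImplicit false
set_option linter.unusedSectionVars false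
set_option linter.style.haveILetI false
set_option linter.unusedVariables false

noncomputable section

namespace Fermat.Agent.S44

open Fermat.Agent.SS IsLocalRing Polynomial

section sheet

variable {S : Type*} [CommRing S] [IsDomain S] [IsNoetherianRing S] [IsIntegrallyClosed S]
  [IsLocalRing S] {E : Type*} [Field E] [Algebra S E] [IsFractionRing S E]
  {LL : Type*} [Field LL] [Algebra E LL] [Algebra S LL] [IsScalarTower S E LL]
  [FiniteDimensional E LL]
  {π : S} {𝔮 : Bool → Ideal S} {u : Bool → S} {k : ℕ}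

/-- **the inputs of the node transfer at a node.** -/
theorem s44mci_sheet (N : s44tl_NodeData π 𝔮 u k) {p m n : ℕ} (hp : p.Prime) (hm : 0 < m)
    (hn : p * m + 1 ≤ n) {lam u0 u0' w w' : S} (hlam : lam = π ^ m * u0)
    (hu0 : u0 * u0' = 1) (hζ : (1 + lam) ^ p = 1) (hlam0 : lam ≠ 0)
    (hpe : (p : S) = lam ^ (p - 1) * w) (hw : w * w' = 1) {f D G b : E} {H : S}
    (hD : D ≠ 0) (hb : ∀ β, ssl_MemAt E (𝔮 β) b)
    (hfD : f = D ^ p * (1 + algebraMap S E lam ^ p * algebraMap S E H))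
    (hfG : f = G ^ p * (1 + algebraMap S E π ^ n * b)) {y : LL}
    (hy : y ^ p = algebraMap E LL f) (hfin : Module.finrank E LL = p)
    (hgen : Algebra.adjoin E ({y} : Set LL) = ⊤) :
    ∃ (P : S[X]) (r₁ r₂ : S), P.Monic ∧ P.natDegree = p ∧
      (1 + algebraMap S LL lam * s44mci_eps lam D y = y / algebraMap E LL D) ∧
      s44me_Gen E P (s44mci_eps lam D y) ∧
      s44n_Node π (u true) (u false) k (𝔮 false) (𝔮 true) ∧
      s44me_Split P (𝔮 false) (fun j : Fin p => r₁ + (((j : ℕ) : S))) ∧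
      s44me_Split P (𝔮 true) (fun j : Fin p => r₂ + (((j : ℕ) : S))) := by
  haveI := N.prime
  have hπ0 : π ≠ 0 := by
    rintro rfl
    apply hlam0
    rw [hlam, zero_pow hm.ne', zero_mul]
  have hπmax : π ∈ maximalIdeal S := le_maximalIdeal (N.prime true).ne_top (N.π_mem true)
  have hlammax : lam ∈ maximalIdeal S := by
    rw [hlam]
    exact Ideal.mul_mem_right _ _ (Ideal.pow_mem_of_mem _ hπmax m hm)
  have hpmax : (p : S) ∈ maximalIdeal S := by
    rw [hpe]
    have h2 : 0 < p - 1 := by have := hp.two_le; omega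
    exact Ideal.mul_mem_right _ _ (Ideal.pow_mem_of_mem _ hlammax _ h2)
  -- the Artin–Schreier polynomial
  obtain ⟨P0, hP0, -, -, hmon⟩ := s44g_AS hp lam w hpe
  obtain ⟨hmonic, hdeg⟩ := hmon inferInstance (mem_nonZeroDivisors_of_ne_zero hlam0)
  have hmonic' : (P0 - C H).Monic := by
    apply hmonic.sub_of_left
    rw [degree_eq_natDegree hmonic.ne_zero, hdeg]
    exact lt_of_le_of_lt degree_C_le (by exact_mod_cast hp.pos)
  have hdeg' : (P0 - C H).natDegree = p := by
    rw [natDegree_sub_eq_left_of_natDegree_lt, hdeg]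
    rw [natDegree_C, hdeg]; exact hp.pos
  -- `1 + λ ^ p H` is a unit
  have hη : IsUnit (1 + lam ^ p * H) := by
    by_contra hnu
    have h4 : (1 + lam ^ p * H) ∈ maximalIdeal S := (mem_maximalIdeal _).2 hnu
    have h5 : lam ^ p * H ∈ maximalIdeal S :=
      Ideal.mul_mem_right _ _ (Ideal.pow_mem_of_mem _ hlammax p hp.pos)
    have h6 := Ideal.sub_mem _ h4 h5
    rw [add_sub_cancel_right] at h6
    exact (mem_maximalIdeal _).1 h6 isUnit_one
  obtain ⟨η', hηη⟩ := isUnit_iff_exists_inv.1 hη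
  have hy' : y ^ p = algebraMap E LL D ^ p * algebraMap S LL (1 + lam ^ p * H) := by
    rw [hy, hfD, map_mul, map_pow, IsScalarTower.algebraMap_apply S E LL]
    simp only [map_add, map_one, map_mul, map_pow]
  have hGen := s44mci_gen hp hlam0 hpe hw hP0 hmonic hdeg hD hηη hy' hfin hgen
  -- the roots on the branches
  have hroots : ∀ β : Bool, ∃ r : S, ∀ j : ℕ, (P0 - C H).eval (r + (j : S)) ∈ 𝔮 β := by
    intro β
    haveI : IsIntegrallyClosed (S ⧸ 𝔮 β) :=
      s44gi_quot_closed (𝔮 β) (u β) (N.u_max β) (N.max_le_sup β)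
    exact s44mci_branch_root (𝔮 β) (N.height hπ0 β) hp hm hn (N.π_mem β) (N.vgen β) hlam hu0 hζ
      hlam0 hP0 hmonic hdeg hD (hb β) hfD hfG
  obtain ⟨r₁, hr₁⟩ := hroots false
  obtain ⟨r₂, hr₂⟩ := hroots true
  exact ⟨P0 - C H, r₁, r₂, hmonic', hdeg', s44mci_one_add_eps hlam0 y, hGen,
    s44mci_node N hπ0, s44me_split_AS hp hpmax hmonic' hdeg' r₁ hr₁,
    s44me_split_AS hp hpmax hmonic' hdeg' r₂ hr₂⟩

end sheet

end Fermat.Agent.S44
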