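/-
S44 project, cell [H2-CI] (helper16): THE INPUTS OF THE NODE TRANSFER `s44me_node` FOR THE LOCAL RING
`B_𝔫 = ssl_locSub F0 𝔫` OF A CHART AT AN ORDINARY DOUBLE POINT.  Prefix `s44mci_`.

`A0` a discrete valuation ring with uniformiser `π`, `K = Frac A0`, `B ≤ B12 = B[1/ξ] ⊆ F0` charts,
`P1, P2` the components (`π B12 = P1 ∩ P2`), `𝔫` a closed point of `B` with the node data of
`ss_NodeAt` (`u v = a ∈ A0`, `u` a unit at `P1`, `v` a unit at `P2`, `𝔫 B_𝔫 = (π, u, v)`);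
`D : s44t_PData π σ0 p e k ζ`; `f ∈ F0ˣ` with all orders divisible by `p`, rational zeros and poles and
the global split form `f = G ^ p (1 + π ^ (p e + 1) b)`, `b ∈ O`; `LL = F0(y)`, `y ^ p = f`, of degree `p`.

  `s44mci_chart_sheet` : with `S := B_𝔫`, `λ := ζ - 1`: the local étale form `f = D ^ p (1 + π ^ (p e) H)`,
  `H ∈ S`; the Artin–Schreier generator `ε = (y / D - 1) / λ` with `s44me_Gen F0 P ε`; the node datum
  `s44n_Node π u v k' ((P2 ∩ B) S) ((P1 ∩ B) S)` and `𝔪_S = (π, u, v)`; the splitting data of `P` on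
  both branches.
-/
import Mathlib
import Fermat.Agent.S44.Mono.CISheet

set_option autoImplicit false
set_option linter.unusedSectionVars false
set_option linter.style.haveILetI false
set_option linter.unusedVariables false

noncomputable section

namespace Fermat.Agent.S44

open Fermat.Agent.SS Fermat.Agent.JT3 IsLocalRing AlgebraicCurve Polynomial

universe v

section chart

variable {A0 : Type*} [CommRing A0] [IsDomain A0] [IsDiscreteValuationRing A0]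
  {K : Type*} [Field K] [Algebra A0 K] [IsFractionRing A0 K]
  {F0 : Type v} [Field F0] [Algebra A0 F0] [Algebra K F0] [IsScalarTower A0 K F0]
variable {B B12 : Subalgebra A0 F0} [IsFractionRing B F0] [IsNoetherianRing B]
  [IsIntegrallyClosed B]
variable (𝔫 : Ideal B) [h𝔫 : 𝔫.IsPrime] {π : A0} (hle : B ≤ B12)

/-- **the inputs of the node transfer for the local ring of a chart at an ordinary double
point.** -/
theorem s44mci_chart_sheet {P1 P2 : Ideal B12} [hP1 : P1.IsPrime] [hP2 : P2.IsPrime]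
    (hπ : Irreducible π) (hπ𝔫 : algebraMap A0 B π ∈ 𝔫) (hϖ0 : algebraMap A0 F0 π ≠ 0)
    (hrad : Ideal.span {algebraMap A0 B12 π} = P1 ⊓ P2) {ξ : F0}
    (hξS : ξ ∈ sfc_S B.toSubring (algebraMap A0 F0 π))
    (hclear : ∀ z ∈ B12, ∃ k : ℕ, ξ ^ k * z ∈ B)
    {u v : F0} {a : A0} (huv : u * v = algebraMap A0 F0 a)
    (hu : ∃ s t : B, s ∉ 𝔫 ∧ t ∈ 𝔫 ∧ (s : F0) * u = t)
    (hv : ∃ s t : B, s ∉ 𝔫 ∧ t ∈ 𝔫 ∧ (s : F0) * v = t)
    (hgen : ∀ z ∈ 𝔫, ∃ s c1 c2 c3 : B, s ∉ 𝔫 ∧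
      (s : F0) * (z : F0) = algebraMap A0 F0 π * c1 + u * c2 + v * c3)
    (hu1 : ∃ s t : B12, s ∉ P1 ∧ t ∉ P1 ∧ (s : F0) * u = t)
    (hv2 : ∃ s t : B12, s ∉ P2 ∧ t ∉ P2 ∧ (s : F0) * v = t)
    (huS : u ∈ ssl_locSub F0 𝔫) (hvS : v ∈ ssl_locSub F0 𝔫)
    (O : Subring F0)
    (hOB : ∀ z ∈ O, ∃ s ∈ sfc_S B.toSubring (algebraMap A0 F0 π), s * z ∈ B)
    {σ0 : A0 ≃+* A0} {p e k : ℕ} {ζ : A0} (D : s44t_PData π σ0 p e k ζ)
    {f : F0} (hf : f ≠ 0) (hord : ∀ P : Place K F0, (p : ℤ) ∣ P.ord f)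
    (hrat : ∀ P : Place K F0, P.ord f ≠ 0 → ss_RatPlace P)
    (hglob : ∃ G b : F0, G ≠ 0 ∧ b ∈ O ∧
      f = G ^ p * (1 + algebraMap A0 F0 π ^ (p * e + 1) * b))
    {LL : Type*} [Field LL] [Algebra F0 LL] [FiniteDimensional F0 LL] {y : LL}
    (hy : y ^ p = algebraMap F0 LL f) (hfin : Module.finrank F0 LL = p)
    (hgenLL : Algebra.adjoin F0 ({y} : Set LL) = ⊤) :
    haveI := ssl_loc_isNoetherianRing (F0 := F0) 𝔫
    haveI := ssl_loc_isIntegrallyClosed (F0 := F0) 𝔫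
    haveI := ssl_loc_isLocalRing (F0 := F0) 𝔫
    ∃ (k' : ℕ) (Dd : F0) (H : ssl_locSub F0 𝔫) (P : (ssl_locSub F0 𝔫)[X])
      (r₁ r₂ : ssl_locSub F0 𝔫),
      a ≠ 0 ∧ Associated a (π ^ k') ∧ Dd ≠ 0 ∧
      f = Dd ^ p * (1 + algebraMap A0 F0 π ^ (p * e) * (H : F0)) ∧
      P.Monic ∧ P.natDegree = p ∧
      (1 + algebraMap (ssl_locSub F0 𝔫) LL
          (algebraMap B (ssl_locSub F0 𝔫) (algebraMap A0 B (ζ - 1))) *
        s44mci_eps (algebraMap B (ssl_locSub F0 𝔫) (algebraMap A0 B (ζ - 1))) Dd y =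
          y / algebraMap F0 LL Dd) ∧
      s44me_Gen F0 P
        (s44mci_eps (algebraMap B (ssl_locSub F0 𝔫) (algebraMap A0 B (ζ - 1))) Dd y) ∧
      s44n_Node (algebraMap B (ssl_locSub F0 𝔫) (algebraMap A0 B π))
        (⟨u, huS⟩ : ssl_locSub F0 𝔫) ⟨v, hvS⟩ k' (s44tl_br 𝔫 hle P2) (s44tl_br 𝔫 hle P1) ∧
      maximalIdeal (ssl_locSub F0 𝔫) =
        Ideal.span {algebraMap B (ssl_locSub F0 𝔫) (algebraMap A0 B π),
          (⟨u, huS⟩ : ssl_locSub F0 𝔫), ⟨v, hvS⟩} ∧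
      s44me_Split P (s44tl_br 𝔫 hle P2) (fun j : Fin p => r₁ + (((j : ℕ) : ssl_locSub F0 𝔫))) ∧
      s44me_Split P (s44tl_br 𝔫 hle P1)
        (fun j : Fin p => r₂ + (((j : ℕ) : ssl_locSub F0 𝔫))) := by
  haveI := ssl_loc_isNoetherianRing (F0 := F0) 𝔫
  haveI := ssl_loc_isIntegrallyClosed (F0 := F0) 𝔫
  haveI := ssl_loc_isLocalRing (F0 := F0) 𝔫
  -- the node data
  obtain ⟨k', ha0, hk, N⟩ := s44mci_nodeData hle hπ hϖ0 hπ𝔫 hrad hξS hclear huv hu hv hgen hu1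
    hv2 huS hvS
  -- the local étale form
  have hnode : ssl_NodeAt π B 𝔫 := ⟨u, v, a, ha0, huv, hu, hv, hgen⟩
  have hPMV := ssl_powModVert_point (K := K) 𝔫 hπ hπ𝔫 hϖ0 (Or.inr hnode) p hf hord hrat
  obtain ⟨w0, hB⟩ := s44tl_base 𝔫 hπ hπ𝔫 hϖ0 D
  have hGlob := s44tl_glob 𝔫 hπ𝔫 hϖ0 O hOB hglob
  obtain ⟨Dd, H, hD0, hfD⟩ := s44tl_node_main hB N (Nat.le_succ (p * e)) hf hPMV hGlob
  obtain ⟨G, b, hG, hbv, hfG⟩ := hGlob
  -- the arithmetic data in `S`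
  set ψ : A0 →+* ssl_locSub F0 𝔫 := (algebraMap B (ssl_locSub F0 𝔫)).comp (algebraMap A0 B)
    with hψ
  obtain ⟨U, hU⟩ := D.ζ_sub
  obtain ⟨v0, hv0⟩ := D.p_eq
  have hπS0 : ψ π ≠ 0 := s44tl_pi_ne_zero 𝔫 hϖ0
  have hUU : ψ (U : A0) * ψ ((U⁻¹ : A0ˣ) : A0) = 1 := by
    rw [← map_mul, Units.mul_inv, map_one]
  have hlam : ψ (ζ - 1) = ψ π ^ e * ψ (U : A0) := by rw [hU, map_mul, map_pow]
  have hζ : (1 + ψ (ζ - 1)) ^ p = 1 := by
    rw [← map_one ψ, ← map_add, ← map_pow]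
    have : (1 + (ζ - 1)) ^ p = (1 : A0) := by rw [add_sub_cancel, D.ζ_pow]
    rw [this]
  have hlam0 : ψ (ζ - 1) ≠ 0 := by
    rw [hlam]
    exact mul_ne_zero (pow_ne_zero e hπS0) (left_ne_zero_of_mul_eq_one hUU)
  have hpeA : (p : A0) = (ζ - 1) ^ (p - 1) * (((U⁻¹ : A0ˣ) : A0) ^ (p - 1) * (v0 : A0)) := by
    have h3 : (ζ - 1) ^ (p - 1) * ((U⁻¹ : A0ˣ) : A0) ^ (p - 1) = π ^ ((p - 1) * e) := by
      rw [hU, mul_pow, ← pow_mul, mul_assoc, ← mul_pow, Units.mul_inv, one_pow, mul_one,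
        mul_comm e]
    rw [← mul_assoc, h3]
    exact hv0
  have hpe : (p : ssl_locSub F0 𝔫) = ψ (ζ - 1) ^ (p - 1) *
      ψ (((U⁻¹ : A0ˣ) : A0) ^ (p - 1) * (v0 : A0)) := by
    have := congrArg ψ hpeA
    rwa [map_natCast, map_mul, map_pow] at this
  have hw : ψ (((U⁻¹ : A0ˣ) : A0) ^ (p - 1) * (v0 : A0)) *
      ψ ((U : A0) ^ (p - 1) * ((v0⁻¹ : A0ˣ) : A0)) = 1 := by
    rw [← map_mul]
    have : ((U⁻¹ : A0ˣ) : A0) ^ (p - 1) * (v0 : A0) * ((U : A0) ^ (p - 1) * ((v0⁻¹ : A0ˣ) : A0)) =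
        (((U⁻¹ : A0ˣ) : A0) * (U : A0)) ^ (p - 1) * ((v0 : A0) * ((v0⁻¹ : A0ˣ) : A0)) := by ring
    rw [this, Units.inv_mul, one_pow, Units.mul_inv, one_mul, map_one]
  -- the local étale form in terms of `λ`
  have hfD' : f = Dd ^ p * (1 + algebraMap (ssl_locSub F0 𝔫) F0 (ψ (ζ - 1)) ^ p *
      algebraMap (ssl_locSub F0 𝔫) F0 (H * ψ ((U⁻¹ : A0ˣ) : A0) ^ p)) := by
    rw [hfD]
    congr 2
    rw [hlam]
    simp only [map_mul, map_pow]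
    have h5 : algebraMap (ssl_locSub F0 𝔫) F0 (ψ (U : A0)) *
        algebraMap (ssl_locSub F0 𝔫) F0 (ψ ((U⁻¹ : A0ˣ) : A0)) = 1 := by
      rw [← map_mul, hUU, map_one]
    calc algebraMap (ssl_locSub F0 𝔫) F0 (ψ π) ^ (p * e) * algebraMap (ssl_locSub F0 𝔫) F0 H
        = algebraMap (ssl_locSub F0 𝔫) F0 (ψ π) ^ (p * e) * algebraMap (ssl_locSub F0 𝔫) F0 H *
          (algebraMap (ssl_locSub F0 𝔫) F0 (ψ (U : A0)) *
            algebraMap (ssl_locSub F0 𝔫) F0 (ψ ((U⁻¹ : A0ˣ) : A0))) ^ p := by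
          rw [h5, one_pow, mul_one]
      _ = _ := by rw [mul_comm p e, pow_mul]; ring
  have hb : ∀ β, ssl_MemAt F0 ((fun b => cond b (s44tl_br 𝔫 hle P1) (s44tl_br 𝔫 hle P2)) β) b :=
    fun β => hbv _ (N.prime β) (N.height hπS0 β) (N.π_mem β)
  obtain ⟨P, r₁, r₂, hmonic, hdeg, heps, hGen, hNode, hs₁, hs₂⟩ :=
    s44mci_sheet N D.prime D.e_pos (le_refl _) hlam hUU hζ hlam0 hpe hw hD0 hb hfD' hfG hy hfin
      hgenLL
  have hmax := s44mci_max_eq N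
  simp only [cond_true, cond_false] at hNode hmax hs₁ hs₂
  exact ⟨k', Dd, H, P, r₁, r₂, ha0, hk, hD0, hfD, hmonic, hdeg, heps, hGen, hNode, hmax, hs₁,
    hs₂⟩

end chart

end Fermat.Agent.S44
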