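/-
S44 [H2-U] UNIFORM NODE, abstract half (helper29; prefix `s44mu_`).

The chain `ssm_tht_node → ssm_ni_node → ssm_nx_node` of SS/Model re-run with a SIGMA-FREE conclusion
that EXPOSES the witnesses: the local coordinates `u, v` at a crossing point of the chart over the
ramified base are the images `j u₀, j v₀` of elements of the function field over the small
(unramified) base, and `u v = q` EXACTLY.  Hence one pair `(u, v)` serves every automorphism fixing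
the image of `j` (all inert automorphisms, in the instance `Mono/UNode.lean`).

* `s44mu_NodeAtU π hle P1 P2 𝔫 u v a` : the clauses of `ss_NodeAt` for GIVEN `u v a`, without `σ`;
* `s44mu_nodeAt_iff`                  : `ss_NodeAt` ↔ `∃ u v a, NodeAtU ∧ σ0 a = a ∧ σ u = u`;
* `s44mu_tht_node`, `s44mu_ni_node`, `s44mu_nx_node` : the three abstract steps.
-/
import Mathlib
import Fermat.Agent.SS.Model.NodeCross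

set_option autoImplicit false
set_option linter.unusedSectionVars false
set_option linter.unusedVariables false
set_option linter.style.haveILetI false

noncomputable section

namespace Fermat.Agent.S44

open Fermat.Agent.SS Fermat.Agent.JT3 Polynomial

universe v

section Abstract

variable {A0 : Type*} [CommRing A0] {F0 : Type v} [Field F0] [Algebra A0 F0]

/-- **Ordinary double point with NAMED local coordinates** (`ss_NodeAt` without the automorphism):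
`u v = a ∈ A0`, `u, v ∈ 𝔫 R_𝔫`, `𝔫 R_𝔫 = (π, u, v)`, `u` a unit at `P1`, `v` a unit at `P2`. -/
def s44mu_NodeAtU (π : A0) {B B12 : Subalgebra A0 F0} (_hle : B ≤ B12)
    (P1 P2 : Ideal B12) (𝔫 : Ideal B) (u v : F0) (a : A0) : Prop :=
  u * v = algebraMap A0 F0 a ∧
    (∃ s t : B, s ∉ 𝔫 ∧ t ∈ 𝔫 ∧ (s : F0) * u = t) ∧
    (∃ s t : B, s ∉ 𝔫 ∧ t ∈ 𝔫 ∧ (s : F0) * v = t) ∧
    (∀ z ∈ 𝔫, ∃ s c1 c2 c3 : B, s ∉ 𝔫 ∧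
      (s : F0) * (z : F0) = algebraMap A0 F0 π * c1 + u * c2 + v * c3) ∧
    (∃ s t : B12, s ∉ P1 ∧ t ∉ P1 ∧ (s : F0) * u = t) ∧
    (∃ s t : B12, s ∉ P2 ∧ t ∉ P2 ∧ (s : F0) * v = t)

theorem s44mu_nodeAt_iff (π : A0) (σ : F0 ≃+* F0) (σ0 : A0 ≃+* A0) {B B12 : Subalgebra A0 F0}
    (hle : B ≤ B12) (P1 P2 : Ideal B12) (𝔫 : Ideal B) :
    ss_NodeAt π σ σ0 hle P1 P2 𝔫 ↔
      ∃ (u v : F0) (a : A0), s44mu_NodeAtU π hle P1 P2 𝔫 u v a ∧ σ0 a = a ∧ σ u = u := by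
  constructor
  · rintro ⟨u, v, a, h1, h2, h3, h4, h5, h6, h7, h8⟩
    exact ⟨u, v, a, ⟨h1, h4, h5, h6, h7, h8⟩, h2, h3⟩
  · rintro ⟨u, v, a, ⟨h1, h4, h5, h6, h7, h8⟩, h2, h3⟩
    exact ⟨u, v, a, h1, h2, h3, h4, h5, h6, h7, h8⟩

/-- a named node gives `ss_NodeAt` for every automorphism fixing `a` and `u`. -/
theorem s44mu_NodeAtU.nodeAt {π : A0} {B B12 : Subalgebra A0 F0} {hle : B ≤ B12}
    {P1 P2 : Ideal B12} {𝔫 : Ideal B} {u v : F0} {a : A0}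
    (h : s44mu_NodeAtU π hle P1 P2 𝔫 u v a) (σ : F0 ≃+* F0) (σ0 : A0 ≃+* A0)
    (ha : σ0 a = a) (hu : σ u = u) : ss_NodeAt π σ σ0 hle P1 P2 𝔫 :=
  (s44mu_nodeAt_iff π σ σ0 hle P1 P2 𝔫).2 ⟨u, v, a, h, ha, hu⟩

end Abstract

/-- **Transport of the node** from the unramified base `(A00, q0)` to the ramified base
`(A0, π)`, with named coordinates (`ssm_tht_node` without `σ`). -/
theorem s44mu_tht_node
    {A00 A0 : Type*} [CommRing A00] [CommRing A0] {F00 : Type*} {F0 : Type*} [Field F00]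
    [Field F0] [Algebra A00 F00] [Algebra A0 F0]
    (j : F00 →+* F0) (j0 : A00 →+* A0)
    (hj0 : ∀ a, j (algebraMap A00 F00 a) = algebraMap A0 F0 (j0 a))
    (B0 : Subalgebra A00 F00) (B B12 : Subalgebra A0 F0) (hle : B ≤ B12)
    (hjB : ∀ b ∈ B0, j b ∈ B)
    (π : A0) (q0 : A00)
    (P1 P2 : Ideal B12) (P10 P20 : Ideal B0)
    (hP1 : ∀ b : B0, b ∈ P10 ↔ (⟨j b, hle (hjB b b.2)⟩ : B12) ∈ P1)
    (hP2 : ∀ b : B0, b ∈ P20 ↔ (⟨j b, hle (hjB b b.2)⟩ : B12) ∈ P2)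
    (𝔫 : Ideal B) [𝔫.IsPrime] (𝔫0 : Ideal B0) [𝔫0.IsPrime]
    (h𝔫 : ∀ b : B0, b ∈ 𝔫0 ↔ (⟨j b, hjB b b.2⟩ : B) ∈ 𝔫)
    (hP1𝔫 : P10 ≤ 𝔫0) (hP2𝔫 : P20 ≤ 𝔫0)
    (u v : F00) (huv : u * v = algebraMap A00 F00 q0) (hq0 : algebraMap A00 F00 q0 ≠ 0)
    (hu2 : ∃ s t : B0, s ∉ 𝔫0 ∧ t ∈ P20 ∧ (s : F00) * u = t)
    (hv1 : ∃ s t : B0, s ∉ 𝔫0 ∧ t ∈ P10 ∧ (s : F00) * v = t)
    (hP2u : ∀ z ∈ P20, ∃ s c : B0, s ∉ 𝔫0 ∧ (s : F00) * z = u * c)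
    (hP1v : ∀ z ∈ P10, ∃ s c : B0, s ∉ 𝔫0 ∧ (s : F00) * z = v * c)
    (hu1 : ∃ s t : B0, s ∉ 𝔫0 ∧ t ∉ P10 ∧ (s : F00) * u = t)
    (hv2 : ∃ s t : B0, s ∉ 𝔫0 ∧ t ∉ P20 ∧ (s : F00) * v = t)
    (uG vG : B0) (huG : uG ∈ P20) (hvG : vG ∈ P10)
    (hgen2 : ∀ x ∈ P20, ∃ s : B0, s ∉ 𝔫0 ∧ s * x ∈ Ideal.span {algebraMap A00 B0 q0, uG})
    (hgen1 : ∀ x ∈ P10, ∃ s : B0, s ∉ 𝔫0 ∧ s * x ∈ Ideal.span {algebraMap A00 B0 q0, vG})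
    (hgen : ∀ x ∈ 𝔫, ∃ s : B, s ∉ 𝔫 ∧ s * x ∈ Ideal.span
      {algebraMap A0 B π, (⟨j uG, hjB _ uG.2⟩ : B), (⟨j vG, hjB _ vG.2⟩ : B)}) :
    s44mu_NodeAtU π hle P1 P2 𝔫 (j u) (j v) (j0 q0) := by
  have hvu : v * u = algebraMap A00 F00 q0 := by rw [mul_comm]; exact huv
  -- `u, v ∈ 𝔪_{C0}`
  have hu𝔪 : ∃ s t : B0, s ∉ 𝔫0 ∧ t ∈ 𝔫0 ∧ (s : F00) * u = t := by
    obtain ⟨s, t, hs, ht, h⟩ := hu2
    exact ⟨s, t, hs, hP2𝔫 ht, h⟩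
  have hv𝔪 : ∃ s t : B0, s ∉ 𝔫0 ∧ t ∈ 𝔫0 ∧ (s : F00) * v = t := by
    obtain ⟨s, t, hs, ht, h⟩ := hv1
    exact ⟨s, t, hs, hP1𝔫 ht, h⟩
  obtain ⟨su, cu, hsu, hcu, hucu⟩ :=
    ssm_tht_unit B0 q0 𝔫0 P20 u v huv hq0 hu2 hv𝔪 hP2u uG huG hgen2
  obtain ⟨sv, cv, hsv, hcv, hvcv⟩ :=
    ssm_tht_unit B0 q0 𝔫0 P10 v u hvu hq0 hv1 hu𝔪 hP1v vG hvG hgen1
  -- the transported elements
  have hjmem : ∀ b : B0, (⟨j b, hjB b b.2⟩ : B) ∉ 𝔫 ↔ b ∉ 𝔫0 := fun b => not_congr (h𝔫 b).symm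
  refine ⟨?_, ?_, ?_, ?_, ?_, ?_⟩
  · rw [← map_mul, huv, hj0]
  · obtain ⟨s, t, hs, ht, h⟩ := hu𝔪
    refine ⟨⟨j s, hjB s s.2⟩, ⟨j t, hjB t t.2⟩, (hjmem s).2 hs, (h𝔫 t).1 ht, ?_⟩
    show j s * j u = j t
    rw [← map_mul, h]
  · obtain ⟨s, t, hs, ht, h⟩ := hv𝔪
    refine ⟨⟨j s, hjB s s.2⟩, ⟨j t, hjB t t.2⟩, (hjmem s).2 hs, (h𝔫 t).1 ht, ?_⟩
    show j s * j v = j t
    rw [← map_mul, h]
  · intro z hz
    obtain ⟨s, hs, hsz⟩ := hgen z hz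
    obtain ⟨a1, w, hw, ha'⟩ := Ideal.mem_span_insert.1 hsz
    obtain ⟨a2, a3, hw'⟩ := Ideal.mem_span_pair.1 hw
    have ha : a1 * algebraMap A0 B π + a2 * (⟨j uG, hjB _ uG.2⟩ : B) +
        a3 * (⟨j vG, hjB _ vG.2⟩ : B) = s * z := by
      rw [ha', ← hw', add_assoc]
    refine ⟨⟨j su, hjB su su.2⟩ * ⟨j sv, hjB sv sv.2⟩ * s,
      ⟨j su, hjB su su.2⟩ * ⟨j sv, hjB sv sv.2⟩ * a1,
      ⟨j cu, hjB cu cu.2⟩ * ⟨j sv, hjB sv sv.2⟩ * a2,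
      ⟨j cv, hjB cv cv.2⟩ * ⟨j su, hjB su su.2⟩ * a3, ?_, ?_⟩
    · intro hmem
      rcases Ideal.IsPrime.mem_or_mem inferInstance hmem with h | h
      · rcases Ideal.IsPrime.mem_or_mem inferInstance h with h' | h'
        · exact (hjmem su).2 hsu h'
        · exact (hjmem sv).2 hsv h'
      · exact hs h
    · have haE : (a1 : F0) * algebraMap A0 F0 π + (a2 : F0) * j uG + (a3 : F0) * j vG =
          (s : F0) * (z : F0) := by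
        have h := congrArg (fun w : B => (w : F0)) ha
        push_cast at h
        exact h
      have e1 : j su * j uG = j u * j cu := by rw [← map_mul, ← map_mul, hucu]
      have e2 : j sv * j vG = j v * j cv := by rw [← map_mul, ← map_mul, hvcv]
      push_cast
      rw [mul_assoc (j su * j sv) (s : F0) (z : F0), ← haE]
      linear_combination (j sv * (a2 : F0)) * e1 + (j su * (a3 : F0)) * e2
  · obtain ⟨s, t, hs, ht, h⟩ := hu1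
    refine ⟨⟨j s, hle (hjB s s.2)⟩, ⟨j t, hle (hjB t t.2)⟩, ?_, ?_, ?_⟩
    · exact fun hmem => hs (hP1𝔫 ((hP1 s).2 hmem))
    · exact fun hmem => ht ((hP1 t).2 hmem)
    · show j s * j u = j t
      rw [← map_mul, h]
  · obtain ⟨s, t, hs, ht, h⟩ := hv2
    refine ⟨⟨j s, hle (hjB s s.2)⟩, ⟨j t, hle (hjB t t.2)⟩, ?_, ?_, ?_⟩
    · exact fun hmem => hs (hP2𝔫 ((hP2 s).2 hmem))
    · exact fun hmem => ht ((hP2 t).2 hmem)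
    · show j s * j v = j t
      rw [← map_mul, h]

section Node

variable {A00 A0 : Type*} [CommRing A00] [CommRing A0] {F00 : Type*} {F0 : Type*} [Field F00]
  [Field F0] [Algebra A00 F00] [Algebra A0 F0]
  (j : F00 →+* F0) (j0 : A00 →+* A0)
  (hj0 : ∀ a, j (algebraMap A00 F00 a) = algebraMap A0 F0 (j0 a))
  (B0 : Subalgebra A00 F00) (B B12 : Subalgebra A0 F0) (hle : B ≤ B12)
  (hjB : ∀ b ∈ B0, j b ∈ B)

include hj0 in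
/-- `ssm_ni_node` with named coordinates: `u = j u₀`, `v = j v₀`, `u v = q₀`. -/
theorem s44mu_ni_node (π : A0)
    (q₀ : ℕ) (hq0 : (q₀ : F00) ≠ 0)
    (V10 V20 : ValuationSubring F00) (V1 V2 : ValuationSubring F0)
    (h10 : ∀ b ∈ B0, b ∈ V10) (h20 : ∀ b ∈ B0, b ∈ V20)
    (h1 : ∀ b ∈ B12, b ∈ V1) (h2 : ∀ b ∈ B12, b ∈ V2)
    (hV1 : ∀ z : F00, z ∈ V10.nonunits ↔ j z ∈ V1.nonunits)
    (hV2 : ∀ z : F00, z ∈ V20.nonunits ↔ j z ∈ V2.nonunits)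
    (uG vG : B0) (huG : uG ∈ ssm_tp_P B0 V20) (hvG : vG ∈ ssm_tp_P B0 V10)
    (𝔫 : Ideal B) [𝔫.IsPrime] (hP1𝔫 : ssm_tp_P B V1 ≤ 𝔫) (hP2𝔫 : ssm_tp_P B V2 ≤ 𝔫)
    (hthick : ∃ u v : F00, u * v = (q₀ : F00) ∧
      (∃ s t : B0, s ∉ 𝔫.comap (ssm_bc_res j B0 B hjB) ∧ t ∈ ssm_tp_P B0 V20 ∧
        (s : F00) * u = t) ∧
      (∃ s t : B0, s ∉ 𝔫.comap (ssm_bc_res j B0 B hjB) ∧ t ∈ ssm_tp_P B0 V10 ∧
        (s : F00) * v = t) ∧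
      (∀ z ∈ ssm_tp_P B0 V20, ∃ s c : B0, s ∉ 𝔫.comap (ssm_bc_res j B0 B hjB) ∧
        (s : F00) * (z : F00) = u * c) ∧
      (∀ z ∈ ssm_tp_P B0 V10, ∃ s c : B0, s ∉ 𝔫.comap (ssm_bc_res j B0 B hjB) ∧
        (s : F00) * (z : F00) = v * c) ∧
      (∃ s t : B0, s ∉ 𝔫.comap (ssm_bc_res j B0 B hjB) ∧ t ∉ ssm_tp_P B0 V10 ∧
        (s : F00) * u = t) ∧
      (∃ s t : B0, s ∉ 𝔫.comap (ssm_bc_res j B0 B hjB) ∧ t ∉ ssm_tp_P B0 V20 ∧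
        (s : F00) * v = t))
    (hgen2 : ∀ x ∈ ssm_tp_P B0 V20, ∃ s : B0, s ∉ 𝔫.comap (ssm_bc_res j B0 B hjB) ∧
      s * x ∈ Ideal.span {(q₀ : B0), uG})
    (hgen1 : ∀ x ∈ ssm_tp_P B0 V10, ∃ s : B0, s ∉ 𝔫.comap (ssm_bc_res j B0 B hjB) ∧
      s * x ∈ Ideal.span {(q₀ : B0), vG})
    (hgen : ∀ x ∈ 𝔫, ∃ s : B, s ∉ 𝔫 ∧ s * x ∈ Ideal.span
      {algebraMap A0 B π, ssm_bc_res j B0 B hjB uG, ssm_bc_res j B0 B hjB vG}) :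
    ∃ u v : F00, s44mu_NodeAtU π hle (ssm_tp_P B12 V1) (ssm_tp_P B12 V2) 𝔫 (j u) (j v)
      ((q₀ : ℕ) : A0) := by
  haveI : (𝔫.comap (ssm_bc_res j B0 B hjB)).IsPrime := Ideal.comap_isPrime _ _
  obtain ⟨u, v, huv, hu2, hv1, hP2u, hP1v, hu1, hv2⟩ := hthick
  have hB1 : ∀ b ∈ B, b ∈ V1 := fun b hb => h1 b (hle hb)
  have hB2 : ∀ b ∈ B, b ∈ V2 := fun b hb => h2 b (hle hb)
  refine ⟨u, v, ?_⟩
  have key := s44mu_tht_node j j0 hj0 B0 B B12 hle hjB π (q₀ : A00)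
    (ssm_tp_P B12 V1) (ssm_tp_P B12 V2) (ssm_tp_P B0 V10) (ssm_tp_P B0 V20)
    (fun b => ssm_bc_mem_P_iff j B0 B12 (fun b hb => hle (hjB b hb)) V10 V1 h10 h1 hV1 b)
    (fun b => ssm_bc_mem_P_iff j B0 B12 (fun b hb => hle (hjB b hb)) V20 V2 h20 h2 hV2 b)
    𝔫 (𝔫.comap (ssm_bc_res j B0 B hjB)) (fun b => Iff.rfl)
    (ssm_ni_comap_le j B0 B hjB V10 V1 h10 hB1 hV1 𝔫 hP1𝔫)
    (ssm_ni_comap_le j B0 B hjB V20 V2 h20 hB2 hV2 𝔫 hP2𝔫)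
    u v (by rw [map_natCast]; exact huv) (by rw [map_natCast]; exact hq0)
    hu2 hv1 hP2u hP1v hu1 hv2 uG vG huG hvG
    (by rw [map_natCast]; exact hgen2) (by rw [map_natCast]; exact hgen1) hgen
  rw [map_natCast] at key
  exact key

end Node

section NodeX

variable {A00 A0 : Type*} [CommRing A00] [CommRing A0]
  {K00 F00 : Type*} [Field K00] [Field F00] [Algebra K00 F00] [Algebra A00 K00] [Algebra A00 F00]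
  {K1 F0 : Type*} [Field K1] [Field F0] [Algebra K1 F0] [Algebra A0 K1] [Algebra A0 F0]

/-- `ssm_nx_node` with named coordinates. -/
theorem s44mu_nx_node
    (j : F00 →+* F0) (j0 : A00 →+* A0)
    (hj0 : ∀ a, j (algebraMap A00 F00 a) = algebraMap A0 F0 (j0 a))
    {B0' : Subalgebra A00 K00} (B0 : Subalgebra A00 F00)
    {B' : Subalgebra A0 K1} (B B12 : Subalgebra A0 F0) (hle : B ≤ B12)
    (hjB : ∀ b ∈ B0, j b ∈ B)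
    (π : A0)
    (q₀ : ℕ) (hq₀ : q₀.Prime) (hq0 : (q₀ : F00) ≠ 0)
    (hqmax : (Ideal.span {(q₀ : A00)} : Ideal A00).IsMaximal)
    (V10 V20 : ValuationSubring F00) (V1 V2 : ValuationSubring F0)
    (h10 : ∀ b ∈ B0, b ∈ V10) (h20 : ∀ b ∈ B0, b ∈ V20)
    (h1 : ∀ b ∈ B12, b ∈ V1) (h2 : ∀ b ∈ B12, b ∈ V2)
    (hV1 : ∀ z : F00, z ∈ V10.nonunits ↔ j z ∈ V1.nonunits)
    (hV2 : ∀ z : F00, z ∈ V20.nonunits ↔ j z ∈ V2.nonunits)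
    {φ0 : B0' →+* B0} {π0' : B0'} {lam0' : B0'} {lamq0 : B0} {c0 : ℤ[X]}
    (C0 : ssm_nx_Cross B0' B0 φ0 π0' q₀ (ssm_tp_P B0 V10) (ssm_tp_P B0 V20) lam0' lamq0 c0)
    (hπ0' : π0' = (q₀ : B0'))
    {φ : B' →+* B} {π' : B'} {lam' : B'} {lamq : B} {c : ℤ[X]}
    (C1 : ssm_nx_Cross B' B φ π' q₀ (ssm_tp_P B V1) (ssm_tp_P B V2) lam' lamq c)
    (hπ' : φ π' = algebraMap A0 B π)
    (hlam : j (φ0 lam0' : F00) = (φ lam' : F0))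
    (hlamq : j (lamq0 : F00) = (lamq : F0))
    (hint0 : ∀ b : B0, IsIntegral (Algebra.adjoin A00 ({φ0 lam0'} : Set B0)) b)
    (hthick : ∀ 𝔫0 : Ideal B0, 𝔫0.IsMaximal → ssm_tp_P B0 V10 ≤ 𝔫0 → ssm_tp_P B0 V20 ≤ 𝔫0 →
      ∃ u v : F00, u * v = (q₀ : F00) ∧
        (∃ s t : B0, s ∉ 𝔫0 ∧ t ∈ ssm_tp_P B0 V20 ∧ (s : F00) * u = t) ∧
        (∃ s t : B0, s ∉ 𝔫0 ∧ t ∈ ssm_tp_P B0 V10 ∧ (s : F00) * v = t) ∧
        (∀ z ∈ ssm_tp_P B0 V20, ∃ s c : B0, s ∉ 𝔫0 ∧ (s : F00) * (z : F00) = u * c) ∧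
        (∀ z ∈ ssm_tp_P B0 V10, ∃ s c : B0, s ∉ 𝔫0 ∧ (s : F00) * (z : F00) = v * c) ∧
        (∃ s t : B0, s ∉ 𝔫0 ∧ t ∉ ssm_tp_P B0 V10 ∧ (s : F00) * u = t) ∧
        (∃ s t : B0, s ∉ 𝔫0 ∧ t ∉ ssm_tp_P B0 V20 ∧ (s : F00) * v = t))
    (𝔫 : Ideal B) (h𝔫 : 𝔫.IsMaximal) (hP1𝔫 : ssm_tp_P B V1 ≤ 𝔫) (hP2𝔫 : ssm_tp_P B V2 ≤ 𝔫) :
    ∃ u v : F00, s44mu_NodeAtU π hle (ssm_tp_P B12 V1) (ssm_tp_P B12 V2) 𝔫 (j u) (j v)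
      ((q₀ : ℕ) : A0) := by
  haveI : 𝔫.IsPrime := h𝔫.isPrime
  subst hπ0'
  haveI : Nontrivial A00 := by
    by_contra h
    rw [not_nontrivial_iff_subsingleton] at h
    exact hqmax.ne_top (Subsingleton.elim _ _)
  obtain ⟨-, -, -, d3, -, -, -, -, d9⟩ := C1.cross 𝔫 h𝔫 hP1𝔫 hP2𝔫
  have hB1 : ∀ b ∈ B, b ∈ V1 := fun b hb => h1 b (hle hb)
  have hB2 : ∀ b ∈ B, b ∈ V2 := fun b hb => h2 b (hle hb)
  have hle10 := ssm_ni_comap_le j B0 B hjB V10 V1 h10 hB1 hV1 𝔫 hP1𝔫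
  have hle20 := ssm_ni_comap_le j B0 B hjB V20 V2 h20 hB2 hV2 𝔫 hP2𝔫
  have hres_lam : ssm_bc_res j B0 B hjB (φ0 lam0') = φ lam' := Subtype.ext hlam
  have hres_lamq : ssm_bc_res j B0 B hjB lamq0 = lamq := Subtype.ext hlamq
  have e2 : φ0 ((q₀ : ℕ) : B0') = ((q₀ : ℕ) : B0) := map_natCast φ0 q₀
  have hq10 : ((q₀ : ℕ) : B0) ∈ ssm_tp_P B0 V10 := by
    have h : φ0 ((q₀ : ℕ) : B0') ∈ ssm_tp_P B0 V10 ⊓ ssm_tp_P B0 V20 :=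
      C0.hP ▸ Ideal.subset_span rfl
    rw [e2] at h
    exact h.1
  have hq𝔫 : ((q₀ : ℕ) : B) ∈ 𝔫 := by
    have h := hle10 hq10
    rw [Ideal.mem_comap, map_natCast] at h
    exact h
  have hpx : ssm_bc_res j B0 B hjB (aeval (φ0 lam0') (X ^ (q₀ ^ 2) - X : A00[X])) ∈ 𝔫 := by
    rw [map_sub, map_pow, aeval_X, map_sub, map_pow, hres_lam]
    exact d3
  have hmonic : (X ^ (q₀ ^ 2) - X : A00[X]).Monic := by
    apply (monic_X_pow (q₀ ^ 2)).sub_of_left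
    rw [degree_X_pow, degree_X]
    have : 2 ≤ q₀ := hq₀.two_le
    exact_mod_cast (by nlinarith : 1 < q₀ ^ 2)
  have hmax := ssm_ni_comap_isMaximal j B0 B hjB q₀ hqmax (φ0 lam0') hint0 _ hmonic 𝔫 hq𝔫 hpx
  obtain ⟨-, -, -, -, s4, s5, s7, s8, -⟩ := C0.cross _ hmax hle10 hle20
  rw [e2] at s7 s8
  refine s44mu_ni_node j j0 hj0 B0 B B12 hle hjB π q₀ hq0 V10 V20 V1 V2 h10 h20 h1 h2 hV1
    hV2 _ _ s4 s5 𝔫 hP1𝔫 hP2𝔫 (hthick _ hmax hle10 hle20) s7 s8 ?_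
  simp only [map_sub, map_pow, hres_lam, hres_lamq]
  rw [← hπ']
  exact d9

end NodeX

end Fermat.Agent.S44
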