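/-
S44 project, cell [H2] MONO-MAIN, sub-cell [H2-CI] (helper16).  Prefix `s44mci_`.

**THE NODE INPUTS OF `s44sp_node` / `s44ga_pair` AT A CROSSING POINT OF THE FIRST CHART OF AN
`ss_Model`.**

`M : ss_Model π x σ σ0 P1 P2`, `B = fc_chart A0 {x}`, `𝔫` a closed point of `B` above `π` with the
`σ`-free node data `s44mu_NodeAtU π _ P1 P2 𝔫 u v a` (helper29's [H2-U], `Mono/UNodeAbs.lean`),
`D : s44t_PData π σ0 p e k ζ`, `f ∈ F0ˣ` with `(hord, hrat, hglob)` (`Mono/CIInst.lean`), `LL = F0(y)`,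
`y ^ p = f`, `[LL : F0] = p`.  With `S := B_𝔫 = ssl_locSub F0 𝔫` and its canonical `A0`-algebra
structure (`Subalgebra.algebra'`):

  `s44mci_model_sheet` : `u v ∈ S`, `u v = a` in `S`, `a ~ π ^ k'`, `𝔪_S = (π, u, v)`,
  `s44n_Node π u v k' 𝔭₁ 𝔭₂` with `𝔭₁ = (P2 ∩ B) S ∋ u` (the `0`-branch) and `𝔭₂ = (P1 ∩ B) S ∋ v`
  (the `∞`-branch), the local étale form `f = D ^ p (1 + π ^ (p e) H)`, `H ∈ S`, the
  Artin–Schreier generator `ε = (y / D - 1) / (ζ - 1)` with `s44me_Gen F0 P ε` and the splitting of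
  `P` on both branches,

i.e. exactly the "node `S`" binders `huv hm hN h hs₁ hs₂` of `s44sp_node` / `s44ga_pair`.
-/
import Mathlib
import Fermat.Agent.S44.Mono.CIChart
import Fermat.Agent.S44.Mono.UNodeAbs

set_option autoImplicit false
set_option linter.unusedSectionVars false
set_option linter.style.haveILetI false
set_option linter.unusedVariables false

noncomputable section

namespace Fermat.Agent.S44

open Fermat.Agent.SS Fermat.Agent.JT3 IsLocalRing AlgebraicCurve Polynomial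

universe v

section Model

variable {A0 : Type*} [CommRing A0] [IsDomain A0] [IsDiscreteValuationRing A0]
  {K : Type*} [Field K] [Algebra A0 K] [IsFractionRing A0 K]
  {F0 : Type v} [Field F0] [Algebra A0 F0] [Algebra K F0] [IsScalarTower A0 K F0]
  {π : A0} {x : F0} {σ : F0 ≃+* F0} {σ0 : A0 ≃+* A0}
  {P1 P2 : Ideal (fc_chart A0 ({x, x⁻¹} : Set F0))}

/-- an element `w` of `F0` with `s w = t`, `s ∉ 𝔫`, lies in `B_𝔫`. -/
theorem s44mci_mem_loc_of {B : Subalgebra A0 F0} [IsFractionRing B F0] (𝔫 : Ideal B)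
    [𝔫.IsPrime] {w : F0} (h : ∃ s t : B, s ∉ 𝔫 ∧ t ∈ 𝔫 ∧ (s : F0) * w = t) :
    w ∈ ssl_locSub F0 𝔫 := by
  obtain ⟨s, t, hs, -, e⟩ := h
  rw [ssl_mem_locSub]
  exact ⟨t, s, hs, by rw [mul_comm]; exact e⟩

/-- **the node inputs of `s44sp_node` at a crossing point of the first chart of an `ss_Model`.** -/
theorem s44mci_model_sheet (hπ : Irreducible π) (M : ss_Model π x σ σ0 P1 P2)
    (𝔫 : Ideal (fc_chart A0 ({x} : Set F0))) [h𝔫 : 𝔫.IsPrime]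
    (hπ𝔫 : algebraMap A0 (fc_chart A0 ({x} : Set F0)) π ∈ 𝔫)
    {u v : F0} {a : A0} (hU : s44mu_NodeAtU π (fc_chart1_le x) P1 P2 𝔫 u v a)
    {p e k : ℕ} {ζ : A0} (D : s44t_PData π σ0 p e k ζ)
    {f : F0} (hf : f ≠ 0) (hord : ∀ P : Place K F0, (p : ℤ) ∣ P.ord f)
    (hrat : ∀ P : Place K F0, P.ord f ≠ 0 → ss_RatPlace P)
    (hglob : s44t_GlobForm π x p (p * e + 1) f)
    {LL : Type*} [Field LL] [Algebra F0 LL] [FiniteDimensional F0 LL] {y : LL}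
    (hy : y ^ p = algebraMap F0 LL f) (hfin : Module.finrank F0 LL = p)
    (hgenLL : Algebra.adjoin F0 ({y} : Set LL) = ⊤) :
    haveI := M.isAlg
    haveI := ssa_noeth1 M
    haveI : IsIntegrallyClosed (fc_chart A0 ({x} : Set F0)) := ssl_chart_isIntegrallyClosed {x}
    haveI := ssl_loc_isLocalRing (F0 := F0) 𝔫
    ∃ (huS : u ∈ ssl_locSub F0 𝔫) (hvS : v ∈ ssl_locSub F0 𝔫) (k' : ℕ) (Dd : F0)
      (H : ssl_locSub F0 𝔫) (P : (ssl_locSub F0 𝔫)[X]) (r₁ r₂ : ssl_locSub F0 𝔫),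
      a ≠ 0 ∧ Associated a (π ^ k') ∧ Dd ≠ 0 ∧
      f = Dd ^ p * (1 + algebraMap A0 F0 π ^ (p * e) * (H : F0)) ∧
      P.Monic ∧ P.natDegree = p ∧
      (1 + algebraMap (ssl_locSub F0 𝔫) LL (algebraMap A0 (ssl_locSub F0 𝔫) (ζ - 1)) *
        s44mci_eps (algebraMap A0 (ssl_locSub F0 𝔫) (ζ - 1)) Dd y = y / algebraMap F0 LL Dd) ∧
      s44me_Gen F0 P (s44mci_eps (algebraMap A0 (ssl_locSub F0 𝔫) (ζ - 1)) Dd y) ∧
      (⟨u, huS⟩ : ssl_locSub F0 𝔫) * ⟨v, hvS⟩ = algebraMap A0 (ssl_locSub F0 𝔫) a ∧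
      s44n_Node (algebraMap A0 (ssl_locSub F0 𝔫) π) (⟨u, huS⟩ : ssl_locSub F0 𝔫) ⟨v, hvS⟩ k'
        (s44tl_br 𝔫 (fc_chart1_le x) P2) (s44tl_br 𝔫 (fc_chart1_le x) P1) ∧
      maximalIdeal (ssl_locSub F0 𝔫) =
        Ideal.span {algebraMap A0 (ssl_locSub F0 𝔫) π, (⟨u, huS⟩ : ssl_locSub F0 𝔫), ⟨v, hvS⟩} ∧
      s44me_Split P (s44tl_br 𝔫 (fc_chart1_le x) P2)
        (fun j : Fin p => r₁ + (((j : ℕ) : ssl_locSub F0 𝔫))) ∧
      s44me_Split P (s44tl_br 𝔫 (fc_chart1_le x) P1)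
        (fun j : Fin p => r₂ + (((j : ℕ) : ssl_locSub F0 𝔫))) := by
  haveI := M.isAlg
  haveI := ssa_noeth1 M
  haveI : IsIntegrallyClosed (fc_chart A0 ({x} : Set F0)) := ssl_chart_isIntegrallyClosed {x}
  haveI := M.prime1
  haveI := M.prime2
  have hϖ0 := ssa_pi_ne_zero M
  have hx := ssa_x_ne_zero M
  obtain ⟨huv, hu, hv, hgen, hu1, hv2⟩ := hU
  have huS : u ∈ ssl_locSub F0 𝔫 := s44mci_mem_loc_of 𝔫 hu
  have hvS : v ∈ ssl_locSub F0 𝔫 := s44mci_mem_loc_of 𝔫 hv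
  obtain ⟨k', Dd, H, P, r₁, r₂, ha0, hk, hD0, hfD, hmonic, hdeg, heps, hGen, hNode, hmax, hs₁,
      hs₂⟩ :=
    s44mci_chart_sheet (K := K) 𝔫 (fc_chart1_le x) hπ hπ𝔫 hϖ0 M.hrad M.hxS1
      (fun z hz => fc_clear1 hx hz) huv hu hv hgen hu1 hv2 huS hvS _ (ssl_model_OB1 M) D hf hord
      hrat hglob hy hfin hgenLL
  refine ⟨huS, hvS, k', Dd, H, P, r₁, r₂, ha0, hk, hD0, hfD, hmonic, hdeg, heps, hGen, ?_, hNode,
    hmax, hs₁, hs₂⟩
  apply Subtype.ext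
  exact huv

end Model

end Fermat.Agent.S44
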