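/-
S44, [H2-S] glue on the etale sheet (helper26; prefix `s44me_`), same setting as `Mono/EtSheet.lean`.

(V1) `s44me_val_eq_valAt` : a valuation subring `W` of `E = Frac S` containing `S` with
     `𝔪_W ∩ S = 𝔭`, `𝔭` of height one (`S` noetherian integrally closed), IS `S_𝔭 = ssl_valAt 𝔭`.
(V2) `s44me_valAt_restr`  : the valuation ring `R_P` of the sheet ring `R = T_𝔑` at a localised
     sheet prime `P = 𝔓_i R` restricts to `E` as ANY valuation subring `v₀` of `E` dominating `S_𝔭`
     — the hypothesis `hV` of the conjugacy `s44mh_conj_val` (Mono/SheetVal.lean).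
(V3) `s44me_maximalIdeal_span` : `𝔪_S = (lam, u, v)` ⟹ `𝔪_R = (lam, u, v) R`.
-/
import Mathlib
import Fermat.Agent.S44.Mono.EtSheet

set_option autoImplicit false
set_option linter.unusedSectionVars false
set_option linter.unusedVariables false
set_option linter.style.haveILetI false

noncomputable section

namespace Fermat.Agent.S44

open Polynomial Fermat.Agent.SS

section V1

variable {S : Type*} [CommRing S] [IsDomain S] [IsNoetherianRing S] [IsIntegrallyClosed S]
  {E : Type*} [Field E] [Algebra S E] [IsFractionRing S E]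

/-- **(V1)** the only valuation subring of `E` dominating `S_𝔭` (`𝔭` of height one) is `S_𝔭`. -/
theorem s44me_val_eq_valAt (𝔭 : Ideal S) [h𝔭 : 𝔭.IsPrime] (h1 : 𝔭.height = 1)
    (W : ValuationSubring E) (hW : ∀ s : S, algebraMap S E s ∈ W)
    (hW𝔭 : ∀ s : S, algebraMap S E s ∈ W.nonunits ↔ s ∈ 𝔭) :
    W = ssl_valAt (F := E) 𝔭 h1 := by
  have hunit : ∀ s : S, s ∉ 𝔭 → algebraMap S E s ≠ 0 ∧ (algebraMap S E s)⁻¹ ∈ W := by
    intro s hs
    have h := mt (hW𝔭 s).1 hs
    rw [ValuationSubring.mem_nonunits_iff_or, not_or, not_not] at h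
    exact h
  ext x
  constructor
  · intro hx
    by_contra hxV
    have hx0 : x ≠ 0 := fun h0 => hxV (h0 ▸ (ssl_valAt (F := E) 𝔭 h1).zero_mem)
    have hinv : x⁻¹ ∈ (ssl_valAt (F := E) 𝔭 h1).nonunits := by
      rw [ValuationSubring.mem_nonunits_iff_or, inv_inv]
      exact Or.inr hxV
    obtain ⟨b, s, hb, hs, e⟩ := (ssl_mem_valAt_nonunits 𝔭 h1).1 hinv
    obtain ⟨hs0, hsW⟩ := hunit s hs
    have hbW : algebraMap S E b ∈ W.nonunits := (hW𝔭 b).2 hb
    have e2 : x⁻¹ = (algebraMap S E s)⁻¹ * algebraMap S E b := by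
      rw [← e, mul_comm x⁻¹, ← mul_assoc, inv_mul_cancel₀ hs0, one_mul]
    have hxn : x⁻¹ ∈ W.nonunits := by
      rw [e2, ValuationSubring.mem_nonunits_iff_exists_mem_maximalIdeal] at *
      obtain ⟨hbV, hbm⟩ := hbW
      exact ⟨W.mul_mem _ _ hsW hbV, Ideal.mul_mem_left _ (⟨_, hsW⟩ : ↥W) hbm⟩
    rw [ValuationSubring.mem_nonunits_iff_or, inv_inv, inv_eq_zero] at hxn
    rcases hxn with h | h
    · exact hx0 h
    · exact h hx
  · intro hx
    obtain ⟨a, s, hs, e⟩ := (ssl_mem_valAt 𝔭 h1).1 hx
    obtain ⟨hs0, hsW⟩ := hunit s hs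
    have e2 : x = algebraMap S E a * (algebraMap S E s)⁻¹ := by
      rw [← e, mul_assoc, mul_inv_cancel₀ hs0, mul_one]
    rw [e2]
    exact W.mul_mem _ _ (hW a) hsW

end V1

section Comap

variable {F F' : Type*} [Field F] [Field F']

theorem s44me_mem_comap_nonunits (V : ValuationSubring F') (φ : F →+* F') (y : F) :
    y ∈ (V.comap φ).nonunits ↔ φ y ∈ V.nonunits := by
  rw [ValuationSubring.mem_nonunits_iff_or, ValuationSubring.mem_nonunits_iff_or,
    ValuationSubring.mem_comap, map_inv₀, map_eq_zero]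

end Comap

section V2

variable {S : Type*} [CommRing S] [IsDomain S] [IsIntegrallyClosed S] [IsNoetherianRing S]
  [IsLocalRing S]
  {E : Type*} [Field E] [Algebra S E] [IsFractionRing S E]
  {LL : Type*} [Field LL] [Algebra E LL] [Algebra S LL] [IsScalarTower S E LL]
  [FiniteDimensional E LL] [Algebra.IsSeparable E LL]
  {P0 : S[X]} {eps : LL}
  {𝔭 : Ideal S} {ι : Type*} [Fintype ι] {r : ι → S}

/-- **(V2)** the valuation ring of the sheet ring `R` at the localised sheet prime restricts to `E`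
as any valuation subring `v₀` of `E` dominating `S_𝔭`. -/
theorem s44me_valAt_restr (h : s44me_Gen E P0 eps) (hs : s44me_Split P0 𝔭 r)
    (NN : Ideal ↥(integralClosure S LL)) [hNN : NN.IsMaximal]
    (R : Type*) [CommRing R] [Algebra ↥(integralClosure S LL) R]
    [hloc : IsLocalization.AtPrime R NN]
    [Algebra S R] [IsScalarTower S ↥(integralClosure S LL) R]
    [IsDomain R] [IsNoetherianRing R] [IsIntegrallyClosed R]
    [Algebra R LL] [IsFractionRing R LL] [IsScalarTower ↥(integralClosure S LL) R LL]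
    {i : ι} (hle : s44me_P h hs i ≤ NN) [h𝔭 : 𝔭.IsPrime] (h1 : 𝔭.height = 1)
    [hPR : ((s44me_P h hs i).map (algebraMap ↥(integralClosure S LL) R)).IsPrime]
    (h1R : ((s44me_P h hs i).map (algebraMap ↥(integralClosure S LL) R)).height = 1)
    (v₀ : ValuationSubring E) (hv₀ : ∀ s : S, algebraMap S E s ∈ v₀)
    (hv₀𝔭 : ∀ s : S, algebraMap S E s ∈ v₀.nonunits ↔ s ∈ 𝔭) (x : E) :
    algebraMap E LL x ∈ ssl_valAt (F := LL)
      ((s44me_P h hs i).map (algebraMap ↥(integralClosure S LL) R)) h1R ↔ x ∈ v₀ := by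
  set PR := (s44me_P h hs i).map (algebraMap ↥(integralClosure S LL) R) with hPRdef
  have htower : ∀ s : S, algebraMap E LL (algebraMap S E s) = algebraMap R LL (algebraMap S R s) := by
    intro s
    rw [← IsScalarTower.algebraMap_apply S E LL,
      IsScalarTower.algebraMap_apply S ↥(integralClosure S LL) R,
      ← IsScalarTower.algebraMap_apply ↥(integralClosure S LL) R LL]
    rfl
  have hinjR : Function.Injective (algebraMap R LL) := IsFractionRing.injective R LL
  set W : ValuationSubring E := (ssl_valAt (F := LL) PR h1R).comap (algebraMap E LL) with hWdef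
  have hW : ∀ s : S, algebraMap S E s ∈ W := by
    intro s
    rw [hWdef, ValuationSubring.mem_comap, htower, ssl_mem_valAt]
    exact ⟨algebraMap S R s, 1, fun h1' => hPR.ne_top ((Ideal.eq_top_iff_one _).2 h1'),
      by rw [map_one, mul_one]⟩
  have hW𝔭 : ∀ s : S, algebraMap S E s ∈ W.nonunits ↔ s ∈ 𝔭 := by
    intro s
    have e1 : algebraMap S E s ∈ W.nonunits ↔
        algebraMap E LL (algebraMap S E s) ∈ (ssl_valAt (F := LL) PR h1R).nonunits := by
      rw [hWdef]
      exact s44me_mem_comap_nonunits _ (algebraMap E LL) _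
    rw [e1, htower, ssl_mem_valAt_nonunits, ← s44me_algebraMapS_mem_PR h hs NN R hle s]
    constructor
    · rintro ⟨b, t, hb, ht, e⟩
      by_contra hsP
      apply ht
      have e' : algebraMap S R s * t = b := hinjR (by rw [map_mul, e])
      have hmem : algebraMap S R s * t ∈ PR := e' ▸ hb
      exact (hPR.mem_or_mem hmem).resolve_left hsP
    · intro hsP
      exact ⟨algebraMap S R s, 1, hsP, fun h1' => hPR.ne_top ((Ideal.eq_top_iff_one _).2 h1'),
        by rw [map_one, mul_one]⟩
  have eW := s44me_val_eq_valAt 𝔭 h1 W hW hW𝔭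
  have e0 := s44me_val_eq_valAt 𝔭 h1 v₀ hv₀ hv₀𝔭
  have : algebraMap E LL x ∈ ssl_valAt (F := LL) PR h1R ↔ x ∈ W := by
    rw [hWdef, ValuationSubring.mem_comap]
  rw [this, eW, e0]

end V2

section V3

variable {S : Type*} [CommRing S] [IsDomain S] [IsIntegrallyClosed S] [IsNoetherianRing S]
  [IsLocalRing S]
  {E : Type*} [Field E] [Algebra S E] [IsFractionRing S E]
  {LL : Type*} [Field LL] [Algebra E LL] [Algebra S LL] [IsScalarTower S E LL]
  [FiniteDimensional E LL] [Algebra.IsSeparable E LL]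
  {P0 : S[X]} {eps : LL}

/-- **(V3)** the maximal ideal of the sheet ring is generated by the node parameters. -/
theorem s44me_maximalIdeal_span (h : s44me_Gen E P0 eps)
    (NN : Ideal ↥(integralClosure S LL)) [hNN : NN.IsMaximal]
    (R : Type*) [CommRing R] [Algebra ↥(integralClosure S LL) R]
    [hloc : IsLocalization.AtPrime R NN]
    [Algebra S R] [IsScalarTower S ↥(integralClosure S LL) R] [IsLocalRing R]
    {lam u v : S} (hm : IsLocalRing.maximalIdeal S = Ideal.span {lam, u, v}) :
    IsLocalRing.maximalIdeal R =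
      Ideal.span {algebraMap S R lam, algebraMap S R u, algebraMap S R v} := by
  rw [← s44me_map_maximalIdeal NN R h, hm, Ideal.map_span]
  congr 1
  simp only [Set.image_insert_eq, Set.image_singleton]

end V3

end Fermat.Agent.S44
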