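/-
S44 project, cell [H2] MONO-MAIN, sub-cell [H2-CI] (helper16).  Prefix `s44mci_`.

**THE LOCAL RING OF A CHART AT A POINT OF A VERTICAL COMPONENT, AND THE VALUATION RING OF THAT
COMPONENT.**

`B ≤ B12 ⊆ F0` charts, `V` a valuation subring of `F0` containing `B12` (the Gauss valuation ring of a
vertical component), `P = ssm_tp_P B12 V = 𝔪_V ∩ B12`, `𝔫` a prime of `B` on that component
(`P ∩ B ≤ 𝔫`), `S = B_𝔫 = ssl_locSub F0 𝔫`, `𝔭 = s44tl_br 𝔫 hle P = (P ∩ B) S`.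

* `s44mci_tr_eq`         : `P ∩ B = ssm_tp_P B V`  (the two ways of writing the crossing hypothesis);
* `s44mci_loc_le_V`      : `S ⊆ V`;
* `s44mci_loc_nonunits`  : `s ∈ 𝔪_V ↔ s ∈ 𝔭` for `s ∈ S`;
* `s44mci_memAt_iff`     : `S_𝔭 = V`, i.e. `ssl_MemAt F0 𝔭 z ↔ z ∈ V`, when `𝔭` has height one
                           (`S` noetherian, integrally closed) — via helper26's `s44me_val_eq_valAt`;

these are the hypotheses `hv₀` (`V = V2`, the `0`-component) and `hV`, `hV𝔭` (after restriction of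
`V_∞` to `F0`, `V = V1`) of `s44ga_pair` at the chart rings.
-/
import Mathlib
import Fermat.Agent.S44.Mono.CIModel
import Fermat.Agent.S44.Mono.EtVal

set_option autoImplicit false
set_option linter.unusedSectionVars false
set_option linter.style.haveILetI false
set_option linter.unusedVariables false

noncomputable section

namespace Fermat.Agent.S44

open Fermat.Agent.SS Fermat.Agent.JT3 IsLocalRing

section Val

variable {A0 : Type*} [CommRing A0] [IsDomain A0] [IsDiscreteValuationRing A0]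
  {F0 : Type*} [Field F0] [Algebra A0 F0]
  {B B12 : Subalgebra A0 F0} [IsFractionRing B F0] [IsNoetherianRing B] [IsIntegrallyClosed B]
  (hle : B ≤ B12)
  (V : ValuationSubring F0) (hV : ∀ b ∈ B12, b ∈ V)
  (𝔫 : Ideal B) [h𝔫 : 𝔫.IsPrime]

include hV in
/-- `(𝔪_V ∩ B12) ∩ B = 𝔪_V ∩ B`. -/
theorem s44mci_tr_eq : s44tl_tr hle (ssm_tp_P B12 V) = ssm_tp_P B V := by
  ext b
  rw [ssm_tp_mem_P (fun z hz => hV z (hle hz))]
  unfold s44tl_tr
  rw [Ideal.mem_comap, ssm_tp_mem_P hV]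
  rfl

include hV in
/-- an element of `B` outside `𝔫` is a unit of `V`. -/
theorem s44mci_unit_of_not_mem (hpass : s44tl_tr hle (ssm_tp_P B12 V) ≤ 𝔫) {t : B} (ht : t ∉ 𝔫) :
    (t : F0) ∉ V.nonunits := by
  intro h
  apply ht
  apply hpass
  unfold s44tl_tr
  rw [Ideal.mem_comap, ssm_tp_mem_P hV]
  exact h

include hV in
/-- `B_𝔫 ⊆ V`. -/
theorem s44mci_loc_le_V (hpass : s44tl_tr hle (ssm_tp_P B12 V) ≤ 𝔫) {z : F0}
    (hz : z ∈ ssl_locSub F0 𝔫) : z ∈ V := by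
  rw [ssl_mem_locSub] at hz
  obtain ⟨a, t, ht, e⟩ := hz
  have htu := s44mci_unit_of_not_mem hle V hV 𝔫 hpass ht
  have ht0 : (t : F0) ≠ 0 := ssm_tp_ne_zero V htu
  have hz' : z = (a : F0) * (t : F0)⁻¹ := by
    have e' : z * (t : F0) = (a : F0) := e
    rw [← e', mul_assoc, mul_inv_cancel₀ ht0, mul_one]
  rw [hz']
  exact V.mul_mem _ _ (hV _ (hle a.2)) (ssm_tp_inv_mem V htu)

include hV in
/-- for `s ∈ B_𝔫`: `s ∈ 𝔪_V ↔ s ∈ (𝔪_V ∩ B) B_𝔫`. -/
theorem s44mci_loc_nonunits (hpass : s44tl_tr hle (ssm_tp_P B12 V) ≤ 𝔫)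
    (s : ssl_locSub F0 𝔫) :
    (s : F0) ∈ V.nonunits ↔ s ∈ s44tl_br 𝔫 hle (ssm_tp_P B12 V) := by
  rw [s44tl_mem_br]
  constructor
  · intro hs
    have hz := s.2
    rw [ssl_mem_locSub] at hz
    obtain ⟨a, t, ht, e⟩ := hz
    refine ⟨a, t, ?_, ht, e⟩
    rw [ssm_tp_mem_P hV]
    have e' : (s : F0) * (t : F0) = (a : F0) := e
    show (a : F0) ∈ V.nonunits
    rw [← e']
    exact ssm_tp_nonunits_mul V hs (hV _ (hle t.2))
  · rintro ⟨a, t, ha, ht, e⟩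
    rw [ssm_tp_mem_P hV] at ha
    have ha' : (a : F0) ∈ V.nonunits := ha
    have htu := s44mci_unit_of_not_mem hle V hV 𝔫 hpass ht
    have ht0 : (t : F0) ≠ 0 := ssm_tp_ne_zero V htu
    have hs' : (s : F0) = (a : F0) * (t : F0)⁻¹ := by
      rw [← e, mul_assoc, mul_inv_cancel₀ ht0, mul_one]
    rw [hs']
    exact ssm_tp_nonunits_mul V ha' (ssm_tp_inv_mem V htu)

end Val

section MemAt

variable {A0 : Type*} [CommRing A0] [IsDomain A0] [IsDiscreteValuationRing A0]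
  {F0 : Type*} [Field F0] [Algebra A0 F0]
  {B B12 : Subalgebra A0 F0} [IsFractionRing B F0] [IsNoetherianRing B] [IsIntegrallyClosed B]
  (hle : B ≤ B12)
  (V : ValuationSubring F0) (hV : ∀ b ∈ B12, b ∈ V)
  (𝔫 : Ideal B) [h𝔫 : 𝔫.IsPrime]

include hV in
/-- **`S_𝔭 = V`** for the branch `𝔭 = (𝔪_V ∩ B) B_𝔫` of height one. -/
theorem s44mci_memAt_iff (hpass : s44tl_tr hle (ssm_tp_P B12 V) ≤ 𝔫)
    [hp : (s44tl_br 𝔫 hle (ssm_tp_P B12 V)).IsPrime]
    (h1 : (s44tl_br 𝔫 hle (ssm_tp_P B12 V)).height = 1) (z : F0) :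
    ssl_MemAt F0 (s44tl_br 𝔫 hle (ssm_tp_P B12 V)) z ↔ z ∈ V := by
  haveI := ssl_loc_isNoetherianRing (F0 := F0) 𝔫
  haveI := ssl_loc_isIntegrallyClosed (F0 := F0) 𝔫
  have hW : ∀ s : ssl_locSub F0 𝔫, algebraMap (ssl_locSub F0 𝔫) F0 s ∈ V := fun s =>
    s44mci_loc_le_V hle V hV 𝔫 hpass s.2
  have hW𝔭 : ∀ s : ssl_locSub F0 𝔫, algebraMap (ssl_locSub F0 𝔫) F0 s ∈ V.nonunits ↔
      s ∈ s44tl_br 𝔫 hle (ssm_tp_P B12 V) := fun s =>
    s44mci_loc_nonunits hle V hV 𝔫 hpass s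
  have key := s44me_val_eq_valAt (s44tl_br 𝔫 hle (ssm_tp_P B12 V)) h1 V hW hW𝔭
  constructor
  · intro hz
    rw [key, ssl_mem_valAt]
    exact hz
  · intro hz
    rw [key, ssl_mem_valAt] at hz
    exact hz

end MemAt

end Fermat.Agent.S44
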