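/-
S44 project, cell [H2] MONO-MAIN, sub-cell [H2-CI] (helper16).  Prefix `s44mci_`.

**THE LEGENDRE INSTANCE OF `Mono/CIVal.lean`.**  Setting of helper29's `s44mu_node`
(`Mono/UNode.lean`): `L` a number field containing a primitive `N'`-th root of unity, `O` a discrete
valuation ring of `L` of odd residue characteristic `q ∤ N'`, `π` a uniformiser, `E = lg_E L (N' q)`,
`B = fc_chart O {λ}`, `B12 = fc_chart O {λ, λ⁻¹}`, `V1 = ssm_gl_V1` (`w_∞`), `V2 = ssm_gl_V2` (`w_0`),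
`P_i = ssm_tp_P B12 V_i`.  For a prime `𝔫` of `B` through both components, `S = B_𝔫`:

* `s44mci_leg_le_V1`, `s44mci_leg_le_V2`   : `B12 ⊆ V_i`;
* `s44mci_leg_pass1`, `s44mci_leg_pass2`   : the crossing hypotheses of `s44mu_node` in the `s44tl_tr` form;
* `s44mci_leg_val`  : `S ⊆ V_i`, `s ∈ 𝔪_{V_i} ↔ s ∈ (P_i ∩ B) S`, and `S_{(P_i ∩ B) S} = V_i` when the branch has
                      height one  (= `hv₀`, `hV`, `hV𝔭` of `s44ga_pair` on `E`).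
-/
import Mathlib
import Fermat.Agent.S44.Mono.CIVal
import Fermat.Agent.S44.Mono.UNode

set_option autoImplicit false
set_option linter.unusedSectionVars false
set_option linter.style.haveILetI false
set_option linter.unusedVariables false

noncomputable section

namespace Fermat.Agent.S44

open ModularCurve IntermediateField IsLocalRing Polynomial
open Fermat.Agent.JT3 Fermat.Agent.SS

section NF

variable (L : Type) [Field L] [NumberField L] [Algebra L (AlgebraicClosure ℚ)]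
  (O : ValuationSubring L) [IsDiscreteValuationRing O] {π : O} (hπ : Irreducible π)
variable (N' q : ℕ) [NeZero N'] [NeZero q] [hq : Fact q.Prime] [CharP (ResidueField O) q]
  (hq2 : ¬ 2 ∣ q) (hqN' : ¬ q ∣ N') (ζ : L) (hζ : IsPrimitiveRoot ζ N')

include hζ in
set_option synthInstance.maxHeartbeats 400000 in
set_option maxHeartbeats 1600000 in
/-- `B12 ⊆ V1` and `B12 ⊆ V2`. -/
theorem s44mci_leg_le_V :
    (∀ b ∈ fc_chart ↥O ({lg_lamE (N' * q), (lg_lamE (N' * q))⁻¹} : Set ↥(lg_E L (N' * q))),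
      b ∈ ssm_gl_V1 O hπ N' q) ∧
    (∀ b ∈ fc_chart ↥O ({lg_lamE (N' * q), (lg_lamE (N' * q))⁻¹} : Set ↥(lg_E L (N' * q))),
      b ∈ ssm_gl_V2 O hπ N' q hq2 hqN') := by
  have hqO : ((q : ℕ) : O) ∈ maximalIdeal O := ssm_fln_q_mem L O q
  have hq2' : q ≠ 2 := ssm_fl_ne_two q hq2
  have hp := ssm_ll_prime L N' hπ q hqO hq2' hqN' ζ hζ
  haveI := ssm_go_isScalarTower O (lg_E L (N' * q))
  have H := ssm_gl_hyp O hπ N' q hq2 hqN' hp.1
  have hx : Transcendental L (lg_lamE (L := L) (N' * q)) :=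
    lgf_lam_transcendental L (N' * q) two_ne_zero
  have hC12 := ssm_tp_ff_chart12 (L := L) hπ hx
  haveI : IsIntegrallyClosed (Algebra.adjoin ↥O ({lg_lamE (N' * q)} : Set ↥(lg_E L (N' * q)))) :=
    fc_ff_isIntegrallyClosed (fc_ff_transcendental (L := L) hx)
  haveI : FaithfulSMul (Algebra.adjoin ↥O ({lg_lamE (N' * q)} : Set ↥(lg_E L (N' * q))))
      ↥(lg_E L (N' * q)) :=
    (faithfulSMul_iff_algebraMap_injective _ _).2 Subtype.val_injective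
  exact ⟨fun b hb => hC12.le H.over1 hb, fun b hb => hC12.le H.over2 hb⟩

/-- `E` is algebraic over `O[λ]` (hence `IsFractionRing (fc_chart O {λ}) E` by instance). -/
theorem s44mci_leg_isAlg (N : ℕ) [NeZero N] :
    Algebra.IsAlgebraic (Algebra.adjoin ↥O ({lg_lamE N} : Set ↥(lg_E L N))) ↥(lg_E L N) := by
  haveI := lgf_finite L N
  exact fc_ff_isAlgebraic (L := L) (lg_lamE N)

/-- the `λ`-chart is noetherian. -/
theorem s44mci_leg_noeth (N : ℕ) [NeZero N] :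
    IsNoetherianRing (fc_chart ↥O ({lg_lamE N} : Set ↥(lg_E L N))) := by
  haveI := lgf_finite L N
  have hx : Transcendental L (lg_lamE (L := L) N) := lgf_lam_transcendental L N two_ne_zero
  have := fc_chart_isNoetherianRing (A0 := ↥O) (F0 := ↥(lg_E L N)) {lg_lamE N}
    (by rw [Finset.coe_singleton]; exact fc_ff_finite (L := L) hx)
  rwa [Finset.coe_singleton] at this

/-- the `λ`-chart is integrally closed. -/
theorem s44mci_leg_ic (N : ℕ) [NeZero N] :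
    IsIntegrallyClosed (fc_chart ↥O ({lg_lamE N} : Set ↥(lg_E L N))) := by
  haveI := s44mci_leg_isAlg L O N
  exact ssl_chart_isIntegrallyClosed {lg_lamE N}

include hζ in
set_option synthInstance.maxHeartbeats 400000 in
set_option maxHeartbeats 1600000 in
/-- **the local ring of the `λ`-chart at a point of both components, and the two Gauss valuation
rings**: `S ⊆ V_i`, `𝔪_{V_i} ∩ S = (P_i ∩ B) S`, and `S_{(P_i ∩ B) S} = V_i` if the branch has height one. -/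
theorem s44mci_leg_val
    (𝔫 : Ideal (fc_chart ↥O ({lg_lamE (N' * q)} : Set ↥(lg_E L (N' * q))))) [h𝔫 : 𝔫.IsPrime]
    (h1 : ssm_tp_P (fc_chart ↥O ({lg_lamE (N' * q)} : Set ↥(lg_E L (N' * q))))
      (ssm_gl_V1 O hπ N' q) ≤ 𝔫)
    (h2 : ssm_tp_P (fc_chart ↥O ({lg_lamE (N' * q)} : Set ↥(lg_E L (N' * q))))
      (ssm_gl_V2 O hπ N' q hq2 hqN') ≤ 𝔫) :
    haveI := s44mci_leg_isAlg L O (N' * q)
    haveI := s44mci_leg_noeth L O (N' * q)
    haveI := s44mci_leg_ic L O (N' * q)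
    (s44tl_tr (fc_chart1_le (lg_lamE (N' * q) : ↥(lg_E L (N' * q))))
      (ssm_tp_P (fc_chart ↥O ({lg_lamE (N' * q), (lg_lamE (N' * q))⁻¹} :
        Set ↥(lg_E L (N' * q)))) (ssm_gl_V1 O hπ N' q)) ≤ 𝔫 ∧
     s44tl_tr (fc_chart1_le (lg_lamE (N' * q) : ↥(lg_E L (N' * q))))
      (ssm_tp_P (fc_chart ↥O ({lg_lamE (N' * q), (lg_lamE (N' * q))⁻¹} :
        Set ↥(lg_E L (N' * q)))) (ssm_gl_V2 O hπ N' q hq2 hqN')) ≤ 𝔫) ∧
    (∀ z ∈ ssl_locSub ↥(lg_E L (N' * q)) 𝔫,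
      z ∈ ssm_gl_V1 O hπ N' q ∧ z ∈ ssm_gl_V2 O hπ N' q hq2 hqN') ∧
    (∀ s : ssl_locSub ↥(lg_E L (N' * q)) 𝔫,
      ((s : ↥(lg_E L (N' * q))) ∈ (ssm_gl_V1 O hπ N' q).nonunits ↔
        s ∈ s44tl_br 𝔫 (fc_chart1_le (lg_lamE (N' * q) : ↥(lg_E L (N' * q))))
          (ssm_tp_P (fc_chart ↥O ({lg_lamE (N' * q), (lg_lamE (N' * q))⁻¹} :
            Set ↥(lg_E L (N' * q)))) (ssm_gl_V1 O hπ N' q))) ∧
      ((s : ↥(lg_E L (N' * q))) ∈ (ssm_gl_V2 O hπ N' q hq2 hqN').nonunits ↔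
        s ∈ s44tl_br 𝔫 (fc_chart1_le (lg_lamE (N' * q) : ↥(lg_E L (N' * q))))
          (ssm_tp_P (fc_chart ↥O ({lg_lamE (N' * q), (lg_lamE (N' * q))⁻¹} :
            Set ↥(lg_E L (N' * q)))) (ssm_gl_V2 O hπ N' q hq2 hqN')))) ∧
    (∀ [(s44tl_br 𝔫 (fc_chart1_le (lg_lamE (N' * q) : ↥(lg_E L (N' * q))))
          (ssm_tp_P (fc_chart ↥O ({lg_lamE (N' * q), (lg_lamE (N' * q))⁻¹} :
            Set ↥(lg_E L (N' * q)))) (ssm_gl_V1 O hπ N' q))).IsPrime],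
      (s44tl_br 𝔫 (fc_chart1_le (lg_lamE (N' * q) : ↥(lg_E L (N' * q))))
          (ssm_tp_P (fc_chart ↥O ({lg_lamE (N' * q), (lg_lamE (N' * q))⁻¹} :
            Set ↥(lg_E L (N' * q)))) (ssm_gl_V1 O hπ N' q))).height = 1 →
      ∀ z : ↥(lg_E L (N' * q)),
        ssl_MemAt ↥(lg_E L (N' * q))
          (s44tl_br 𝔫 (fc_chart1_le (lg_lamE (N' * q) : ↥(lg_E L (N' * q))))
            (ssm_tp_P (fc_chart ↥O ({lg_lamE (N' * q), (lg_lamE (N' * q))⁻¹} :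
              Set ↥(lg_E L (N' * q)))) (ssm_gl_V1 O hπ N' q))) z ↔
          z ∈ ssm_gl_V1 O hπ N' q) ∧
    (∀ [(s44tl_br 𝔫 (fc_chart1_le (lg_lamE (N' * q) : ↥(lg_E L (N' * q))))
          (ssm_tp_P (fc_chart ↥O ({lg_lamE (N' * q), (lg_lamE (N' * q))⁻¹} :
            Set ↥(lg_E L (N' * q)))) (ssm_gl_V2 O hπ N' q hq2 hqN'))).IsPrime],
      (s44tl_br 𝔫 (fc_chart1_le (lg_lamE (N' * q) : ↥(lg_E L (N' * q))))
          (ssm_tp_P (fc_chart ↥O ({lg_lamE (N' * q), (lg_lamE (N' * q))⁻¹} :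
            Set ↥(lg_E L (N' * q)))) (ssm_gl_V2 O hπ N' q hq2 hqN'))).height = 1 →
      ∀ z : ↥(lg_E L (N' * q)),
        ssl_MemAt ↥(lg_E L (N' * q))
          (s44tl_br 𝔫 (fc_chart1_le (lg_lamE (N' * q) : ↥(lg_E L (N' * q))))
            (ssm_tp_P (fc_chart ↥O ({lg_lamE (N' * q), (lg_lamE (N' * q))⁻¹} :
              Set ↥(lg_E L (N' * q)))) (ssm_gl_V2 O hπ N' q hq2 hqN'))) z ↔
          z ∈ ssm_gl_V2 O hπ N' q hq2 hqN') := by
  haveI := s44mci_leg_isAlg L O (N' * q)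
  haveI := s44mci_leg_noeth L O (N' * q)
  haveI := s44mci_leg_ic L O (N' * q)
  obtain ⟨hV1, hV2⟩ := s44mci_leg_le_V L O hπ N' q hq2 hqN' ζ hζ
  have hp1 : s44tl_tr (fc_chart1_le (lg_lamE (N' * q) : ↥(lg_E L (N' * q))))
      (ssm_tp_P (fc_chart ↥O ({lg_lamE (N' * q), (lg_lamE (N' * q))⁻¹} :
        Set ↥(lg_E L (N' * q)))) (ssm_gl_V1 O hπ N' q)) ≤ 𝔫 := by
    rw [s44mci_tr_eq _ _ hV1]; exact h1
  have hp2 : s44tl_tr (fc_chart1_le (lg_lamE (N' * q) : ↥(lg_E L (N' * q))))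
      (ssm_tp_P (fc_chart ↥O ({lg_lamE (N' * q), (lg_lamE (N' * q))⁻¹} :
        Set ↥(lg_E L (N' * q)))) (ssm_gl_V2 O hπ N' q hq2 hqN')) ≤ 𝔫 := by
    rw [s44mci_tr_eq _ _ hV2]; exact h2
  refine ⟨⟨hp1, hp2⟩, fun z hz => ⟨s44mci_loc_le_V _ _ hV1 𝔫 hp1 hz,
    s44mci_loc_le_V _ _ hV2 𝔫 hp2 hz⟩, fun s => ⟨s44mci_loc_nonunits _ _ hV1 𝔫 hp1 s,
    s44mci_loc_nonunits _ _ hV2 𝔫 hp2 s⟩, ?_, ?_⟩
  · intro _ hh z
    exact s44mci_memAt_iff _ _ hV1 𝔫 hp1 hh z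
  · intro _ hh z
    exact s44mci_memAt_iff _ _ hV2 𝔫 hp2 hh z

end NF

end Fermat.Agent.S44
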