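/-
S44 (Mazur–Ribet at `p`), cell [H2] MONO-MAIN, sub-cell [H2-G] GAUSS-INV, second file (helper8;
prefix `s44mg_`): FORMAL HENSEL and the INTEGRALITY OF THE ARTIN–SCHREIER ROOT.

* `s44mg_hensel` : `O` a subring of `R`, `Q ∈ O[[q]][X]`, `ε ∈ R[[q]]` a root of `Q` with `ε_0 ∈ O`
  and `Q'(ε)_0` invertible in `O` ⟹ all coefficients of `ε` lie in `O`.
* `s44mg_root_int` : `O ≤ L` a valuation subring, `p = λ^(p-1) w`, `w` a unit, `λ` a nonzero
  nonunit; `y ∈ L[[q]]`, `y^p = 1 + λ^p ι(H)`, `H ∈ O[[q]]` ⟹ `y = 1 + λ ι(ε)`, `ε ∈ O[[q]]`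
  (uses helper16's `s44g_AS`).
* `s44mg_root_laurent`, `s44mg_root_split`, `s44mg_root_isQuot` : the Laurent forms: if
  `y ∈ L((q))`, `y^p = κ d^p (1 + λ^p ι(H))` with `κ ∈ L^×`, `d ≠ 0`, `H ∈ O[[q]]` then
  `y = s · d · ι(1 + λ ε)`; in particular `y ∈ gq_quotField` as soon as `d` is.
  `s44mg_one_add_res`, `s44mg_one_add_inv_bdd` : `ι(1 + λ ε)` is a Gauss unit with residue `1`.
* `s44mg_loc_int`, `s44mg_loc_int_laurent` : the `q`-expansion principle at a rational section:
  `S ⊆ L[[q]]`, `t ∈ q·O[[q]]`, `S = O + t S` ⟹ `S ⊆ ι(O[[q]])`.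

WARNING (why the power series `H` must have coefficients in `O`): `(1+q)^{1/p}` is not a quotient
of two series with bounded coefficients, and `O[[q]]` is not integrally closed in `L[[q]]`
(`(1+pq)^{1/p}`), so a Gauss-ring level splitting `fx = g^p (1 + λ^p b)` does NOT put the `p`-th
root of `fx` into `gq_quotField`.
-/
import Mathlib
import Fermat.Agent.S44.Etale.AS
import Fermat.Agent.JT3.Bridge.GaussVal
import Fermat.Prelude.Def_ModularCurve_X0ModL

set_option autoImplicit false

open PowerSeries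

namespace Fermat.Agent.S44

section Hensel

variable {R : Type*} [CommRing R] {S : Type*} [SetLike S R] [SubringClass S R] (O : S)

/-- a power series all of whose coefficients lie in `O` comes from `O[[q]]`. -/
theorem s44mg_exists_map_eq {ε : PowerSeries R} (h : ∀ n, coeff n ε ∈ O) :
    ∃ ε' : PowerSeries ↥O, PowerSeries.map (SubringClass.subtype O) ε' = ε :=
  ⟨PowerSeries.mk fun n => ⟨coeff n ε, h n⟩, by
    ext n
    rw [coeff_map, coeff_mk]
    rfl⟩

theorem s44mg_coeff_map_mem (a : PowerSeries ↥O) (n : ℕ) :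
    coeff n (PowerSeries.map (SubringClass.subtype O) a) ∈ O := by
  rw [coeff_map]
  exact (coeff n a).2

/-- **Formal Hensel.** `Q ∈ O[[q]][X]`, `ε ∈ R[[q]]` a root of `Q` whose constant term lies in `O`
and such that the constant term of `Q'(ε)` is invertible in `O`: then `ε ∈ O[[q]]`. -/
theorem s44mg_hensel (Q : Polynomial (PowerSeries ↥O)) (ε : PowerSeries R)
    (hroot : Q.eval₂ (PowerSeries.map (SubringClass.subtype O)) ε = 0)
    (h0 : constantCoeff ε ∈ O) (v : R) (hv : v ∈ O)
    (hder : v * constantCoeff (Q.derivative.eval₂ (PowerSeries.map (SubringClass.subtype O)) ε) = 1) :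
    ∀ n, coeff n ε ∈ O := by
  classical
  intro n
  induction n using Nat.strong_induction_on with
  | _ n IH =>
    rcases Nat.eq_zero_or_pos n with rfl | hn
    · rw [coeff_zero_eq_constantCoeff_apply]
      exact h0
    -- the truncation and the tail
    set a' : PowerSeries ↥O :=
      PowerSeries.mk fun m => if h : m < n then (⟨coeff m ε, IH m h⟩ : ↥O) else 0 with ha'
    set a : PowerSeries R := PowerSeries.map (SubringClass.subtype O) a' with ha
    set r : PowerSeries R := PowerSeries.mk fun m => coeff (m + n) ε with hr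
    have hdecomp : ε = a + X ^ n * r := by
      ext m
      rw [map_add, coeff_X_pow_mul', ha, coeff_map, ha', coeff_mk]
      by_cases hm : m < n
      · rw [dif_pos hm, if_neg (by omega), add_zero]
        rfl
      · rw [dif_neg hm, if_pos (by omega), hr, coeff_mk, map_zero, zero_add]
        congr 2
        omega
    have ha0 : constantCoeff a = constantCoeff ε := by
      rw [← coeff_zero_eq_constantCoeff_apply, ← coeff_zero_eq_constantCoeff_apply, ha, coeff_map,
        ha', coeff_mk, dif_pos hn]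
      rfl
    have hr0 : constantCoeff r = coeff n ε := by
      rw [← coeff_zero_eq_constantCoeff_apply, hr, coeff_mk, zero_add]
    -- Taylor expansion
    set Qm := Q.map (PowerSeries.map (SubringClass.subtype O)) with hQm
    obtain ⟨k, hk⟩ := Polynomial.binomExpansion Qm a (X ^ n * r)
    rw [← hdecomp, hQm, Polynomial.eval_map, hroot, Polynomial.eval_map, Polynomial.derivative_map,
      Polynomial.eval_map] at hk
    have hQa : Q.eval₂ (PowerSeries.map (SubringClass.subtype O)) a =
        PowerSeries.map (SubringClass.subtype O) (Q.eval a') := by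
      rw [ha, Polynomial.eval₂_hom]
    have hc := congrArg (coeff n) hk
    rw [map_zero, map_add, map_add, hQa] at hc
    have h3 : coeff n (k * (X ^ n * r) ^ 2) = 0 := by
      have : k * (X ^ n * r) ^ 2 = X ^ (2 * n) * (k * r ^ 2) := by
        rw [mul_pow, ← pow_mul]
        ring
      rw [this, coeff_X_pow_mul', if_neg (by omega)]
    have h2 : coeff n (Q.derivative.eval₂ (PowerSeries.map (SubringClass.subtype O)) a * (X ^ n * r)) =
        constantCoeff (Q.derivative.eval₂ (PowerSeries.map (SubringClass.subtype O)) ε) * coeff n ε := by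
      have : Q.derivative.eval₂ (PowerSeries.map (SubringClass.subtype O)) a * (X ^ n * r) =
          X ^ n * (Q.derivative.eval₂ (PowerSeries.map (SubringClass.subtype O)) a * r) := by ring
      rw [this, coeff_X_pow_mul', if_pos le_rfl, Nat.sub_self, coeff_zero_eq_constantCoeff_apply,
        map_mul, hr0, Polynomial.hom_eval₂, Polynomial.hom_eval₂, ha0]
    rw [h3, h2, add_zero] at hc
    -- solve for the coefficient
    have hsol : coeff n ε = - (v * coeff n (PowerSeries.map (SubringClass.subtype O) (Q.eval a'))) := by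
      have h4 : constantCoeff (Q.derivative.eval₂ (PowerSeries.map (SubringClass.subtype O)) ε) * coeff n ε =
          - coeff n (PowerSeries.map (SubringClass.subtype O) (Q.eval a')) := by
        rw [eq_neg_iff_add_eq_zero, add_comm]
        exact hc.symm
      calc coeff n ε = (v * constantCoeff (Q.derivative.eval₂ (PowerSeries.map (SubringClass.subtype O)) ε)) *
            coeff n ε := by rw [hder, one_mul]
        _ = v * (constantCoeff (Q.derivative.eval₂ (PowerSeries.map (SubringClass.subtype O)) ε) *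
            coeff n ε) := by ring
        _ = _ := by rw [h4]; ring
    rw [hsol]
    exact neg_mem (mul_mem hv (s44mg_coeff_map_mem O _ n))

end Hensel

section Root

variable {L : Type*} [Field L] (O : ValuationSubring L)

/-- **The Artin–Schreier root is integral.** If `p = λ^(p-1) w` with `w` a unit and `λ` a nonzero
nonunit of `O`, `H ∈ O[[q]]` and `y ∈ L[[q]]` is a `p`-th root of `1 + λ^p H`, then
`y = 1 + λ ε` with `ε ∈ O[[q]]`. -/
theorem s44mg_root_int {p : ℕ} (hp : p.Prime) (lam w : ↥O) (hw : IsUnit w)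
    (hlam : lam ∈ IsLocalRing.maximalIdeal ↥O) (hlam0 : lam ≠ 0)
    (hpe : (p : ↥O) = lam ^ (p - 1) * w)
    (H : PowerSeries ↥O) (y : PowerSeries L)
    (hy : y ^ p = 1 + C ((lam : L) ^ p) * PowerSeries.map (algebraMap ↥O L) H) :
    ∃ ε : PowerSeries ↥O, y = 1 + C (lam : L) * PowerSeries.map (algebraMap ↥O L) ε := by
  classical
  set ι : PowerSeries ↥O →+* PowerSeries L := PowerSeries.map (algebraMap ↥O L) with hι
  have hlamL : (lam : L) ≠ 0 := fun h => hlam0 (Subtype.ext h)
  have hCl : (C (lam : L) : PowerSeries L) ≠ 0 := by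
    intro h
    apply hlamL
    have := congrArg constantCoeff h
    simpa using this
  -- the Artin–Schreier polynomial over `O[[q]]`
  have hpeS : ((p : ℕ) : PowerSeries ↥O) = (C lam) ^ (p - 1) * C w := by
    rw [← map_pow, ← map_mul, ← hpe, map_natCast]
  obtain ⟨P0, hP0, -, ⟨Q2, hQ2⟩, hmon⟩ := s44g_AS hp (C lam : PowerSeries ↥O) (C w) hpeS
  have hlamS : (C lam : PowerSeries ↥O) ≠ 0 := by
    intro h
    apply hlam0
    have := congrArg constantCoeff h
    simpa using this
  obtain ⟨hP0mon, hP0deg⟩ := hmon inferInstance (mem_nonZeroDivisors_of_ne_zero hlamS)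
  have hιC : ∀ c : ↥O, ι (C c) = C ((c : ↥O) : L) := fun c => by
    rw [hι, PowerSeries.map_C]
    rfl
  -- the candidate
  set ε : PowerSeries L := C (lam : L)⁻¹ * (y - 1) with hε
  have hyε : y = 1 + C (lam : L) * ε := by
    rw [hε, ← mul_assoc, ← map_mul, mul_inv_cancel₀ hlamL, map_one, one_mul]
    ring
  -- `P0(ε) = H`
  have hP0ε : P0.eval₂ ι ε = ι H := by
    have h1 := congrArg (Polynomial.eval₂ ι ε) hP0
    simp only [Polynomial.eval₂_pow, Polynomial.eval₂_add, Polynomial.eval₂_one,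
      Polynomial.eval₂_mul, Polynomial.eval₂_C, Polynomial.eval₂_X, map_pow, hιC] at h1
    rw [← hyε, hy, map_pow] at h1
    have h2 : C (lam : L) ^ p * ι H = C (lam : L) ^ p * P0.eval₂ ι ε := add_left_cancel h1
    exact (mul_left_cancel₀ (pow_ne_zero p hCl) h2).symm
  set Q : Polynomial (PowerSeries ↥O) := P0 - Polynomial.C H with hQ
  have hroot : Q.eval₂ ι ε = 0 := by
    rw [hQ, Polynomial.eval₂_sub, Polynomial.eval₂_C, hP0ε, sub_self]
  have hQder : Q.derivative = Polynomial.C (C w) + Polynomial.C (C lam) * Q2 := by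
    rw [hQ, Polynomial.derivative_sub, Polynomial.derivative_C, sub_zero, hQ2]
  have hcomp : (constantCoeff (R := L)).comp ι = (algebraMap ↥O L).comp constantCoeff := by
    ext x
    rw [RingHom.comp_apply, RingHom.comp_apply, hι, ← coeff_zero_eq_constantCoeff_apply,
      coeff_map, coeff_zero_eq_constantCoeff_apply]
  -- the constant term is integral over `O`, hence in `O`
  have hQmon : Q.Monic := by
    rw [hQ]
    apply hP0mon.sub_of_left
    refine lt_of_le_of_lt Polynomial.degree_C_le ?_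
    rw [Polynomial.degree_eq_natDegree hP0mon.ne_zero, hP0deg]
    exact_mod_cast hp.pos
  have hint : IsIntegral ↥O (constantCoeff ε) := by
    refine ⟨Q.map constantCoeff, hQmon.map _, ?_⟩
    rw [Polynomial.eval₂_map, ← hcomp, ← Polynomial.hom_eval₂, hroot, map_zero]
  obtain ⟨e0, he0⟩ := IsIntegrallyClosed.algebraMap_eq_of_integral hint
  have h0 : constantCoeff ε ∈ O := by
    rw [← he0]
    exact e0.2
  -- the derivative at the constant term is a unit
  set d : ↥O := w + lam * (Q2.map constantCoeff).eval e0 with hd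
  have hdunit : IsUnit d := by
    rw [← IsLocalRing.notMem_maximalIdeal]
    intro hmem
    have hw' : w ∈ IsLocalRing.maximalIdeal ↥O := by
      have : w = d - lam * (Q2.map constantCoeff).eval e0 := by rw [hd]; ring
      rw [this]
      exact Ideal.sub_mem _ hmem (Ideal.mul_mem_right _ _ hlam)
    exact (IsLocalRing.mem_maximalIdeal w).mp hw' hw
  obtain ⟨du, hdu⟩ := hdunit
  have hderval : constantCoeff (Q.derivative.eval₂ ι ε) = algebraMap ↥O L d := by
    rw [Polynomial.hom_eval₂, hcomp, hQder, Polynomial.eval₂_add, Polynomial.eval₂_mul,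
      Polynomial.eval₂_C, Polynomial.eval₂_C, ← he0, hd, map_add, map_mul,
      ← Polynomial.eval₂_map, Polynomial.eval₂_hom, RingHom.comp_apply, RingHom.comp_apply,
      constantCoeff_C, constantCoeff_C]
  have hder : algebraMap ↥O L ((du⁻¹ : (↥O)ˣ) : ↥O) *
      constantCoeff (Q.derivative.eval₂ ι ε) = 1 := by
    rw [hderval, ← map_mul, ← hdu, Units.inv_mul, map_one]
  have hall := s44mg_hensel O Q ε hroot h0 _ ((du⁻¹ : (↥O)ˣ) : ↥O).2 hder
  obtain ⟨ε', hε'⟩ := s44mg_exists_map_eq O hall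
  exact ⟨ε', by rw [hyε]; congr 2; exact hε'.symm⟩

end Root

section Laurent

open Fermat.Agent.JT3

variable {L : Type*} [Field L] (O : ValuationSubring L)

/-- a Laurent series whose `p`-th power is a power series is a power series. -/
theorem s44mg_exists_ofPowerSeries_of_pow {p : ℕ} (hp : p ≠ 0) (y : LaurentSeries L)
    (F : PowerSeries L) (hy : y ^ p = HahnSeries.ofPowerSeries ℤ L F) :
    ∃ Y : PowerSeries L, HahnSeries.ofPowerSeries ℤ L Y = y := by
  have h1 : Valued.v (y ^ p) ≤ (1 : WithZero (Multiplicative ℤ)) :=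
    (LaurentSeries.val_le_one_iff_eq_coe L (y ^ p)).mpr ⟨F, hy.symm⟩
  rw [map_pow, pow_le_one_iff hp] at h1
  exact (LaurentSeries.val_le_one_iff_eq_coe L y).mp h1

/-- **Laurent form of the Artin–Schreier root.** If `y ∈ L((q))` satisfies
`y^p = κ (1 + λ^p ι(H))` with `κ ∈ L^×` and `H ∈ O[[q]]`, then `y = s · ι(1 + λ ε)` with
`s ∈ L^×` and `ε ∈ O[[q]]`. -/
theorem s44mg_root_laurent {p : ℕ} (hp : p.Prime) (lam w : ↥O) (hw : IsUnit w)
    (hlam : lam ∈ IsLocalRing.maximalIdeal ↥O) (hlam0 : lam ≠ 0)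
    (hpe : (p : ↥O) = lam ^ (p - 1) * w)
    (κ : L) (hκ : κ ≠ 0) (H : PowerSeries ↥O) (y : LaurentSeries L)
    (hy : y ^ p = algebraMap L (LaurentSeries L) κ *
      ModularCurve.coeffMap (algebraMap ↥O L)
        (HahnSeries.ofPowerSeries ℤ ↥O (1 + C (lam ^ p) * H))) :
    ∃ (s : L) (ε : PowerSeries ↥O), s ≠ 0 ∧ s ^ p = κ * (1 + (lam : L) ^ p * constantCoeff H) ∧
      y = algebraMap L (LaurentSeries L) s *
        ModularCurve.coeffMap (algebraMap ↥O L)
          (HahnSeries.ofPowerSeries ℤ ↥O (1 + C lam * ε)) := by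
  classical
  set ι : PowerSeries ↥O →+* PowerSeries L := PowerSeries.map (algebraMap ↥O L) with hι
  have hιC : ∀ c : ↥O, ι (C c) = C ((c : ↥O) : L) := fun c => by
    rw [hι, PowerSeries.map_C]
    rfl
  have hCL : ∀ c : L, algebraMap L (LaurentSeries L) c = HahnSeries.ofPowerSeries ℤ L (C c) := by
    intro c
    rw [HahnSeries.ofPowerSeries_C, LaurentSeries.algebraMap_apply]
  -- everything is a power series
  set F : PowerSeries L := C κ * ι (1 + C (lam ^ p) * H) with hF
  have hyF : y ^ p = HahnSeries.ofPowerSeries ℤ L F := by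
    rw [hy, hF, map_mul, ← hCL, ModularCurve.coeffMap_ofPowerSeries]
  obtain ⟨Y, rfl⟩ := s44mg_exists_ofPowerSeries_of_pow hp.ne_zero y F hyF
  have hYF : Y ^ p = F := by
    apply HahnSeries.ofPowerSeries_injective (Γ := ℤ)
    rw [map_pow]
    exact hyF
  -- the unit `u0 = 1 + λ^p H_0`
  set u0 : ↥O := 1 + lam ^ p * constantCoeff H with hu0
  have hu0unit : IsUnit u0 := by
    rw [← IsLocalRing.notMem_maximalIdeal]
    intro hmem
    have h1 : (1 : ↥O) ∈ IsLocalRing.maximalIdeal ↥O := by
      have : (1 : ↥O) = u0 - lam ^ p * constantCoeff H := by rw [hu0]; ring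
      rw [this]
      exact Ideal.sub_mem _ hmem (Ideal.mul_mem_right _ _
        (Ideal.pow_mem_of_mem _ hlam p hp.pos))
    exact (IsLocalRing.mem_maximalIdeal (1 : ↥O)).mp h1 isUnit_one
  obtain ⟨uu, huu⟩ := hu0unit
  -- the constant term
  set s : L := constantCoeff Y with hs
  have hsp : s ^ p = κ * (1 + (lam : L) ^ p * constantCoeff H) := by
    have := congrArg constantCoeff hYF
    rw [map_pow, hF, map_mul, constantCoeff_C] at this
    rw [hs, this]
    congr 1
    rw [hι, ← coeff_zero_eq_constantCoeff_apply, coeff_map, coeff_zero_eq_constantCoeff_apply]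
    simp
  have hu0L : (1 + (lam : L) ^ p * ((constantCoeff H : ↥O) : L)) = ((u0 : ↥O) : L) := by
    rw [hu0]
    simp
  have hu0L0 : ((u0 : ↥O) : L) ≠ 0 := by
    rw [← huu]
    intro h
    exact uu.ne_zero (Subtype.ext h)
  have hs0 : s ≠ 0 := by
    intro h
    rw [h, zero_pow hp.ne_zero, hu0L] at hsp
    exact (mul_ne_zero hκ hu0L0) hsp.symm
  -- normalise
  set H' : PowerSeries ↥O := C ((uu⁻¹ : (↥O)ˣ) : ↥O) * (H - C (constantCoeff H)) with hH'
  set Y' : PowerSeries L := C s⁻¹ * Y with hY'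
  clear_value Y' H' s u0 F
  have hY'p : Y' ^ p = 1 + C ((lam : L) ^ p) * ι H' := by
    have e1 : (1 : PowerSeries ↥O) + C (lam ^ p) * H = C u0 * (1 + C (lam ^ p) * H') := by
      have hinv : (C u0 : PowerSeries ↥O) * C ((uu⁻¹ : (↥O)ˣ) : ↥O) = 1 := by
        rw [← map_mul, ← huu, Units.mul_inv, map_one]
      have hexp : (C u0 : PowerSeries ↥O) = 1 + C (lam ^ p) * C (constantCoeff H) := by
        rw [hu0]
        simp only [map_add, map_mul, map_one, map_pow]
      calc (1 : PowerSeries ↥O) + C (lam ^ p) * H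
          = C u0 + (C u0 * C ((uu⁻¹ : (↥O)ˣ) : ↥O)) *
              (C (lam ^ p) * (H - C (constantCoeff H))) := by
            rw [hinv, hexp]
            ring
        _ = C u0 * (1 + C (lam ^ p) * H') := by
            rw [hH']
            ring
    have hk : (s ^ p)⁻¹ * (κ * ((u0 : ↥O) : L)) = 1 := by
      rw [hsp, hu0L]
      exact inv_mul_cancel₀ (mul_ne_zero hκ hu0L0)
    calc Y' ^ p = C ((s ^ p)⁻¹) * F := by rw [hY', mul_pow, hYF, ← map_pow, inv_pow]
      _ = C ((s ^ p)⁻¹ * (κ * ((u0 : ↥O) : L))) * ι (1 + C (lam ^ p) * H') := by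
          rw [hF, e1, map_mul ι, hιC, map_mul C, map_mul C]
          ring
      _ = 1 + C ((lam : L) ^ p) * ι H' := by
          rw [hk, map_one, one_mul, map_add, map_one, map_mul, hιC]
          simp
  obtain ⟨ε, hε⟩ := s44mg_root_int O hp lam w hw hlam hlam0 hpe H' Y' hY'p
  refine ⟨s, ε, hs0, hsp, ?_⟩
  have hY : Y = C s * Y' := by
    rw [hY', ← mul_assoc, ← map_mul, mul_inv_cancel₀ hs0, map_one, one_mul]
  rw [hY, hε, map_mul, ← hCL, ModularCurve.coeffMap_ofPowerSeries]
  congr 2
  rw [map_add, map_one, map_mul]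
  congr 2
  exact (hιC lam).symm

end Laurent

section Unit

open Fermat.Agent.JT3 IsLocalRing

variable {L : Type*} [Field L] (O : ValuationSubring L)

/-- `ι(1 + λ ε)` is bounded, with residue `1`, hence a Gauss unit. -/
theorem s44mg_one_add_res (lam : ↥O) (hlam : lam ∈ maximalIdeal ↥O) (ε : PowerSeries ↥O) :
    gq_res ↥O L ⟨ModularCurve.coeffMap (algebraMap ↥O L)
      (HahnSeries.ofPowerSeries ℤ ↥O (1 + C lam * ε)), gq_isBdd_iota _⟩ = 1 := by
  rw [gq_res_iota, ModularCurve.coeffMap_ofPowerSeries, map_add, map_one, map_mul,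
    PowerSeries.map_C, (residue_eq_zero_iff lam).mpr hlam, map_zero, zero_mul, add_zero, map_one]

theorem s44mg_one_add_inv_bdd (lam : ↥O) (hlam : lam ∈ maximalIdeal ↥O) (ε : PowerSeries ↥O) :
    gq_IsBdd ↥O L (ModularCurve.coeffMap (algebraMap ↥O L)
      (HahnSeries.ofPowerSeries ℤ ↥O (1 + C lam * ε)))⁻¹ := by
  have h := gq_isBdd_inv_of_res_ne_zero (O := ↥O) (K := L)
    ⟨ModularCurve.coeffMap (algebraMap ↥O L)
      (HahnSeries.ofPowerSeries ℤ ↥O (1 + C lam * ε)), gq_isBdd_iota _⟩
    (by rw [s44mg_one_add_res O lam hlam ε]; exact one_ne_zero)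
  exact h

/-- **The Kummer generator is a bounded quotient.** If `y^p = κ d^p (1 + λ^p ι(H))` with `κ ∈ L^×`,
`d ≠ 0` and `H ∈ O[[q]]`, then `y = s · d · ι(1 + λ ε)` with `s ∈ L^×`, `ε ∈ O[[q]]`. -/
theorem s44mg_root_split {p : ℕ} (hp : p.Prime) (lam w : ↥O) (hw : IsUnit w)
    (hlam : lam ∈ maximalIdeal ↥O) (hlam0 : lam ≠ 0) (hpe : (p : ↥O) = lam ^ (p - 1) * w)
    (κ : L) (hκ : κ ≠ 0) (H : PowerSeries ↥O) (d y : LaurentSeries L) (hd : d ≠ 0)
    (hy : y ^ p = algebraMap L (LaurentSeries L) κ * d ^ p *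
      ModularCurve.coeffMap (algebraMap ↥O L)
        (HahnSeries.ofPowerSeries ℤ ↥O (1 + C (lam ^ p) * H))) :
    ∃ (s : L) (ε : PowerSeries ↥O), s ≠ 0 ∧ s ^ p = κ * (1 + (lam : L) ^ p * constantCoeff H) ∧
      y = algebraMap L (LaurentSeries L) s * d *
        ModularCurve.coeffMap (algebraMap ↥O L)
          (HahnSeries.ofPowerSeries ℤ ↥O (1 + C lam * ε)) := by
  have h1 : (y * d⁻¹) ^ p = algebraMap L (LaurentSeries L) κ *
      ModularCurve.coeffMap (algebraMap ↥O L)
        (HahnSeries.ofPowerSeries ℤ ↥O (1 + C (lam ^ p) * H)) := by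
    rw [mul_pow, hy, inv_pow]
    field_simp
  obtain ⟨s, ε, hs0, hsp, hyd⟩ := s44mg_root_laurent O hp lam w hw hlam hlam0 hpe κ hκ H _ h1
  refine ⟨s, ε, hs0, hsp, ?_⟩
  have : y = y * d⁻¹ * d := by
    rw [mul_assoc, inv_mul_cancel₀ hd, mul_one]
  rw [this, hyd]
  ring

/-- in particular `y` lies in the field of bounded quotients as soon as `d` does. -/
theorem s44mg_root_isQuot {p : ℕ} (hp : p.Prime) (lam w : ↥O) (hw : IsUnit w)
    (hlam : lam ∈ maximalIdeal ↥O) (hlam0 : lam ≠ 0) (hpe : (p : ↥O) = lam ^ (p - 1) * w)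
    (κ : L) (hκ : κ ≠ 0) (H : PowerSeries ↥O) (d y : LaurentSeries L) (hd : d ≠ 0)
    (hdq : d ∈ gq_quotField ↥O L)
    (hy : y ^ p = algebraMap L (LaurentSeries L) κ * d ^ p *
      ModularCurve.coeffMap (algebraMap ↥O L)
        (HahnSeries.ofPowerSeries ℤ ↥O (1 + C (lam ^ p) * H))) :
    y ∈ gq_quotField ↥O L := by
  obtain ⟨s, ε, -, -, rfl⟩ := s44mg_root_split O hp lam w hw hlam hlam0 hpe κ hκ H d y hd hy
  exact mul_mem (mul_mem ((gq_quotField ↥O L).algebraMap_mem s) hdq) (gq_iota_mem_quotField _)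

end Unit

section LocInt

variable {R : Type*} [CommRing R] {S' : Type*} [SetLike S' R] [SubringClass S' R] (O : S')

/-- **q-expansion principle at a rational section.** A set `S` of power series over `R` such that
every `s ∈ S` is `a + t s'` with `a ∈ O`, `s' ∈ S`, where `t ∈ q·O[[q]]`, consists of series with
coefficients in `O`. -/
theorem s44mg_loc_int (S : Set (PowerSeries R)) (t : PowerSeries R)
    (ht : ∀ n, coeff n t ∈ O) (ht0 : constantCoeff t = 0)
    (hS : ∀ s ∈ S, ∃ a ∈ O, ∃ s' ∈ S, s = C a + t * s') :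
    ∀ s ∈ S, ∀ n, coeff n s ∈ O := by
  classical
  intro s hs n
  induction n using Nat.strong_induction_on generalizing s with
  | _ n IH =>
    obtain ⟨a, ha, s', hs', rfl⟩ := hS s hs
    rw [map_add, coeff_mul]
    refine add_mem ?_ (sum_mem ?_)
    · rw [coeff_C]
      split_ifs
      · exact ha
      · exact zero_mem O
    · rintro ⟨i, j⟩ hij
      rw [Finset.HasAntidiagonal.mem_antidiagonal] at hij
      simp only at hij ⊢
      rcases Nat.eq_zero_or_pos i with rfl | hi
      · rw [coeff_zero_eq_constantCoeff_apply, ht0, zero_mul]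
        exact zero_mem O
      · exact mul_mem (ht i) (IH j (by omega) s' hs')

end LocInt

section LocIntLaurent

variable {L : Type*} [Field L] (O : ValuationSubring L)

/-- Laurent form of `s44mg_loc_int`: a set `S ⊆ L((q))` of series without pole such that every
`s ∈ S` is `a + t s'` with `a ∈ O`, `s' ∈ S`, where `t ∈ q·O[[q]]`, lies in `ι(O[[q]])`. -/
theorem s44mg_loc_int_laurent (S : Set (LaurentSeries L)) (t : PowerSeries ↥O)
    (ht0 : constantCoeff t = 0)
    (hpole : ∀ s ∈ S, ∃ F : PowerSeries L, HahnSeries.ofPowerSeries ℤ L F = s)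
    (hS : ∀ s ∈ S, ∃ a : ↥O, ∃ s' ∈ S, s = algebraMap L (LaurentSeries L) (a : L) +
      ModularCurve.coeffMap (algebraMap ↥O L) (HahnSeries.ofPowerSeries ℤ ↥O t) * s') :
    ∀ s ∈ S, ∃ F : PowerSeries ↥O,
      ModularCurve.coeffMap (algebraMap ↥O L) (HahnSeries.ofPowerSeries ℤ ↥O F) = s := by
  have hCL : ∀ c : L, algebraMap L (LaurentSeries L) c = HahnSeries.ofPowerSeries ℤ L (C c) := by
    intro c
    rw [HahnSeries.ofPowerSeries_C, LaurentSeries.algebraMap_apply]
  set tL : PowerSeries L := PowerSeries.map (algebraMap ↥O L) t with htL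
  have key := s44mg_loc_int O {F : PowerSeries L | HahnSeries.ofPowerSeries ℤ L F ∈ S} tL
    (fun n => by
      rw [htL, coeff_map]
      exact (coeff n t).2)
    (by
      rw [htL, ← coeff_zero_eq_constantCoeff_apply, coeff_map, coeff_zero_eq_constantCoeff_apply,
        ht0, map_zero])
    (by
      intro F hF
      obtain ⟨a, s', hs', hs⟩ := hS _ hF
      obtain ⟨F', rfl⟩ := hpole s' hs'
      refine ⟨(a : L), a.2, F', hs', ?_⟩
      apply HahnSeries.ofPowerSeries_injective (Γ := ℤ)
      rw [hs, map_add, map_mul, ← hCL, htL, ModularCurve.coeffMap_ofPowerSeries])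
  intro s hs
  obtain ⟨F, rfl⟩ := hpole s hs
  obtain ⟨F', hF'⟩ := s44mg_exists_map_eq O (key F hs)
  refine ⟨F', ?_⟩
  rw [ModularCurve.coeffMap_ofPowerSeries]
  congr 1

end LocIntLaurent

end Fermat.Agent.S44
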