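/-
S44 (Mazur–Ribet at `p`), cell [H2] MONO-MAIN, sub-cell (LOC-∞) (helper8; prefix `s44mc_`):
THE KUMMER GENERATOR IS A BOUNDED QUOTIENT.

`L` a field, `O ≤ L` a discrete valuation subring, `E ≤ gq_quotField O L ⊆ L((q))` a function
field, `x ∈ E` a coordinate which is a POWER series over `O` (`s44mc_Cusp`), `B = fc_chart O {x}`.

* `s44mc_chart_val_le`       : the chart functions have no pole at `q = 0`;
* `s44mc_chart_powerSeries`  : `B ⊆ ι(O[[q]])` (q-expansion principle `rpn_qint` + no pole);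
* `s44mc_ps : B →+* O[[q]]`, `s44mc_ev : B →+* κ(O)`, `s44mc_cusp := ker` = the closed point
  `(π, cusp ∞)` of the chart: maximal, contains `π`; `s ∉ s44mc_cusp ⟹ ps s ∈ O[[q]]^×`;
* `s44mc_cusp_split` : from the local étale form `s44t_LocForm` (helper16's `s44t_loc`) at that
  closed point: `f = D^p · ι(1 + (π^e)^p H)` with `H ∈ O[[q]]`;
* `s44mc_root` : hence every `p`-th root `y ∈ L((q))` of `f` is `s · D · ι(1 + π^e ε)`,
  `s ∈ L^×`, `D ∈ E^×`, `ε ∈ O[[q]]` (formal Hensel `s44mg_root_split`), and `y ∈ gq_quotField`;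
* `s44mc_leg_cusp`, `s44mc_leg_root` : the instance for the Legendre cover `lg_E L N`, `x = λ`,
  with the binder list of `s44t_AbsCoreLeg`.
-/
import Mathlib
import Fermat.Agent.S44.Mono.GaussHensel
import Fermat.Agent.S44.Tor.Loc
import Fermat.Agent.JT3.PlaceMap.Level0
import Fermat.Agent.SS.Model.GaussOver

set_option autoImplicit false

noncomputable section

open ModularCurve IntermediateField IsLocalRing PowerSeries
open Fermat.Agent.JT3 Fermat.Agent.SS AlgebraicCurve

namespace Fermat.Agent.S44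

section NoPole

variable {L : Type*} [Field L] (O : ValuationSubring L)
  (E : IntermediateField L (LaurentSeries L))

theorem s44mc_tower : IsScalarTower ↥O L ↥E :=
  IsScalarTower.of_algebraMap_eq fun _ => rfl

theorem s44mc_coe_algebraMap (c : ↥O) :
    ((algebraMap ↥O ↥E c : ↥E) : LaurentSeries L) = algebraMap L (LaurentSeries L) (c : L) := by
  have := s44mc_tower O E
  rw [IsScalarTower.algebraMap_apply ↥O L ↥E]
  rfl

/-- constants have no pole -/
theorem s44mc_val_const_le (c : L) :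
    Valued.v (algebraMap L (LaurentSeries L) c) ≤ (1 : WithZero (Multiplicative ℤ)) :=
  (LaurentSeries.val_le_one_iff_eq_coe L _).mpr ⟨C c, by
    rw [LaurentSeries.algebraMap_apply]
    exact HahnSeries.ofPowerSeries_C c⟩

theorem s44mc_adjoin_val_le {x : ↥E}
    (hx : Valued.v (x : LaurentSeries L) ≤ (1 : WithZero (Multiplicative ℤ))) {r : ↥E}
    (hr : r ∈ Algebra.adjoin ↥O ({x} : Set ↥E)) :
    Valued.v (r : LaurentSeries L) ≤ (1 : WithZero (Multiplicative ℤ)) := by
  induction hr using Algebra.adjoin_induction with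
  | mem z hz =>
    rw [Set.mem_singleton_iff] at hz
    rw [hz]
    exact hx
  | algebraMap c =>
    rw [s44mc_coe_algebraMap]
    exact s44mc_val_const_le _
  | add a b _ _ ha hb =>
    exact (Valuation.map_add_le _ ha hb)
  | mul a b _ _ ha hb =>
    rw [MulMemClass.coe_mul, map_mul]
    exact mul_le_one' ha hb

/-- the chart functions have no pole at `q = 0` when the coordinate has none. -/
theorem s44mc_chart_val_le {x : ↥E}
    (hx : Valued.v (x : LaurentSeries L) ≤ (1 : WithZero (Multiplicative ℤ))) {b : ↥E}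
    (hb : b ∈ fc_chart ↥O ({x} : Set ↥E)) :
    Valued.v (b : LaurentSeries L) ≤ (1 : WithZero (Multiplicative ℤ)) := by
  rw [fc_mem_chart] at hb
  let v : Valuation (LaurentSeries L) (WithZero (Multiplicative ℤ)) := Valued.v
  let φ : ↥(Algebra.adjoin ↥O ({x} : Set ↥E)) →+* ↥v.integer :=
    (E.val.toRingHom.comp (Algebra.adjoin ↥O ({x} : Set ↥E)).val.toRingHom).codRestrict v.integer
      (fun r => s44mc_adjoin_val_le O E hx r.2)
  have h := IsIntegral.map_of_comp_eq φ E.val.toRingHom (by ext r; rfl) hb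
  exact (Valuation.integer.integers v).mem_of_integral h

end NoPole

section Chart

variable {L : Type*} [Field L] (O : ValuationSubring L) [IsDiscreteValuationRing ↥O]
  (E : IntermediateField L (LaurentSeries L))

omit [IsDiscreteValuationRing ↥O] in
/-- the coefficientwise inclusion `O[[q]] → L((q))` is injective. -/
theorem s44mc_iota_injective : Function.Injective fun F : PowerSeries ↥O =>
    coeffMap (algebraMap ↥O L) (HahnSeries.ofPowerSeries ℤ ↥O F) := by
  intro F G h
  exact HahnSeries.ofPowerSeries_injective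
    (gq_coeffMap_injective (IsFractionRing.injective ↥O L) h)

/-- **the `q`-expansion principle at the cusp**: if the coordinate `x` is a power series over `O`,
every function of the chart `fc_chart O {x}` is a power series over `O`. -/
theorem s44mc_chart_powerSeries (hE : E ≤ gq_quotField ↥O L) {x : ↥E} {X0 : PowerSeries ↥O}
    (hx : (x : LaurentSeries L) =
      coeffMap (algebraMap ↥O L) (HahnSeries.ofPowerSeries ℤ ↥O X0))
    (hfin : ∃ G : Finset ↥E, (∀ g ∈ G, g ∈ fc_chart ↥O ({x} : Set ↥E)) ∧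
      ∀ b ∈ fc_chart ↥O ({x} : Set ↥E),
        b ∈ Submodule.span ↥(Algebra.adjoin ↥O ({x} : Set ↥E)) (G : Set ↥E))
    {b : ↥E} (hb : b ∈ fc_chart ↥O ({x} : Set ↥E)) :
    ∃ F : PowerSeries ↥O,
      coeffMap (algebraMap ↥O L) (HahnSeries.ofPowerSeries ℤ ↥O F) = (b : LaurentSeries L) := by
  have := s44mc_tower O E
  obtain ⟨w, hw⟩ := rpn_qint E hE hx hfin b hb
  have hxv : Valued.v (x : LaurentSeries L) ≤ (1 : WithZero (Multiplicative ℤ)) := by
    rw [hx, coeffMap_ofPowerSeries]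
    exact (LaurentSeries.val_le_one_iff_eq_coe L _).mpr ⟨_, rfl⟩
  obtain ⟨G, hG⟩ := (LaurentSeries.val_le_one_iff_eq_coe L _).mp (s44mc_chart_val_le O E hxv hb)
  refine ⟨PowerSeries.mk fun n => w.coeff n, ?_⟩
  rw [← hw]
  congr 1
  refine HahnSeries.ext ?_
  funext n
  rw [PowerSeries.coeff_coe]
  split_ifs with hn
  · have h1 : (coeffMap (algebraMap ↥O L) w).coeff n = 0 := by
      rw [hw, ← hG, PowerSeries.coeff_coe, if_pos hn]
    rw [coeffMap_coeff] at h1
    exact ((IsFractionRing.injective ↥O L) (h1.trans (map_zero _).symm)).symm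
  · rw [PowerSeries.coeff_mk]
    congr 1
    omega

end Chart

section Cusp

variable {L : Type*} [Field L] (O : ValuationSubring L) [IsDiscreteValuationRing ↥O]
  (E : IntermediateField L (LaurentSeries L))

/-- the hypotheses on the chart `fc_chart O {x}` at the cusp `q = 0`: `E` consists of bounded
quotients, the coordinate `x` is the power series `X0` over `O`, and the chart is a finite
`O[x]`-module. -/
structure s44mc_Cusp (x : ↥E) (X0 : PowerSeries ↥O) : Prop where
  hE : E ≤ gq_quotField ↥O L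
  hx : (x : LaurentSeries L) =
    coeffMap (algebraMap ↥O L) (HahnSeries.ofPowerSeries ℤ ↥O X0)
  hfin : ∃ G : Finset ↥E, (∀ g ∈ G, g ∈ fc_chart ↥O ({x} : Set ↥E)) ∧
    ∀ b ∈ fc_chart ↥O ({x} : Set ↥E),
      b ∈ Submodule.span ↥(Algebra.adjoin ↥O ({x} : Set ↥E)) (G : Set ↥E)

variable {O E} {x : ↥E} {X0 : PowerSeries ↥O}

/-- the `q`-expansion of a chart function, as a power series over `O` (underlying function). -/
def s44mc_psFun (C : s44mc_Cusp O E x X0) (b : ↥(fc_chart ↥O ({x} : Set ↥E))) : PowerSeries ↥O :=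
  (s44mc_chart_powerSeries O E C.hE C.hx C.hfin b.2).choose

theorem s44mc_psFun_spec (C : s44mc_Cusp O E x X0) (b : ↥(fc_chart ↥O ({x} : Set ↥E))) :
    coeffMap (algebraMap ↥O L) (HahnSeries.ofPowerSeries ℤ ↥O (s44mc_psFun C b)) =
      ((b : ↥E) : LaurentSeries L) :=
  (s44mc_chart_powerSeries O E C.hE C.hx C.hfin b.2).choose_spec

/-- the `q`-expansion of a chart function, as a power series over `O`. -/
def s44mc_ps (C : s44mc_Cusp O E x X0) : ↥(fc_chart ↥O ({x} : Set ↥E)) →+* PowerSeries ↥O where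
  toFun := s44mc_psFun C
  map_one' := by
    apply s44mc_iota_injective O
    simp only
    rw [s44mc_psFun_spec]
    simp
  map_zero' := by
    apply s44mc_iota_injective O
    simp only
    rw [s44mc_psFun_spec]
    simp
  map_add' a b := by
    apply s44mc_iota_injective O
    simp only
    rw [map_add, map_add, s44mc_psFun_spec, s44mc_psFun_spec, s44mc_psFun_spec]
    rfl
  map_mul' a b := by
    apply s44mc_iota_injective O
    simp only
    rw [map_mul, map_mul, s44mc_psFun_spec, s44mc_psFun_spec, s44mc_psFun_spec]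
    rfl

theorem s44mc_ps_spec (C : s44mc_Cusp O E x X0) (b : ↥(fc_chart ↥O ({x} : Set ↥E))) :
    coeffMap (algebraMap ↥O L) (HahnSeries.ofPowerSeries ℤ ↥O (s44mc_ps C b)) =
      ((b : ↥E) : LaurentSeries L) :=
  s44mc_psFun_spec C b

theorem s44mc_ps_algebraMap (C : s44mc_Cusp O E x X0) (c : ↥O) :
    s44mc_ps C (algebraMap ↥O ↥(fc_chart ↥O ({x} : Set ↥E)) c) = PowerSeries.C c := by
  apply s44mc_iota_injective O
  simp only
  rw [s44mc_ps_spec, HahnSeries.ofPowerSeries_C]
  have h1 : ((algebraMap ↥O ↥(fc_chart ↥O ({x} : Set ↥E)) c : ↥(fc_chart ↥O ({x} : Set ↥E))) : ↥E)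
      = algebraMap ↥O ↥E c := rfl
  rw [h1, s44mc_coe_algebraMap, LaurentSeries.algebraMap_apply]
  ext n
  simp [HahnSeries.C_apply, HahnSeries.coeff_single]

/-- evaluation at the cusp, modulo the maximal ideal of `O`. -/
def s44mc_ev (C : s44mc_Cusp O E x X0) :
    ↥(fc_chart ↥O ({x} : Set ↥E)) →+* ResidueField ↥O :=
  (residue ↥O).comp (PowerSeries.constantCoeff.comp (s44mc_ps C))

/-- **the closed point `(π, cusp ∞)`** of the chart. -/
def s44mc_cusp (C : s44mc_Cusp O E x X0) : Ideal ↥(fc_chart ↥O ({x} : Set ↥E)) :=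
  RingHom.ker (s44mc_ev C)

theorem s44mc_ev_surjective (C : s44mc_Cusp O E x X0) : Function.Surjective (s44mc_ev C) := by
  intro a
  obtain ⟨c, rfl⟩ := residue_surjective a
  refine ⟨algebraMap ↥O _ c, ?_⟩
  rw [s44mc_ev, RingHom.comp_apply, RingHom.comp_apply, s44mc_ps_algebraMap,
    PowerSeries.constantCoeff_C]

theorem s44mc_cusp_isMaximal (C : s44mc_Cusp O E x X0) : (s44mc_cusp C).IsMaximal :=
  RingHom.ker_isMaximal_of_surjective _ (s44mc_ev_surjective C)

theorem s44mc_pi_mem_cusp (C : s44mc_Cusp O E x X0) {π : ↥O} (hπ : π ∈ maximalIdeal ↥O) :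
    algebraMap ↥O ↥(fc_chart ↥O ({x} : Set ↥E)) π ∈ s44mc_cusp C := by
  rw [s44mc_cusp, RingHom.mem_ker, s44mc_ev, RingHom.comp_apply, RingHom.comp_apply,
    s44mc_ps_algebraMap, PowerSeries.constantCoeff_C, residue_eq_zero_iff]
  exact hπ

/-- a chart function which does not vanish at the closed point `(π, ∞)` is a unit of `O[[q]]`. -/
theorem s44mc_isUnit_ps (C : s44mc_Cusp O E x X0) {s : ↥(fc_chart ↥O ({x} : Set ↥E))}
    (hs : s ∉ s44mc_cusp C) : IsUnit (s44mc_ps C s) := by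
  rw [PowerSeries.isUnit_iff_constantCoeff, ← IsLocalRing.notMem_maximalIdeal,
    ← residue_eq_zero_iff]
  exact hs

end Cusp

section Split

variable {L : Type*} [Field L] {O : ValuationSubring L} [IsDiscreteValuationRing ↥O]
  {E : IntermediateField L (LaurentSeries L)} {x : ↥E} {X0 : PowerSeries ↥O}

omit [IsDiscreteValuationRing ↥O] in
theorem s44mc_iota_C (c : ↥O) :
    coeffMap (algebraMap ↥O L) (HahnSeries.ofPowerSeries ℤ ↥O (PowerSeries.C c)) =
      algebraMap L (LaurentSeries L) (c : L) := by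
  rw [HahnSeries.ofPowerSeries_C, LaurentSeries.algebraMap_apply]
  ext n
  simp [HahnSeries.C_apply, HahnSeries.coeff_single]

/-- **the local split at the cusp**: from the local étale form at the closed point `(π, ∞)` of the
chart, `f = D^p · ι(1 + (π^e)^p H)` with `H ∈ O[[q]]`. -/
theorem s44mc_cusp_split (C : s44mc_Cusp O E x X0) {π : ↥O} (hπ : π ∈ maximalIdeal ↥O)
    {p e : ℕ} {f : ↥E} (hloc : s44t_LocForm π p e f (fc_chart ↥O ({x} : Set ↥E))) :
    ∃ (D : ↥E) (H : PowerSeries ↥O), D ≠ 0 ∧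
      (f : LaurentSeries L) = (D : LaurentSeries L) ^ p *
        coeffMap (algebraMap ↥O L)
          (HahnSeries.ofPowerSeries ℤ ↥O (1 + PowerSeries.C ((π ^ e) ^ p) * H)) := by
  obtain ⟨D, H, s, hD, hs, hsH, hf⟩ :=
    hloc (s44mc_cusp C) (s44mc_cusp_isMaximal C) (s44mc_pi_mem_cusp C hπ)
  obtain ⟨us, hus⟩ := s44mc_isUnit_ps C hs
  refine ⟨D, s44mc_ps C ⟨(s : ↥E) * H, hsH⟩ * ((us⁻¹ : (PowerSeries ↥O)ˣ) : PowerSeries ↥O),
    hD, ?_⟩
  -- `H` is the power series `ps(sH) / ps(s)`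
  have hH : coeffMap (algebraMap ↥O L) (HahnSeries.ofPowerSeries ℤ ↥O
      (s44mc_ps C ⟨(s : ↥E) * H, hsH⟩ * ((us⁻¹ : (PowerSeries ↥O)ˣ) : PowerSeries ↥O))) =
      (H : LaurentSeries L) := by
    have h1 := s44mc_ps_spec C s
    have h2 := s44mc_ps_spec C ⟨(s : ↥E) * H, hsH⟩
    have h3 : (((⟨(s : ↥E) * H, hsH⟩ : ↥(fc_chart ↥O ({x} : Set ↥E))) : ↥E) : LaurentSeries L) =
        ((s : ↥E) : LaurentSeries L) * (H : LaurentSeries L) := rfl
    have h4 : coeffMap (algebraMap ↥O L) (HahnSeries.ofPowerSeries ℤ ↥O (s44mc_ps C s)) *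
        coeffMap (algebraMap ↥O L) (HahnSeries.ofPowerSeries ℤ ↥O
          ((us⁻¹ : (PowerSeries ↥O)ˣ) : PowerSeries ↥O)) = 1 := by
      rw [← map_mul, ← map_mul, ← hus, Units.mul_inv, map_one, map_one]
    rw [map_mul, map_mul, h2, h3, ← h1]
    calc coeffMap (algebraMap ↥O L) (HahnSeries.ofPowerSeries ℤ ↥O (s44mc_ps C s)) *
          (H : LaurentSeries L) * coeffMap (algebraMap ↥O L) (HahnSeries.ofPowerSeries ℤ ↥O
            ((us⁻¹ : (PowerSeries ↥O)ˣ) : PowerSeries ↥O))
        = (coeffMap (algebraMap ↥O L) (HahnSeries.ofPowerSeries ℤ ↥O (s44mc_ps C s)) *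
          coeffMap (algebraMap ↥O L) (HahnSeries.ofPowerSeries ℤ ↥O
            ((us⁻¹ : (PowerSeries ↥O)ˣ) : PowerSeries ↥O))) * (H : LaurentSeries L) := by ring
      _ = (H : LaurentSeries L) := by rw [h4, one_mul]
  have hfL : (f : LaurentSeries L) = (D : LaurentSeries L) ^ p *
      (1 + (algebraMap L (LaurentSeries L) (π : L)) ^ (p * e) * (H : LaurentSeries L)) := by
    have h5 := congrArg (fun z : ↥E => (z : LaurentSeries L)) hf
    simp only [MulMemClass.coe_mul, AddMemClass.coe_add, SubmonoidClass.coe_pow,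
      OneMemClass.coe_one, s44mc_coe_algebraMap] at h5
    exact h5
  rw [hfL, map_add, map_add, map_one, map_one, map_mul, map_mul, hH, s44mc_iota_C]
  congr 3
  rw [← map_pow]
  congr 1
  rw [← pow_mul, mul_comm e p]
  simp

end Split

section Root

variable {L : Type*} [Field L] {O : ValuationSubring L} [IsDiscreteValuationRing ↥O]
  {E : IntermediateField L (LaurentSeries L)} {x : ↥E} {X0 : PowerSeries ↥O}

/-- **(LOC-∞), abstract form.** If `f ∈ E` has the local étale form on the chart `fc_chart O {x}`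
(`x` a power series over `O`), then every `p`-th root `y ∈ L((q))` of `f` is `s · D · ι(1 + π^e ε)`
with `s ∈ L^×`, `D ∈ E^×`, `ε ∈ O[[q]]`; in particular `y` is a bounded quotient. -/
theorem s44mc_root (C : s44mc_Cusp O E x X0) {π : ↥O} (hπ : Irreducible π) {σ0 : ↥O ≃+* ↥O}
    {p e k : ℕ} {ζ : ↥O} (Dt : s44t_PData π σ0 p e k ζ) {f : ↥E}
    (hloc : s44t_LocForm π p e f (fc_chart ↥O ({x} : Set ↥E)))
    (y : LaurentSeries L) (hy : y ^ p = (f : LaurentSeries L)) :
    y ∈ gq_quotField ↥O L ∧ ∃ (s : L) (D : ↥E) (ε : PowerSeries ↥O), s ≠ 0 ∧ D ≠ 0 ∧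
      y = algebraMap L (LaurentSeries L) s * (D : LaurentSeries L) *
        coeffMap (algebraMap ↥O L)
          (HahnSeries.ofPowerSeries ℤ ↥O (1 + PowerSeries.C (π ^ e) * ε)) := by
  have hπmem : π ∈ maximalIdeal ↥O := by
    rw [hπ.maximalIdeal_eq]
    exact Ideal.mem_span_singleton_self π
  obtain ⟨D, H, hD, hf⟩ := s44mc_cusp_split C hπmem hloc
  obtain ⟨v, hv⟩ := Dt.p_eq
  have hpe : (p : ↥O) = (π ^ e) ^ (p - 1) * (v : ↥O) := by
    rw [hv, ← pow_mul, mul_comm e (p - 1)]
  have hDL : (D : LaurentSeries L) ≠ 0 := fun h => hD (Subtype.ext h)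
  obtain ⟨s, ε, hs0, -, hyy⟩ := s44mg_root_split O Dt.prime (π ^ e) (v : ↥O) v.isUnit
    (Ideal.pow_mem_of_mem _ hπmem e Dt.e_pos) (pow_ne_zero e hπ.ne_zero) hpe 1 one_ne_zero H
    (D : LaurentSeries L) y hDL (by rw [hy, hf, map_one, one_mul])
  refine ⟨?_, s, D, ε, hs0, hD, hyy⟩
  rw [hyy]
  exact mul_mem (mul_mem ((gq_quotField ↥O L).algebraMap_mem s) (C.hE D.2))
    (gq_iota_mem_quotField _)

end Root

section Legendre

variable {L : Type*} [Field L] [CharZero L] (O : ValuationSubring L) [IsDiscreteValuationRing ↥O]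
  (N : ℕ) [NeZero N]

/-- the Legendre chart `fc_chart O {λ}` of `lg_E L N` at the cusp `q = 0` (`λ = 16 q - ⋯`). -/
theorem s44mc_leg_cusp : s44mc_Cusp O (lg_E L N) (lg_lamE (L := L) N)
    ((PowerSeries.X * hm_lamNum).map (Int.castRingHom ↥O)) := by
  have := s44mc_tower O (lg_E L N)
  have hx : Transcendental L (lg_lamE (L := L) N) := lgf_lam_transcendental L N two_ne_zero
  have := lgf_finite L N
  refine ⟨ssm_ga_E_le_quotField O N, ?_, rpn_fin hx⟩
  rw [← hm_lam_eq_ofPowerSeries, hm_coeffMap_lam]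
  rfl

/-- **(LOC-∞) for the Legendre cover.** With the binder list of `s44t_AbsCoreLeg`: every `p`-th
root `y ∈ L((q))` of `f` is a bounded quotient, `y = s · D · ι(1 + π^e ε)`. -/
theorem s44mc_leg_root {π : ↥O} (hπ : Irreducible π)
    {σE : ↥(lg_E L N) ≃+* ↥(lg_E L N)} {σ0 : ↥O ≃+* ↥O}
    {P1 P2 : Ideal (fc_chart ↥O ({lg_lamE N, (lg_lamE N)⁻¹} : Set ↥(lg_E L N)))}
    (Mod : ss_Model π (lg_lamE (L := L) N) σE σ0 P1 P2) {p e k : ℕ} {ζ : ↥O}
    (D : s44t_PData π σ0 p e k ζ) {f : ↥(lg_E L N)} (hf : f ≠ 0)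
    (hord : ∀ P : Place L ↥(lg_E L N), (p : ℤ) ∣ P.ord f)
    (hrat : ∀ P : Place L ↥(lg_E L N), P.ord f ≠ 0 → ss_RatPlace P)
    (hglob : s44t_GlobForm π (lg_lamE (L := L) N) p (p * e + 1) f)
    (y : LaurentSeries L) (hy : y ^ p = (f : LaurentSeries L)) :
    y ∈ gq_quotField ↥O L ∧ ∃ (s : L) (d : ↥(lg_E L N)) (ε : PowerSeries ↥O), s ≠ 0 ∧ d ≠ 0 ∧
      y = algebraMap L (LaurentSeries L) s * (d : LaurentSeries L) *
        coeffMap (algebraMap ↥O L)
          (HahnSeries.ofPowerSeries ℤ ↥O (1 + PowerSeries.C (π ^ e) * ε)) := by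
  have := s44mc_tower O (lg_E L N)
  have hx : Transcendental L (lg_lamE (L := L) N) := lgf_lam_transcendental L N two_ne_zero
  have := lgf_finite L N
  obtain ⟨h1, -⟩ := s44t_loc (K := L) hπ hx Mod D hf hord hrat hglob
  exact s44mc_root (s44mc_leg_cusp O N) hπ D h1 y hy

end Legendre

end Fermat.Agent.S44
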