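/-
S44 (Mazur–Ribet at `p`), cell [H2] MONO-MAIN, sub-cell (LOC-∞), second file (helper8; prefix
`s44mc_`): the variants of `s44mc_root` / `s44mc_leg_root` for a `p`-th root of `κ · f`, `κ ∈ L^×`
a constant (e.g. `κ = (leading coefficient of f)⁻¹`: the normalised Kummer generator `y_q`), and
the resulting statement `E(y) ⊆ gq_quotField` for helper23's Kummer field `s44kq_Lb`.
-/
import Mathlib
import Fermat.Agent.S44.Mono.CuspLoc
import Fermat.Agent.S44.Mono.GaussSheet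

set_option autoImplicit false

noncomputable section

open ModularCurve IntermediateField IsLocalRing PowerSeries
open Fermat.Agent.JT3 Fermat.Agent.SS AlgebraicCurve

namespace Fermat.Agent.S44

section Root

variable {L : Type*} [Field L] {O : ValuationSubring L} [IsDiscreteValuationRing ↥O]
  {E : IntermediateField L (LaurentSeries L)} {x : ↥E} {X0 : PowerSeries ↥O}

/-- `s44mc_root` for a `p`-th root of `κ · f`, `κ ∈ L^×`. -/
theorem s44mc_root_const (C : s44mc_Cusp O E x X0) {π : ↥O} (hπ : Irreducible π) {σ0 : ↥O ≃+* ↥O}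
    {p e k : ℕ} {ζ : ↥O} (Dt : s44t_PData π σ0 p e k ζ) {f : ↥E}
    (hloc : s44t_LocForm π p e f (fc_chart ↥O ({x} : Set ↥E)))
    (κ : L) (hκ : κ ≠ 0) (y : LaurentSeries L)
    (hy : y ^ p = algebraMap L (LaurentSeries L) κ * (f : LaurentSeries L)) :
    y ∈ gq_quotField ↥O L ∧ ∃ (s : L) (D : ↥E) (ε : PowerSeries ↥O), s ≠ 0 ∧ D ≠ 0 ∧
      y = algebraMap L (LaurentSeries L) s * (D : LaurentSeries L) *
        coeffMap (algebraMap ↥O L)
          (HahnSeries.ofPowerSeries ℤ ↥O (1 + PowerSeries.C (π ^ e) * ε)) := by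
  have hπmem : π ∈ maximalIdeal ↥O := by
    rw [hπ.maximalIdeal_eq]
    exact Ideal.mem_span_singleton_self π
  obtain ⟨D, H, hD, hf⟩ := s44mc_cusp_split C hπmem hloc
  obtain ⟨v, hv⟩ := Dt.p_eq
  have hpe : (p : ↥O) = (π ^ e) ^ (p - 1) * (v : ↥O) := by
    rw [hv, ← pow_mul, mul_comm e (p - 1)]
  have hDL : (D : LaurentSeries L) ≠ 0 := fun h => hD (Subtype.ext h)
  obtain ⟨s, ε, hs0, -, hyy⟩ := s44mg_root_split O Dt.prime (π ^ e) (v : ↥O) v.isUnit
    (Ideal.pow_mem_of_mem _ hπmem e Dt.e_pos) (pow_ne_zero e hπ.ne_zero) hpe κ hκ H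
    (D : LaurentSeries L) y hDL (by rw [hy, hf, mul_assoc])
  refine ⟨?_, s, D, ε, hs0, hD, hyy⟩
  rw [hyy]
  exact mul_mem (mul_mem ((gq_quotField ↥O L).algebraMap_mem s) (C.hE D.2))
    (gq_iota_mem_quotField _)

end Root

section Legendre

variable {L : Type*} [Field L] [CharZero L] (O : ValuationSubring L) [IsDiscreteValuationRing ↥O]
  (N : ℕ) [NeZero N]

/-- `s44mc_leg_root` for a `p`-th root of `κ · f`, `κ ∈ L^×`. -/
theorem s44mc_leg_root_const {π : ↥O} (hπ : Irreducible π)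
    {σE : ↥(lg_E L N) ≃+* ↥(lg_E L N)} {σ0 : ↥O ≃+* ↥O}
    {P1 P2 : Ideal (fc_chart ↥O ({lg_lamE N, (lg_lamE N)⁻¹} : Set ↥(lg_E L N)))}
    (Mod : ss_Model π (lg_lamE (L := L) N) σE σ0 P1 P2) {p e k : ℕ} {ζ : ↥O}
    (D : s44t_PData π σ0 p e k ζ) {f : ↥(lg_E L N)} (hf : f ≠ 0)
    (hord : ∀ P : Place L ↥(lg_E L N), (p : ℤ) ∣ P.ord f)
    (hrat : ∀ P : Place L ↥(lg_E L N), P.ord f ≠ 0 → ss_RatPlace P)
    (hglob : s44t_GlobForm π (lg_lamE (L := L) N) p (p * e + 1) f)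
    (κ : L) (hκ : κ ≠ 0) (y : LaurentSeries L)
    (hy : y ^ p = algebraMap L (LaurentSeries L) κ * (f : LaurentSeries L)) :
    y ∈ gq_quotField ↥O L ∧ ∃ (s : L) (d : ↥(lg_E L N)) (ε : PowerSeries ↥O), s ≠ 0 ∧ d ≠ 0 ∧
      y = algebraMap L (LaurentSeries L) s * (d : LaurentSeries L) *
        coeffMap (algebraMap ↥O L)
          (HahnSeries.ofPowerSeries ℤ ↥O (1 + PowerSeries.C (π ^ e) * ε)) := by
  have := s44mc_tower O (lg_E L N)
  have hx : Transcendental L (lg_lamE (L := L) N) := lgf_lam_transcendental L N two_ne_zero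
  have := lgf_finite L N
  obtain ⟨h1, -⟩ := s44t_loc (K := L) hπ hx Mod D hf hord hrat hglob
  exact s44mc_root_const (s44mc_leg_cusp O N) hπ D h1 κ hκ y hy

/-- **`𝕃' = E'(y_q)` consists of bounded quotients** (Legendre cover, `y_q ^ p = κ · f`). -/
theorem s44mc_leg_Lb_isQuot {π : ↥O} (hπ : Irreducible π)
    {σE : ↥(lg_E L N) ≃+* ↥(lg_E L N)} {σ0 : ↥O ≃+* ↥O}
    {P1 P2 : Ideal (fc_chart ↥O ({lg_lamE N, (lg_lamE N)⁻¹} : Set ↥(lg_E L N)))}
    (Mod : ss_Model π (lg_lamE (L := L) N) σE σ0 P1 P2) {p e k : ℕ} {ζ : ↥O}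
    (D : s44t_PData π σ0 p e k ζ) {f : ↥(lg_E L N)} (hf : f ≠ 0)
    (hord : ∀ P : Place L ↥(lg_E L N), (p : ℤ) ∣ P.ord f)
    (hrat : ∀ P : Place L ↥(lg_E L N), P.ord f ≠ 0 → ss_RatPlace P)
    (hglob : s44t_GlobForm π (lg_lamE (L := L) N) p (p * e + 1) f)
    (κ : L) (hκ : κ ≠ 0) (y : LaurentSeries L)
    (hy : y ^ p = algebraMap L (LaurentSeries L) κ * (f : LaurentSeries L))
    (hyE : y ^ p ∈ (lg_E L N).toSubfield)
    [Fact (Irreducible (s44kq_P (lg_E L N).toSubfield y hyE))] :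
    ∀ z ∈ s44kq_Lb (lg_E L N).toSubfield y hyE, gq_IsQuot ↥O L z :=
  s44mv_Lb_isQuot O (lg_E L N).toSubfield y hyE
    (fun _ he => ssm_ga_E_le_quotField O N he)
    (s44mc_leg_root_const O N hπ Mod D hf hord hrat hglob κ hκ y hy).1

end Legendre

end Fermat.Agent.S44
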