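/-
Project S44 (Mazur–Ribet at `p`), cell [H2] MONO-MAIN, SUB [S-FIELD] (helper23). Prefix `s44ky_`.

THE FIELD PACKAGE OF THE KUMMER COVER, in the abstract shape of the sheet cells
(`s44mci_sheet`, `s44ga_pair`, [S-CONJ]): for a Kummer package `P` over `E'.toSubfield`
(`E' : IntermediateField K Ω`), `LL := ↥Lb`, `EE := ↥E'`, and ANY instance `[Algebra EE LL]`
whose `algebraMap` is the inclusion (`halg`):

* `s44ky_y_pow`          : `y' ^ p = algebraMap EE LL ⟨y ^ p, _⟩` for `y' := ⟨y, P.y_mem⟩`;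
* `s44ky_adjoin_eq_top`  : `Algebra.adjoin EE {y'} = ⊤`;
* `s44ky_finite`, `s44ky_finrank` : `LL / EE` is finite of degree `p`;
* `s44ky_tauAlg`         : the deck transformation as an `EE`-algebra automorphism;
* `s44ky_tau_range`      : its fixed field is `EE`;
* `s44ky_sigma`          : the action of `G` on `LL` by ring automorphisms, `Φ` and all `τ^j h` fixed.
-/
import Mathlib
import Fermat.Agent.S44.Mono.KummerQ

set_option autoImplicit false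
set_option linter.unusedSectionVars false
set_option linter.style.haveILetI false

noncomputable section

namespace Fermat.Agent.S44

open Polynomial

section Field

variable {K Ω : Type*} [Field K] [Field Ω] [Algebra K Ω] {G : Type*} [Group G]
  [MulSemiringAction G Ω] {E' : IntermediateField K Ω} {p : ℕ} {ζ y fv β : Ω} {lc : Ω →*₀ Ω}
  {Lb : Subfield Ω} {τ : ↥Lb ≃+* ↥Lb} {c : Ω} {g Φ h : ↥Lb}
  (P : s44kq_Pack (G := G) E'.toSubfield p ζ y fv β lc Lb τ c g Φ h)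
  [Algebra ↥E' ↥Lb] (halg : ∀ e : ↥E', ((algebraMap ↥E' ↥Lb e : ↥Lb) : Ω) = (e : Ω))

include halg in
theorem s44ky_y_pow (hyE : y ^ p ∈ E') :
    (⟨y, P.y_mem⟩ : ↥Lb) ^ p = algebraMap ↥E' ↥Lb ⟨y ^ p, hyE⟩ :=
  Subtype.ext (by rw [halg]; rfl)

include halg in
/-- evaluation of polynomials over `EE` at `y'`. -/
theorem s44ky_aeval (R : (↥E')[X]) :
    ((aeval (⟨y, P.y_mem⟩ : ↥Lb) R : ↥Lb) : Ω) = eval₂ E'.toSubfield.subtype y R := by
  have h1 : (Lb.subtype : ↥Lb →+* Ω).comp (algebraMap ↥E' ↥Lb) = E'.toSubfield.subtype :=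
    RingHom.ext fun e => halg e
  have h2 := hom_eval₂ R (algebraMap ↥E' ↥Lb) (Lb.subtype : ↥Lb →+* Ω) (⟨y, P.y_mem⟩ : ↥Lb)
  rw [h1] at h2
  exact h2

include halg in
/-- `LL = EE[y']`. -/
theorem s44ky_adjoin_eq_top : Algebra.adjoin ↥E' {(⟨y, P.y_mem⟩ : ↥Lb)} = ⊤ := by
  rw [eq_top_iff]
  intro z _
  obtain ⟨R, hR⟩ := P.gen z z.2
  rw [Algebra.adjoin_singleton_eq_range_aeval]
  exact ⟨R, Subtype.ext ((s44ky_aeval P halg R).trans hR.symm)⟩

include halg in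
theorem s44ky_isIntegral_y (hp0 : p ≠ 0) (hyE : y ^ p ∈ E') :
    IsIntegral ↥E' (⟨y, P.y_mem⟩ : ↥Lb) := by
  refine IsIntegral.of_pow (Nat.pos_of_ne_zero hp0) ?_
  rw [s44ky_y_pow P halg hyE]
  exact isIntegral_algebraMap

include P halg in
/-- `LL / EE` is finite. -/
theorem s44ky_finite (hp0 : p ≠ 0) (hyE : y ^ p ∈ E') : Module.Finite ↥E' ↥Lb := by
  have h1 : Module.Finite ↥E' ↥(Algebra.adjoin ↥E' {(⟨y, P.y_mem⟩ : ↥Lb)}) :=
    Algebra.finite_adjoin_simple_of_isIntegral (s44ky_isIntegral_y P halg hp0 hyE)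
  rw [s44ky_adjoin_eq_top P halg] at h1
  exact Module.Finite.of_surjective (Subalgebra.topEquiv (R := ↥E') (A := ↥Lb)).toLinearMap
    (Subalgebra.topEquiv (R := ↥E') (A := ↥Lb)).surjective

include halg in
/-- the minimal polynomial of `y'` over `EE`. -/
theorem s44ky_minpoly (hp : p.Prime) (hyE : y ^ p ∈ E') (hirr : ∀ b ∈ E', b ^ p ≠ y ^ p) :
    minpoly ↥E' (⟨y, P.y_mem⟩ : ↥Lb) = X ^ p - C (⟨y ^ p, hyE⟩ : ↥E') := by
  symm
  refine minpoly.eq_of_irreducible_of_monic ?_ ?_ (monic_X_pow_sub_C _ hp.ne_zero)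
  · exact X_pow_sub_C_irreducible_of_prime hp fun b hb => hirr b b.2 (congrArg Subtype.val hb)
  · rw [map_sub, map_pow, aeval_X, aeval_C, s44ky_y_pow P halg hyE, sub_self]

include P halg in
/-- **`[LL : EE] = p`.** -/
theorem s44ky_finrank (hp : p.Prime) (hyE : y ^ p ∈ E') (hirr : ∀ b ∈ E', b ^ p ≠ y ^ p) :
    Module.finrank ↥E' ↥Lb = p := by
  have hint := s44ky_isIntegral_y P halg hp.ne_zero hyE
  have h1 : Module.finrank ↥E' ↥(Algebra.adjoin ↥E' {(⟨y, P.y_mem⟩ : ↥Lb)}) = p := by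
    rw [(Algebra.adjoin.powerBasis' hint).finrank, Algebra.adjoin.powerBasis'_dim,
      s44ky_minpoly P halg hp hyE hirr, natDegree_X_pow_sub_C]
  rw [← h1]
  have e1 : (↥(⊤ : Subalgebra ↥E' ↥Lb)) ≃ₗ[↥E'] ↥Lb :=
    (Subalgebra.topEquiv (R := ↥E') (A := ↥Lb)).toLinearEquiv
  rw [← e1.finrank_eq]
  rw [s44ky_adjoin_eq_top P halg]

include P halg in
/-- the deck transformation as an `EE`-algebra automorphism. -/
theorem s44ky_tauAlg : ∃ τ' : ↥Lb ≃ₐ[↥E'] ↥Lb, ∀ z, τ' z = τ z := by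
  refine ⟨AlgEquiv.ofRingEquiv (f := τ) fun e => ?_, fun z => rfl⟩
  exact P.τ_E _ (by rw [halg]; exact e.2)

include P halg in
/-- the fixed field of `τ` is `EE`. -/
theorem s44ky_tau_range (z : ↥Lb) (hz : τ z = z) : z ∈ (algebraMap ↥E' ↥Lb).range :=
  ⟨⟨(z : Ω), P.τ_fixed z hz⟩, Subtype.ext (halg _)⟩

end Field

/-! ### the action of `G` on the Kummer field -/

section Sigma

variable {Ω : Type*} [Field Ω] {G : Type*} [Group G] [MulSemiringAction G Ω]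

/-- the action of `σ` on a `G`-stable subfield, as a ring automorphism. -/
def s44ky_sigma {Lb : Subfield Ω} (hst : ∀ (σ : G), ∀ z ∈ Lb, σ • z ∈ Lb) (σ : G) :
    ↥Lb ≃+* ↥Lb where
  toFun z := ⟨σ • (z : Ω), hst σ z z.2⟩
  invFun z := ⟨σ⁻¹ • (z : Ω), hst σ⁻¹ z z.2⟩
  left_inv z := Subtype.ext (inv_smul_smul σ (z : Ω))
  right_inv z := Subtype.ext (smul_inv_smul σ (z : Ω))
  map_mul' a b := Subtype.ext (smul_mul' σ (a : Ω) b)
  map_add' a b := Subtype.ext (smul_add σ (a : Ω) b)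

@[simp] theorem s44ky_sigma_coe {Lb : Subfield Ω} (hst : ∀ (σ : G), ∀ z ∈ Lb, σ • z ∈ Lb)
    (σ : G) (z : ↥Lb) : ((s44ky_sigma hst σ z : ↥Lb) : Ω) = σ • (z : Ω) := rfl

theorem s44ky_sigma_mul {Lb : Subfield Ω} (hst : ∀ (σ : G), ∀ z ∈ Lb, σ • z ∈ Lb)
    (σ ρ : G) (z : ↥Lb) : s44ky_sigma hst (σ * ρ) z = s44ky_sigma hst σ (s44ky_sigma hst ρ z) :=
  Subtype.ext (mul_smul σ ρ (z : Ω))

theorem s44ky_sigma_one {Lb : Subfield Ω} (hst : ∀ (σ : G), ∀ z ∈ Lb, σ • z ∈ Lb)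
    (z : ↥Lb) : s44ky_sigma hst (1 : G) z = z :=
  Subtype.ext (one_smul G (z : Ω))

variable {E : Subfield Ω} {p : ℕ} {ζ y fv β : Ω} {lc : Ω →*₀ Ω}
  {Lb : Subfield Ω} {τ : ↥Lb ≃+* ↥Lb} {c : Ω} {g Φ h : ↥Lb}
  (P : s44kq_Pack (G := G) E p ζ y fv β lc Lb τ c g Φ h)

/-- `Φ` is fixed. -/
theorem s44ky_sigma_Phi (σ : G) : s44ky_sigma P.stable σ Φ = Φ :=
  Subtype.ext (P.Φ_fix σ)

/-- `h` is fixed. -/
theorem s44ky_sigma_h (σ : G) : s44ky_sigma P.stable σ h = h :=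
  Subtype.ext (P.h_fix σ)

/-- the action commutes with the deck transformation. -/
theorem s44ky_sigma_tau (σ : G) (z : ↥Lb) :
    s44ky_sigma P.stable σ (τ z) = τ (s44ky_sigma P.stable σ z) :=
  Subtype.ext (P.τ_smul σ z (P.stable σ z z.2)).symm

/-- all `τ^j h` are fixed. -/
theorem s44ky_sigma_iter (σ : G) (j : ℕ) :
    s44ky_sigma P.stable σ ((⇑τ)^[j] h) = (⇑τ)^[j] h := by
  induction j with
  | zero => exact s44ky_sigma_h P σ
  | succ j ih =>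
    rw [Function.iterate_succ_apply', s44ky_sigma_tau P, ih]

/-- the action on the elements of `E`. -/
theorem s44ky_sigma_E (σ : G) (z : ↥Lb) (hz : (z : Ω) ∈ E) (hE : ∀ (σ : G), ∀ x ∈ E, σ • x ∈ E) :
    ((s44ky_sigma P.stable σ z : ↥Lb) : Ω) ∈ E := hE σ _ hz

end Sigma

end Fermat.Agent.S44
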