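/-
Project S44 (Mazur–Ribet at `p`), cell [H2] MONO-MAIN, SUB [S-KINST] (helper23). Prefix `s44kz_`.

THE KUMMER-DATA BINDERS OF `s44ga_pair` / `s44pa_main` FROM A KUMMER PACKAGE, in final shape.

`K` a field, `Ω = K((q))`, `E' : IntermediateField K Ω`, `P` a Kummer package over `E'.toSubfield`
with `lc = s44kq_lc K`; `LL := ↥Lb`, `EE := ↥E'`, and ANY instances `[Algebra EE LL]`, `[Algebra K LL]`,
`[Algebra ↥O LL]` (`O` a valuation subring of `K`) whose `algebraMap`s are the inclusions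
(`halg`, `halgK`, `halgO`).  A default set of such instances is provided as DEFS
(`s44kz_algE`, `s44kz_algK`, `s44kz_algO`).

* `s44kz_c_eq`, `s44kz_lc_ne`  : `c = algebraMap K Ω c.leadingCoeff`, `c.leadingCoeff ≠ 0`;
* `s44kz_Phi_eq`   : `Φ = algebraMap K LL c' * algebraMap EE LL ⟨fv, _⟩ * g ^ p`       (`hΦ`);
* `s44kz_h_ne`     : `h ≠ 0`                                                           (`hh0`);
* `s44kz_tau_Phi`  : `τ Φ = (βL ^ p)⁻¹ * h ^ p * Φ`                                    (`hτΦ`);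
* `s44kz_tau_algE`, `s44kz_tau_algK`, `s44kz_tau_algO` : `τ` fixes `EE`, `K`, `O`      (`hτπ`, `hτβ`);
* `s44kz_beta`     : `βL = algebraMap ↥O LL ω` for a unit `ω` of `O`                   (`hβ`);
* `s44kz_isSeparable` : `LL / EE` is separable in characteristic `0`.
-/
import Mathlib
import Fermat.Agent.S44.Mono.KummerField
import Fermat.Agent.S44.Mono.KummerQL

set_option autoImplicit false
set_option linter.unusedSectionVars false
set_option linter.style.haveILetI false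

noncomputable section

namespace Fermat.Agent.S44

open Polynomial

section Inst

variable {K : Type*} [Field K] {G : Type*} [Group G] [MulSemiringAction G (LaurentSeries K)]
  {E' : IntermediateField K (LaurentSeries K)} {p : ℕ} {ζ y fv β : LaurentSeries K}
  {Lb : Subfield (LaurentSeries K)} {τ : ↥Lb ≃+* ↥Lb} {c : LaurentSeries K} {g Φ h : ↥Lb}
  (P : s44kq_Pack (G := G) E'.toSubfield p ζ y fv β (s44kq_lc K) Lb τ c g Φ h)

include P in
/-- `c` is a constant. -/
theorem s44kz_c_eq : c = algebraMap K (LaurentSeries K) c.leadingCoeff :=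
  P.c_lc.symm.trans (s44kq_lc_apply c)

include P in
theorem s44kz_lc_ne : c.leadingCoeff ≠ 0 := by
  intro h0
  apply P.c_ne
  rw [s44kz_c_eq P, h0, map_zero]

include P in
theorem s44kz_h_ne (hβ0 : β ≠ 0) : h ≠ 0 := by
  intro h0
  have h1 := P.h_eq
  rw [h0, ZeroMemClass.coe_zero] at h1
  have hg : ((g : ↥Lb) : LaurentSeries K) ≠ 0 := fun hg0 => P.g_ne (Subtype.ext hg0)
  have hτg : ((τ g : ↥Lb) : LaurentSeries K) ≠ 0 := fun hg0 =>
    (map_ne_zero τ).2 P.g_ne (Subtype.ext hg0)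
  exact mul_ne_zero (div_ne_zero hτg hg) hβ0 h1.symm

include P in
/-- `hτΦ`. -/
theorem s44kz_tau_Phi (hβ0 : β ≠ 0) {βL : ↥Lb} (hβL : (βL : LaurentSeries K) = β) :
    τ Φ = (βL ^ p)⁻¹ * h ^ p * Φ := by
  have hβL0 : βL ≠ 0 := by
    intro h0
    rw [h0, ZeroMemClass.coe_zero] at hβL
    exact hβ0 hβL.symm
  have h1 : τ Φ * βL ^ p = h ^ p * Φ := Subtype.ext (by
    have := P.rel
    rw [← hβL] at this
    exact this)
  rw [mul_assoc, ← h1, mul_comm (τ Φ), ← mul_assoc, inv_mul_cancel₀ (pow_ne_zero _ hβL0),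
    one_mul]

section AlgE

variable [Algebra ↥E' ↥Lb]
  (halg : ∀ e : ↥E', ((algebraMap ↥E' ↥Lb e : ↥Lb) : LaurentSeries K) = (e : LaurentSeries K))

include P halg in
theorem s44kz_tau_algE (e : ↥E') : τ (algebraMap ↥E' ↥Lb e) = algebraMap ↥E' ↥Lb e :=
  P.τ_E _ (by rw [halg]; exact e.2)

include P halg in
/-- `LL / EE` is separable in characteristic zero. -/
theorem s44kz_isSeparable [CharZero K] (hp0 : p ≠ 0) (hyE : y ^ p ∈ E') :
    Algebra.IsSeparable ↥E' ↥Lb := by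
  haveI : Module.Finite ↥E' ↥Lb := s44ky_finite P halg hp0 hyE
  haveI : CharZero ↥E' := charZero_of_injective_algebraMap (algebraMap K ↥E').injective
  exact Algebra.IsAlgebraic.isSeparable_of_perfectField

variable [Algebra K ↥Lb]
  (halgK : ∀ a : K, ((algebraMap K ↥Lb a : ↥Lb) : LaurentSeries K) =
    algebraMap K (LaurentSeries K) a)

include P halgK in
theorem s44kz_tau_algK (a : K) : τ (algebraMap K ↥Lb a) = algebraMap K ↥Lb a :=
  P.τ_E _ (by rw [halgK]; exact E'.algebraMap_mem a)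

include P halg halgK in
/-- **`hΦ`**. -/
theorem s44kz_Phi_eq (hfvE : fv ∈ E') :
    Φ = algebraMap K ↥Lb c.leadingCoeff * algebraMap ↥E' ↥Lb ⟨fv, hfvE⟩ * g ^ p :=
  Subtype.ext (by
    rw [P.Φ_eq]
    show _ = ((algebraMap K ↥Lb c.leadingCoeff : ↥Lb) : LaurentSeries K) *
      ((algebraMap ↥E' ↥Lb ⟨fv, hfvE⟩ : ↥Lb) : LaurentSeries K) * ((g : ↥Lb) : LaurentSeries K) ^ p
    rw [halgK, halg, ← s44kz_c_eq P])

include halg halgK in
theorem s44kz_tower : IsScalarTower K ↥E' ↥Lb :=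
  IsScalarTower.of_algebraMap_eq fun a => Subtype.ext (by rw [halgK, halg]; rfl)

end AlgE

section AlgO

variable (O : ValuationSubring K) [Algebra K ↥Lb]
  (halgK : ∀ a : K, ((algebraMap K ↥Lb a : ↥Lb) : LaurentSeries K) =
    algebraMap K (LaurentSeries K) a)
  [Algebra ↥O ↥Lb]
  (halgO : ∀ a : ↥O, ((algebraMap ↥O ↥Lb a : ↥Lb) : LaurentSeries K) =
    algebraMap K (LaurentSeries K) (a : K))

include halgK halgO in
theorem s44kz_towerO : IsScalarTower ↥O K ↥Lb :=
  IsScalarTower.of_algebraMap_eq fun a => Subtype.ext (by rw [halgO, halgK]; rfl)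

include P halgO in
/-- `hτπ`. -/
theorem s44kz_tau_algO (a : ↥O) : τ (algebraMap ↥O ↥Lb a) = algebraMap ↥O ↥Lb a :=
  P.τ_E _ (by rw [halgO]; exact E'.algebraMap_mem _)

include halgO in
/-- **`hβ`**. -/
theorem s44kz_beta {β1 : K} (hβ1 : β1 ∈ O) (hβ1i : β1⁻¹ ∈ O) (hβ10 : β1 ≠ 0)
    {βL : ↥Lb} (hβL : (βL : LaurentSeries K) = algebraMap K (LaurentSeries K) β1) :
    ∃ ω : (↥O)ˣ, βL = algebraMap ↥O ↥Lb (ω : ↥O) := by
  refine ⟨⟨⟨β1, hβ1⟩, ⟨β1⁻¹, hβ1i⟩, Subtype.ext (mul_inv_cancel₀ hβ10),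
    Subtype.ext (inv_mul_cancel₀ hβ10)⟩, Subtype.ext ?_⟩
  rw [hβL, halgO]

end AlgO

/-! ### a default set of instances -/

/-- the inclusion `EE → LL`. -/
def s44kz_inclE : ↥E' →+* ↥Lb where
  toFun e := ⟨(e : LaurentSeries K), P.le e.2⟩
  map_one' := rfl
  map_mul' _ _ := rfl
  map_zero' := rfl
  map_add' _ _ := rfl

/-- the default `EE`-algebra structure of `LL`. -/
@[reducible] def s44kz_algE : Algebra ↥E' ↥Lb := (s44kz_inclE P).toAlgebra

theorem s44kz_algE_coe (e : ↥E') :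
    letI := s44kz_algE P
    ((algebraMap ↥E' ↥Lb e : ↥Lb) : LaurentSeries K) = (e : LaurentSeries K) := rfl

/-- the default `K`-algebra structure of `LL`. -/
@[reducible] def s44kz_algK : Algebra K ↥Lb :=
  ((s44kz_inclE P).comp (algebraMap K ↥E')).toAlgebra

theorem s44kz_algK_coe (a : K) :
    letI := s44kz_algK P
    ((algebraMap K ↥Lb a : ↥Lb) : LaurentSeries K) = algebraMap K (LaurentSeries K) a := rfl

/-- the default `O`-algebra structure of `LL`. -/
@[reducible] def s44kz_algO (O : ValuationSubring K) : Algebra ↥O ↥Lb :=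
  (((s44kz_inclE P).comp (algebraMap K ↥E')).comp (algebraMap ↥O K)).toAlgebra

theorem s44kz_algO_coe (O : ValuationSubring K) (a : ↥O) :
    letI := s44kz_algO P O
    ((algebraMap ↥O ↥Lb a : ↥Lb) : LaurentSeries K) =
      algebraMap K (LaurentSeries K) (a : K) := rfl

end Inst

/-! ### the `G`-action on constants and on `EE` -/

section SigmaConst

variable {K : Type*} [Field K] {G : Type*} [Group G] [MulSemiringAction G K]

attribute [local instance] s44kq_lsAction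

variable {E' : IntermediateField K (LaurentSeries K)} {p : ℕ} {ζ y fv β : LaurentSeries K}
  {Lb : Subfield (LaurentSeries K)} {τ : ↥Lb ≃+* ↥Lb} {c : LaurentSeries K} {g Φ h : ↥Lb}
  (P : s44kq_Pack (G := G) E'.toSubfield p ζ y fv β (s44kq_lc K) Lb τ c g Φ h)

/-- the action of `σ` on the constants of the Kummer field. -/
theorem s44kz_sigma_algK [Algebra K ↥Lb]
    (halgK : ∀ a : K, ((algebraMap K ↥Lb a : ↥Lb) : LaurentSeries K) =
      algebraMap K (LaurentSeries K) a) (σ : G) (a : K) :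
    s44ky_sigma P.stable σ (algebraMap K ↥Lb a) = algebraMap K ↥Lb (σ • a) :=
  Subtype.ext (by
    rw [s44ky_sigma_coe, halgK, halgK]
    exact s44kq_smul_algebraMap σ a)

/-- the action of `σ` on `EE ⊆ LL`. -/
theorem s44kz_sigma_algE [Algebra ↥E' ↥Lb]
    (halg : ∀ e : ↥E', ((algebraMap ↥E' ↥Lb e : ↥Lb) : LaurentSeries K) = (e : LaurentSeries K))
    (hE : ∀ (σ : G), ∀ x ∈ E', σ • x ∈ E') (σ : G) (e : ↥E') :
    s44ky_sigma P.stable σ (algebraMap ↥E' ↥Lb e) =
      algebraMap ↥E' ↥Lb ⟨σ • (e : LaurentSeries K), hE σ e e.2⟩ :=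
  Subtype.ext (by rw [s44ky_sigma_coe, halg, halg])

/-- the action of `σ` on `O ⊆ LL`, for a `G`-stable valuation subring `O` of `K`. -/
theorem s44kz_sigma_algO (O : ValuationSubring K) [Algebra ↥O ↥Lb]
    (halgO : ∀ a : ↥O, ((algebraMap ↥O ↥Lb a : ↥Lb) : LaurentSeries K) =
      algebraMap K (LaurentSeries K) (a : K))
    (hO : ∀ (σ : G), ∀ x ∈ O, σ • x ∈ O) (σ : G) (a : ↥O) :
    s44ky_sigma P.stable σ (algebraMap ↥O ↥Lb a) =
      algebraMap ↥O ↥Lb ⟨σ • (a : K), hO σ a a.2⟩ :=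
  Subtype.ext (by
    rw [s44ky_sigma_coe, halgO, halgO]
    exact s44kq_smul_algebraMap σ (a : K))

end SigmaConst

end Fermat.Agent.S44
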