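/-
S44 project, cell [H2] MONO-MAIN, [H2-S] cell [S-CONJ] (helper13; helper4's CUT v2, finding 4051 (3)).
Prefix `s44mh_`.  Namespace `Fermat.Agent.S44`.  Mathlib + `Mono/SheetAbs`.

VALUATION-SUBRING FORM OF THE CONJUGACY.

* `s44mh_frac_or`      : `C` a Dedekind domain with fraction field `LL`, `𝔐 ≠ ⊥` a prime of `C`:
                         every `z : LL` or its inverse is a fraction `a / s` with `s ∉ 𝔐`
                         (`C_𝔐` is a valuation ring of `LL`);
* `s44mh_val_eq_loc`   : a valuation subring `V` of `LL` which contains a Dedekind domain `C` with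
                         fraction field `LL`, and whose maximal ideal meets `C` non-trivially, is the
                         localisation of `C` at `𝔪_V ∩ C`:
                         `z ∈ V ↔ ∃ a s : C, s ∉ 𝔪_V ∧ z * s = a`;
* `s44mh_conj_val`     : `LL / E` finite separable, `v₀` a discrete valuation subring of `E`,
                         `τ ∈ Aut(LL / E)` of order dividing `n` with fixed field `E`; two valuation
                         subrings `V, V'` of `LL` extending `v₀` are `⟨τ⟩`-conjugate: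
                         `z ∈ V' ↔ τ^j z ∈ V` for some `j < n`.
-/
import Mathlib
import Fermat.Agent.S44.Mono.SheetAbs

set_option autoImplicit false
set_option linter.unusedSectionVars false

namespace Fermat.Agent.S44

section Frac

variable {C LL : Type*} [CommRing C] [IsDedekindDomain C] [Field LL] [Algebra C LL]
  [IsFractionRing C LL]

/-- the localisation of a Dedekind domain at a nonzero prime is a valuation ring of the fraction
field, in elementary terms. -/
theorem s44mh_frac_or (𝔐 : Ideal C) [h𝔐 : 𝔐.IsPrime] (hne : 𝔐 ≠ ⊥) (z : LL) :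
    (∃ a s : C, s ∉ 𝔐 ∧ z * algebraMap C LL s = algebraMap C LL a) ∨
      (∃ a s : C, s ∉ 𝔐 ∧ z⁻¹ * algebraMap C LL s = algebraMap C LL a) := by
  have hle : 𝔐.primeCompl ≤ nonZeroDivisors C := 𝔐.primeCompl_le_nonZeroDivisors
  let _ : Algebra (Localization.AtPrime 𝔐) LL :=
    IsLocalization.localizationAlgebraOfSubmonoidLe (Localization.AtPrime 𝔐) LL 𝔐.primeCompl
      (nonZeroDivisors C) hle
  have : IsScalarTower C (Localization.AtPrime 𝔐) LL :=
    IsLocalization.localization_isScalarTower_of_submonoid_le (Localization.AtPrime 𝔐) LL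
      𝔐.primeCompl (nonZeroDivisors C) hle
  have : IsFractionRing (Localization.AtPrime 𝔐) LL :=
    IsFractionRing.isFractionRing_of_isDomain_of_isLocalization 𝔐.primeCompl
      (Localization.AtPrime 𝔐) LL
  have : IsDiscreteValuationRing (Localization.AtPrime 𝔐) :=
    IsLocalization.AtPrime.isDiscreteValuationRing_of_dedekind_domain C hne _
  have key : ∀ w : LL, IsLocalization.IsInteger (Localization.AtPrime 𝔐) w →
      ∃ a s : C, s ∉ 𝔐 ∧ w * algebraMap C LL s = algebraMap C LL a := by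
    rintro w ⟨c, rfl⟩
    obtain ⟨a, s, rfl⟩ := IsLocalization.exists_mk'_eq 𝔐.primeCompl c
    refine ⟨a, s.1, s.2, ?_⟩
    have h1 := IsLocalization.mk'_spec (Localization.AtPrime 𝔐) a s
    have h2 := congrArg (algebraMap (Localization.AtPrime 𝔐) LL) h1
    rw [map_mul, ← IsScalarTower.algebraMap_apply, ← IsScalarTower.algebraMap_apply] at h2
    exact h2
  rcases ValuationRing.isInteger_or_isInteger (Localization.AtPrime 𝔐) z with h | h
  · exact Or.inl (key z h)
  · exact Or.inr (key _ h)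

end Frac

section Val

variable {C LL : Type*} [CommRing C] [IsDedekindDomain C] [Field LL] [Algebra C LL]
  [IsFractionRing C LL]

/-- the contraction `𝔪_V ∩ C` of the maximal ideal of a valuation subring `V ⊇ C`. -/
def s44mh_ctr (V : ValuationSubring LL) (hCV : ∀ c : C, algebraMap C LL c ∈ V) : Ideal C :=
  (IsLocalRing.maximalIdeal ↥V).comap ((algebraMap C LL).codRestrict V hCV)

theorem s44mh_mem_ctr (V : ValuationSubring LL) (hCV : ∀ c : C, algebraMap C LL c ∈ V) (c : C) :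
    c ∈ s44mh_ctr V hCV ↔ algebraMap C LL c ∈ V.nonunits := by
  rw [s44mh_ctr, Ideal.mem_comap, ← ValuationSubring.coe_mem_nonunits_iff]
  rfl

instance s44mh_ctr_isPrime (V : ValuationSubring LL) (hCV : ∀ c : C, algebraMap C LL c ∈ V) :
    (s44mh_ctr V hCV).IsPrime := by
  rw [s44mh_ctr]
  exact Ideal.comap_isPrime _ _

/-- an element which is not in `𝔪_V` is nonzero with inverse in `V`. -/
theorem s44mh_inv_mem {V : ValuationSubring LL} {x : LL} (hx' : x ∉ V.nonunits) :
    x ≠ 0 ∧ x⁻¹ ∈ V := by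
  rw [ValuationSubring.mem_nonunits_iff_or] at hx'
  push Not at hx'
  exact hx'

/-- `𝔪_V` is stable under multiplication by `V`. -/
theorem s44mh_mul_nonunits {V : ValuationSubring LL} {z x : LL} (hz : z ∈ V)
    (hx : x ∈ V.nonunits) : z * x ∈ V.nonunits := by
  rw [ValuationSubring.mem_nonunits_iff_exists_mem_maximalIdeal] at hx ⊢
  obtain ⟨hxV, hxm⟩ := hx
  exact ⟨V.mul_mem _ _ hz hxV, Ideal.mul_mem_left _ (⟨z, hz⟩ : ↥V) hxm⟩

/-- **`V = C_𝔐`**: a valuation subring `V` of `LL = Frac C` (`C` Dedekind) containing `C`, whose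
maximal ideal meets `C` non-trivially, is the localisation of `C` at `𝔐 = 𝔪_V ∩ C`. -/
theorem s44mh_val_eq_loc (V : ValuationSubring LL) (hCV : ∀ c : C, algebraMap C LL c ∈ V)
    (hne : ∃ c : C, c ≠ 0 ∧ algebraMap C LL c ∈ V.nonunits) (z : LL) :
    z ∈ V ↔ ∃ a s : C, s ∉ s44mh_ctr V hCV ∧ z * algebraMap C LL s = algebraMap C LL a := by
  have hbot : s44mh_ctr V hCV ≠ ⊥ := by
    obtain ⟨c, hc0, hc⟩ := hne
    intro h
    apply hc0
    have : c ∈ s44mh_ctr V hCV := (s44mh_mem_ctr V hCV c).2 hc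
    rw [h] at this
    exact (Ideal.mem_bot).1 this
  constructor
  · intro hz
    rcases s44mh_frac_or (s44mh_ctr V hCV) hbot z with h | ⟨a, s, hs, has⟩
    · exact h
    · -- `z⁻¹ = a / s`
      have hs0 : algebraMap C LL s ≠ 0 := by
        intro h
        apply hs
        rw [s44mh_mem_ctr, h]
        exact V.nonunits.zero_mem
      by_cases hz0 : z = 0
      · exact ⟨0, 1, (Ideal.ne_top_iff_one _).1 (s44mh_ctr_isPrime V hCV).ne_top, by
          rw [hz0, zero_mul, map_zero]⟩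
      by_cases ha : a ∈ s44mh_ctr V hCV
      · exfalso
        apply hs
        rw [s44mh_mem_ctr] at ha ⊢
        have : algebraMap C LL s = z * algebraMap C LL a := by
          rw [← has]; field_simp
        rw [this]
        exact s44mh_mul_nonunits hz ha
      · refine ⟨s, a, ha, ?_⟩
        rw [← has]; field_simp
  · rintro ⟨a, s, hs, has⟩
    rw [s44mh_mem_ctr] at hs
    obtain ⟨hs0, hsinv⟩ := s44mh_inv_mem hs
    have : z = algebraMap C LL a * (algebraMap C LL s)⁻¹ := by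
      rw [← has]; field_simp
    rw [this]
    exact V.mul_mem _ _ (hCV a) hsinv

end Val

section ConjVal

variable {E LL : Type*} [Field E] [Field LL] [Algebra E LL]

/-- valuation subrings are integrally closed: an element integral over a subring of `V` is in
`V`. -/
theorem s44mh_integral_mem (V : ValuationSubring LL) {A : Type*} [CommRing A] [Algebra A LL]
    (hAV : ∀ a : A, algebraMap A LL a ∈ V) {x : LL} (hx : IsIntegral A x) : x ∈ V := by
  obtain ⟨q, hqm, hq⟩ := hx
  have hint : IsIntegral ↥V x := by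
    refine ⟨q.map ((algebraMap A LL).codRestrict V hAV), hqm.map _, ?_⟩
    rw [Polynomial.eval₂_map]
    exact hq
  obtain ⟨y, hy⟩ := IsIntegrallyClosed.isIntegral_iff.1 hint
  rw [← hy]
  exact y.2

/-- the nonunits of an extension of `v₀` restrict to the nonunits of `v₀`. -/
theorem s44mh_nonunits_restr (v₀ : ValuationSubring E) (V : ValuationSubring LL)
    (hV : ∀ x : E, algebraMap E LL x ∈ V ↔ x ∈ v₀) (x : E) :
    algebraMap E LL x ∈ V.nonunits ↔ x ∈ v₀.nonunits := by
  rw [ValuationSubring.mem_nonunits_iff_or, ValuationSubring.mem_nonunits_iff_or, ← map_inv₀, hV,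
    map_eq_zero]

variable [FiniteDimensional E LL] [Algebra.IsSeparable E LL]

/-- **[S-CONJ], valuation-subring form of the conjugacy**: `LL / E` finite separable, `v₀` a
discrete valuation subring of `E`, `τ ∈ Aut(LL / E)` with `τ ^ n = id` and fixed field `E`.  Two
valuation subrings `V, V'` of `LL` which extend `v₀` are conjugate under `⟨τ⟩`. -/
theorem s44mh_conj_val' (v₀ : ValuationSubring E) [IsDiscreteValuationRing ↥v₀]
    (τ : LL ≃ₐ[E] LL) {n : ℕ} (hn : 0 < n) (hτn : ∀ z : LL, (⇑τ)^[n] z = z)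
    (hfix : ∀ z : LL, τ z = z → z ∈ (algebraMap E LL).range)
    (V V' : ValuationSubring LL)
    (hV : ∀ x : E, algebraMap E LL x ∈ V ↔ x ∈ v₀)
    (hV' : ∀ x : E, algebraMap E LL x ∈ V' ↔ x ∈ v₀) :
    ∃ j < n, ∀ z : LL, z ∈ V' ↔ (⇑τ)^[j] z ∈ V := by
  have : IsDedekindDomain ↥(integralClosure ↥v₀ LL) := integralClosure.isDedekindDomain ↥v₀ E LL
  have : IsFractionRing ↥(integralClosure ↥v₀ LL) LL :=
    integralClosure.isFractionRing_of_finite_extension E LL
  -- `C ⊆ V, V'`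
  have hAV : ∀ (W : ValuationSubring LL), (∀ x : E, algebraMap E LL x ∈ W ↔ x ∈ v₀) →
      ∀ a : ↥v₀, algebraMap ↥v₀ LL a ∈ W := by
    intro W hW a
    rw [IsScalarTower.algebraMap_apply ↥v₀ E LL, hW]
    exact a.2
  have hCW : ∀ (W : ValuationSubring LL), (∀ x : E, algebraMap E LL x ∈ W ↔ x ∈ v₀) →
      ∀ c : ↥(integralClosure ↥v₀ LL), algebraMap ↥(integralClosure ↥v₀ LL) LL c ∈ W :=
    fun W hW c => s44mh_integral_mem W (hAV W hW) c.2
  -- the maximal ideals meet `C` non-trivially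
  have hneW : ∀ (W : ValuationSubring LL), (∀ x : E, algebraMap E LL x ∈ W ↔ x ∈ v₀) →
      ∃ c : ↥(integralClosure ↥v₀ LL), c ≠ 0 ∧
        algebraMap ↥(integralClosure ↥v₀ LL) LL c ∈ W.nonunits := by
    intro W hW
    obtain ⟨ϖ, hϖ⟩ := IsDiscreteValuationRing.exists_irreducible ↥v₀
    refine ⟨algebraMap ↥v₀ ↥(integralClosure ↥v₀ LL) ϖ, ?_, ?_⟩
    · intro h
      apply hϖ.ne_zero
      have h1 : algebraMap ↥v₀ LL ϖ = 0 := by
        rw [IsScalarTower.algebraMap_apply ↥v₀ ↥(integralClosure ↥v₀ LL) LL, h, map_zero]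
      rw [IsScalarTower.algebraMap_apply ↥v₀ E LL, map_eq_zero] at h1
      exact Subtype.ext h1
    · rw [← IsScalarTower.algebraMap_apply ↥v₀ ↥(integralClosure ↥v₀ LL) LL,
        IsScalarTower.algebraMap_apply ↥v₀ E LL, s44mh_nonunits_restr v₀ W hW]
      show ((ϖ : ↥v₀) : E) ∈ v₀.nonunits
      rw [ValuationSubring.coe_mem_nonunits_iff, IsLocalRing.mem_maximalIdeal, mem_nonunits_iff]
      exact hϖ.not_isUnit
  -- the contractions agree
  have hPQ : (s44mh_ctr V (hCW V hV)).comap (algebraMap ↥v₀ ↥(integralClosure ↥v₀ LL)) =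
      (s44mh_ctr V' (hCW V' hV')).comap (algebraMap ↥v₀ ↥(integralClosure ↥v₀ LL)) := by
    ext a
    rw [Ideal.mem_comap, Ideal.mem_comap, s44mh_mem_ctr, s44mh_mem_ctr,
      ← IsScalarTower.algebraMap_apply ↥v₀ ↥(integralClosure ↥v₀ LL) LL,
      IsScalarTower.algebraMap_apply ↥v₀ E LL, s44mh_nonunits_restr v₀ V hV,
      s44mh_nonunits_restr v₀ V' hV']
  have hic : ∀ z : E, IsIntegral ↥v₀ z → z ∈ (algebraMap ↥v₀ E).range := by
    intro z hz
    obtain ⟨y, hy⟩ := IsIntegrallyClosed.isIntegral_iff.1 hz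
    exact ⟨y, hy⟩
  obtain ⟨j, hj, hconj⟩ := s44mh_conj_closure (A := ↥v₀) hic τ hn hτn hfix
    (s44mh_ctr V (hCW V hV)) (s44mh_ctr V' (hCW V' hV')) hPQ
  refine ⟨j, hj, fun z => ?_⟩
  rw [s44mh_val_eq_loc V' (hCW V' hV') (hneW V' hV'), s44mh_val_eq_loc V (hCW V hV) (hneW V hV)]
  constructor
  · rintro ⟨a, s, hs, has⟩
    refine ⟨(⇑(s44mh_rho (A := ↥v₀) τ))^[j] a, (⇑(s44mh_rho (A := ↥v₀) τ))^[j] s, ?_, ?_⟩
    · rw [← hconj]; exact hs
    · show (⇑τ)^[j] z * (((⇑(s44mh_rho (A := ↥v₀) τ))^[j] s : ↥(integralClosure ↥v₀ LL)) : LL) =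
        (((⇑(s44mh_rho (A := ↥v₀) τ))^[j] a : ↥(integralClosure ↥v₀ LL)) : LL)
      rw [s44mh_rho_iter_coe, s44mh_rho_iter_coe, ← iterate_map_mul]
      exact congrArg _ has
  · rintro ⟨a, s, hs, has⟩
    have hjn : j + (n - j) = n := by omega
    refine ⟨(⇑(s44mh_rho (A := ↥v₀) τ))^[n - j] a, (⇑(s44mh_rho (A := ↥v₀) τ))^[n - j] s, ?_, ?_⟩
    · rw [hconj, ← Function.iterate_add_apply, hjn]
      have : (⇑(s44mh_rho (A := ↥v₀) τ))^[n] s = s := by
        apply Subtype.ext
        rw [s44mh_rho_iter_coe, hτn]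
      rw [this]
      exact hs
    · show z * (((⇑(s44mh_rho (A := ↥v₀) τ))^[n - j] s : ↥(integralClosure ↥v₀ LL)) : LL) =
        (((⇑(s44mh_rho (A := ↥v₀) τ))^[n - j] a : ↥(integralClosure ↥v₀ LL)) : LL)
      rw [s44mh_rho_iter_coe, s44mh_rho_iter_coe]
      have hz : z = (⇑τ)^[n - j] ((⇑τ)^[j] z) := by
        rw [← Function.iterate_add_apply, add_comm, hjn, hτn]
      rw [hz, ← iterate_map_mul]
      exact congrArg (⇑τ)^[n - j] has

/-- **[S-CONJ]** = finding 4051 (3), without the (redundant) hypotheses `V ≠ ⊤`, `V' ≠ ⊤`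
(helper4's confirmation, finding 4080). -/
theorem s44mh_conj_val (v₀ : ValuationSubring E) [IsDiscreteValuationRing ↥v₀]
    (τ : LL ≃ₐ[E] LL) {n : ℕ} (hn : 0 < n) (hτn : ∀ z : LL, (⇑τ)^[n] z = z)
    (hfix : ∀ z : LL, τ z = z → z ∈ (algebraMap E LL).range)
    (V V' : ValuationSubring LL)
    (hV : ∀ x : E, algebraMap E LL x ∈ V ↔ x ∈ v₀)
    (hV' : ∀ x : E, algebraMap E LL x ∈ V' ↔ x ∈ v₀) :
    ∃ j < n, ∀ z : LL, z ∈ V' ↔ (⇑τ)^[j] z ∈ V :=
  s44mh_conj_val' v₀ τ hn hτn hfix V V' hV hV'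

/-- the same with the two unused hypotheses `V ≠ ⊤`, `V' ≠ ⊤` of finding 4051 (3). -/
theorem s44mh_conj_val_ne (v₀ : ValuationSubring E) [IsDiscreteValuationRing ↥v₀]
    (τ : LL ≃ₐ[E] LL) {n : ℕ} (hn : 0 < n) (hτn : ∀ z : LL, (⇑τ)^[n] z = z)
    (hfix : ∀ z : LL, τ z = z → z ∈ (algebraMap E LL).range)
    (V V' : ValuationSubring LL)
    (hV : ∀ x : E, algebraMap E LL x ∈ V ↔ x ∈ v₀)
    (hV' : ∀ x : E, algebraMap E LL x ∈ V' ↔ x ∈ v₀) (_hne : V ≠ ⊤) (_hne' : V' ≠ ⊤) :
    ∃ j < n, ∀ z : LL, z ∈ V' ↔ (⇑τ)^[j] z ∈ V :=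
  s44mh_conj_val' v₀ τ hn hτn hfix V V' hV hV'

end ConjVal

end Fermat.Agent.S44
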