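/-
S44 project, cell [H2] MONO-MAIN, [H2-S], adapter [S-CONJ] ⟶ `s44ga_pair` (helper13).
Prefix `s44mh_`.  Namespace `Fermat.Agent.S44`.  Mathlib + `Mono/SheetVal` + `SS/Local/Height1`.

THE HYPOTHESIS `hconj` OF `s44ga_pair` (`Mono/GlobalAbs.lean`) FROM `s44mh_conj_val`.

* `s44mh_valAt_isDVR`   : `R_𝔮` (`ssl_valAt 𝔮 h1`) is a discrete valuation ring;
* `s44mh_isDVR_of_memAt` : a valuation subring `v₀` of `E = Frac S` with `x ∈ v₀ ↔ ssl_MemAt E 𝔭₁ x`
                          (`𝔭₁` of height one) is a discrete valuation ring;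
* **`s44mh_hconj`**      : `LL / E` finite separable, `τ' ∈ Aut(LL / E)`, `τ'^n = id`, fixed field `E`,
                          `τ : LL ≃+* LL` with the same underlying map: EXACTLY the binder
                          `hconj` of `s44ga_pair` / `s44pa_main` for the `v₀` of the `0`-component.
-/
import Mathlib
import Fermat.Agent.S44.Mono.SheetVal
import Fermat.Agent.SS.Local.Height1

set_option autoImplicit false
set_option linter.unusedSectionVars false
set_option linter.style.haveILetI false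

namespace Fermat.Agent.S44

open Fermat.Agent.SS

section DVR

variable {S : Type*} [CommRing S] [IsDomain S] [IsNoetherianRing S] [IsIntegrallyClosed S]
  {E : Type*} [Field E] [Algebra S E] [IsFractionRing S E]

/-- `R_𝔮` is a discrete valuation ring, as a valuation subring. -/
theorem s44mh_valAt_isDVR (𝔮 : Ideal S) [𝔮.IsPrime] (h1 : 𝔮.height = 1) :
    IsDiscreteValuationRing ↥(ssl_valAt (F := E) 𝔮 h1) := by
  haveI := ssl_locSub_isDVR (F := E) 𝔮 h1
  let φ : ↥(ssl_locSub E 𝔮) ≃+* ↥(ssl_valAt (F := E) 𝔮 h1) :=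
    { toFun := fun x => ⟨x, x.2⟩
      invFun := fun x => ⟨x, x.2⟩
      left_inv := fun _ => rfl
      right_inv := fun _ => rfl
      map_mul' := fun _ _ => rfl
      map_add' := fun _ _ => rfl }
  exact IsDiscreteValuationRing.RingEquivClass.isDiscreteValuationRing φ

/-- a valuation subring which is `R_𝔮` elementwise is a discrete valuation ring. -/
theorem s44mh_isDVR_of_memAt (𝔮 : Ideal S) [𝔮.IsPrime] (h1 : 𝔮.height = 1)
    (v₀ : ValuationSubring E) (hv₀ : ∀ x : E, ssl_MemAt E 𝔮 x ↔ x ∈ v₀) :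
    IsDiscreteValuationRing ↥v₀ := by
  have h : v₀ = ssl_valAt (F := E) 𝔮 h1 := by
    ext x
    rw [ssl_mem_valAt, hv₀]
  rw [h]
  exact s44mh_valAt_isDVR 𝔮 h1

end DVR

section HConj

variable {S : Type*} [CommRing S] [IsDomain S] [IsNoetherianRing S] [IsIntegrallyClosed S]
  {E : Type*} [Field E] [Algebra S E] [IsFractionRing S E]
  {LL : Type*} [Field LL] [Algebra E LL] [FiniteDimensional E LL] [Algebra.IsSeparable E LL]

/-- **the hypothesis `hconj` of `s44ga_pair`**: the extensions to `LL` of the valuation ring `v₀` of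
the `0`-component (`v₀ = S_{𝔭₁}`, `𝔭₁` of height one) are conjugate under the powers of the deck
transformation. -/
theorem s44mh_hconj (𝔭₁ : Ideal S) [𝔭₁.IsPrime] (h1 : 𝔭₁.height = 1)
    (v₀ : ValuationSubring E) (hv₀ : ∀ x : E, ssl_MemAt E 𝔭₁ x ↔ x ∈ v₀)
    (τ' : LL ≃ₐ[E] LL) {n : ℕ} (hn : 0 < n) (hτn : ∀ z : LL, (⇑τ')^[n] z = z)
    (hfix : ∀ z : LL, τ' z = z → z ∈ (algebraMap E LL).range)
    (τ : LL ≃+* LL) (hτ : ∀ z : LL, τ z = τ' z) :
    ∀ V₀ V₀' : ValuationSubring LL, (∀ x : E, algebraMap E LL x ∈ V₀ ↔ x ∈ v₀) →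
      (∀ x : E, algebraMap E LL x ∈ V₀' ↔ x ∈ v₀) →
      ∃ j : ℕ, ∀ z : LL, z ∈ V₀' ↔ (⇑τ)^[j] z ∈ V₀ := by
  intro V₀ V₀' hV₀ hV₀'
  haveI := s44mh_isDVR_of_memAt 𝔭₁ h1 v₀ hv₀
  obtain ⟨j, -, hj⟩ := s44mh_conj_val v₀ τ' hn hτn hfix V₀ V₀' hV₀ hV₀'
  refine ⟨j, fun z => ?_⟩
  have hfun : (⇑τ : LL → LL) = ⇑τ' := funext hτ
  rw [hfun]
  exact hj z

end HConj

end Fermat.Agent.S44
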