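/-
S44 project, cell [H2] MONO-MAIN, adapter [S-CONJ] ⟶ `s44ga_pair` AT THE KUMMER PACKAGE (helper13).
Prefix `s44kzc_`.  Namespace `Fermat.Agent.S44`.  Mathlib + `Mono/SheetConjInst` + `Mono/KummerInst`.

THE BINDER `hconj` OF `s44ga_pair` FOR THE DECK TRANSFORMATION `τ` OF A KUMMER PACKAGE
`P : s44kq_Pack E'.toSubfield p ζ y fv β lc Lb τ c g Φ h` (`LL := ↥Lb`, `E := ↥E'`), any instance
`[Algebra ↥E' ↥Lb]` whose `algebraMap` is the inclusion (`halg`).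

* `s44kzc_tauAlg`  : `τ` as an `E`-algebra automorphism of `LL`;
* **`s44kzc_hconj`** : `hconj`, for `v₀` the valuation ring of a height one prime `𝔭₁` of a
                     Noetherian normal domain `S` with `Frac S = E`.
-/
import Mathlib
import Fermat.Agent.S44.Mono.SheetConjInst
import Fermat.Agent.S44.Mono.KummerInst

set_option autoImplicit false
set_option linter.unusedSectionVars false
set_option linter.style.haveILetI false

noncomputable section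

namespace Fermat.Agent.S44

open Fermat.Agent.SS

section KConj

variable {K : Type*} [Field K] {G : Type*} [Group G] [MulSemiringAction G (LaurentSeries K)]
  {E' : IntermediateField K (LaurentSeries K)} {p : ℕ} {ζ y fv β : LaurentSeries K}
  {Lb : Subfield (LaurentSeries K)} {τ : ↥Lb ≃+* ↥Lb} {c : LaurentSeries K} {g Φ h : ↥Lb}
  (P : s44kq_Pack (G := G) E'.toSubfield p ζ y fv β (s44kq_lc K) Lb τ c g Φ h)
  [Algebra ↥E' ↥Lb]
  (halg : ∀ e : ↥E', ((algebraMap ↥E' ↥Lb e : ↥Lb) : LaurentSeries K) = (e : LaurentSeries K))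

/-- the deck transformation as an `E`-algebra automorphism. -/
def s44kzc_tauAlg : ↥Lb ≃ₐ[↥E'] ↥Lb :=
  { τ with commutes' := fun e => s44kz_tau_algE P halg e }

theorem s44kzc_tauAlg_apply (z : ↥Lb) : s44kzc_tauAlg P halg z = τ z := rfl

include P halg in
/-- **`hconj` of `s44ga_pair` for the Kummer package.** -/
theorem s44kzc_hconj [FiniteDimensional ↥E' ↥Lb] [Algebra.IsSeparable ↥E' ↥Lb] (hp : 0 < p)
    {S : Type*} [CommRing S] [IsDomain S] [IsNoetherianRing S] [IsIntegrallyClosed S]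
    [Algebra S ↥E'] [IsFractionRing S ↥E']
    (𝔭₁ : Ideal S) [𝔭₁.IsPrime] (h1 : 𝔭₁.height = 1)
    (v₀ : ValuationSubring ↥E') (hv₀ : ∀ x : ↥E', ssl_MemAt ↥E' 𝔭₁ x ↔ x ∈ v₀) :
    ∀ V₀ V₀' : ValuationSubring ↥Lb, (∀ x : ↥E', algebraMap ↥E' ↥Lb x ∈ V₀ ↔ x ∈ v₀) →
      (∀ x : ↥E', algebraMap ↥E' ↥Lb x ∈ V₀' ↔ x ∈ v₀) →
      ∃ j : ℕ, ∀ z : ↥Lb, z ∈ V₀' ↔ (⇑τ)^[j] z ∈ V₀ := by
  refine s44mh_hconj 𝔭₁ h1 v₀ hv₀ (s44kzc_tauAlg P halg) hp ?_ ?_ τ (fun z => rfl)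
  · intro z
    have hfun : (⇑(s44kzc_tauAlg P halg) : ↥Lb → ↥Lb) = ⇑τ := rfl
    rw [hfun]
    exact P.τ_pow z
  · intro z hz
    have hzE : (z : LaurentSeries K) ∈ E'.toSubfield := P.τ_fixed z hz
    exact ⟨⟨(z : LaurentSeries K), hzE⟩, Subtype.ext (halg _)⟩

end KConj

end Fermat.Agent.S44
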