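/-
Project S44 (Mazur–Ribet at `p`), cell [H2] MONO-MAIN, SUB [S-SIGMA] (helper23). Prefix `s44mx_`.

THE INERTIA-FAMILY BINDERS OF `s44ga_pair` (`σL σS σ0 hc h0 hσu` + the constants clause of
`s44mi_paBase`) AT THE LEGENDRE CHART.

Setting of `s44mu_node` / `Mono/CILeg.lean`: `L` a number field `∋ ζ_{N'}`, `O` a DVR of `L` of odd
residue characteristic `q ∤ N'`, `E = lg_E L (N' q)`, `B = fc_chart O {λ}`; a Kummer package `P` over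
`E.toSubfield` for a subgroup `G ≤ Gal(L/ℚ)` acting coefficientwise; `Γ' ≤ G` a subgroup of
automorphisms inert at `O` (`= s44mn_G (A.inertiaSubgroupIn ℚ) L'`, `s44mi_inert`).

* `s44mx_sigmaB`  : `ssl_SigmaB π (ssm_sg_aut N σ) B` for EVERY inert `σ` (from `s44mu_node_nodeAt` and
                    `ssm_fln_model_of_node`);
* `s44mx_sigmaL i : ↥Lb ≃+* ↥Lb`, `s44mx_sigma0 i : ↥O ≃+* ↥O`, `s44mx_sigmaS 𝔫 hπ𝔫 i : B_𝔫 ≃+* B_𝔫`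
                    (`i : ↥Γ'`; `σL`, `σ0` do not depend on the point `𝔫`);
* `s44mx_hc`, `s44mx_h0`, `s44mx_fix`, `s44mx_const`, `s44mx_constO`.
-/
import Mathlib
import Fermat.Agent.S44.Mono.KummerInst
import Fermat.Agent.S44.Mono.UNode
import Fermat.Agent.SS.Model.FinalLegNF
import Fermat.Agent.SS.Local.Main

set_option autoImplicit false
set_option linter.unusedSectionVars false
set_option linter.style.haveILetI false
set_option linter.unusedVariables false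

noncomputable section

namespace Fermat.Agent.S44

open ModularCurve IntermediateField IsLocalRing Polynomial
open Fermat.Agent.JT3 Fermat.Agent.SS

section NF

variable (L : Type) [Field L] [NumberField L] [Algebra L (AlgebraicClosure ℚ)]
  (O : ValuationSubring L) [IsDiscreteValuationRing O] {π : O} (hπ : Irreducible π)
variable (N' q : ℕ) [NeZero N'] [NeZero q] [hq : Fact q.Prime] [CharP (ResidueField O) q]
  (hq2 : ¬ 2 ∣ q) (hqN' : ¬ q ∣ N') (ζ : L) (hζ : IsPrimitiveRoot ζ N')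

include hπ hq2 hqN' hζ in
set_option synthInstance.maxHeartbeats 400000 in
set_option maxHeartbeats 1600000 in
/-- **the `σ`-package of the `λ`-chart for EVERY inert `σ`.** -/
theorem s44mx_sigmaB (σ : L ≃+* L) (hσ : ss_Inert O σ) :
    ssl_SigmaB π (ssm_sg_aut (N' * q) σ)
      (fc_chart ↥O ({lg_lamE (N' * q)} : Set ↥(lg_E L (N' * q)))) := by
  have hE : ∀ z ∈ lg_E L (N' * q), coeffMap (σ : L →+* L) z ∈ lg_E L (N' * q) :=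
    fun z hz => ssm_gs_coeffMap_mem_E (N' * q) _ hz
  have hE' : ∀ z ∈ lg_E L (N' * q), coeffMap (σ.symm : L →+* L) z ∈ lg_E L (N' * q) :=
    fun z hz => ssm_gs_coeffMap_mem_E (N' * q) _ hz
  have h : ∀ z ∈ O, σ z ∈ O := fun z hz => ssm_gs_mem hσ hz
  have h' : ∀ z ∈ O, σ.symm z ∈ O := fun z hz => ssm_gs_mem (ssm_gs_inert_symm O σ hσ) hz
  have M := ssm_fln_model_of_node L O hπ N' q hq2 hqN' ζ hζ σ hσ hE hE' h h'
    (fun 𝔫 h𝔫 h1 h2 => s44mu_node_nodeAt L O hπ N' q hq2 hqN' ζ hζ σ hσ 𝔫 h𝔫 h1 h2)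
  have e : ss_sigmaE σ (lg_E L (N' * q)) hE hE' = ssm_sg_aut (N' * q) σ :=
    RingEquiv.ext fun _ => rfl
  have hB := ssl_model_sigmaB1 M
  rwa [e] at hB

/-! ### the family -/

attribute [local instance] s44kq_lsAction

variable {G : Subgroup (L ≃ₐ[ℚ] L)} {p : ℕ} {ζ' y fv β : LaurentSeries L}
  {Lb : Subfield (LaurentSeries L)} {τ : ↥Lb ≃+* ↥Lb} {c : LaurentSeries L} {g Φ h : ↥Lb}
  (P : s44kq_Pack (G := ↥G) (lg_E L (N' * q)).toSubfield p ζ' y fv β (s44kq_lc L) Lb τ c g Φ h)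
  (Γ' : Subgroup (L ≃ₐ[ℚ] L)) (hΓ : Γ' ≤ G)
  (hin : ∀ g ∈ Γ', ss_Inert O (g : L ≃ₐ[ℚ] L).toRingEquiv)

/-- the automorphism of the Kummer field induced by `i ∈ Γ'`. -/
def s44mx_sigmaL (i : ↥Γ') : ↥Lb ≃+* ↥Lb :=
  s44ky_sigma P.stable (⟨(i : L ≃ₐ[ℚ] L), hΓ i.2⟩ : ↥G)

theorem s44mx_sigmaL_coe (i : ↥Γ') (z : ↥Lb) :
    ((s44mx_sigmaL L N' q P Γ' hΓ i z : ↥Lb) : LaurentSeries L) =
      coeffMap (((i : L ≃ₐ[ℚ] L).toRingEquiv : L ≃+* L) : L →+* L) (z : LaurentSeries L) := rfl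

/-- the automorphism of `O` induced by `i ∈ Γ'`. -/
def s44mx_sigma0 (i : ↥Γ') : ↥O ≃+* ↥O :=
  ssm_sg_base O (i : L ≃ₐ[ℚ] L).toRingEquiv (hin i i.2)

theorem s44mx_sigma0_coe (i : ↥Γ') (a : ↥O) :
    ((s44mx_sigma0 L O Γ' hin i a : ↥O) : L) = (i : L ≃ₐ[ℚ] L) (a : L) := rfl

variable [IsFractionRing ↥(fc_chart ↥O ({lg_lamE (N' * q)} : Set ↥(lg_E L (N' * q))))
    ↥(lg_E L (N' * q))]
  [IsNoetherianRing ↥(fc_chart ↥O ({lg_lamE (N' * q)} : Set ↥(lg_E L (N' * q))))]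
  [IsIntegrallyClosed ↥(fc_chart ↥O ({lg_lamE (N' * q)} : Set ↥(lg_E L (N' * q))))]
  (𝔫 : Ideal ↥(fc_chart ↥O ({lg_lamE (N' * q)} : Set ↥(lg_E L (N' * q))))) [h𝔫 : 𝔫.IsPrime]
  (hπ𝔫 : algebraMap ↥O ↥(fc_chart ↥O ({lg_lamE (N' * q)} : Set ↥(lg_E L (N' * q)))) π ∈ 𝔫)

/-- the automorphism of the local ring `B_𝔫` of the `λ`-chart induced by `i ∈ Γ'`. -/
def s44mx_sigmaS (i : ↥Γ') :
    ↥(ssl_locSub ↥(lg_E L (N' * q)) 𝔫) ≃+* ↥(ssl_locSub ↥(lg_E L (N' * q)) 𝔫) :=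
  ssl_sigmaR 𝔫 (s44mx_sigmaB L O hπ N' q hq2 hqN' ζ hζ _ (hin i i.2)) hπ𝔫

theorem s44mx_sigmaS_coe (i : ↥Γ') (s : ↥(ssl_locSub ↥(lg_E L (N' * q)) 𝔫)) :
    ((s44mx_sigmaS L O hπ N' q hq2 hqN' ζ hζ Γ' hin 𝔫 hπ𝔫 i s :
      ↥(ssl_locSub ↥(lg_E L (N' * q)) 𝔫)) : ↥(lg_E L (N' * q))) =
      ssm_sg_aut (N' * q) (i : L ≃ₐ[ℚ] L).toRingEquiv (s : ↥(lg_E L (N' * q))) := rfl

/-- **`hc`**: `σL` and `σS` are compatible, for ANY `S`-algebra structure of the Kummer field whose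
`algebraMap` is the inclusion. -/
theorem s44mx_hc [Algebra ↥(ssl_locSub ↥(lg_E L (N' * q)) 𝔫) ↥Lb]
    (halgS : ∀ s : ↥(ssl_locSub ↥(lg_E L (N' * q)) 𝔫),
      ((algebraMap ↥(ssl_locSub ↥(lg_E L (N' * q)) 𝔫) ↥Lb s : ↥Lb) : LaurentSeries L) =
        ((s : ↥(lg_E L (N' * q))) : LaurentSeries L))
    (i : ↥Γ') (s : ↥(ssl_locSub ↥(lg_E L (N' * q)) 𝔫)) :
    s44mx_sigmaL L N' q P Γ' hΓ i (algebraMap ↥(ssl_locSub ↥(lg_E L (N' * q)) 𝔫) ↥Lb s) =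
      algebraMap ↥(ssl_locSub ↥(lg_E L (N' * q)) 𝔫) ↥Lb
        (s44mx_sigmaS L O hπ N' q hq2 hqN' ζ hζ Γ' hin 𝔫 hπ𝔫 i s) :=
  Subtype.ext (by
    rw [s44mx_sigmaL_coe, halgS, halgS]
    rfl)

set_option synthInstance.maxHeartbeats 400000 in
set_option maxHeartbeats 1600000 in
/-- **`h0`**: `σS` and `σ0` are compatible (canonical `O`-algebra structure of `B_𝔫`). -/
theorem s44mx_h0 (i : ↥Γ') (a : ↥O) :
    s44mx_sigmaS L O hπ N' q hq2 hqN' ζ hζ Γ' hin 𝔫 hπ𝔫 i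
        (algebraMap ↥O ↥(ssl_locSub ↥(lg_E L (N' * q)) 𝔫) a) =
      algebraMap ↥O ↥(ssl_locSub ↥(lg_E L (N' * q)) 𝔫) (s44mx_sigma0 L O Γ' hin i a) :=
  Subtype.ext (ssm_sg_aut_base O (N' * q) _ (hin i i.2) a)

/-- **`hσu`**: an element fixed by every inert automorphism (the `u` of `s44mu_node`) is fixed by
`σS`. -/
theorem s44mx_fix {u : ↥(lg_E L (N' * q))}
    (hu : ∀ σ : L ≃+* L, ss_Inert O σ → ssm_sg_aut (N' * q) σ u = u)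
    (huS : u ∈ ssl_locSub ↥(lg_E L (N' * q)) 𝔫) (i : ↥Γ') :
    s44mx_sigmaS L O hπ N' q hq2 hqN' ζ hζ Γ' hin 𝔫 hπ𝔫 i ⟨u, huS⟩ = ⟨u, huS⟩ :=
  Subtype.ext (hu _ (hin i i.2))

omit [IsFractionRing ↥(fc_chart ↥O ({lg_lamE (N' * q)} : Set ↥(lg_E L (N' * q))))
    ↥(lg_E L (N' * q))]
  [IsNoetherianRing ↥(fc_chart ↥O ({lg_lamE (N' * q)} : Set ↥(lg_E L (N' * q))))]
  [IsIntegrallyClosed ↥(fc_chart ↥O ({lg_lamE (N' * q)} : Set ↥(lg_E L (N' * q))))] in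
/-- **the constants clause** (the `hσ` of `s44mi_paBase`). -/
theorem s44mx_const [Algebra L ↥Lb]
    (halgK : ∀ a : L, ((algebraMap L ↥Lb a : ↥Lb) : LaurentSeries L) =
      algebraMap L (LaurentSeries L) a) (i : ↥Γ') (a : L) :
    s44mx_sigmaL L N' q P Γ' hΓ i (algebraMap L ↥Lb a) =
      algebraMap L ↥Lb ((i : L ≃ₐ[ℚ] L) a) :=
  s44kz_sigma_algK P halgK _ a

omit [IsFractionRing ↥(fc_chart ↥O ({lg_lamE (N' * q)} : Set ↥(lg_E L (N' * q))))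
    ↥(lg_E L (N' * q))]
  [IsNoetherianRing ↥(fc_chart ↥O ({lg_lamE (N' * q)} : Set ↥(lg_E L (N' * q))))]
  [IsIntegrallyClosed ↥(fc_chart ↥O ({lg_lamE (N' * q)} : Set ↥(lg_E L (N' * q))))] in
/-- the action of `σL` on `O ⊆ LL`. -/
theorem s44mx_constO [Algebra ↥O ↥Lb]
    (halgO : ∀ a : ↥O, ((algebraMap ↥O ↥Lb a : ↥Lb) : LaurentSeries L) =
      algebraMap L (LaurentSeries L) (a : L)) (i : ↥Γ') (a : ↥O) :
    s44mx_sigmaL L N' q P Γ' hΓ i (algebraMap ↥O ↥Lb a) =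
      algebraMap ↥O ↥Lb (s44mx_sigma0 L O Γ' hin i a) :=
  Subtype.ext (by
    rw [s44mx_sigmaL_coe, halgO, halgO, s44mx_sigma0_coe]
    exact ssm_sg_coeffMap_algebraMap _ _)

end NF

end Fermat.Agent.S44
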