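/-
Project S44 (Mazur–Ribet at `p`), cell [H2] MONO-MAIN, SUB [S-KBUNDLE] (helper23). Prefix `s44kb_`.

THE KUMMER-SIDE AND FAMILY-SIDE BINDERS OF `s44gm_pair` (Mono/ChartPair.lean), in its exact shapes.

(A) the family at the field level, setting of `Mono/MainSigma.lean`:
  `σE i := ssm_sg_aut (N' q) i`, `hσB := s44mx_sigmaB`, `s44kb_hσL`, `s44kb_hσ0`, `s44kb_hσu`;
(B) `s44kb_bundle` : for a Kummer package `P` over `E'.toSubfield` (`K`, `Ω = K((q))`), with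
  `τ := s44kzc_tauAlg P halg : LL ≃ₐ[EE] LL` (helper13) and `σL i := s44ky_sigma P.stable (γ i)`:
  `hy hfin hgenLL hτn hfix hc0 hg hh0 hΦ hβ hτΦ hσΦ hσh` at once;
  `s44kb_towerOE` : `IsScalarTower ↥O ↥E' ↥Lb`.
-/
import Mathlib
import Fermat.Agent.S44.Mono.MainSigma
import Fermat.Agent.S44.Mono.KummerConj

set_option autoImplicit false
set_option linter.unusedSectionVars false
set_option linter.style.haveILetI false
set_option linter.unusedVariables false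

noncomputable section

namespace Fermat.Agent.S44

open ModularCurve IntermediateField IsLocalRing Polynomial
open Fermat.Agent.JT3 Fermat.Agent.SS

/-! ### (B) the Kummer bundle -/

section Bundle

variable {K : Type*} [Field K] {G : Type*} [Group G] [MulSemiringAction G (LaurentSeries K)]
  {E' : IntermediateField K (LaurentSeries K)} {p : ℕ} {ζ y fv β : LaurentSeries K}
  {Lb : Subfield (LaurentSeries K)} {τ : ↥Lb ≃+* ↥Lb} {c : LaurentSeries K} {g Φ h : ↥Lb}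
  (P : s44kq_Pack (G := G) E'.toSubfield p ζ y fv β (s44kq_lc K) Lb τ c g Φ h)

/-- `IsScalarTower ↥O ↥E' ↥Lb` for any instances whose `algebraMap`s are the inclusions. -/
theorem s44kb_towerOE (O : ValuationSubring K) [Algebra ↥O ↥E'] [Algebra ↥E' ↥Lb] [Algebra ↥O ↥Lb]
    (halgOE : ∀ a : ↥O, ((algebraMap ↥O ↥E' a : ↥E') : LaurentSeries K) =
      algebraMap K (LaurentSeries K) (a : K))
    (halg : ∀ e : ↥E', ((algebraMap ↥E' ↥Lb e : ↥Lb) : LaurentSeries K) = (e : LaurentSeries K))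
    (halgO : ∀ a : ↥O, ((algebraMap ↥O ↥Lb a : ↥Lb) : LaurentSeries K) =
      algebraMap K (LaurentSeries K) (a : K)) :
    IsScalarTower ↥O ↥E' ↥Lb :=
  IsScalarTower.of_algebraMap_eq fun a => Subtype.ext (by rw [halgO, halg, halgOE])

variable [Algebra ↥E' ↥Lb]
  (halg : ∀ e : ↥E', ((algebraMap ↥E' ↥Lb e : ↥Lb) : LaurentSeries K) = (e : LaurentSeries K))
  [Algebra K ↥Lb]
  (halgK : ∀ a : K, ((algebraMap K ↥Lb a : ↥Lb) : LaurentSeries K) =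
    algebraMap K (LaurentSeries K) a)
  (O : ValuationSubring K) [Algebra ↥O ↥Lb]
  (halgO : ∀ a : ↥O, ((algebraMap ↥O ↥Lb a : ↥Lb) : LaurentSeries K) =
    algebraMap K (LaurentSeries K) (a : K))

/-- the iterates of the algebra automorphism are those of `τ`. -/
theorem s44kb_iterate (j : ℕ) (z : ↥Lb) :
    (⇑(s44kzc_tauAlg P halg))^[j] z = (⇑τ)^[j] z := rfl

include halgK halgO in
/-- **THE KUMMER BUNDLE**: the Kummer-side binders of `s44gm_pair`. -/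
theorem s44kb_bundle (hp : p.Prime) (hyE : y ^ p ∈ E') (hirr : ∀ b ∈ E', b ^ p ≠ y ^ p)
    (hfvE : fv ∈ E') {β1 : K} (hβ : β = algebraMap K (LaurentSeries K) β1) (hβ1 : β1 ∈ O)
    (hβ1i : β1⁻¹ ∈ O) (hβ10 : β1 ≠ 0) {Γ : Type*} (γ : Γ → G) :
    (⟨y, P.y_mem⟩ : ↥Lb) ^ p = algebraMap ↥E' ↥Lb ⟨y ^ p, hyE⟩ ∧
    Module.finrank ↥E' ↥Lb = p ∧
    Algebra.adjoin ↥E' ({(⟨y, P.y_mem⟩ : ↥Lb)} : Set ↥Lb) = ⊤ ∧
    (∀ z : ↥Lb, (⇑(s44kzc_tauAlg P halg))^[p] z = z) ∧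
    (∀ z : ↥Lb, s44kzc_tauAlg P halg z = z → z ∈ (algebraMap ↥E' ↥Lb).range) ∧
    c.leadingCoeff ≠ 0 ∧ g ≠ 0 ∧ h ≠ 0 ∧
    Φ = algebraMap K ↥Lb c.leadingCoeff * algebraMap ↥E' ↥Lb ⟨fv, hfvE⟩ * g ^ p ∧
    (∃ ω : (↥O)ˣ, algebraMap K ↥Lb β1 = algebraMap ↥O ↥Lb (ω : ↥O)) ∧
    s44kzc_tauAlg P halg Φ = ((algebraMap K ↥Lb β1) ^ p)⁻¹ * h ^ p * Φ ∧
    (∀ i : Γ, s44ky_sigma P.stable (γ i) Φ = Φ) ∧
    (∀ (i : Γ) (j : ℕ), s44ky_sigma P.stable (γ i) ((⇑(s44kzc_tauAlg P halg))^[j] h) =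
      (⇑(s44kzc_tauAlg P halg))^[j] h) := by
  have hβ0 : β ≠ 0 := by
    rw [hβ]
    exact (_root_.map_ne_zero _).2 hβ10
  have hβL : ((algebraMap K ↥Lb β1 : ↥Lb) : LaurentSeries K) = β := by rw [halgK, hβ]
  refine ⟨s44ky_y_pow P halg hyE, s44ky_finrank P halg hp hyE hirr, s44ky_adjoin_eq_top P halg,
    fun z => P.τ_pow z, fun z hz => s44ky_tau_range P halg z hz, s44kz_lc_ne P, P.g_ne,
    s44kz_h_ne P hβ0, s44kz_Phi_eq P halg halgK hfvE,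
    s44kz_beta O halgO hβ1 hβ1i hβ10 (by rw [halgK]), s44kz_tau_Phi P hβ0 hβL,
    fun i => s44ky_sigma_Phi P (γ i), fun i j => s44ky_sigma_iter P (γ i) j⟩

end Bundle

/-! ### (A) the family at the field level -/

section NF

variable (L : Type) [Field L] [NumberField L] [Algebra L (AlgebraicClosure ℚ)]
  (O : ValuationSubring L) [IsDiscreteValuationRing O]
variable (N : ℕ) [NeZero N]

attribute [local instance] s44kq_lsAction

variable {G : Subgroup (L ≃ₐ[ℚ] L)} {p : ℕ} {ζ' y fv β : LaurentSeries L}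
  {Lb : Subfield (LaurentSeries L)} {τ : ↥Lb ≃+* ↥Lb} {c : LaurentSeries L} {g Φ h : ↥Lb}
  (P : s44kq_Pack (G := ↥G) (lg_E L N).toSubfield p ζ' y fv β (s44kq_lc L) Lb τ c g Φ h)
  (Γ' : Subgroup (L ≃ₐ[ℚ] L)) (hΓ : Γ' ≤ G)
  (hin : ∀ g ∈ Γ', ss_Inert O (g : L ≃ₐ[ℚ] L).toRingEquiv)

/-- **`hσL`**: the automorphism of the Kummer field induced by `i ∈ Γ'` extends `σE i`. -/
theorem s44kb_hσL [Algebra ↥(lg_E L N) ↥Lb]
    (halg : ∀ e : ↥(lg_E L N), ((algebraMap ↥(lg_E L N) ↥Lb e : ↥Lb) : LaurentSeries L) =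
      (e : LaurentSeries L)) (i : ↥Γ') (z : ↥(lg_E L N)) :
    s44ky_sigma P.stable (⟨(i : L ≃ₐ[ℚ] L), hΓ i.2⟩ : ↥G) (algebraMap ↥(lg_E L N) ↥Lb z) =
      algebraMap ↥(lg_E L N) ↥Lb (ssm_sg_aut N (i : L ≃ₐ[ℚ] L).toRingEquiv z) :=
  Subtype.ext (by
    rw [s44ky_sigma_coe, halg, halg]
    rfl)

include hin in
/-- **`hσ0`**. -/
theorem s44kb_hσ0 (i : ↥Γ') (a : ↥O) :
    ssm_sg_aut N (i : L ≃ₐ[ℚ] L).toRingEquiv (algebraMap ↥O ↥(lg_E L N) a) =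
      algebraMap ↥O ↥(lg_E L N) (s44mx_sigma0 L O Γ' hin i a) :=
  ssm_sg_aut_base O N _ (hin i i.2) a

include hin in
/-- **`hσu`**. -/
theorem s44kb_hσu {u : ↥(lg_E L N)}
    (hu : ∀ σ : L ≃+* L, ss_Inert O σ → ssm_sg_aut N σ u = u) (i : ↥Γ') :
    ssm_sg_aut N (i : L ≃ₐ[ℚ] L).toRingEquiv u = u :=
  hu _ (hin i i.2)

end NF

end Fermat.Agent.S44
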