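/-
S44 (Mazur–Ribet at `p`), cell [H2] MONO-MAIN, sub-cell [H2-G] (helper8; prefix `s44mv_`):
THE `∞`-SHEET VALUATION RING `V_∞` OF THE KUMMER FIELD.

`L` a field, `O ≤ L` a discrete valuation subring, `Lb ⊆ Ω = L((q))` a subfield consisting of
bounded quotients (`hLb`; for `Lb = E(y)` this is `s44mv_Lb_isQuot`, with `y` a bounded quotient by
`s44mc_leg_root`).

* `s44mv_V O Lb hLb : ValuationSubring ↥Lb`, `z ∈ V ↔ gq_IsBdd O L z` (`s44mv_mem_V`, by `rfl`);
* `s44mv_unif`   : `s44vw_Unif (ssl_VUnit V) ϖ`, `ϖ` the constant `π` (a uniformiser of `O`): the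
                   input of helper4's `s44vw_exists` (normalised order function `W_∞`);
* `s44mv_extends`, `s44mv_extends_nonunits` : `V` restricts to `gq_valSubOf π _ _ E _` on every
                   `E ⊆ Lb` (e.g. `V1 = ssm_gl_V1`);
* `s44mv_stable` : `V` is stable under the coefficientwise action of a group preserving `O`;
  `s44mv_inert`  : an inert `g` is trivial on the residue field of `V`;
* `s44mv_dagger` : **(†)** a nonzero `G`-fixed element of `Lb` is a `G`-fixed constant times a unit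
                   of `V` (`G` finite).
-/
import Mathlib
import Fermat.Agent.S44.Mono.GaussInv
import Fermat.Agent.S44.Mono.ValW
import Fermat.Agent.S44.Mono.KummerQ

set_option autoImplicit false

open IsLocalRing

namespace Fermat.Agent.S44

open Fermat.Agent.JT3 Fermat.Agent.SS

section Omega

variable {L : Type*} [Field L] (O : ValuationSubring L) [IsDiscreteValuationRing ↥O]

/-- `π⁻¹` is not bounded. -/
theorem s44mv_const_inv_not_bdd {π : ↥O} (hπ : Irreducible π) :
    ¬ gq_IsBdd ↥O L (algebraMap L (LaurentSeries L) (π : L))⁻¹ := by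
  intro hinv
  have hπm : maximalIdeal ↥O = Ideal.span {π} := hπ.maximalIdeal_eq
  have hinjL : Function.Injective (algebraMap ↥O L) := IsFractionRing.injective ↥O L
  have hc0 := gq_const_ne_zero (K := L) π hπ.ne_zero hinjL
  have hbdd : gq_IsBdd ↥O L (algebraMap L (LaurentSeries L) (algebraMap ↥O L π)) := by
    rw [← gq_coeffMap_algebraMap]
    exact gq_isBdd_iota _
  apply gq_res_ne_zero_of_inv ⟨_, hbdd⟩ hinv hc0
  rw [gq_res_eq_zero_iff π hπ.ne_zero hπm]
  exact ⟨1, by rw [OneMemClass.coe_one, mul_one]⟩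

/-- every nonzero bounded quotient is a power of `π` times a Gauss unit. -/
theorem s44mv_exists_zpow {π : ↥O} (hπ : Irreducible π) {z : LaurentSeries L}
    (hz : gq_IsQuot ↥O L z) (hz0 : z ≠ 0) :
    ∃ n : ℤ, gq_IsBdd ↥O L (z / algebraMap L (LaurentSeries L) (π : L) ^ n) ∧
      gq_IsBdd ↥O L (z / algebraMap L (LaurentSeries L) (π : L) ^ n)⁻¹ := by
  have hπm : maximalIdeal ↥O = Ideal.span {π} := hπ.maximalIdeal_eq
  have hinjL : Function.Injective (algebraMap ↥O L) := IsFractionRing.injective ↥O L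
  have hinj := gq_coeffMap_injective (K := L) hinjL
  obtain ⟨z1, z2, hz2, hzz⟩ := hz
  have hz2' : ModularCurve.coeffMap (algebraMap ↥O L) z2 ≠ 0 := by
    intro h0
    exact hz2 (hinj (by rw [h0, map_zero]))
  have hz1 : z1 ≠ 0 := by
    intro h0
    rw [h0, map_zero] at hzz
    rcases mul_eq_zero.mp hzz with h | h
    · exact hz0 h
    · exact hz2' h
  obtain ⟨e1, w1, hw1, hr1⟩ := gq_exists_pow_mul π hπm z1 hz1
  obtain ⟨e2, w2, hw2, hr2⟩ := gq_exists_pow_mul π hπm z2 hz2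
  set c : LaurentSeries L := algebraMap L (LaurentSeries L) (π : L) with hc
  have hc0 : c ≠ 0 := gq_const_ne_zero (K := L) π hπ.ne_zero hinjL
  have hpow : ∀ e : ℕ, ModularCurve.coeffMap (algebraMap ↥O L)
      (algebraMap ↥O (LaurentSeries ↥O) (π ^ e)) = c ^ e := by
    intro e
    rw [gq_coeffMap_algebraMap, map_pow, map_pow]
    rfl
  rw [hw1, hw2, map_mul, map_mul, hpow, hpow] at hzz
  have hw1' : ModularCurve.coeffMap (algebraMap ↥O L) w1 ≠ 0 := by
    intro h0
    have : w1 = 0 := hinj (by rw [h0, map_zero])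
    rw [this, map_zero] at hr1
    exact hr1 rfl
  have key : z / c ^ ((e1 : ℤ) - e2) * ModularCurve.coeffMap (algebraMap ↥O L) w2 =
      ModularCurve.coeffMap (algebraMap ↥O L) w1 := by
    rw [zpow_sub₀ hc0, zpow_natCast, zpow_natCast]
    have h1 : z * c ^ e2 * ModularCurve.coeffMap (algebraMap ↥O L) w2 =
        c ^ e1 * ModularCurve.coeffMap (algebraMap ↥O L) w1 := by
      rw [← hzz]
      ring
    field_simp
    rw [h1]
  refine ⟨(e1 : ℤ) - e2, ⟨w1, w2, hr2, key⟩, ⟨w2, w1, hr1, ?_⟩⟩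
  rw [← key]
  have hne : z / c ^ ((e1 : ℤ) - e2) ≠ 0 := div_ne_zero hz0 (zpow_ne_zero _ hc0)
  rw [← mul_assoc, inv_mul_cancel₀ hne, one_mul]

end Omega

section V

variable {L : Type*} [Field L] (O : ValuationSubring L) [IsDiscreteValuationRing ↥O]
  (Lb : Subfield (LaurentSeries L)) (hLb : ∀ z ∈ Lb, gq_IsQuot ↥O L z)

/-- **the Gauss valuation subring `V_∞`** of a subfield `Lb ⊆ L((q))` of bounded quotients. -/
noncomputable def s44mv_V : ValuationSubring ↥Lb where
  toSubring := (gq_bddSubring ↥O L).comap Lb.subtype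
  mem_or_inv_mem' := by
    intro z
    obtain ⟨π, hπ⟩ := IsDiscreteValuationRing.exists_irreducible ↥O
    rcases gq_isBdd_or_inv π hπ.ne_zero hπ.maximalIdeal_eq (hLb z z.2) with h | h
    · exact Or.inl h
    · refine Or.inr ?_
      change gq_IsBdd ↥O L ((z⁻¹ : ↥Lb) : LaurentSeries L)
      rwa [Subfield.coe_inv]

theorem s44mv_mem_V (z : ↥Lb) :
    z ∈ s44mv_V O Lb hLb ↔ gq_IsBdd ↥O L (z : LaurentSeries L) := Iff.rfl

theorem s44mv_vUnit_iff (z : ↥Lb) :
    ssl_VUnit (s44mv_V O Lb hLb) z ↔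
      z ≠ 0 ∧ gq_IsBdd ↥O L (z : LaurentSeries L) ∧ gq_IsBdd ↥O L (z : LaurentSeries L)⁻¹ := by
  unfold ssl_VUnit
  rw [s44mv_mem_V, s44mv_mem_V, Subfield.coe_inv]

end V

section Unif

variable {L : Type*} [Field L] (O : ValuationSubring L) [IsDiscreteValuationRing ↥O]
  (Lb : Subfield (LaurentSeries L)) (hLb : ∀ z ∈ Lb, gq_IsQuot ↥O L z)
  (hconst : ∀ a : L, algebraMap L (LaurentSeries L) a ∈ Lb)

/-- **`π` is a uniformiser of `V_∞`**, in the shape consumed by `s44vw_exists`. -/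
theorem s44mv_unif {π : ↥O} (hπ : Irreducible π) :
    s44vw_Unif (ssl_VUnit (s44mv_V O Lb hLb))
      (⟨algebraMap L (LaurentSeries L) (π : L), hconst _⟩ : ↥Lb) := by
  have hinjL : Function.Injective (algebraMap ↥O L) := IsFractionRing.injective ↥O L
  have hc0 : algebraMap L (LaurentSeries L) (π : L) ≠ 0 :=
    gq_const_ne_zero (K := L) π hπ.ne_zero hinjL
  have hϖ0 : (⟨algebraMap L (LaurentSeries L) (π : L), hconst _⟩ : ↥Lb) ≠ 0 := by
    intro h
    exact hc0 (congrArg Subtype.val h)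
  refine s44vw_vUnit _ hϖ0 ?_ ?_
  · rw [ValuationSubring.mem_nonunits_iff_or]
    right
    rw [s44mv_mem_V, Subfield.coe_inv]
    exact s44mv_const_inv_not_bdd O hπ
  · intro x hx
    have hx0 : (x : LaurentSeries L) ≠ 0 := fun h => hx (Subtype.ext h)
    obtain ⟨n, h1, h2⟩ := s44mv_exists_zpow O hπ (hLb x x.2) hx0
    refine ⟨n, ?_⟩
    rw [s44mv_vUnit_iff]
    have hcoe : ((x / (⟨algebraMap L (LaurentSeries L) (π : L), hconst _⟩ : ↥Lb) ^ n : ↥Lb) :
        LaurentSeries L) = (x : LaurentSeries L) / algebraMap L (LaurentSeries L) (π : L) ^ n := by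
      rw [Subfield.coe_div]
      congr 1
    rw [hcoe]
    exact ⟨div_ne_zero hx (zpow_ne_zero _ hϖ0), h1, h2⟩

/-- `V_∞` restricts to the Gauss valuation subring of every subfield `E ⊆ Lb`. -/
theorem s44mv_extends (π : ↥O) (hπ0 : π ≠ 0) (hπ : maximalIdeal ↥O = Ideal.span {π})
    (E : IntermediateField L (LaurentSeries L)) (hE : E ≤ gq_quotField ↥O L)
    (hEL : ∀ e ∈ E, e ∈ Lb) (e : ↥E) :
    e ∈ gq_valSubOf π hπ0 hπ E hE ↔
      (⟨(e : LaurentSeries L), hEL e e.2⟩ : ↥Lb) ∈ s44mv_V O Lb hLb := Iff.rfl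

/-- the same for the maximal ideals. -/
theorem s44mv_extends_nonunits (π : ↥O) (hπ0 : π ≠ 0) (hπ : maximalIdeal ↥O = Ideal.span {π})
    (E : IntermediateField L (LaurentSeries L)) (hE : E ≤ gq_quotField ↥O L)
    (hEL : ∀ e ∈ E, e ∈ Lb) (e : ↥E) :
    e ∈ (gq_valSubOf π hπ0 hπ E hE).nonunits ↔
      (⟨(e : LaurentSeries L), hEL e e.2⟩ : ↥Lb) ∈ (s44mv_V O Lb hLb).nonunits := by
  rw [ValuationSubring.mem_nonunits_iff_or, ValuationSubring.mem_nonunits_iff_or]
  refine or_congr ?_ (not_congr ?_)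
  · constructor
    · intro h
      exact Subtype.ext (congrArg (Subtype.val : ↥E → LaurentSeries L) h)
    · intro h
      exact Subtype.ext (congrArg (Subtype.val : ↥Lb → LaurentSeries L) h)
  · rw [gq_mem_valSubOf, s44mv_mem_V, IntermediateField.coe_inv, Subfield.coe_inv]

end Unif

section Action

variable {L : Type*} [Field L] (O : ValuationSubring L) [IsDiscreteValuationRing ↥O]
  (Lb : Subfield (LaurentSeries L)) (hLb : ∀ z ∈ Lb, gq_IsQuot ↥O L z)
  (hconst : ∀ a : L, algebraMap L (LaurentSeries L) a ∈ Lb)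
  {G : Type*} [Group G] [MulSemiringAction G L]

omit [IsDiscreteValuationRing ↥O] in
theorem s44mv_act_inv_act (g : G) (z : LaurentSeries L) :
    s44mg_act g⁻¹ (s44mg_act g z) = z := by
  ext n
  simp

/-- **`V_∞` is stable under the coefficientwise action.** -/
theorem s44mv_stable (hstab : ∀ (g : G) (x : L), x ∈ O → g • x ∈ O) (g : G) (z : ↥Lb)
    (hgz : s44mg_act g (z : LaurentSeries L) ∈ Lb) :
    z ∈ s44mv_V O Lb hLb ↔ (⟨s44mg_act g (z : LaurentSeries L), hgz⟩ : ↥Lb) ∈ s44mv_V O Lb hLb := by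
  rw [s44mv_mem_V, s44mv_mem_V]
  constructor
  · exact s44mg_isBdd_act O hstab g
  · intro h
    have := s44mg_isBdd_act O hstab g⁻¹ h
    rwa [s44mv_act_inv_act] at this

/-- an inert `g` acts trivially on the residue field of `V_∞`. -/
theorem s44mv_inert (hstab : ∀ (g : G) (x : L), x ∈ O → g • x ∈ O) (g : G)
    (hin : ∀ x : L, x ∈ O → g • x - x ∈ O.nonunits) (z : ↥Lb) (hz : z ∈ s44mv_V O Lb hLb)
    (hgz : s44mg_act g (z : LaurentSeries L) ∈ Lb) :
    (⟨s44mg_act g (z : LaurentSeries L), hgz⟩ : ↥Lb) - z ∈ (s44mv_V O Lb hLb).nonunits := by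
  obtain ⟨π, hπ⟩ := IsDiscreteValuationRing.exists_irreducible ↥O
  have hπm : maximalIdeal ↥O = Ideal.span {π} := hπ.maximalIdeal_eq
  have hzb : gq_IsBdd ↥O L (z : LaurentSeries L) := hz
  have hgb : gq_IsBdd ↥O L (s44mg_act g (z : LaurentSeries L)) := s44mg_isBdd_act O hstab g hzb
  have hres := s44mg_res_act O hstab g hin hzb
  have hsub : gq_res ↥O L (⟨s44mg_act g (z : LaurentSeries L), hgb⟩ - ⟨(z : LaurentSeries L), hzb⟩)
      = 0 := by
    rw [map_sub, hres, sub_self]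
  obtain ⟨w, hw⟩ := (gq_res_eq_zero_iff π hπ.ne_zero hπm _).mp hsub
  rw [ValuationSubring.mem_nonunits_iff_or]
  by_cases h0 : (⟨s44mg_act g (z : LaurentSeries L), hgz⟩ : ↥Lb) - z = 0
  · exact Or.inl h0
  right
  rw [s44mv_mem_V, Subfield.coe_inv]
  intro hinv
  have hd : (((⟨s44mg_act g (z : LaurentSeries L), hgz⟩ : ↥Lb) - z : ↥Lb) : LaurentSeries L) =
      algebraMap L (LaurentSeries L) (algebraMap ↥O L π) * (w : LaurentSeries L) := hw
  have hd0 : algebraMap L (LaurentSeries L) (algebraMap ↥O L π) * (w : LaurentSeries L) ≠ 0 := by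
    rw [← hd]
    exact fun h => h0 (Subtype.ext h)
  rw [hd] at hinv
  apply s44mv_const_inv_not_bdd O hπ
  have hw0 : (w : LaurentSeries L) ≠ 0 := right_ne_zero_of_mul hd0
  have : (algebraMap L (LaurentSeries L) (π : L))⁻¹ =
      (w : LaurentSeries L) *
        (algebraMap L (LaurentSeries L) (algebraMap ↥O L π) * (w : LaurentSeries L))⁻¹ := by
    rw [mul_inv, mul_comm (algebraMap L (LaurentSeries L) (algebraMap ↥O L π))⁻¹, ← mul_assoc,
      mul_inv_cancel₀ hw0, one_mul]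
    rfl
  rw [this]
  exact (gq_bddSubring ↥O L).mul_mem w.2 hinv

/-- **(†)** a nonzero element of `Lb` which is coefficientwise fixed by the finite group `G` is a
`G`-fixed constant times a unit of `V_∞`. -/
theorem s44mv_dagger [Finite G] (hstab : ∀ (g : G) (x : L), x ∈ O → g • x ∈ O) (z : ↥Lb)
    (hz0 : z ≠ 0) (hfix : ∀ g : G, s44mg_act g (z : LaurentSeries L) = z) :
    ∃ c : L, c ≠ 0 ∧ (∀ g : G, g • c = c) ∧
      ssl_VUnit (s44mv_V O Lb hLb)
        (z / (⟨algebraMap L (LaurentSeries L) c, hconst c⟩ : ↥Lb)) := by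
  have hz0' : (z : LaurentSeries L) ≠ 0 := fun h => hz0 (Subtype.ext h)
  obtain ⟨c, hc0, hcfix, h1, h2⟩ := s44mg_gauss_inv' O hstab (hLb z z.2) hz0' hfix
  refine ⟨c, hc0, hcfix, ?_⟩
  have hcL : algebraMap L (LaurentSeries L) c ≠ 0 := by
    rw [Ne, map_eq_zero]
    exact hc0
  have hcb : (⟨algebraMap L (LaurentSeries L) c, hconst c⟩ : ↥Lb) ≠ 0 :=
    fun h => hcL (congrArg Subtype.val h)
  rw [s44mv_vUnit_iff, Subfield.coe_div]
  refine ⟨div_ne_zero hz0 hcb, ?_, ?_⟩
  · have : (z : LaurentSeries L) / algebraMap L (LaurentSeries L) c =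
        algebraMap L (LaurentSeries L) c⁻¹ * z := by
      rw [map_inv₀, div_eq_inv_mul]
    rw [this]
    exact h1
  · have : ((z : LaurentSeries L) / algebraMap L (LaurentSeries L) c)⁻¹ =
        algebraMap L (LaurentSeries L) c * (z : LaurentSeries L)⁻¹ := by
      rw [inv_div, div_eq_mul_inv]
    rw [this]
    exact h2

end Action

section Kummer

variable {L : Type*} [Field L] (O : ValuationSubring L)

/-- **`𝕃' = E(y)` consists of bounded quotients** as soon as `E` does and `y` is one. -/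
theorem s44mv_Lb_isQuot (E : Subfield (LaurentSeries L)) {p : ℕ} (y : LaurentSeries L)
    (hyE : y ^ p ∈ E) [Fact (Irreducible (s44kq_P E y hyE))]
    (hE : ∀ e ∈ E, gq_IsQuot ↥O L e) (hy : gq_IsQuot ↥O L y) :
    ∀ z ∈ s44kq_Lb E y hyE, gq_IsQuot ↥O L z := by
  intro z hz
  obtain ⟨R, rfl⟩ := s44kq_gen E y hyE hz
  exact s44kq_eval₂_mem (gq_quotField ↥O L).toSubfield E.subtype y (fun e => hE e e.2) hy R

end Kummer

end Fermat.Agent.S44
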