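/-
S44 (Mazur–Ribet at `p`), cell [H2] MONO-MAIN, sub-cell [H2-G] (helper8; prefix `s44mv_`):
THE ORDER FUNCTION `W_∞` OF THE `∞`-SHEET ON FIXED ELEMENTS.

`V = s44mv_V O Lb hLb`, `ϖ` the constant `π`, `W` any normalised order function of
`(ssl_VUnit V, ϖ)` (`s44vw_IsW`, exists by `s44vw_exists (s44mv_unif …)`).

* `s44mv_W_const` : `W (π ^ n · ω) = n` for a unit `ω` of `O`;
* `s44mv_W_dvd`   : **`e ∣ W z`** for every nonzero `z ∈ Lb` which is coefficientwise fixed by the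
  finite group `G`, provided every nonzero `G`-fixed constant is `π ^ (e n) · unit` (the `K`-form
  base hypothesis `s44pa_Base` of helper4's `s44pa_main`, = helper7's `s44b_inertia_fixed_dvd_nf`).
-/
import Mathlib
import Fermat.Agent.S44.Mono.GaussSheet

set_option autoImplicit false

open IsLocalRing

namespace Fermat.Agent.S44

open Fermat.Agent.JT3 Fermat.Agent.SS

section W

variable {L : Type*} [Field L] (O : ValuationSubring L) [IsDiscreteValuationRing ↥O]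
  (Lb : Subfield (LaurentSeries L)) (hLb : ∀ z ∈ Lb, gq_IsQuot ↥O L z)
  (hconst : ∀ a : L, algebraMap L (LaurentSeries L) a ∈ Lb)
  {G : Type*} [Group G] [MulSemiringAction G L]

omit [IsDiscreteValuationRing ↥O] in
/-- a unit of `O` is a bounded constant. -/
theorem s44mv_const_bdd (a : ↥O) : gq_IsBdd ↥O L (algebraMap L (LaurentSeries L) (a : L)) := by
  have h : algebraMap L (LaurentSeries L) (a : L) =
      ModularCurve.coeffMap (algebraMap ↥O L) (algebraMap ↥O (LaurentSeries ↥O) a) := by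
    rw [gq_coeffMap_algebraMap]
    rfl
  rw [h]
  exact gq_isBdd_iota _

/-- `W_∞ (π ^ n · ω) = n`. -/
theorem s44mv_W_const {π : ↥O} (hπ : Irreducible π) (W : ↥Lb → ℤ)
    (hW : s44vw_IsW (ssl_VUnit (s44mv_V O Lb hLb))
      (⟨algebraMap L (LaurentSeries L) (π : L), hconst _⟩ : ↥Lb) W) (n : ℤ) (ω : (↥O)ˣ) :
    W ⟨algebraMap L (LaurentSeries L) ((π : L) ^ n * ((ω : ↥O) : L)), hconst _⟩ = n := by
  have hπL : (π : L) ≠ 0 := fun h => hπ.ne_zero (Subtype.ext h)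
  have hωL : ((ω : ↥O) : L) ≠ 0 := fun h => ω.ne_zero (Subtype.ext h)
  have hx0 : (⟨algebraMap L (LaurentSeries L) ((π : L) ^ n * ((ω : ↥O) : L)), hconst _⟩ : ↥Lb) ≠ 0 := by
    intro h
    have h1 := congrArg (Subtype.val : ↥Lb → LaurentSeries L) h
    simp only [ZeroMemClass.coe_zero, map_eq_zero] at h1
    exact mul_ne_zero (zpow_ne_zero n hπL) hωL h1
  rw [← hW.iff _ hx0 n, s44mv_vUnit_iff]
  have hcoe : ((⟨algebraMap L (LaurentSeries L) ((π : L) ^ n * ((ω : ↥O) : L)), hconst _⟩ /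
      (⟨algebraMap L (LaurentSeries L) (π : L), hconst _⟩ : ↥Lb) ^ n : ↥Lb) : LaurentSeries L) =
      algebraMap L (LaurentSeries L) ((ω : ↥O) : L) := by
    rw [Subfield.coe_div]
    have h2 : (((⟨algebraMap L (LaurentSeries L) (π : L), hconst _⟩ : ↥Lb) ^ n : ↥Lb) :
        LaurentSeries L) = algebraMap L (LaurentSeries L) ((π : L) ^ n) := by
      rw [map_zpow₀]
      rfl
    rw [h2, ← map_div₀, mul_comm, mul_div_assoc, div_self (zpow_ne_zero n hπL), mul_one]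
  refine ⟨?_, ?_, ?_⟩
  · intro h
    have h1 := congrArg (Subtype.val : ↥Lb → LaurentSeries L) h
    rw [hcoe] at h1
    simp only [ZeroMemClass.coe_zero, map_eq_zero] at h1
    exact hωL h1
  · rw [hcoe]
    exact s44mv_const_bdd O _
  · rw [hcoe, ← map_inv₀]
    have : (((ω : ↥O) : L))⁻¹ = (((ω⁻¹ : (↥O)ˣ) : ↥O) : L) := by
      apply inv_eq_of_mul_eq_one_right
      have h3 : ((ω : ↥O) * ((ω⁻¹ : (↥O)ˣ) : ↥O) : ↥O) = 1 := Units.mul_inv ω
      have h4 := congrArg (Subtype.val : ↥O → L) h3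
      exact h4
    rw [this]
    exact s44mv_const_bdd O _

/-- **`e ∣ W_∞ z` for fixed `z`.** -/
theorem s44mv_W_dvd [Finite G] (hstab : ∀ (g : G) (x : L), x ∈ O → g • x ∈ O)
    {π : ↥O} (hπ : Irreducible π) (W : ↥Lb → ℤ)
    (hW : s44vw_IsW (ssl_VUnit (s44mv_V O Lb hLb))
      (⟨algebraMap L (LaurentSeries L) (π : L), hconst _⟩ : ↥Lb) W) {e : ℕ}
    (hbase : ∀ c : L, c ≠ 0 → (∀ g : G, g • c = c) →
      ∃ (n : ℤ) (ω : (↥O)ˣ), c = (π : L) ^ ((e : ℤ) * n) * ((ω : ↥O) : L))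
    (z : ↥Lb) (hz0 : z ≠ 0) (hfix : ∀ g : G, s44mg_act g (z : LaurentSeries L) = z) :
    (e : ℤ) ∣ W z := by
  obtain ⟨c, hc0, hcfix, hu⟩ := s44mv_dagger O Lb hLb hconst hstab z hz0 hfix
  obtain ⟨n, ω, hcn⟩ := hbase c hc0 hcfix
  have hcL : algebraMap L (LaurentSeries L) c ≠ 0 := by
    rw [Ne, map_eq_zero]
    exact hc0
  have hcb : (⟨algebraMap L (LaurentSeries L) c, hconst c⟩ : ↥Lb) ≠ 0 :=
    fun h => hcL (congrArg Subtype.val h)
  have h1 : z = z / (⟨algebraMap L (LaurentSeries L) c, hconst c⟩ : ↥Lb) *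
      ⟨algebraMap L (LaurentSeries L) c, hconst c⟩ := by
    rw [div_mul_cancel₀ _ hcb]
  have h2 : W z = W ⟨algebraMap L (LaurentSeries L) c, hconst c⟩ := by
    conv_lhs => rw [h1]
    rw [hW.add _ _ (div_ne_zero hz0 hcb) hcb, hW.unit _ hu, zero_add]
  have h3 : W ⟨algebraMap L (LaurentSeries L) c, hconst c⟩ = (e : ℤ) * n := by
    have := s44mv_W_const O Lb hLb hconst hπ W hW ((e : ℤ) * n) ω
    rw [← this]
    congr 2
    rw [hcn]
  rw [h2, h3]
  exact dvd_mul_right _ _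

end W

end Fermat.Agent.S44
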