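/-
S44 (Mazur–Ribet at `p`), cell [H2] MONO-MAIN, leaf "V-CHUNK" of the instance of `s44ga_pair`
(helper8; prefix `s44mw_`).

THE `∞`-SHEET BINDERS OF `s44ga_pair` AT THE LEGENDRE COVER.  Setting of helper16's
`s44mci_leg_val` (`Mono/CILeg.lean`): `L` a number field, `O` a discrete valuation ring of `L`,
`E = lg_E L (N' q)`, `B = fc_chart O {λ}`, `𝔫` a prime of `B` through both components,
`S = B_𝔫 = ssl_locSub E 𝔫`; `Lb ⊆ L((q))` a subfield of bounded quotients containing `E` and the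
constants (the Kummer field), `V = s44mv_V O Lb hLb` (`Mono/GaussSheet.lean`).  All statements are
instance-agnostic: ANY `[Algebra S ↥Lb]`, `[Algebra ↥O ↥Lb]` whose `algebraMap`s are the inclusions.

* `s44mw_isQuot_of_gen`  : `hLb` from the generation clause `gen` of a Kummer package;
* `s44mw_hV`             : `hV`, `hV𝔭` of `s44ga_pair` (`𝔭₂ = s44tl_br 𝔫 _ (ssm_tp_P B12 V1)`);
* `s44mw_unif_eq`, `s44mw_exists_W` : `∃ Wi, s44vw_IsW (ssl_VUnit V) (algebraMap ↥O ↥Lb π) Wi`;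
* `s44mw_sigma_V`        : `hσV` for `σL = s44ky_sigma hst`;
* `s44mw_W_dvd`          : `hWiΦ` / `hWih` (`e ∣ Wi z` for `z` fixed by all `s44ky_sigma hst g`).
-/
import Mathlib
import Fermat.Agent.S44.Mono.CILeg
import Fermat.Agent.S44.Mono.GaussSheetW
import Fermat.Agent.S44.Mono.KummerField
import Fermat.Agent.S44.Mono.KummerQL

set_option autoImplicit false
set_option linter.unusedSectionVars false
set_option linter.unusedVariables false
set_option linter.style.haveILetI false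

noncomputable section

namespace Fermat.Agent.S44

open ModularCurve IntermediateField IsLocalRing Polynomial
open Fermat.Agent.JT3 Fermat.Agent.SS

/-! ### `hLb` from the generation clause -/

section Gen

variable {L : Type*} [Field L] (O : ValuationSubring L) [IsDiscreteValuationRing ↥O]

/-- a subfield `Lb ⊆ L((q))` generated over a subfield `E` of quotients by one quotient `y`
(the clause `gen` of `s44kq_Pack`) consists of quotients. -/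
theorem s44mw_isQuot_of_gen (E Lb : Subfield (LaurentSeries L)) (y : LaurentSeries L)
    (hgen : ∀ z ∈ Lb, ∃ R : (↥E)[X], z = eval₂ E.subtype y R)
    (hE : ∀ e ∈ E, gq_IsQuot ↥O L e) (hy : gq_IsQuot ↥O L y) :
    ∀ z ∈ Lb, gq_IsQuot ↥O L z := by
  intro z hz
  obtain ⟨R, rfl⟩ := hgen z hz
  change eval₂ E.subtype y R ∈ gq_quotField ↥O L
  rw [eval₂_eq_sum_range]
  refine Subfield.sum_mem (gq_quotField ↥O L).toSubfield fun i _ => ?_
  exact (gq_quotField ↥O L).mul_mem (hE _ (R.coeff i).2) ((gq_quotField ↥O L).pow_mem hy i)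

end Gen

/-! ### `hV`, `hV𝔭` -/

section NF

variable (L : Type) [Field L] [NumberField L] [Algebra L (AlgebraicClosure ℚ)]
  (O : ValuationSubring L) [IsDiscreteValuationRing O] {π : O} (hπ : Irreducible π)
variable (N' q : ℕ) [NeZero N'] [NeZero q] [hq : Fact q.Prime] [CharP (ResidueField O) q]
  (hq2 : ¬ 2 ∣ q) (hqN' : ¬ q ∣ N') (ζ : L) (hζ : IsPrimitiveRoot ζ N')
  (Lb : Subfield (LaurentSeries L)) (hLb : ∀ z ∈ Lb, gq_IsQuot ↥O L z)
  (hEL : ∀ e ∈ lg_E L (N' * q), e ∈ Lb)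

include hζ hEL in
set_option synthInstance.maxHeartbeats 400000 in
set_option maxHeartbeats 1600000 in
/-- **`hV`, `hV𝔭` of `s44ga_pair`** for `V = s44mv_V O Lb hLb` and `S = B_𝔫`. -/
theorem s44mw_hV
    [IsNoetherianRing (fc_chart ↥O ({lg_lamE (N' * q)} : Set ↥(lg_E L (N' * q))))]
    [IsIntegrallyClosed (fc_chart ↥O ({lg_lamE (N' * q)} : Set ↥(lg_E L (N' * q))))]
    [IsFractionRing (fc_chart ↥O ({lg_lamE (N' * q)} : Set ↥(lg_E L (N' * q))))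
      ↥(lg_E L (N' * q))]
    (𝔫 : Ideal (fc_chart ↥O ({lg_lamE (N' * q)} : Set ↥(lg_E L (N' * q))))) [h𝔫 : 𝔫.IsPrime]
    (h1 : ssm_tp_P (fc_chart ↥O ({lg_lamE (N' * q)} : Set ↥(lg_E L (N' * q))))
      (ssm_gl_V1 O hπ N' q) ≤ 𝔫)
    (h2 : ssm_tp_P (fc_chart ↥O ({lg_lamE (N' * q)} : Set ↥(lg_E L (N' * q))))
      (ssm_gl_V2 O hπ N' q hq2 hqN') ≤ 𝔫)
    [Algebra ↥(ssl_locSub ↥(lg_E L (N' * q)) 𝔫) ↥Lb]
    (halgS : ∀ s : ↥(ssl_locSub ↥(lg_E L (N' * q)) 𝔫),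
      ((algebraMap ↥(ssl_locSub ↥(lg_E L (N' * q)) 𝔫) ↥Lb s : ↥Lb) : LaurentSeries L) =
        ((s : ↥(lg_E L (N' * q))) : LaurentSeries L)) :
    (∀ s : ↥(ssl_locSub ↥(lg_E L (N' * q)) 𝔫),
      algebraMap ↥(ssl_locSub ↥(lg_E L (N' * q)) 𝔫) ↥Lb s ∈ s44mv_V O Lb hLb) ∧
    (∀ s : ↥(ssl_locSub ↥(lg_E L (N' * q)) 𝔫),
      algebraMap ↥(ssl_locSub ↥(lg_E L (N' * q)) 𝔫) ↥Lb s ∈ (s44mv_V O Lb hLb).nonunits ↔
        s ∈ s44tl_br 𝔫 (fc_chart1_le (lg_lamE (N' * q) : ↥(lg_E L (N' * q))))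
          (ssm_tp_P (fc_chart ↥O ({lg_lamE (N' * q), (lg_lamE (N' * q))⁻¹} :
            Set ↥(lg_E L (N' * q)))) (ssm_gl_V1 O hπ N' q))) := by
  obtain ⟨-, hin, hnon, -, -⟩ := s44mci_leg_val L O hπ N' q hq2 hqN' ζ hζ 𝔫 h1 h2
  have hmap : ∀ s : ↥(ssl_locSub ↥(lg_E L (N' * q)) 𝔫),
      algebraMap ↥(ssl_locSub ↥(lg_E L (N' * q)) 𝔫) ↥Lb s =
        (⟨((s : ↥(lg_E L (N' * q))) : LaurentSeries L), hEL _ (s : ↥(lg_E L (N' * q))).2⟩ : ↥Lb) :=
    fun s => Subtype.ext (halgS s)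
  refine ⟨fun s => ?_, fun s => ?_⟩
  · rw [hmap s]
    exact (s44mv_extends O Lb hLb π hπ.ne_zero hπ.maximalIdeal_eq (lg_E L (N' * q))
      (ssm_ga_E_le_quotField O (N' * q)) hEL (s : ↥(lg_E L (N' * q)))).1 (hin _ s.2).1
  · rw [hmap s, ← (hnon s).1]
    exact (s44mv_extends_nonunits O Lb hLb π hπ.ne_zero hπ.maximalIdeal_eq (lg_E L (N' * q))
      (ssm_ga_E_le_quotField O (N' * q)) hEL (s : ↥(lg_E L (N' * q)))).symm

end NF

/-! ### `Wi`, `hσV`, `hWiΦ`, `hWih` -/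

section W

variable {L : Type*} [Field L] (O : ValuationSubring L) [IsDiscreteValuationRing ↥O]
  (Lb : Subfield (LaurentSeries L)) (hLb : ∀ z ∈ Lb, gq_IsQuot ↥O L z)
  (hconst : ∀ a : L, algebraMap L (LaurentSeries L) a ∈ Lb)

/-- the uniformiser of `V_∞` in the consumer's form. -/
theorem s44mw_unif_eq [Algebra ↥O ↥Lb]
    (halg0 : ∀ a : ↥O, ((algebraMap ↥O ↥Lb a : ↥Lb) : LaurentSeries L) =
      algebraMap L (LaurentSeries L) (a : L)) (π : ↥O) :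
    algebraMap ↥O ↥Lb π = (⟨algebraMap L (LaurentSeries L) (π : L), hconst _⟩ : ↥Lb) :=
  Subtype.ext (halg0 π)

include hconst in
/-- **`Wi`, `hWi` of `s44ga_pair`.** -/
theorem s44mw_exists_W [Algebra ↥O ↥Lb]
    (halg0 : ∀ a : ↥O, ((algebraMap ↥O ↥Lb a : ↥Lb) : LaurentSeries L) =
      algebraMap L (LaurentSeries L) (a : L)) {π : ↥O} (hπ : Irreducible π) :
    ∃ Wi : ↥Lb → ℤ, s44vw_IsW (ssl_VUnit (s44mv_V O Lb hLb)) (algebraMap ↥O ↥Lb π) Wi := by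
  rw [s44mw_unif_eq O Lb hconst halg0 π]
  exact s44vw_exists (s44mv_unif O Lb hLb hconst hπ)

attribute [local instance] s44kq_lsAction

variable {G : Type*} [Group G] [MulSemiringAction G L]

/-- **`hσV` of `s44ga_pair`** for `σL = s44ky_sigma hst`. -/
theorem s44mw_sigma_V (hstab : ∀ (g : G) (x : L), x ∈ O → g • x ∈ O)
    (hst : ∀ (σ : G), ∀ z ∈ Lb, σ • z ∈ Lb) (g : G) (x : ↥Lb) :
    x ∈ s44mv_V O Lb hLb ↔ s44ky_sigma hst g x ∈ s44mv_V O Lb hLb :=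
  s44mv_stable O Lb hLb hstab g x (hst g x x.2)

include hconst in
/-- **`hWiΦ` / `hWih` of `s44ga_pair`**: `e ∣ Wi z` for a nonzero `z` fixed by all
`s44ky_sigma hst g`. -/
theorem s44mw_W_dvd [Finite G] [Algebra ↥O ↥Lb]
    (halg0 : ∀ a : ↥O, ((algebraMap ↥O ↥Lb a : ↥Lb) : LaurentSeries L) =
      algebraMap L (LaurentSeries L) (a : L))
    (hstab : ∀ (g : G) (x : L), x ∈ O → g • x ∈ O)
    (hst : ∀ (σ : G), ∀ z ∈ Lb, σ • z ∈ Lb)
    {π : ↥O} (hπ : Irreducible π) (Wi : ↥Lb → ℤ)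
    (hWi : s44vw_IsW (ssl_VUnit (s44mv_V O Lb hLb)) (algebraMap ↥O ↥Lb π) Wi) {e : ℕ}
    (hbase : ∀ c : L, c ≠ 0 → (∀ g : G, g • c = c) →
      ∃ (n : ℤ) (ω : (↥O)ˣ), c = (π : L) ^ ((e : ℤ) * n) * ((ω : ↥O) : L))
    (z : ↥Lb) (hz0 : z ≠ 0) (hfix : ∀ g : G, s44ky_sigma hst g z = z) :
    (e : ℤ) ∣ Wi z := by
  rw [s44mw_unif_eq O Lb hconst halg0 π] at hWi
  exact s44mv_W_dvd O Lb hLb hconst hstab hπ Wi hWi hbase z hz0
    fun g => congrArg Subtype.val (hfix g)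

end W

end Fermat.Agent.S44
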