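/-
S44 (Mazur–Ribet at `p`), cell [H2] MONO-MAIN, leaf "hLb / hconst" of the instance of `s44gm_pair`
(helper8; prefix `s44mw_`).

For a Kummer package `P` over `(lg_E L N).toSubfield` whose generator `y` is a `p`-th root of a
function `f` of the Legendre cover with `(hf, hord, hrat, hglob)` (helper16's `s44mci_inst`):

* `s44mw_hLb_leg` : every element of the Kummer field `Lb` is a bounded quotient (`hLb` of
  `s44mv_V`, `s44mw_sheet`), from `s44mc_leg_root` (LOC-∞) and the clause `P.gen`;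
* `s44mw_hconst`  : the constants lie in `Lb`;
* `s44mw_hEL`     : `lg_E L N ⊆ Lb`, elementwise.
-/
import Mathlib
import Fermat.Agent.S44.Mono.MainV
import Fermat.Agent.S44.Mono.CuspLoc

set_option autoImplicit false
set_option linter.unusedSectionVars false
set_option linter.unusedVariables false
set_option linter.style.haveILetI false

noncomputable section

namespace Fermat.Agent.S44

open ModularCurve IntermediateField IsLocalRing Polynomial AlgebraicCurve
open Fermat.Agent.JT3 Fermat.Agent.SS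

section Lb

variable {L : Type*} [Field L] [CharZero L] (O : ValuationSubring L) [IsDiscreteValuationRing ↥O]
  (N : ℕ) [NeZero N]
  {G : Type*} [Group G] [MulSemiringAction G (LaurentSeries L)] {p : ℕ}
  {ζ y fv β : LaurentSeries L} {lc : LaurentSeries L →*₀ LaurentSeries L}
  {Lb : Subfield (LaurentSeries L)} {τ : ↥Lb ≃+* ↥Lb} {c : LaurentSeries L} {g Φ h : ↥Lb}
  (P : s44kq_Pack (G := G) (lg_E L N).toSubfield p ζ y fv β lc Lb τ c g Φ h)

include P in
/-- `lg_E L N ⊆ Lb`. -/
theorem s44mw_hEL : ∀ e ∈ lg_E L N, e ∈ Lb := fun e he => P.le he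

include P in
/-- the constants lie in `Lb`. -/
theorem s44mw_hconst (a : L) : algebraMap L (LaurentSeries L) a ∈ Lb :=
  P.le ((lg_E L N).algebraMap_mem a)

include P in
/-- **`hLb`**: the Kummer field of a `p`-th root of `f` consists of bounded quotients. -/
theorem s44mw_hLb_leg {π : ↥O} (hπ : Irreducible π)
    {σE : ↥(lg_E L N) ≃+* ↥(lg_E L N)} {σ0 : ↥O ≃+* ↥O}
    {P1 P2 : Ideal (fc_chart ↥O ({lg_lamE N, (lg_lamE N)⁻¹} : Set ↥(lg_E L N)))}
    (Mod : ss_Model π (lg_lamE (L := L) N) σE σ0 P1 P2) {e k : ℕ} {ζ0 : ↥O}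
    (D : s44t_PData π σ0 p e k ζ0) {f : ↥(lg_E L N)} (hf : f ≠ 0)
    (hord : ∀ Q : Place L ↥(lg_E L N), (p : ℤ) ∣ Q.ord f)
    (hrat : ∀ Q : Place L ↥(lg_E L N), Q.ord f ≠ 0 → ss_RatPlace Q)
    (hglob : s44t_GlobForm π (lg_lamE (L := L) N) p (p * e + 1) f)
    (hy : y ^ p = (f : LaurentSeries L)) :
    ∀ z ∈ Lb, gq_IsQuot ↥O L z :=
  s44mw_isQuot_of_gen O (lg_E L N).toSubfield Lb y P.gen
    (fun e he => ssm_ga_E_le_quotField O N he)
    (s44mc_leg_root O N hπ Mod D hf hord hrat hglob y hy).1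

end Lb

end Fermat.Agent.S44
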