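/-
S44 (Mazur–Ribet at `p`), cell [H2] MONO-MAIN, leaf "V-CHUNK, ONE THEOREM" for the instance of
helper4's `s44gm_pair` (`Mono/ChartPair.lean`) (helper8; prefix `s44mw_`).

`L` a field, `O` a discrete valuation ring of `L`, `G` a group acting on `L` (the group of the
Kummer package), `Lb ⊆ L((q))` a `G`-stable subfield of bounded quotients containing the constants
(the Kummer field), `Γ → G` a FINITE group preserving `O` (the image of inertia),
`σL i = s44ky_sigma hst (γ i)`, `V = s44mv_V O Lb hLb`.  Instance-agnostic: ANY `[Algebra ↥E ↥Lb]`,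
`[Algebra ↥O ↥Lb]`, `[Algebra L ↥Lb]` whose `algebraMap`s are the inclusions.

`s44mw_sheet` : at once
* `hVV1`  : `algebraMap E LL z ∈ V ↔ z ∈ gq_valSubOf π _ _ E hE` (`= ssm_gl_V1` for `E = lg_E L (N' q)`),
* `hσV`   : `x ∈ V ↔ σL i x ∈ V`,
* `hbase` : `s44pa_Base (K := L) π e σL`,
* `Wi`, `hWi : s44vw_IsW (ssl_VUnit V) (algebraMap ↥O ↥Lb π) Wi`, and `e ∣ Wi z` for every nonzero
  `z` fixed by all `σL i` (`hWiΦ`, `hWih`).

`s44mw_sheet_nf` : the same for `L = L'` a normal number field inside `ℚ̄`, `O = A ∩ L'`,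
`Γ = Γ|L'` the image of the inertia group of `A`, `G ≥ Γ|L'` a subgroup of `Gal(L'/ℚ)`, with
`hbase` discharged by `s44mi_base`.
-/
import Mathlib
import Fermat.Agent.S44.Mono.MainV
import Fermat.Agent.S44.Mono.InertGlue

set_option autoImplicit false
set_option linter.unusedSectionVars false
set_option linter.unusedVariables false
set_option linter.style.haveILetI false

noncomputable section

namespace Fermat.Agent.S44

open ModularCurve IntermediateField IsLocalRing Polynomial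
open Fermat.Agent.JT3 Fermat.Agent.SS

local notation "Qb" => AlgebraicClosure ℚ

attribute [local instance] s44kq_lsAction

section Sheet

variable {L : Type*} [Field L] (O : ValuationSubring L) [IsDiscreteValuationRing ↥O]
  {G : Type*} [Group G] [MulSemiringAction G L]
  (Lb : Subfield (LaurentSeries L)) (hLb : ∀ z ∈ Lb, gq_IsQuot ↥O L z)
  (hconst : ∀ a : L, algebraMap L (LaurentSeries L) a ∈ Lb)
  (hst : ∀ (σ : G), ∀ z ∈ Lb, σ • z ∈ Lb)
  {Γ : Type*} [Group Γ] [Finite Γ] (γ : Γ →* G)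

include hconst in
/-- **the `∞`-sheet binders of `s44gm_pair`, at once.** -/
theorem s44mw_sheet (hstab : ∀ (i : Γ) (x : L), x ∈ O → γ i • x ∈ O)
    {π : ↥O} (hπ : Irreducible π) {e : ℕ}
    (hbase : ∀ c : L, c ≠ 0 → (∀ i : Γ, γ i • c = c) →
      ∃ (n : ℤ) (ω : (↥O)ˣ), c = (π : L) ^ ((e : ℤ) * n) * ((ω : ↥O) : L))
    (E : IntermediateField L (LaurentSeries L)) (hE : E ≤ gq_quotField ↥O L)
    [Algebra ↥E ↥Lb]
    (halg : ∀ z : ↥E, ((algebraMap ↥E ↥Lb z : ↥Lb) : LaurentSeries L) = (z : LaurentSeries L))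
    [Algebra ↥O ↥Lb]
    (halgO : ∀ a : ↥O, ((algebraMap ↥O ↥Lb a : ↥Lb) : LaurentSeries L) =
      algebraMap L (LaurentSeries L) (a : L))
    [Algebra L ↥Lb]
    (halgK : ∀ a : L, ((algebraMap L ↥Lb a : ↥Lb) : LaurentSeries L) =
      algebraMap L (LaurentSeries L) a) :
    (∀ z : ↥E, algebraMap ↥E ↥Lb z ∈ s44mv_V O Lb hLb ↔
      z ∈ gq_valSubOf π hπ.ne_zero hπ.maximalIdeal_eq E hE) ∧
    (∀ (i : Γ) (x : ↥Lb), x ∈ s44mv_V O Lb hLb ↔ s44ky_sigma hst (γ i) x ∈ s44mv_V O Lb hLb) ∧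
    s44pa_Base (A0 := ↥O) (K := L) (F := ↥Lb) π e (fun i : Γ => s44ky_sigma hst (γ i)) ∧
    ∃ Wi : ↥Lb → ℤ, s44vw_IsW (ssl_VUnit (s44mv_V O Lb hLb)) (algebraMap ↥O ↥Lb π) Wi ∧
      ∀ z : ↥Lb, z ≠ 0 → (∀ i : Γ, s44ky_sigma hst (γ i) z = z) → (e : ℤ) ∣ Wi z := by
  letI : MulSemiringAction Γ L := MulSemiringAction.compHom L γ
  have hstab' : ∀ (i : Γ) (x : L), x ∈ O → i • x ∈ O := hstab
  refine ⟨fun z => ?_, fun i x => ?_, ?_, ?_⟩
  · have : algebraMap ↥E ↥Lb z = (⟨(z : LaurentSeries L), by rw [← halg z]; exact Subtype.property _⟩ : ↥Lb) :=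
      Subtype.ext (halg z)
    rw [this]
    exact Iff.rfl
  · exact s44mv_stable O Lb hLb hstab' i x (hst (γ i) x x.2)
  · intro c hc hfix
    refine hbase c hc fun i => ?_
    have h1 := congrArg (Subtype.val : ↥Lb → LaurentSeries L) (hfix i)
    rw [s44ky_sigma_coe, halgK, s44kq_smul_algebraMap] at h1
    exact (algebraMap L (LaurentSeries L)).injective h1
  · obtain ⟨Wi, hWi⟩ := s44mw_exists_W O Lb hLb hconst halgO hπ
    refine ⟨Wi, hWi, fun z hz0 hfix => ?_⟩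
    rw [s44mw_unif_eq O Lb hconst halgO π] at hWi
    exact s44mv_W_dvd O Lb hLb hconst hstab' hπ Wi hWi hbase z hz0
      fun i => congrArg Subtype.val (hfix i)

end Sheet

/-! ### the number-field instance: `Γ = Γ|L'`, `hbase` discharged -/

section NF

variable (p : ℕ) [hp : Fact p.Prime] (A : ValuationSubring Qb) (hA : A.LiesOverPrime p)
  (L' : IntermediateField ℚ Qb) [Normal ℚ L'] [FiniteDimensional ℚ L']
  [IsDiscreteValuationRing ↥(A.comap (algebraMap ↥L' Qb))]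
  (G : Subgroup (↥L' ≃ₐ[ℚ] ↥L')) (hΓG : s44mn_G (A.inertiaSubgroupIn ℚ) L' ≤ G)
  (Lb : Subfield (LaurentSeries ↥L'))
  (hLb : ∀ z ∈ Lb, gq_IsQuot ↥(A.comap (algebraMap ↥L' Qb)) ↥L' z)
  (hconst : ∀ a : ↥L', algebraMap ↥L' (LaurentSeries ↥L') a ∈ Lb)
  (hst : ∀ (σ : ↥G), ∀ z ∈ Lb, σ • z ∈ Lb)

include hA hconst in
/-- **the `∞`-sheet binders of `s44gm_pair` over a normal number field `L' ⊆ ℚ̄`**, for the family
`σL i = s44ky_sigma hst ⟨i, _⟩`, `i ∈ Γ|L'` (the image of the inertia group of `A`), `e` the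
ramification index of `O' = A ∩ L'` (`p = π ^ e · unit`). -/
theorem s44mw_sheet_nf {π : ↥(A.comap (algebraMap ↥L' Qb))} (hπ : Irreducible π) {e : ℕ}
    {u : ↥(A.comap (algebraMap ↥L' Qb))} (hu : IsUnit u)
    (hpe : ((p : ℕ) : ↥(A.comap (algebraMap ↥L' Qb))) = π ^ e * u)
    (E : IntermediateField ↥L' (LaurentSeries ↥L'))
    (hE : E ≤ gq_quotField ↥(A.comap (algebraMap ↥L' Qb)) ↥L')
    [Algebra ↥E ↥Lb]
    (halg : ∀ z : ↥E, ((algebraMap ↥E ↥Lb z : ↥Lb) : LaurentSeries ↥L') = (z : LaurentSeries ↥L'))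
    [Algebra ↥(A.comap (algebraMap ↥L' Qb)) ↥Lb]
    (halgO : ∀ a : ↥(A.comap (algebraMap ↥L' Qb)),
      ((algebraMap ↥(A.comap (algebraMap ↥L' Qb)) ↥Lb a : ↥Lb) : LaurentSeries ↥L') =
        algebraMap ↥L' (LaurentSeries ↥L') (a : ↥L'))
    [Algebra ↥L' ↥Lb]
    (halgK : ∀ a : ↥L', ((algebraMap ↥L' ↥Lb a : ↥Lb) : LaurentSeries ↥L') =
      algebraMap ↥L' (LaurentSeries ↥L') a) :
    (∀ z : ↥E, algebraMap ↥E ↥Lb z ∈ s44mv_V (A.comap (algebraMap ↥L' Qb)) Lb hLb ↔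
      z ∈ gq_valSubOf π hπ.ne_zero hπ.maximalIdeal_eq E hE) ∧
    (∀ (i : ↥(s44mn_G (A.inertiaSubgroupIn ℚ) L')) (x : ↥Lb),
      x ∈ s44mv_V (A.comap (algebraMap ↥L' Qb)) Lb hLb ↔
        s44ky_sigma hst (Subgroup.inclusion hΓG i) x ∈
          s44mv_V (A.comap (algebraMap ↥L' Qb)) Lb hLb) ∧
    s44pa_Base (A0 := ↥(A.comap (algebraMap ↥L' Qb))) (K := ↥L') (F := ↥Lb) π e
      (fun i : ↥(s44mn_G (A.inertiaSubgroupIn ℚ) L') =>
        s44ky_sigma hst (Subgroup.inclusion hΓG i)) ∧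
    ∃ Wi : ↥Lb → ℤ,
      s44vw_IsW (ssl_VUnit (s44mv_V (A.comap (algebraMap ↥L' Qb)) Lb hLb))
        (algebraMap ↥(A.comap (algebraMap ↥L' Qb)) ↥Lb π) Wi ∧
      ∀ z : ↥Lb, z ≠ 0 →
        (∀ i : ↥(s44mn_G (A.inertiaSubgroupIn ℚ) L'),
          s44ky_sigma hst (Subgroup.inclusion hΓG i) z = z) → (e : ℤ) ∣ Wi z := by
  refine s44mw_sheet (A.comap (algebraMap ↥L' Qb)) Lb hLb hconst hst (Subgroup.inclusion hΓG)
    (fun i x hx => s44mi_stab A L' i x hx) hπ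
    (fun c hc hfix => s44mi_base p A hA L' hπ hu hpe c hc fun g hg => hfix ⟨g, hg⟩)
    E hE halg halgO halgK

end NF

end Fermat.Agent.S44
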