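/-
Project S44 (Mazur–Ribet at `p`), cell [H2] MONO-MAIN, LAYER 2 (statement: helper4 #4220; proof: helper23).
Prefix `s44gl_`.

`s44gl_pair` = THE LEGENDRE INSTANCE OF `s44gm_pair'` (Mono/ChartPair2.lean): the two-node theorem
`ν fv ≡ ν' fv (mod q)` at two crossing points `𝔫, 𝔫'` of the `λ`-chart of `lg_E L (N' q)` over a
discrete valuation ring `O` of the number field `L`, for a Kummer package `Pk` over `lg_E L (N' q)`
with group `G` acting on `L` through inert automorphisms.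

Assembly of landed chunks: chart block from `ssm_fln_model_of_node ∘ s44mu_node_nodeAt` (the model for
the identity), `s44mci_leg_le_V`, `ssm_tp_Hyp.mem_V2_iff`; Kummer block `s44kb_bundle` (+ `s44kzc_tauAlg`);
sheet block `s44mw_hLb_leg`, `s44mw_sheet` (`Γ := G`, `γ := id`); family `s44mx_sigmaB`, `ssm_sg_aut_base`.
The section variables `ζ hζ` (a primitive `N'`-th root of unity in `L`) are arguments of the theorem.
-/
import Mathlib
import Fermat.Agent.S44.Mono.ChartPair2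
import Fermat.Agent.S44.Mono.UNode
import Fermat.Agent.S44.Mono.CILeg
import Fermat.Agent.S44.Mono.MainV
import Fermat.Agent.S44.Mono.KummerInst
import Fermat.Agent.S44.Mono.CuspLocK
import Fermat.Agent.S44.Mono.MainSheet
import Fermat.Agent.S44.Mono.MainLb
import Fermat.Agent.S44.Mono.KummerBundle

set_option autoImplicit false
set_option linter.unusedSectionVars false
set_option linter.unusedVariables false
set_option linter.style.haveILetI false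

noncomputable section

namespace Fermat.Agent.S44

open Fermat.Agent.SS Fermat.Agent.JT3 IsLocalRing Polynomial AlgebraicCurve ModularCurve

section Leg

variable (L : Type) [Field L] [NumberField L] [Algebra L (AlgebraicClosure ℚ)]
  (O : ValuationSubring L) [IsDiscreteValuationRing O] {π : O} (hπ : Irreducible π)
  (N' q : ℕ) [NeZero N'] [NeZero q] [hq : Fact q.Prime] [CharP (ResidueField O) q]
  (hq2 : ¬ 2 ∣ q) (hqN' : ¬ q ∣ N') (ζ : L) (hζ : IsPrimitiveRoot ζ N')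

attribute [local instance] s44kq_lsAction

include hζ in
set_option synthInstance.maxHeartbeats 400000 in
set_option maxHeartbeats 1600000 in
/-- **THE TWO-NODE THEOREM AT THE LEGENDRE COVER.** -/
theorem s44gl_pair
    -- the inertia group
    {G : Type} [Group G] [Finite G] [MulSemiringAction G L]
    (hin : ∀ g : G, ss_Inert O (MulSemiringAction.toRingEquiv G L g))
    {σ00 : ↥O ≃+* ↥O} {e k : ℕ} {ζq : ↥O} (D : s44t_PData π σ00 q e k ζq)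
    (hbase : ∀ c : L, c ≠ 0 → (∀ g : G, g • c = c) →
      ∃ (n : ℤ) (ω : (↥O)ˣ), c = (π : L) ^ ((((q - 1) * e : ℕ) : ℤ) * n) * (ω : L))
    -- the Kummer package
    {ζ1 β1 : L} {fx fv : ↥(lg_E L (N' * q))} {y c : LaurentSeries L}
    {Lb : Subfield (LaurentSeries L)} {τ : ↥Lb ≃+* ↥Lb} {g Φ h : ↥Lb}
    (hy : y ^ q = (fx : LaurentSeries L))
    (Pk : s44kq_Pack (G := G) (lg_E L (N' * q)).toSubfield q
      (algebraMap L (LaurentSeries L) ζ1) y (fv : LaurentSeries L)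
      (algebraMap L (LaurentSeries L) β1) (s44kq_lc L) Lb τ c g Φ h)
    (hirr : ∀ b ∈ lg_E L (N' * q), b ^ q ≠ (fx : LaurentSeries L))
    (hβ1 : β1 ∈ O) (hβ1i : β1⁻¹ ∈ O) (hβ10 : β1 ≠ 0)
    -- `fx`
    (hfx : fx ≠ 0) (hordX : ∀ P : Place L ↥(lg_E L (N' * q)), (q : ℤ) ∣ P.ord fx)
    (hratX : ∀ P : Place L ↥(lg_E L (N' * q)), P.ord fx ≠ 0 → ss_RatPlace P)
    (hglobX : s44t_GlobForm π (lg_lamE (L := L) (N' * q)) q (q * e + 1) fx)
    -- `fv`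
    (hfv : fv ≠ 0) (hordV : ∀ P : Place L ↥(lg_E L (N' * q)), (q : ℤ) ∣ P.ord fv)
    -- rationality of the zeros and poles of `Φ`, `τ^j h`
    [Algebra L ↥Lb]
    (halgK : ∀ a : L, ((algebraMap L ↥Lb a : ↥Lb) : LaurentSeries L) =
      algebraMap L (LaurentSeries L) a)
    (hRΦ : ∀ v : Place L ↥Lb, v.ord Φ ≠ 0 → ss_RatPlace v)
    (hRh : ∀ (j : ℕ) (v : Place L ↥Lb), v.ord ((⇑τ)^[j] h) ≠ 0 → ss_RatPlace v)
    -- the two crossing points, with their uniform coordinates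
    (𝔫 𝔫' : Ideal ↥(fc_chart ↥O ({lg_lamE (N' * q)} : Set ↥(lg_E L (N' * q)))))
    [h𝔫 : 𝔫.IsMaximal] [h𝔫' : 𝔫'.IsMaximal]
    (h1 : ssm_tp_P (fc_chart ↥O ({lg_lamE (N' * q)} : Set ↥(lg_E L (N' * q))))
      (ssm_gl_V1 O hπ N' q) ≤ 𝔫)
    (h1' : ssm_tp_P (fc_chart ↥O ({lg_lamE (N' * q)} : Set ↥(lg_E L (N' * q))))
      (ssm_gl_V1 O hπ N' q) ≤ 𝔫')
    {u v u' v' : ↥(lg_E L (N' * q))}
    (hU : s44mu_NodeAtU π (fc_chart1_le (lg_lamE (N' * q) : ↥(lg_E L (N' * q))))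
      (ssm_tp_P (fc_chart ↥O ({lg_lamE (N' * q), (lg_lamE (N' * q))⁻¹} :
        Set ↥(lg_E L (N' * q)))) (ssm_gl_V1 O hπ N' q))
      (ssm_tp_P (fc_chart ↥O ({lg_lamE (N' * q), (lg_lamE (N' * q))⁻¹} :
        Set ↥(lg_E L (N' * q)))) (ssm_gl_V2 O hπ N' q hq2 hqN')) 𝔫 u v ((q : ℕ) : ↥O))
    (hU' : s44mu_NodeAtU π (fc_chart1_le (lg_lamE (N' * q) : ↥(lg_E L (N' * q))))
      (ssm_tp_P (fc_chart ↥O ({lg_lamE (N' * q), (lg_lamE (N' * q))⁻¹} :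
        Set ↥(lg_E L (N' * q)))) (ssm_gl_V1 O hπ N' q))
      (ssm_tp_P (fc_chart ↥O ({lg_lamE (N' * q), (lg_lamE (N' * q))⁻¹} :
        Set ↥(lg_E L (N' * q)))) (ssm_gl_V2 O hπ N' q hq2 hqN')) 𝔫' u' v' ((q : ℕ) : ↥O))
    (hσu : ∀ σ : L ≃+* L, ss_Inert O σ → ssm_sg_aut (N' * q) σ u = u)
    (hσu' : ∀ σ : L ≃+* L, ss_Inert O σ → ssm_sg_aut (N' * q) σ u' = u')
    (ν ν' : ↥(lg_E L (N' * q)) → ℤ) :
    haveI := s44mci_leg_isAlg L O (N' * q)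
    haveI := s44mci_leg_noeth L O (N' * q)
    haveI := s44mci_leg_ic L O (N' * q)
    haveI := ssl_loc_isNoetherianRing (F0 := ↥(lg_E L (N' * q))) 𝔫
    haveI := ssl_loc_isLocalRing (F0 := ↥(lg_E L (N' * q))) 𝔫
    haveI := ssl_loc_isNoetherianRing (F0 := ↥(lg_E L (N' * q))) 𝔫'
    haveI := ssl_loc_isLocalRing (F0 := ↥(lg_E L (N' * q))) 𝔫'
    ∀ (huS : u ∈ ssl_locSub ↥(lg_E L (N' * q)) 𝔫) (huS' : u' ∈ ssl_locSub ↥(lg_E L (N' * q)) 𝔫'),
    s44nu_IsNu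
        (algebraMap ↥(fc_chart ↥O ({lg_lamE (N' * q)} : Set ↥(lg_E L (N' * q))))
          (ssl_locSub ↥(lg_E L (N' * q)) 𝔫)
          (algebraMap ↥O ↥(fc_chart ↥O ({lg_lamE (N' * q)} : Set ↥(lg_E L (N' * q)))) π))
        (⟨u, huS⟩ : ssl_locSub ↥(lg_E L (N' * q)) 𝔫)
        (s44tl_br 𝔫 (fc_chart1_le (lg_lamE (N' * q) : ↥(lg_E L (N' * q))))
          (ssm_tp_P (fc_chart ↥O ({lg_lamE (N' * q), (lg_lamE (N' * q))⁻¹} :
            Set ↥(lg_E L (N' * q)))) (ssm_gl_V1 O hπ N' q))) ν →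
    s44nu_IsNu
        (algebraMap ↥(fc_chart ↥O ({lg_lamE (N' * q)} : Set ↥(lg_E L (N' * q))))
          (ssl_locSub ↥(lg_E L (N' * q)) 𝔫')
          (algebraMap ↥O ↥(fc_chart ↥O ({lg_lamE (N' * q)} : Set ↥(lg_E L (N' * q)))) π))
        (⟨u', huS'⟩ : ssl_locSub ↥(lg_E L (N' * q)) 𝔫')
        (s44tl_br 𝔫' (fc_chart1_le (lg_lamE (N' * q) : ↥(lg_E L (N' * q))))
          (ssm_tp_P (fc_chart ↥O ({lg_lamE (N' * q), (lg_lamE (N' * q))⁻¹} :
            Set ↥(lg_E L (N' * q)))) (ssm_gl_V1 O hπ N' q))) ν' →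
    ν fv ≡ ν' fv [ZMOD (q : ℤ)] := by
  intro huS huS' hν hν'
  classical
  haveI := s44mci_leg_isAlg L O (N' * q)
  haveI := s44mci_leg_noeth L O (N' * q)
  haveI := s44mci_leg_ic L O (N' * q)
  haveI := ssm_go_isScalarTower O (lg_E L (N' * q))
  have hqp : q.Prime := hq.out
  -- the model (for the identity, which is inert)
  have hσ1 : ss_Inert O (RingEquiv.refl L) := by
    intro x hx
    refine ⟨?_, ?_⟩
    · show x - x ∈ O.nonunits
      rw [sub_self]; exact (ValuationSubring.mem_nonunits_iff_exists_mem_maximalIdeal (A := O)).2 ⟨O.zero_mem, Ideal.zero_mem _⟩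
    · show x - x ∈ O.nonunits
      rw [sub_self]; exact (ValuationSubring.mem_nonunits_iff_exists_mem_maximalIdeal (A := O)).2 ⟨O.zero_mem, Ideal.zero_mem _⟩
  have hE1 : ∀ z ∈ lg_E L (N' * q), coeffMap ((RingEquiv.refl L : L ≃+* L) : L →+* L) z ∈
      lg_E L (N' * q) := fun z hz => ssm_gs_coeffMap_mem_E (N' * q) _ hz
  have hE1' : ∀ z ∈ lg_E L (N' * q), coeffMap (((RingEquiv.refl L).symm : L ≃+* L) : L →+* L) z ∈
      lg_E L (N' * q) := fun z hz => ssm_gs_coeffMap_mem_E (N' * q) _ hz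
  have hO1 : ∀ z ∈ O, (RingEquiv.refl L) z ∈ O := fun z hz => hz
  have hO1' : ∀ z ∈ O, (RingEquiv.refl L).symm z ∈ O := fun z hz => hz
  have Mod := ssm_fln_model_of_node L O hπ N' q hq2 hqN' ζ hζ (RingEquiv.refl L) hσ1 hE1 hE1' hO1
    hO1' (fun 𝔪 h𝔪 h1 h2 => s44mu_node_nodeAt L O hπ N' q hq2 hqN' ζ hζ _ hσ1 𝔪 h𝔪 h1 h2)
  -- the chart block
  haveI := Mod.prime1
  haveI := Mod.prime2
  have hϖ0 := ssa_pi_ne_zero Mod
  have hx0 := ssa_x_ne_zero Mod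
  obtain ⟨hV1le, hV2le⟩ := s44mci_leg_le_V L O hπ N' q hq2 hqN' ζ hζ
  have hqO : ((q : ℕ) : O) ∈ maximalIdeal O := ssm_fln_q_mem L O q
  have hq2' : q ≠ 2 := ssm_fl_ne_two q hq2
  have hpr := ssm_ll_prime L N' hπ q hqO hq2' hqN' ζ hζ
  have H := ssm_gl_hyp O hπ N' q hq2 hqN' hpr.1
  have hxtr : Transcendental L (lg_lamE (L := L) (N' * q)) :=
    lgf_lam_transcendental L (N' * q) two_ne_zero
  have hC12 := ssm_tp_ff_chart12 (L := L) hπ hxtr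
  haveI : IsIntegrallyClosed (Algebra.adjoin ↥O ({lg_lamE (N' * q)} : Set ↥(lg_E L (N' * q)))) :=
    fc_ff_isIntegrallyClosed (fc_ff_transcendental (L := L) hxtr)
  haveI : FaithfulSMul (Algebra.adjoin ↥O ({lg_lamE (N' * q)} : Set ↥(lg_E L (N' * q))))
      ↥(lg_E L (N' * q)) :=
    (faithfulSMul_iff_algebraMap_injective _ _).2 Subtype.val_injective
  have hBV1 : ∀ b ∈ fc_chart ↥O ({lg_lamE (N' * q)} : Set ↥(lg_E L (N' * q))),
      b ∈ ssm_gl_V1 O hπ N' q := fun b hb => hV1le b (fc_chart1_le _ hb)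
  have hπV1 : algebraMap ↥O ↥(lg_E L (N' * q)) π ∈ (ssm_gl_V1 O hπ N' q).nonunits := by
    have := (H.over1.cen (algebraMap ↥O _ π)).2 (dvd_refl _)
    exact this
  have hπ𝔫 : algebraMap ↥O ↥(fc_chart ↥O ({lg_lamE (N' * q)} : Set ↥(lg_E L (N' * q)))) π ∈ 𝔫 :=
    h1 ((ssm_tp_mem_P hBV1).2 hπV1)
  have hπ𝔫' : algebraMap ↥O ↥(fc_chart ↥O ({lg_lamE (N' * q)} : Set ↥(lg_E L (N' * q)))) π ∈ 𝔫' :=
    h1' ((ssm_tp_mem_P hBV1).2 hπV1)
  have hloc2 : ∀ z ∈ ssm_gl_V2 O hπ N' q hq2 hqN',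
      ∃ b s : ↥(fc_chart ↥O ({lg_lamE (N' * q), (lg_lamE (N' * q))⁻¹} : Set ↥(lg_E L (N' * q)))),
        s ∉ ssm_tp_P (fc_chart ↥O ({lg_lamE (N' * q), (lg_lamE (N' * q))⁻¹} :
          Set ↥(lg_E L (N' * q)))) (ssm_gl_V2 O hπ N' q hq2 hqN') ∧
        z * (s : ↥(lg_E L (N' * q))) = (b : ↥(lg_E L (N' * q))) := by
    intro z hz
    obtain ⟨t, ht, htz⟩ := (H.mem_V2_iff hC12).1 hz
    exact ⟨⟨_, htz⟩, t, ht, mul_comm _ _⟩
  -- the thickness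
  have he' : (q - 1) * e ≠ 0 :=
    Nat.mul_ne_zero (Nat.sub_ne_zero_of_lt hqp.one_lt) D.e_pos.ne'
  have hae : Associated (((q : ℕ) : ↥O)) (π ^ ((q - 1) * e)) := by
    obtain ⟨w, hw⟩ := D.p_eq
    exact ⟨w⁻¹, by rw [hw, mul_assoc, Units.mul_inv, mul_one]⟩
  -- the PData for the model of the identity
  have D1 : s44t_PData π (ss_sigmaO O (RingEquiv.refl L) hO1 hO1') q e 1 ζq :=
    ⟨D.prime, D.three_le, D.e_pos, D.ζ_pow, D.ζ_sub, D.p_eq, by rw [pow_one]; rfl, D.perf⟩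
  -- the Kummer field
  have hyE : y ^ q ∈ lg_E L (N' * q) := by rw [hy]; exact fx.2
  have hirr' : ∀ b ∈ lg_E L (N' * q), b ^ q ≠ y ^ q := by rw [hy]; exact hirr
  letI instE : Algebra ↥(lg_E L (N' * q)) ↥Lb := s44kz_algE Pk
  letI instO : Algebra ↥O ↥Lb := s44kz_algO Pk O
  have halg : ∀ e : ↥(lg_E L (N' * q)),
      ((algebraMap ↥(lg_E L (N' * q)) ↥Lb e : ↥Lb) : LaurentSeries L) = (e : LaurentSeries L) :=
    fun _ => rfl
  have halgO : ∀ a : ↥O, ((algebraMap ↥O ↥Lb a : ↥Lb) : LaurentSeries L) =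
      algebraMap L (LaurentSeries L) (a : L) := fun _ => rfl
  haveI tOE : IsScalarTower ↥O ↥(lg_E L (N' * q)) ↥Lb :=
    s44kb_towerOE O (fun _ => rfl) halg halgO
  haveI tOL : IsScalarTower ↥O L ↥Lb := s44kz_towerO O halgK halgO
  haveI : FiniteDimensional ↥(lg_E L (N' * q)) ↥Lb := s44ky_finite Pk halg hqp.ne_zero hyE
  haveI : Algebra.IsSeparable ↥(lg_E L (N' * q)) ↥Lb :=
    s44kz_isSeparable Pk halg hqp.ne_zero hyE
  obtain ⟨hy', hfin, hgenLL, hτn, hfix, hc0, hg, hh0, hΦ, hβ, hτΦ, hσΦ, hσh⟩ :=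
    s44kb_bundle Pk halg halgK O halgO hqp hyE hirr' fv.2 rfl hβ1 hβ1i hβ10
      (⇑(MonoidHom.id G))
  -- the Gauss sheet
  have hLb : ∀ z ∈ Lb, gq_IsQuot ↥O L z :=
    s44mw_hLb_leg O (N' * q) Pk hπ Mod D1 hfx hordX hratX hglobX hy
  have hstab : ∀ (i : G) (x : L), x ∈ O → (MonoidHom.id G) i • x ∈ O :=
    fun i x hx => ssm_gs_mem (hin i) hx
  obtain ⟨hVV1, hσV, hbaseP, Wi, hWi, hdvd⟩ :=
    s44mw_sheet O Lb hLb (s44mw_hconst (N' * q) Pk) Pk.stable (MonoidHom.id G) hstab hπ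
      (e := (q - 1) * e) hbase (lg_E L (N' * q)) (ssm_ga_E_le_quotField O (N' * q)) halg halgO halgK
  have hΦ0 : Φ ≠ 0 := by
    rw [hΦ]
    exact mul_ne_zero (mul_ne_zero ((_root_.map_ne_zero _).2 hc0)
      ((_root_.map_ne_zero _).2 hfv)) (pow_ne_zero _ hg)
  have hiter0 : ∀ j : ℕ, (⇑(s44kzc_tauAlg Pk halg))^[j] h ≠ 0 := by
    intro j
    induction j with
    | zero => simpa using hh0
    | succ j ih =>
      rw [Function.iterate_succ_apply']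
      exact (_root_.map_ne_zero (s44kzc_tauAlg Pk halg)).2 ih
  have hWiΦ := hdvd Φ hΦ0 hσΦ
  have hWih : ∀ j : ℕ, (((q - 1) * e : ℕ) : ℤ) ∣ Wi ((⇑(s44kzc_tauAlg Pk halg))^[j] h) :=
    fun j => hdvd _ (hiter0 j) (fun i => hσh i j)
  -- the family
  have hσL : ∀ (i : G) (z : ↥(lg_E L (N' * q))),
      s44ky_sigma Pk.stable ((MonoidHom.id G) i) (algebraMap ↥(lg_E L (N' * q)) ↥Lb z) =
        algebraMap ↥(lg_E L (N' * q)) ↥Lb
          (ssm_sg_aut (N' * q) (MulSemiringAction.toRingEquiv G L i) z) :=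
    fun i z => Subtype.ext rfl
  have hσ0 : ∀ (i : G) (a : ↥O),
      ssm_sg_aut (N' * q) (MulSemiringAction.toRingEquiv G L i)
          (algebraMap ↥O ↥(lg_E L (N' * q)) a) =
        algebraMap ↥O ↥(lg_E L (N' * q))
          (ssm_sg_base O (MulSemiringAction.toRingEquiv G L i) (hin i) a) :=
    fun i a => ssm_sg_aut_base O (N' * q) _ (hin i) a
  have hy'' : (⟨y, Pk.y_mem⟩ : ↥Lb) ^ q = algebraMap ↥(lg_E L (N' * q)) ↥Lb fx := by
    rw [hy']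
    congr 1
    exact Subtype.ext hy
  have hvS : v ∈ ssl_locSub ↥(lg_E L (N' * q)) 𝔫 := s44mci_mem_loc_of 𝔫 hU.2.2.1
  have hvS' : v' ∈ ssl_locSub ↥(lg_E L (N' * q)) 𝔫' := s44mci_mem_loc_of 𝔫' hU'.2.2.1
  exact s44gm_pair' (K := L) 𝔫 𝔫' (fc_chart1_le _) hπ hπ𝔫 hπ𝔫' hϖ0 Mod.hrad Mod.hxS1
    ssa_xinv_mem12 (fun z hz => fc_clear1 hx0 hz) hU huS hvS hU' huS' hvS' _ (ssl_model_OB1 Mod) D
    he' hqp.ne_zero hae hae hfx hordX hratX hglobX hy'' hfin hgenLL (s44mv_V O Lb hLb)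
    (ssm_gl_V1 O hπ N' q) hVV1 hV1le (fun b => ssm_tp_mem_P hV1le) Wi hWi
    (ssm_gl_V2 O hπ N' q hq2 hqN') hV2le (fun b => ssm_tp_mem_P hV2le) hloc2
    (fun i : G => s44ky_sigma Pk.stable ((MonoidHom.id G) i))
    (fun i : G => ssm_sg_aut (N' * q) (MulSemiringAction.toRingEquiv G L i))
    (fun i : G => ssm_sg_base O (MulSemiringAction.toRingEquiv G L i) (hin i))
    (fun i => s44mx_sigmaB L O hπ N' q hq2 hqN' ζ hζ _ (hin i)) hσL hσ0
    (fun i => hσu _ (hin i)) (fun i => hσu' _ (hin i)) hσV hbaseP (s44kzc_tauAlg Pk halg) hτn hfix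
    hfv hordV hc0 hg hh0 hΦ hβ hτΦ hRΦ hRh hσΦ hσh hWiΦ hWih ν ν' hν hν'

end Leg

end Fermat.Agent.S44
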