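/-
RENAMED COPY (landed by helper7) OF helper17's `Mono/Data.lean`: identical text, prefix `s44md_` → `s44mdb_`
on every declaration, because `s44md_rel` of `Mono/Data.lean` clashes with `s44md_rel` of
`Mono/DataGroup.lean`.  Import THIS file (never `Mono/Data` together with `Mono/DataGroup`).

S44, cell [H2] MONO-MAIN, sub-cell [H2-D] GLOBAL DATA, part (b) (helper17; prefix `s44mdb_`):
THE DESCENT OF THE KUMMER RELATIONS TO ONE NORMAL NUMBER FIELD `L' ⊆ ℚ̄`.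

`X, V ∈ J₀(N)[p]` with representing functions `fX, fV ∈ F̄_N` (`s44f_Rep`), `ζ` a primitive `p`-th root
of unity, `β ≠ 0`.  An element `σ ∈ G_ℚ` is *admissible with exponents `(k, n)`* if
  `σ ζ = ζ^k`,  `σ X = k X`,  `σ V = V + n X`,  `σ β = ζ^n β`
(helper19's group `H` of `Mono/DataGroup.lean` is the set of admissible `σ`; the inertia group of the
frame is contained in it under the hypotheses of `s44bg_Mono_stmt`).

`s44mdb_descent` : there is a finite `T0 ⊆ ℚ̄` such that over EVERY normal number field `L' ⊇ T0`: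
`ζ, β ∈ L'`, `fX = ι fx1`, `fV = ι fv1` with `fx1 fv1 ∈ lg_F L' N ⊆ L'((q))`, and for every
admissible `(σ, k, n)`, with `g := σ|L'` acting COEFFICIENTWISE on `L'((q))`:
  `g fx1 = κ^p · fx1^k · gx^p`,   `g fv1 = c · fv1 · fx1^n · gv^p`
with `κ c ∈ L'^×`, `gx gv ∈ lg_F L' N` nonzero.
-/
import Mathlib
import Fermat.Agent.S44.Bridge.NF
import Fermat.Agent.S44.Bridge.Rep
import Fermat.Agent.S44.Bridge.Ext

set_option autoImplicit false
set_option linter.unusedSectionVars false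

noncomputable section

namespace Fermat.Agent.S44

open ModularCurve AlgebraicCurve Fermat.Agent.JT3 Fermat.Agent.SS

local notation "Qb" => AlgebraicClosure ℚ

/-! ### algebra -/

section Alg

/-- `ζ^k = ζ^k'` for a primitive `p`-th root of unity: `k' = k + p e`. -/
theorem s44mdb_exists_int {K : Type*} [Field K] {p : ℕ} (hp0 : p ≠ 0) {ζ : K}
    (hζ : IsPrimitiveRoot ζ p) {k k' : ℕ} (h : ζ ^ k = ζ ^ k') :
    ∃ e : ℤ, (k' : ℤ) = k + p * e := by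
  have hζ0 : ζ ≠ 0 := hζ.ne_zero hp0
  have h1 : ζ ^ ((k' : ℤ) - k) = 1 := by
    rw [zpow_sub₀ hζ0, zpow_natCast, zpow_natCast, h, div_self (pow_ne_zero _ hζ0)]
  obtain ⟨e, he⟩ := (hζ.zpow_eq_one_iff_dvd _).1 h1
  exact ⟨e, by linarith⟩

/-- `f^k' = f^k (f^e)^p` when `k' = k + p e`. -/
theorem s44mdb_pow_split {F : Type*} [Field F] {f : F} (hf : f ≠ 0) {p k k' : ℕ} {e : ℤ}
    (h : (k' : ℤ) = k + p * e) : f ^ k' = f ^ k * (f ^ e) ^ p := by
  rw [← zpow_natCast f k', h, zpow_add₀ hf, zpow_natCast, ← zpow_natCast (f ^ e) p, ← zpow_mul,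
    mul_comm (p : ℤ) e]

end Alg

/-! ### the coefficientwise Galois action and fields of definition -/

section Aux

variable (N : ℕ) [NeZero N]

/-- every element of `F̄_N` is defined over every subfield containing a finite set. -/
theorem s44mdb_fg (x : modularFunctionFieldBar N) :
    ∃ s : Finset Qb, ∀ L1 : IntermediateField ℚ Qb, (↑s : Set Qb) ⊆ L1 →
      ∃ x1 : lg_F L1 N, ssm_al_iotaF L1 N x1 = x := by
  obtain ⟨s, hs⟩ := dsc_bc_exists_fg Qb (modularFunctionFieldFull N) x.2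
  refine ⟨s, fun L1 h1 => ?_⟩
  obtain ⟨y1, hy1, hy⟩ := hs L1 h1
  rw [← lg_F_eq_laurentBaseChange] at hy1
  exact ⟨⟨y1, hy1⟩, Subtype.ext hy⟩

/-- the Galois action on `F̄_N` is the coefficientwise action. -/
theorem s44mdb_coe_smul (σ : s44_G) (x : modularFunctionFieldBar N) :
    ((arithmeticGalois (modularFunctionFieldFull N) σ • x : modularFunctionFieldBar N) :
      LaurentSeries Qb) = coeffMap ((σ : Qb ≃ₐ[ℚ] Qb) : Qb →+* Qb) (x : LaurentSeries Qb) :=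
  rfl

/-- the coefficientwise action of `σ|L1` on `L1((q))` is compatible with the action of `σ`. -/
theorem s44mdb_iota_coeffMap (L1 : IntermediateField ℚ Qb) [Normal ℚ L1] (σ : s44_G)
    (x : LaurentSeries L1) :
    ssm_al_iota L1 (coeffMap ((σ.restrictNormal L1 : L1 ≃ₐ[ℚ] L1) : L1 →+* L1) x) =
      coeffMap ((σ : Qb ≃ₐ[ℚ] Qb) : Qb →+* Qb) (ssm_al_iota L1 x) := by
  rw [coeffMap_coeffMap, coeffMap_coeffMap]
  refine coeffMap_congr (RingHom.ext fun a => ?_) x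
  exact AlgEquiv.restrictNormal_commutes σ L1 a

/-- `σ • (ι x1)` is `ι` of the coefficientwise action of `σ|L1`. -/
theorem s44mdb_smul_iotaF (L1 : IntermediateField ℚ Qb) [Normal ℚ L1] (σ : s44_G)
    (x1 : lg_F L1 N) :
    ((arithmeticGalois (modularFunctionFieldFull N) σ • ssm_al_iotaF L1 N x1 :
      modularFunctionFieldBar N) : LaurentSeries Qb) =
      ssm_al_iota L1 (coeffMap ((σ.restrictNormal L1 : L1 ≃ₐ[ℚ] L1) : L1 →+* L1)
        (x1 : LaurentSeries L1)) := by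
  rw [s44mdb_coe_smul, s44mdb_iota_coeffMap]
  rfl

/-- `σ • (ι x1)` depends only on `σ|L1`. -/
theorem s44mdb_smul_congr (L1 : IntermediateField ℚ Qb) [Normal ℚ L1] (σ σ' : s44_G)
    (h : σ.restrictNormal L1 = σ'.restrictNormal L1) (x1 : lg_F L1 N) :
    arithmeticGalois (modularFunctionFieldFull N) σ • ssm_al_iotaF L1 N x1 =
      arithmeticGalois (modularFunctionFieldFull N) σ' • ssm_al_iotaF L1 N x1 := by
  apply Subtype.ext
  rw [s44mdb_smul_iotaF, s44mdb_smul_iotaF, h]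

/-- `σ a` for `a ∈ L1` depends only on `σ|L1`. -/
theorem s44mdb_apply_congr (L1 : IntermediateField ℚ Qb) [Normal ℚ L1] (σ σ' : s44_G)
    (h : σ.restrictNormal L1 = σ'.restrictNormal L1) {a : Qb} (ha : a ∈ L1) : σ a = σ' a := by
  have h1 := AlgEquiv.restrictNormal_commutes σ L1 ⟨a, ha⟩
  have h2 := AlgEquiv.restrictNormal_commutes σ' L1 ⟨a, ha⟩
  rw [h] at h1
  exact h1.symm.trans h2

end Aux

/-! ### admissible automorphisms -/

/-- `σ` is admissible with exponents `(k, n)`. -/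
def s44mdb_Adm (N : ℕ) [NeZero N] (ζ β : Qb) (X V : JZero N) (σ : s44_G) (k n : ℕ) : Prop :=
  σ ζ = ζ ^ k ∧ σ • X = k • X ∧ σ • V = V + n • X ∧ σ β = ζ ^ n * β

section Rel

variable (N : ℕ) [NeZero N] {p : ℕ}

local notation "FN" => modularFunctionFieldBar N

/-- the `ℚ̄`-level relations of one admissible automorphism. -/
theorem s44mdb_rel (hp0 : p ≠ 0) {ζ β : Qb} {X V : JZero N} {fX fV : FN}
    (hfX : s44f_Rep N p X fX) (hfV : s44f_Rep N p V fV) {σ : s44_G} {k n : ℕ}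
    (h : s44mdb_Adm N ζ β X V σ k n) :
    ∃ (κ c : Qb) (hx hv : FN), κ ≠ 0 ∧ c ≠ 0 ∧ hx ≠ 0 ∧ hv ≠ 0 ∧
      arithmeticGalois (modularFunctionFieldFull N) σ • fX =
        algebraMap Qb FN (κ ^ p) * fX ^ k * hx ^ p ∧
      arithmeticGalois (modularFunctionFieldFull N) σ • fV =
        algebraMap Qb FN c * (fV * fX ^ n) * hv ^ p := by
  obtain ⟨c1, hx, hc1, hhx, e1⟩ := s44b_kummer_of_smul_eq_nsmul N σ k hfX h.2.1
  obtain ⟨c, hv, hc, hhv, e2⟩ := s44b_kummer_of_ext N σ n hfX hfV h.2.2.1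
  obtain ⟨κ, hκ⟩ := IsAlgClosed.exists_pow_nat_eq c1 (Nat.pos_of_ne_zero hp0)
  have hκ0 : κ ≠ 0 := by
    rintro rfl
    rw [zero_pow hp0] at hκ
    exact hc1 hκ.symm
  exact ⟨κ, c, hx, hv, hκ0, hc, hhx, hhv, by rw [hκ]; exact e1, e2⟩

/-- two admissible automorphisms with the same restriction to a field of definition `L0` of
`fX, fV, ζ, β` satisfy the same relations, up to `p`-th powers of powers of `fX`. -/
theorem s44mdb_key (hp0 : p ≠ 0) {ζ β : Qb} (hζ : IsPrimitiveRoot ζ p) (hβ0 : β ≠ 0)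
    {X V : JZero N} {fX fV : FN} (hfX0 : fX ≠ 0)
    (L0 : IntermediateField ℚ Qb) [Normal ℚ L0] (hζL : ζ ∈ L0) (hβL : β ∈ L0)
    (fx0 fv0 : lg_F L0 N) (hfx0 : ssm_al_iotaF L0 N fx0 = fX) (hfv0 : ssm_al_iotaF L0 N fv0 = fV)
    {σ₀ : s44_G} {k₀ n₀ : ℕ} (hadm₀ : s44mdb_Adm N ζ β X V σ₀ k₀ n₀) {κ c : Qb} {hx hv : FN}
    (e1 : arithmeticGalois (modularFunctionFieldFull N) σ₀ • fX =
      algebraMap Qb FN (κ ^ p) * fX ^ k₀ * hx ^ p)
    (e2 : arithmeticGalois (modularFunctionFieldFull N) σ₀ • fV =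
      algebraMap Qb FN c * (fV * fX ^ n₀) * hv ^ p)
    {σ : s44_G} {k n : ℕ} (hres : σ.restrictNormal L0 = σ₀.restrictNormal L0)
    (hadm : s44mdb_Adm N ζ β X V σ k n) :
    ∃ ex ev : ℤ,
      arithmeticGalois (modularFunctionFieldFull N) σ • fX =
        algebraMap Qb FN (κ ^ p) * fX ^ k * (hx * fX ^ ex) ^ p ∧
      arithmeticGalois (modularFunctionFieldFull N) σ • fV =
        algebraMap Qb FN c * (fV * fX ^ n) * (hv * fX ^ ev) ^ p := by
  -- the exponents agree mod `p`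
  have hk : ζ ^ k = ζ ^ k₀ :=
    hadm.1.symm.trans ((s44mdb_apply_congr L0 σ σ₀ hres hζL).trans hadm₀.1)
  have hn : ζ ^ n = ζ ^ n₀ := by
    have h1 : ζ ^ n * β = ζ ^ n₀ * β :=
      hadm.2.2.2.symm.trans ((s44mdb_apply_congr L0 σ σ₀ hres hβL).trans hadm₀.2.2.2)
    exact mul_right_cancel₀ hβ0 h1
  obtain ⟨ex, hex⟩ := s44mdb_exists_int hp0 hζ hk
  obtain ⟨ev, hev⟩ := s44mdb_exists_int hp0 hζ hn
  refine ⟨ex, ev, ?_, ?_⟩
  · have h2 := s44mdb_smul_congr N L0 σ σ₀ hres fx0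
    rw [hfx0] at h2
    rw [h2, e1, s44mdb_pow_split hfX0 hex]
    ring
  · have h2 := s44mdb_smul_congr N L0 σ σ₀ hres fv0
    rw [hfv0] at h2
    rw [h2, e2, s44mdb_pow_split hfX0 hev]
    ring

/-- **uniformity**: finitely many constants and functions serve all admissible automorphisms. -/
theorem s44mdb_uniform (hp0 : p ≠ 0) {ζ β : Qb} (hζ : IsPrimitiveRoot ζ p) (hβ0 : β ≠ 0)
    {X V : JZero N} {fX fV : FN}
    (hfX : s44f_Rep N p X fX) (hfV : s44f_Rep N p V fV) :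
    ∃ (T1 : Finset Qb) (S1 : Finset FN), ∀ (σ : s44_G) (k n : ℕ), s44mdb_Adm N ζ β X V σ k n →
      ∃ κ ∈ T1, ∃ c ∈ T1, ∃ hx ∈ S1, ∃ hv ∈ S1, ∃ ex ev : ℤ,
        κ ≠ 0 ∧ c ≠ 0 ∧ hx ≠ 0 ∧ hv ≠ 0 ∧
        arithmeticGalois (modularFunctionFieldFull N) σ • fX =
          algebraMap Qb FN (κ ^ p) * fX ^ k * (hx * fX ^ ex) ^ p ∧
        arithmeticGalois (modularFunctionFieldFull N) σ • fV =
          algebraMap Qb FN c * (fV * fX ^ n) * (hv * fX ^ ev) ^ p := by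
  classical
  have hfX0 : fX ≠ 0 := hfX.1
  obtain ⟨L0, hfin, hnorm, hT, hS⟩ := s44b_exists_nf N {fX, fV} {ζ, β}
  have := hfin
  have := hnorm
  have hζL : ζ ∈ L0 := hT (by simp)
  have hβL : β ∈ L0 := hT (by simp)
  obtain ⟨fx0, hfx0⟩ := hS fX (by simp)
  obtain ⟨fv0, hfv0⟩ := hS fV (by simp)
  -- the data attached to one restriction `τ`
  have key : ∀ τ : L0 ≃ₐ[ℚ] L0, ∃ (κ c : Qb) (hx hv : FN),
      ∀ (σ : s44_G) (k n : ℕ), σ.restrictNormal L0 = τ → s44mdb_Adm N ζ β X V σ k n →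
        ∃ ex ev : ℤ, κ ≠ 0 ∧ c ≠ 0 ∧ hx ≠ 0 ∧ hv ≠ 0 ∧
          arithmeticGalois (modularFunctionFieldFull N) σ • fX =
            algebraMap Qb FN (κ ^ p) * fX ^ k * (hx * fX ^ ex) ^ p ∧
          arithmeticGalois (modularFunctionFieldFull N) σ • fV =
            algebraMap Qb FN c * (fV * fX ^ n) * (hv * fX ^ ev) ^ p := by
    intro τ
    by_cases hτ : ∃ (σ : s44_G) (k n : ℕ), σ.restrictNormal L0 = τ ∧ s44mdb_Adm N ζ β X V σ k n
    swap
    · exact ⟨1, 1, 1, 1, fun σ k n h1 h2 => (hτ ⟨σ, k, n, h1, h2⟩).elim⟩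
    obtain ⟨σ₀, k₀, n₀, hσ₀, hadm₀⟩ := hτ
    obtain ⟨κ, c, hx, hv, hκ, hc, hhx, hhv, e1, e2⟩ := s44mdb_rel N hp0 hfX hfV hadm₀
    refine ⟨κ, c, hx, hv, fun σ k n hσ hadm => ?_⟩
    obtain ⟨ex, ev, h1, h2⟩ := s44mdb_key N hp0 hζ hβ0 hfX0 L0 hζL hβL fx0 fv0 hfx0 hfv0 hadm₀
      e1 e2 (hσ.trans hσ₀.symm) hadm
    exact ⟨ex, ev, hκ, hc, hhx, hhv, h1, h2⟩
  choose κ c hx hv hspec using key
  refine ⟨Finset.univ.image κ ∪ Finset.univ.image c, Finset.univ.image hx ∪ Finset.univ.image hv,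
    fun σ k n hadm => ?_⟩
  obtain ⟨ex, ev, h⟩ := hspec (σ.restrictNormal L0) σ k n rfl hadm
  exact ⟨κ _, Finset.mem_union_left _ (Finset.mem_image_of_mem _ (Finset.mem_univ _)),
    c _, Finset.mem_union_right _ (Finset.mem_image_of_mem _ (Finset.mem_univ _)),
    hx _, Finset.mem_union_left _ (Finset.mem_image_of_mem _ (Finset.mem_univ _)),
    hv _, Finset.mem_union_right _ (Finset.mem_image_of_mem _ (Finset.mem_univ _)), ex, ev, h⟩

end Rel

/-! ### the descent -/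

section Descent

set_option synthInstance.maxHeartbeats 400000
set_option maxHeartbeats 1000000

variable (N : ℕ) [NeZero N] {p : ℕ}

local notation "FN" => modularFunctionFieldBar N

/-- transport of one relation to `L'((q))`. -/
theorem s44mdb_transport (L' : IntermediateField ℚ Qb) [Normal ℚ L'] (σ : s44_G)
    (x1 R1 : lg_F L' N)
    (h : arithmeticGalois (modularFunctionFieldFull N) σ • ssm_al_iotaF L' N x1 =
      ssm_al_iotaF L' N R1) :
    coeffMap ((σ.restrictNormal L' : L' ≃ₐ[ℚ] L') : L' →+* L') (x1 : LaurentSeries L') =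
      (R1 : LaurentSeries L') := by
  apply ssm_al_iota_injective L'
  rw [← s44mdb_smul_iotaF, h]
  rfl

/-- transport of the relation for `fX`. -/
theorem s44mdb_transport_x (L' : IntermediateField ℚ Qb) [Normal ℚ L'] (σ : s44_G)
    (κ1 : L') (fx1 hx1 : lg_F L' N) (k : ℕ) (ex : ℤ)
    (h : arithmeticGalois (modularFunctionFieldFull N) σ • ssm_al_iotaF L' N fx1 =
      algebraMap Qb FN ((algebraMap L' Qb κ1) ^ p) * ssm_al_iotaF L' N fx1 ^ k *
        (ssm_al_iotaF L' N hx1 * ssm_al_iotaF L' N fx1 ^ ex) ^ p) :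
    coeffMap ((σ.restrictNormal L' : L' ≃ₐ[ℚ] L') : L' →+* L') (fx1 : LaurentSeries L') =
      algebraMap L' (LaurentSeries L') (κ1 ^ p) * (fx1 : LaurentSeries L') ^ k *
        ((hx1 * fx1 ^ ex : lg_F L' N) : LaurentSeries L') ^ p := by
  refine s44mdb_transport N L' σ fx1
    (algebraMap L' (lg_F L' N) (κ1 ^ p) * fx1 ^ k * (hx1 * fx1 ^ ex) ^ p) ?_
  rw [h]
  simp only [map_mul, map_pow, map_zpow₀, ssm_al_iotaF_algebraMap]

/-- transport of the relation for `fV`. -/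
theorem s44mdb_transport_v (L' : IntermediateField ℚ Qb) [Normal ℚ L'] (σ : s44_G)
    (c1 : L') (fx1 fv1 hv1 : lg_F L' N) (n : ℕ) (ev : ℤ)
    (h : arithmeticGalois (modularFunctionFieldFull N) σ • ssm_al_iotaF L' N fv1 =
      algebraMap Qb FN (algebraMap L' Qb c1) *
        (ssm_al_iotaF L' N fv1 * ssm_al_iotaF L' N fx1 ^ n) *
        (ssm_al_iotaF L' N hv1 * ssm_al_iotaF L' N fx1 ^ ev) ^ p) :
    coeffMap ((σ.restrictNormal L' : L' ≃ₐ[ℚ] L') : L' →+* L') (fv1 : LaurentSeries L') =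
      algebraMap L' (LaurentSeries L') c1 * (fv1 : LaurentSeries L') *
        (fx1 : LaurentSeries L') ^ n * ((hv1 * fx1 ^ ev : lg_F L' N) : LaurentSeries L') ^ p := by
  refine s44mdb_transport N L' σ fv1
    (algebraMap L' (lg_F L' N) c1 * fv1 * fx1 ^ n * (hv1 * fx1 ^ ev) ^ p) ?_
  rw [h]
  simp only [map_mul, map_pow, map_zpow₀, ssm_al_iotaF_algebraMap]
  ring

/-- one admissible automorphism over `L'`, given the fields of definition. -/
theorem s44mdb_descent_one (L' : IntermediateField ℚ Qb) [Normal ℚ L'] (σ : s44_G)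
    {κ c : Qb} (hκL : κ ∈ L') (hcL : c ∈ L') (hκ0 : κ ≠ 0) (hc0 : c ≠ 0)
    {fX fV hx hv : FN} (fx1 fv1 hx1 hv1 : lg_F L' N)
    (hfx1 : ssm_al_iotaF L' N fx1 = fX) (hfv1 : ssm_al_iotaF L' N fv1 = fV)
    (hhx1 : ssm_al_iotaF L' N hx1 = hx) (hhv1 : ssm_al_iotaF L' N hv1 = hv)
    (hfX0 : fX ≠ 0) (hhx0 : hx ≠ 0) (hhv0 : hv ≠ 0) {k n : ℕ} {ex ev : ℤ}
    (e1 : arithmeticGalois (modularFunctionFieldFull N) σ • fX =
      algebraMap Qb FN (κ ^ p) * fX ^ k * (hx * fX ^ ex) ^ p)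
    (e2 : arithmeticGalois (modularFunctionFieldFull N) σ • fV =
      algebraMap Qb FN c * (fV * fX ^ n) * (hv * fX ^ ev) ^ p) :
    ∃ (κ1 c1 : L') (gx gv : lg_F L' N), κ1 ≠ 0 ∧ c1 ≠ 0 ∧ gx ≠ 0 ∧ gv ≠ 0 ∧
      coeffMap ((σ.restrictNormal L' : L' ≃ₐ[ℚ] L') : L' →+* L') (fx1 : LaurentSeries L') =
        algebraMap L' (LaurentSeries L') (κ1 ^ p) * (fx1 : LaurentSeries L') ^ k *
          (gx : LaurentSeries L') ^ p ∧
      coeffMap ((σ.restrictNormal L' : L' ≃ₐ[ℚ] L') : L' →+* L') (fv1 : LaurentSeries L') =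
        algebraMap L' (LaurentSeries L') c1 * (fv1 : LaurentSeries L') *
          (fx1 : LaurentSeries L') ^ n * (gv : LaurentSeries L') ^ p := by
  have hfx10 : fx1 ≠ 0 := by
    rintro rfl
    rw [_root_.map_zero] at hfx1
    exact hfX0 hfx1.symm
  have hhx10 : hx1 ≠ 0 := by
    rintro rfl
    rw [_root_.map_zero] at hhx1
    exact hhx0 hhx1.symm
  have hhv10 : hv1 ≠ 0 := by
    rintro rfl
    rw [_root_.map_zero] at hhv1
    exact hhv0 hhv1.symm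
  refine ⟨⟨κ, hκL⟩, ⟨c, hcL⟩, hx1 * fx1 ^ ex, hv1 * fx1 ^ ev,
    fun h => hκ0 (congrArg Subtype.val h), fun h => hc0 (congrArg Subtype.val h),
    mul_ne_zero hhx10 (zpow_ne_zero _ hfx10), mul_ne_zero hhv10 (zpow_ne_zero _ hfx10), ?_, ?_⟩
  · refine s44mdb_transport_x N L' σ ⟨κ, hκL⟩ fx1 hx1 k ex ?_
    rw [hfx1, hhx1, e1]
    rfl
  · refine s44mdb_transport_v N L' σ ⟨c, hcL⟩ fx1 fv1 hv1 n ev ?_
    rw [hfx1, hfv1, hhv1, e2]
    rfl

/-- **[H2-D](b): the Kummer relations over every large normal number field.** -/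
theorem s44mdb_descent (hp : p.Prime) {ζ β : Qb}
    (hζ : IsPrimitiveRoot ζ p) (hβ0 : β ≠ 0) {X V : JZero N}
    {fX fV : FN} (hfX : s44f_Rep N p X fX) (hfV : s44f_Rep N p V fV) :
    ∃ T0 : Finset Qb, ∀ L' : IntermediateField ℚ Qb, FiniteDimensional ℚ L' →
      ∀ _ : Normal ℚ L', (↑T0 : Set Qb) ⊆ L' →
      ∃ (ζ1 β1 : L') (fx1 fv1 : lg_F L' N),
        algebraMap L' Qb ζ1 = ζ ∧ algebraMap L' Qb β1 = β ∧
        ssm_al_iotaF L' N fx1 = fX ∧ ssm_al_iotaF L' N fv1 = fV ∧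
        ∀ (σ : s44_G) (k n : ℕ), s44mdb_Adm N ζ β X V σ k n →
          (σ.restrictNormal L') ζ1 = ζ1 ^ k ∧ (σ.restrictNormal L') β1 = ζ1 ^ n * β1 ∧
          ∃ (κ c : L') (gx gv : lg_F L' N), κ ≠ 0 ∧ c ≠ 0 ∧ gx ≠ 0 ∧ gv ≠ 0 ∧
            coeffMap ((σ.restrictNormal L' : L' ≃ₐ[ℚ] L') : L' →+* L') (fx1 : LaurentSeries L') =
              algebraMap L' (LaurentSeries L') (κ ^ p) * (fx1 : LaurentSeries L') ^ k *
                (gx : LaurentSeries L') ^ p ∧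
            coeffMap ((σ.restrictNormal L' : L' ≃ₐ[ℚ] L') : L' →+* L') (fv1 : LaurentSeries L') =
              algebraMap L' (LaurentSeries L') c * (fv1 : LaurentSeries L') *
                (fx1 : LaurentSeries L') ^ n * (gv : LaurentSeries L') ^ p := by
  classical
  have hp0 : p ≠ 0 := hp.ne_zero
  obtain ⟨T1, S1, huni⟩ := s44mdb_uniform N hp0 hζ hβ0 hfX hfV
  choose sel hsel using s44mdb_fg N
  refine ⟨{ζ, β} ∪ T1 ∪ sel fX ∪ sel fV ∪ S1.biUnion sel, fun L' _ hnorm hsub => ?_⟩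
  have hmem : ∀ a, a ∈ ({ζ, β} ∪ T1 ∪ sel fX ∪ sel fV ∪ S1.biUnion sel : Finset Qb) → a ∈ L' :=
    fun a ha => hsub (Finset.mem_coe.2 ha)
  have hζL : ζ ∈ L' := hmem ζ (by simp)
  have hβL : β ∈ L' := hmem β (by simp)
  have hT1 : ∀ a ∈ T1, a ∈ L' := fun a ha => hmem a (by simp [ha])
  obtain ⟨fx1, hfx1⟩ := hsel fX L' (fun a ha => hmem a (by
    rw [Finset.mem_coe] at ha; simp [ha]))
  obtain ⟨fv1, hfv1⟩ := hsel fV L' (fun a ha => hmem a (by
    rw [Finset.mem_coe] at ha; simp [ha]))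
  have hS1 : ∀ h ∈ S1, ∃ h1 : lg_F L' N, ssm_al_iotaF L' N h1 = h := fun h hh =>
    hsel h L' (fun a ha => hmem a (by
      rw [Finset.mem_coe] at ha
      refine Finset.mem_union_right _ (Finset.mem_biUnion.2 ⟨h, hh, ha⟩)))
  refine ⟨⟨ζ, hζL⟩, ⟨β, hβL⟩, fx1, fv1, rfl, rfl, hfx1, hfv1, fun σ k n hadm => ⟨?_, ?_, ?_⟩⟩
  · apply Subtype.ext
    have h1 := AlgEquiv.restrictNormal_commutes σ L' ⟨ζ, hζL⟩
    have h2 : algebraMap L' Qb ((σ.restrictNormal L') ⟨ζ, hζL⟩) = ζ ^ k := h1.trans hadm.1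
    rw [SubmonoidClass.coe_pow]
    exact h2
  · apply Subtype.ext
    have h1 := AlgEquiv.restrictNormal_commutes σ L' ⟨β, hβL⟩
    have h2 : algebraMap L' Qb ((σ.restrictNormal L') ⟨β, hβL⟩) = ζ ^ n * β :=
      h1.trans hadm.2.2.2
    rw [MulMemClass.coe_mul, SubmonoidClass.coe_pow]
    exact h2
  · obtain ⟨κ, hκT, c, hcT, hx, hxS, hv, hvS, ex, ev, hκ0, hc0, hhx0, hhv0, e1, e2⟩ :=
      huni σ k n hadm
    obtain ⟨hx1, hhx1⟩ := hS1 hx hxS
    obtain ⟨hv1, hhv1⟩ := hS1 hv hvS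
    exact s44mdb_descent_one N L' σ (hT1 κ hκT) (hT1 c hcT) hκ0 hc0 fx1 fv1 hx1 hv1 hfx1 hfv1
      hhx1 hhv1 hfX.1 hhx0 hhv0 e1 e2

end Descent


end Fermat.Agent.S44
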