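/-
S44 project, cell [H2] MONO-MAIN, sub-cell [H2-CI-INST] (helper16).  Prefix `s44mci_`.

**The instance of `(hf, hord, hrat, hglob)` for `g := φ(f1)` over every large normal number field.**

`s44mci_chart_sheet` (Mono/CIChart.lean), `s44t_loc` (Tor/Loc.lean) and the Legendre instance of the
cusp split (Mono/CuspLoc.lean) all take, for the function `g ∈ E = lg_E L' N` on the Legendre cover,

  `hf : g ≠ 0`, `hord : ∀ v, p ∣ ord_v g`, `hrat : ord_v g ≠ 0 → v rational`,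
  `hglob : s44t_GlobForm π λ p (p e + 1) g`.

Here they are produced, for `g := φ(f1)` (`φ = s44td_phi = (q ↦ q²)`), `f1 ∈ lg_F L' N` ANY model of
`f ∈ F̄_N` over a normal number field `L'` containing a finite set `T` which depends only on `f` and
on the two split forms of `f`:

* `s44mci_inst`       : function level (`f` with all orders divisible by `p`, split to depth `p²` at
                        `w_∞` and at `w_0 = w_∞ ∘ W̄`);
* `s44mci_inst_frame` : frame level (`p • X = 0`, `(s44_frame2 P M hpM).Split X`, `f` ANY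
                        representing function of `X`).

The proof is the middle of `s44td_step` (Tor/Desc.lean) followed by the middle of `s44t_coreNFP_of`
(Tor/NF.lean).
-/
import Mathlib
import Fermat.Agent.S44.Tor.Desc
import Fermat.Agent.S44.Tor.NF
import Fermat.Agent.S44.Mono.DataB

set_option autoImplicit false
set_option linter.unusedSectionVars false
set_option linter.unusedVariables false
set_option linter.style.haveILetI false

noncomputable section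

namespace Fermat.Agent.S44

open ModularCurve AlgebraicCurve Module Fermat.Agent.JT3 Fermat.Agent.S24 Fermat.Agent.SS
  Fermat.Agent.SS2 Fermat.Agent.S35 IntermediateField IsLocalRing

local notation "Qb" => AlgebraicClosure ℚ

/-- `s44td_phi` (Tor/Desc.lean) is `lg_phiE` (JT3/Inst/Key0.lean). -/
theorem s44mci_phi_eq (L : Type) [Field L] [Algebra ℚ L] [CharZero L] (N : ℕ) [NeZero N]
    (x : lg_F L N) : s44td_phi L N x = lg_phiE (L := L) (N := N) x := rfl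

section Step

variable (L1 : Type) [Field L1] [Algebra ℚ L1] [CharZero L1] [Algebra L1 Qb]
  [IsScalarTower ℚ L1 Qb]
  (M p : ℕ) [NeZero M] [NeZero p] (hp : p.Prime) (hp2 : ¬ 2 ∣ p) (hpM : ¬ p ∣ M)

/-- **orders and rationality on the cover**, over one number field. -/
theorem s44mci_inst_ord (f : modularFunctionFieldBar (M * p)) (hf : f ≠ 0)
    (hord : ∀ v : Place Qb (modularFunctionFieldBar (M * p)), (p : ℤ) ∣ v.ord f)
    (f1 : lg_F L1 (M * p)) (hf1 : ssm_al_iotaF L1 (M * p) f1 = f)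
    (gbar : laurentBaseChange Qb (lg_E ℚ (M * p)))
    (hgbar : (gbar : LaurentSeries Qb) = qExpand Qb 2 (f : LaurentSeries Qb))
    (hratQ : ∀ g1 : laurentBaseChange L1 (lg_E ℚ (M * p)),
      dsc_bcHom L1 Qb (lg_E ℚ (M * p)) g1 = gbar →
      ∀ v : Place L1 (laurentBaseChange L1 (lg_E ℚ (M * p))), v.ord g1 ≠ 0 → ss_RatPlace v) :
    s44td_phi L1 (M * p) f1 ≠ 0 ∧
    (∀ v : Place L1 (lg_E L1 (M * p)), (p : ℤ) ∣ v.ord (s44td_phi L1 (M * p) f1)) ∧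
    (∀ v : Place L1 (lg_E L1 (M * p)), v.ord (s44td_phi L1 (M * p) f1) ≠ 0 →
      ss_RatPlace v) := by
  have _ : Algebra.IsAlgebraic ℚ Qb := AlgebraicClosure.isAlgebraic ℚ
  have _ : Algebra.IsAlgebraic L1 Qb := Algebra.IsAlgebraic.tower_top (K := ℚ) L1
  have hf10 : f1 ≠ 0 := by
    rintro rfl
    rw [map_zero] at hf1
    exact hf hf1.symm
  obtain ⟨g, hg⟩ : ∃ g : lg_E L1 (M * p), g = s44td_phi L1 (M * p) f1 := ⟨_, rfl⟩
  have hg0 : g ≠ 0 := by rwa [hg, Ne, map_eq_zero]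
  have hgcoe : (g : LaurentSeries L1) = qExpand L1 2 (f1 : LaurentSeries L1) := by
    rw [hg, s44td_phi_coe]
  obtain ⟨f1', hf1'⟩ : ∃ f1' : laurentBaseChange L1 (modularFunctionFieldFull (M * p)),
      f1' = s44td_toBC L1 (M * p) f1 := ⟨_, rfl⟩
  have hf1'coe : (f1' : LaurentSeries L1) = (f1 : LaurentSeries L1) := by
    rw [hf1', s44td_toBC_coe]
  have hιcoe : ((ssm_al_iotaF L1 (M * p) f1 : modularFunctionFieldBar (M * p)) :
      LaurentSeries Qb) = dsc_cm L1 Qb (f1 : LaurentSeries L1) := by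
    rw [ssm_al_coe_iotaF, dsc_cm]
  have hbc : dsc_bcHom L1 Qb (modularFunctionFieldFull (M * p)) f1' = f := by
    apply Subtype.ext
    rw [dsc_bcHom_coe, hf1'coe, ← hf1, hιcoe]
  have hord1 : ∀ Q : Place L1 (laurentBaseChange L1 (modularFunctionFieldFull (M * p))),
      (p : ℤ) ∣ Q.ord f1' := fun Q =>
    dsc_bc_dvd_ord L1 Qb (modularFunctionFieldFull (M * p)) (p : ℤ) f1'
      (fun P => by rw [hbc]; exact hord P) Q
  have hordg : ∀ v : Place L1 (lg_E L1 (M * p)), (p : ℤ) ∣ v.ord g := fun v => by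
    have := lg_dvd_ord_of_embedding (ss2_dp_iota L1 (M * p)) (p : ℤ) f1' hord1 v
    rwa [hf1', s44td_iota_toBC, ← hg] at this
  have hrat : ∀ v : Place L1 (lg_E L1 (M * p)), v.ord g ≠ 0 → ss_RatPlace v := by
    refine s44td_rat_transport L1 (lg_E ℚ (M * p)) (lg_E L1 (M * p))
      (ssd_lg_E_eq L1 (M * p)) gbar hratQ g ?_
    rw [hgbar, hgcoe, dsc_cm, coeffMap_qExpand, ← hf1, ssm_al_coe_iotaF]
  rw [← hg]
  exact ⟨hg0, hordg, hrat⟩

/-- **the two split forms on the cover**, over one number field. -/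
theorem s44mci_inst_split (A : ValuationSubring Qb)
    (hbdd : ∀ b1 : lg_F L1 (M * p),
      gq_IsBdd ↥A Qb ((ssm_al_iotaF L1 (M * p) b1 : modularFunctionFieldBar (M * p)) :
        LaurentSeries Qb) →
      gq_IsBdd ↥(A.comap (algebraMap L1 Qb)) L1 (b1 : LaurentSeries L1))
    (f ga ba gb bb : modularFunctionFieldBar (M * p)) (hga : ga ≠ 0) (hgb : gb ≠ 0)
    (hba : gq_IsBdd ↥A Qb (ba : LaurentSeries Qb))
    (hbb : gq_IsBdd ↥A Qb (bb : LaurentSeries Qb))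
    (hfa : f = ga ^ p *
      (1 + algebraMap Qb (modularFunctionFieldBar (M * p)) ((p : Qb) ^ 2) * ba))
    (hfb : ssm_al_Wbar M p hp hpM f = gb ^ p *
      (1 + algebraMap Qb (modularFunctionFieldBar (M * p)) ((p : Qb) ^ 2) * bb))
    (f1 ga1 ba1 gb1 bb1 : lg_F L1 (M * p))
    (hf1 : ssm_al_iotaF L1 (M * p) f1 = f) (hga1 : ssm_al_iotaF L1 (M * p) ga1 = ga)
    (hba1 : ssm_al_iotaF L1 (M * p) ba1 = ba) (hgb1 : ssm_al_iotaF L1 (M * p) gb1 = gb)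
    (hbb1 : ssm_al_iotaF L1 (M * p) bb1 = bb) :
    (∃ G b : lg_E L1 (M * p), G ≠ 0 ∧
      gq_IsBdd ↥(A.comap (algebraMap L1 Qb)) L1 (b : LaurentSeries L1) ∧
      s44td_phi L1 (M * p) f1 =
        G ^ p * (1 + algebraMap L1 (lg_E L1 (M * p)) ((p : L1) ^ 2) * b)) ∧
    (∃ G b : lg_E L1 (M * p), G ≠ 0 ∧
      gq_IsBdd ↥(A.comap (algebraMap L1 Qb)) L1
        ((ssm_al_WE L1 M p hp hp2 hpM b : lg_E L1 (M * p)) : LaurentSeries L1) ∧
      s44td_phi L1 (M * p) f1 =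
        G ^ p * (1 + algebraMap L1 (lg_E L1 (M * p)) ((p : L1) ^ 2) * b)) := by
  obtain ⟨hsa, hsb⟩ := s44td_split_desc L1 M p hp hpM f1 ga1 ba1 gb1 bb1
    (by rw [hf1, hga1, hba1]; exact hfa) (by rw [hf1, hgb1, hbb1]; exact hfb)
  have hga10 : ga1 ≠ 0 := by
    rintro rfl
    rw [map_zero] at hga1
    exact hga hga1.symm
  have hgb10 : gb1 ≠ 0 := by
    rintro rfl
    rw [map_zero] at hgb1
    exact hgb hgb1.symm
  have hba1b : gq_IsBdd ↥(A.comap (algebraMap L1 Qb)) L1 (ba1 : LaurentSeries L1) :=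
    hbdd ba1 (by rw [hba1]; exact hba)
  have hbb1b : gq_IsBdd ↥(A.comap (algebraMap L1 Qb)) L1 (bb1 : LaurentSeries L1) :=
    hbdd bb1 (by rw [hbb1]; exact hbb)
  refine ⟨?_, ?_⟩
  · refine ⟨s44td_phi L1 (M * p) ga1, s44td_phi L1 (M * p) ba1, by rwa [Ne, map_eq_zero],
      ?_, ?_⟩
    · rw [s44td_phi_coe]
      exact ssm_ga_beta_isBdd 2 hba1b
    · conv_lhs => rw [hsa]
      rw [map_mul, map_pow, map_add, map_one, map_mul, AlgHom.commutes]
  · refine ⟨s44td_phi L1 (M * p) (ssm_al_W L1 M p hp hpM gb1),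
      s44td_phi L1 (M * p) (ssm_al_W L1 M p hp hpM bb1), ?_, ?_, ?_⟩
    · rw [Ne, map_eq_zero, map_eq_zero]
      exact hgb10
    · have e := ssm_al_coe_WE_phi L1 M p hp hp2 hpM (ssm_al_W L1 M p hp hpM bb1)
        (s44td_phi L1 (M * p) (ssm_al_W L1 M p hp hpM bb1)).2
      rw [ssm_al_W_W] at e
      have e' : ((ssm_al_WE L1 M p hp hp2 hpM
          (s44td_phi L1 (M * p) (ssm_al_W L1 M p hp hpM bb1)) :
          lg_E L1 (M * p)) : LaurentSeries L1) = qExpand L1 2 (bb1 : LaurentSeries L1) := e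
      rw [e']
      exact ssm_ga_beta_isBdd 2 hbb1b
    · conv_lhs => rw [hsb]
      rw [map_mul, map_pow, map_add, map_one, map_mul, AlgHom.commutes]

end Step

/-! ### the global split form -/

section Glob

variable (M p : ℕ) [NeZero M] [NeZero p] (hp : p.Prime) (hp2 : ¬ 2 ∣ p) (hpM : ¬ p ∣ M)

set_option synthInstance.maxHeartbeats 400000 in
set_option maxHeartbeats 2000000 in
/-- **the global split form on the cover** from the two split forms of depth `p²` (at `w_∞` and at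
`w_0`): the middle of `s44t_coreNFP_of`. -/
theorem s44mci_inst_glob (A : ValuationSubring Qb) (hA : A.LiesOverPrime p)
    (L1 : IntermediateField ℚ Qb) (hfd : FiniteDimensional ℚ L1)
    {ζ' : Qb} (hζ' : IsPrimitiveRoot ζ' M) (hζmem : ζ' ∈ L1)
    {π : ↥(A.comap (algebraMap ↥L1 Qb))} (hπ : Irreducible π)
    {σ0 : ↥(A.comap (algebraMap ↥L1 Qb)) ≃+* ↥(A.comap (algebraMap ↥L1 Qb))} {e k : ℕ}
    {ζ : ↥(A.comap (algebraMap ↥L1 Qb))} (D : s44t_PData π σ0 p e k ζ)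
    {g : lg_E ↥L1 (M * p)}
    (hs1 : ∃ G b : lg_E ↥L1 (M * p), G ≠ 0 ∧
      gq_IsBdd ↥(A.comap (algebraMap ↥L1 Qb)) ↥L1 (b : LaurentSeries ↥L1) ∧
      g = G ^ p * (1 + algebraMap ↥L1 (lg_E ↥L1 (M * p)) ((p : ↥L1) ^ 2) * b))
    (hs2 : ∃ G b : lg_E ↥L1 (M * p), G ≠ 0 ∧
      gq_IsBdd ↥(A.comap (algebraMap ↥L1 Qb)) ↥L1
        ((ssm_al_WE ↥L1 M p hp hp2 hpM b : lg_E ↥L1 (M * p)) : LaurentSeries ↥L1) ∧
      g = G ^ p * (1 + algebraMap ↥L1 (lg_E ↥L1 (M * p)) ((p : ↥L1) ^ 2) * b)) :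
    s44t_GlobForm π (lg_lamE (L := ↥L1) (M * p)) p (p * e + 1) g := by
  haveI : Fact p.Prime := ⟨hp⟩
  have hζM : IsPrimitiveRoot (⟨ζ', hζmem⟩ : ↥L1) M :=
    (IsPrimitiveRoot.map_iff_of_injective (f := algebraMap ↥L1 Qb)
      (FaithfulSMul.algebraMap_injective ↥L1 Qb)).1 hζ'
  haveI : NumberField ↥L1 := { to_charZero := inferInstance, to_finiteDimensional := hfd }
  haveI hdvr : IsDiscreteValuationRing ↥(A.comap (algebraMap ↥L1 Qb)) :=
    dsc_isDVR_comap_numberField A p hA hp.ne_zero ↥L1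
  have hmem := lg_natCast_mem_maximalIdeal A hA ↥L1
  haveI : CharP (IsLocalRing.ResidueField ↥(A.comap (algebraMap ↥L1 Qb))) p :=
    ss_nfl_charP_residue hmem
  have hx : Transcendental ↥L1 (lg_lamE (L := ↥L1) (M * p)) :=
    lgf_lam_transcendental ↥L1 (M * p) two_ne_zero
  haveI := lgf_finite ↥L1 (M * p)
  -- the two-primes hypotheses and the dictionary
  have hpr := ssm_ll_prime ↥L1 M hπ p hmem (ssm_fl_ne_two p hp2) hpM ⟨ζ', hζmem⟩ hζM
  have H := ssm_gl_hyp (A.comap (algebraMap ↥L1 Qb)) hπ M p hp2 hpM hpr.1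
  haveI := ssm_go_isScalarTower (A.comap (algebraMap ↥L1 Qb)) (lg_E ↥L1 (M * p))
  have hdict := ssm_tp_ff_model (L := ↥L1) hπ hx H
  -- `p² = π ^ (p e + 1) · c₁`
  obtain ⟨v, hv⟩ := D.p_eq
  have he0 := D.e_pos
  have hp3 := D.three_le
  set c₁ : ↥(A.comap (algebraMap ↥L1 Qb)) := π ^ ((p - 2) * e - 1) * (v : _) ^ 2 with hc₁
  have hpsq : ((p : ℕ) : ↥(A.comap (algebraMap ↥L1 Qb))) ^ 2 = π ^ (p * e + 1) * c₁ := by
    rw [hv, hc₁, mul_pow, ← pow_mul, ← mul_assoc, ← pow_add]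
    congr 2
    obtain ⟨t, rfl⟩ : ∃ t, p = t + 3 := ⟨p - 3, by omega⟩
    obtain ⟨s, rfl⟩ : ∃ s, e = s + 1 := ⟨e - 1, by omega⟩
    have e1 : t + 3 - 1 = t + 2 := by omega
    have e2 : t + 3 - 2 = t + 1 := by omega
    have e3 : (t + 1) * (s + 1) - 1 = t * s + t + s := by
      have : (t + 1) * (s + 1) = t * s + t + s + 1 := by ring
      omega
    rw [e1, e2, e3]
    ring
  have hpsqE : algebraMap ↥L1 ↥(lg_E ↥L1 (M * p)) ((p : ↥L1) ^ 2) =
      algebraMap ↥(A.comap (algebraMap ↥L1 Qb)) ↥(lg_E ↥L1 (M * p)) π ^ (p * e + 1) *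
        algebraMap ↥(A.comap (algebraMap ↥L1 Qb)) ↥(lg_E ↥L1 (M * p)) c₁ := by
    rw [← map_pow, ← map_mul, ← hpsq,
      IsScalarTower.algebraMap_apply ↥(A.comap (algebraMap ↥L1 Qb)) ↥L1 ↥(lg_E ↥L1 (M * p))]
    congr 1
  -- constants of `O` lie in both Gauss rings
  have hc1 : ∀ c : ↥(A.comap (algebraMap ↥L1 Qb)),
      algebraMap ↥(A.comap (algebraMap ↥L1 Qb)) ↥(lg_E ↥L1 (M * p)) c ∈
        ssm_gl_V1 (A.comap (algebraMap ↥L1 Qb)) hπ M p := fun c =>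
    H.over1.le (algebraMap ↥(A.comap (algebraMap ↥L1 Qb))
      (Algebra.adjoin ↥(A.comap (algebraMap ↥L1 Qb))
        ({lg_lamE (M * p)} : Set ↥(lg_E ↥L1 (M * p)))) c)
  have hc2 : ∀ c : ↥(A.comap (algebraMap ↥L1 Qb)),
      algebraMap ↥(A.comap (algebraMap ↥L1 Qb)) ↥(lg_E ↥L1 (M * p)) c ∈
        ssm_gl_V2 (A.comap (algebraMap ↥L1 Qb)) hπ M p hp2 hpM := fun c =>
    H.over2.le (algebraMap ↥(A.comap (algebraMap ↥L1 Qb))
      (Algebra.adjoin ↥(A.comap (algebraMap ↥L1 Qb))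
        ({lg_lamE (M * p)} : Set ↥(lg_E ↥L1 (M * p)))) c)
  -- the two split forms, in `π`-units
  have h1 : ∃ G b : ↥(lg_E ↥L1 (M * p)), G ≠ 0 ∧
      b ∈ ssm_gl_V1 (A.comap (algebraMap ↥L1 Qb)) hπ M p ∧
      g = G ^ p * (1 + algebraMap (Algebra.adjoin ↥(A.comap (algebraMap ↥L1 Qb))
          ({lg_lamE (M * p)} : Set ↥(lg_E ↥L1 (M * p)))) ↥(lg_E ↥L1 (M * p))
          (algebraMap ↥(A.comap (algebraMap ↥L1 Qb)) _ π) ^ (p * e + 1) * b) := by
    obtain ⟨G, b, hG, hb, hgeq⟩ := hs1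
    refine ⟨G, algebraMap ↥(A.comap (algebraMap ↥L1 Qb)) ↥(lg_E ↥L1 (M * p)) c₁ * b, hG,
      ValuationSubring.mul_mem _ _ _ (hc1 c₁) hb, ?_⟩
    rw [hgeq, hpsqE]
    have : algebraMap (Algebra.adjoin ↥(A.comap (algebraMap ↥L1 Qb))
          ({lg_lamE (M * p)} : Set ↥(lg_E ↥L1 (M * p)))) ↥(lg_E ↥L1 (M * p))
          (algebraMap ↥(A.comap (algebraMap ↥L1 Qb)) _ π) =
        algebraMap ↥(A.comap (algebraMap ↥L1 Qb)) ↥(lg_E ↥L1 (M * p)) π := rfl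
    rw [this]
    ring
  have h2 : ∃ G b : ↥(lg_E ↥L1 (M * p)), G ≠ 0 ∧
      b ∈ ssm_gl_V2 (A.comap (algebraMap ↥L1 Qb)) hπ M p hp2 hpM ∧
      g = G ^ p * (1 + algebraMap (Algebra.adjoin ↥(A.comap (algebraMap ↥L1 Qb))
          ({lg_lamE (M * p)} : Set ↥(lg_E ↥L1 (M * p)))) ↥(lg_E ↥L1 (M * p))
          (algebraMap ↥(A.comap (algebraMap ↥L1 Qb)) _ π) ^ (p * e + 1) * b) := by
    obtain ⟨G, b, hG, hb, hgeq⟩ := hs2
    refine ⟨G, algebraMap ↥(A.comap (algebraMap ↥L1 Qb)) ↥(lg_E ↥L1 (M * p)) c₁ * b, hG,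
      ValuationSubring.mul_mem _ _ _ (hc2 c₁) hb, ?_⟩
    rw [hgeq, hpsqE]
    have : algebraMap (Algebra.adjoin ↥(A.comap (algebraMap ↥L1 Qb))
          ({lg_lamE (M * p)} : Set ↥(lg_E ↥L1 (M * p)))) ↥(lg_E ↥L1 (M * p))
          (algebraMap ↥(A.comap (algebraMap ↥L1 Qb)) _ π) =
        algebraMap ↥(A.comap (algebraMap ↥L1 Qb)) ↥(lg_E ↥L1 (M * p)) π := rfl
    rw [this]
    ring
  haveI : IsIntegrallyClosed (Algebra.adjoin ↥(A.comap (algebraMap ↥L1 Qb))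
      ({lg_lamE (M * p)} : Set ↥(lg_E ↥L1 (M * p)))) :=
    fc_ff_isIntegrallyClosed (fc_ff_transcendental (L := ↥L1) hx)
  haveI : FaithfulSMul (Algebra.adjoin ↥(A.comap (algebraMap ↥L1 Qb))
      ({lg_lamE (M * p)} : Set ↥(lg_E ↥L1 (M * p)))) ↥(lg_E ↥L1 (M * p)) :=
    (faithfulSMul_iff_algebraMap_injective _ _).2 Subtype.val_injective
  obtain ⟨G, b, hG, hb1, hb2, hgeq⟩ := s44t_glob H hp.pos (p * e + 1) h1 h2
  exact ⟨G, b, hG, (hdict.2.2.2.2.2.2.1 b).2 ⟨hb1, hb2⟩, hgeq⟩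

end Glob

/-! ### the instance over every large number field -/

section Main

set_option synthInstance.maxHeartbeats 400000 in
set_option maxHeartbeats 2000000 in
/-- **[H2-CI-INST], function level.**  `f ∈ F̄_N ˣ` (`N = M p`) with all orders divisible by `p`, split
to depth `p²` at `w_∞` and at `w_0 = w_∞ ∘ W̄` (over a place `A` of `ℚ̄` above `p`).  There is a finite
`T ⊆ ℚ̄` such that over every number field `L1 ⊇ T`, for EVERY model `f1 ∈ lg_F L1 N` of `f`, the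
function `g = φ(f1)` on the Legendre cover `lg_E L1 N` satisfies `(hf, hord, hrat, hglob)` of
`s44t_loc` / `s44t_AbsCoreLeg` / `s44mci_chart_sheet`, the last one for every uniformiser `π` of
`O = A ∩ L1` and every `s44t_PData π σ0 p e k ζ`. -/
theorem s44mci_inst (M p : ℕ) [NeZero M] [NeZero p] (hp : p.Prime) (hp2 : ¬ 2 ∣ p)
    (hpM : ¬ p ∣ M) (A : ValuationSubring Qb) (hA : A.LiesOverPrime p)
    (f : modularFunctionFieldBar (M * p)) (hf : f ≠ 0)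
    (hord : ∀ v : Place Qb (modularFunctionFieldBar (M * p)), (p : ℤ) ∣ v.ord f)
    (hS1 : ∃ g b : modularFunctionFieldBar (M * p), g ≠ 0 ∧
      gq_IsBdd ↥A Qb (b : LaurentSeries Qb) ∧
      f = g ^ p * (1 + algebraMap Qb (modularFunctionFieldBar (M * p)) ((p : Qb) ^ 2) * b))
    (hS2 : ∃ g b : modularFunctionFieldBar (M * p), g ≠ 0 ∧
      gq_IsBdd ↥A Qb (b : LaurentSeries Qb) ∧
      ssm_al_Wbar M p hp hpM f =
        g ^ p * (1 + algebraMap Qb (modularFunctionFieldBar (M * p)) ((p : Qb) ^ 2) * b)) :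
    ∃ T : Finset Qb, ∀ L1 : IntermediateField ℚ Qb, FiniteDimensional ℚ L1 →
      (↑T : Set Qb) ⊆ L1 →
      ∀ f1 : lg_F ↥L1 (M * p), ssm_al_iotaF ↥L1 (M * p) f1 = f →
        s44td_phi ↥L1 (M * p) f1 ≠ 0 ∧
        (∀ v : Place ↥L1 (lg_E ↥L1 (M * p)), (p : ℤ) ∣ v.ord (s44td_phi ↥L1 (M * p) f1)) ∧
        (∀ v : Place ↥L1 (lg_E ↥L1 (M * p)), v.ord (s44td_phi ↥L1 (M * p) f1) ≠ 0 →
          ss_RatPlace v) ∧
        ∀ (π : ↥(A.comap (algebraMap ↥L1 Qb))) (_hπ : Irreducible π)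
          (σ0 : ↥(A.comap (algebraMap ↥L1 Qb)) ≃+* ↥(A.comap (algebraMap ↥L1 Qb))) (e k : ℕ)
          (ζ : ↥(A.comap (algebraMap ↥L1 Qb))) (_D : s44t_PData π σ0 p e k ζ),
          s44t_GlobForm π (lg_lamE (L := ↥L1) (M * p)) p (p * e + 1)
            (s44td_phi ↥L1 (M * p) f1) := by
  classical
  obtain ⟨ζ', hζ'⟩ := HasEnoughRootsOfUnity.exists_primitiveRoot Qb M
  obtain ⟨ga, ba, hga, hba, hfa⟩ := hS1
  obtain ⟨gb, bb, hgb, hbb, hfb⟩ := hS2
  have _ : Algebra.IsAlgebraic ℚ Qb := AlgebraicClosure.isAlgebraic ℚ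
  -- finiteness of the cover over `Q̄`
  obtain ⟨x0, hx0⟩ : ∃ x0 : laurentBaseChange Qb (lg_E ℚ (M * p)),
      FiniteDimensional Qb⟮x0⟯ (laurentBaseChange Qb (lg_E ℚ (M * p))) := by
    have key : ∀ E : IntermediateField Qb (LaurentSeries Qb), lg_E Qb (M * p) = E →
        ∃ x0 : E, FiniteDimensional Qb⟮x0⟯ E := by
      rintro E rfl
      exact ⟨lg_lamE (M * p), lgf_finite Qb (M * p)⟩
    exact key _ (ssd_lg_E_eq Qb (M * p))
  -- the image of `f` in the cover over `Q̄`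
  have hfF : (f : LaurentSeries Qb) ∈ lg_F Qb (M * p) := by
    rw [lg_F_eq_bar]
    exact f.2
  have hφQ : qExpand Qb 2 (f : LaurentSeries Qb) ∈ laurentBaseChange Qb (lg_E ℚ (M * p)) := by
    rw [← ssd_lg_E_eq Qb (M * p)]
    exact lg_phi_mem_E Qb (M * p) hfF
  obtain ⟨gbar, hgbar⟩ : ∃ gbar : laurentBaseChange Qb (lg_E ℚ (M * p)),
      (gbar : LaurentSeries Qb) = qExpand Qb 2 (f : LaurentSeries Qb) := ⟨⟨_, hφQ⟩, rfl⟩
  obtain ⟨srat, hsrat⟩ := ssd_rational (lg_E ℚ (M * p)) x0 gbar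
  -- fields of definition of the split data
  choose sel hsel using s44mdb_fg (M * p)
  refine ⟨{ζ'} ∪ srat ∪ sel ga ∪ sel ba ∪ sel gb ∪ sel bb, fun L1 hfd hsub f1 hf1 => ?_⟩
  haveI := hfd
  have hmem : ∀ a, a ∈ ({ζ'} ∪ srat ∪ sel ga ∪ sel ba ∪ sel gb ∪ sel bb : Finset Qb) → a ∈ L1 :=
    fun a ha => hsub (Finset.mem_coe.2 ha)
  have hζmem : ζ' ∈ L1 := hmem ζ' (by simp)
  have hsratsub : (↑srat : Set Qb) ⊆ L1 := fun x hx => hmem x (by
    rw [Finset.mem_coe] at hx; simp [hx])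
  obtain ⟨ga1, hga1⟩ := hsel ga L1 (fun a ha => hmem a (by
    rw [Finset.mem_coe] at ha; simp [ha]))
  obtain ⟨ba1, hba1⟩ := hsel ba L1 (fun a ha => hmem a (by
    rw [Finset.mem_coe] at ha; simp [ha]))
  obtain ⟨gb1, hgb1⟩ := hsel gb L1 (fun a ha => hmem a (by
    rw [Finset.mem_coe] at ha; simp [ha]))
  obtain ⟨bb1, hbb1⟩ := hsel bb L1 (fun a ha => hmem a (by
    rw [Finset.mem_coe] at ha; simp [ha]))
  -- boundedness
  have hbdd : ∀ b1 : lg_F ↥L1 (M * p),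
      gq_IsBdd ↥A Qb ((ssm_al_iotaF ↥L1 (M * p) b1 : modularFunctionFieldBar (M * p)) :
        LaurentSeries Qb) →
      gq_IsBdd ↥(A.comap (algebraMap ↥L1 Qb)) ↥L1 (b1 : LaurentSeries ↥L1) := fun b1 hb =>
    (s44b_int2_iotaF_iff (M * p) A L1 hA hp.ne_zero b1).1 hb
  obtain ⟨hg0, hordg, hrat⟩ := s44mci_inst_ord ↥L1 M p f hf hord f1 hf1 gbar hgbar
    (hsrat ↥L1 (fun x hx => ⟨⟨x, hsratsub hx⟩, rfl⟩))
  obtain ⟨hs1, hs2⟩ := s44mci_inst_split ↥L1 M p hp hp2 hpM A hbdd f ga ba gb bb hga hgb hba hbb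
    hfa hfb f1 ga1 ba1 gb1 bb1 hf1 hga1 hba1 hgb1 hbb1
  exact ⟨hg0, hordg, hrat, fun π hπ σ0 e k ζ D =>
    s44mci_inst_glob M p hp hp2 hpM A hA L1 hfd hζ' hζmem hπ D hs1 hs2⟩

set_option synthInstance.maxHeartbeats 400000 in
set_option maxHeartbeats 2000000 in
/-- **[H2-CI-INST], frame level.**  `X ∈ J₀(N)[p]` split (`(s44_frame2 P M hpM).Split X`), `fX` ANY
representing function of `X` (`s44f_Rep`). -/
theorem s44mci_inst_frame (P : FreyPackage) (M : ℕ) [NeZero M] [NeZero (M * P.p)]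
    (hpM : ¬ P.p ∣ M) (hp2 : ¬ 2 ∣ P.p) {X : JZero (M * P.p)}
    (hsplit : (s44_frame2 P M hpM).Split X)
    {fX : modularFunctionFieldBar (M * P.p)} (hfX : s44f_Rep (M * P.p) P.p X fX) :
    ∃ T : Finset Qb, ∀ L1 : IntermediateField ℚ Qb, FiniteDimensional ℚ L1 →
      (↑T : Set Qb) ⊆ L1 →
      ∀ f1 : lg_F ↥L1 (M * P.p), ssm_al_iotaF ↥L1 (M * P.p) f1 = fX →
        s44td_phi ↥L1 (M * P.p) f1 ≠ 0 ∧
        (∀ v : Place ↥L1 (lg_E ↥L1 (M * P.p)),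
          (P.p : ℤ) ∣ v.ord (s44td_phi ↥L1 (M * P.p) f1)) ∧
        (∀ v : Place ↥L1 (lg_E ↥L1 (M * P.p)), v.ord (s44td_phi ↥L1 (M * P.p) f1) ≠ 0 →
          ss_RatPlace v) ∧
        ∀ (π : ↥((s44f_A P.p P.pp).comap (algebraMap ↥L1 Qb))) (_hπ : Irreducible π)
          (σ0 : ↥((s44f_A P.p P.pp).comap (algebraMap ↥L1 Qb)) ≃+*
            ↥((s44f_A P.p P.pp).comap (algebraMap ↥L1 Qb))) (e k : ℕ)
          (ζ : ↥((s44f_A P.p P.pp).comap (algebraMap ↥L1 Qb)))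
          (_D : s44t_PData π σ0 P.p e k ζ),
          s44t_GlobForm π (lg_lamE (L := ↥L1) (M * P.p)) P.p (P.p * e + 1)
            (s44td_phi ↥L1 (M * P.p) f1) := by
  have hp0 : P.p ≠ 0 := P.pp.ne_zero
  have hc : ((P.p : Qb)) ^ 2 ≠ 0 := pow_ne_zero _ (by exact_mod_cast hp0)
  obtain ⟨hd1, hd2⟩ := hsplit _ hc
  have h1 := s44b_depth2_any_rep (M * P.p) (s44f_A P.p P.pp) hp0 (AlgHom.id _ _) hd1 hfX
  have h2 := s44b_depth2_any_rep (M * P.p) (s44f_A P.p P.pp) hp0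
    (ssm_al_Wbar M P.p P.pp hpM) hd2 hfX
  have hord : ∀ v : Place Qb (modularFunctionFieldBar (M * P.p)), (P.p : ℤ) ∣ v.ord fX := by
    obtain ⟨-, D, -, hD⟩ := hfX
    exact fun v => ⟨_, (hD v).symm⟩
  exact s44mci_inst M P.p P.pp hp2 hpM (s44f_A P.p P.pp) (s44f_A_liesOver P.p P.pp) fX hfX.1
    hord h1 h2

end Main

end Fermat.Agent.S44
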