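/-
Project S44 (Mazur–Ribet at `p`), cell [H2] MONO-MAIN, Layer 3 leaf [hordV] (helper23). Prefix `s44gv_`.

`hordV` OF `s44gl_pair`: for `fV ∈ F̄_N` (`N = M p`) a representing function of a `p`-torsion class `V`
(`s44f_Rep N p V fV`) and ANY model `fv1 ∈ lg_F L1 N` of `fV` over a field `L1 ⊆ ℚ̄`, all orders of
`lg_phiE fv1` on the Legendre cover `lg_E L1 N` are divisible by `p`, and `lg_phiE fv1 ≠ 0`.
(The first half of helper16's `s44mci_inst_ord`, without the rationality clause.)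
-/
import Mathlib
import Fermat.Agent.S44.Mono.CIInst

set_option autoImplicit false
set_option linter.unusedSectionVars false
set_option linter.unusedVariables false
set_option linter.style.haveILetI false

noncomputable section

namespace Fermat.Agent.S44

open ModularCurve AlgebraicCurve Module Fermat.Agent.JT3 Fermat.Agent.S24 Fermat.Agent.SS
  Fermat.Agent.SS2 Fermat.Agent.S35 IntermediateField IsLocalRing

local notation "Qb" => AlgebraicClosure ℚ

section OrdV

variable (L1 : Type) [Field L1] [Algebra ℚ L1] [CharZero L1] [Algebra L1 Qb]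
  [IsScalarTower ℚ L1 Qb] (N : ℕ) [NeZero N]

/-- **orders on the cover**, over one field: function level. -/
theorem s44gv_ord {p : ℕ} (f : modularFunctionFieldBar N) (hf : f ≠ 0)
    (hord : ∀ v : Place Qb (modularFunctionFieldBar N), (p : ℤ) ∣ v.ord f)
    (f1 : lg_F L1 N) (hf1 : ssm_al_iotaF L1 N f1 = f) :
    lg_phiE (L := L1) (N := N) f1 ≠ 0 ∧
    ∀ v : Place L1 (lg_E L1 N), (p : ℤ) ∣ v.ord (lg_phiE (L := L1) (N := N) f1) := by
  have _ : Algebra.IsAlgebraic ℚ Qb := AlgebraicClosure.isAlgebraic ℚ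
  have _ : Algebra.IsAlgebraic L1 Qb := Algebra.IsAlgebraic.tower_top (K := ℚ) L1
  have hf10 : f1 ≠ 0 := by
    rintro rfl
    rw [map_zero] at hf1
    exact hf hf1.symm
  obtain ⟨g, hg⟩ : ∃ g : lg_E L1 N, g = s44td_phi L1 N f1 := ⟨_, rfl⟩
  have hg0 : g ≠ 0 := by rwa [hg, Ne, map_eq_zero]
  obtain ⟨f1', hf1'⟩ : ∃ f1' : laurentBaseChange L1 (modularFunctionFieldFull N),
      f1' = s44td_toBC L1 N f1 := ⟨_, rfl⟩
  have hf1'coe : (f1' : LaurentSeries L1) = (f1 : LaurentSeries L1) := by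
    rw [hf1', s44td_toBC_coe]
  have hιcoe : ((ssm_al_iotaF L1 N f1 : modularFunctionFieldBar N) :
      LaurentSeries Qb) = dsc_cm L1 Qb (f1 : LaurentSeries L1) := by
    rw [ssm_al_coe_iotaF, dsc_cm]
  have hbc : dsc_bcHom L1 Qb (modularFunctionFieldFull N) f1' = f := by
    apply Subtype.ext
    rw [dsc_bcHom_coe, hf1'coe, ← hf1, hιcoe]
  have hord1 : ∀ Q : Place L1 (laurentBaseChange L1 (modularFunctionFieldFull N)),
      (p : ℤ) ∣ Q.ord f1' := fun Q =>
    dsc_bc_dvd_ord L1 Qb (modularFunctionFieldFull N) (p : ℤ) f1'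
      (fun P => by rw [hbc]; exact hord P) Q
  have hordg : ∀ v : Place L1 (lg_E L1 N), (p : ℤ) ∣ v.ord g := fun v => by
    have := lg_dvd_ord_of_embedding (ss2_dp_iota L1 N) (p : ℤ) f1' hord1 v
    rwa [hf1', s44td_iota_toBC, ← hg] at this
  have hphi : lg_phiE (L := L1) (N := N) f1 = g := by rw [hg]; rfl
  rw [hphi]
  exact ⟨hg0, hordg⟩

/-- **`hfv`, `hordV` of `s44gl_pair`**: representing-function level. -/
theorem s44gv_ord_rep {p : ℕ} {V : JZero N} {fV : modularFunctionFieldBar N}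
    (hrep : s44f_Rep N p V fV) (fv1 : lg_F L1 N) (hfv1 : ssm_al_iotaF L1 N fv1 = fV) :
    lg_phiE (L := L1) (N := N) fv1 ≠ 0 ∧
    ∀ v : Place L1 (lg_E L1 N), (p : ℤ) ∣ v.ord (lg_phiE (L := L1) (N := N) fv1) := by
  have hord : ∀ v : Place Qb (modularFunctionFieldBar N), (p : ℤ) ∣ v.ord fV := by
    obtain ⟨-, D, -, hD⟩ := hrep
    exact fun v => ⟨_, (hD v).symm⟩
  exact s44gv_ord L1 N fV hrep.1 hord fv1 hfv1

end OrdV

end Fermat.Agent.S44
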