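/-
Project S44 (Mazur–Ribet at `p`), cell [H2] MONO-MAIN, glue for Layer 3 (helper26).
Prefix `s44kq_` (restriction lemmas for helper23's `s44kq_Pack`).  Namespace `Fermat.Agent.S44`.

* `s44kq_pack_comap`   : a Kummer package for the group `G` is a Kummer package for every group `G'`
                         acting on `Ω` through a map `γ : G' → G`;
* `s44kq_pack_subgroup`: … for every subgroup `H ≤ G` (`G` acting on `L`, coefficientwise on `L((q))`);
* `s44kq_pack_le`      : … for `G₁ ≤ G₂` two subgroups of one ambient group acting on `L`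
                         (in use: `G₂ = s44mn_G (s44md_H …) L'`, `G₁ = s44mn_G Γ L'` the image of the
                         inertia group, `s44mn_G_mono (s44md_inertia_le …)`).
-/
import Mathlib
import Fermat.Agent.S44.Mono.KummerQL

set_option autoImplicit false
set_option linter.style.haveILetI false
set_option linter.unusedSectionVars false

noncomputable section

namespace Fermat.Agent.S44

open Polynomial

section Comap

variable {Ω : Type*} [Field Ω] {G : Type*} [Group G] [MulSemiringAction G Ω]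
  {G' : Type*} [Group G'] [MulSemiringAction G' Ω]

/-- **restriction of the group** in a Kummer package. -/
theorem s44kq_pack_comap (γ : G' → G) (hγ : ∀ (σ : G') (z : Ω), σ • z = γ σ • z)
    {E : Subfield Ω} {p : ℕ} {ζ y fv β : Ω} {lc : Ω →*₀ Ω} {Lb : Subfield Ω} {τ : ↥Lb ≃+* ↥Lb}
    {c : Ω} {g Φ h : ↥Lb}
    (P : s44kq_Pack (G := G) E p ζ y fv β lc Lb τ c g Φ h) :
    s44kq_Pack (G := G') E p ζ y fv β lc Lb τ c g Φ h where
  le := P.le
  y_mem := P.y_mem
  gen := P.gen
  stable := fun σ z hz => by rw [hγ]; exact P.stable (γ σ) z hz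
  τ_E := P.τ_E
  τ_y := P.τ_y
  τ_smul := fun σ z hz => by
    have hz' : γ σ • (z : Ω) ∈ Lb := by rw [← hγ]; exact hz
    have h1 := P.τ_smul (γ σ) z hz'
    have e : (⟨σ • (z : Ω), hz⟩ : ↥Lb) = ⟨γ σ • (z : Ω), hz'⟩ := Subtype.ext (hγ σ _)
    rw [e, h1, hγ]
  τ_fixed := P.τ_fixed
  τ_pow := P.τ_pow
  g_ne := P.g_ne
  c_ne := P.c_ne
  c_lc := P.c_lc
  Φ_eq := P.Φ_eq
  h_eq := P.h_eq
  Φ_fix := fun σ => by rw [hγ]; exact P.Φ_fix (γ σ)
  h_fix := fun σ => by rw [hγ]; exact P.h_fix (γ σ)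
  rel := P.rel

end Comap

section Subgroup

variable {L : Type*} [Field L] {G : Type*} [Group G] [MulSemiringAction G L]

attribute [local instance] s44kq_lsAction

/-- restriction of a Kummer package in `L((q))` to a subgroup. -/
theorem s44kq_pack_subgroup (H : Subgroup G)
    {E : Subfield (LaurentSeries L)} {p : ℕ} {ζ y fv β : LaurentSeries L}
    {lc : LaurentSeries L →*₀ LaurentSeries L} {Lb : Subfield (LaurentSeries L)}
    {τ : ↥Lb ≃+* ↥Lb} {c : LaurentSeries L} {g Φ h : ↥Lb}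
    (P : s44kq_Pack (G := G) E p ζ y fv β lc Lb τ c g Φ h) :
    s44kq_Pack (G := ↥H) E p ζ y fv β lc Lb τ c g Φ h :=
  s44kq_pack_comap (fun σ : ↥H => (σ : G)) (fun _ _ => rfl) P

/-- restriction of a Kummer package in `L((q))` from a subgroup `G₂` to a smaller subgroup `G₁`. -/
theorem s44kq_pack_le {G₁ G₂ : Subgroup G} (hle : G₁ ≤ G₂)
    {E : Subfield (LaurentSeries L)} {p : ℕ} {ζ y fv β : LaurentSeries L}
    {lc : LaurentSeries L →*₀ LaurentSeries L} {Lb : Subfield (LaurentSeries L)}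
    {τ : ↥Lb ≃+* ↥Lb} {c : LaurentSeries L} {g Φ h : ↥Lb}
    (P : s44kq_Pack (G := ↥G₂) E p ζ y fv β lc Lb τ c g Φ h) :
    s44kq_Pack (G := ↥G₁) E p ζ y fv β lc Lb τ c g Φ h :=
  s44kq_pack_comap (fun σ : ↥G₁ => (Subgroup.inclusion hle σ : ↥G₂)) (fun _ _ => rfl) P

end Subgroup

end Fermat.Agent.S44
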