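/-
S44, cell [H2] MONO-MAIN, sub-cell [H2-R] (helper3; prefix `s44mr_`): THE FINITENESS INSTANCE
`[FiniteDimensional ℚ̄⟮x0⟯ ↥(Eb ⊔ ℚ̄⟮ȳ⟯)]` asked by `s44mr_rational_kummer`.

* `s44mr_isAlgebraic_map` : algebraicity over `k⟮x⟯` is transported by a `k`-algebra homomorphism;
* `s44mr_finite_sup`      : `E = k(S)`, `S` finite, `E` finite over `k⟮x⟯`, `y ^ n ∈ E` (`n ≠ 0`)
  ⟹ `E ⊔ k⟮y⟯` is finite over `k⟮x⟯` (`x` viewed in the compositum);
* `s44mr_finite_kummer`   : the Legendre instance `E = lg_E L N`, `x = λ`.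
-/
import Mathlib
import Fermat.Agent.JT3.Inst.FunFieldFacts

set_option autoImplicit false
set_option linter.unusedSectionVars false
set_option linter.style.haveILetI false

noncomputable section

namespace Fermat.Agent.S44

open ModularCurve Fermat.Agent.JT3 IntermediateField Polynomial

section Abstract

variable {k E F : Type*} [Field k] [Field E] [Field F] [Algebra k E] [Algebra k F]

/-- algebraicity over `k⟮x⟯` is transported by a `k`-algebra homomorphism. -/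
theorem s44mr_isAlgebraic_map (ι : E →ₐ[k] F) {x y : E} (h : IsAlgebraic k⟮x⟯ y) :
    IsAlgebraic k⟮ι x⟯ (ι y) := by
  have hmem : ∀ a : k⟮x⟯, ι (a : E) ∈ k⟮ι x⟯ := by
    intro a
    have h1 : ι (a : E) ∈ (k⟮x⟯).map ι := ⟨a, a.2, rfl⟩
    rwa [IntermediateField.adjoin_map, Set.image_singleton] at h1
  let φ : k⟮x⟯ →+* k⟮ι x⟯ :=
    { toFun := fun a => ⟨ι (a : E), hmem a⟩
      map_one' := Subtype.ext (by simp)
      map_mul' := fun a b => Subtype.ext (by simp)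
      map_zero' := Subtype.ext (by simp)
      map_add' := fun a b => Subtype.ext (by simp) }
  have hcomp : (algebraMap k⟮ι x⟯ F).comp φ = (ι : E →+* F).comp (algebraMap k⟮x⟯ E) :=
    RingHom.ext fun a => rfl
  exact (IsIntegral.map_of_comp_eq φ (ι : E →+* F) hcomp h.isIntegral).isAlgebraic

end Abstract

section Sup

variable {k Ω : Type*} [Field k] [Field Ω] [Algebra k Ω]

/-- `E = k(S)` finite over `k⟮x⟯`, `y ^ n ∈ E` ⟹ `E ⊔ k⟮y⟯` finite over `k⟮x⟯`. -/
theorem s44mr_finite_sup (E : IntermediateField k Ω) (S : Set Ω) (hS : S.Finite)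
    (hE : E = IntermediateField.adjoin k S) (x : E) [FiniteDimensional k⟮x⟯ E]
    (y : Ω) {n : ℕ} (hn : n ≠ 0) (hy : y ^ n ∈ E) :
    FiniteDimensional
      k⟮(⟨(x : Ω), (le_sup_left : E ≤ E ⊔ k⟮y⟯) x.2⟩ : ↥(E ⊔ k⟮y⟯))⟯ ↥(E ⊔ k⟮y⟯) := by
  set F : IntermediateField k Ω := E ⊔ k⟮y⟯ with hF
  have hle : E ≤ F := le_sup_left
  let ι : E →ₐ[k] F := IntermediateField.inclusion hle
  have hιx : ι x = ⟨(x : Ω), hle x.2⟩ := rfl
  have halg : ∀ e : E, IsAlgebraic k⟮x⟯ e := fun e =>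
    Algebra.IsAlgebraic.isAlgebraic (R := k⟮x⟯) e
  refine lgf_finite_of_gens F (S ∪ {y}) (hS.union (Set.finite_singleton y)) ?_
    ⟨(x : Ω), hle x.2⟩ ?_
  · rw [hF, hE, IntermediateField.adjoin_union]
  · rintro w (hw | hw)
    · have hwE : (w : Ω) ∈ E := by
        rw [hE]; exact IntermediateField.subset_adjoin k S hw
      have h1 := s44mr_isAlgebraic_map ι (halg ⟨(w : Ω), hwE⟩)
      rw [hιx] at h1
      have h2 : ι ⟨(w : Ω), hwE⟩ = w := Subtype.ext rfl
      rwa [h2] at h1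
    · rw [Set.mem_singleton_iff] at hw
      have h1 := s44mr_isAlgebraic_map ι (halg ⟨y ^ n, hy⟩)
      rw [hιx] at h1
      have h2 : ι ⟨y ^ n, hy⟩ = w ^ n := Subtype.ext (by
        show y ^ n = ((w ^ n : F) : Ω)
        rw [SubmonoidClass.coe_pow, hw])
      rw [h2] at h1
      exact h1.of_pow (Nat.pos_of_ne_zero hn)

end Sup

section Legendre

variable (L : Type*) [Field L] [CharZero L] (N : ℕ) [NeZero N]

/-- **the finiteness instance for the Kummer field over the Legendre field**: `lg_E L N ⊔ L⟮y⟯` is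
finite over `L⟮λ⟯` when `y ^ n ∈ lg_E L N`. -/
theorem s44mr_finite_kummer (y : LaurentSeries L) {n : ℕ} (hn : n ≠ 0)
    (hy : y ^ n ∈ lg_E L N) :
    FiniteDimensional
      L⟮(⟨((lg_lamE N : lg_E L N) : LaurentSeries L),
        (le_sup_left : lg_E L N ≤ lg_E L N ⊔ L⟮y⟯) (lg_lamE N : lg_E L N).2⟩ :
          ↥(lg_E L N ⊔ L⟮y⟯))⟯ ↥(lg_E L N ⊔ L⟮y⟯) := by
  haveI := lgf_finite L N
  exact s44mr_finite_sup (lg_E L N) (lgf_gens L N) (lgf_gens_finite L N) (lgf_E_eq_adjoin L N)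
    (lg_lamE N) y hn hy

end Legendre

end Fermat.Agent.S44

end
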