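/-
S44, cell [H2] MONO-MAIN, sub-cell [H2-R] (helper3; prefix `s44mr_`): `s44mr_rational_laurent` FOR AN
ARBITRARY PRESENTATION OF THE MODEL.

In `RationalLaurent.lean` the model `F'` of `Fb ≤ ℚ̄((q))` over `L'` is an
`IntermediateField L' (LaurentSeries L')`.  In the [H2-S] assembly the Kummer field comes as a
`Subfield (LaurentSeries L')` (helper23's `s44kq_Lb E y hyE`) with an ad hoc `L'`-algebra structure.
Here `F'` is ANY field with `[Algebra L' F']` and a ring homomorphism `j : F' →+* LaurentSeries L'`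
compatible with the constants:

* **`s44mr_rational_gen`** : the general form;
* **`s44mr_rational_subfield`** : `F' = ↥Lb` for `Lb : Subfield (LaurentSeries L')`, `j = Lb.subtype`.
-/
import Mathlib
import Fermat.Agent.S44.Mono.RationalLaurent

set_option autoImplicit false
set_option linter.unusedSectionVars false
set_option linter.style.haveILetI false

noncomputable section

namespace Fermat.Agent.S44

open AlgebraicCurve ModularCurve Fermat.Agent.JT3 Fermat.Agent.S24 Fermat.Agent.S28
  Fermat.Agent.SS IntermediateField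

universe u

local notation "Qb" => AlgebraicClosure ℚ
local notation "GQ" => (AlgebraicClosure ℚ ≃ₐ[ℚ] AlgebraicClosure ℚ)

variable {Fb : IntermediateField Qb (LaurentSeries Qb)} {s₀ : Finset Qb}

section Side

variable (L' : Type u) [Field L'] [Algebra L' Qb] {F' : Type u} [Field F'] [Algebra L' F']
  (j : F' →+* LaurentSeries L')
  (hle : ∀ x : F', coeffMap (algebraMap L' Qb) (j x) ∈ Fb)

/-- the coefficientwise embedding of a model `j : F' → L'((q))` into `Fb` -/
def s44mr_genHom : F' →+* Fb where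
  toFun x := ⟨coeffMap (algebraMap L' Qb) (j x), hle x⟩
  map_one' := Subtype.ext (by simp)
  map_mul' _ _ := Subtype.ext (by simp)
  map_zero' := Subtype.ext (by simp)
  map_add' _ _ := Subtype.ext (by simp)

@[simp]
theorem s44mr_coe_genHom (x : F') :
    (s44mr_genHom L' j hle x : LaurentSeries Qb) = coeffMap (algebraMap L' Qb) (j x) := rfl

theorem s44mr_genHom_algebraMap
    (hj : ∀ c : L', j (algebraMap L' F' c) = algebraMap L' (LaurentSeries L') c) (c : L') :
    s44mr_genHom L' j hle (algebraMap L' F' c) = algebraMap Qb Fb (algebraMap L' Qb c) := by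
  apply Subtype.ext
  show coeffMap (algebraMap L' Qb) (j (algebraMap L' F' c)) =
    algebraMap Qb (LaurentSeries Qb) (algebraMap L' Qb c)
  rw [hj, bd_coeffMap_algebraMap]

theorem s44mr_gen_mem_closure
    (hgen : ∀ y ∈ Fb, y ∈ IntermediateField.adjoin Qb
      (Set.range fun x : F' => coeffMap (algebraMap L' Qb) (j x))) (y : Fb) :
    y ∈ Subfield.closure
      (Set.range (s44mr_genHom L' j hle) ∪ Set.range (algebraMap Qb Fb)) := by
  set S := Subfield.closure
      (Set.range (s44mr_genHom L' j hle) ∪ Set.range (algebraMap Qb Fb)) with hS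
  have hle2 : Subfield.closure
      (Set.range (algebraMap Qb (LaurentSeries Qb)) ∪
        (Set.range fun x : F' => coeffMap (algebraMap L' Qb) (j x))) ≤
      S.map Fb.val.toRingHom := by
    rw [Subfield.closure_le]
    rintro z (⟨a, rfl⟩ | ⟨w, rfl⟩)
    · exact ⟨algebraMap Qb Fb a, Subfield.subset_closure (Or.inr ⟨a, rfl⟩), rfl⟩
    · exact ⟨s44mr_genHom L' j hle w, Subfield.subset_closure (Or.inl ⟨_, rfl⟩), rfl⟩
  have hy := hgen y y.2
  rw [← IntermediateField.mem_toSubfield, IntermediateField.adjoin_toSubfield] at hy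
  obtain ⟨y', hy', hyy⟩ := hle2 hy
  have : y' = y := Subtype.ext hyy
  rwa [← this]

end Side

/-- **fields of rationality, general presentation of the model**: `Fb ≤ ℚ̄((q))` defined over
`ℚ(s₀)`, `z ∈ Fb`; there is a finite `s ⊆ ℚ̄` such that for every field `L' ⊆ ℚ̄` containing
`s₀ ∪ s`, every field `F'` over `L'` with an embedding `j : F' → L'((q))` (compatible with the
constants) whose coefficientwise image lies in `Fb` and generates `Fb` over `ℚ̄`, and every
`z' : F'` with image `z`: the zeros and poles of `z'` are `L'`-rational places of `F' / L'`. -/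
theorem s44mr_rational_gen (h : s44mr_DefOver Fb s₀) (x0 : Fb)
    [FiniteDimensional Qb⟮x0⟯ Fb] (z : Fb) :
    ∃ s : Finset Qb, ∀ (L' : Type u) [Field L'] [Algebra ℚ L'] [Algebra L' Qb]
      [IsScalarTower ℚ L' Qb] (F' : Type u) [Field F'] [Algebra L' F']
      (j : F' →+* LaurentSeries L'),
      (∀ c : L', j (algebraMap L' F' c) = algebraMap L' (LaurentSeries L') c) →
      (↑s₀ : Set Qb) ⊆ Set.range (algebraMap L' Qb) →
      (↑s : Set Qb) ⊆ Set.range (algebraMap L' Qb) →
      (∀ x : F', coeffMap (algebraMap L' Qb) (j x) ∈ Fb) →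
      (∀ y ∈ Fb, y ∈ IntermediateField.adjoin Qb
        (Set.range fun x : F' => coeffMap (algebraMap L' Qb) (j x))) →
      ∀ z' : F', coeffMap (algebraMap L' Qb) (j z') = (z : LaurentSeries Qb) →
        ∀ v : Place L' F', v.ord z' ≠ 0 → ss_RatPlace v := by
  obtain ⟨s, hs⟩ := s44mr_rational_hom.{u, u} (s44mr_rho h) (s44mr_fin h) x0 z
  refine ⟨s, ?_⟩
  intro L' _ _ _ _ F' _ _ j hj hs₀ hsL hle hgen z' hz' v hv
  have _ : IsAlgClosure ℚ Qb := ⟨inferInstance, AlgebraicClosure.isAlgebraic ℚ⟩
  have _ : IsGalois ℚ Qb := inferInstance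
  have _ : Algebra.IsAlgebraic ℚ Qb := AlgebraicClosure.isAlgebraic ℚ
  have _ : Algebra.IsAlgebraic L' Qb := Algebra.IsAlgebraic.tower_top (K := ℚ) L'
  have _ : CharZero L' := algebraRat.charZero L'
  have hint : (algebraMap L' Qb).IsIntegral := fun c =>
    (Algebra.IsAlgebraic.isAlgebraic (R := L') c).isIntegral
  have hstab : ∀ τ : GQ, (∀ c : L', τ (algebraMap L' Qb c) = algebraMap L' Qb c) →
      τ ∈ s44mr_stab s₀ := by
    intro τ hτ c hc
    obtain ⟨c1, rfl⟩ := hs₀ (Finset.mem_coe.2 hc)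
    exact hτ c1
  refine hs L' F' (algebraMap L' Qb) (s44mr_genHom L' j hle) hint
    (s44mr_genHom_algebraMap L' j hle hj) hsL (s44mr_gen_mem_closure L' j hle hgen) ?_ ?_ z'
    (Subtype.ext hz') v hv
  · intro g hg x
    apply Subtype.ext
    rw [s44mr_coe_rho_smul, s44mr_coe_genHom, coeffMap_coeffMap]
    exact coeffMap_congr (RingHom.ext fun c => hg c) _
  · intro c hc
    set M : IntermediateField ℚ Qb := (IsScalarTower.toAlgHom ℚ L' Qb).fieldRange with hM
    have hcM : c ∈ M := by
      rw [← InfiniteGalois.fixedField_fixingSubgroup M, IntermediateField.mem_fixedField_iff]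
      intro τ hτ
      rw [IntermediateField.mem_fixingSubgroup_iff] at hτ
      have hτ' : ∀ x : L', τ (algebraMap L' Qb x) = algebraMap L' Qb x := fun x =>
        hτ _ ⟨x, rfl⟩
      exact hc ⟨τ, hstab τ hτ'⟩ hτ'
    obtain ⟨c1, hc1⟩ := hcM
    exact ⟨c1, hc1⟩

/-- **the `Subfield` presentation** (helper23's Kummer field `s44kq_Lb E y hyE`): `Lb` a subfield of
`L'((q))` with an `L'`-algebra structure whose `algebraMap` is the inclusion of the constants. -/
theorem s44mr_rational_subfield (h : s44mr_DefOver Fb s₀) (x0 : Fb)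
    [FiniteDimensional Qb⟮x0⟯ Fb] (z : Fb) :
    ∃ s : Finset Qb, ∀ (L' : Type u) [Field L'] [Algebra ℚ L'] [Algebra L' Qb]
      [IsScalarTower ℚ L' Qb] (Lb : Subfield (LaurentSeries L')) [Algebra L' Lb],
      (∀ c : L', ((algebraMap L' Lb c : Lb) : LaurentSeries L') =
        algebraMap L' (LaurentSeries L') c) →
      (↑s₀ : Set Qb) ⊆ Set.range (algebraMap L' Qb) →
      (↑s : Set Qb) ⊆ Set.range (algebraMap L' Qb) →
      (∀ x ∈ Lb, coeffMap (algebraMap L' Qb) x ∈ Fb) →
      (∀ y ∈ Fb, y ∈ IntermediateField.adjoin Qb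
        (coeffMap (algebraMap L' Qb) '' (Lb : Set (LaurentSeries L')))) →
      ∀ z' : Lb, coeffMap (algebraMap L' Qb) (z' : LaurentSeries L') = (z : LaurentSeries Qb) →
        ∀ v : Place L' Lb, v.ord z' ≠ 0 → ss_RatPlace v := by
  obtain ⟨s, hs⟩ := s44mr_rational_gen.{u} h x0 z
  refine ⟨s, ?_⟩
  intro L' _ _ _ _ Lb _ halg hs₀ hsL hle hgen z' hz' v hv
  refine hs L' Lb Lb.subtype halg hs₀ hsL (fun x => hle _ x.2) ?_ z' hz' v hv
  intro y hy
  have := hgen y hy
  refine IntermediateField.adjoin.mono Qb _ _ ?_ this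
  rintro _ ⟨w, hw, rfl⟩
  exact ⟨⟨w, hw⟩, rfl⟩

end Fermat.Agent.S44

end
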