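/-
S44, cell [H2] MONO-MAIN, sub-cell [H2-R] (helper3; prefix `s44mr_`): THE INSTANCE FOR THE KUMMER
FIELD `Lb = E'(y) ⊆ L'((q))` IN helper23's PRESENTATION (`Lb : Subfield (LaurentSeries L')` with the
clauses `le`, `y_mem`, `gen` of `s44kq_Pack`).

* `s44mr_kummer_carrier`  : `Lb` and the intermediate field `E' ⊔ L'⟮y⟯` have the same elements;
* `s44mr_kummer_isModel`  : if `E'` is a model of `Eb ≤ ℚ̄((q))` then `Lb` is a model of
  `Eb ⊔ ℚ̄⟮ȳ⟯`, `ȳ` the coefficientwise image of `y`;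
* `s44mr_defOver_kummer`  : `Eb ⊔ ℚ̄⟮ȳ⟯` is defined over `ℚ(s₀)` if `Eb` is and `ȳ` is fixed by the
  stabiliser of `s₀` (e.g. `ȳ` has coefficients in a number field generated by `s₀`);
* **`s44mr_rational_kummer`** : for `z ∈ Eb ⊔ ℚ̄⟮ȳ⟯` there is a finite `s ⊆ ℚ̄` such that for EVERY
  `L' ⊇ s₀ ∪ s`, every model `E'` of `Eb` over `L'`, every `y ∈ L'((q))` over `ȳ` and every
  `Lb = E'(y)` as above (with any `L'`-algebra structure whose `algebraMap` is the inclusion of the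
  constants): the zeros and poles of every `z' ∈ Lb` over `z` are `L'`-rational places of `Lb / L'`
  (= the hypothesis `hrat` of `ssl_hrat_of_places`, hence `hratΦ`, `hrath` of `s44pa_main`).
-/
import Mathlib
import Fermat.Agent.S44.Mono.RationalGen
import Fermat.Agent.S44.Mono.RationalInst

set_option autoImplicit false
set_option linter.unusedSectionVars false
set_option linter.style.haveILetI false

noncomputable section

namespace Fermat.Agent.S44

open AlgebraicCurve ModularCurve Fermat.Agent.JT3 Fermat.Agent.S24 Fermat.Agent.S28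
  Fermat.Agent.SS IntermediateField Polynomial

universe u

local notation "Qb" => AlgebraicClosure ℚ
local notation "GQ" => (AlgebraicClosure ℚ ≃ₐ[ℚ] AlgebraicClosure ℚ)

section Carrier

variable {L' : Type u} [Field L'] (E' : IntermediateField L' (LaurentSeries L'))
  (y : LaurentSeries L') (Lb : Subfield (LaurentSeries L'))

/-- `Lb = E'(y)` has the same elements as the intermediate field `E' ⊔ L'⟮y⟯`. -/
theorem s44mr_kummer_carrier (hle : E'.toSubfield ≤ Lb) (hyL : y ∈ Lb)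
    (hgen : ∀ z ∈ Lb, ∃ R : (↥E'.toSubfield)[X], z = eval₂ E'.toSubfield.subtype y R)
    (x : LaurentSeries L') : x ∈ Lb ↔ x ∈ E' ⊔ L'⟮y⟯ := by
  constructor
  · intro hx
    obtain ⟨R, rfl⟩ := hgen x hx
    rw [eval₂_eq_sum_range]
    refine sum_mem fun i _ => mul_mem ?_ (pow_mem ?_ i)
    · exact (le_sup_left : E' ≤ E' ⊔ L'⟮y⟯) (R.coeff i).2
    · exact (le_sup_right : L'⟮y⟯ ≤ E' ⊔ L'⟮y⟯) (IntermediateField.mem_adjoin_simple_self L' y)
  · intro hx
    have hsup : E' ⊔ L'⟮y⟯ =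
        IntermediateField.adjoin L' ((E' : Set (LaurentSeries L')) ∪ {y}) := by
      rw [IntermediateField.adjoin_union, IntermediateField.adjoin_self]
    rw [hsup] at hx
    induction hx using IntermediateField.adjoin_induction with
    | mem w hw =>
      rcases hw with hw | hw
      · exact hle hw
      · rw [Set.mem_singleton_iff] at hw
        rw [hw]; exact hyL
    | algebraMap r => exact hle (E'.algebraMap_mem r)
    | add a b _ _ ha hb => exact add_mem ha hb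
    | inv a _ ha => exact inv_mem ha
    | mul a b _ _ ha hb => exact mul_mem ha hb

end Carrier

section Model

variable (L' : Type u) [Field L'] [Algebra L' Qb]

/-- if `E'` is a model of `Eb` then `Lb = E'(y)` is a model of `Eb ⊔ ℚ̄⟮ȳ⟯`. -/
theorem s44mr_kummer_isModel {E' : IntermediateField L' (LaurentSeries L')}
    {Eb : IntermediateField Qb (LaurentSeries Qb)} (hE' : s44mr_IsModel L' E' Eb)
    (y : LaurentSeries L') (Lb : Subfield (LaurentSeries L'))
    (hle : E'.toSubfield ≤ Lb) (hyL : y ∈ Lb)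
    (hgen : ∀ z ∈ Lb, ∃ R : (↥E'.toSubfield)[X], z = eval₂ E'.toSubfield.subtype y R) :
    (∀ x ∈ Lb, coeffMap (algebraMap L' Qb) x ∈ Eb ⊔ Qb⟮coeffMap (algebraMap L' Qb) y⟯) ∧
      ∀ w ∈ Eb ⊔ Qb⟮coeffMap (algebraMap L' Qb) y⟯, w ∈ IntermediateField.adjoin Qb
        (coeffMap (algebraMap L' Qb) '' (Lb : Set (LaurentSeries L'))) := by
  obtain ⟨h1, h2⟩ := s44mr_isModel_sup_simple L' hE' y
  have hc := s44mr_kummer_carrier E' y Lb hle hyL hgen
  refine ⟨fun x hx => h1 x ((hc x).1 hx), fun w hw => ?_⟩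
  refine IntermediateField.adjoin.mono Qb _ _ ?_ (h2 w hw)
  rintro _ ⟨x, hx, rfl⟩
  exact ⟨x, (hc x).2 hx, rfl⟩

end Model

/-- `Eb ⊔ ℚ̄⟮ȳ⟯` is defined over `ℚ(s₀)` if `Eb` is and `ȳ` is fixed by the stabiliser of `s₀`. -/
theorem s44mr_defOver_kummer {Eb : IntermediateField Qb (LaurentSeries Qb)} {s₀ : Finset Qb}
    (hEb : s44mr_DefOver Eb s₀) (yb : LaurentSeries Qb)
    (hyb : ∀ τ ∈ s44mr_stab s₀, coeffMap ((τ : GQ) : Qb →+* Qb) yb = yb) :
    s44mr_DefOver (Eb ⊔ Qb⟮yb⟯) s₀ :=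
  s44mr_defOver_simple hEb yb hyb

/-- a series with coefficients in the image of a field `L₁ → ℚ̄` whose image is generated by `s₀`
(in the weak sense: every `τ` fixing `s₀` fixes the image) is fixed by the stabiliser of `s₀`. -/
theorem s44mr_coeffMap_fixed {L₁ : Type*} [Field L₁] [Algebra L₁ Qb] {s₀ : Finset Qb}
    (hs₀ : ∀ τ ∈ s44mr_stab s₀, ∀ c : L₁, τ (algebraMap L₁ Qb c) = algebraMap L₁ Qb c)
    (y₁ : LaurentSeries L₁) (τ : GQ) (hτ : τ ∈ s44mr_stab s₀) :
    coeffMap ((τ : GQ) : Qb →+* Qb) (coeffMap (algebraMap L₁ Qb) y₁) =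
      coeffMap (algebraMap L₁ Qb) y₁ := by
  rw [coeffMap_coeffMap]
  exact coeffMap_congr (RingHom.ext fun c => hs₀ τ hτ c) _

/-- **[H2-R] for the Kummer field in helper23's presentation.** -/
theorem s44mr_rational_kummer {Eb : IntermediateField Qb (LaurentSeries Qb)} {s₀ : Finset Qb}
    (hEb : s44mr_DefOver Eb s₀) (yb : LaurentSeries Qb)
    (hyb : ∀ τ ∈ s44mr_stab s₀, coeffMap ((τ : GQ) : Qb →+* Qb) yb = yb)
    (x0 : ↥(Eb ⊔ Qb⟮yb⟯)) [FiniteDimensional Qb⟮x0⟯ ↥(Eb ⊔ Qb⟮yb⟯)] (z : ↥(Eb ⊔ Qb⟮yb⟯)) :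
    ∃ s : Finset Qb, ∀ (L' : Type u) [Field L'] [Algebra ℚ L'] [Algebra L' Qb]
      [IsScalarTower ℚ L' Qb] (E' : IntermediateField L' (LaurentSeries L')),
      s44mr_IsModel L' E' Eb →
      ∀ (y : LaurentSeries L'), coeffMap (algebraMap L' Qb) y = yb →
      ∀ (Lb : Subfield (LaurentSeries L')) [Algebra L' Lb],
      (∀ c : L', ((algebraMap L' Lb c : Lb) : LaurentSeries L') =
        algebraMap L' (LaurentSeries L') c) →
      E'.toSubfield ≤ Lb → y ∈ Lb →
      (∀ w ∈ Lb, ∃ R : (↥E'.toSubfield)[X], w = eval₂ E'.toSubfield.subtype y R) →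
      (↑s₀ : Set Qb) ⊆ Set.range (algebraMap L' Qb) →
      (↑s : Set Qb) ⊆ Set.range (algebraMap L' Qb) →
      ∀ z' : Lb, coeffMap (algebraMap L' Qb) (z' : LaurentSeries L') = (z : LaurentSeries Qb) →
        ∀ v : Place L' Lb, v.ord z' ≠ 0 → ss_RatPlace v := by
  obtain ⟨s, hs⟩ := s44mr_rational_subfield.{u} (s44mr_defOver_kummer hEb yb hyb) x0 z
  refine ⟨s, ?_⟩
  intro L' _ _ _ _ E' hE' y hy Lb _ halg hle hyL hgen hs₀ hsL z' hz' v hv
  obtain ⟨h1, h2⟩ := s44mr_kummer_isModel L' hE' y Lb hle hyL hgen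
  rw [hy] at h1 h2
  exact hs L' Lb halg hs₀ hsL h1 h2 z' hz' v hv

end Fermat.Agent.S44

end
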