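/-
S44, cell [H2] MONO-MAIN, sub-cell [H2-R] (helper3; prefix `s44mr_`): ONE-CALL FORM FOR [H2-S].

`Eb = lg_E ℚ̄ N` (Legendre field), `ȳ ∈ ℚ̄((q))` with `ȳ ^ n ∈ Eb` (`n ≠ 0`; in use `ȳ ^ p = φ(f_X)/lc`)
and coefficients in a number field generated by `s₀`, `z̄ ∈ Eb ⊔ ℚ̄⟮ȳ⟯` (in use: `Φ̄`, `τ^j h̄`).  Then
there is a finite `s ⊆ ℚ̄` such that over EVERY `L' ⊇ s₀ ∪ s`: for every `y ∈ L'((q))` over `ȳ`, every
Kummer field `Lb = E'(y)`, `E' = lg_E L' N`, in helper23's presentation (`s44kq_Pack` clauses `le`,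
`y_mem`, `gen`), and every `z' ∈ Lb` over `z̄`:

  `∀ v : Place L' Lb, v.ord z' ≠ 0 → ss_RatPlace v`,

which is the hypothesis `hrat` of `ssl_hrat_of_places` (SS/Local/Places.lean), i.e. it yields
`hratΦ`, `hratΦ'`, `hrath` of `s44pa_main` at every node-sheet ring `R ⊆ Lb`.
-/
import Mathlib
import Fermat.Agent.S44.Mono.RationalKummer
import Fermat.Agent.S44.Mono.RationalFin

set_option autoImplicit false
set_option linter.unusedSectionVars false
set_option linter.style.haveILetI false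

noncomputable section

namespace Fermat.Agent.S44

open AlgebraicCurve ModularCurve Fermat.Agent.JT3 Fermat.Agent.S24 Fermat.Agent.S28
  Fermat.Agent.SS IntermediateField Polynomial

universe u

local notation "Qb" => AlgebraicClosure ℚ
local notation "GQ" => (AlgebraicClosure ℚ ≃ₐ[ℚ] AlgebraicClosure ℚ)

/-- **[H2-R], one-call form over the Legendre field.** -/
theorem s44mr_rational_kummer_lgE (N : ℕ) [NeZero N] {s₀ : Finset Qb} (yb : LaurentSeries Qb)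
    (hyb : ∀ τ ∈ s44mr_stab s₀, coeffMap ((τ : GQ) : Qb →+* Qb) yb = yb)
    {n : ℕ} (hn : n ≠ 0) (hyn : yb ^ n ∈ lg_E Qb N)
    (z : ↥(lg_E Qb N ⊔ Qb⟮yb⟯)) :
    ∃ s : Finset Qb, ∀ (L' : Type u) [Field L'] [Algebra ℚ L'] [Algebra L' Qb]
      [IsScalarTower ℚ L' Qb] (y : LaurentSeries L'), coeffMap (algebraMap L' Qb) y = yb →
      ∀ (Lb : Subfield (LaurentSeries L')) [Algebra L' Lb],
      (∀ c : L', ((algebraMap L' Lb c : Lb) : LaurentSeries L') =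
        algebraMap L' (LaurentSeries L') c) →
      (lg_E L' N).toSubfield ≤ Lb → y ∈ Lb →
      (∀ w ∈ Lb, ∃ R : (↥(lg_E L' N).toSubfield)[X],
        w = eval₂ (lg_E L' N).toSubfield.subtype y R) →
      (↑s₀ : Set Qb) ⊆ Set.range (algebraMap L' Qb) →
      (↑s : Set Qb) ⊆ Set.range (algebraMap L' Qb) →
      ∀ z' : Lb, coeffMap (algebraMap L' Qb) (z' : LaurentSeries L') = (z : LaurentSeries Qb) →
        ∀ v : Place L' Lb, v.ord z' ≠ 0 → ss_RatPlace v := by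
  haveI := s44mr_finite_kummer Qb N yb hn hyn
  have hEb : s44mr_DefOver (lg_E Qb N) s₀ :=
    s44mr_defOver_mono (Finset.empty_subset s₀) (s44mr_defOver_lgE N)
  obtain ⟨s, hs⟩ := s44mr_rational_kummer.{u} hEb yb hyb
    (⟨((lg_lamE N : lg_E Qb N) : LaurentSeries Qb),
      (le_sup_left : lg_E Qb N ≤ lg_E Qb N ⊔ Qb⟮yb⟯) (lg_lamE N : lg_E Qb N).2⟩ :
        ↥(lg_E Qb N ⊔ Qb⟮yb⟯)) z
  refine ⟨s, ?_⟩
  intro L' _ _ _ _ y hy Lb _ halg hle hyL hgen hs₀ hsL z' hz' v hv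
  haveI : CharZero L' := algebraRat.charZero L'
  exact hs L' (lg_E L' N) (s44mr_isModel_lgE L' N) y hy Lb halg hle hyL hgen hs₀ hsL z' hz' v hv

/-- membership companion: the coefficientwise image of an element of `Lb = E'(y)` lies in
`lg_E ℚ̄ N ⊔ ℚ̄⟮ȳ⟯`. -/
theorem s44mr_kummer_mem_lgE (N : ℕ) [NeZero N] (L' : Type u) [Field L'] [CharZero L']
    [Algebra L' Qb] (y : LaurentSeries L') (Lb : Subfield (LaurentSeries L'))
    (hle : (lg_E L' N).toSubfield ≤ Lb) (hyL : y ∈ Lb)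
    (hgen : ∀ w ∈ Lb, ∃ R : (↥(lg_E L' N).toSubfield)[X],
      w = eval₂ (lg_E L' N).toSubfield.subtype y R) {x : LaurentSeries L'} (hx : x ∈ Lb) :
    coeffMap (algebraMap L' Qb) x ∈ lg_E Qb N ⊔ Qb⟮coeffMap (algebraMap L' Qb) y⟯ :=
  (s44mr_kummer_isModel L' (s44mr_isModel_lgE L' N) y Lb hle hyL hgen).1 x hx

end Fermat.Agent.S44

end
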