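/-
Project S44 (Mazur–Ribet at `p`), cell [H2-N] NODE DICTIONARY, step (N2) "THE CENTRE" (helper1):
the abstract GOING-DOWN lemma.  Prefix `s44mz_`.

`R ⊆ S` an integral extension of domains, `R` integrally closed (in use: `R` = the base `j`-chart of
`X₀(M p)` over `O`, `S` = the Legendre `j`-chart).  `P₁, P₂` the two components of the special fibre
of `S` (every prime containing `π` contains one of them), `𝔫` a prime of `S`.  If the centre of `𝔫`
on `R` lies on the `0`-component of `R` (`P₂ ∩ R ⊆ 𝔫 ∩ R`: this is "supersingular"), and the two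
components of `R` are distinct, then `𝔫` lies on the `0`-component of `S`: `P₂ ⊆ 𝔫`.

No Galois group, no uniqueness of extensions of valuations: Mathlib's `Algebra.HasGoingDown` for
integral extensions of integrally closed domains + incomparability.
-/
import Mathlib

set_option autoImplicit false
set_option linter.style.haveILetI false

namespace Fermat.Agent.S44

open Ideal

/-- **going-down at a supersingular point**, algebra form. -/
theorem s44mz_gd_alg {R S : Type*} [CommRing R] [CommRing S] [IsDomain S] [Algebra R S]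
    [FaithfulSMul R S] [Algebra.IsIntegral R S] [IsIntegrallyClosed R]
    (P1 P2 𝔫 : Ideal S) [P1.IsPrime] [hP2 : P2.IsPrime] [h𝔫 : 𝔫.IsPrime]
    (π0 : R) (hπ0 : algebraMap R S π0 ∈ P2)
    (h2 : ∀ 𝔓 : Ideal S, 𝔓.IsPrime → algebraMap R S π0 ∈ 𝔓 → P1 ≤ 𝔓 ∨ P2 ≤ 𝔓)
    (h12 : ∃ a : R, algebraMap R S a ∈ P1 ∧ algebraMap R S a ∉ P2)
    (hSS : ∀ a : R, algebraMap R S a ∈ P2 → algebraMap R S a ∈ 𝔫) : P2 ≤ 𝔫 := by
  haveI : (P2.under R).IsPrime := inferInstance
  haveI : (𝔫.under R).IsPrime := inferInstance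
  haveI : 𝔫.LiesOver (𝔫.under R) := ⟨rfl⟩
  have hle : P2.under R ≤ 𝔫.under R := fun a ha => hSS a ha
  obtain ⟨𝔓, h𝔓𝔫, h𝔓p, h𝔓o⟩ :=
    Ideal.exists_ideal_le_liesOver_of_le (p := P2.under R) (q := 𝔫.under R) 𝔫 hle
  haveI := h𝔓p
  have hover : 𝔓.under R = P2.under R := (h𝔓o.over).symm
  have hπ𝔓 : algebraMap R S π0 ∈ 𝔓 := by
    have : π0 ∈ 𝔓.under R := by rw [hover]; exact hπ0
    exact this
  rcases h2 𝔓 h𝔓p hπ𝔓 with h | h
  · exfalso
    obtain ⟨a, ha1, ha2⟩ := h12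
    have : a ∈ 𝔓.under R := h ha1
    rw [hover] at this
    exact ha2 this
  · -- `P2 ≤ 𝔓`, both over the same prime: equal
    have heq : P2 = 𝔓 := by
      by_contra hne
      have hlt : P2 < 𝔓 := lt_of_le_of_ne h hne
      have := Ideal.IsIntegral.comap_lt_comap (R := R) hlt
      rw [← Ideal.under_def, ← Ideal.under_def, hover] at this
      exact lt_irrefl _ this
    rw [heq]
    exact h𝔓𝔫

/-- **going-down at a supersingular point**, ring-hom form. -/
theorem s44mz_gd {R S : Type*} [CommRing R] [CommRing S] [IsDomain S] [IsIntegrallyClosed R]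
    (f : R →+* S) (hf : Function.Injective f) (hint : f.IsIntegral)
    (P1 P2 𝔫 : Ideal S) [P1.IsPrime] [P2.IsPrime] [𝔫.IsPrime]
    (π0 : R) (hπ0 : f π0 ∈ P2)
    (h2 : ∀ 𝔓 : Ideal S, 𝔓.IsPrime → f π0 ∈ 𝔓 → P1 ≤ 𝔓 ∨ P2 ≤ 𝔓)
    (h12 : ∃ a : R, f a ∈ P1 ∧ f a ∉ P2)
    (hSS : ∀ a : R, f a ∈ P2 → f a ∈ 𝔫) : P2 ≤ 𝔫 := by
  letI : Algebra R S := f.toAlgebra
  haveI : FaithfulSMul R S := (faithfulSMul_iff_algebraMap_injective R S).2 hf
  haveI : Algebra.IsIntegral R S := ⟨hint⟩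
  exact s44mz_gd_alg P1 P2 𝔫 π0 hπ0 h2 h12 hSS

end Fermat.Agent.S44
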