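/-
Project S44 (Mazur–Ribet at `p`), cell [H2-N] NODE DICTIONARY, step (N2) "THE CENTRE" (helper1):
THE LEGENDRE `j`-CHART, abstract algebra.  Prefix `s44mz_`.

`A0` a ring in which `2` is invertible, `F0 ⊇ A0` a field, `lam, j2 ∈ F0` with the Legendre relation
`256 (λ² − λ + 1)³ = j₂ λ² (λ − 1)²`, `t := λ² − λ ≠ 0`.  Then

* `t`, `t⁻¹`, `λ` are integral over `A0[j₂]` (`256 (t + 1)³ = j₂ t²`, `λ² = λ + t`);
* the `j₂`-chart `S := fc_chart A0 {j₂}` (integral closure of `A0[j₂]`) contains the `λ`-chart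
  `B := fc_chart A0 {λ}` and `S = B[1/t]`: `s44mz_clear`;
* (function-field case, `A0` a DVR, `λ` transcendental) `S` is a chart over `A0[λ]` in the sense of
  `ssm_tp_Chart`: `s44mz_chart`.
-/
import Mathlib
import Fermat.Agent.SS.Model.TwoPrimes

set_option autoImplicit false
set_option linter.unusedSectionVars false
set_option linter.style.haveILetI false
set_option linter.unusedVariables false

namespace Fermat.Agent.S44

open Polynomial Fermat.Agent.JT3 Fermat.Agent.SS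

universe v

section Poly

variable {A0 : Type*} [CommRing A0] {F0 : Type v} [Field F0] [Algebra A0 F0]

/-- a root of a monic cubic with coefficients in `T` is integral over `T`. -/
theorem s44mz_integral_cubic (T : Subalgebra A0 F0) {x a b c : F0} (ha : a ∈ T) (hb : b ∈ T)
    (hc : c ∈ T) (h : x ^ 3 = a * x ^ 2 + b * x + c) : IsIntegral T x := by
  refine ⟨X ^ 3 - (C (⟨a, ha⟩ : T) * X ^ 2 + C (⟨b, hb⟩ : T) * X + C (⟨c, hc⟩ : T)),
    monic_X_pow_sub (lt_of_le_of_lt degree_quadratic_le (by norm_num)), ?_⟩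
  rw [eval₂_sub, eval₂_add, eval₂_add, eval₂_mul, eval₂_mul, eval₂_pow, eval₂_pow, eval₂_X,
    eval₂_C, eval₂_C, eval₂_C]
  show x ^ 3 - (a * x ^ 2 + b * x + c) = 0
  rw [h, sub_self]

/-- a root of a monic quadratic with coefficients in `T` is integral over `T`. -/
theorem s44mz_integral_quadratic (T : Subalgebra A0 F0) {x a b : F0} (ha : a ∈ T) (hb : b ∈ T)
    (h : x ^ 2 = a * x + b) : IsIntegral T x := by
  refine ⟨X ^ 2 - (C (⟨a, ha⟩ : T) * X + C (⟨b, hb⟩ : T)),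
    monic_X_pow_sub (lt_of_le_of_lt degree_linear_le (by norm_num)), ?_⟩
  rw [eval₂_sub, eval₂_add, eval₂_mul, eval₂_pow, eval₂_X, eval₂_C, eval₂_C]
  show x ^ 2 - (a * x + b) = 0
  rw [h, sub_self]

end Poly

section Closed

variable {A0 : Type*} [CommRing A0] {F0 : Type v} [Field F0] [Algebra A0 F0]

/-- a chart is integrally closed. -/
theorem s44mz_chart_isIntegrallyClosed (S : Set F0)
    [Algebra.IsAlgebraic (Algebra.adjoin A0 S) F0] : IsIntegrallyClosed (fc_chart A0 S) := by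
  refine (isIntegrallyClosed_iff F0).2 fun {z} hz => ?_
  have hz' : IsIntegral (integralClosure (Algebra.adjoin A0 S) F0) z := hz
  have h1 : IsIntegral (Algebra.adjoin A0 S) z :=
    isIntegral_trans (R := Algebra.adjoin A0 S) (A := integralClosure (Algebra.adjoin A0 S) F0) z hz'
  exact ⟨⟨z, h1⟩, rfl⟩

end Closed

section Leg

variable {A0 : Type*} [CommRing A0] {F0 : Type v} [Field F0] [Algebra A0 F0] {lam j2 : F0}

/-- the Legendre relation in terms of `t = λ² − λ`. -/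
theorem s44mz_leg_t (hleg : 256 * (lam ^ 2 - lam + 1) ^ 3 = j2 * lam ^ 2 * (lam - 1) ^ 2) :
    256 * ((lam ^ 2 - lam) + 1) ^ 3 = j2 * (lam ^ 2 - lam) ^ 2 := by
  rw [hleg]; ring

variable (u : A0) (hu : u * 256 = 1)

include hu in
theorem s44mz_u_mul : algebraMap A0 F0 u * 256 = 1 := by
  have := congrArg (algebraMap A0 F0) hu
  rw [map_mul, map_one] at this
  rw [← this, map_ofNat]

include hu in
/-- `t = λ² − λ` is integral over `A0[j₂]`. -/
theorem s44mz_t_integral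
    (hleg : 256 * (lam ^ 2 - lam + 1) ^ 3 = j2 * lam ^ 2 * (lam - 1) ^ 2) :
    IsIntegral (Algebra.adjoin A0 ({j2} : Set F0)) (lam ^ 2 - lam) := by
  have hj : j2 ∈ Algebra.adjoin A0 ({j2} : Set F0) := Algebra.subset_adjoin rfl
  have hum : algebraMap A0 F0 u ∈ Algebra.adjoin A0 ({j2} : Set F0) :=
    Subalgebra.algebraMap_mem _ u
  have h3 : (3 : F0) ∈ Algebra.adjoin A0 ({j2} : Set F0) := by
    have : (3 : F0) = algebraMap A0 F0 3 := (map_ofNat (algebraMap A0 F0) 3).symm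
    rw [this]; exact Subalgebra.algebraMap_mem _ _
  have h1 : (1 : F0) ∈ Algebra.adjoin A0 ({j2} : Set F0) := one_mem _
  refine s44mz_integral_cubic (Algebra.adjoin A0 ({j2} : Set F0))
    (a := algebraMap A0 F0 u * j2 - 3) (b := -3) (c := -1)
    (sub_mem (mul_mem hum hj) h3) (neg_mem h3) (neg_mem h1) ?_
  have h := s44mz_leg_t hleg
  have hu' := s44mz_u_mul (F0 := F0) u hu
  set t := lam ^ 2 - lam
  have h2 : (t + 1) ^ 3 = algebraMap A0 F0 u * j2 * t ^ 2 := by
    calc (t + 1) ^ 3 = (algebraMap A0 F0 u * 256) * (t + 1) ^ 3 := by rw [hu', one_mul]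
      _ = algebraMap A0 F0 u * (256 * (t + 1) ^ 3) := by ring
      _ = algebraMap A0 F0 u * j2 * t ^ 2 := by rw [h]; ring
  linear_combination h2

include hu in
/-- `t⁻¹ = (λ² − λ)⁻¹` is integral over `A0[j₂]`. -/
theorem s44mz_tinv_integral
    (hleg : 256 * (lam ^ 2 - lam + 1) ^ 3 = j2 * lam ^ 2 * (lam - 1) ^ 2)
    (ht : lam ^ 2 - lam ≠ 0) :
    IsIntegral (Algebra.adjoin A0 ({j2} : Set F0)) (lam ^ 2 - lam)⁻¹ := by
  have hj : j2 ∈ Algebra.adjoin A0 ({j2} : Set F0) := Algebra.subset_adjoin rfl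
  have hum : algebraMap A0 F0 u ∈ Algebra.adjoin A0 ({j2} : Set F0) :=
    Subalgebra.algebraMap_mem _ u
  have h3 : (3 : F0) ∈ Algebra.adjoin A0 ({j2} : Set F0) := by
    have : (3 : F0) = algebraMap A0 F0 3 := (map_ofNat (algebraMap A0 F0) 3).symm
    rw [this]; exact Subalgebra.algebraMap_mem _ _
  have h1 : (1 : F0) ∈ Algebra.adjoin A0 ({j2} : Set F0) := one_mem _
  refine s44mz_integral_cubic (Algebra.adjoin A0 ({j2} : Set F0))
    (a := -3) (b := algebraMap A0 F0 u * j2 - 3) (c := -1)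
    (neg_mem h3) (sub_mem (mul_mem hum hj) h3) (neg_mem h1) ?_
  have h := s44mz_leg_t hleg
  have hu' := s44mz_u_mul (F0 := F0) u hu
  set t := lam ^ 2 - lam
  have h2 : (t + 1) ^ 3 = algebraMap A0 F0 u * j2 * t ^ 2 := by
    calc (t + 1) ^ 3 = (algebraMap A0 F0 u * 256) * (t + 1) ^ 3 := by rw [hu', one_mul]
      _ = algebraMap A0 F0 u * (256 * (t + 1) ^ 3) := by ring
      _ = algebraMap A0 F0 u * j2 * t ^ 2 := by rw [h]; ring
  -- divide by `t ^ 3`
  have h3' : (1 + t⁻¹) ^ 3 = algebraMap A0 F0 u * j2 * t⁻¹ := by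
    have e1 : (1 + t⁻¹) ^ 3 = (t + 1) ^ 3 * (t⁻¹) ^ 3 := by
      have : 1 + t⁻¹ = (t + 1) * t⁻¹ := by
        rw [add_mul, mul_inv_cancel₀ ht, one_mul]
      rw [this, mul_pow]
    rw [e1, h2]
    have : t ^ 2 * t⁻¹ ^ 3 = t⁻¹ := by
      field_simp
    rw [mul_assoc, this]
  linear_combination h3'

/-- `λ` is integral over `A0[j₂]`. -/
theorem s44mz_lam_integral
    (hleg : 256 * (lam ^ 2 - lam + 1) ^ 3 = j2 * lam ^ 2 * (lam - 1) ^ 2)
    (u : A0) (hu : u * 256 = 1) :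
    IsIntegral (Algebra.adjoin A0 ({j2} : Set F0)) lam := by
  have ht := s44mz_t_integral u hu hleg
  have h1 : IsIntegral (integralClosure (Algebra.adjoin A0 ({j2} : Set F0)) F0) lam := by
    have hq := s44mz_integral_quadratic (A0 := Algebra.adjoin A0 ({j2} : Set F0))
      (integralClosure (Algebra.adjoin A0 ({j2} : Set F0)) F0)
      (x := lam) (a := 1) (b := lam ^ 2 - lam) (one_mem _) ht (by ring)
    exact hq
  exact isIntegral_trans (R := Algebra.adjoin A0 ({j2} : Set F0))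
    (A := integralClosure (Algebra.adjoin A0 ({j2} : Set F0)) F0) lam h1

/-- **the `λ`-chart is contained in the `j₂`-chart.** -/
theorem s44mz_chart_le
    (hleg : 256 * (lam ^ 2 - lam + 1) ^ 3 = j2 * lam ^ 2 * (lam - 1) ^ 2)
    (u : A0) (hu : u * 256 = 1) :
    fc_chart A0 ({lam} : Set F0) ≤ fc_chart A0 ({j2} : Set F0) := by
  intro z hz
  rw [fc_mem_chart] at hz ⊢
  -- `A0[λ] ≤ integral closure of A0[j₂]`
  have hle : Algebra.adjoin A0 ({lam} : Set F0) ≤ fc_chart A0 ({j2} : Set F0) := by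
    rw [Algebra.adjoin_le_iff, Set.singleton_subset_iff]
    exact s44mz_lam_integral hleg u hu
  have h1 : IsIntegral (integralClosure (Algebra.adjoin A0 ({j2} : Set F0)) F0) z := by
    have := IsIntegral.map_of_comp_eq (R := Algebra.adjoin A0 ({lam} : Set F0)) (S := F0)
      (T := integralClosure (Algebra.adjoin A0 ({j2} : Set F0)) F0) (U := F0)
      (Subalgebra.inclusion hle).toRingHom (RingHom.id F0) (by ext r; rfl) hz
    exact this
  exact isIntegral_trans (R := Algebra.adjoin A0 ({j2} : Set F0))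
    (A := integralClosure (Algebra.adjoin A0 ({j2} : Set F0)) F0) z h1

/-- `tⁿ c ∈ A0[λ]` for `c ∈ A0[λ, j₂]` and `n` large. -/
theorem s44mz_adjoin_clear
    (hleg : 256 * (lam ^ 2 - lam + 1) ^ 3 = j2 * lam ^ 2 * (lam - 1) ^ 2) :
    ∀ c ∈ Algebra.adjoin A0 ({lam, j2} : Set F0), ∃ k : ℕ, ∀ n, k ≤ n →
      (lam ^ 2 - lam) ^ n * c ∈ Algebra.adjoin A0 ({lam} : Set F0) := by
  have hxmem : lam ∈ Algebra.adjoin A0 ({lam} : Set F0) := Algebra.subset_adjoin rfl
  have htmem : lam ^ 2 - lam ∈ Algebra.adjoin A0 ({lam} : Set F0) :=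
    sub_mem (pow_mem hxmem 2) hxmem
  have h256 : (256 : F0) ∈ Algebra.adjoin A0 ({lam} : Set F0) := by
    have : (256 : F0) = algebraMap A0 F0 256 := (map_ofNat (algebraMap A0 F0) 256).symm
    rw [this]; exact Subalgebra.algebraMap_mem _ _
  intro c hc
  induction hc using Algebra.adjoin_induction with
  | mem y hy =>
    rcases hy with rfl | hy
    · exact ⟨0, fun n _ => mul_mem (pow_mem htmem n) hxmem⟩
    · rw [Set.mem_singleton_iff] at hy
      subst hy
      refine ⟨2, fun n hn => ?_⟩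
      obtain ⟨j, rfl⟩ := Nat.exists_eq_add_of_le hn
      have h := s44mz_leg_t hleg
      have : (lam ^ 2 - lam) ^ (2 + j) * y =
          (lam ^ 2 - lam) ^ j * (256 * ((lam ^ 2 - lam) + 1) ^ 3) := by
        rw [h, pow_add]; ring
      rw [this]
      exact mul_mem (pow_mem htmem j)
        (mul_mem h256 (pow_mem (add_mem htmem (one_mem _)) 3))
  | algebraMap a =>
    exact ⟨0, fun n _ => mul_mem (pow_mem htmem n) (Subalgebra.algebraMap_mem _ a)⟩
  | add c1 c2 _ _ h1 h2 =>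
    obtain ⟨k1, h1⟩ := h1
    obtain ⟨k2, h2⟩ := h2
    refine ⟨max k1 k2, fun n hn => ?_⟩
    rw [mul_add]
    exact add_mem (h1 n ((le_max_left _ _).trans hn)) (h2 n ((le_max_right _ _).trans hn))
  | mul c1 c2 _ _ h1 h2 =>
    obtain ⟨k1, h1⟩ := h1
    obtain ⟨k2, h2⟩ := h2
    refine ⟨k1 + k2, fun n hn => ?_⟩
    obtain ⟨j, rfl⟩ := Nat.exists_eq_add_of_le hn
    have : (lam ^ 2 - lam) ^ (k1 + k2 + j) * (c1 * c2) =
        ((lam ^ 2 - lam) ^ k1 * c1) * ((lam ^ 2 - lam) ^ (k2 + j) * c2) := by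
      rw [pow_add, pow_add, pow_add]; ring
    rw [this]
    exact mul_mem (h1 k1 le_rfl) (h2 (k2 + j) (Nat.le_add_right _ _))

/-- **`S = B[1/t]`**: every element of the `j₂`-chart becomes integral over `A0[λ]` after
multiplication by a power of `t = λ² − λ`. -/
theorem s44mz_clear
    (hleg : 256 * (lam ^ 2 - lam + 1) ^ 3 = j2 * lam ^ 2 * (lam - 1) ^ 2)
    {z : F0} (hz : z ∈ fc_chart A0 ({j2} : Set F0)) :
    ∃ k : ℕ, (lam ^ 2 - lam) ^ k * z ∈ fc_chart A0 ({lam} : Set F0) := by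
  have hz' : IsIntegral (Algebra.adjoin A0 ({lam, j2} : Set F0)) z := by
    have := fc_chart_mono (A0 := A0) (S := ({j2} : Set F0)) (T := ({lam, j2} : Set F0))
      (by intro y hy; rw [Set.mem_singleton_iff] at hy; rw [hy]; exact Set.mem_insert_of_mem _ rfl)
      hz
    exact this
  have hxmem : lam ∈ Algebra.adjoin A0 ({lam, j2} : Set F0) :=
    Algebra.subset_adjoin (Set.mem_insert _ _)
  exact fc_clear_aux (Algebra.adjoin A0 ({lam} : Set F0)) (Algebra.adjoin A0 ({lam, j2} : Set F0))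
    (lam ^ 2 - lam) (sub_mem (pow_mem hxmem 2) hxmem) (s44mz_adjoin_clear hleg) hz'

/-- **`W j₂` lies in the `j₂`-chart**, from the integrality package of `(λ, W λ)`: abstract form. -/
theorem s44mz_j2q_mem {q : ℕ} {lamq j2q : F0} (S : Subalgebra A0 F0) (hlam : lam ∈ S)
    (ht : lam ^ 2 - lam ≠ 0) (htinv : (lam ^ 2 - lam)⁻¹ ∈ S) (hlamq : lamq ∈ S)
    (hw0 : lam ^ q / lamq ∈ S) (hw1 : (lam - 1) ^ q / (lamq - 1) ∈ S)
    (hlamq0 : lamq ≠ 0) (hlamq1 : lamq - 1 ≠ 0)
    (hlegq : 256 * (lamq ^ 2 - lamq + 1) ^ 3 = j2q * lamq ^ 2 * (lamq - 1) ^ 2) : j2q ∈ S := by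
  have hlam0 : lam ≠ 0 := by
    rintro rfl
    exact ht (by ring)
  have hlam1 : lam - 1 ≠ 0 := by
    intro h
    apply ht
    have : lam ^ 2 - lam = lam * (lam - 1) := by ring
    rw [this, h, mul_zero]
  have h1S : (1 : F0) ∈ S := one_mem _
  have ha : lamq⁻¹ ∈ S := by
    have e : lamq⁻¹ = (lam ^ q / lamq) * ((lam - 1) * (lam ^ 2 - lam)⁻¹) ^ q := by
      have e1 : (lam - 1) * (lam ^ 2 - lam)⁻¹ = lam⁻¹ := by
        have : lam ^ 2 - lam = lam * (lam - 1) := by ring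
        rw [this, mul_inv, mul_comm lam⁻¹, ← mul_assoc, mul_inv_cancel₀ hlam1, one_mul]
      rw [e1, inv_pow, div_eq_mul_inv, mul_comm (lam ^ q), mul_assoc,
        mul_inv_cancel₀ (pow_ne_zero q hlam0), mul_one]
    rw [e]
    exact mul_mem hw0 (pow_mem (mul_mem (sub_mem hlam h1S) htinv) q)
  have hb : (lamq - 1)⁻¹ ∈ S := by
    have e : (lamq - 1)⁻¹ = ((lam - 1) ^ q / (lamq - 1)) * (lam * (lam ^ 2 - lam)⁻¹) ^ q := by
      have e1 : lam * (lam ^ 2 - lam)⁻¹ = (lam - 1)⁻¹ := by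
        have : lam ^ 2 - lam = lam * (lam - 1) := by ring
        rw [this, mul_inv, ← mul_assoc, mul_inv_cancel₀ hlam0, one_mul]
      rw [e1, inv_pow, div_eq_mul_inv, mul_comm ((lam - 1) ^ q), mul_assoc,
        mul_inv_cancel₀ (pow_ne_zero q hlam1), mul_one]
    rw [e]
    exact mul_mem hw1 (pow_mem (mul_mem hlam htinv) q)
  have h256 : (256 : F0) ∈ S := by
    have : (256 : F0) = algebraMap A0 F0 256 := (map_ofNat (algebraMap A0 F0) 256).symm
    rw [this]; exact Subalgebra.algebraMap_mem _ _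
  have e : j2q = 256 * (lamq ^ 2 - lamq + 1) ^ 3 * lamq⁻¹ ^ 2 * (lamq - 1)⁻¹ ^ 2 := by
    rw [hlegq]
    field_simp
  rw [e]
  exact mul_mem (mul_mem (mul_mem h256
    (pow_mem (add_mem (sub_mem (pow_mem hlamq 2) hlamq) h1S) 3)) (pow_mem ha 2)) (pow_mem hb 2)

end Leg

section Monic

variable {A0 : Type*} [CommRing A0] [IsDomain A0] {F0 : Type v} [Field F0] [Algebra A0 F0]

/-- in `A0[y] ≅ A0[X]` (`y` transcendental) a non-unit `π` does not divide the value of a monic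
polynomial. -/
theorem s44mz_not_dvd_monic {π : A0} (hπ : ¬ IsUnit π) {y : F0} (hy : Transcendental A0 y)
    (g : A0[X]) (hg : g.Monic) (r : Algebra.adjoin A0 ({y} : Set F0))
    (hr : (r : F0) = aeval y g) :
    ¬ algebraMap A0 (Algebra.adjoin A0 ({y} : Set F0)) π ∣ r := by
  rintro ⟨c, hc⟩
  have hinj : Function.Injective (aeval y : A0[X] →ₐ[A0] F0) :=
    transcendental_iff_injective.1 hy
  have hcm : (c : F0) ∈ (aeval y : A0[X] →ₐ[A0] F0).range := by
    rw [← Algebra.adjoin_singleton_eq_range_aeval]; exact c.2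
  obtain ⟨h, hh⟩ := hcm
  have h1 : (r : F0) = algebraMap A0 F0 π * (c : F0) := by
    rw [hc]; rfl
  have h2 : aeval y g = aeval y (C π * h) := by
    rw [← hr, h1, map_mul, aeval_C]
    congr 1
    exact hh.symm
  have h3 : g = C π * h := hinj h2
  have h4 := congrArg (fun P : A0[X] => P.coeff g.natDegree) h3
  simp only [coeff_C_mul] at h4
  rw [show g.coeff g.natDegree = 1 from hg] at h4
  exact hπ (.of_mul_eq_one _ h4.symm)

end Monic

section FunField

open IntermediateField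

variable {A0 L : Type*} {F0 : Type v} [CommRing A0] [IsDomain A0] [IsDiscreteValuationRing A0]
  [Field L] [Field F0] [Algebra A0 L] [IsFractionRing A0 L] [Algebra L F0] [Algebra A0 F0]
  [IsScalarTower A0 L F0]

/-- **the `j₂`-chart `S = B_λ[1/(λ² − λ)]` is a chart over `A0[λ]`** in the sense of [TP]. -/
theorem s44mz_chart {π : A0} (hπ : Irreducible π) {lam j2 : F0} (hlam : Transcendental L lam)
    (hleg : 256 * (lam ^ 2 - lam + 1) ^ 3 = j2 * lam ^ 2 * (lam - 1) ^ 2)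
    (u : A0) (hu : u * 256 = 1) :
    ssm_tp_Chart (algebraMap A0 (Algebra.adjoin A0 ({lam} : Set F0)) π)
      (fc_chart A0 ({j2} : Set F0)) := by
  have hxA : Transcendental A0 lam := fc_ff_transcendental (L := L) hlam
  have hp := (sfc_ff_prime_pi hπ hxA).1
  have ht0 : lam ^ 2 - lam ≠ 0 := by
    intro h0
    apply hlam
    refine ⟨X ^ 2 - X, ?_, by simpa using h0⟩
    intro h
    have := congrArg (fun P : L[X] => P.coeff 2) h
    simp [coeff_X] at this
  set tR : Algebra.adjoin A0 ({lam} : Set F0) :=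
    (⟨lam, Algebra.subset_adjoin rfl⟩ : Algebra.adjoin A0 ({lam} : Set F0)) ^ 2 -
      ⟨lam, Algebra.subset_adjoin rfl⟩ with htR
  have htRcoe : (tR : F0) = lam ^ 2 - lam := rfl
  have htRdvd : ¬ algebraMap A0 (Algebra.adjoin A0 ({lam} : Set F0)) π ∣ tR := by
    refine s44mz_not_dvd_monic hπ.not_isUnit hxA (X ^ 2 - X) ?_ tR ?_
    · exact monic_X_pow_sub (by rw [degree_X]; norm_num)
    · rw [htRcoe]; simp
  refine ⟨fun z hz => s44mz_chart_le hleg u hu hz, fun b hb => ?_⟩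
  obtain ⟨k, hk⟩ := s44mz_clear hleg hb
  refine ⟨tR ^ k, fun hd => htRdvd (hp.dvd_of_dvd_pow hd), ?_, ?_⟩
  · rw [map_pow, ← inv_pow]
    refine (fc_chart A0 ({j2} : Set F0)).pow_mem ?_ k
    show (lam ^ 2 - lam)⁻¹ ∈ fc_chart A0 ({j2} : Set F0)
    exact s44mz_tinv_integral u hu hleg ht0
  · rw [map_pow]
    exact hk

end FunField

end Fermat.Agent.S44
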