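/-
Project S44 (Mazur–Ribet at `p`), cell [H2-N] NODE DICTIONARY, step (N2) "THE CENTRE" (helper1):
A SUPERSINGULAR POINT OF THE LEGENDRE MODEL LIES ON BOTH COMPONENTS.  Prefix `s44mz_`.

Setting of `ssm_gl_*` / `ssm_nlb_node`: `O ⊆ L` a DVR of odd residue characteristic `q ∤ N'`,
`E = lg_E L (N' q)`, `V₁ = ssm_gl_V1` (Gauss), `V₂ = ssm_gl_V2 = W_E⁻¹ V₁`, `φ = lg_phiE` (`X ↦ X²`)
the embedding of the base field `F = lg_F L (N' q)`, `j_F = rpz_jF`, `φ j_F = j₂`.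

* `s44mz_P2_le` : `𝒱` a valuation subring of `E` containing `O` and `j₂` such that every function on
  the BASE `j`-chart (`b ∈ F` integral over `O[j]`) vanishing on the `0`-component (`φ (W b) ∈ 𝔪(V₁)`)
  vanishes at `𝒱` (`φ b ∈ 𝔪(𝒱)`)  [this is `s44e_IsSS` read at the number-field level].  Then every
  function on the LEGENDRE `j`-chart vanishing on the `0`-component vanishes at `𝒱`:
  `∀ t ∈ fc_chart O {j₂}, t ∈ 𝔪(V₂) → t ∈ 𝔪(𝒱)`.
* `s44mz_P2_le_chart` : the same on the `λ`-chart `B = fc_chart O {λ}`, in ideal form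
  `ssm_tp_P B V₂ ≤ ssm_tp_P B 𝒱`.

Proof: going-down (`s44mz_gd`) for `fc_chart O {j_F} → fc_chart O {j₂}`.
-/
import Mathlib
import Fermat.Agent.S44.Mono.CentreAbs
import Fermat.Agent.S44.Mono.CentreChart
import Fermat.Agent.SS.Model.FinalLeg
import Fermat.Agent.SS.Model.ALInst
import Fermat.Agent.S35.RedN.InstFull
import Fermat.Agent.JT3.PlaceMap.FinalBase
import Fermat.Agent.JT3.Inst.Key0
import Fermat.Agent.S35.Toric.SFDPlace

set_option autoImplicit false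
set_option linter.unusedSectionVars false
set_option linter.style.haveILetI false
set_option linter.unusedVariables false

noncomputable section

namespace Fermat.Agent.S44

open Polynomial ModularCurve IntermediateField IsLocalRing
open Fermat.Agent.JT3 Fermat.Agent.SS Fermat.Agent.S35

/-! ### transport of integrality along an injective algebra homomorphism -/

section Transport

variable {A0 F E : Type*} [CommRing A0] [Field F] [Field E] [Algebra A0 F] [Algebra A0 E]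
  (φ : F →ₐ[A0] E) (s : Set F)

/-- the restriction `A0[s] → A0[φ s]`. -/
def s44mz_adjoinMap : Algebra.adjoin A0 s →ₐ[A0] Algebra.adjoin A0 (φ '' s) :=
  (φ.comp (Algebra.adjoin A0 s).val).codRestrict (Algebra.adjoin A0 (φ '' s)) (fun c => by
    rw [← AlgHom.map_adjoin]
    exact ⟨c, c.2, rfl⟩)

theorem s44mz_adjoinMap_coe (c : Algebra.adjoin A0 s) :
    ((s44mz_adjoinMap φ s c : Algebra.adjoin A0 (φ '' s)) : E) = φ (c : F) := rfl

theorem s44mz_adjoinMap_surjective : Function.Surjective (s44mz_adjoinMap φ s) := by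
  rintro ⟨y, hy⟩
  rw [← AlgHom.map_adjoin] at hy
  obtain ⟨c, hc, rfl⟩ := hy
  exact ⟨⟨c, hc⟩, Subtype.ext rfl⟩

/-- integrality is preserved by `φ`. -/
theorem s44mz_isIntegral_map {x : F} (h : IsIntegral (Algebra.adjoin A0 s) x) :
    IsIntegral (Algebra.adjoin A0 (φ '' s)) (φ x) :=
  IsIntegral.map_of_comp_eq (R := Algebra.adjoin A0 s) (S := F)
    (T := Algebra.adjoin A0 (φ '' s)) (U := E)
    (s44mz_adjoinMap φ s).toRingHom φ.toRingHom (by ext r; rfl) h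

/-- integrality is reflected by `φ`. -/
theorem s44mz_isIntegral_of_map {x : F}
    (h : IsIntegral (Algebra.adjoin A0 (φ '' s)) (φ x)) :
    IsIntegral (Algebra.adjoin A0 s) x := by
  obtain ⟨p, hp, hpx⟩ := h
  obtain ⟨p', hp'map, -, hp'm⟩ := Polynomial.lifts_and_degree_eq_and_monic
    ((Polynomial.mem_lifts _).2
      (Polynomial.map_surjective (s44mz_adjoinMap φ s).toRingHom
        (s44mz_adjoinMap_surjective φ s) p)) hp
  refine ⟨p', hp'm, ?_⟩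
  apply φ.toRingHom.injective
  rw [map_zero, Polynomial.hom_eval₂]
  have hcomp : φ.toRingHom.comp (algebraMap (Algebra.adjoin A0 s) F) =
      (algebraMap (Algebra.adjoin A0 (φ '' s)) E).comp (s44mz_adjoinMap φ s).toRingHom := by
    ext r; rfl
  rw [hcomp, ← Polynomial.eval₂_map, hp'map]
  exact hpx

end Transport

/-! ### the Legendre tower -/

section Legendre

variable {L : Type*} [Field L] [CharZero L] [Algebra L (AlgebraicClosure ℚ)]
  (O : ValuationSubring L) [IsDiscreteValuationRing O] {π : O} (hπ : Irreducible π)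
variable (N' q : ℕ) [NeZero N'] [NeZero q] [hq : Fact q.Prime] [CharP (ResidueField O) q]
  (hq2 : ¬ 2 ∣ q) (hqN' : ¬ q ∣ N')

variable (L) in
/-- `j₂ = j(X²)` as an element of `E = lg_E L N`. -/
abbrev s44mz_j2E (N : ℕ) [NeZero N] : ↥(lg_E L N) := ⟨lg_j2 L, lg_j2_mem_E L N⟩

variable (L) in
/-- the Legendre relation in `E`. -/
theorem s44mz_legE (N : ℕ) [NeZero N] :
    256 * ((lg_lamE N : ↥(lg_E L N)) ^ 2 - lg_lamE N + 1) ^ 3 =
      s44mz_j2E L N * (lg_lamE N : ↥(lg_E L N)) ^ 2 * ((lg_lamE N : ↥(lg_E L N)) - 1) ^ 2 := by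
  apply Subtype.ext
  have e1 : ((lg_lamE N : ↥(lg_E L N)) : LaurentSeries L) = lg_lam L := rfl
  have h := lg_legendre L
  push_cast
  rw [e1]
  exact h

include hq2 in
omit [CharZero L] [Algebra L (AlgebraicClosure ℚ)] [IsDiscreteValuationRing ↥O] [NeZero q] in
/-- `256` is invertible in `O` (odd residue characteristic). -/
theorem s44mz_exists_u : ∃ u : O, u * 256 = 1 := by
  have h2 := ssm_gl_two_ne_zero O q hq2
  have h256 : IsUnit (256 : O) := by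
    have : (256 : O) = 2 ^ 8 := by norm_num
    rw [this]
    refine IsUnit.pow 8 ?_
    rw [← IsLocalRing.residue_ne_zero_iff_isUnit, map_ofNat]
    exact h2
  obtain ⟨v, hv⟩ := h256.exists_left_inv
  exact ⟨v, hv⟩

/-- `φ = (X ↦ X²)` as an `O`-algebra homomorphism `F_N → E_N`. -/
def s44mz_phiO (N : ℕ) [NeZero N] : ↥(lg_F L N) →ₐ[O] ↥(lg_E L N) :=
  haveI := ssm_go_isScalarTower O (lg_F L N)
  haveI := ssm_go_isScalarTower O (lg_E L N)
  (lg_phiE (L := L) (N := N)).restrictScalars O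

theorem s44mz_phiO_apply (N : ℕ) [NeZero N] (x : ↥(lg_F L N)) :
    s44mz_phiO O N x = lg_phiE (L := L) (N := N) x := rfl

theorem s44mz_phiO_j (N : ℕ) [NeZero N] : s44mz_phiO O N (rpz_jF L N) = s44mz_j2E L N :=
  Subtype.ext rfl

theorem s44mz_image_j (N : ℕ) [NeZero N] :
    (s44mz_phiO O N) '' ({rpz_jF L N} : Set ↥(lg_F L N)) = {s44mz_j2E L N} := by
  rw [Set.image_singleton, s44mz_phiO_j]

include hπ hq2 in
/-- the `j₂`-chart of `E = lg_E L (N' q)` is a chart over `O[λ]`. -/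
theorem s44mz_chartS :
    ssm_tp_Chart
      (algebraMap ↥O (Algebra.adjoin ↥O ({lg_lamE (N' * q)} : Set ↥(lg_E L (N' * q)))) π)
      (fc_chart ↥O ({s44mz_j2E L (N' * q)} : Set ↥(lg_E L (N' * q)))) := by
  haveI := ssm_go_isScalarTower O (lg_E L (N' * q))
  obtain ⟨u, hu⟩ := s44mz_exists_u O q hq2
  exact s44mz_chart (L := L) hπ (lgf_lam_transcendental L (N' * q) two_ne_zero)
    (s44mz_legE L (N' * q)) u hu

include hπ in
/-- **`W_E j₂` is integral over `O[j₂]`.** -/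
theorem s44mz_Wj2_mem
    (hprime : Prime (algebraMap ↥O (fc_chart ↥O ({lg_lamE N'} : Set ↥(lg_E L N'))) π)) :
    ssm_gl_W L N' q hq2 hqN' (s44mz_j2E L (N' * q)) ∈
      fc_chart ↥O ({s44mz_j2E L (N' * q)} : Set ↥(lg_E L (N' * q))) := by
  haveI := ssm_go_isScalarTower O (lg_E L (N' * q))
  obtain ⟨u, hu⟩ := s44mz_exists_u O q hq2
  have F := ssm_fl_facts O hπ N' q hq2 hqN' hprime
  have hleg := s44mz_legE L (N' * q)
  have hle := s44mz_chart_le (A0 := ↥O) hleg u hu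
  have hx : Transcendental L (lg_lamE (L := L) (N' * q)) :=
    lgf_lam_transcendental L (N' * q) two_ne_zero
  have ht0 : (lg_lamE (N' * q) : ↥(lg_E L (N' * q))) ^ 2 - lg_lamE (N' * q) ≠ 0 := by
    intro h0
    apply hx
    refine ⟨X ^ 2 - X, ?_, by simpa using h0⟩
    intro h
    have := congrArg (fun P : L[X] => P.coeff 2) h
    simp [coeff_X] at this
  have hlam0 : (lg_lamE (N' * q) : ↥(lg_E L (N' * q))) ≠ 0 := by
    intro h
    apply ht0
    rw [h]; ring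
  have hlam1 : (lg_lamE (N' * q) : ↥(lg_E L (N' * q))) - 1 ≠ 0 := by
    intro h
    apply ht0
    have : (lg_lamE (N' * q) : ↥(lg_E L (N' * q))) ^ 2 - lg_lamE (N' * q) =
        lg_lamE (N' * q) * (lg_lamE (N' * q) - 1) := by ring
    rw [this, h, mul_zero]
  set W := ssm_gl_W L N' q hq2 hqN' with hW
  refine s44mz_j2q_mem (A0 := ↥O) (q := q) (lam := lg_lamE (N' * q))
    (lamq := W (lg_lamE (N' * q))) (fc_chart ↥O ({s44mz_j2E L (N' * q)} : Set ↥(lg_E L (N' * q))))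
    (hle (fc_x_mem_chart _)) ht0 (s44mz_tinv_integral u hu hleg ht0) (hle F.lamq_mem)
    (hle F.w0) (hle F.w1) ?_ ?_ ?_
  · exact (map_ne_zero W).2 hlam0
  · intro h
    apply hlam1
    apply W.injective
    rw [map_sub, map_one, map_zero]
    exact h
  · have := congrArg W hleg
    simpa only [map_mul, map_pow, map_sub, map_add, map_one, map_ofNat] using this

/-! ### the base `j`-chart and the map `φ` between the `j`-charts -/

/-- `φ x` lies on the Legendre `j`-chart iff `x` lies on the base `j`-chart. -/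
theorem s44mz_phi_mem_iff (N : ℕ) [NeZero N] (x : ↥(lg_F L N)) :
    s44mz_phiO O N x ∈ fc_chart ↥O ({s44mz_j2E L N} : Set ↥(lg_E L N)) ↔
      x ∈ fc_chart ↥O ({rpz_jF L N} : Set ↥(lg_F L N)) := by
  rw [fc_mem_chart, fc_mem_chart, ← s44mz_image_j O N]
  exact ⟨s44mz_isIntegral_of_map _ _, s44mz_isIntegral_map _ _⟩

/-- the base `j`-chart is integrally closed. -/
theorem s44mz_RF_isIntegrallyClosed (N : ℕ) [NeZero N] :
    IsIntegrallyClosed (fc_chart ↥O ({rpz_jF L N} : Set ↥(lg_F L N))) := by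
  haveI := ssm_go_isScalarTower O (lg_F L N)
  haveI := rpz_finite L N
  haveI : Algebra.IsAlgebraic (Algebra.adjoin ↥O ({rpz_jF L N} : Set ↥(lg_F L N))) ↥(lg_F L N) :=
    fc_ff_isAlgebraic (L := L) (rpz_jF L N)
  exact s44mz_chart_isIntegrallyClosed _

/-- `φ` between the `j`-charts. -/
def s44mz_f (N : ℕ) [NeZero N] :
    ↥(fc_chart ↥O ({rpz_jF L N} : Set ↥(lg_F L N))) →ₐ[↥O]
      ↥(fc_chart ↥O ({s44mz_j2E L N} : Set ↥(lg_E L N))) :=
  ((s44mz_phiO O N).comp (fc_chart ↥O ({rpz_jF L N} : Set ↥(lg_F L N))).val).codRestrict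
    (fc_chart ↥O ({s44mz_j2E L N} : Set ↥(lg_E L N)))
    (fun x => (s44mz_phi_mem_iff O N (x : ↥(lg_F L N))).2 x.2)

theorem s44mz_f_coe (N : ℕ) [NeZero N] (x : ↥(fc_chart ↥O ({rpz_jF L N} : Set ↥(lg_F L N)))) :
    ((s44mz_f O N x : ↥(fc_chart ↥O ({s44mz_j2E L N} : Set ↥(lg_E L N)))) : ↥(lg_E L N)) =
      lg_phiE (L := L) (N := N) (x : ↥(lg_F L N)) := rfl

theorem s44mz_f_injective (N : ℕ) [NeZero N] : Function.Injective (s44mz_f O N) := by
  intro x y hxy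
  apply Subtype.ext
  have := congrArg (fun z : ↥(fc_chart ↥O ({s44mz_j2E L N} : Set ↥(lg_E L N))) =>
    (z : ↥(lg_E L N))) hxy
  simp only [s44mz_f_coe] at this
  exact (lg_phiE (L := L) (N := N)).toRingHom.injective this

/-- the Legendre `j`-chart is integral over the base `j`-chart. -/
theorem s44mz_f_isIntegral (N : ℕ) [NeZero N] : (s44mz_f O N).toRingHom.IsIntegral := by
  intro s'
  have hs : IsIntegral
      (Algebra.adjoin ↥O ((s44mz_phiO O N) '' ({rpz_jF L N} : Set ↥(lg_F L N))))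
      (s' : ↥(lg_E L N)) := by
    rw [s44mz_image_j O N]
    exact s'.2
  obtain ⟨p, hp, hps⟩ := hs
  obtain ⟨p0, hp0map, -, hp0m⟩ := Polynomial.lifts_and_degree_eq_and_monic
    ((Polynomial.mem_lifts _).2
      (Polynomial.map_surjective
        (s44mz_adjoinMap (s44mz_phiO O N) ({rpz_jF L N} : Set ↥(lg_F L N))).toRingHom
        (s44mz_adjoinMap_surjective (s44mz_phiO O N) ({rpz_jF L N} : Set ↥(lg_F L N))) p)) hp
  set ι : ↥(Algebra.adjoin ↥O ({rpz_jF L N} : Set ↥(lg_F L N))) →+*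
      ↥(fc_chart ↥O ({rpz_jF L N} : Set ↥(lg_F L N))) :=
    (Subalgebra.inclusion (fc_adjoin_le_chart (A0 := ↥O) _)).toRingHom with hι
  refine ⟨p0.map ι, hp0m.map ι, ?_⟩
  apply Subtype.ext
  have h1 : (((eval₂ (s44mz_f O N).toRingHom s' (p0.map ι) :
      ↥(fc_chart ↥O ({s44mz_j2E L N} : Set ↥(lg_E L N))))) : ↥(lg_E L N)) =
      (fc_chart ↥O ({s44mz_j2E L N} : Set ↥(lg_E L N))).val.toRingHom
        (eval₂ (s44mz_f O N).toRingHom s' (p0.map ι)) := rfl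
  rw [h1, Polynomial.hom_eval₂, Polynomial.eval₂_map]
  have hcomp : (((fc_chart ↥O ({s44mz_j2E L N} : Set ↥(lg_E L N))).val.toRingHom.comp
      (s44mz_f O N).toRingHom).comp ι) =
      (algebraMap (Algebra.adjoin ↥O ((s44mz_phiO O N) '' ({rpz_jF L N} : Set ↥(lg_F L N))))
        ↥(lg_E L N)).comp
        (s44mz_adjoinMap (s44mz_phiO O N) ({rpz_jF L N} : Set ↥(lg_F L N))).toRingHom := by
    ext r; rfl
  rw [hcomp, ← Polynomial.eval₂_map, hp0map]
  exact hps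

/-! ### the two Gauss valuations and `φ` -/

/-- the Gauss valuation subring of the base field `F = lg_F L (N' q)`. -/
abbrev s44mz_VF : ValuationSubring ↥(lg_F L (N' * q)) :=
  gq_valSubOf π hπ.ne_zero hπ.maximalIdeal_eq (lg_F L (N' * q)) (rdn_gf_le_quotField O (N' * q))

/-- **Frobenius congruence on the base**: `W j − j^q ∈ 𝔪(V_F)`. -/
theorem s44mz_frob :
    ssm_al_W L N' q hq.out hqN' (rpz_jF L (N' * q)) - rpz_jF L (N' * q) ^ q ∈
      (s44mz_VF O hπ N' q).nonunits := by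
  letI := ssm_gi_algebra (ssm_al_F_le L N' q)
  letI := ssm_gi_algebraV (ssm_al_F_le L N' q)
    (gq_valSubOf π hπ.ne_zero hπ.maximalIdeal_eq (lg_F L N')
      ((ssm_al_F_le L N' q).trans (rdn_gf_le_quotField O (N' * q))))
  exact (rdn_gf_data O hπ N' q hqN').frob

/-- `j − (W j)^q ∉ 𝔪(V_F)`. -/
theorem s44mz_nfrob :
    rpz_jF L (N' * q) - ssm_al_W L N' q hq.out hqN' (rpz_jF L (N' * q)) ^ q ∉
      (s44mz_VF O hπ N' q).nonunits := by
  letI := ssm_gi_algebra (ssm_al_F_le L N' q)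
  letI := ssm_gi_algebraV (ssm_al_F_le L N' q)
    (gq_valSubOf π hπ.ne_zero hπ.maximalIdeal_eq (lg_F L N')
      ((ssm_al_F_le L N' q).trans (rdn_gf_le_quotField O (N' * q))))
  exact (rdn_gf_data O hπ N' q hqN').nfrob

/-- `φ x ∈ 𝔪(V₁) ↔ x ∈ 𝔪(V_F)`. -/
theorem s44mz_phi_nonunits_iff (x : ↥(lg_F L (N' * q))) :
    lg_phiE (L := L) (N := N' * q) x ∈ (ssm_gl_V1 O hπ N' q).nonunits ↔
      x ∈ (s44mz_VF O hπ N' q).nonunits := by
  have hπ0 := hπ.ne_zero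
  have hπm := hπ.maximalIdeal_eq
  have hquot : gq_IsQuot ↥O L (x : LaurentSeries L) := rdn_gf_le_quotField O (N' * q) x.2
  have hcoe : ((lg_phiE (L := L) (N := N' * q) x : ↥(lg_E L (N' * q))) : LaurentSeries L) =
      qExpand L 2 (x : LaurentSeries L) := rfl
  constructor
  · intro hy
    have hyb : gq_IsBdd ↥O L
        ((lg_phiE (L := L) (N := N' * q) x : ↥(lg_E L (N' * q))) : LaurentSeries L) :=
      ValuationSubring.nonunits_subset hy
    have hb : gq_IsBdd ↥O L (x : LaurentSeries L) :=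
      (ssm_ga_beta_isBdd_iff 2 π hπ0 hπm hquot).1 (hcoe ▸ hyb)
    rw [gq_mem_nonunits_iff_res π hπ0 hπm _ _ x hb]
    have h0 := (gq_mem_nonunits_iff_res π hπ0 hπm _ _ (lg_phiE (L := L) (N := N' * q) x) hyb).1 hy
    have h1 := ssm_ga_res_beta 2 (⟨(x : LaurentSeries L), hb⟩ : ↥(gq_bddSubring ↥O L))
    have h2 : qExpand (ResidueField ↥O) 2 (gq_res ↥O L ⟨(x : LaurentSeries L), hb⟩) = 0 := by
      rw [← h1]; exact h0
    exact qExpand_injective 2 (by rw [h2, map_zero])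
  · intro hx
    have hb : gq_IsBdd ↥O L (x : LaurentSeries L) := ValuationSubring.nonunits_subset hx
    have hyb : gq_IsBdd ↥O L
        ((lg_phiE (L := L) (N := N' * q) x : ↥(lg_E L (N' * q))) : LaurentSeries L) :=
      ssm_ga_beta_isBdd 2 hb
    rw [gq_mem_nonunits_iff_res π hπ0 hπm _ _ (lg_phiE (L := L) (N := N' * q) x) hyb]
    have h0 := (gq_mem_nonunits_iff_res π hπ0 hπm _ _ x hb).1 hx
    have h1 := ssm_ga_res_beta 2 (⟨(x : LaurentSeries L), hb⟩ : ↥(gq_bddSubring ↥O L))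
    have h2 : gq_res ↥O L ⟨((lg_phiE (L := L) (N := N' * q) x : ↥(lg_E L (N' * q))) :
        LaurentSeries L), hyb⟩ =
        qExpand (ResidueField ↥O) 2 (gq_res ↥O L ⟨(x : LaurentSeries L), hb⟩) := h1
    rw [h2, h0, map_zero]

/-- `W_E ∘ φ = φ ∘ W`. -/
theorem s44mz_W_phi (x : ↥(lg_F L (N' * q))) :
    ssm_gl_W L N' q hq2 hqN' (lg_phiE (L := L) (N := N' * q) x) =
      lg_phiE (L := L) (N := N' * q) (ssm_al_W L N' q hq.out hqN' x) :=
  Subtype.ext (ssm_al_coe_WE_phi L N' q hq.out hq2 hqN' x _)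

/-- `φ x ∈ 𝔪(V₂) ↔ W x ∈ 𝔪(V_F)`. -/
theorem s44mz_phi_nonunits2_iff (x : ↥(lg_F L (N' * q))) :
    lg_phiE (L := L) (N := N' * q) x ∈ (ssm_gl_V2 O hπ N' q hq2 hqN').nonunits ↔
      ssm_al_W L N' q hq.out hqN' x ∈ (s44mz_VF O hπ N' q).nonunits := by
  rw [ssm_tw_nonunits_comap, s44mz_W_phi, s44mz_phi_nonunits_iff]

/-! ### the main theorem -/

set_option maxHeartbeats 1600000 in
set_option synthInstance.maxHeartbeats 200000 in
/-- **(N2), valuation form.**  `𝒱` a valuation subring of `E = lg_E L (N' q)` containing `O` and `j₂`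
(i.e. centred at a point of finite `j`-invariant), "supersingular" in the sense that every function
`b` on the base `j`-chart whose Atkin–Lehner transform `W b` has Gauss residue `0` (i.e. `b`
vanishes on the `0`-component) satisfies `φ b ∈ 𝔪(𝒱)`.  Then every function on the Legendre `j`-chart
vanishing on the `0`-component `V₂` vanishes at `𝒱`. -/
theorem s44mz_P2_le
    (hprime : Prime (algebraMap ↥O (fc_chart ↥O ({lg_lamE N'} : Set ↥(lg_E L N'))) π))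
    (𝒱 : ValuationSubring ↥(lg_E L (N' * q)))
    (hO𝒱 : ∀ a : O, algebraMap ↥O ↥(lg_E L (N' * q)) a ∈ 𝒱)
    (hj : s44mz_j2E L (N' * q) ∈ 𝒱)
    (hSS : ∀ b : ↥(lg_F L (N' * q)),
      b ∈ fc_chart ↥O ({rpz_jF L (N' * q)} : Set ↥(lg_F L (N' * q))) →
      ssm_al_W L N' q hq.out hqN' b ∈ (s44mz_VF O hπ N' q).nonunits →
      lg_phiE (L := L) (N := N' * q) b ∈ 𝒱.nonunits) :
    ∀ t ∈ fc_chart ↥O ({s44mz_j2E L (N' * q)} : Set ↥(lg_E L (N' * q))),
      t ∈ (ssm_gl_V2 O hπ N' q hq2 hqN').nonunits → t ∈ 𝒱.nonunits := by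
  intro t htS ht2
  haveI := ssm_go_isScalarTower O (lg_E L (N' * q))
  have hx : Transcendental L (lg_lamE (L := L) (N' * q)) :=
    lgf_lam_transcendental L (N' * q) two_ne_zero
  have hyA : Transcendental ↥O (lg_lamE (L := L) (N' * q)) := fc_ff_transcendental (L := L) hx
  haveI : IsIntegrallyClosed (Algebra.adjoin ↥O ({lg_lamE (N' * q)} : Set ↥(lg_E L (N' * q)))) :=
    fc_ff_isIntegrallyClosed hyA
  haveI : FaithfulSMul (Algebra.adjoin ↥O ({lg_lamE (N' * q)} : Set ↥(lg_E L (N' * q))))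
      ↥(lg_E L (N' * q)) :=
    (faithfulSMul_iff_algebraMap_injective _ _).2 Subtype.val_injective
  have H := ssm_gl_hyp O hπ N' q hq2 hqN' hprime
  have hC := s44mz_chartS O hπ N' q hq2
  -- the chart lies in `𝒱`
  have hadj : ∀ r : Algebra.adjoin ↥O ({s44mz_j2E L (N' * q)} : Set ↥(lg_E L (N' * q))),
      algebraMap (Algebra.adjoin ↥O ({s44mz_j2E L (N' * q)} : Set ↥(lg_E L (N' * q))))
        ↥(lg_E L (N' * q)) r ∈ 𝒱 := by
    rintro ⟨r, hr⟩
    show r ∈ 𝒱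
    induction hr using Algebra.adjoin_induction with
    | mem s hs => rw [Set.mem_singleton_iff] at hs; rw [hs]; exact hj
    | algebraMap a => exact hO𝒱 a
    | add a b _ _ ha hb => exact 𝒱.add_mem _ _ ha hb
    | mul a b _ _ ha hb => exact 𝒱.mul_mem _ _ ha hb
  have hS𝒱 : ∀ b ∈ fc_chart ↥O ({s44mz_j2E L (N' * q)} : Set ↥(lg_E L (N' * q))), b ∈ 𝒱 :=
    fun b hb => ssm_tp_mem_of_isIntegral 𝒱 hadj (fc_mem_chart.1 hb)
  haveI hP1 := H.P1_isPrime hC
  haveI hP2 := H.P2_isPrime hC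
  haveI h𝔫 : (ssm_tp_P (fc_chart ↥O ({s44mz_j2E L (N' * q)} : Set ↥(lg_E L (N' * q)))) 𝒱).IsPrime :=
    ssm_tp_P_isPrime hS𝒱
  haveI := s44mz_RF_isIntegrallyClosed O (L := L) (N' * q)
  -- the uniformiser
  have hfπ : ((s44mz_f O (N' * q)).toRingHom
      (algebraMap ↥O ↥(fc_chart ↥O ({rpz_jF L (N' * q)} : Set ↥(lg_F L (N' * q)))) π) :
        ↥(fc_chart ↥O ({s44mz_j2E L (N' * q)} : Set ↥(lg_E L (N' * q))))) =
      algebraMap ↥O ↥(fc_chart ↥O ({s44mz_j2E L (N' * q)} : Set ↥(lg_E L (N' * q)))) π :=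
    (s44mz_f O (N' * q)).commutes π
  have hϖ : ((algebraMap ↥O ↥(fc_chart ↥O ({s44mz_j2E L (N' * q)} : Set ↥(lg_E L (N' * q)))) π :
      ↥(fc_chart ↥O ({s44mz_j2E L (N' * q)} : Set ↥(lg_E L (N' * q))))) : ↥(lg_E L (N' * q))) =
      algebraMap (Algebra.adjoin ↥O ({lg_lamE (N' * q)} : Set ↥(lg_E L (N' * q))))
        ↥(lg_E L (N' * q))
        (algebraMap ↥O (Algebra.adjoin ↥O ({lg_lamE (N' * q)} : Set ↥(lg_E L (N' * q)))) π) := rfl
  have hPinf := H.P_inf hC _ hϖ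
  have key := s44mz_gd (s44mz_f O (N' * q)).toRingHom (s44mz_f_injective O (N' * q))
    (s44mz_f_isIntegral O (N' * q))
    (ssm_tp_P (fc_chart ↥O ({s44mz_j2E L (N' * q)} : Set ↥(lg_E L (N' * q))))
      (ssm_gl_V1 O hπ N' q))
    (ssm_tp_P (fc_chart ↥O ({s44mz_j2E L (N' * q)} : Set ↥(lg_E L (N' * q))))
      (ssm_gl_V2 O hπ N' q hq2 hqN'))
    (ssm_tp_P (fc_chart ↥O ({s44mz_j2E L (N' * q)} : Set ↥(lg_E L (N' * q)))) 𝒱)
    (algebraMap ↥O ↥(fc_chart ↥O ({rpz_jF L (N' * q)} : Set ↥(lg_F L (N' * q)))) π)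
    ?_ ?_ ?_ ?_
  · have h1 : (⟨t, htS⟩ : ↥(fc_chart ↥O ({s44mz_j2E L (N' * q)} : Set ↥(lg_E L (N' * q))))) ∈
        ssm_tp_P (fc_chart ↥O ({s44mz_j2E L (N' * q)} : Set ↥(lg_E L (N' * q))))
          (ssm_gl_V2 O hπ N' q hq2 hqN') := (H.mem_P2 hC).2 ht2
    exact (ssm_tp_mem_P hS𝒱).1 (key h1)
  · -- `π ∈ P₂`
    rw [hfπ]
    have h1 : algebraMap ↥O ↥(fc_chart ↥O ({s44mz_j2E L (N' * q)} : Set ↥(lg_E L (N' * q)))) π ∈
        ssm_tp_P (fc_chart ↥O ({s44mz_j2E L (N' * q)} : Set ↥(lg_E L (N' * q))))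
            (ssm_gl_V1 O hπ N' q) ⊓
          ssm_tp_P (fc_chart ↥O ({s44mz_j2E L (N' * q)} : Set ↥(lg_E L (N' * q))))
            (ssm_gl_V2 O hπ N' q hq2 hqN') := by
      rw [← hPinf]; exact Ideal.mem_span_singleton_self _
    exact h1.2
  · -- the two components
    intro 𝔓 h𝔓 hmem
    rw [hfπ] at hmem
    refine (Ideal.IsPrime.inf_le h𝔓).1 ?_
    rw [← hPinf, Ideal.span_le, Set.singleton_subset_iff]
    exact hmem
  · -- the components of the base are distinct: `W j − j^q`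
    have hjF : rpz_jF L (N' * q) ∈ fc_chart ↥O ({rpz_jF L (N' * q)} : Set ↥(lg_F L (N' * q))) :=
      fc_x_mem_chart _
    have hWj : ssm_al_W L N' q hq.out hqN' (rpz_jF L (N' * q)) ∈
        fc_chart ↥O ({rpz_jF L (N' * q)} : Set ↥(lg_F L (N' * q))) := by
      rw [← s44mz_phi_mem_iff O (N' * q), s44mz_phiO_apply, ← s44mz_W_phi N' q hq2 hqN',
        ← s44mz_phiO_apply O, s44mz_phiO_j]
      exact s44mz_Wj2_mem O hπ N' q hq2 hqN' hprime
    refine ⟨⟨ssm_al_W L N' q hq.out hqN' (rpz_jF L (N' * q)) - rpz_jF L (N' * q) ^ q,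
      sub_mem hWj (pow_mem hjF q)⟩, ?_, ?_⟩
    · rw [H.mem_P1 hC]
      show lg_phiE (L := L) (N := N' * q)
        (ssm_al_W L N' q hq.out hqN' (rpz_jF L (N' * q)) - rpz_jF L (N' * q) ^ q) ∈ _
      rw [s44mz_phi_nonunits_iff]
      exact s44mz_frob O hπ N' q hqN'
    · rw [H.mem_P2 hC]
      show lg_phiE (L := L) (N := N' * q)
        (ssm_al_W L N' q hq.out hqN' (rpz_jF L (N' * q)) - rpz_jF L (N' * q) ^ q) ∉ _
      rw [s44mz_phi_nonunits2_iff, map_sub, map_pow, ssm_al_W_W]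
      exact s44mz_nfrob O hπ N' q hqN'
  · -- supersingularity
    intro a ha
    rw [H.mem_P2 hC] at ha
    have ha' : lg_phiE (L := L) (N := N' * q) (a : ↥(lg_F L (N' * q))) ∈
        (ssm_gl_V2 O hπ N' q hq2 hqN').nonunits := ha
    rw [s44mz_phi_nonunits2_iff] at ha'
    exact (ssm_tp_mem_P hS𝒱).2 (hSS a a.2 ha')

/-- a valuation subring containing `O` and `j₂` contains the Legendre `j`-chart. -/
theorem s44mz_S_le (N : ℕ) [NeZero N] (𝒱 : ValuationSubring ↥(lg_E L N))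
    (hO𝒱 : ∀ a : O, algebraMap ↥O ↥(lg_E L N) a ∈ 𝒱) (hj : s44mz_j2E L N ∈ 𝒱) :
    ∀ b ∈ fc_chart ↥O ({s44mz_j2E L N} : Set ↥(lg_E L N)), b ∈ 𝒱 := by
  have hadj : ∀ r : Algebra.adjoin ↥O ({s44mz_j2E L N} : Set ↥(lg_E L N)),
      algebraMap (Algebra.adjoin ↥O ({s44mz_j2E L N} : Set ↥(lg_E L N))) ↥(lg_E L N) r ∈ 𝒱 := by
    rintro ⟨r, hr⟩
    show r ∈ 𝒱
    induction hr using Algebra.adjoin_induction with
    | mem s hs => rw [Set.mem_singleton_iff] at hs; rw [hs]; exact hj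
    | algebraMap a => exact hO𝒱 a
    | add a b _ _ ha hb => exact 𝒱.add_mem _ _ ha hb
    | mul a b _ _ ha hb => exact 𝒱.mul_mem _ _ ha hb
  exact fun b hb => ssm_tp_mem_of_isIntegral 𝒱 hadj (fc_mem_chart.1 hb)

include hq2 in
/-- the `λ`-chart is contained in the Legendre `j`-chart. -/
theorem s44mz_B_le_S (N : ℕ) [NeZero N] :
    fc_chart ↥O ({lg_lamE N} : Set ↥(lg_E L N)) ≤ fc_chart ↥O ({s44mz_j2E L N} : Set ↥(lg_E L N)) := by
  obtain ⟨u, hu⟩ := s44mz_exists_u O q hq2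
  exact s44mz_chart_le (A0 := ↥O) (s44mz_legE L N) u hu

set_option maxHeartbeats 1600000 in
set_option synthInstance.maxHeartbeats 200000 in
/-- **(N2), ideal form on the `λ`-chart** `B = fc_chart O {λ}`: `P₂ ∩ B ⊆ 𝔫(𝒱)`. -/
theorem s44mz_P2_le_chart
    (hprime : Prime (algebraMap ↥O (fc_chart ↥O ({lg_lamE N'} : Set ↥(lg_E L N'))) π))
    (𝒱 : ValuationSubring ↥(lg_E L (N' * q)))
    (hO𝒱 : ∀ a : O, algebraMap ↥O ↥(lg_E L (N' * q)) a ∈ 𝒱)
    (hj : s44mz_j2E L (N' * q) ∈ 𝒱)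
    (hSS : ∀ b : ↥(lg_F L (N' * q)),
      b ∈ fc_chart ↥O ({rpz_jF L (N' * q)} : Set ↥(lg_F L (N' * q))) →
      ssm_al_W L N' q hq.out hqN' b ∈ (s44mz_VF O hπ N' q).nonunits →
      lg_phiE (L := L) (N := N' * q) b ∈ 𝒱.nonunits) :
    ssm_tp_P (fc_chart ↥O ({lg_lamE (N' * q)} : Set ↥(lg_E L (N' * q))))
        (ssm_gl_V2 O hπ N' q hq2 hqN') ≤
      ssm_tp_P (fc_chart ↥O ({lg_lamE (N' * q)} : Set ↥(lg_E L (N' * q)))) 𝒱 := by
  haveI := ssm_go_isScalarTower O (lg_E L (N' * q))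
  have hx : Transcendental L (lg_lamE (L := L) (N' * q)) :=
    lgf_lam_transcendental L (N' * q) two_ne_zero
  have hyA : Transcendental ↥O (lg_lamE (L := L) (N' * q)) := fc_ff_transcendental (L := L) hx
  haveI : IsIntegrallyClosed (Algebra.adjoin ↥O ({lg_lamE (N' * q)} : Set ↥(lg_E L (N' * q)))) :=
    fc_ff_isIntegrallyClosed hyA
  haveI : FaithfulSMul (Algebra.adjoin ↥O ({lg_lamE (N' * q)} : Set ↥(lg_E L (N' * q))))
      ↥(lg_E L (N' * q)) :=
    (faithfulSMul_iff_algebraMap_injective _ _).2 Subtype.val_injective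
  have H := ssm_gl_hyp O hπ N' q hq2 hqN' hprime
  have hC := ssm_tp_ff_chart (L := L) hπ hx
  have hle := s44mz_B_le_S O q hq2 (N' * q)
  have hS𝒱 := s44mz_S_le O (N' * q) 𝒱 hO𝒱 hj
  have hB𝒱 : ∀ b ∈ fc_chart ↥O ({lg_lamE (N' * q)} : Set ↥(lg_E L (N' * q))), b ∈ 𝒱 :=
    fun b hb => hS𝒱 b (hle hb)
  intro b hb
  rw [H.mem_P2 hC] at hb
  rw [ssm_tp_mem_P hB𝒱]
  exact s44mz_P2_le O hπ N' q hq2 hqN' hprime 𝒱 hO𝒱 hj hSS _ (hle b.2) hb

set_option maxHeartbeats 1600000 in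
set_option synthInstance.maxHeartbeats 200000 in
/-- **(N2) THE CENTRE, valuation form.**  `𝒱 ≤ V₁` a valuation subring of `E` (in use: the composite
`tori_comp V₁ r hker Q₂` of the Gauss valuation with a place `Q₂` of the residue function field) with
residue field algebraic over `O/π`, centred at finite `j` and supersingular.  Then `λ ∈ 𝒱`, the centre
`𝔫 = 𝔪(𝒱) ∩ B` of `𝒱` on the `λ`-chart `B = fc_chart O {λ}` is a maximal ideal, and it contains BOTH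
component primes `P₁ = 𝔪(V₁) ∩ B` and `P₂ = 𝔪(V₂) ∩ B`: these are the hypotheses of `ssm_nlb_node` /
`ssm_nlb_thick_nf` at `𝔫`. -/
theorem s44mz_centre
    (hprime : Prime (algebraMap ↥O (fc_chart ↥O ({lg_lamE N'} : Set ↥(lg_E L N'))) π))
    (𝒱 : ValuationSubring ↥(lg_E L (N' * q))) (h𝒱 : 𝒱 ≤ ssm_gl_V1 O hπ N' q)
    (hO𝒱 : ∀ a : O, algebraMap ↥O ↥(lg_E L (N' * q)) a ∈ 𝒱)
    (halg : ∀ z ∈ 𝒱, ∃ p : (↥O)[X], p.Monic ∧ aeval z p ∈ 𝒱.nonunits)
    (hj : s44mz_j2E L (N' * q) ∈ 𝒱)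
    (hSS : ∀ b : ↥(lg_F L (N' * q)),
      b ∈ fc_chart ↥O ({rpz_jF L (N' * q)} : Set ↥(lg_F L (N' * q))) →
      ssm_al_W L N' q hq.out hqN' b ∈ (s44mz_VF O hπ N' q).nonunits →
      lg_phiE (L := L) (N := N' * q) b ∈ 𝒱.nonunits) :
    lg_lamE (N' * q) ∈ 𝒱 ∧
    (ssm_tp_P (fc_chart ↥O ({lg_lamE (N' * q)} : Set ↥(lg_E L (N' * q)))) 𝒱).IsMaximal ∧
    (∀ b : ↥(fc_chart ↥O ({lg_lamE (N' * q)} : Set ↥(lg_E L (N' * q)))),
      b ∈ ssm_tp_P (fc_chart ↥O ({lg_lamE (N' * q)} : Set ↥(lg_E L (N' * q)))) 𝒱 ↔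
        (b : ↥(lg_E L (N' * q))) ∈ 𝒱.nonunits) ∧
    ssm_tp_P (fc_chart ↥O ({lg_lamE (N' * q)} : Set ↥(lg_E L (N' * q))))
        (ssm_gl_V1 O hπ N' q) ≤
      ssm_tp_P (fc_chart ↥O ({lg_lamE (N' * q)} : Set ↥(lg_E L (N' * q)))) 𝒱 ∧
    ssm_tp_P (fc_chart ↥O ({lg_lamE (N' * q)} : Set ↥(lg_E L (N' * q))))
        (ssm_gl_V2 O hπ N' q hq2 hqN') ≤
      ssm_tp_P (fc_chart ↥O ({lg_lamE (N' * q)} : Set ↥(lg_E L (N' * q)))) 𝒱 := by
  haveI := ssm_go_isScalarTower O (lg_E L (N' * q))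
  have hx : Transcendental L (lg_lamE (L := L) (N' * q)) :=
    lgf_lam_transcendental L (N' * q) two_ne_zero
  have hyA : Transcendental ↥O (lg_lamE (L := L) (N' * q)) := fc_ff_transcendental (L := L) hx
  haveI : IsIntegrallyClosed (Algebra.adjoin ↥O ({lg_lamE (N' * q)} : Set ↥(lg_E L (N' * q)))) :=
    fc_ff_isIntegrallyClosed hyA
  haveI : FaithfulSMul (Algebra.adjoin ↥O ({lg_lamE (N' * q)} : Set ↥(lg_E L (N' * q))))
      ↥(lg_E L (N' * q)) :=
    (faithfulSMul_iff_algebraMap_injective _ _).2 Subtype.val_injective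
  have H := ssm_gl_hyp O hπ N' q hq2 hqN' hprime
  have hC := ssm_tp_ff_chart (L := L) hπ hx
  have hle := s44mz_B_le_S O q hq2 (N' * q)
  have hS𝒱 := s44mz_S_le O (N' * q) 𝒱 hO𝒱 hj
  have hB𝒱 : ∀ b ∈ fc_chart ↥O ({lg_lamE (N' * q)} : Set ↥(lg_E L (N' * q))), b ∈ 𝒱 :=
    fun b hb => hS𝒱 b (hle hb)
  have hnu : (ssm_gl_V1 O hπ N' q).nonunits ≤ 𝒱.nonunits :=
    ValuationSubring.nonunits_le_nonunits.2 h𝒱
  have hπ𝒱 : algebraMap ↥O ↥(lg_E L (N' * q)) π ∈ 𝒱.nonunits := hnu H.over1.pi_mem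
  have hk : ∀ a : O, algebraMap ↥O ↥(lg_E L (N' * q)) a ∈ 𝒱.nonunits ∨ IsUnit a := by
    intro a
    by_cases ha : a ∈ maximalIdeal ↥O
    · left
      rw [hπ.maximalIdeal_eq, Ideal.mem_span_singleton] at ha
      obtain ⟨c, rfl⟩ := ha
      rw [map_mul]
      exact ssm_tp_nonunits_mul 𝒱 hπ𝒱 (hO𝒱 c)
    · right
      exact (IsLocalRing.notMem_maximalIdeal.1 ha)
  refine ⟨hB𝒱 _ (fc_x_mem_chart _), tori_sfd_centre_isMaximal 𝒱 hB𝒱 hk halg,
    fun b => ssm_tp_mem_P hB𝒱, ?_,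
    s44mz_P2_le_chart O hπ N' q hq2 hqN' hprime 𝒱 hO𝒱 hj hSS⟩
  intro b hb
  rw [ssm_tp_mem_P hB𝒱]
  exact hnu ((H.mem_P1 hC).1 hb)

set_option maxHeartbeats 1600000 in
set_option synthInstance.maxHeartbeats 200000 in
/-- **(N2) THE CENTRE, place form** (vocabulary of `s44rs_hdiv_place`): `r : V₁ →+* κ` a reduction
map of the Gauss valuation ring into a function field `κ / k` (`k` the residue field of `O`), `v` a
place of `κ / k` at which `j̄₂ = r j₂` is finite and which is supersingular (every function on the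
base `j`-chart vanishing on the `0`-component has `r (φ b) ∈ 𝔪_v`).  Then the centre of the composite
valuation `𝒱 = tori_comp V₁ r hker v` on the `λ`-chart is a maximal ideal lying on both components. -/
theorem s44mz_centre_place
    (hprime : Prime (algebraMap ↥O (fc_chart ↥O ({lg_lamE N'} : Set ↥(lg_E L N'))) π))
    {k κ : Type*} [Field k] [Field κ] [Algebra k κ] (ρ : ↥O →+* k) (hρ : Function.Surjective ρ)
    (r : ↥(ssm_gl_V1 O hπ N' q) →+* κ)
    (hker : ∀ z : ↥(ssm_gl_V1 O hπ N' q),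
      (z : ↥(lg_E L (N' * q))) ∈ (ssm_gl_V1 O hπ N' q).nonunits → r z = 0)
    (hrA : ∀ (a : ↥O) (h : algebraMap ↥O ↥(lg_E L (N' * q)) a ∈ ssm_gl_V1 O hπ N' q),
      r ⟨algebraMap ↥O ↥(lg_E L (N' * q)) a, h⟩ = algebraMap k κ (ρ a))
    (xb : κ) [Algebra.IsAlgebraic k⟮xb⟯ κ] (v : AlgebraicCurve.Place k κ)
    (hj : ∃ h : s44mz_j2E L (N' * q) ∈ ssm_gl_V1 O hπ N' q,
      r ⟨s44mz_j2E L (N' * q), h⟩ ∈ v.toValuationSubring)
    (hSS : ∀ b : ↥(lg_F L (N' * q)),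
      b ∈ fc_chart ↥O ({rpz_jF L (N' * q)} : Set ↥(lg_F L (N' * q))) →
      ssm_al_W L N' q hq.out hqN' b ∈ (s44mz_VF O hπ N' q).nonunits →
      ∃ h : lg_phiE (L := L) (N := N' * q) b ∈ ssm_gl_V1 O hπ N' q,
        r ⟨lg_phiE (L := L) (N := N' * q) b, h⟩ ∈ v.toValuationSubring.nonunits) :
    lg_lamE (N' * q) ∈ tori_comp (ssm_gl_V1 O hπ N' q) r hker v.toValuationSubring ∧
    (ssm_tp_P (fc_chart ↥O ({lg_lamE (N' * q)} : Set ↥(lg_E L (N' * q))))
      (tori_comp (ssm_gl_V1 O hπ N' q) r hker v.toValuationSubring)).IsMaximal ∧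
    (∀ b : ↥(fc_chart ↥O ({lg_lamE (N' * q)} : Set ↥(lg_E L (N' * q)))),
      b ∈ ssm_tp_P (fc_chart ↥O ({lg_lamE (N' * q)} : Set ↥(lg_E L (N' * q))))
          (tori_comp (ssm_gl_V1 O hπ N' q) r hker v.toValuationSubring) ↔
        (b : ↥(lg_E L (N' * q))) ∈
          (tori_comp (ssm_gl_V1 O hπ N' q) r hker v.toValuationSubring).nonunits) ∧
    ssm_tp_P (fc_chart ↥O ({lg_lamE (N' * q)} : Set ↥(lg_E L (N' * q))))
        (ssm_gl_V1 O hπ N' q) ≤
      ssm_tp_P (fc_chart ↥O ({lg_lamE (N' * q)} : Set ↥(lg_E L (N' * q))))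
        (tori_comp (ssm_gl_V1 O hπ N' q) r hker v.toValuationSubring) ∧
    ssm_tp_P (fc_chart ↥O ({lg_lamE (N' * q)} : Set ↥(lg_E L (N' * q))))
        (ssm_gl_V2 O hπ N' q hq2 hqN') ≤
      ssm_tp_P (fc_chart ↥O ({lg_lamE (N' * q)} : Set ↥(lg_E L (N' * q))))
        (tori_comp (ssm_gl_V1 O hπ N' q) r hker v.toValuationSubring) := by
  haveI := ssm_go_isScalarTower O (lg_E L (N' * q))
  have hx : Transcendental L (lg_lamE (L := L) (N' * q)) :=
    lgf_lam_transcendental L (N' * q) two_ne_zero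
  have hyA : Transcendental ↥O (lg_lamE (L := L) (N' * q)) := fc_ff_transcendental (L := L) hx
  haveI : IsIntegrallyClosed (Algebra.adjoin ↥O ({lg_lamE (N' * q)} : Set ↥(lg_E L (N' * q)))) :=
    fc_ff_isIntegrallyClosed hyA
  haveI : FaithfulSMul (Algebra.adjoin ↥O ({lg_lamE (N' * q)} : Set ↥(lg_E L (N' * q))))
      ↥(lg_E L (N' * q)) :=
    (faithfulSMul_iff_algebraMap_injective _ _).2 Subtype.val_injective
  have H := ssm_gl_hyp O hπ N' q hq2 hqN' hprime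
  have hA1 : ∀ a : ↥O, algebraMap ↥O ↥(lg_E L (N' * q)) a ∈ (ssm_gl_V1 O hπ N' q) := fun a => by
    have := H.over1.le (algebraMap ↥O
      (Algebra.adjoin ↥O ({lg_lamE (N' * q)} : Set ↥(lg_E L (N' * q)))) a)
    exact this
  have hA : ∀ a : ↥O, algebraMap ↥O ↥(lg_E L (N' * q)) a ∈ tori_comp (ssm_gl_V1 O hπ N' q) r hker v.toValuationSubring := fun a =>
    ⟨hA1 a, by rw [hrA]; exact v.algebraMap_mem' _⟩
  -- the ring homomorphism `O → (ssm_gl_V1 O hπ N' q)`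
  let ι : ↥O →+* ↥(ssm_gl_V1 O hπ N' q) :=
    { toFun := fun a => ⟨algebraMap ↥O ↥(lg_E L (N' * q)) a, hA1 a⟩
      map_one' := Subtype.ext (map_one _)
      map_mul' := fun a b => Subtype.ext (map_mul _ a b)
      map_zero' := Subtype.ext (map_zero _)
      map_add' := fun a b => Subtype.ext (map_add _ a b) }
  have hι1 : (ssm_gl_V1 O hπ N' q).subtype.comp ι = algebraMap ↥O ↥(lg_E L (N' * q)) := RingHom.ext fun a => rfl
  have hι2 : r.comp ι = (algebraMap k κ).comp ρ := RingHom.ext fun a => hrA a (hA1 a)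
  have halg : ∀ z ∈ tori_comp (ssm_gl_V1 O hπ N' q) r hker v.toValuationSubring,
      ∃ p : (↥O)[X], p.Monic ∧ aeval z p ∈ (tori_comp (ssm_gl_V1 O hπ N' q) r hker v.toValuationSubring).nonunits := by
    rintro z ⟨hzV, hzW⟩
    obtain ⟨pb, hpb, hpbW⟩ := tori_sfd_place_alg xb v hzW
    obtain ⟨P, hPmap, -, hPm⟩ := Polynomial.lifts_and_degree_eq_and_monic
      ((Polynomial.mem_lifts _).2 (Polynomial.map_surjective ρ hρ pb)) hpb
    refine ⟨P, hPm, ?_⟩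
    have h1 : ((eval₂ ι ⟨z, hzV⟩ P : ↥(ssm_gl_V1 O hπ N' q)) : ↥(lg_E L (N' * q))) = aeval z P := by
      have := Polynomial.hom_eval₂ P ι (ssm_gl_V1 O hπ N' q).subtype ⟨z, hzV⟩
      rw [hι1] at this
      rw [aeval_def]
      exact this
    have h2 : r (eval₂ ι ⟨z, hzV⟩ P) = aeval (r ⟨z, hzV⟩) pb := by
      rw [Polynomial.hom_eval₂, hι2, ← Polynomial.eval₂_map, hPmap, aeval_def]
    rw [tori_comp_mem_nonunits_iff]
    refine ⟨h1 ▸ (eval₂ ι ⟨z, hzV⟩ P).2, ?_⟩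
    have h3 : (⟨aeval z P, h1 ▸ (eval₂ ι ⟨z, hzV⟩ P).2⟩ : ↥(ssm_gl_V1 O hπ N' q)) = eval₂ ι ⟨z, hzV⟩ P :=
      Subtype.ext h1.symm
    rw [h3, h2]
    exact hpbW
  exact s44mz_centre O hπ N' q hq2 hqN' hprime (tori_comp (ssm_gl_V1 O hπ N' q) r hker v.toValuationSubring) (tori_comp_le (ssm_gl_V1 O hπ N' q) r hker v.toValuationSubring)
    hA halg ((tori_comp_mem_iff (ssm_gl_V1 O hπ N' q) r hker v.toValuationSubring).2 hj)
    (fun b hb hWb => (tori_comp_mem_nonunits_iff (ssm_gl_V1 O hπ N' q) r hker v.toValuationSubring).2 (hSS b hb hWb))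

end Legendre

end Fermat.Agent.S44
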