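/-
Project S44 (Mazur–Ribet at `p`), cell [H2-N] / (ND-Leg), step (N2)(i) "CHART CHOICE + MAXIMALITY"
(helper1).  Prefix `s44mz_`.

The `hSS`-FREE part of `s44mz_centre` (Mono/Centre.lean): for ANY valuation subring `𝒱 ≤ V₁` of
`E = lg_E L (N' q)` containing `O`, with `j₂ ∈ 𝒱` (finite `j`) and residue field algebraic over `O/π`:
`λ ∈ 𝒱` (the `λ`-chart ALWAYS suffices when `j̄` is finite: `λ` is integral over `O[j₂]`), the centre
`𝔫 = 𝔪(𝒱) ∩ B` on `B = fc_chart O {λ}` is MAXIMAL, `b ∈ 𝔫 ↔ b ∈ 𝔪(𝒱)`, and `P₁ ≤ 𝔫`.  Valid at smooth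
points and at nodes alike.
-/
import Mathlib
import Fermat.Agent.S44.Mono.Centre
import Fermat.Agent.S24.Hurwitz.Places

set_option autoImplicit false
set_option linter.unusedSectionVars false
set_option linter.style.haveILetI false
set_option linter.unusedVariables false

noncomputable section

namespace Fermat.Agent.S44

open Polynomial ModularCurve IntermediateField IsLocalRing
open Fermat.Agent.JT3 Fermat.Agent.SS Fermat.Agent.S35 Fermat.Agent.S24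

section ResAlg

variable {k κ : Type*} [Field k] [Field κ] [Algebra k κ]

/-- **the residue field of a non-trivial valuation subring `𝒲 ⊇ k` of a function field of one
variable `κ / k` is algebraic over `k`**, in "monic polynomial" form (`hw_isAlgebraic_residue` for a
valuation subring which is not yet known to be discrete). -/
theorem s44mz_residue_alg (xb : κ) [Algebra.IsAlgebraic k⟮xb⟯ κ] (𝒲 : ValuationSubring κ)
    (hk : ∀ c : k, algebraMap k κ c ∈ 𝒲) (hne : 𝒲 ≠ ⊤) {y : κ} (hy : y ∈ 𝒲) :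
    ∃ p : k[X], p.Monic ∧ aeval y p ∈ 𝒲.nonunits := by
  by_contra hcon
  push Not at hcon
  have hmem : ∀ s : k[X], aeval y s ∈ 𝒲 := by
    intro s
    rw [aeval_eq_sum_range]
    refine 𝒲.toSubring.sum_mem fun i _ => ?_
    rw [Algebra.smul_def]
    exact 𝒲.mul_mem _ _ (hk _) (𝒲.pow_mem hy i)
  -- every nonzero polynomial in `y` is a unit of `𝒲`
  have hunit : ∀ s : k[X], s ≠ 0 → (aeval y s)⁻¹ ∈ 𝒲 ∧ aeval y s ≠ 0 := by
    intro s hs
    have hlc : s.leadingCoeff ≠ 0 := leadingCoeff_ne_zero.2 hs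
    have hm : (C s.leadingCoeff⁻¹ * s).Monic := by
      rw [mul_comm]
      exact monic_mul_leadingCoeff_inv hs
    have h1 := hcon _ hm
    have h2 : aeval y (C s.leadingCoeff⁻¹ * s) = algebraMap k κ s.leadingCoeff⁻¹ * aeval y s := by
      rw [map_mul, aeval_C]
    have h3 : aeval y (C s.leadingCoeff⁻¹ * s) ∈ 𝒲 := hmem _
    have h4 : (aeval y (C s.leadingCoeff⁻¹ * s))⁻¹ ∈ 𝒲 := by
      by_contra h5
      exact h1 ((ValuationSubring.mem_nonunits_iff_exists_mem_maximalIdeal).2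
        ⟨h3, by
          rw [IsLocalRing.mem_maximalIdeal, mem_nonunits_iff]
          intro hu
          obtain ⟨u, hu⟩ := hu
          apply h5
          have h6 := congrArg (fun t : 𝒲 => (t : κ)) u.mul_inv
          simp only [MulMemClass.coe_mul, OneMemClass.coe_one] at h6
          rw [hu] at h6
          rw [inv_eq_of_mul_eq_one_right h6]
          exact ((u⁻¹ : (𝒲)ˣ) : 𝒲).2⟩)
    have h7 : aeval y (C s.leadingCoeff⁻¹ * s) ≠ 0 := by
      intro h0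
      apply h1
      rw [h0]
      exact (ValuationSubring.mem_nonunits_iff_exists_mem_maximalIdeal).2
        ⟨𝒲.zero_mem, by
          have : (⟨0, 𝒲.zero_mem⟩ : 𝒲) = 0 := rfl
          rw [this]
          exact Ideal.zero_mem _⟩
    rw [h2] at h4 h7
    have hc0 : algebraMap k κ s.leadingCoeff⁻¹ ≠ 0 := left_ne_zero_of_mul h7
    refine ⟨?_, right_ne_zero_of_mul h7⟩
    have : (aeval y s)⁻¹ = algebraMap k κ s.leadingCoeff⁻¹ *
        (algebraMap k κ s.leadingCoeff⁻¹ * aeval y s)⁻¹ := by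
      rw [mul_inv, ← mul_assoc, mul_inv_cancel₀ hc0, one_mul]
    rw [this]
    exact 𝒲.mul_mem _ _ (hk _) h4
  -- `y` is transcendental over `k`
  have haF : Transcendental k y := by
    rw [transcendental_iff]
    intro p hp
    by_contra hp0
    exact (hunit p hp0).2 hp
  have := hw_isAlgebraic_adjoin_of_transcendental xb haF
  -- `k⟮y⟯ ⊆ 𝒲`
  have hsub : ∀ z : κ, z ∈ k⟮y⟯ → z ∈ 𝒲 := by
    intro z hz
    obtain ⟨r, s, rfl⟩ := (IntermediateField.mem_adjoin_simple_iff k z).mp hz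
    rcases eq_or_ne s 0 with rfl | hs0
    · simp [𝒲.zero_mem]
    · rw [div_eq_mul_inv]
      exact 𝒲.mul_mem _ _ (hmem r) (hunit s hs0).1
  apply hne
  rw [eq_top_iff]
  intro f _
  let ι : k⟮y⟯ →+* 𝒲 :=
    (algebraMap k⟮y⟯ κ).codRestrict 𝒲.toSubring (fun z => hsub _ z.2)
  have hint : IsIntegral k⟮y⟯ f := (Algebra.IsAlgebraic.isAlgebraic f).isIntegral
  obtain ⟨p, hpm, hp0⟩ := hint
  have hintO : IsIntegral 𝒲 f := by
    refine ⟨p.map ι, hpm.map ι, ?_⟩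
    rw [eval₂_map]
    have : (algebraMap 𝒲 κ).comp ι = algebraMap k⟮y⟯ κ := by
      ext z; rfl
    rw [this]
    exact hp0
  obtain ⟨z, hz⟩ := IsIntegrallyClosed.isIntegral_iff.mp hintO
  rw [← hz]
  exact z.2

end ResAlg

section Legendre

variable {L : Type*} [Field L] [CharZero L] [Algebra L (AlgebraicClosure ℚ)]
  (O : ValuationSubring L) [IsDiscreteValuationRing O] {π : O} (hπ : Irreducible π)
variable (N' q : ℕ) [NeZero N'] [NeZero q] [hq : Fact q.Prime] [CharP (ResidueField O) q]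
  (hq2 : ¬ 2 ∣ q) (hqN' : ¬ q ∣ N')

include hq2 hqN' in
set_option maxHeartbeats 1600000 in
set_option synthInstance.maxHeartbeats 200000 in
/-- **chart choice + maximality of the centre, valuation form** (no supersingularity). -/
theorem s44mz_centre0
    (hprime : Prime (algebraMap ↥O (fc_chart ↥O ({lg_lamE N'} : Set ↥(lg_E L N'))) π))
    (𝒱 : ValuationSubring ↥(lg_E L (N' * q))) (h𝒱 : 𝒱 ≤ ssm_gl_V1 O hπ N' q)
    (hO𝒱 : ∀ a : O, algebraMap ↥O ↥(lg_E L (N' * q)) a ∈ 𝒱)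
    (halg : ∀ z ∈ 𝒱, ∃ p : (↥O)[X], p.Monic ∧ aeval z p ∈ 𝒱.nonunits)
    (hj : s44mz_j2E L (N' * q) ∈ 𝒱) :
    lg_lamE (N' * q) ∈ 𝒱 ∧
    (∀ b ∈ fc_chart ↥O ({lg_lamE (N' * q)} : Set ↥(lg_E L (N' * q))), b ∈ 𝒱) ∧
    (ssm_tp_P (fc_chart ↥O ({lg_lamE (N' * q)} : Set ↥(lg_E L (N' * q)))) 𝒱).IsMaximal ∧
    (∀ b : ↥(fc_chart ↥O ({lg_lamE (N' * q)} : Set ↥(lg_E L (N' * q)))),
      b ∈ ssm_tp_P (fc_chart ↥O ({lg_lamE (N' * q)} : Set ↥(lg_E L (N' * q)))) 𝒱 ↔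
        (b : ↥(lg_E L (N' * q))) ∈ 𝒱.nonunits) ∧
    algebraMap ↥O ↥(lg_E L (N' * q)) π ∈ 𝒱.nonunits ∧
    ssm_tp_P (fc_chart ↥O ({lg_lamE (N' * q)} : Set ↥(lg_E L (N' * q))))
        (ssm_gl_V1 O hπ N' q) ≤
      ssm_tp_P (fc_chart ↥O ({lg_lamE (N' * q)} : Set ↥(lg_E L (N' * q)))) 𝒱 := by
  haveI := ssm_go_isScalarTower O (lg_E L (N' * q))
  have hx : Transcendental L (lg_lamE (L := L) (N' * q)) :=
    lgf_lam_transcendental L (N' * q) two_ne_zero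
  have hyA : Transcendental ↥O (lg_lamE (L := L) (N' * q)) := fc_ff_transcendental (L := L) hx
  haveI : IsIntegrallyClosed (Algebra.adjoin ↥O ({lg_lamE (N' * q)} : Set ↥(lg_E L (N' * q)))) :=
    fc_ff_isIntegrallyClosed hyA
  haveI : FaithfulSMul (Algebra.adjoin ↥O ({lg_lamE (N' * q)} : Set ↥(lg_E L (N' * q))))
      ↥(lg_E L (N' * q)) :=
    (faithfulSMul_iff_algebraMap_injective _ _).2 Subtype.val_injective
  have H := ssm_gl_hyp O hπ N' q hq2 hqN' hprime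
  have hC := ssm_tp_ff_chart (L := L) hπ hx
  have hle := s44mz_B_le_S O q hq2 (N' * q)
  have hS𝒱 := s44mz_S_le O (N' * q) 𝒱 hO𝒱 hj
  have hB𝒱 : ∀ b ∈ fc_chart ↥O ({lg_lamE (N' * q)} : Set ↥(lg_E L (N' * q))), b ∈ 𝒱 :=
    fun b hb => hS𝒱 b (hle hb)
  have hnu : (ssm_gl_V1 O hπ N' q).nonunits ≤ 𝒱.nonunits :=
    ValuationSubring.nonunits_le_nonunits.2 h𝒱
  have hπ𝒱 : algebraMap ↥O ↥(lg_E L (N' * q)) π ∈ 𝒱.nonunits := hnu H.over1.pi_mem
  have hk : ∀ a : O, algebraMap ↥O ↥(lg_E L (N' * q)) a ∈ 𝒱.nonunits ∨ IsUnit a := by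
    intro a
    by_cases ha : a ∈ maximalIdeal ↥O
    · left
      rw [hπ.maximalIdeal_eq, Ideal.mem_span_singleton] at ha
      obtain ⟨c, rfl⟩ := ha
      rw [map_mul]
      exact ssm_tp_nonunits_mul 𝒱 hπ𝒱 (hO𝒱 c)
    · right
      exact (IsLocalRing.notMem_maximalIdeal.1 ha)
  refine ⟨hB𝒱 _ (fc_x_mem_chart _), hB𝒱, tori_sfd_centre_isMaximal 𝒱 hB𝒱 hk halg,
    fun b => ssm_tp_mem_P hB𝒱, hπ𝒱, ?_⟩
  intro b hb
  rw [ssm_tp_mem_P hB𝒱]
  exact hnu ((H.mem_P1 hC).1 hb)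

include hq2 hqN' in
set_option maxHeartbeats 1600000 in
set_option synthInstance.maxHeartbeats 200000 in
/-- **chart choice + maximality of the centre, composite form** (vocabulary of helper12's (ND)):
`r : V₁ →+* κ` a reduction map into a function field `κ / k`, `𝒲 ⊇ k` ANY non-trivial valuation
subring of `κ` at which `j̄₂ = r j₂` is finite; `𝒱 := tori_comp V₁ r hker 𝒲`. -/
theorem s44mz_centre_comp0
    (hprime : Prime (algebraMap ↥O (fc_chart ↥O ({lg_lamE N'} : Set ↥(lg_E L N'))) π))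
    {k κ : Type*} [Field k] [Field κ] [Algebra k κ] (ρ : ↥O →+* k) (hρ : Function.Surjective ρ)
    (r : ↥(ssm_gl_V1 O hπ N' q) →+* κ)
    (hker : ∀ z : ↥(ssm_gl_V1 O hπ N' q),
      (z : ↥(lg_E L (N' * q))) ∈ (ssm_gl_V1 O hπ N' q).nonunits → r z = 0)
    (hrA : ∀ (a : ↥O) (h : algebraMap ↥O ↥(lg_E L (N' * q)) a ∈ ssm_gl_V1 O hπ N' q),
      r ⟨algebraMap ↥O ↥(lg_E L (N' * q)) a, h⟩ = algebraMap k κ (ρ a))
    (xb : κ) [Algebra.IsAlgebraic k⟮xb⟯ κ] (𝒲 : ValuationSubring κ)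
    (hk𝒲 : ∀ c : k, algebraMap k κ c ∈ 𝒲) (h𝒲ne : 𝒲 ≠ ⊤)
    (hj : ∃ h : s44mz_j2E L (N' * q) ∈ ssm_gl_V1 O hπ N' q,
      r ⟨s44mz_j2E L (N' * q), h⟩ ∈ 𝒲) :
    lg_lamE (N' * q) ∈ tori_comp (ssm_gl_V1 O hπ N' q) r hker 𝒲 ∧
    (∀ b ∈ fc_chart ↥O ({lg_lamE (N' * q)} : Set ↥(lg_E L (N' * q))),
      b ∈ tori_comp (ssm_gl_V1 O hπ N' q) r hker 𝒲) ∧
    (ssm_tp_P (fc_chart ↥O ({lg_lamE (N' * q)} : Set ↥(lg_E L (N' * q))))
      (tori_comp (ssm_gl_V1 O hπ N' q) r hker 𝒲)).IsMaximal ∧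
    (∀ b : ↥(fc_chart ↥O ({lg_lamE (N' * q)} : Set ↥(lg_E L (N' * q)))),
      b ∈ ssm_tp_P (fc_chart ↥O ({lg_lamE (N' * q)} : Set ↥(lg_E L (N' * q))))
          (tori_comp (ssm_gl_V1 O hπ N' q) r hker 𝒲) ↔
        (b : ↥(lg_E L (N' * q))) ∈
          (tori_comp (ssm_gl_V1 O hπ N' q) r hker 𝒲).nonunits) ∧
    algebraMap ↥O ↥(lg_E L (N' * q)) π ∈
      (tori_comp (ssm_gl_V1 O hπ N' q) r hker 𝒲).nonunits ∧
    ssm_tp_P (fc_chart ↥O ({lg_lamE (N' * q)} : Set ↥(lg_E L (N' * q))))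
        (ssm_gl_V1 O hπ N' q) ≤
      ssm_tp_P (fc_chart ↥O ({lg_lamE (N' * q)} : Set ↥(lg_E L (N' * q))))
        (tori_comp (ssm_gl_V1 O hπ N' q) r hker 𝒲) := by
  haveI := ssm_go_isScalarTower O (lg_E L (N' * q))
  have hx : Transcendental L (lg_lamE (L := L) (N' * q)) :=
    lgf_lam_transcendental L (N' * q) two_ne_zero
  have hyA : Transcendental ↥O (lg_lamE (L := L) (N' * q)) := fc_ff_transcendental (L := L) hx
  haveI : IsIntegrallyClosed (Algebra.adjoin ↥O ({lg_lamE (N' * q)} : Set ↥(lg_E L (N' * q)))) :=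
    fc_ff_isIntegrallyClosed hyA
  haveI : FaithfulSMul (Algebra.adjoin ↥O ({lg_lamE (N' * q)} : Set ↥(lg_E L (N' * q))))
      ↥(lg_E L (N' * q)) :=
    (faithfulSMul_iff_algebraMap_injective _ _).2 Subtype.val_injective
  have H := ssm_gl_hyp O hπ N' q hq2 hqN' hprime
  have hA1 : ∀ a : ↥O, algebraMap ↥O ↥(lg_E L (N' * q)) a ∈ (ssm_gl_V1 O hπ N' q) := fun a => by
    have := H.over1.le (algebraMap ↥O
      (Algebra.adjoin ↥O ({lg_lamE (N' * q)} : Set ↥(lg_E L (N' * q)))) a)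
    exact this
  have hA : ∀ a : ↥O, algebraMap ↥O ↥(lg_E L (N' * q)) a ∈
      tori_comp (ssm_gl_V1 O hπ N' q) r hker 𝒲 := fun a =>
    ⟨hA1 a, by rw [hrA]; exact hk𝒲 _⟩
  let ι : ↥O →+* ↥(ssm_gl_V1 O hπ N' q) :=
    { toFun := fun a => ⟨algebraMap ↥O ↥(lg_E L (N' * q)) a, hA1 a⟩
      map_one' := Subtype.ext (map_one _)
      map_mul' := fun a b => Subtype.ext (map_mul _ a b)
      map_zero' := Subtype.ext (map_zero _)
      map_add' := fun a b => Subtype.ext (map_add _ a b) }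
  have hι1 : (ssm_gl_V1 O hπ N' q).subtype.comp ι = algebraMap ↥O ↥(lg_E L (N' * q)) :=
    RingHom.ext fun a => rfl
  have hι2 : r.comp ι = (algebraMap k κ).comp ρ := RingHom.ext fun a => hrA a (hA1 a)
  have halg : ∀ z ∈ tori_comp (ssm_gl_V1 O hπ N' q) r hker 𝒲,
      ∃ p : (↥O)[X], p.Monic ∧ aeval z p ∈
        (tori_comp (ssm_gl_V1 O hπ N' q) r hker 𝒲).nonunits := by
    rintro z ⟨hzV, hzW⟩
    obtain ⟨pb, hpb, hpbW⟩ := s44mz_residue_alg xb 𝒲 hk𝒲 h𝒲ne hzW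
    obtain ⟨P, hPmap, -, hPm⟩ := Polynomial.lifts_and_degree_eq_and_monic
      ((Polynomial.mem_lifts _).2 (Polynomial.map_surjective ρ hρ pb)) hpb
    refine ⟨P, hPm, ?_⟩
    have h1 : ((eval₂ ι ⟨z, hzV⟩ P : ↥(ssm_gl_V1 O hπ N' q)) : ↥(lg_E L (N' * q))) =
        aeval z P := by
      have := Polynomial.hom_eval₂ P ι (ssm_gl_V1 O hπ N' q).subtype ⟨z, hzV⟩
      rw [hι1] at this
      rw [aeval_def]
      exact this
    have h2 : r (eval₂ ι ⟨z, hzV⟩ P) = aeval (r ⟨z, hzV⟩) pb := by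
      rw [Polynomial.hom_eval₂, hι2, ← Polynomial.eval₂_map, hPmap, aeval_def]
    rw [tori_comp_mem_nonunits_iff]
    refine ⟨h1 ▸ (eval₂ ι ⟨z, hzV⟩ P).2, ?_⟩
    have h3 : (⟨aeval z P, h1 ▸ (eval₂ ι ⟨z, hzV⟩ P).2⟩ : ↥(ssm_gl_V1 O hπ N' q)) =
        eval₂ ι ⟨z, hzV⟩ P :=
      Subtype.ext h1.symm
    rw [h3, h2]
    exact hpbW
  exact s44mz_centre0 O hπ N' q hq2 hqN' hprime
    (tori_comp (ssm_gl_V1 O hπ N' q) r hker 𝒲)
    (tori_comp_le (ssm_gl_V1 O hπ N' q) r hker 𝒲)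
    hA halg ((tori_comp_mem_iff (ssm_gl_V1 O hπ N' q) r hker 𝒲).2 hj)

include hq2 hqN' in
set_option maxHeartbeats 1600000 in
set_option synthInstance.maxHeartbeats 200000 in
/-- **chart choice + maximality of the centre, place form** (vocabulary of `s44rs_hdiv_place` /
`s44mo_*`): `r : V₁ →+* κ` a reduction map into a function field `κ / k`, `v` a place of `κ / k` at
which `j̄₂ = r j₂` is finite; `𝒱 := tori_comp V₁ r hker v`. -/
theorem s44mz_centre_place0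
    (hprime : Prime (algebraMap ↥O (fc_chart ↥O ({lg_lamE N'} : Set ↥(lg_E L N'))) π))
    {k κ : Type*} [Field k] [Field κ] [Algebra k κ] (ρ : ↥O →+* k) (hρ : Function.Surjective ρ)
    (r : ↥(ssm_gl_V1 O hπ N' q) →+* κ)
    (hker : ∀ z : ↥(ssm_gl_V1 O hπ N' q),
      (z : ↥(lg_E L (N' * q))) ∈ (ssm_gl_V1 O hπ N' q).nonunits → r z = 0)
    (hrA : ∀ (a : ↥O) (h : algebraMap ↥O ↥(lg_E L (N' * q)) a ∈ ssm_gl_V1 O hπ N' q),
      r ⟨algebraMap ↥O ↥(lg_E L (N' * q)) a, h⟩ = algebraMap k κ (ρ a))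
    (xb : κ) [Algebra.IsAlgebraic k⟮xb⟯ κ] (v : AlgebraicCurve.Place k κ)
    (hj : ∃ h : s44mz_j2E L (N' * q) ∈ ssm_gl_V1 O hπ N' q,
      r ⟨s44mz_j2E L (N' * q), h⟩ ∈ v.toValuationSubring) :
    lg_lamE (N' * q) ∈ tori_comp (ssm_gl_V1 O hπ N' q) r hker v.toValuationSubring ∧
    (∀ b ∈ fc_chart ↥O ({lg_lamE (N' * q)} : Set ↥(lg_E L (N' * q))),
      b ∈ tori_comp (ssm_gl_V1 O hπ N' q) r hker v.toValuationSubring) ∧
    (ssm_tp_P (fc_chart ↥O ({lg_lamE (N' * q)} : Set ↥(lg_E L (N' * q))))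
      (tori_comp (ssm_gl_V1 O hπ N' q) r hker v.toValuationSubring)).IsMaximal ∧
    (∀ b : ↥(fc_chart ↥O ({lg_lamE (N' * q)} : Set ↥(lg_E L (N' * q)))),
      b ∈ ssm_tp_P (fc_chart ↥O ({lg_lamE (N' * q)} : Set ↥(lg_E L (N' * q))))
          (tori_comp (ssm_gl_V1 O hπ N' q) r hker v.toValuationSubring) ↔
        (b : ↥(lg_E L (N' * q))) ∈
          (tori_comp (ssm_gl_V1 O hπ N' q) r hker v.toValuationSubring).nonunits) ∧
    algebraMap ↥O ↥(lg_E L (N' * q)) π ∈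
      (tori_comp (ssm_gl_V1 O hπ N' q) r hker v.toValuationSubring).nonunits ∧
    ssm_tp_P (fc_chart ↥O ({lg_lamE (N' * q)} : Set ↥(lg_E L (N' * q))))
        (ssm_gl_V1 O hπ N' q) ≤
      ssm_tp_P (fc_chart ↥O ({lg_lamE (N' * q)} : Set ↥(lg_E L (N' * q))))
        (tori_comp (ssm_gl_V1 O hπ N' q) r hker v.toValuationSubring) :=
  s44mz_centre_comp0 O hπ N' q hq2 hqN' hprime ρ hρ r hker hrA xb v.toValuationSubring
    v.algebraMap_mem' v.ne_top' hj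

end Legendre

end Fermat.Agent.S44
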