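/-
S44 project, cell [H2] MONO-MAIN, sub-cell [H2-N] (N1) = (CFE-UNR) (helper12).  Prefix `s44mc_`.
Namespace `Fermat.Agent.S44`.

**A constant field extension is unramified**, in the shape needed by the node dictionary:
`K0 ⊆ Kbar` separable algebraic, `Fbar = F0 · Kbar`; a place `Q2` of `Fbar / Kbar` which dominates a
discrete valuation ring `O1` of `F0` (with uniformiser `x`) has `Q2.ord (ι x) = 1`, i.e.
`Q2.ord (ι g) = ord_{O1} g`.

Everything is a corollary of `JT3/Descent/ConstExt.lean` (`dsc_Dom.structure`: the uniformiser of a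
place `Q` of `F0 / K0` stays a uniformiser of EVERY valuation ring of `Fbar` dominating it).

* `s44mc_ord_eq`     : `dsc_Dom Q Q2.toValuationSubring → Q2.ord (ι x) = Q.ord x`;
* `s44mc_dom_of_le`  : domination in the weak form (`ι O ⊆ V`, `ι 𝔪_O ⊆ 𝔪_V`) gives `dsc_Dom`;
* `s44mc_restrict`   : the restriction of a place of `Fbar / Kbar` to `F0` is a place of `F0 / K0`
                       (`Fbar / F0` algebraic), and it is dominated;
* `s44mc_ord_restrict` : `Q2.ord (ι x) = (restriction of Q2).ord x`;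
* `s44mc_ord_of_dvr` : the DVR form.
-/
import Mathlib
import Fermat.Agent.JT3.Descent.ConstExt
import Fermat.Agent.S24.Hurwitz.Places
import Fermat.Agent.JT3.Gateway.ValPlace

set_option autoImplicit false
set_option linter.unusedSectionVars false

namespace Fermat.Agent.S44

open Fermat.Agent.JT3 Fermat.Agent.S24 AlgebraicCurve

section Cfe

variable {K0 Kbar F0 Fbar : Type*} [Field K0] [Field Kbar] [Field F0] [Field Fbar]
  [Algebra K0 Kbar] [Algebra K0 F0] [Algebra F0 Fbar] [Algebra Kbar Fbar] [Algebra K0 Fbar]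
  [IsScalarTower K0 F0 Fbar] [IsScalarTower K0 Kbar Fbar] [Algebra.IsSeparable K0 Kbar]

/-- **(CFE-UNR), place form**: a place of `Fbar / Kbar` dominating the place `Q` of `F0 / K0` has the
same order function on `F0`. -/
theorem s44mc_ord_eq
    (hgen : ∀ y : Fbar, ∃ θ : Kbar, y ∈ IntermediateField.adjoin F0 {algebraMap Kbar Fbar θ})
    (Q2 : Place Kbar Fbar) (Q : Place K0 F0) (hdom : dsc_Dom Q Q2.toValuationSubring) (x : F0) :
    Q2.ord (algebraMap F0 Fbar x) = Q.ord x := by
  obtain ⟨ϖ, hϖ⟩ := IsDiscreteValuationRing.exists_irreducible Q.toValuationSubring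
  have hϖ0 : (ϖ : F0) ≠ 0 := fun h => hϖ.ne_zero (Subtype.ext h)
  have hιϖ0 : algebraMap F0 Fbar (ϖ : F0) ≠ 0 := by rw [Ne, map_eq_zero]; exact hϖ0
  have hϖm : (ϖ : F0) ∈ Q.toValuationSubring.nonunits := by
    rw [ValuationSubring.coe_mem_nonunits_iff, IsLocalRing.mem_maximalIdeal]
    exact hϖ.not_isUnit
  have ht := hdom.nonunit _ hϖm
  -- `e := Q2.ord (ι ϖ)` is positive and divides `1`
  have hepos : 0 < Q2.ord (algebraMap F0 Fbar (ϖ : F0)) := by
    rw [hw_ord_pos_iff Q2 hιϖ0]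
    intro hinv
    rw [ValuationSubring.mem_nonunits_iff_or] at ht
    exact (ht.resolve_left hιϖ0) hinv
  have hstr : ∀ y : Fbar, y ≠ 0 → ∃ (n : ℤ),
      Q2.ord y = n * Q2.ord (algebraMap F0 Fbar (ϖ : F0)) := by
    intro y hy
    obtain ⟨n, u, hu⟩ := hdom.structure hgen hϖ y hy
    refine ⟨n, ?_⟩
    have hu0 : ((u : Q2.toValuationSubring) : Fbar) ≠ 0 := fun h => u.ne_zero (Subtype.ext h)
    rw [hu, Q2.ord_mul (zpow_ne_zero _ hιϖ0) hu0, Q2.ord_zpow, Q2.ord_coe_unit, add_zero]
  have he1 : Q2.ord (algebraMap F0 Fbar (ϖ : F0)) = 1 := by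
    obtain ⟨t, ht⟩ := IsDiscreteValuationRing.exists_irreducible Q2.toValuationSubring
    have ht0 : (t : Fbar) ≠ 0 := fun h => ht.ne_zero (Subtype.ext h)
    obtain ⟨n, hn⟩ := hstr (t : Fbar) ht0
    rw [Q2.ord_coe_irreducible ht] at hn
    exact Int.eq_one_of_dvd_one hepos.le ⟨n, by rw [hn]; ring⟩
  rcases eq_or_ne x 0 with rfl | hx
  · simp
  · obtain ⟨u, hu⟩ := Q.exists_unit_mul_zpow hx hϖ
    have huQ : ((u : Q.toValuationSubring) : F0) ≠ 0 := fun h => u.ne_zero (Subtype.ext h)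
    have hιu0 : algebraMap F0 Fbar ((u : Q.toValuationSubring) : F0) ≠ 0 := by
      rw [Ne, map_eq_zero]; exact huQ
    -- `ι u` is a unit of `Q2`
    have hιu : Q2.ord (algebraMap F0 Fbar ((u : Q.toValuationSubring) : F0)) = 0 := by
      have h1 : 0 ≤ Q2.ord (algebraMap F0 Fbar ((u : Q.toValuationSubring) : F0)) :=
        (hw_mem_iff_ord_nonneg Q2 hιu0).1 ((hdom.mem_iff _).2 (u : Q.toValuationSubring).2)
      have h2 : 0 ≤ Q2.ord (algebraMap F0 Fbar (((u⁻¹ : Q.toValuationSubringˣ) :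
          Q.toValuationSubring) : F0)) := by
        have hne : algebraMap F0 Fbar (((u⁻¹ : Q.toValuationSubringˣ) :
            Q.toValuationSubring) : F0) ≠ 0 := by
          rw [Ne, map_eq_zero]
          exact fun h => (u⁻¹).ne_zero (Subtype.ext h)
        exact (hw_mem_iff_ord_nonneg Q2 hne).1
          ((hdom.mem_iff _).2 ((u⁻¹ : Q.toValuationSubringˣ) : Q.toValuationSubring).2)
      have h3 : (((u⁻¹ : Q.toValuationSubringˣ) : Q.toValuationSubring) : F0) =
          ((u : Q.toValuationSubring) : F0)⁻¹ := by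
        have h4 : ((u : Q.toValuationSubring) : F0) *
            (((u⁻¹ : Q.toValuationSubringˣ) : Q.toValuationSubring) : F0) = 1 := by
          have := congrArg (fun z : Q.toValuationSubring => (z : F0)) (Units.mul_inv u)
          simp only [MulMemClass.coe_mul, OneMemClass.coe_one] at this
          exact this
        exact (eq_inv_of_mul_eq_one_right h4)
      rw [h3, map_inv₀, Q2.ord_inv] at h2
      omega
    conv_lhs => rw [hu]
    rw [map_mul, map_zpow₀, Q2.ord_mul hιu0 (zpow_ne_zero _ hιϖ0), hιu, zero_add, Q2.ord_zpow,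
      he1, mul_one]

omit [Field Kbar] [Algebra K0 Kbar] [Algebra Kbar Fbar] [Algebra K0 Fbar]
  [IsScalarTower K0 F0 Fbar] [IsScalarTower K0 Kbar Fbar] [Algebra.IsSeparable K0 Kbar] in
/-- domination in the weak form gives `dsc_Dom`. -/
theorem s44mc_dom_of_le (Q : Place K0 F0) (V : ValuationSubring Fbar)
    (h1 : ∀ x ∈ Q.toValuationSubring, algebraMap F0 Fbar x ∈ V)
    (h2 : ∀ x ∈ Q.toValuationSubring.nonunits, algebraMap F0 Fbar x ∈ V.nonunits) :
    dsc_Dom Q V := by
  refine ⟨fun x => ⟨fun hx => ?_, h1 x⟩, h2⟩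
  by_contra hxQ
  have hx0 : x ≠ 0 := fun h => hxQ (h ▸ Q.toValuationSubring.zero_mem)
  have hinv : x⁻¹ ∈ Q.toValuationSubring.nonunits := by
    rw [ValuationSubring.mem_nonunits_iff_or]
    right
    rwa [inv_inv]
  have h3 := h2 _ hinv
  rw [map_inv₀, ValuationSubring.mem_nonunits_iff_or] at h3
  have hιx0 : algebraMap F0 Fbar x ≠ 0 := by rw [Ne, map_eq_zero]; exact hx0
  have h4 := h3.resolve_left (inv_ne_zero hιx0)
  rw [inv_inv] at h4
  exact h4 hx

/-- **(CFE-UNR), DVR form**: `O1` a valuation subring of `F0` containing the constants `K0`, with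
uniformiser `x` (every `y ≠ 0` is `x ^ n · unit`); a place `Q2` of `Fbar / Kbar` dominating `O1`
satisfies `Q2.ord (ι (x ^ n u)) = n`; in particular `Q2.ord (ι x) = 1`. -/
theorem s44mc_ord_of_dvr
    (hgen : ∀ y : Fbar, ∃ θ : Kbar, y ∈ IntermediateField.adjoin F0 {algebraMap Kbar Fbar θ})
    (Q2 : Place Kbar Fbar) (O1 : ValuationSubring F0)
    (hK0 : ∀ c : K0, algebraMap K0 F0 c ∈ O1) {x : F0} (hx : x ∈ O1.nonunits) (hx0 : x ≠ 0)
    (hstr : ∀ y : F0, y ≠ 0 → ∃ (n : ℤ) (u : O1ˣ), y = x ^ n * ((u : O1) : F0))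
    (hdom : ∀ y ∈ O1, algebraMap F0 Fbar y ∈ Q2.toValuationSubring)
    (hdomnu : ∀ y ∈ O1.nonunits, algebraMap F0 Fbar y ∈ Q2.toValuationSubring.nonunits)
    (n : ℤ) (u : O1ˣ) : Q2.ord (algebraMap F0 Fbar (x ^ n * ((u : O1) : F0))) = n := by
  obtain ⟨P, hP⟩ := dsc_place_of_structure K0 hx hx0 hK0 hstr
  have hu0 : ∀ u : O1ˣ, ((u : O1) : F0) ≠ 0 := fun u h => u.ne_zero (Subtype.ext h)
  have hD : dsc_Dom P Q2.toValuationSubring := by
    refine s44mc_dom_of_le P _ (fun y hy => ?_) (fun y hy => ?_)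
    · rcases eq_or_ne y 0 with rfl | hy0
      · rw [map_zero]; exact zero_mem _
      · obtain ⟨m, w, hw⟩ := hstr y hy0
        have h1 : 0 ≤ P.ord y := (hw_mem_iff_ord_nonneg P hy0).1 hy
        rw [hw, hP] at h1
        exact hdom _ (by rw [hw]; exact (dsc_zpow_mul_unit_mem_iff hx hx0 m w).2 h1)
    · rcases eq_or_ne y 0 with rfl | hy0
      · rw [map_zero]; exact (Q2.toValuationSubring.nonunits).zero_mem
      · obtain ⟨m, w, hw⟩ := hstr y hy0
        have h1 : 0 < P.ord y := by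
          rw [hw_ord_pos_iff P hy0]
          rw [ValuationSubring.mem_nonunits_iff_or] at hy
          exact hy.resolve_left hy0
        rw [hw, hP] at h1
        apply hdomnu
        have h2 : y = x * (x ^ (m - 1) * ((w : O1) : F0)) := by
          rw [hw, ← mul_assoc, ← zpow_one_add₀ hx0]
          congr 2
          ring
        rw [h2]
        have h3 : x ^ (m - 1) * ((w : O1) : F0) ∈ O1 :=
          (dsc_zpow_mul_unit_mem_iff hx hx0 (m - 1) w).2 (by omega)
        rw [ValuationSubring.mem_nonunits_iff, map_mul]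
        exact mul_lt_one_of_lt_of_le ((ValuationSubring.mem_nonunits_iff O1).1 hx)
          ((O1.valuation_le_one_iff _).2 h3)
  rw [s44mc_ord_eq hgen Q2 P hD, hP]

/-- **the restriction of a place of `Fbar / Kbar` to `F0`** is a place of `F0 / K0` (when `Fbar / F0`
is algebraic), it is dominated, and the constant field extension is unramified. -/
theorem s44mc_restrict [Algebra.IsAlgebraic F0 Fbar]
    (hgen : ∀ y : Fbar, ∃ θ : Kbar, y ∈ IntermediateField.adjoin F0 {algebraMap Kbar Fbar θ})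
    (Q2 : Place Kbar Fbar) :
    ∃ Q : Place K0 F0, dsc_Dom Q Q2.toValuationSubring ∧
      ∀ x : F0, Q2.ord (algebraMap F0 Fbar x) = Q.ord x := by
  have hι0 : ∀ {x : F0}, x ≠ 0 → algebraMap F0 Fbar x ≠ 0 := fun {x} hx => by
    rw [Ne, map_eq_zero]; exact hx
  have hval : gw_IsVal K0 (fun x : F0 => Q2.ord (algebraMap F0 Fbar x)) := by
    refine ⟨fun f g hf hg => ?_, fun f g hf hg hfg => ?_, fun c hc => ?_⟩
    · show Q2.ord (algebraMap F0 Fbar (f * g)) = _
      rw [map_mul, Q2.ord_mul (hι0 hf) (hι0 hg)]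
    · show min (Q2.ord (algebraMap F0 Fbar f)) (Q2.ord (algebraMap F0 Fbar g)) ≤
        Q2.ord (algebraMap F0 Fbar (f + g))
      rw [map_add]
      exact hw_ord_add_ge Q2 (hι0 hf) (hι0 hg) (by rw [← map_add]; exact hι0 hfg)
    · show Q2.ord (algebraMap F0 Fbar (algebraMap K0 F0 c)) = 0
      rw [← IsScalarTower.algebraMap_apply K0 F0 Fbar, IsScalarTower.algebraMap_apply K0 Kbar Fbar]
      exact hw_ord_algebraMap Q2 _
  -- nontriviality: a uniformiser of `Q2` is algebraic over `F0`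
  have hnt : ∃ f : F0, f ≠ 0 ∧ Q2.ord (algebraMap F0 Fbar f) ≠ 0 := by
    by_contra hcon
    push Not at hcon
    obtain ⟨t, ht⟩ := IsDiscreteValuationRing.exists_irreducible Q2.toValuationSubring
    have ht0 : (t : Fbar) ≠ 0 := fun h => ht.ne_zero (Subtype.ext h)
    have htord : Q2.ord (t : Fbar) = 1 := Q2.ord_coe_irreducible ht
    -- `t⁻¹` is integral over the subring `ι F0 ⊆ V2`
    have hF0V : ∀ x : F0, algebraMap F0 Fbar x ∈ Q2.toValuationSubring := by
      intro x
      rcases eq_or_ne x 0 with rfl | hx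
      · rw [map_zero]; exact zero_mem _
      · rw [hw_mem_iff_ord_nonneg Q2 (hι0 hx), hcon x hx]
    have hint : IsIntegral F0 ((t : Fbar)⁻¹) := Algebra.IsIntegral.isIntegral _
    obtain ⟨q, hq, hq0⟩ := hint
    have h1 : IsIntegral Q2.toValuationSubring ((t : Fbar)⁻¹) := by
      let φ : F0 →+* Q2.toValuationSubring :=
        (algebraMap F0 Fbar).codRestrict Q2.toValuationSubring.toSubring hF0V
      refine ⟨q.map φ, hq.map _, ?_⟩
      rw [Polynomial.eval₂_map]
      have hcomp : (algebraMap Q2.toValuationSubring Fbar).comp φ = algebraMap F0 Fbar := by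
        ext x; rfl
      rw [hcomp]
      exact hq0
    obtain ⟨y, hy⟩ := IsIntegrallyClosed.isIntegral_iff.1 h1
    have h2 : (t : Fbar)⁻¹ ∈ Q2.toValuationSubring := by rw [← hy]; exact y.2
    have h3 := (hw_mem_iff_ord_nonneg Q2 (inv_ne_zero ht0)).1 h2
    rw [Q2.ord_inv, htord] at h3
    omega
  obtain ⟨Q, e, he, hQ⟩ := gw_val_eq_ord K0 hval hnt
  have hD : dsc_Dom Q Q2.toValuationSubring := by
    refine s44mc_dom_of_le Q _ (fun x hx => ?_) (fun x hx => ?_)
    · rcases eq_or_ne x 0 with rfl | hx0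
      · rw [map_zero]; exact zero_mem _
      · rw [hw_mem_iff_ord_nonneg Q2 (hι0 hx0)]
        have h1 := (hw_mem_iff_ord_nonneg Q hx0).1 hx
        have h2 : Q2.ord (algebraMap F0 Fbar x) = e * Q.ord x := hQ x hx0
        rw [h2]
        positivity
    · rcases eq_or_ne x 0 with rfl | hx0
      · rw [map_zero]; exact (Q2.toValuationSubring.nonunits).zero_mem
      · have h1 : 0 < Q.ord x := by
          rw [hw_ord_pos_iff Q hx0]
          rw [ValuationSubring.mem_nonunits_iff_or] at hx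
          exact hx.resolve_left hx0
        have h2 : Q2.ord (algebraMap F0 Fbar x) = e * Q.ord x := hQ x hx0
        have h3 : 0 < Q2.ord (algebraMap F0 Fbar x) := by
          rw [h2]; positivity
        rw [ValuationSubring.mem_nonunits_iff_or]
        right
        exact (hw_ord_pos_iff Q2 (hι0 hx0)).1 h3
  exact ⟨Q, hD, s44mc_ord_eq hgen Q2 Q hD⟩

end Cfe

end Fermat.Agent.S44
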