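/-
S44 project, cell [H2] MONO-MAIN, sub-cell [H2-N] (N1), THE INSTANCE (helper2).  Prefix `s44mi_`.
Namespace `Fermat.Agent.S44`.

helper12's (CFE-UNR) (`Mono/CfeUnr.lean`: a constant field extension is unramified) instantiated for
the coefficient extension of the modular function fields:

`κ : k0 →+* k` a homomorphism of fields with `k` integral (= algebraic) over `κ k0` and `k0` perfect
(in use: `k0` the residue field of a number-field level, `k = kA` the residue field of the place `A`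
of `ℚ̄`), `coeffMap κ : k0((q)) → k((q))`.

* abstract form (`section Abstract`): a pair of intermediate fields `F0 ≤ k0((q))`, `F ≤ k((q))` with
  `coeffMap κ F0 ⊆ F ≤ k(coeffMap κ F0)`; the comparison map `s44mi_iota : F0 →+* F`;
  `s44mi_restrict` (the restriction of a place of `F / k` to `F0` is a place of `F0 / k0`, dominated,
  with THE SAME orders) and `s44mi_ord_of_dvr` (DVR form);
* instances: `lg_F` (`s44mi_iotaF`, `s44mi_restrict_F`, `s44mi_ord_of_dvr_F`) and the Legendre field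
  `lg_E` (`s44mi_iotaE`, `s44mi_restrict_E`, `s44mi_ord_of_dvr_E`), compatibility with `lg_phiE`
  (`s44mi_iotaE_phiE`), with `λ` and with the constants.
-/
import Mathlib
import Fermat.Agent.S44.Mono.CfeUnr
import Fermat.Agent.JT3.Descent.FieldOfDef
import Fermat.Agent.JT3.Inst.Key0
import Fermat.Agent.JT3.PlaceMap.BaseField

set_option autoImplicit false
set_option linter.unusedSectionVars false
set_option linter.unusedVariables false
set_option linter.style.haveILetI false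

noncomputable section

namespace Fermat.Agent.S44

open ModularCurve IntermediateField AlgebraicCurve
open Fermat.Agent.JT3 Fermat.Agent.S24

/-! ### the abstract instance -/

section Abstract

variable {k0 k : Type*} [Field k0] [Field k] (κ : k0 →+* k)

theorem s44mi_cm_algebraMap (c : k0) :
    coeffMap κ (algebraMap k0 (LaurentSeries k0) c) = algebraMap k (LaurentSeries k) (κ c) := by
  rw [algebraMap_laurentSeries_eq_single, algebraMap_laurentSeries_eq_single, coeffMap_single]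

variable (F0 : IntermediateField k0 (LaurentSeries k0)) (F : IntermediateField k (LaurentSeries k))
  (hmem : ∀ x ∈ F0, coeffMap κ x ∈ F)

/-- the comparison homomorphism `F0 → F` (coefficientwise). -/
def s44mi_iota : ↥F0 →+* ↥F :=
  ((coeffMap κ).comp F0.val.toRingHom).codRestrict F.toSubfield.toSubring (fun x => hmem x x.2)

@[simp] theorem s44mi_iota_coe (x : ↥F0) :
    ((s44mi_iota κ F0 F hmem x : ↥F) : LaurentSeries k) = coeffMap κ (x : LaurentSeries k0) := rfl

theorem s44mi_iota_algebraMap (c : k0) :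
    s44mi_iota κ F0 F hmem (algebraMap k0 ↥F0 c) = algebraMap k ↥F (κ c) :=
  Subtype.ext (s44mi_cm_algebraMap κ c)

theorem s44mi_iota_injective : Function.Injective (s44mi_iota κ F0 F hmem) :=
  (s44mi_iota κ F0 F hmem).injective

variable (hle : F ≤ IntermediateField.adjoin k (⇑(coeffMap κ) '' (F0 : Set (LaurentSeries k0))))

include hle in
/-- `F` is generated, as a field, by the image of `F0` and the constants. -/
theorem s44mi_mem_closure (y : ↥F) :
    y ∈ Subfield.closure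
      (Set.range (s44mi_iota κ F0 F hmem) ∪ Set.range (algebraMap k ↥F)) := by
  set S := Subfield.closure
      (Set.range (s44mi_iota κ F0 F hmem) ∪ Set.range (algebraMap k ↥F)) with hS
  -- the image of `S` in `k((q))` is an intermediate field containing `coeffMap κ '' F0`
  let T : IntermediateField k (LaurentSeries k) :=
    (S.map F.val.toRingHom).toIntermediateField (fun c => by
      refine ⟨algebraMap k ↥F c, Subfield.subset_closure (Or.inr ⟨c, rfl⟩), rfl⟩)
  have hT : IntermediateField.adjoin k (⇑(coeffMap κ) '' (F0 : Set (LaurentSeries k0))) ≤ T := by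
    rw [IntermediateField.adjoin_le_iff]
    rintro _ ⟨w, hw, rfl⟩
    exact ⟨s44mi_iota κ F0 F hmem ⟨w, hw⟩, Subfield.subset_closure (Or.inl ⟨_, rfl⟩), rfl⟩
  obtain ⟨y', hy', hyy⟩ := hT (hle y.2)
  have : y' = y := Subtype.ext hyy
  rwa [← this]

variable (hκ : κ.IsIntegral) [PerfectField k0]

include hle hκ in
/-- **the restriction of a place of `F / k` to `F0`** is a place of `F0 / k0`, it is dominated, and
the orders agree (a constant field extension is unramified). -/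
theorem s44mi_restrict (Q2 : Place k ↥F) :
    ∃ Q : Place k0 ↥F0,
      (∀ x : ↥F0, s44mi_iota κ F0 F hmem x ∈ Q2.toValuationSubring ↔ x ∈ Q.toValuationSubring) ∧
      (∀ x : ↥F0, x ∈ Q.toValuationSubring.nonunits →
        s44mi_iota κ F0 F hmem x ∈ Q2.toValuationSubring.nonunits) ∧
      ∀ x : ↥F0, Q2.ord (s44mi_iota κ F0 F hmem x) = Q.ord x := by
  letI a1 : Algebra k0 k := κ.toAlgebra
  letI a2 : Algebra ↥F0 ↥F := (s44mi_iota κ F0 F hmem).toAlgebra
  letI a3 : Algebra k0 ↥F := ((algebraMap k ↥F).comp κ).toAlgebra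
  haveI t1 : IsScalarTower k0 ↥F0 ↥F :=
    IsScalarTower.of_algebraMap_eq (fun c => (s44mi_iota_algebraMap κ F0 F hmem c).symm)
  haveI t2 : IsScalarTower k0 k ↥F := IsScalarTower.of_algebraMap_eq (fun _ => rfl)
  haveI i1 : Algebra.IsIntegral k0 k := ⟨hκ⟩
  haveI i2 : Algebra.IsAlgebraic k0 k := inferInstance
  haveI i3 : Algebra.IsSeparable k0 k := Algebra.IsAlgebraic.isSeparable_of_perfectField
  have hgen : ∀ y : ↥F, ∃ θ : k, y ∈ IntermediateField.adjoin ↥F0 {algebraMap k ↥F θ} :=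
    dsc_hgen_of_closure (K0 := k0) (s44mi_mem_closure κ F0 F hmem hle)
  haveI i4 : Algebra.IsAlgebraic ↥F0 ↥F := by
    refine ⟨fun y => ?_⟩
    obtain ⟨θ, hθ⟩ := hgen y
    have h1 : IsAlgebraic k0 θ := Algebra.IsAlgebraic.isAlgebraic θ
    have h2 : IsAlgebraic k0 (algebraMap k ↥F θ) := h1.algebraMap
    have h3 : IsAlgebraic ↥F0 (algebraMap k ↥F θ) := h2.tower_top ↥F0
    have h4 : IsIntegral ↥F0 (algebraMap k ↥F θ) := h3.isIntegral
    haveI := IntermediateField.isAlgebraic_adjoin_simple h4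
    have h5 : IsAlgebraic ↥F0
        (⟨y, hθ⟩ : IntermediateField.adjoin ↥F0 {algebraMap k ↥F θ}) :=
      Algebra.IsAlgebraic.isAlgebraic _
    exact IntermediateField.isAlgebraic_iff.1 h5
  obtain ⟨Q, hD, hord⟩ := s44mc_restrict (K0 := k0) (Kbar := k) hgen Q2
  exact ⟨Q, fun x => hD.mem_iff x, fun x hx => hD.nonunit x hx, hord⟩

include hle hκ in
/-- **(CFE-UNR), DVR form, for the coefficient extension**: a place `Q2` of `F / k` dominating a
discrete valuation ring `O1` of `F0` (uniformiser `x`) has `Q2.ord (ι (x ^ n u)) = n`. -/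
theorem s44mi_ord_of_dvr (Q2 : Place k ↥F) (O1 : ValuationSubring ↥F0)
    (hK0 : ∀ c : k0, algebraMap k0 ↥F0 c ∈ O1) {x : ↥F0} (hx : x ∈ O1.nonunits) (hx0 : x ≠ 0)
    (hstr : ∀ y : ↥F0, y ≠ 0 → ∃ (n : ℤ) (u : (↥O1)ˣ), y = x ^ n * ((u : ↥O1) : ↥F0))
    (hdom : ∀ y ∈ O1, s44mi_iota κ F0 F hmem y ∈ Q2.toValuationSubring)
    (hdomnu : ∀ y ∈ O1.nonunits, s44mi_iota κ F0 F hmem y ∈ Q2.toValuationSubring.nonunits)
    (n : ℤ) (u : (↥O1)ˣ) :
    Q2.ord (s44mi_iota κ F0 F hmem (x ^ n * ((u : ↥O1) : ↥F0))) = n := by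
  letI a1 : Algebra k0 k := κ.toAlgebra
  letI a2 : Algebra ↥F0 ↥F := (s44mi_iota κ F0 F hmem).toAlgebra
  letI a3 : Algebra k0 ↥F := ((algebraMap k ↥F).comp κ).toAlgebra
  haveI t1 : IsScalarTower k0 ↥F0 ↥F :=
    IsScalarTower.of_algebraMap_eq (fun c => (s44mi_iota_algebraMap κ F0 F hmem c).symm)
  haveI t2 : IsScalarTower k0 k ↥F := IsScalarTower.of_algebraMap_eq (fun _ => rfl)
  haveI i1 : Algebra.IsIntegral k0 k := ⟨hκ⟩
  haveI i2 : Algebra.IsAlgebraic k0 k := inferInstance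
  haveI i3 : Algebra.IsSeparable k0 k := Algebra.IsAlgebraic.isSeparable_of_perfectField
  have hgen : ∀ y : ↥F, ∃ θ : k, y ∈ IntermediateField.adjoin ↥F0 {algebraMap k ↥F θ} :=
    dsc_hgen_of_closure (K0 := k0) (s44mi_mem_closure κ F0 F hmem hle)
  exact s44mc_ord_of_dvr (K0 := k0) (Kbar := k) hgen Q2 O1 hK0 hx hx0 hstr hdom hdomnu n u

end Abstract

/-! ### the level function field `lg_F = modularFunctionFieldFullC` -/

section InstF

variable {k0 k : Type*} [Field k0] [Field k] (κ : k0 →+* k) (M : ℕ) [NeZero M]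

omit [NeZero M] in
theorem s44mi_cm_gen (d : ℕ) [NeZero d] :
    coeffMap κ (qExpand k0 d (jqModC k0)) = qExpand k d (jqModC k) := by
  rw [coeffMap_qExpand, coeffMap_jqModC]

omit [NeZero M] in
/-- `coeffMap κ` maps `F_M(k0)` into `F_M(k)`. -/
theorem s44mi_mem_F {x : LaurentSeries k0} (hx : x ∈ lg_F k0 M) : coeffMap κ x ∈ lg_F k M := by
  rw [lg_F, modularFunctionFieldFullC] at hx
  induction hx using IntermediateField.adjoin_induction with
  | mem y hy =>
    obtain ⟨d, hd, hdN, rfl⟩ := hy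
    haveI := hd
    rw [s44mi_cm_gen]
    exact jqModCd_mem_full k M hdN
  | algebraMap r =>
    rw [s44mi_cm_algebraMap]
    exact (lg_F k M).algebraMap_mem _
  | add x y _ _ hx hy => rw [map_add]; exact add_mem hx hy
  | inv x _ hx => rw [map_inv₀]; exact inv_mem hx
  | mul x y _ _ hx hy => rw [map_mul]; exact mul_mem hx hy

omit [NeZero M] in
theorem s44mi_le_F :
    lg_F k M ≤ IntermediateField.adjoin k (⇑(coeffMap κ) '' (lg_F k0 M : Set (LaurentSeries k0))) := by
  rw [lg_F, modularFunctionFieldFullC, IntermediateField.adjoin_le_iff]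
  rintro _ ⟨d, hd, hdN, rfl⟩
  haveI := hd
  exact IntermediateField.subset_adjoin k _
    ⟨qExpand k0 d (jqModC k0), jqModCd_mem_full k0 M hdN, s44mi_cm_gen κ d⟩

/-- the coefficient extension `F_M(k0) → F_M(k)`. -/
def s44mi_iotaF : ↥(lg_F k0 M) →+* ↥(lg_F k M) :=
  s44mi_iota κ (lg_F k0 M) (lg_F k M) (fun _ hx => s44mi_mem_F κ M hx)

@[simp] theorem s44mi_iotaF_coe (x : ↥(lg_F k0 M)) :
    ((s44mi_iotaF κ M x : ↥(lg_F k M)) : LaurentSeries k) = coeffMap κ (x : LaurentSeries k0) := rfl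

theorem s44mi_iotaF_const (c : k0) :
    s44mi_iotaF κ M (algebraMap k0 ↥(lg_F k0 M) c) = algebraMap k ↥(lg_F k M) (κ c) :=
  s44mi_iota_algebraMap κ _ _ _ c

variable (hκ : κ.IsIntegral) [PerfectField k0]

include hκ in
/-- the restriction of a place of `F_M(k) / k` to `F_M(k0)`: a place of `F_M(k0) / k0`, dominated,
with the same orders. -/
theorem s44mi_restrict_F (Q2 : Place k ↥(lg_F k M)) :
    ∃ Q : Place k0 ↥(lg_F k0 M),
      (∀ x : ↥(lg_F k0 M), s44mi_iotaF κ M x ∈ Q2.toValuationSubring ↔ x ∈ Q.toValuationSubring) ∧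
      (∀ x : ↥(lg_F k0 M), x ∈ Q.toValuationSubring.nonunits →
        s44mi_iotaF κ M x ∈ Q2.toValuationSubring.nonunits) ∧
      ∀ x : ↥(lg_F k0 M), Q2.ord (s44mi_iotaF κ M x) = Q.ord x :=
  s44mi_restrict κ (lg_F k0 M) (lg_F k M) (fun _ hx => s44mi_mem_F κ M hx) (s44mi_le_F κ M) hκ Q2

include hκ in
theorem s44mi_ord_of_dvr_F (Q2 : Place k ↥(lg_F k M)) (O1 : ValuationSubring ↥(lg_F k0 M))
    (hK0 : ∀ c : k0, algebraMap k0 ↥(lg_F k0 M) c ∈ O1) {x : ↥(lg_F k0 M)}
    (hx : x ∈ O1.nonunits) (hx0 : x ≠ 0)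
    (hstr : ∀ y : ↥(lg_F k0 M), y ≠ 0 →
      ∃ (n : ℤ) (u : (↥O1)ˣ), y = x ^ n * ((u : ↥O1) : ↥(lg_F k0 M)))
    (hdom : ∀ y ∈ O1, s44mi_iotaF κ M y ∈ Q2.toValuationSubring)
    (hdomnu : ∀ y ∈ O1.nonunits, s44mi_iotaF κ M y ∈ Q2.toValuationSubring.nonunits)
    (n : ℤ) (u : (↥O1)ˣ) :
    Q2.ord (s44mi_iotaF κ M (x ^ n * ((u : ↥O1) : ↥(lg_F k0 M)))) = n :=
  s44mi_ord_of_dvr κ (lg_F k0 M) (lg_F k M) (fun _ hx => s44mi_mem_F κ M hx) (s44mi_le_F κ M) hκ
    Q2 O1 hK0 hx hx0 hstr hdom hdomnu n u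

end InstF

/-! ### the Legendre field `lg_E = φ(F_M)(λ)` -/

section InstE

variable {k0 k : Type*} [Field k0] [Field k] (κ : k0 →+* k) (M : ℕ) [NeZero M]

omit [NeZero M] in
theorem s44mi_mem_F2 {x : LaurentSeries k0} (hx : x ∈ lg_F2 k0 M) : coeffMap κ x ∈ lg_F2 k M := by
  obtain ⟨y, hy, rfl⟩ := hx
  refine ⟨coeffMap κ y, s44mi_mem_F κ M hy, ?_⟩
  show lg_phi k (coeffMap κ y) = coeffMap κ (lg_phi k0 y)
  rw [lg_coeffMap_phi]

theorem s44mi_mem_K {x : LaurentSeries k0} (hx : x ∈ lg_K k0) : coeffMap κ x ∈ lg_K k := by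
  rw [lg_K] at hx
  induction hx using IntermediateField.adjoin_induction with
  | mem y hy =>
    rw [Set.mem_singleton_iff] at hy
    rw [hy, lg_coeffMap_lam]
    exact lg_lam_mem_K k
  | algebraMap r =>
    rw [s44mi_cm_algebraMap]
    exact (lg_K k).algebraMap_mem _
  | add x y _ _ hx hy => rw [map_add]; exact add_mem hx hy
  | inv x _ hx => rw [map_inv₀]; exact inv_mem hx
  | mul x y _ _ hx hy => rw [map_mul]; exact mul_mem hx hy

omit [NeZero M] in
/-- `coeffMap κ` maps `E_M(k0)` into `E_M(k)`. -/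
theorem s44mi_mem_E {x : LaurentSeries k0} (hx : x ∈ lg_E k0 M) : coeffMap κ x ∈ lg_E k M := by
  rw [lg_E] at hx ⊢
  have hsup : lg_F2 k0 M ⊔ lg_K k0 = IntermediateField.adjoin k0
      ((lg_F2 k0 M : Set (LaurentSeries k0)) ∪ (lg_K k0 : Set _)) := by
    rw [IntermediateField.adjoin_union, IntermediateField.adjoin_self,
      IntermediateField.adjoin_self]
  rw [hsup] at hx
  induction hx using IntermediateField.adjoin_induction with
  | mem y hy =>
    rcases hy with hy | hy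
    · exact (le_sup_left : lg_F2 k M ≤ _) (s44mi_mem_F2 κ M hy)
    · exact (le_sup_right : lg_K k ≤ _) (s44mi_mem_K κ hy)
  | algebraMap r =>
    rw [s44mi_cm_algebraMap]
    exact (lg_F2 k M ⊔ lg_K k).algebraMap_mem _
  | add x y _ _ hx hy => rw [map_add]; exact add_mem hx hy
  | inv x _ hx => rw [map_inv₀]; exact inv_mem hx
  | mul x y _ _ hx hy => rw [map_mul]; exact mul_mem hx hy

theorem s44mi_le_E :
    lg_E k M ≤ IntermediateField.adjoin k (⇑(coeffMap κ) '' (lg_E k0 M : Set (LaurentSeries k0))) := by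
  rw [lg_E]
  refine sup_le ?_ ?_
  · -- `φ(F_M)(k)` is generated by the `φ(j(q^d))`
    rw [lg_F2, lg_F, modularFunctionFieldFullC, IntermediateField.adjoin_map,
      IntermediateField.adjoin_le_iff]
    rintro _ ⟨_, ⟨d, hd, hdN, rfl⟩, rfl⟩
    haveI := hd
    refine IntermediateField.subset_adjoin k _
      ⟨lg_phi k0 (qExpand k0 d (jqModC k0)),
        lg_phi_mem_E k0 M (jqModCd_mem_full k0 M hdN), ?_⟩
    rw [lg_coeffMap_phi, s44mi_cm_gen]
  · rw [lg_K, IntermediateField.adjoin_le_iff]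
    rintro _ rfl
    exact IntermediateField.subset_adjoin k _
      ⟨lg_lam k0, lg_lam_mem_E k0 M, lg_coeffMap_lam k0 κ⟩

/-- the coefficient extension `E_M(k0) → E_M(k)`. -/
def s44mi_iotaE : ↥(lg_E k0 M) →+* ↥(lg_E k M) :=
  s44mi_iota κ (lg_E k0 M) (lg_E k M) (fun _ hx => s44mi_mem_E κ M hx)

@[simp] theorem s44mi_iotaE_coe (x : ↥(lg_E k0 M)) :
    ((s44mi_iotaE κ M x : ↥(lg_E k M)) : LaurentSeries k) = coeffMap κ (x : LaurentSeries k0) := rfl

theorem s44mi_iotaE_const (c : k0) :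
    s44mi_iotaE κ M (algebraMap k0 ↥(lg_E k0 M) c) = algebraMap k ↥(lg_E k M) (κ c) :=
  s44mi_iota_algebraMap κ _ _ _ c

/-- compatibility with `φ = (q ↦ q²) : F_M → E_M`. -/
theorem s44mi_iotaE_phiE (x : ↥(lg_F k0 M)) :
    s44mi_iotaE κ M (lg_phiE (L := k0) (N := M) x) =
      lg_phiE (L := k) (N := M) (s44mi_iotaF κ M x) := by
  apply Subtype.ext
  rw [s44mi_iotaE_coe, lg_phiE_coe, lg_phiE_coe, s44mi_iotaF_coe, lg_coeffMap_phi]

/-- compatibility with `λ`. -/
theorem s44mi_iotaE_lam :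
    s44mi_iotaE κ M (lg_lamE (L := k0) M) = lg_lamE (L := k) M :=
  Subtype.ext (lg_coeffMap_lam k0 κ)

variable (hκ : κ.IsIntegral) [PerfectField k0]

include hκ in
/-- **(N1), instance**: the restriction of a place of `E_M(k) / k` to `E_M(k0)` is a place of
`E_M(k0) / k0`, dominated, with the same orders. -/
theorem s44mi_restrict_E (Q2 : Place k ↥(lg_E k M)) :
    ∃ Q : Place k0 ↥(lg_E k0 M),
      (∀ x : ↥(lg_E k0 M), s44mi_iotaE κ M x ∈ Q2.toValuationSubring ↔ x ∈ Q.toValuationSubring) ∧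
      (∀ x : ↥(lg_E k0 M), x ∈ Q.toValuationSubring.nonunits →
        s44mi_iotaE κ M x ∈ Q2.toValuationSubring.nonunits) ∧
      ∀ x : ↥(lg_E k0 M), Q2.ord (s44mi_iotaE κ M x) = Q.ord x :=
  s44mi_restrict κ (lg_E k0 M) (lg_E k M) (fun _ hx => s44mi_mem_E κ M hx) (s44mi_le_E κ M) hκ Q2

include hκ in
/-- **(N1), instance, DVR form**: a place `Q2` of `E_M(k) / k` dominating a discrete valuation ring
`O1` of `E_M(k0)` with uniformiser `x` has `Q2.ord (ι (x ^ n u)) = n`; in particular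
`Q2.ord (ι x) = 1`. -/
theorem s44mi_ord_of_dvr_E (Q2 : Place k ↥(lg_E k M)) (O1 : ValuationSubring ↥(lg_E k0 M))
    (hK0 : ∀ c : k0, algebraMap k0 ↥(lg_E k0 M) c ∈ O1) {x : ↥(lg_E k0 M)}
    (hx : x ∈ O1.nonunits) (hx0 : x ≠ 0)
    (hstr : ∀ y : ↥(lg_E k0 M), y ≠ 0 →
      ∃ (n : ℤ) (u : (↥O1)ˣ), y = x ^ n * ((u : ↥O1) : ↥(lg_E k0 M)))
    (hdom : ∀ y ∈ O1, s44mi_iotaE κ M y ∈ Q2.toValuationSubring)
    (hdomnu : ∀ y ∈ O1.nonunits, s44mi_iotaE κ M y ∈ Q2.toValuationSubring.nonunits)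
    (n : ℤ) (u : (↥O1)ˣ) :
    Q2.ord (s44mi_iotaE κ M (x ^ n * ((u : ↥O1) : ↥(lg_E k0 M)))) = n :=
  s44mi_ord_of_dvr κ (lg_E k0 M) (lg_E k M) (fun _ hx => s44mi_mem_E κ M hx) (s44mi_le_E κ M) hκ
    Q2 O1 hK0 hx hx0 hstr hdom hdomnu n u

end InstE

/-! ### the case in use: `k = kA`, the residue field of a place `A` of `ℚ̄` over `p` -/

section KA

variable (A : ValuationSubring (AlgebraicClosure ℚ)) {p : ℕ} [hp : Fact p.Prime]
  (hA : A.LiesOverPrime p) {k0 : Type*} [Field k0] (κ : k0 →+* IsLocalRing.ResidueField ↥A)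

include hA in
/-- every ring homomorphism from a field into `kA` is integral (`kA` is algebraic over `𝔽_p`:
every nonzero residue class is a root of unity). -/
theorem s44mi_isIntegral_kA : κ.IsIntegral := by
  intro c
  by_cases hc : c = 0
  · subst hc
    exact ⟨Polynomial.X, Polynomial.monic_X, by simp⟩
  · obtain ⟨a, rfl⟩ := IsLocalRing.residue_surjective c
    obtain ⟨m, hm, hpow⟩ := ebf_residue_pow_eq_one A p hA a hc
    have hm0 : m ≠ 0 := fun h => hm (h ▸ dvd_zero p)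
    refine ⟨Polynomial.X ^ m - 1, Polynomial.monic_X_pow_sub_C (1 : k0) hm0, ?_⟩
    simp [Polynomial.eval₂_sub, hpow]

include hA κ in
/-- a field mapping to `kA` is perfect. -/
theorem s44mi_perfectField_of_hom : PerfectField k0 := by
  haveI : CharP (IsLocalRing.ResidueField ↥A) p := ebf_charP A p hA
  haveI : CharP k0 p := κ.charP κ.injective p
  haveI : ExpChar k0 p := ExpChar.prime hp.out
  suffices h : Function.Surjective (frobenius k0 p) by
    haveI : PerfectRing k0 p := PerfectRing.ofSurjective k0 p h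
    exact PerfectRing.toPerfectField k0 p
  intro x
  by_cases hx : x = 0
  · exact ⟨0, by rw [hx, map_zero]⟩
  · have hκx : κ x ≠ 0 := by rwa [Ne, map_eq_zero]
    obtain ⟨a, ha⟩ := IsLocalRing.residue_surjective (κ x)
    obtain ⟨m, hm, hpow⟩ := ebf_residue_pow_eq_one A p hA a (by rw [ha]; exact hκx)
    have hxm : x ^ m = 1 := by
      apply κ.injective
      rw [map_pow, map_one, ← ha]
      exact hpow
    have hcop : Nat.Coprime p m := (Nat.Prime.coprime_iff_not_dvd hp.out).2 hm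
    rcases Nat.lt_or_ge 1 m with h1 | h1
    · obtain ⟨j, -, hj⟩ := Nat.exists_mul_mod_eq_one_of_coprime hcop h1
      refine ⟨x ^ j, ?_⟩
      rw [frobenius_def, ← pow_mul, mul_comm, pow_eq_pow_mod (p * j) hxm, hj, pow_one]
    · have hm0 : m ≠ 0 := fun h => hm (h ▸ dvd_zero p)
      have hm1 : m = 1 := by omega
      rw [hm1, pow_one] at hxm
      exact ⟨1, by rw [hxm, map_one]⟩

variable (M : ℕ) [NeZero M]

include hA in
/-- **(N1) for `kA`**: the restriction of a place of `E_M(kA) / kA` to `E_M(k0)` (any field `k0` with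
a homomorphism `κ : k0 → kA`, e.g. the residue field of a number-field level) is a place of
`E_M(k0) / k0`, dominated, with the same orders. -/
theorem s44mi_restrict_E_kA (Q2 : Place (IsLocalRing.ResidueField ↥A)
    ↥(lg_E (IsLocalRing.ResidueField ↥A) M)) :
    ∃ Q : Place k0 ↥(lg_E k0 M),
      (∀ x : ↥(lg_E k0 M), s44mi_iotaE κ M x ∈ Q2.toValuationSubring ↔ x ∈ Q.toValuationSubring) ∧
      (∀ x : ↥(lg_E k0 M), x ∈ Q.toValuationSubring.nonunits →
        s44mi_iotaE κ M x ∈ Q2.toValuationSubring.nonunits) ∧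
      ∀ x : ↥(lg_E k0 M), Q2.ord (s44mi_iotaE κ M x) = Q.ord x := by
  haveI := s44mi_perfectField_of_hom A hA κ
  exact s44mi_restrict_E κ M (s44mi_isIntegral_kA A hA κ) Q2

include hA in
theorem s44mi_ord_of_dvr_E_kA (Q2 : Place (IsLocalRing.ResidueField ↥A)
    ↥(lg_E (IsLocalRing.ResidueField ↥A) M)) (O1 : ValuationSubring ↥(lg_E k0 M))
    (hK0 : ∀ c : k0, algebraMap k0 ↥(lg_E k0 M) c ∈ O1) {x : ↥(lg_E k0 M)}
    (hx : x ∈ O1.nonunits) (hx0 : x ≠ 0)
    (hstr : ∀ y : ↥(lg_E k0 M), y ≠ 0 →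
      ∃ (n : ℤ) (u : (↥O1)ˣ), y = x ^ n * ((u : ↥O1) : ↥(lg_E k0 M)))
    (hdom : ∀ y ∈ O1, s44mi_iotaE κ M y ∈ Q2.toValuationSubring)
    (hdomnu : ∀ y ∈ O1.nonunits, s44mi_iotaE κ M y ∈ Q2.toValuationSubring.nonunits)
    (n : ℤ) (u : (↥O1)ˣ) :
    Q2.ord (s44mi_iotaE κ M (x ^ n * ((u : ↥O1) : ↥(lg_E k0 M)))) = n := by
  haveI := s44mi_perfectField_of_hom A hA κ
  exact s44mi_ord_of_dvr_E κ M (s44mi_isIntegral_kA A hA κ) Q2 O1 hK0 hx hx0 hstr hdom hdomnu n u

include hA in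
theorem s44mi_restrict_F_kA (Q2 : Place (IsLocalRing.ResidueField ↥A)
    ↥(lg_F (IsLocalRing.ResidueField ↥A) M)) :
    ∃ Q : Place k0 ↥(lg_F k0 M),
      (∀ x : ↥(lg_F k0 M), s44mi_iotaF κ M x ∈ Q2.toValuationSubring ↔ x ∈ Q.toValuationSubring) ∧
      (∀ x : ↥(lg_F k0 M), x ∈ Q.toValuationSubring.nonunits →
        s44mi_iotaF κ M x ∈ Q2.toValuationSubring.nonunits) ∧
      ∀ x : ↥(lg_F k0 M), Q2.ord (s44mi_iotaF κ M x) = Q.ord x := by
  haveI := s44mi_perfectField_of_hom A hA κ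
  exact s44mi_restrict_F κ M (s44mi_isIntegral_kA A hA κ) Q2

end KA

end Fermat.Agent.S44
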