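/-
Project S44 (Mazur–Ribet at `p`), cell [H2-N] / (ND-Leg) LEGENDRE INSTANCE OF THE NODE DICTIONARY,
inputs on the BASE side (helper1).  Prefix `s44nlr_`.

* `s44nlr_phi_mem_iff`   : `φ x ∈ V₁ ↔ x ∈ V_F` (`hφ` of helper12's abstract (ND));
* `s44nlr_resF`          : the Gauss residue homomorphism `V_F →+* lg_F k' M` at number-field level
                           (`k'` the residue field of `O`), with kernel `𝔪(V_F)`, ONTO;
* `s44nlr_red`           : `red : V_F →+* FF_M = lg_F kA M`, `red x = s44rd_red (ιF x)`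
                           (so `s44e_RedOf A M (ιF x) (red x)`), kernel `𝔪(V_F)`,
                           `red = s44mi_iotaF κ ∘ resF`;
* `s44nlr_hCFE`          : for every place `Q` of `FF_M / kA` there is `t ∈ V_F` with
                           `Q.ord (red t) = 1`  (`hCFE` of (ND-mult)).
-/
import Mathlib
import Fermat.Agent.S44.Mono.Centre0
import Fermat.Agent.S44.Res.SSNF
import Fermat.Agent.S44.Res.LegBad
import Fermat.Agent.S44.Mono.CfeInst

set_option autoImplicit false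
set_option linter.unusedSectionVars false
set_option linter.style.haveILetI false
set_option linter.unusedVariables false

noncomputable section

namespace Fermat.Agent.S44

open Polynomial ModularCurve AlgebraicCurve IntermediateField IsLocalRing
open Fermat.Agent.JT3 Fermat.Agent.SS Fermat.Agent.S35 Fermat.Agent.S24 Fermat.Agent.S28

section Generic

variable {L : Type*} [Field L] [CharZero L] [Algebra L (AlgebraicClosure ℚ)]
  (O : ValuationSubring L) [IsDiscreteValuationRing O] {π : O} (hπ : Irreducible π)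
variable (N' q : ℕ) [NeZero N'] [NeZero q] [hq : Fact q.Prime] [CharP (ResidueField O) q]
  (hq2 : ¬ 2 ∣ q) (hqN' : ¬ q ∣ N')

/-- `φ x ∈ V₁ ↔ x ∈ V_F`: the Gauss valuation of the Legendre field restricts to the Gauss
valuation of the base field along `φ = lg_phiE` (`X ↦ X²`). -/
theorem s44nlr_phi_mem_iff (x : ↥(lg_F L (N' * q))) :
    lg_phiE (L := L) (N := N' * q) x ∈ ssm_gl_V1 O hπ N' q ↔ x ∈ s44mz_VF O hπ N' q := by
  have hquot : gq_IsQuot ↥O L (x : LaurentSeries L) := rdn_gf_le_quotField O (N' * q) x.2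
  have hcoe : ((lg_phiE (L := L) (N := N' * q) x : ↥(lg_E L (N' * q))) : LaurentSeries L) =
      qExpand L 2 (x : LaurentSeries L) := rfl
  constructor
  · intro hy
    have hyb : gq_IsBdd ↥O L
        ((lg_phiE (L := L) (N := N' * q) x : ↥(lg_E L (N' * q))) : LaurentSeries L) := hy
    exact (ssm_ga_beta_isBdd_iff 2 π hπ.ne_zero hπ.maximalIdeal_eq hquot).1 (hcoe ▸ hyb)
  · intro hx
    have hb : gq_IsBdd ↥O L (x : LaurentSeries L) := hx
    have : gq_IsBdd ↥O L
        ((lg_phiE (L := L) (N := N' * q) x : ↥(lg_E L (N' * q))) : LaurentSeries L) :=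
      ssm_ga_beta_isBdd 2 hb
    exact this

/-- the Gauss residue homomorphism `V_F →+* lg_F k' N'` at level `N' q`. -/
def s44nlr_resF : ↥(s44mz_VF O hπ N' q) →+* ↥(lg_F (ResidueField O) N') :=
  (s44re_resOf O hπ (lg_F L (N' * q)) (rdn_gf_le_quotField O (N' * q))).codRestrict
    (lg_F (ResidueField O) N').toSubfield.toSubring
    (fun z => s44rd_res_mem_nf O hπ N' q hqN' (z : ↥(lg_F L (N' * q))) z.2)

theorem s44nlr_resF_coe (z : ↥(s44mz_VF O hπ N' q)) :
    ((s44nlr_resF O hπ N' q hqN' z : ↥(lg_F (ResidueField O) N')) :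
      LaurentSeries (ResidueField O)) =
      gq_res O L ⟨((z : ↥(lg_F L (N' * q))) : LaurentSeries L), z.2⟩ := rfl

/-- the kernel of `resF` is the maximal ideal of `V_F`. -/
theorem s44nlr_resF_eq_zero_iff (z : ↥(s44mz_VF O hπ N' q)) :
    s44nlr_resF O hπ N' q hqN' z = 0 ↔
      (z : ↥(lg_F L (N' * q))) ∈ (s44mz_VF O hπ N' q).nonunits := by
  rw [← s44re_resOf_eq_zero_iff O hπ (lg_F L (N' * q)) (rdn_gf_le_quotField O (N' * q)) z]
  constructor
  · intro h
    have := congrArg (fun w : ↥(lg_F (ResidueField O) N') =>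
      (w : LaurentSeries (ResidueField O))) h
    exact this
  · intro h
    exact Subtype.ext h

/-- `resF` on (the class of) a series with coefficients in `O`. -/
theorem s44nlr_resF_iota (z : ↥(s44mz_VF O hπ N' q)) (y : LaurentSeries O)
    (hy : ((z : ↥(lg_F L (N' * q))) : LaurentSeries L) = coeffMap (algebraMap O L) y) :
    ((s44nlr_resF O hπ N' q hqN' z : ↥(lg_F (ResidueField O) N')) :
      LaurentSeries (ResidueField O)) = coeffMap (residue O) y :=
  s44re_resOf_iota O hπ (lg_F L (N' * q)) (rdn_gf_le_quotField O (N' * q)) z y hy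

set_option synthInstance.maxHeartbeats 200000 in
/-- `resF` on constants. -/
theorem s44nlr_resF_const (a : ↥O)
    (h : algebraMap ↥O ↥(lg_F L (N' * q)) a ∈ s44mz_VF O hπ N' q) :
    s44nlr_resF O hπ N' q hqN' ⟨algebraMap ↥O ↥(lg_F L (N' * q)) a, h⟩ =
      algebraMap (ResidueField O) ↥(lg_F (ResidueField O) N') (residue O a) := by
  apply Subtype.ext
  rw [s44nlr_resF_iota O hπ N' q hqN' _ (algebraMap ↥O (LaurentSeries ↥O) a) (by
    rw [gq_coeffMap_algebraMap]
    rfl), Fermat.Agent.S28.bd_coeffMap_algebraMap]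
  rfl

/-- constants of `O` lie in `V_F`. -/
theorem s44nlr_const_mem (a : ↥O) :
    algebraMap ↥O ↥(lg_F L (N' * q)) a ∈ s44mz_VF O hπ N' q :=
  s44re_isBdd_const O a

set_option synthInstance.maxHeartbeats 200000 in
set_option maxHeartbeats 800000 in
/-- `resF` is onto: the residue field of `V_F` is exactly `lg_F k' N'`. -/
theorem s44nlr_resF_surjective : Function.Surjective (s44nlr_resF O hπ N' q hqN') := by
  set k := ResidueField O with hk
  set r := s44nlr_resF O hπ N' q hqN' with hr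
  let T : IntermediateField k (LaurentSeries k) :=
    { carrier := Set.range fun z : ↥(s44mz_VF O hπ N' q) =>
        ((r z : ↥(lg_F k N')) : LaurentSeries k)
      mul_mem' := by
        rintro _ _ ⟨a, rfl⟩ ⟨b, rfl⟩
        exact ⟨a * b, by
          show ((r (a * b) : ↥(lg_F k N')) : LaurentSeries k) = _
          rw [map_mul]; rfl⟩
      one_mem' := ⟨1, by
        show ((r 1 : ↥(lg_F k N')) : LaurentSeries k) = _
        rw [map_one]; rfl⟩
      add_mem' := by
        rintro _ _ ⟨a, rfl⟩ ⟨b, rfl⟩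
        exact ⟨a + b, by
          show ((r (a + b) : ↥(lg_F k N')) : LaurentSeries k) = _
          rw [map_add]; rfl⟩
      zero_mem' := ⟨0, by
        show ((r 0 : ↥(lg_F k N')) : LaurentSeries k) = _
        rw [map_zero]; rfl⟩
      algebraMap_mem' := by
        intro c
        obtain ⟨a, rfl⟩ := residue_surjective c
        have h : algebraMap ↥O ↥(lg_F L (N' * q)) a ∈ s44mz_VF O hπ N' q :=
          s44nlr_const_mem O hπ N' q a
        refine ⟨⟨algebraMap ↥O ↥(lg_F L (N' * q)) a, h⟩, ?_⟩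
        show ((r ⟨algebraMap ↥O ↥(lg_F L (N' * q)) a, h⟩ : ↥(lg_F k N')) : LaurentSeries k) = _
        rw [hr, s44nlr_resF_const O hπ N' q hqN' a h]
        rfl
      inv_mem' := by
        rintro _ ⟨a, rfl⟩
        by_cases h0 : r a = 0
        · refine ⟨0, ?_⟩
          show ((r 0 : ↥(lg_F k N')) : LaurentSeries k) =
            (((r a : ↥(lg_F k N')) : LaurentSeries k))⁻¹
          rw [h0, map_zero]
          simp
        · have hu : (a : ↥(lg_F L (N' * q))) ∉ (s44mz_VF O hπ N' q).nonunits := fun h =>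
            h0 ((s44nlr_resF_eq_zero_iff O hπ N' q hqN' a).2 h)
          rw [ValuationSubring.mem_nonunits_iff_or, not_or, not_not] at hu
          refine ⟨⟨(a : ↥(lg_F L (N' * q)))⁻¹, hu.2⟩, ?_⟩
          have hmul : a * ⟨(a : ↥(lg_F L (N' * q)))⁻¹, hu.2⟩ = 1 :=
            Subtype.ext (mul_inv_cancel₀ hu.1)
          have h1 : r a * r ⟨(a : ↥(lg_F L (N' * q)))⁻¹, hu.2⟩ = 1 := by
            rw [← map_mul, hmul, map_one]
          have h2 : r ⟨(a : ↥(lg_F L (N' * q)))⁻¹, hu.2⟩ = (r a)⁻¹ :=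
            eq_inv_of_mul_eq_one_right h1
          show ((r ⟨(a : ↥(lg_F L (N' * q)))⁻¹, hu.2⟩ : ↥(lg_F k N')) : LaurentSeries k) =
            (((r a : ↥(lg_F k N')) : LaurentSeries k))⁻¹
          rw [h2]
          rfl }
  have hT : lg_F k N' ≤ T := by
    rw [lg_F, modularFunctionFieldFullC, IntermediateField.adjoin_le_iff]
    rintro _ ⟨d, hd, hdM, rfl⟩
    haveI := hd
    have hmemF : qExpand L d (jqModC L) ∈ lg_F L (N' * q) :=
      jqModCd_mem_full L (N' * q) (hdM.trans (dvd_mul_right N' q))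
    have hy : qExpand L d (jqModC L) =
        coeffMap (algebraMap O L) (qExpand O d (jqModC O)) := by
      rw [coeffMap_qExpand, coeffMap_jqModC]
    have hb : gq_IsBdd O L (qExpand L d (jqModC L)) := by
      rw [hy]
      exact gq_isBdd_iota _
    refine ⟨⟨⟨_, hmemF⟩, hb⟩, ?_⟩
    show ((r ⟨⟨_, hmemF⟩, hb⟩ : ↥(lg_F k N')) : LaurentSeries k) = _
    rw [hr, s44nlr_resF_iota O hπ N' q hqN' _ _ hy, coeffMap_qExpand, coeffMap_jqModC]
  intro y
  obtain ⟨z, hz⟩ := hT y.2
  exact ⟨z, Subtype.ext hz⟩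

end Generic

/-! ### the reduction `red : V_F →+* FF_M` over `kA` -/

section Red

local notation "Qb" => AlgebraicClosure ℚ

variable (A : ValuationSubring Qb) {p : ℕ} [hp : Fact p.Prime] (hA : A.LiesOverPrime p)
  (M : ℕ) [NeZero M] [NeZero p] [NeZero (M * p)] (hpM : ¬ p ∣ M)
  (L1 : IntermediateField ℚ Qb)
  [IsDiscreteValuationRing ↥(A.comap (algebraMap L1 Qb))]
  [CharP (ResidueField ↥(A.comap (algebraMap L1 Qb))) p]
  {π : ↥(A.comap (algebraMap L1 Qb))} (hπ : Irreducible π)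

/-- the residue field extension `k' = κ(A ∩ L1) → kA`. -/
abbrev s44nlr_kappa :
    ResidueField ↥(A.comap (algebraMap L1 Qb)) →+* ResidueField ↥A :=
  ssm_gb_kappa (algebraMap L1 Qb) (A.comap (algebraMap L1 Qb)) A (fun _ => Iff.rfl)

/-- `ιF` restricted to the Gauss valuation rings `V_F → W_∞`. -/
def s44nlr_iotaV :
    ↥(s44mz_VF (A.comap (algebraMap L1 Qb)) hπ M p) →+*
      ↥(s44pg_W A hA hp.out.ne_zero (M * p)) where
  toFun x := ⟨ssm_al_iotaF L1 (M * p) (x : ↥(lg_F L1 (M * p))),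
    s44ec_isBdd_iotaF A L1 (M * p) (x : ↥(lg_F L1 (M * p))) x.2⟩
  map_one' := Subtype.ext (map_one _)
  map_mul' a b := Subtype.ext (map_mul _ _ _)
  map_zero' := Subtype.ext (map_zero _)
  map_add' a b := Subtype.ext (map_add _ _ _)

theorem s44nlr_iotaV_coe (x : ↥(s44mz_VF (A.comap (algebraMap L1 Qb)) hπ M p)) :
    ((s44nlr_iotaV A hA M L1 hπ x : ↥(s44pg_W A hA hp.out.ne_zero (M * p))) :
      modularFunctionFieldBar (M * p)) = ssm_al_iotaF L1 (M * p) (x : ↥(lg_F L1 (M * p))) := rfl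

/-- **the reduction map of (ND-Leg)**: `red x = s44rd_red (ιF x) ∈ FF_M = lg_F kA M`. -/
def s44nlr_red :
    ↥(s44mz_VF (A.comap (algebraMap L1 Qb)) hπ M p) →+* ↥(s44e_FF A M) :=
  (s44rd_red A hA M hpM).comp (s44nlr_iotaV A hA M L1 hπ)

theorem s44nlr_red_apply (x : ↥(s44mz_VF (A.comap (algebraMap L1 Qb)) hπ M p)) :
    s44nlr_red A hA M hpM L1 hπ x =
      s44rd_red A hA M hpM ⟨ssm_al_iotaF L1 (M * p) (x : ↥(lg_F L1 (M * p))),
        s44ec_isBdd_iotaF A L1 (M * p) (x : ↥(lg_F L1 (M * p))) x.2⟩ := rfl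

/-- `red x` IS the `w_∞`-reduction of `ιF x` in the sense of `Res/Defs`. -/
theorem s44nlr_redOf (x : ↥(s44mz_VF (A.comap (algebraMap L1 Qb)) hπ M p)) :
    s44e_RedOf A M (ssm_al_iotaF L1 (M * p) (x : ↥(lg_F L1 (M * p))))
      (s44nlr_red A hA M hpM L1 hπ x) :=
  ⟨s44ec_isBdd_iotaF A L1 (M * p) (x : ↥(lg_F L1 (M * p))) x.2, rfl⟩

/-- `red = coeffMap κ ∘ (Gauss residue over O)`, as series. -/
theorem s44nlr_red_coe (x : ↥(s44mz_VF (A.comap (algebraMap L1 Qb)) hπ M p)) :
    ((s44nlr_red A hA M hpM L1 hπ x : ↥(s44e_FF A M)) : LaurentSeries (ResidueField ↥A)) =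
      coeffMap (s44nlr_kappa A L1)
        (gq_res ↥(A.comap (algebraMap L1 Qb)) L1
          ⟨((x : ↥(lg_F L1 (M * p))) : LaurentSeries L1), x.2⟩) :=
  ssm_gb_res (algebraMap L1 Qb) (A.comap (algebraMap L1 Qb)) A (fun _ => Iff.rfl)
    ⟨((x : ↥(lg_F L1 (M * p))) : LaurentSeries L1), x.2⟩

/-- `red = s44mi_iotaF κ ∘ resF`. -/
theorem s44nlr_red_eq (x : ↥(s44mz_VF (A.comap (algebraMap L1 Qb)) hπ M p)) :
    s44nlr_red A hA M hpM L1 hπ x =
      s44mi_iotaF (s44nlr_kappa A L1) M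
        (s44nlr_resF (A.comap (algebraMap L1 Qb)) hπ M p hpM x) :=
  Subtype.ext (s44nlr_red_coe A hA M hpM L1 hπ x)

/-- the kernel of `red` is the maximal ideal of `V_F`. -/
theorem s44nlr_red_eq_zero_iff (x : ↥(s44mz_VF (A.comap (algebraMap L1 Qb)) hπ M p)) :
    s44nlr_red A hA M hpM L1 hπ x = 0 ↔
      (x : ↥(lg_F L1 (M * p))) ∈ (s44mz_VF (A.comap (algebraMap L1 Qb)) hπ M p).nonunits := by
  rw [s44nlr_red_eq, map_eq_zero, s44nlr_resF_eq_zero_iff]

/-- the `hker` hypothesis of `tori_comp V_F red _ _`. -/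
theorem s44nlr_red_hker (x : ↥(s44mz_VF (A.comap (algebraMap L1 Qb)) hπ M p))
    (hx : (x : ↥(lg_F L1 (M * p))) ∈ (s44mz_VF (A.comap (algebraMap L1 Qb)) hπ M p).nonunits) :
    s44nlr_red A hA M hpM L1 hπ x = 0 :=
  (s44nlr_red_eq_zero_iff A hA M hpM L1 hπ x).2 hx

include hA in
set_option synthInstance.maxHeartbeats 400000 in
set_option maxHeartbeats 800000 in
/-- **`hCFE`**: every place `Q` of `FF_M / kA` has a uniformiser of the form `red t`, `t ∈ V_F`
(constant field extensions are unramified: helper2's `s44mi_restrict_F_kA`; `resF` is onto). -/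
theorem s44nlr_hCFE (Q : Place (s44e_kA A) ↥(s44e_FF A M)) :
    ∃ t : ↥(s44mz_VF (A.comap (algebraMap L1 Qb)) hπ M p),
      Q.ord (s44nlr_red A hA M hpM L1 hπ t : ↥(s44e_FF A M)) = 1 := by
  obtain ⟨Q', -, -, hord⟩ := s44mi_restrict_F_kA A hA (s44nlr_kappa A L1) M Q
  obtain ⟨ϖ, hϖ⟩ := IsDiscreteValuationRing.exists_irreducible ↥Q'.toValuationSubring
  have hy := Q'.ord_coe_irreducible hϖ
  obtain ⟨t, ht⟩ := s44nlr_resF_surjective (A.comap (algebraMap L1 Qb)) hπ M p hpM
    (ϖ : ↥(lg_F (ResidueField ↥(A.comap (algebraMap L1 Qb))) M))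
  refine ⟨t, ?_⟩
  rw [s44nlr_red_eq, ht, hord, hy]

end Red

end Fermat.Agent.S44
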