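/-
S44 project, cell [H2] MONO-MAIN, sub-cell [H2-CI] (helper16).  Prefix `s44mci_`.

**THE HYPOTHESES `hdivS`, `hdivS'` OF `s44ga_pair` (`Mono/GlobalAbs.lean`) FOR `fv := φ(fv1)`.**

* `s44mci_ord_cover`  : `f ∈ F̄_N` with all orders divisible by `m`, `f1 ∈ lg_F L1 N` ANY model of `f` over
                        a subfield `L1 ⊆ ℚ̄` ⟹ all orders of `φ(f1)` at the places of the Legendre cover
                        `lg_E L1 N / L1` are divisible by `m` (no finite set `T`, no rationality);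
* `s44mci_ord_rep`    : the same from `s44f_Rep N p V fV` (`m = p`), with `φ(fv1) ≠ 0`;
* `s44mci_hdivS`      : `hdiv` at every horizontal prime of the local ring `B_𝔫` of a chart, from the
                        divisibility of the orders at the places (`ssl_hdiv_of_places`).
-/
import Mathlib
import Fermat.Agent.S44.Mono.CIInst
import Fermat.Agent.S44.Mono.CIModel

set_option autoImplicit false
set_option linter.unusedSectionVars false
set_option linter.unusedVariables false
set_option linter.style.haveILetI false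

noncomputable section

namespace Fermat.Agent.S44

open ModularCurve AlgebraicCurve Module Fermat.Agent.JT3 Fermat.Agent.S24 Fermat.Agent.SS
  Fermat.Agent.SS2 Fermat.Agent.S35 IntermediateField IsLocalRing

local notation "Qb" => AlgebraicClosure ℚ

section Ord

variable (L1 : Type) [Field L1] [Algebra ℚ L1] [CharZero L1] [Algebra L1 Qb]
  [IsScalarTower ℚ L1 Qb] (N : ℕ) [NeZero N]

/-- **divisibility of the orders on the cover**, over any subfield of `ℚ̄`. -/
theorem s44mci_ord_cover (m : ℤ) (f : modularFunctionFieldBar N)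
    (hord : ∀ v : Place Qb (modularFunctionFieldBar N), m ∣ v.ord f)
    (f1 : lg_F L1 N) (hf1 : ssm_al_iotaF L1 N f1 = f) :
    ∀ v : Place L1 (lg_E L1 N), m ∣ v.ord (s44td_phi L1 N f1) := by
  have _ : Algebra.IsAlgebraic ℚ Qb := AlgebraicClosure.isAlgebraic ℚ
  have _ : Algebra.IsAlgebraic L1 Qb := Algebra.IsAlgebraic.tower_top (K := ℚ) L1
  obtain ⟨f1', hf1'⟩ : ∃ f1' : laurentBaseChange L1 (modularFunctionFieldFull N),
      f1' = s44td_toBC L1 N f1 := ⟨_, rfl⟩
  have hf1'coe : (f1' : LaurentSeries L1) = (f1 : LaurentSeries L1) := by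
    rw [hf1', s44td_toBC_coe]
  have hιcoe : ((ssm_al_iotaF L1 N f1 : modularFunctionFieldBar N) :
      LaurentSeries Qb) = dsc_cm L1 Qb (f1 : LaurentSeries L1) := by
    rw [ssm_al_coe_iotaF, dsc_cm]
  have hbc : dsc_bcHom L1 Qb (modularFunctionFieldFull N) f1' = f := by
    apply Subtype.ext
    rw [dsc_bcHom_coe, hf1'coe, ← hf1, hιcoe]
  have hord1 : ∀ Q : Place L1 (laurentBaseChange L1 (modularFunctionFieldFull N)),
      m ∣ Q.ord f1' := fun Q =>
    dsc_bc_dvd_ord L1 Qb (modularFunctionFieldFull N) m f1'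
      (fun P => by rw [hbc]; exact hord P) Q
  intro v
  have := lg_dvd_ord_of_embedding (ss2_dp_iota L1 N) m f1' hord1 v
  rwa [hf1', s44td_iota_toBC] at this

/-- **the orders of `φ(fv1)` are divisible by `p`** for every model `fv1` of a representing function
of a `p`-torsion class. -/
theorem s44mci_ord_rep {p : ℕ} {V : JZero N} {fV : modularFunctionFieldBar N}
    (hfV : s44f_Rep N p V fV) (fv1 : lg_F L1 N) (hfv1 : ssm_al_iotaF L1 N fv1 = fV) :
    s44td_phi L1 N fv1 ≠ 0 ∧
    ∀ v : Place L1 (lg_E L1 N), (p : ℤ) ∣ v.ord (s44td_phi L1 N fv1) := by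
  have hord : ∀ v : Place Qb (modularFunctionFieldBar N), (p : ℤ) ∣ v.ord fV := by
    obtain ⟨-, D, -, hD⟩ := hfV
    exact fun v => ⟨_, (hD v).symm⟩
  refine ⟨?_, s44mci_ord_cover L1 N (p : ℤ) fV hord fv1 hfv1⟩
  rw [Ne, map_eq_zero]
  rintro rfl
  rw [map_zero] at hfv1
  exact hfV.1 hfv1.symm

end Ord

section HDiv

variable {A0 : Type*} [CommRing A0] [IsDomain A0] [IsDiscreteValuationRing A0]
  {K : Type*} [Field K] [Algebra A0 K] [IsFractionRing A0 K]
  {F0 : Type*} [Field F0] [Algebra A0 F0] [Algebra K F0] [IsScalarTower A0 K F0]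
  {B : Subalgebra A0 F0} [IsFractionRing B F0] [IsNoetherianRing B] [IsIntegrallyClosed B]
  (𝔫 : Ideal B) [h𝔫 : 𝔫.IsPrime] {π : A0}

/-- **`hdiv` at the horizontal primes of the local ring `B_𝔫` of a chart.** -/
theorem s44mci_hdivS (hπ : Irreducible π) {g : F0} (hg : g ≠ 0) (m : ℕ)
    (hord : ∀ P : Place K F0, (m : ℤ) ∣ P.ord g) (𝔮 : Ideal (ssl_locSub F0 𝔫))
    (h𝔮 : ssl_Horiz (algebraMap A0 (ssl_locSub F0 𝔫) π) 𝔮) :
    ∃ G : F0, G ≠ 0 ∧ ssl_UnitAt F0 𝔮 (g / G ^ m) := by
  haveI := ssl_loc_isNoetherianRing (F0 := F0) 𝔫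
  haveI := ssl_loc_isIntegrallyClosed (F0 := F0) 𝔫
  exact ssl_hdiv_of_places (K := K) hπ hg m hord 𝔮 h𝔮

end HDiv

end Fermat.Agent.S44
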