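/-
S44, cell [S-AUT] of the assembly [H2-S] (helper26): AUTOMORPHISMS AND THE GAUSS VALUATION RING ON
THE ETALE SHEET.  Prefix `s44me_` (same setting / vocabulary as `Mono/EtSheet.lean`).

`S` a noetherian integrally closed local domain, `E = Frac S`, `LL / E` finite separable,
`T = integralClosure S LL = S[ε]`.

(A1) a compatible pair `(σL : LL ≃+* LL, σS : S ≃+* S)` restricts to `σT := s44me_autT : T ≃+* T`
     (`s44me_autT_coe`, `s44me_autT_algebraMap`).
(A2) a valuation subring `V` of `LL` containing `S` with `𝔪_V ∩ S = 𝔭` contains `T`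
     (`s44me_T_le_V`); `𝔓V := s44me_PV = 𝔪_V ∩ T` is a prime of `T` over `𝔭` (`s44me_mem_PV`,
     `s44me_PV_isPrime`, `s44me_PV_comap`), equal to exactly one sheet prime `s44me_P h hs i`
     (`s44me_PV_eq`), contained in exactly one maximal ideal (`s44me_exists_NV`).  For any
     localisation `R` of `T` at this maximal ideal, inside `LL`: `R ⊆ V` (`s44me_R_le_V`) and the
     units of `R` at the sheet prime are units of `V` (`s44me_vUnit_of_unitAt`,
     `s44me_vUnit_of_unitAt_P`).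
(A3) if `σL` preserves `V` then `σT` preserves `𝔓V` and the maximal ideal above it
     (`s44me_autT_mem_PV`, `s44me_autT_mem_NN`), `σL` restricts to `s44me_autR : R ≃+* R`
     (`s44me_autR_algebraMap`, `s44me_autR_compatF`) and the datum is an `s44ms_Aut`
     (`s44me_aut`).
-/
import Mathlib
import Fermat.Agent.S44.Mono.EtSheet
import Fermat.Agent.S44.Mono.SlopeInv

set_option autoImplicit false
set_option linter.unusedSectionVars false
set_option linter.unusedVariables false
set_option linter.style.haveILetI false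

noncomputable section

namespace Fermat.Agent.S44

open Polynomial Fermat.Agent.SS

/-! ### (A1) restriction of an automorphism to the integral closure -/

section A1

variable {S : Type*} [CommRing S] {LL : Type*} [Field LL] [Algebra S LL]

theorem s44me_aut_symm_compat (σL : LL ≃+* LL) (σS : S ≃+* S)
    (hc : ∀ s, σL (algebraMap S LL s) = algebraMap S LL (σS s)) (s : S) :
    σL.symm (algebraMap S LL s) = algebraMap S LL (σS.symm s) := by
  rw [RingEquiv.symm_apply_eq, hc, RingEquiv.apply_symm_apply]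

theorem s44me_isIntegral_aut (σL : LL ≃+* LL) (σS : S ≃+* S)
    (hc : ∀ s, σL (algebraMap S LL s) = algebraMap S LL (σS s)) {x : LL} (hx : IsIntegral S x) :
    IsIntegral S (σL x) := by
  obtain ⟨p, hp, hpx⟩ := hx
  refine ⟨p.map (σS : S →+* S), hp.map _, ?_⟩
  rw [eval₂_map]
  have hcomp : (algebraMap S LL).comp (σS : S →+* S) =
      (σL : LL →+* LL).comp (algebraMap S LL) := by
    ext s
    simp only [RingHom.comp_apply, RingEquiv.coe_toRingHom, hc]
  rw [hcomp]
  have := hom_eval₂ p (algebraMap S LL) (σL : LL →+* LL) x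
  rw [hpx, map_zero] at this
  exact this.symm

/-- **(A1)** the restriction of `σL` to `T = integralClosure S LL`. -/
def s44me_autT (σL : LL ≃+* LL) (σS : S ≃+* S)
    (hc : ∀ s, σL (algebraMap S LL s) = algebraMap S LL (σS s)) :
    ↥(integralClosure S LL) ≃+* ↥(integralClosure S LL) where
  toFun t := ⟨σL t, s44me_isIntegral_aut σL σS hc t.2⟩
  invFun t := ⟨σL.symm t,
    s44me_isIntegral_aut σL.symm σS.symm (s44me_aut_symm_compat σL σS hc) t.2⟩
  left_inv t := Subtype.ext (σL.symm_apply_apply _)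
  right_inv t := Subtype.ext (σL.apply_symm_apply _)
  map_mul' a b := Subtype.ext (map_mul σL _ _)
  map_add' a b := Subtype.ext (map_add σL _ _)

@[simp]
theorem s44me_autT_coe (σL : LL ≃+* LL) (σS : S ≃+* S)
    (hc : ∀ s, σL (algebraMap S LL s) = algebraMap S LL (σS s))
    (t : ↥(integralClosure S LL)) :
    ((s44me_autT σL σS hc t : ↥(integralClosure S LL)) : LL) = σL (t : LL) := rfl

@[simp]
theorem s44me_autT_symm_coe (σL : LL ≃+* LL) (σS : S ≃+* S)
    (hc : ∀ s, σL (algebraMap S LL s) = algebraMap S LL (σS s))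
    (t : ↥(integralClosure S LL)) :
    (((s44me_autT σL σS hc).symm t : ↥(integralClosure S LL)) : LL) = σL.symm (t : LL) := rfl

theorem s44me_autT_symm (σL : LL ≃+* LL) (σS : S ≃+* S)
    (hc : ∀ s, σL (algebraMap S LL s) = algebraMap S LL (σS s)) :
    (s44me_autT σL σS hc).symm =
      s44me_autT σL.symm σS.symm (s44me_aut_symm_compat σL σS hc) := by
  ext t
  rfl

theorem s44me_autT_algebraMap (σL : LL ≃+* LL) (σS : S ≃+* S)
    (hc : ∀ s, σL (algebraMap S LL s) = algebraMap S LL (σS s)) (s : S) :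
    s44me_autT σL σS hc (algebraMap S ↥(integralClosure S LL) s) =
      algebraMap S ↥(integralClosure S LL) (σS s) :=
  Subtype.ext (hc s)

end A1

/-! ### (A2) a valuation ring of `LL` above a branch -/

section A2val

variable {S : Type*} [CommRing S] {LL : Type*} [Field LL] [Algebra S LL]
  (V : ValuationSubring LL) (hV : ∀ s : S, algebraMap S LL s ∈ V)

/-- the structure map `S → V`. -/
def s44me_toV : S →+* ↥V := (algebraMap S LL).codRestrict V.toSubring hV

theorem s44me_toV_coe (s : S) : ((s44me_toV V hV s : ↥V) : LL) = algebraMap S LL s := rfl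

include hV in
/-- a valuation ring containing `S` contains every element integral over `S`. -/
theorem s44me_mem_V_of_isIntegral {x : LL} (hx : IsIntegral S x) : x ∈ V := by
  have hxV : IsIntegral ↥V x := by
    obtain ⟨p, hp, hpx⟩ := hx
    refine ⟨p.map (s44me_toV V hV), hp.map _, ?_⟩
    rw [eval₂_map]
    have hcomp : (algebraMap ↥V LL).comp (s44me_toV V hV) = algebraMap S LL := by
      ext s
      rfl
    rw [hcomp, hpx]
  obtain ⟨y, hy⟩ := IsIntegrallyClosed.isIntegral_iff.1 hxV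
  rw [← hy]
  exact y.2

include hV in
/-- **(A2)** `T ⊆ V`. -/
theorem s44me_T_le_V (t : ↥(integralClosure S LL)) : (t : LL) ∈ V :=
  s44me_mem_V_of_isIntegral V hV t.2

/-- the inclusion `T → V`. -/
def s44me_incV : ↥(integralClosure S LL) →+* ↥V :=
  ((integralClosure S LL).val : ↥(integralClosure S LL) →+* LL).codRestrict V.toSubring
    (s44me_T_le_V V hV)

theorem s44me_incV_coe (t : ↥(integralClosure S LL)) :
    ((s44me_incV V hV t : ↥V) : LL) = (t : LL) := rfl

/-- **(A2)** the prime `𝔓V = 𝔪_V ∩ T` of `T` cut out by `V`. -/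
def s44me_PV : Ideal ↥(integralClosure S LL) :=
  (IsLocalRing.maximalIdeal ↥V).comap (s44me_incV V hV)

theorem s44me_mem_PV (t : ↥(integralClosure S LL)) :
    t ∈ s44me_PV V hV ↔ (t : LL) ∈ V.nonunits := by
  rw [s44me_PV, Ideal.mem_comap, ValuationSubring.mem_nonunits_iff_exists_mem_maximalIdeal]
  constructor
  · intro h
    exact ⟨s44me_T_le_V V hV t, h⟩
  · rintro ⟨ha, h⟩
    exact h

instance s44me_PV_isPrime : (s44me_PV V hV).IsPrime :=
  Ideal.comap_isPrime _ _

theorem s44me_PV_comap {𝔭 : Ideal S}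
    (hV𝔭 : ∀ s : S, algebraMap S LL s ∈ V.nonunits ↔ s ∈ 𝔭) :
    (s44me_PV V hV).comap (algebraMap S ↥(integralClosure S LL)) = 𝔭 := by
  ext s
  rw [Ideal.mem_comap, s44me_mem_PV, ← hV𝔭]
  rfl

include hV in
theorem s44me_isPrime_of_V {𝔭 : Ideal S}
    (hV𝔭 : ∀ s : S, algebraMap S LL s ∈ V.nonunits ↔ s ∈ 𝔭) : 𝔭.IsPrime := by
  rw [← s44me_PV_comap V hV hV𝔭]
  exact Ideal.comap_isPrime _ _

/-- an element of `T` outside `𝔓V` is a unit of `V`. -/
theorem s44me_vUnit_of_not_mem_PV {t : ↥(integralClosure S LL)} (ht : t ∉ s44me_PV V hV) :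
    ssl_VUnit V (t : LL) := by
  rw [s44me_mem_PV, ValuationSubring.mem_nonunits_iff_or, not_or, not_not] at ht
  exact ⟨ht.1, s44me_T_le_V V hV t, ht.2⟩

end A2val

section A2sheet

variable {S : Type*} [CommRing S] [IsDomain S] [IsIntegrallyClosed S] [IsNoetherianRing S]
  [IsLocalRing S]
  {E : Type*} [Field E] [Algebra S E] [IsFractionRing S E]
  {LL : Type*} [Field LL] [Algebra E LL] [Algebra S LL] [IsScalarTower S E LL]
  [FiniteDimensional E LL] [Algebra.IsSeparable E LL]
  {P0 : S[X]} {eps : LL}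
  {𝔭 : Ideal S} {ι : Type*} [Fintype ι] {r : ι → S}

/-- **(A2)** `𝔓V` is exactly one of the sheet primes over `𝔭`. -/
theorem s44me_PV_eq (h : s44me_Gen E P0 eps) (hs : s44me_Split P0 𝔭 r)
    (V : ValuationSubring LL) (hV : ∀ s : S, algebraMap S LL s ∈ V)
    (hV𝔭 : ∀ s : S, algebraMap S LL s ∈ V.nonunits ↔ s ∈ 𝔭) :
    ∃ i, s44me_PV V hV = s44me_P h hs i ∧ ∀ j, s44me_PV V hV = s44me_P h hs j → j = i := by
  haveI h𝔭 : 𝔭.IsPrime := s44me_isPrime_of_V V hV hV𝔭
  have hcomap := s44me_PV_comap V hV hV𝔭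
  have hle : 𝔭.map (algebraMap S ↥(integralClosure S LL)) ≤ s44me_PV V hV := by
    rw [Ideal.map_le_iff_le_comap, hcomap]
  obtain ⟨i, hi⟩ := s44me_exists_P_le h hs (s44me_PV V hV) hle
  haveI := s44me_P_isPrime h hs i
  have heq : s44me_PV V hV = s44me_P h hs i := by
    by_contra hne
    have hlt : s44me_P h hs i < s44me_PV V hV := lt_of_le_of_ne hi (Ne.symm hne)
    have := Ideal.IsIntegral.comap_lt_comap (R := S) hlt
    rw [hcomap, s44me_comap_P] at this
    exact lt_irrefl _ this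
  refine ⟨i, heq, fun j hj => ?_⟩
  exact s44me_P_le_unique h hs (s44me_PV V hV) (s44me_PV_isPrime V hV).ne_top
    (le_of_eq hj.symm) hi

/-- **(A2)** THE maximal ideal of `T` above `𝔓V`. -/
theorem s44me_exists_NV (h : s44me_Gen E P0 eps) (hs : s44me_Split P0 𝔭 r)
    (V : ValuationSubring LL) (hV : ∀ s : S, algebraMap S LL s ∈ V)
    (hV𝔭 : ∀ s : S, algebraMap S LL s ∈ V.nonunits ↔ s ∈ 𝔭) :
    ∃ NN : Ideal ↥(integralClosure S LL), NN.IsMaximal ∧ s44me_PV V hV ≤ NN ∧
      ∀ NN' : Ideal ↥(integralClosure S LL), NN'.IsMaximal → s44me_PV V hV ≤ NN' → NN' = NN := by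
  obtain ⟨NN, hNN, hle⟩ := Ideal.exists_le_maximal (s44me_PV V hV) (s44me_PV_isPrime V hV).ne_top
  refine ⟨NN, hNN, hle, fun NN' hNN' hle' => ?_⟩
  obtain ⟨i, hi, -⟩ := s44me_PV_eq h hs V hV hV𝔭
  haveI := hNN
  haveI := hNN'
  exact (s44me_max_unique h hs NN (hi ▸ hle) NN' (hi ▸ hle')).symm

end A2sheet

/-! ### (A2) continued: the local rings `R = T_𝔑` inside `LL` -/

section A2loc

variable {S : Type*} [CommRing S] {LL : Type*} [Field LL] [Algebra S LL]
  (V : ValuationSubring LL) (hV : ∀ s : S, algebraMap S LL s ∈ V)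
  (NN : Ideal ↥(integralClosure S LL)) [hNN : NN.IsPrime] (hle : s44me_PV V hV ≤ NN)
  (R : Type*) [CommRing R] [Algebra ↥(integralClosure S LL) R]
  [hloc : IsLocalization.AtPrime R NN] [Algebra R LL]
  [IsScalarTower ↥(integralClosure S LL) R LL]

include hle hloc in
/-- an element of `T` outside `𝔑` is a unit of `V`. -/
theorem s44me_vUnit_of_not_mem_NN {t : ↥(integralClosure S LL)} (ht : t ∉ NN) :
    ssl_VUnit V (t : LL) :=
  s44me_vUnit_of_not_mem_PV V hV fun h => ht (hle h)

include hle hloc in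
/-- **(A2)** `R = T_𝔑 ⊆ V`. -/
theorem s44me_R_le_V (x : R) : algebraMap R LL x ∈ V := by
  obtain ⟨⟨t, s⟩, hx⟩ := IsLocalization.surj NN.primeCompl x
  have hsU := s44me_vUnit_of_not_mem_NN V hV NN hle R s.2
  have e : algebraMap R LL x * ((s : ↥(integralClosure S LL)) : LL) = (t : LL) := by
    have := congrArg (algebraMap R LL) hx
    rw [map_mul, ← IsScalarTower.algebraMap_apply, ← IsScalarTower.algebraMap_apply] at this
    exact this
  have e2 : algebraMap R LL x = (t : LL) * ((s : ↥(integralClosure S LL)) : LL)⁻¹ := by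
    rw [← e, mul_assoc, mul_inv_cancel₀ hsU.1, mul_one]
  rw [e2]
  exact V.mul_mem _ _ (s44me_T_le_V V hV t) hsU.2.2

include hle hloc in
/-- an element of `R` outside the localised `𝔓V` is a unit of `V`. -/
theorem s44me_vUnit_of_not_mem {a : R}
    (ha : a ∉ (s44me_PV V hV).map (algebraMap ↥(integralClosure S LL) R)) :
    ssl_VUnit V (algebraMap R LL a) := by
  obtain ⟨⟨t, s⟩, hx⟩ := IsLocalization.surj NN.primeCompl a
  have hsU := s44me_vUnit_of_not_mem_NN V hV NN hle R s.2
  have htP : t ∉ s44me_PV V hV := by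
    intro htP
    apply ha
    have h1 : algebraMap ↥(integralClosure S LL) R t ∈
        (s44me_PV V hV).map (algebraMap ↥(integralClosure S LL) R) :=
      Ideal.mem_map_of_mem _ htP
    rw [← hx] at h1
    have hu : IsUnit (algebraMap ↥(integralClosure S LL) R (s : ↥(integralClosure S LL))) :=
      IsLocalization.map_units R s
    exact (Ideal.mul_unit_mem_iff_mem _ hu).1 h1
  have htU := s44me_vUnit_of_not_mem_PV V hV htP
  have e : algebraMap R LL a * ((s : ↥(integralClosure S LL)) : LL) = (t : LL) := by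
    have := congrArg (algebraMap R LL) hx
    rw [map_mul, ← IsScalarTower.algebraMap_apply, ← IsScalarTower.algebraMap_apply] at this
    exact this
  have e2 : algebraMap R LL a = (t : LL) / ((s : ↥(integralClosure S LL)) : LL) := by
    rw [← e, mul_div_assoc, div_self hsU.1, mul_one]
  rw [e2]
  exact ssl_vUnit_div htU hsU

include hle hloc in
/-- **(A2)** a unit of `R` at the localised `𝔓V` is a unit of `V`: the order function `W₂` of
`s44ms_congr` at the sheet ring `R` is the valuation of `V`. -/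
theorem s44me_vUnit_of_unitAt {x : LL}
    (hx : ssl_UnitAt LL ((s44me_PV V hV).map (algebraMap ↥(integralClosure S LL) R)) x) :
    ssl_VUnit V x := by
  obtain ⟨a, s, ha, hs, e⟩ := hx
  have haU := s44me_vUnit_of_not_mem V hV NN hle R ha
  have hsU := s44me_vUnit_of_not_mem V hV NN hle R hs
  have e2 : x = algebraMap R LL a / algebraMap R LL s := by
    rw [← e, mul_div_assoc, div_self hsU.1, mul_one]
  rw [e2]
  exact ssl_vUnit_div haU hsU

end A2loc


section A2P

variable {S : Type*} [CommRing S] [IsDomain S] [IsIntegrallyClosed S] [IsNoetherianRing S]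
  [IsLocalRing S]
  {E : Type*} [Field E] [Algebra S E] [IsFractionRing S E]
  {LL : Type*} [Field LL] [Algebra E LL] [Algebra S LL] [IsScalarTower S E LL]
  [FiniteDimensional E LL] [Algebra.IsSeparable E LL]
  {P0 : S[X]} {eps : LL}
  {𝔭 : Ideal S} {ι : Type*} [Fintype ι] {r : ι → S}

/-- **(A2)**, sheet-prime form: if `𝔓V` is the sheet prime `s44me_P h hs i` and `𝔑 ⊇ 𝔓V` then a unit
of `R = T_𝔑` at the localised sheet prime is a unit of `V`. -/
theorem s44me_vUnit_of_unitAt_P (h : s44me_Gen E P0 eps) (hs : s44me_Split P0 𝔭 r)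
    (V : ValuationSubring LL) (hV : ∀ s : S, algebraMap S LL s ∈ V) {i : ι}
    (hi : s44me_PV V hV = s44me_P h hs i)
    (NN : Ideal ↥(integralClosure S LL)) [hNN : NN.IsPrime] (hle : s44me_P h hs i ≤ NN)
    (R : Type*) [CommRing R] [Algebra ↥(integralClosure S LL) R]
    [hloc : IsLocalization.AtPrime R NN] [Algebra R LL]
    [IsScalarTower ↥(integralClosure S LL) R LL] {x : LL}
    (hx : ssl_UnitAt LL ((s44me_P h hs i).map (algebraMap ↥(integralClosure S LL) R)) x) :
    ssl_VUnit V x := by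
  rw [← hi] at hx hle
  exact s44me_vUnit_of_unitAt V hV NN hle R hx

end A2P

/-! ### (A3) automorphisms preserving `V` -/

section A3val

variable {S : Type*} [CommRing S] {LL : Type*} [Field LL] [Algebra S LL]
  (V : ValuationSubring LL) (hV : ∀ s : S, algebraMap S LL s ∈ V)
  (σL : LL ≃+* LL) (σS : S ≃+* S)
  (hc : ∀ s, σL (algebraMap S LL s) = algebraMap S LL (σS s))
  (hσV : ∀ x : LL, x ∈ V ↔ σL x ∈ V)

include hσV in
theorem s44me_aut_mem_nonunits (x : LL) : x ∈ V.nonunits ↔ σL x ∈ V.nonunits := by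
  rw [ValuationSubring.mem_nonunits_iff_or, ValuationSubring.mem_nonunits_iff_or, ← map_inv₀,
    ← hσV, map_eq_zero_iff σL σL.injective]

include hσV in
theorem s44me_aut_vUnit {x : LL} : ssl_VUnit V x ↔ ssl_VUnit V (σL x) := by
  unfold ssl_VUnit
  rw [← map_inv₀, ← hσV, ← hσV, Ne, Ne, map_eq_zero_iff σL σL.injective]

include hσV in
/-- **(A3)** `σT` preserves `𝔓V`. -/
theorem s44me_autT_mem_PV (t : ↥(integralClosure S LL)) :
    t ∈ s44me_PV V hV ↔ s44me_autT σL σS hc t ∈ s44me_PV V hV := by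
  rw [s44me_mem_PV, s44me_mem_PV, s44me_autT_coe]
  exact s44me_aut_mem_nonunits V σL hσV _

end A3val

section A3sheet

variable {S : Type*} [CommRing S] [IsDomain S] [IsIntegrallyClosed S] [IsNoetherianRing S]
  [IsLocalRing S]
  {E : Type*} [Field E] [Algebra S E] [IsFractionRing S E]
  {LL : Type*} [Field LL] [Algebra E LL] [Algebra S LL] [IsScalarTower S E LL]
  [FiniteDimensional E LL] [Algebra.IsSeparable E LL]
  {P0 : S[X]} {eps : LL}
  {𝔭 : Ideal S} {ι : Type*} [Fintype ι] {r : ι → S}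

/-- **(A3)** `σT` preserves the maximal ideal `𝔑` of `T` above `𝔓V`. -/
theorem s44me_autT_mem_NN (h : s44me_Gen E P0 eps) (hs : s44me_Split P0 𝔭 r)
    (V : ValuationSubring LL) (hV : ∀ s : S, algebraMap S LL s ∈ V)
    (hV𝔭 : ∀ s : S, algebraMap S LL s ∈ V.nonunits ↔ s ∈ 𝔭)
    (NN : Ideal ↥(integralClosure S LL)) [hNN : NN.IsMaximal] (hle : s44me_PV V hV ≤ NN)
    (σL : LL ≃+* LL) (σS : S ≃+* S)
    (hc : ∀ s, σL (algebraMap S LL s) = algebraMap S LL (σS s))
    (hσV : ∀ x : LL, x ∈ V ↔ σL x ∈ V) (t : ↥(integralClosure S LL)) :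
    t ∈ NN ↔ s44me_autT σL σS hc t ∈ NN := by
  set σT := s44me_autT σL σS hc with hσT
  set NN' : Ideal ↥(integralClosure S LL) := NN.comap σT with hNN'
  haveI : NN'.IsMaximal := Ideal.comap_isMaximal_of_equiv σT
  have hle' : s44me_PV V hV ≤ NN' := fun x hx =>
    hle ((s44me_autT_mem_PV V hV σL σS hc hσV x).1 hx)
  obtain ⟨N0, -, -, huniq⟩ := s44me_exists_NV h hs V hV hV𝔭
  have e : NN' = NN := (huniq NN' inferInstance hle').trans (huniq NN hNN hle).symm
  have h1 : t ∈ NN' ↔ σT t ∈ NN := Ideal.mem_comap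
  rwa [e] at h1

end A3sheet

/-! ### (A3) the induced automorphism of a localisation -/

section A3loc

variable {T : Type*} [CommRing T] (NN : Ideal T) [hNN : NN.IsPrime]
  (R : Type*) [CommRing R] [Algebra T R] [hloc : IsLocalization.AtPrime R NN]

theorem s44me_map_primeCompl (σT : T ≃+* T) (hσ : ∀ t, t ∈ NN ↔ σT t ∈ NN) :
    NN.primeCompl.map σT.toMonoidHom = NN.primeCompl := by
  ext t
  constructor
  · rintro ⟨t', ht', rfl⟩
    exact fun hmem => ht' ((hσ t').2 hmem)
  · intro ht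
    refine ⟨σT.symm t, fun hmem => ht ?_, ?_⟩
    · have := (hσ (σT.symm t)).1 hmem
      rwa [RingEquiv.apply_symm_apply] at this
    · exact σT.apply_symm_apply t

/-- **(A3)** the automorphism of `R = T_𝔑` induced by an automorphism of `T` preserving `𝔑`. -/
def s44me_autR (σT : T ≃+* T) (hσ : ∀ t, t ∈ NN ↔ σT t ∈ NN) : R ≃+* R :=
  IsLocalization.ringEquivOfRingEquiv R R σT (s44me_map_primeCompl NN σT hσ)

theorem s44me_autR_algebraMap (σT : T ≃+* T) (hσ : ∀ t, t ∈ NN ↔ σT t ∈ NN) (t : T) :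
    s44me_autR NN R σT hσ (algebraMap T R t) = algebraMap T R (σT t) :=
  IsLocalization.ringEquivOfRingEquiv_eq _ t

/-- `σR` is compatible with any ring homomorphism out of `R` that is compatible on `T`. -/
theorem s44me_autR_compat {F : Type*} [CommRing F] (g : R →+* F) (σF : F →+* F)
    (σT : T ≃+* T) (hσ : ∀ t, t ∈ NN ↔ σT t ∈ NN)
    (hg : ∀ t : T, g (algebraMap T R (σT t)) = σF (g (algebraMap T R t))) (x : R) :
    g (s44me_autR NN R σT hσ x) = σF (g x) := by
  have : (g.comp (s44me_autR NN R σT hσ : R →+* R)) = σF.comp g := by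
    apply IsLocalization.ringHom_ext NN.primeCompl
    ext t
    simp only [RingHom.comp_apply, RingEquiv.coe_toRingHom, s44me_autR_algebraMap, hg]
  exact RingHom.congr_fun this x

end A3loc

section A3main

variable {S : Type*} [CommRing S] {LL : Type*} [Field LL] [Algebra S LL]
  (NN : Ideal ↥(integralClosure S LL)) [hNN : NN.IsPrime]
  (R : Type*) [CommRing R] [Algebra ↥(integralClosure S LL) R]
  [hloc : IsLocalization.AtPrime R NN] [Algebra R LL]
  [IsScalarTower ↥(integralClosure S LL) R LL]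
  (σL : LL ≃+* LL) (σS : S ≃+* S)
  (hc : ∀ s, σL (algebraMap S LL s) = algebraMap S LL (σS s))
  (hσ : ∀ t, t ∈ NN ↔ s44me_autT σL σS hc t ∈ NN)

/-- **(A3)** `compatF`: `σR` is the restriction of `σL`. -/
theorem s44me_autR_compatF (x : R) :
    algebraMap R LL (s44me_autR NN R (s44me_autT σL σS hc) hσ x) = σL (algebraMap R LL x) := by
  refine s44me_autR_compat NN R (algebraMap R LL) (σL : LL →+* LL) _ hσ (fun t => ?_) x
  rw [← IsScalarTower.algebraMap_apply, ← IsScalarTower.algebraMap_apply]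
  rfl

variable [Algebra S R] [IsScalarTower S ↥(integralClosure S LL) R]

theorem s44me_autR_algebraMapS (s : S) :
    s44me_autR NN R (s44me_autT σL σS hc) hσ (algebraMap S R s) = algebraMap S R (σS s) := by
  rw [IsScalarTower.algebraMap_apply S ↥(integralClosure S LL) R, s44me_autR_algebraMap,
    s44me_autT_algebraMap, ← IsScalarTower.algebraMap_apply]

/-- **(A3)** the datum `(σL, σR, σ0)` is an `s44ms_Aut` as soon as `σS u = u`, `σL z = z` and `σS`
is compatible with `σ0` on the base. -/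
theorem s44me_aut {A0 : Type*} [CommRing A0] [Algebra A0 S] [Algebra A0 R]
    [IsScalarTower A0 S R] [IsDomain R] [IsFractionRing R LL]
    (σ0 : A0 ≃+* A0) (h0 : ∀ c : A0, σS (algebraMap A0 S c) = algebraMap A0 S (σ0 c))
    {u : S} (hu : σS u = u) {z : LL} (hz : σL z = z) :
    s44ms_Aut (algebraMap S R u) z σL (s44me_autR NN R (s44me_autT σL σS hc) hσ) σ0 where
  compatF x := (s44me_autR_compatF NN R σL σS hc hσ x).symm
  compat0 c := by
    rw [IsScalarTower.algebraMap_apply A0 S R, s44me_autR_algebraMapS, h0,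
      ← IsScalarTower.algebraMap_apply]
  fix_u := by rw [s44me_autR_algebraMapS, hu]
  fix_z := hz

end A3main

section A3pack

variable {S : Type*} [CommRing S] [IsDomain S] [IsIntegrallyClosed S] [IsNoetherianRing S]
  [IsLocalRing S]
  {E : Type*} [Field E] [Algebra S E] [IsFractionRing S E]
  {LL : Type*} [Field LL] [Algebra E LL] [Algebra S LL] [IsScalarTower S E LL]
  [FiniteDimensional E LL] [Algebra.IsSeparable E LL]
  {P0 : S[X]} {eps : LL}
  {𝔭 : Ideal S} {ι : Type*} [Fintype ι] {r : ι → S}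

/-- **(A3)**, packaged: in the sheet setting, an automorphism `σL` of `LL` compatible with
`σS`, `σ0`, preserving `V` and fixing `u`, `z` induces an `s44ms_Aut` of `R = T_𝔑`, `𝔑 ⊇ 𝔓V`. -/
theorem s44me_aut_exists (h : s44me_Gen E P0 eps) (hs : s44me_Split P0 𝔭 r)
    (V : ValuationSubring LL) (hV : ∀ s : S, algebraMap S LL s ∈ V)
    (hV𝔭 : ∀ s : S, algebraMap S LL s ∈ V.nonunits ↔ s ∈ 𝔭)
    (NN : Ideal ↥(integralClosure S LL)) [hNN : NN.IsMaximal] (hle : s44me_PV V hV ≤ NN)
    (R : Type*) [CommRing R] [Algebra ↥(integralClosure S LL) R]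
    [hloc : IsLocalization.AtPrime R NN] [Algebra R LL]
    [IsScalarTower ↥(integralClosure S LL) R LL]
    [Algebra S R] [IsScalarTower S ↥(integralClosure S LL) R]
    {A0 : Type*} [CommRing A0] [Algebra A0 S] [Algebra A0 R]
    [IsScalarTower A0 S R] [IsDomain R] [IsFractionRing R LL]
    (σL : LL ≃+* LL) (σS : S ≃+* S) (σ0 : A0 ≃+* A0)
    (hc : ∀ s, σL (algebraMap S LL s) = algebraMap S LL (σS s))
    (h0 : ∀ c : A0, σS (algebraMap A0 S c) = algebraMap A0 S (σ0 c))
    (hσV : ∀ x : LL, x ∈ V ↔ σL x ∈ V)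
    {u : S} (hu : σS u = u) {z : LL} (hz : σL z = z) :
    ∃ σR : R ≃+* R, (∀ x : R, algebraMap R LL (σR x) = σL (algebraMap R LL x)) ∧
      (∀ s : S, σR (algebraMap S R s) = algebraMap S R (σS s)) ∧
      s44ms_Aut (algebraMap S R u) z σL σR σ0 := by
  have hσ := s44me_autT_mem_NN h hs V hV hV𝔭 NN hle σL σS hc hσV
  exact ⟨s44me_autR NN R (s44me_autT σL σS hc) hσ, s44me_autR_compatF NN R σL σS hc hσ,
    s44me_autR_algebraMapS NN R σL σS hc hσ, s44me_aut NN R σL σS hc hσ σ0 h0 hu hz⟩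

/-- **(A2)+(A3)** for the concrete sheet ring `R := ssl_locSub LL 𝔑 ⊆ LL` (all the algebra
structures are the canonical ones of subalgebras). -/
theorem s44me_aut_exists_locSub (h : s44me_Gen E P0 eps) (hs : s44me_Split P0 𝔭 r)
    [IsFractionRing ↥(integralClosure S LL) LL]
    (V : ValuationSubring LL) (hV : ∀ s : S, algebraMap S LL s ∈ V)
    (hV𝔭 : ∀ s : S, algebraMap S LL s ∈ V.nonunits ↔ s ∈ 𝔭)
    (NN : Ideal ↥(integralClosure S LL)) [hNN : NN.IsMaximal] (hle : s44me_PV V hV ≤ NN)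
    {A0 : Type*} [CommRing A0] [Algebra A0 S] [Algebra A0 LL] [IsScalarTower A0 S LL]
    (σL : LL ≃+* LL) (σS : S ≃+* S) (σ0 : A0 ≃+* A0)
    (hc : ∀ s, σL (algebraMap S LL s) = algebraMap S LL (σS s))
    (h0 : ∀ c : A0, σS (algebraMap A0 S c) = algebraMap A0 S (σ0 c))
    (hσV : ∀ x : LL, x ∈ V ↔ σL x ∈ V)
    {u : S} (hu : σS u = u) {z : LL} (hz : σL z = z) :
    (∀ x : ↥(ssl_locSub LL NN), (x : LL) ∈ V) ∧
    (∀ i, s44me_PV V hV = s44me_P h hs i → ∀ x : LL,
      ssl_UnitAt LL ((s44me_P h hs i).map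
        (algebraMap ↥(integralClosure S LL) ↥(ssl_locSub LL NN))) x → ssl_VUnit V x) ∧
    ∃ σR : ↥(ssl_locSub LL NN) ≃+* ↥(ssl_locSub LL NN),
      (∀ x : ↥(ssl_locSub LL NN), ((σR x : ↥(ssl_locSub LL NN)) : LL) = σL (x : LL)) ∧
      (∀ s : S, σR (algebraMap S ↥(ssl_locSub LL NN) s) =
        algebraMap S ↥(ssl_locSub LL NN) (σS s)) ∧
      s44ms_Aut (algebraMap S ↥(ssl_locSub LL NN) u) z σL σR σ0 := by
  haveI : NN.IsPrime := hNN.isPrime
  refine ⟨fun x => s44me_R_le_V V hV NN hle ↥(ssl_locSub LL NN) x, fun i hi x hx => ?_, ?_⟩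
  · exact s44me_vUnit_of_unitAt_P h hs V hV hi NN (hi ▸ hle) ↥(ssl_locSub LL NN) hx
  · exact s44me_aut_exists h hs V hV hV𝔭 NN hle ↥(ssl_locSub LL NN) σL σS σ0 hc h0 hσV hu hz

end A3pack

end Fermat.Agent.S44
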