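/-
Project S44 (Mazur–Ribet at `p`), cell [H2-S] of [H2] MONO-MAIN (helper4): HORIZONTAL PRIMES OF A
NODE-SHEET RING CONTRACT TO HORIZONTAL PRIMES OF THE NODE RING.  Prefix `s44hz_`.

`S` a noetherian local domain with `𝔪_S = (λ, u, v)`, `λ ∣ u v` (a node, or a smooth point with
`v = 0`…).  Then `ht 𝔪_S ≤ 2` (`𝔪_S = rad (λ, u + v)`, Krull), so a nonzero prime of `S` not
containing `λ` has height one (`s44hz_height_one`).  For an algebraic extension of domains
`S → R` a horizontal prime of `R` therefore contracts to a horizontal prime of `S`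
(`s44hz_horiz_comap`), and the divisibility hypothesis `hdiv` of the slope lemmas passes from
`f ∈ Frac S` to `Φ = c · f · g ^ m ∈ Frac R` (`s44hz_hdiv`): no places of the Kummer field needed.
-/
import Mathlib
import Fermat.Agent.S44.Mono.SlopeInv

set_option autoImplicit false
set_option linter.unusedSectionVars false
set_option linter.unusedVariables false
set_option linter.style.haveILetI false

namespace Fermat.Agent.S44

open Fermat.Agent.SS IsLocalRing

section Height

variable {S : Type*} [CommRing S] [IsDomain S] [IsLocalRing S] [IsNoetherianRing S]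

/-- the closed point of a node has height at most two. -/
theorem s44hz_height_max_le {lam u v : S} (hm : maximalIdeal S = Ideal.span {lam, u, v})
    (hdvd : lam ∣ u * v) : (maximalIdeal S).height ≤ 2 := by
  classical
  have hmin : maximalIdeal S ∈ (Ideal.span (({lam, u + v} : Finset S) : Set S)).minimalPrimes := by
    refine ⟨⟨inferInstance, ?_⟩, ?_⟩
    · rw [Ideal.span_le]
      intro x hx
      simp only [Finset.coe_insert, Finset.coe_singleton, Set.mem_insert_iff,
        Set.mem_singleton_iff] at hx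
      rw [hm]
      rcases hx with rfl | rfl
      · exact Ideal.subset_span (by simp)
      · exact Ideal.add_mem _ (Ideal.subset_span (by simp)) (Ideal.subset_span (by simp))
    · rintro 𝔮 ⟨h𝔮, hle⟩ -
      have hlam : lam ∈ 𝔮 := hle (Ideal.subset_span (by simp))
      have huv : u + v ∈ 𝔮 := hle (Ideal.subset_span (by simp))
      have hmul : u * v ∈ 𝔮 := Ideal.mem_of_dvd _ hdvd hlam
      have hu : u ∈ 𝔮 ∧ v ∈ 𝔮 := by
        rcases h𝔮.mem_or_mem hmul with h | h
        · refine ⟨h, ?_⟩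
          have := 𝔮.sub_mem huv h
          simpa using this
        · refine ⟨?_, h⟩
          have := 𝔮.sub_mem huv h
          simpa using this
      rw [hm, Ideal.span_le]
      intro x hx
      simp only [Set.mem_insert_iff, Set.mem_singleton_iff] at hx
      rcases hx with rfl | rfl | rfl
      · exact hlam
      · exact hu.1
      · exact hu.2
  have := Ideal.height_le_card_of_mem_minimalPrimes_span_finset hmin
  refine this.trans ?_
  have hcard : ({lam, u + v} : Finset S).card ≤ 2 := Finset.card_le_two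
  exact_mod_cast hcard

/-- a nonzero prime of the node ring not containing `λ` has height one. -/
theorem s44hz_height_one {lam u v : S} (hm : maximalIdeal S = Ideal.span {lam, u, v})
    (hdvd : lam ∣ u * v) (𝔮 : Ideal S) [h𝔮 : 𝔮.IsPrime] (hlam : lam ∉ 𝔮) (h0 : 𝔮 ≠ ⊥) :
    𝔮.height = 1 := by
  have hlt : 𝔮 < maximalIdeal S := by
    refine lt_of_le_of_ne (IsLocalRing.le_maximalIdeal h𝔮.ne_top) fun h => hlam ?_
    rw [h, hm]
    exact Ideal.subset_span (by simp)
  have h2 := (Ideal.height_le_iff (p := maximalIdeal S) (n := 2)).1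
    (by exact_mod_cast s44hz_height_max_le hm hdvd) 𝔮 h𝔮 hlt
  apply le_antisymm
  · have h3 : 𝔮.height < (2 : ℕ) := h2
    have h4 : 𝔮.height < (1 : ℕ∞) + 1 := by
      rw [show ((1 : ℕ∞) + 1) = ((2 : ℕ) : ℕ∞) by norm_num]; exact h3
    exact (ENat.lt_add_one_iff (by simp)).1 h4
  · rw [Order.one_le_iff_pos, pos_iff_ne_zero, Ne, Ideal.height_eq_zero_iff_eq_bot]
    exact h0

end Height

section Down

variable {S : Type*} [CommRing S] [IsDomain S] [IsLocalRing S] [IsNoetherianRing S]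
  {FS : Type*} [Field FS] [Algebra S FS] [IsFractionRing S FS]
  {R : Type*} [CommRing R] [IsDomain R]
  {FR : Type*} [Field FR] [Algebra R FR] [IsFractionRing R FR]
  [Algebra S R] [Algebra FS FR] [Algebra S FR] [IsScalarTower S FS FR] [IsScalarTower S R FR]

/-- a horizontal prime of `R` contracts to a horizontal prime of the node ring `S`. -/
theorem s44hz_horiz_comap [Algebra.IsAlgebraic S R] {lam u v : S}
    (hm : maximalIdeal S = Ideal.span {lam, u, v}) (hdvd : lam ∣ u * v)
    {𝔮 : Ideal R} (h𝔮 : ssl_Horiz (algebraMap S R lam) 𝔮) :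
    ssl_Horiz lam (𝔮.comap (algebraMap S R)) := by
  haveI := h𝔮.1
  have hprime : (𝔮.comap (algebraMap S R)).IsPrime := Ideal.comap_isPrime _ _
  have hlam : lam ∉ 𝔮.comap (algebraMap S R) := fun h => h𝔮.2.2 h
  have h0 : 𝔮.comap (algebraMap S R) ≠ ⊥ := by
    have h𝔮0 : 𝔮 ≠ ⊥ := Ideal.ne_bot_of_height_eq_one h𝔮.2.1
    obtain ⟨x, hx, hx0⟩ := Submodule.exists_mem_ne_zero_of_ne_bot h𝔮0
    exact Ideal.comap_ne_bot_of_algebraic_mem hx0 hx (Algebra.IsAlgebraic.isAlgebraic x)
  exact ⟨hprime, s44hz_height_one hm hdvd _ hlam h0, hlam⟩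

omit [IsLocalRing S] [IsNoetherianRing S] in
/-- a unit at the contraction is a unit at the prime. -/
theorem s44hz_unitAt_map {𝔮 : Ideal R} {x : FS}
    (hx : ssl_UnitAt FS (𝔮.comap (algebraMap S R)) x) : ssl_UnitAt FR 𝔮 (algebraMap FS FR x) := by
  obtain ⟨a, s, ha, hs, h⟩ := hx
  refine ⟨algebraMap S R a, algebraMap S R s, ha, hs, ?_⟩
  rw [← IsScalarTower.algebraMap_apply S R FR, ← IsScalarTower.algebraMap_apply S R FR,
    IsScalarTower.algebraMap_apply S FS FR, IsScalarTower.algebraMap_apply S FS FR, ← map_mul, h]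

/-- **`hdiv` passes from `f ∈ Frac S` to `Φ = c · f · g ^ m ∈ Frac R`** (`c` a horizontal
unit). -/
theorem s44hz_hdiv [Algebra.IsAlgebraic S R] {lam u v : S}
    (hm : maximalIdeal S = Ideal.span {lam, u, v}) (hdvd : lam ∣ u * v) (m : ℕ) {f : FS}
    (hdivS : ∀ 𝔮' : Ideal S, ssl_Horiz lam 𝔮' →
      ∃ G : FS, G ≠ 0 ∧ ssl_UnitAt FS 𝔮' (f / G ^ m))
    {c g Φ : FR} (hg : g ≠ 0)
    (hc : ∀ 𝔮 : Ideal R, ssl_Horiz (algebraMap S R lam) 𝔮 → ssl_UnitAt FR 𝔮 c)
    (hΦ : Φ = c * algebraMap FS FR f * g ^ m)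
    (𝔮 : Ideal R) (h𝔮 : ssl_Horiz (algebraMap S R lam) 𝔮) :
    ∃ G : FR, G ≠ 0 ∧ ssl_UnitAt FR 𝔮 (Φ / G ^ m) := by
  haveI := h𝔮.1
  obtain ⟨G, hG, hGu⟩ := hdivS _ (s44hz_horiz_comap hm hdvd h𝔮)
  have hG' : algebraMap FS FR G ≠ 0 := (map_ne_zero _).2 hG
  refine ⟨g * algebraMap FS FR G, mul_ne_zero hg hG', ?_⟩
  have h1 := s44hz_unitAt_map (FR := FR) hGu
  rw [map_div₀, map_pow] at h1
  have h2 : Φ / (g * algebraMap FS FR G) ^ m =
      c * (algebraMap FS FR f / algebraMap FS FR G ^ m) := by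
    rw [hΦ, mul_pow]
    have h3 : g ^ m ≠ 0 := pow_ne_zero _ hg
    have h4 : algebraMap FS FR G ^ m ≠ 0 := pow_ne_zero _ hG'
    field_simp
  rw [h2]
  exact ssl_unitAt_mul 𝔮 (hc 𝔮 h𝔮) h1

end Down

end Fermat.Agent.S44
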