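/-
Project S44 (Mazur–Ribet at `p`), cell [H2-S]/[H2-N] (N4-ex) of [H2] MONO-MAIN (helper2 for
helper4): EXISTENCE OF THE NORMALISED ORDER AT A NODE ALONG A BRANCH.  Prefix `s44nx_`.

`R` a noetherian integrally closed local domain, `F = Frac R`, `𝔪_R = (λ, u, v)`, a node
`u v = λ^M · unit` with branches `P₁ ∋ u`, `P₂ ∋ v` (`s44n_Node`).  Then there is a function
`ν : F → ℤ` with the five characteristic properties `s44nu_IsNu λ u P₂ ν` of `Mono/NuDef.lean`
(by `s44nu_unique` it is THE normalised order at the closed point along `P₂`).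

Construction: every `a ∉ P₂` is `u^j · unit` modulo `P₂` for a UNIQUE `j =: j(a)`
(`s44nu_decomp`; `j` is additive on `R ∖ P₂`); every `x ∈ Fˣ` is `λ^n · a / s` with
`a, s ∉ P₂` (`ssl_exists_zpow`: `R_{P₂}` is a DVR with uniformiser `λ`); `ν x := j(a) − j(s)`,
independent of the presentation because `λ ∈ P₂`.
-/
import Mathlib
import Fermat.Agent.S44.Mono.NuDef
import Fermat.Agent.S44.Node.Slope

set_option autoImplicit false
set_option linter.unusedSectionVars false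
set_option linter.unusedVariables false
set_option linter.style.haveILetI false

namespace Fermat.Agent.S44

open Fermat.Agent.SS IsLocalRing

section NuExists

variable {R : Type*} [CommRing R] [IsDomain R] [IsLocalRing R] [IsNoetherianRing R]
  {F : Type*} [Field F] [Algebra R F] [IsFractionRing R F]

/-- `a = u ^ j · unit` modulo `P₂`. -/
def s44nx_IsJ (u : R) (P₂ : Ideal R) (a : R) (j : ℕ) : Prop :=
  ∃ (ω : Rˣ) (t : R), t ∈ P₂ ∧ a = u ^ j * (ω : R) + t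

namespace s44nx_IsJ

variable {u : R} {P₂ : Ideal R}

omit [IsDomain R] [IsLocalRing R] [IsNoetherianRing R] in
theorem not_mem [hP : P₂.IsPrime] (hu : u ∉ P₂) {a : R} {j : ℕ} (h : s44nx_IsJ u P₂ a j) :
    a ∉ P₂ := by
  obtain ⟨ω, t, ht, rfl⟩ := h
  intro hmem
  have h1 : u ^ j * (ω : R) ∈ P₂ := by
    have := P₂.sub_mem hmem ht
    simpa using this
  rcases hP.mem_or_mem h1 with h2 | h2
  · exact hu (hP.mem_of_pow_mem j h2)
  · exact hP.ne_top (Ideal.eq_top_of_isUnit_mem _ h2 ω.isUnit)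

omit [IsDomain R] [IsLocalRing R] [IsNoetherianRing R] in
theorem mul {a b : R} {j j' : ℕ} (h : s44nx_IsJ u P₂ a j) (h' : s44nx_IsJ u P₂ b j') :
    s44nx_IsJ u P₂ (a * b) (j + j') := by
  obtain ⟨ω, t, ht, rfl⟩ := h
  obtain ⟨ω', t', ht', rfl⟩ := h'
  refine ⟨ω * ω', u ^ j * (ω : R) * t' + t * (u ^ j' * (ω' : R) + t'), ?_, ?_⟩
  · exact P₂.add_mem (P₂.mul_mem_left _ ht') (P₂.mul_mem_right _ ht)
  · rw [Units.val_mul]; ring

omit [IsDomain R] [IsLocalRing R] [IsNoetherianRing R] in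
theorem add_mem {a t : R} {j : ℕ} (h : s44nx_IsJ u P₂ a j) (ht : t ∈ P₂) :
    s44nx_IsJ u P₂ (a + t) j := by
  obtain ⟨ω, t', ht', rfl⟩ := h
  exact ⟨ω, t' + t, P₂.add_mem ht' ht, by ring⟩

omit [IsDomain R] [IsLocalRing R] [IsNoetherianRing R] in
theorem of_unit (ω : Rˣ) : s44nx_IsJ u P₂ (ω : R) 0 :=
  ⟨ω, 0, P₂.zero_mem, by simp⟩

omit [IsDomain R] [IsLocalRing R] [IsNoetherianRing R] in
theorem one : s44nx_IsJ u P₂ 1 0 :=
  ⟨1, 0, P₂.zero_mem, by simp⟩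

omit [IsDomain R] [IsLocalRing R] [IsNoetherianRing R] in
theorem self : s44nx_IsJ u P₂ u 1 :=
  ⟨1, 0, P₂.zero_mem, by simp⟩

omit [IsDomain R] [IsNoetherianRing R] in
theorem not_jlt [hP : P₂.IsPrime] (hu𝔪 : u ∈ maximalIdeal R) (hu : u ∉ P₂) {a : R} {j j' : ℕ}
    (h : s44nx_IsJ u P₂ a j) (h' : s44nx_IsJ u P₂ a j') : ¬ j < j' := by
  intro hlt
  obtain ⟨ω, t, ht, ha⟩ := h
  obtain ⟨ω', t', ht', ha'⟩ := h'
  obtain ⟨d, rfl⟩ := Nat.exists_eq_add_of_lt hlt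
  have h1 : u ^ j * ((ω : R) - u ^ (d + 1) * (ω' : R)) ∈ P₂ := by
    have h2 : u ^ j * ((ω : R) - u ^ (d + 1) * (ω' : R)) = t' - t := by
      have h3 : u ^ j * (ω : R) + t = u ^ (j + d + 1) * (ω' : R) + t' := by rw [← ha, ← ha']
      have h4 : u ^ (j + d + 1) = u ^ j * u ^ (d + 1) := by rw [← pow_add, add_assoc]
      rw [h4] at h3
      linear_combination h3
    rw [h2]
    exact P₂.sub_mem ht' ht
  have h5 : (ω : R) - u ^ (d + 1) * (ω' : R) ∈ P₂ := by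
    rcases hP.mem_or_mem h1 with h6 | h6
    · exact absurd (hP.mem_of_pow_mem j h6) hu
    · exact h6
  have h7 : (ω : R) - u ^ (d + 1) * (ω' : R) ∈ maximalIdeal R :=
    IsLocalRing.le_maximalIdeal hP.ne_top h5
  have h8 : u ^ (d + 1) * (ω' : R) ∈ maximalIdeal R :=
    Ideal.mul_mem_right _ _ (Ideal.pow_mem_of_mem _ hu𝔪 _ (Nat.succ_pos d))
  have h9 : (ω : R) ∈ maximalIdeal R := by
    have := (maximalIdeal R).add_mem h7 h8
    rwa [sub_add_cancel] at this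
  exact (IsLocalRing.mem_maximalIdeal _).1 h9 ω.isUnit

omit [IsDomain R] [IsNoetherianRing R] in
theorem unique [hP : P₂.IsPrime] (hu𝔪 : u ∈ maximalIdeal R) (hu : u ∉ P₂) {a : R} {j j' : ℕ}
    (h : s44nx_IsJ u P₂ a j) (h' : s44nx_IsJ u P₂ a j') : j = j' :=
  le_antisymm (_root_.not_lt.1 (not_jlt hu𝔪 hu h' h)) (_root_.not_lt.1 (not_jlt hu𝔪 hu h h'))

end s44nx_IsJ

/-- `x · s = λ^n · a` with `a ≡ u^j·unit`, `s ≡ u^j'·unit` modulo `P₂`, and `k = j − j'`. -/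
def s44nx_IsVal (lam u : R) (P₂ : Ideal R) (x : F) (k : ℤ) : Prop :=
  ∃ (n : ℤ) (a s : R) (j j' : ℕ), s44nx_IsJ u P₂ a j ∧ s44nx_IsJ u P₂ s j' ∧
    x * algebraMap R F s = algebraMap R F lam ^ n * algebraMap R F a ∧ k = (j : ℤ) - j'

omit [IsNoetherianRing R] in
theorem s44nx_aux {lam u : R} {P₂ : Ideal R} [hP : P₂.IsPrime] (hlam : lam ∈ P₂)
    (hu𝔪 : u ∈ maximalIdeal R) (hu : u ∉ P₂) {a s a' s' : R} {j j' j₁ j₁' : ℕ}
    (ha : s44nx_IsJ u P₂ a j) (hs : s44nx_IsJ u P₂ s j') (ha' : s44nx_IsJ u P₂ a' j₁)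
    (hs' : s44nx_IsJ u P₂ s' j₁') (d : ℕ) (h : a * s' = lam ^ d * (a' * s)) :
    (j : ℤ) - j' = (j₁ : ℤ) - j₁' := by
  have h1 : s44nx_IsJ u P₂ (a * s') (j + j₁') := ha.mul hs'
  have h2 : s44nx_IsJ u P₂ (a' * s) (j₁ + j') := ha'.mul hs
  have hd : d = 0 := by
    by_contra hd
    apply h1.not_mem hu
    rw [h]
    exact P₂.mul_mem_right _ (Ideal.pow_mem_of_mem _ hlam _ (Nat.pos_of_ne_zero hd))
  rw [hd, pow_zero, one_mul] at h
  rw [h] at h1
  have := s44nx_IsJ.unique hu𝔪 hu h1 h2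
  omega

omit [IsNoetherianRing R] in
theorem s44nx_IsVal.unique {lam u : R} {P₂ : Ideal R} [hP : P₂.IsPrime] (hlam : lam ∈ P₂)
    (hlam0 : lam ≠ 0) (hu𝔪 : u ∈ maximalIdeal R) (hu : u ∉ P₂) {x : F} {k k' : ℤ}
    (h : s44nx_IsVal lam u P₂ x k) (h' : s44nx_IsVal lam u P₂ x k') : k = k' := by
  obtain ⟨n, a, s, j, j', ha, hs, hx, rfl⟩ := h
  obtain ⟨n', a', s', j₁, j₁', ha', hs', hx', rfl⟩ := h'
  have hL : algebraMap R F lam ≠ 0 := ssl_algebraMap_ne_zero hlam0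
  have hinj : Function.Injective (algebraMap R F) := IsFractionRing.injective R F
  -- the basic identity `λ^n a s' = λ^n' a' s`
  have key : algebraMap R F lam ^ n * (algebraMap R F a * algebraMap R F s')
      = algebraMap R F lam ^ n' * (algebraMap R F a' * algebraMap R F s) := by
    have e1 : algebraMap R F lam ^ n * (algebraMap R F a * algebraMap R F s')
        = (x * algebraMap R F s) * algebraMap R F s' := by rw [hx]; ring
    have e2 : algebraMap R F lam ^ n' * (algebraMap R F a' * algebraMap R F s)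
        = (x * algebraMap R F s') * algebraMap R F s := by rw [hx']; ring
    rw [e1, e2]; ring
  rcases le_total n n' with hle | hle
  · obtain ⟨d, hd⟩ := Int.eq_ofNat_of_zero_le (sub_nonneg.2 hle)
    have hn' : n' = n + d := by omega
    rw [hn', zpow_add₀ hL, zpow_natCast, mul_assoc] at key
    have key2 := mul_left_cancel₀ (zpow_ne_zero n hL) key
    have key3 : a * s' = lam ^ d * (a' * s) := by
      apply hinj
      rw [map_mul, map_mul, map_mul, map_pow]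
      exact key2
    exact s44nx_aux hlam hu𝔪 hu ha hs ha' hs' d key3
  · obtain ⟨d, hd⟩ := Int.eq_ofNat_of_zero_le (sub_nonneg.2 hle)
    have hn' : n = n' + d := by omega
    rw [hn', zpow_add₀ hL, zpow_natCast, mul_assoc] at key
    have key2 := mul_left_cancel₀ (zpow_ne_zero n' hL) key
    have key3 : a' * s = lam ^ d * (a * s') := by
      apply hinj
      rw [map_mul, map_mul, map_mul, map_pow]
      exact key2.symm
    exact (s44nx_aux hlam hu𝔪 hu ha' hs' ha hs d key3).symm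

/-- the normalised order (junk value `0` where no presentation exists, i.e. at `0`). -/
noncomputable def s44nx_nu (lam u : R) (P₂ : Ideal R) (x : F) : ℤ := by
  classical
  exact if h : ∃ k : ℤ, s44nx_IsVal lam u P₂ x k then h.choose else 0

omit [IsNoetherianRing R] in
theorem s44nx_nu_eq {lam u : R} {P₂ : Ideal R} [hP : P₂.IsPrime] (hlam : lam ∈ P₂)
    (hlam0 : lam ≠ 0) (hu𝔪 : u ∈ maximalIdeal R) (hu : u ∉ P₂) {x : F} {k : ℤ}
    (h : s44nx_IsVal lam u P₂ x k) : s44nx_nu (F := F) lam u P₂ x = k := by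
  have hex : ∃ k : ℤ, s44nx_IsVal lam u P₂ x k := ⟨k, h⟩
  unfold s44nx_nu
  rw [dif_pos hex]
  exact s44nx_IsVal.unique hlam hlam0 hu𝔪 hu hex.choose_spec h

/-- every nonzero `x` has a presentation. -/
theorem s44nx_IsVal_exists [IsIntegrallyClosed R] {lam u v : R}
    (hm : maximalIdeal R = Ideal.span {lam, u, v})
    (P₂ : Ideal R) [hP : P₂.IsPrime] (h1 : P₂.height = 1) (hlam : lam ∈ P₂) (hv : v ∈ P₂)
    (hgen : ∀ z ∈ P₂, ∃ s : R, s ∉ P₂ ∧ lam ∣ s * z) {x : F} (hx : x ≠ 0) :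
    ∃ (n : ℤ) (a s : R) (j j' : ℕ), s44nx_IsJ u P₂ a j ∧ s44nx_IsJ u P₂ s j' ∧
      x * algebraMap R F s = algebraMap R F lam ^ n * algebraMap R F a := by
  obtain ⟨n, a, s, haP, hsP, hxs⟩ := ssl_exists_zpow (F := F) P₂ h1 hlam hgen hx
  obtain ⟨j, ω, t, ht, hat⟩ := s44nu_decomp hm P₂ hlam hv haP
  obtain ⟨j', ω', t', ht', hst⟩ := s44nu_decomp hm P₂ hlam hv hsP
  have hl0 : algebraMap R F lam ≠ 0 := by
    refine ssl_algebraMap_ne_zero fun h0 => ?_
    have hbot : P₂ = ⊥ := by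
      rw [eq_bot_iff]
      intro z hz
      obtain ⟨s, hs, hd⟩ := hgen z hz
      rw [h0, zero_dvd_iff] at hd
      rcases mul_eq_zero.mp hd with h2 | h2
      · exact absurd (h2 ▸ P₂.zero_mem) hs
      · rw [h2]; exact Ideal.zero_mem _
    rw [hbot, Ideal.height_bot] at h1
    exact zero_ne_one h1
  refine ⟨n, a, s, j, j', ⟨ω, t, ht, hat⟩, ⟨ω', t', ht', hst⟩, ?_⟩
  rw [← hxs]
  have := zpow_ne_zero n hl0
  field_simp

/-- **(N4-ex) existence of the normalised order at a node along the branch `P₂`.** -/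
theorem s44nu_exists [IsIntegrallyClosed R] {lam u v : R} {M : ℕ} {P₁ P₂ : Ideal R}
    (hm : maximalIdeal R = Ideal.span {lam, u, v}) (hN : s44n_Node lam u v M P₁ P₂) :
    ∃ ν : F → ℤ, s44nu_IsNu lam u P₂ ν := by
  haveI hP : P₂.IsPrime := hN.prime₂
  have hlam : lam ∈ P₂ := hN.lam_mem₂
  have hlam0 : lam ≠ 0 := s44n_lam_ne_zero hN
  have hu : u ∉ P₂ := hN.u_not_mem₂
  have hu𝔪 : u ∈ maximalIdeal R := by
    rw [hm]; exact Ideal.subset_span (by simp)
  have hv : v ∈ P₂ := by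
    obtain ⟨ε, hε⟩ := hN.mul_eq
    have hM : M ≠ 0 := by
      rintro rfl
      rw [pow_zero, one_mul] at hε
      have : IsUnit (u * v) := hε ▸ ε.isUnit
      exact (IsLocalRing.mem_maximalIdeal _).1 hu𝔪 (isUnit_of_mul_isUnit_left this)
    have h1 : u * v ∈ P₂ := by
      rw [hε]
      exact P₂.mul_mem_right _ (Ideal.pow_mem_of_mem _ hlam _ (Nat.pos_of_ne_zero hM))
    rcases hP.mem_or_mem h1 with h2 | h2
    · exact absurd h2 hu
    · exact h2
  have hL : algebraMap R F lam ≠ 0 := ssl_algebraMap_ne_zero hlam0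
  have hex : ∀ {x : F}, x ≠ 0 → ∃ (n : ℤ) (a s : R) (j j' : ℕ), s44nx_IsJ u P₂ a j ∧
      s44nx_IsJ u P₂ s j' ∧ x * algebraMap R F s = algebraMap R F lam ^ n * algebraMap R F a :=
    fun hx => s44nx_IsVal_exists hm P₂ hN.height₂ hlam hv hN.gen₂ hx
  have hval : ∀ {x : F} {k : ℤ}, s44nx_IsVal lam u P₂ x k → s44nx_nu (F := F) lam u P₂ x = k :=
    fun h => s44nx_nu_eq hlam hlam0 hu𝔪 hu h
  refine ⟨s44nx_nu lam u P₂, ?_, ?_, ?_, ?_, ?_⟩
  · -- additivity
    intro x y hx hy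
    obtain ⟨n, a, s, j, j', ha, hs, hxs⟩ := hex hx
    obtain ⟨n', a', s', j₁, j₁', ha', hs', hys⟩ := hex hy
    rw [hval ⟨n, a, s, j, j', ha, hs, hxs, rfl⟩, hval ⟨n', a', s', j₁, j₁', ha', hs', hys, rfl⟩]
    refine (hval ⟨n + n', a * a', s * s', j + j₁, j' + j₁', ha.mul ha', hs.mul hs', ?_, ?_⟩)
    · rw [map_mul, map_mul, zpow_add₀ hL]
      calc x * y * (algebraMap R F s * algebraMap R F s')
          = (x * algebraMap R F s) * (y * algebraMap R F s') := by ring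
        _ = _ := by rw [hxs, hys]; ring
    · push_cast; ring
  · -- units
    intro ω
    refine hval ⟨0, (ω : R), 1, 0, 0, s44nx_IsJ.of_unit ω, s44nx_IsJ.one, ?_, by simp⟩
    simp
  · -- `λ`
    refine hval ⟨1, 1, 1, 0, 0, s44nx_IsJ.one, s44nx_IsJ.one, ?_, by simp⟩
    simp
  · -- `u`
    refine hval ⟨0, u, 1, 1, 0, s44nx_IsJ.self, s44nx_IsJ.one, ?_, by simp⟩
    simp
  · -- reduction
    rintro x ⟨b, s, hb, hs, hxs⟩
    obtain ⟨j', ω', t', ht', hst⟩ := s44nu_decomp hm P₂ hlam hv hs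
    have hsJ : s44nx_IsJ u P₂ s j' := ⟨ω', t', ht', hst⟩
    refine hval ⟨0, s + b, s, j', j', hsJ.add_mem hb, hsJ, ?_, by simp⟩
    rw [zpow_zero, one_mul, map_add, ← hxs]
    ring

end NuExists

end Fermat.Agent.S44
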