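/-
Project S44 (Mazur–Ribet at `p`), cell [H2-S] of [H2] MONO-MAIN (helper4): THE NODE-SHEET PACKAGE.
Prefix `s44sp_`.

`S` the local ring of a chart at a node (`𝔪_S = (π, u, v)`, `u v = a`, thickness `e`, branches
`𝔭₁ ∋ u` (the `0`-component) and `𝔭₂ ∋ v` (the `∞`-component)), `E = Frac S`, `LL / E` the Kummer
field with its Artin–Schreier generator (`s44me_Gen`), split on both branches (`s44me_Split`);
`V` the Gauss valuation ring of `LL` (it extends `S_{𝔭₂}`); a family `σL i` of automorphisms of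
`(LL, S, A0)` preserving `V` and fixing `u` (the inertia group).

`s44sp_node` : there are a valuation ring `V₀` of `LL` extending `S_{𝔭₁}`, its normalised order
function `W₀` and a function `νR : LL → ℤ` extending the normalised node order `νS` of `S`, additive
and trivial on the constants, such that for every family-fixed `z ∈ LLˣ` with rational zeros and
poles, `e ∣ W∞ z`, and either `m = 1` or `z = c · f · g ^ m` (`f ∈ E` with `hdiv` at `S`):
    `W₀ z = e A`, `W∞ z = e B`, `νR z ≡ A - B (mod m)`.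
The sheet ring `R = T_𝔑` (`T` the integral closure of `S` in `LL`, `𝔑 ⊇ 𝔪_V ∩ T`) is internal.
-/
import Mathlib
import Fermat.Agent.S44.Mono.PairAbs
import Fermat.Agent.S44.Mono.HorizDown
import Fermat.Agent.S44.Mono.EtAut
import Fermat.Agent.S44.Mono.NuExists
import Fermat.Agent.SS.Local.Places

set_option autoImplicit false
set_option linter.unusedSectionVars false
set_option linter.unusedVariables false
set_option linter.style.haveILetI false

namespace Fermat.Agent.S44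

open Fermat.Agent.SS IsLocalRing Polynomial AlgebraicCurve

section Const

variable {A0 K R F : Type*} [CommRing A0] [IsDomain A0] [IsDiscreteValuationRing A0]
  [Field K] [Algebra A0 K] [IsFractionRing A0 K]
  [CommRing R] [IsDomain R] [Algebra A0 R]
  [Field F] [Algebra R F] [IsFractionRing R F] [Algebra K F] [Algebra A0 F]
  [IsScalarTower A0 K F] [IsScalarTower A0 R F]

/-- a nonzero constant is a unit at every prime not containing `π`. -/
theorem s44sp_const_unitAt {π : A0} (hπ : Irreducible π) (𝔮 : Ideal R) [𝔮.IsPrime]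
    (hπ𝔮 : algebraMap A0 R π ∉ 𝔮) {c : K} (hc : c ≠ 0) :
    ssl_UnitAt F 𝔮 (algebraMap K F c) := by
  obtain ⟨a, b, hb, rfl⟩ := IsFractionRing.div_surjective (A := A0) c
  have hb0 : b ≠ 0 := nonZeroDivisors.ne_zero hb
  have ha0 : a ≠ 0 := by
    rintro rfl
    apply hc
    simp
  refine ⟨algebraMap A0 R a, algebraMap A0 R b, ssl_np_const_not_mem hπ 𝔮 hπ𝔮 ha0,
    ssl_np_const_not_mem hπ 𝔮 hπ𝔮 hb0, ?_⟩
  rw [← IsScalarTower.algebraMap_apply A0 R F, ← IsScalarTower.algebraMap_apply A0 R F,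
    IsScalarTower.algebraMap_apply A0 K F a, IsScalarTower.algebraMap_apply A0 K F b,
    ← map_mul]
  congr 1
  have : algebraMap A0 K b ≠ 0 :=
    (map_ne_zero_iff _ (IsFractionRing.injective A0 K)).2 hb0
  field_simp

end Const

section Node

variable {S : Type*} [CommRing S] [IsDomain S] [IsIntegrallyClosed S] [IsNoetherianRing S]
  [IsLocalRing S]
  {E : Type*} [Field E] [Algebra S E] [IsFractionRing S E]
  {LL : Type*} [Field LL] [Algebra E LL] [Algebra S LL] [IsScalarTower S E LL]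
  [FiniteDimensional E LL] [Algebra.IsSeparable E LL]
  {P0 : S[X]} {eps : LL}
  {A0 K : Type*} [CommRing A0] [IsDomain A0] [IsDiscreteValuationRing A0]
  [Field K] [Algebra A0 K] [IsFractionRing A0 K]
  [Algebra A0 S] [Algebra A0 LL] [IsScalarTower A0 S LL] [Algebra K LL] [IsScalarTower A0 K LL]

/-- the divisibility condition on `z` at the node-sheet: `m = 1`, or `z = c · f · g ^ m` with
`f ∈ E` satisfying `hdiv` at `S`. -/
def s44sp_Div (π : A0) (m : ℕ) (z : LL) : Prop :=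
  m = 1 ∨ ∃ (c : K) (f : E) (g : LL), c ≠ 0 ∧ g ≠ 0 ∧
    z = algebraMap K LL c * algebraMap E LL f * g ^ m ∧
    ∀ 𝔮' : Ideal S, ssl_Horiz (algebraMap A0 S π) 𝔮' →
      ∃ G : E, G ≠ 0 ∧ ssl_UnitAt E 𝔮' (f / G ^ m)

/-- **THE NODE-SHEET PACKAGE.** -/
theorem s44sp_node {π : A0} (hπ : Irreducible π) {u v : S} {a : A0} (ha : a ≠ 0)
    (huv : u * v = algebraMap A0 S a)
    (hm : maximalIdeal S = Ideal.span {algebraMap A0 S π, u, v})
    {e : ℕ} (he : e ≠ 0) {𝔭₁ 𝔭₂ : Ideal S} (hN : s44n_Node (algebraMap A0 S π) u v e 𝔭₁ 𝔭₂)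
    (h : s44me_Gen E P0 eps) {ι₁ ι₂ : Type*} [Fintype ι₁] [Fintype ι₂] {r₁ : ι₁ → S}
    {r₂ : ι₂ → S} (hs₁ : s44me_Split P0 𝔭₁ r₁) (hs₂ : s44me_Split P0 𝔭₂ r₂)
    (V : ValuationSubring LL) (hV : ∀ s : S, algebraMap S LL s ∈ V)
    (hV𝔭 : ∀ s : S, algebraMap S LL s ∈ V.nonunits ↔ s ∈ 𝔭₂)
    {ι : Type*} (σL : ι → LL ≃+* LL) (σS : ι → S ≃+* S) (σ0 : ι → A0 ≃+* A0)
    (hc : ∀ i s, σL i (algebraMap S LL s) = algebraMap S LL (σS i s))
    (h0 : ∀ i c, σS i (algebraMap A0 S c) = algebraMap A0 S (σ0 i c))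
    (hσV : ∀ i x, x ∈ V ↔ σL i x ∈ V) (hσu : ∀ i, σS i u = u)
    (hbase : s44pa_Base (K := K) π e σL)
    (Wi : LL → ℤ) (hWi : s44vw_IsW (ssl_VUnit V) (algebraMap A0 LL π) Wi)
    (νS : E → ℤ) (hνS : s44nu_IsNu (algebraMap A0 S π) u 𝔭₂ νS) :
    ∃ (V₀ : ValuationSubring LL) (W₀ νR : LL → ℤ),
      (∀ x : E, algebraMap E LL x ∈ V₀ ↔ ssl_MemAt E 𝔭₁ x) ∧
      s44vw_IsW (ssl_VUnit V₀) (algebraMap A0 LL π) W₀ ∧
      (∀ ω : A0ˣ, W₀ (algebraMap A0 LL (ω : A0)) = 0) ∧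
      s44ms_Add νR ∧ (∀ c : K, c ≠ 0 → νR (algebraMap K LL c) = 0) ∧
      (∀ x : E, x ≠ 0 → νR (algebraMap E LL x) = νS x) ∧
      ∀ (m : ℕ) (z : LL), m ≠ 0 → z ≠ 0 → s44sp_Div (E := E) (K := K) (S := S) π m z →
        (∀ w : Place K LL, w.ord z ≠ 0 → ss_RatPlace w) → (∀ i, σL i z = z) → (e : ℤ) ∣ Wi z →
        ∃ A B : ℤ, W₀ z = e * A ∧ Wi z = e * B ∧ νR z ≡ A - B [ZMOD (m : ℤ)] := by
  classical
  haveI hp₁ := hN.prime₁
  haveI hp₂ := hN.prime₂
  haveI hTfr : IsFractionRing ↥(integralClosure S LL) LL :=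
    s44me_T_isFractionRing (S := S) (E := E) (LL := LL)
  -- the maximal ideal above the Gauss sheet
  obtain ⟨NN, hNNmax, hleNN, -⟩ := s44me_exists_NV h hs₂ V hV hV𝔭
  haveI := hNNmax
  haveI hNNp : NN.IsPrime := hNNmax.isPrime
  obtain ⟨i₂, hi₂, -⟩ := s44me_PV_eq h hs₂ V hV hV𝔭
  obtain ⟨i₁, i₂', hle₁, hle₂', -, huniq₂⟩ := s44me_node_exists h hN hs₁ hs₂ NN
  have hle₂ : s44me_P h hs₂ i₂ ≤ NN := hi₂ ▸ hleNN
  -- the sheet ring
  set R := ↥(ssl_locSub LL NN) with hR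
  haveI hRloc : IsLocalRing R := s44me_R_isLocalRing NN R
  haveI hRnoeth : IsNoetherianRing R := s44me_R_noetherian (E := E) NN R
  haveI hRic : IsIntegrallyClosed R := s44me_R_integrallyClosed (E := E) NN R
  have hNR := s44me_node h hN hs₁ hs₂ NN R hle₁ hle₂
  set P₁R : Ideal R := (s44me_P h hs₁ i₁).map (algebraMap ↥(integralClosure S LL) R) with hP₁R
  set P₂R : Ideal R := (s44me_P h hs₂ i₂).map (algebraMap ↥(integralClosure S LL) R) with hP₂R
  have hπR : algebraMap S R (algebraMap A0 S π) = algebraMap A0 R π :=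
    (IsScalarTower.algebraMap_apply A0 S R π).symm
  rw [hπR] at hNR
  haveI hP₁Rp : P₁R.IsPrime := hNR.prime₁
  haveI hP₂Rp : P₂R.IsPrime := hNR.prime₂
  -- the maximal ideal of `R`
  have hmR : maximalIdeal R = Ideal.span {algebraMap A0 R π, algebraMap S R u, algebraMap S R v} := by
    rw [← s44me_map_maximalIdeal NN R h, hm, Ideal.map_span, Set.image_insert_eq,
      Set.image_insert_eq, Set.image_singleton, hπR]
  have huvR : algebraMap S R u * algebraMap S R v = algebraMap A0 R a := by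
    rw [← map_mul, huv, ← IsScalarTower.algebraMap_apply]
  -- towers into `LL`
  have hSRL : ∀ s : S, algebraMap R LL (algebraMap S R s) = algebraMap S LL s := fun s =>
    (IsScalarTower.algebraMap_apply S R LL s).symm
  have hARL : ∀ c : A0, algebraMap R LL (algebraMap A0 R c) = algebraMap A0 LL c := fun c =>
    (IsScalarTower.algebraMap_apply A0 R LL c).symm
  -- the `0`-sheet valuation and its order function
  obtain ⟨W₀, hW₀⟩ := s44vw_exists
    (s44vw_unitAt (F := LL) P₁R hNR.height₁ hNR.lam_mem₁ hNR.gen₁)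
  set V₀ : ValuationSubring LL := ssl_valAt (F := LL) P₁R hNR.height₁ with hV₀
  have hpred : ssl_VUnit V₀ = ssl_UnitAt LL P₁R :=
    funext fun z => propext (ssl_vUnit_valAt P₁R hNR.height₁)
  have hW₀' : s44vw_IsW (ssl_VUnit V₀) (algebraMap A0 LL π) W₀ := by
    rw [hpred, ← hARL]; exact hW₀
  -- membership of `P₁R`, `P₂R` for elements of `S`
  have hmem₁ : ∀ s : S, algebraMap S R s ∈ P₁R ↔ s ∈ 𝔭₁ :=
    fun s => s44me_algebraMapS_mem_PR h hs₁ NN R hle₁ s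
  have hmem₂ : ∀ s : S, algebraMap S R s ∈ P₂R ↔ s ∈ 𝔭₂ :=
    fun s => s44me_algebraMapS_mem_PR h hs₂ NN R hle₂ s
  -- `V₀` extends `S_{𝔭₁}`
  have hV₀E : ∀ x : E, algebraMap E LL x ∈ V₀ ↔ ssl_MemAt E 𝔭₁ x := by
    intro x
    have hfwd : ∀ y : E, ssl_MemAt E 𝔭₁ y → algebraMap E LL y ∈ V₀ := by
      rintro y ⟨a', s', hs', hys⟩
      rw [hV₀, ssl_mem_valAt]
      refine ⟨algebraMap S R a', algebraMap S R s', fun hmem => hs' ((hmem₁ s').1 hmem), ?_⟩
      rw [hSRL, hSRL, IsScalarTower.algebraMap_apply S E LL, IsScalarTower.algebraMap_apply S E LL,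
        ← map_mul, hys]
    constructor
    · intro hx
      by_contra hnot
      -- `x ∉ S_{𝔭₁}` ⟹ `x⁻¹ ∈ 𝔭₁ S_{𝔭₁}`
      have hx0 : x ≠ 0 := by
        rintro rfl
        exact hnot ⟨0, 1, fun h1 => hp₁.ne_top ((Ideal.eq_top_iff_one _).2 h1), by simp⟩
      have hmemS : x ∉ ssl_valAt (F := E) 𝔭₁ hN.height₁ := fun hh =>
        hnot ((ssl_mem_valAt 𝔭₁ hN.height₁).1 hh)
      have hinv : x⁻¹ ∈ (ssl_valAt (F := E) 𝔭₁ hN.height₁).nonunits := by
        rw [ValuationSubring.mem_nonunits_iff_or]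
        right
        rwa [inv_inv]
      obtain ⟨b, s', hb, hs', hxs⟩ := (ssl_mem_valAt_nonunits 𝔭₁ hN.height₁).1 hinv
      -- then `ι x⁻¹ ∈ 𝔪 V₀`, contradiction with `ι x ∈ V₀`
      have hinvL : algebraMap E LL x⁻¹ ∈ V₀.nonunits := by
        rw [hV₀, ssl_mem_valAt_nonunits]
        refine ⟨algebraMap S R b, algebraMap S R s', (hmem₁ b).2 hb,
          fun hmem => hs' ((hmem₁ s').1 hmem), ?_⟩
        rw [hSRL, hSRL, IsScalarTower.algebraMap_apply S E LL,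
          IsScalarTower.algebraMap_apply S E LL, ← map_mul, hxs]
      rw [ValuationSubring.mem_nonunits_iff_or] at hinvL
      rcases hinvL with h1 | h1
      · exact hx0 (inv_eq_zero.1 ((map_eq_zero _).1 h1))
      · apply h1
        rwa [map_inv₀, inv_inv]
    · exact hfwd x
  -- units of `A0`
  have hW₀unit : ∀ ω : A0ˣ, W₀ (algebraMap A0 LL (ω : A0)) = 0 := by
    intro ω
    refine hW₀.unit _ ?_
    rw [← hARL]
    refine ssl_unitAt_algebraMap P₁R fun hmem => ?_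
    exact hP₁Rp.ne_top (Ideal.eq_top_of_isUnit_mem _ hmem
      ((Units.map (algebraMap A0 R : A0 →* R) ω).isUnit))
  -- the node order of `R`
  obtain ⟨νR, hνR⟩ := s44nu_exists (F := LL) hmR hNR
  have hvmem : v ∈ 𝔭₂ := by
    obtain ⟨ε, hε⟩ := hN.mul_eq
    have h1 : u * v ∈ 𝔭₂ := by
      rw [hε]
      obtain ⟨k, rfl⟩ := Nat.exists_eq_succ_of_ne_zero he
      rw [pow_succ]
      exact 𝔭₂.mul_mem_right _ (𝔭₂.mul_mem_left _ hN.lam_mem₂)
    exact (hp₂.mem_or_mem h1).resolve_left hN.u_not_mem₂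
  have hcomap₂ : P₂R.comap (algebraMap S R) = 𝔭₂ := by
    ext s; rw [Ideal.mem_comap]; exact hmem₂ s
  have hνRS : s44nu_IsNu (algebraMap A0 S π) u 𝔭₂ (fun x : E => νR (algebraMap E LL x)) := by
    refine s44nu_IsNu.comap (R := R) (FR := LL) hcomap₂ ?_
    rw [hπR]; exact hνR
  have hνeq : ∀ x : E, x ≠ 0 → νR (algebraMap E LL x) = νS x := fun x hx =>
    s44nu_unique hm 𝔭₂ hN.height₂ hN.lam_mem₂ hvmem hN.u_not_mem₂ hN.gen₂ hνRS hνS hx
  have hπRL0 : algebraMap R LL (algebraMap A0 R π) ≠ 0 :=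
    ssl_algebraMap_ne_zero (s44n_lam_ne_zero hNR)
  refine ⟨V₀, W₀, νR, hV₀E, hW₀', hW₀unit, hνR.add,
    fun c hc' => s44pa_nu_const hπ hνR hπRL0 hc', hνeq, ?_⟩
  intro m z hm0 hz hdivz hratz hfix hWiz
  -- the automorphisms of the sheet ring
  have hAutEx : ∀ i, ∃ σR : R ≃+* R, s44ms_Aut (algebraMap S R u) z (σL i) σR (σ0 i) := by
    intro i
    obtain ⟨-, -, σR, -, -, hAut⟩ := s44me_aut_exists_locSub h hs₂ V hV hV𝔭 NN hleNN (σL i)
      (σS i) (σ0 i) (hc i) (h0 i) (hσV i) (hσu i) (hfix i)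
    exact ⟨σR, hAut⟩
  choose σR hAut using hAutEx
  -- `R` is algebraic over `S`
  haveI hRalg : Algebra.IsAlgebraic S R := by
    refine ⟨fun r => ?_⟩
    have h1 : IsAlgebraic E (algebraMap R LL r) := Algebra.IsAlgebraic.isAlgebraic _
    have h2 : IsAlgebraic S (algebraMap R LL r) := (IsFractionRing.isAlgebraic_iff S E LL).2 h1
    exact (isAlgebraic_algebraMap_iff (IsFractionRing.injective R LL)).1 h2
  have hdvd : algebraMap A0 S π ∣ u * v := by
    obtain ⟨ε, hε⟩ := hN.mul_eq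
    rw [hε]
    exact Dvd.dvd.mul_right (dvd_pow_self _ he) _
  -- `hdiv` at the sheet ring
  have hdivR : ∀ 𝔮 : Ideal R, ssl_Horiz (algebraMap A0 R π) 𝔮 →
      ∃ G : LL, G ≠ 0 ∧ ssl_UnitAt LL 𝔮 (z / G ^ m) := by
    intro 𝔮 h𝔮
    haveI := h𝔮.1
    rcases hdivz with rfl | ⟨c₀, f, g, hc₀, hg, hzeq, hdivS⟩
    · refine ⟨z, hz, ?_⟩
      rw [pow_one, div_self hz]
      exact ssl_unitAt_one 𝔮
    · rw [← hπR] at h𝔮
      refine s44hz_hdiv (S := S) (FS := E) (R := R) (FR := LL) hm hdvd m hdivS hg ?_ hzeq 𝔮 h𝔮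
      intro 𝔮' h𝔮'
      haveI := h𝔮'.1
      rw [hπR] at h𝔮'
      exact s44sp_const_unitAt hπ 𝔮' h𝔮'.2.2 hc₀
  -- `hrat` at the sheet ring
  have hratR : ∀ 𝔮 : Ideal R, ssl_Horiz (algebraMap A0 R π) 𝔮 → ¬ ssl_UnitAt LL 𝔮 z →
      ∀ y : LL, ssl_MemAt LL 𝔮 y → ∃ (c : K) (b s : R), b ∈ 𝔮 ∧ s ∉ 𝔮 ∧
        (y - algebraMap K LL c) * algebraMap R LL s = algebraMap R LL b :=
    fun 𝔮 h𝔮 hnu y hy => ssl_hrat_of_places hπ hz hratz 𝔮 h𝔮 hnu y hy
  -- the Gauss valuation vanishes on the units at the `∞`-sheet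
  have hWiunit : ∀ x : LL, ssl_UnitAt LL P₂R x → Wi x = 0 := fun x hx =>
    hWi.unit x (s44me_vUnit_of_unitAt_P h hs₂ V hV hi₂ NN hle₂ R hx)
  exact s44pa_node (K := K) hπ ha huvR hmR he hNR m hm0 hz hdivR hratR σL σR σ0 hAut W₀ Wi νR hW₀
    hWi.add hWiunit (by rw [hARL]; exact hWi.unif) hνR hbase hWiz

end Node

end Fermat.Agent.S44
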