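/-
Project S44 (Mazur–Ribet at `p`), cell [H2-S] of [H2] MONO-MAIN (helper4): THE TWO-NODE THEOREM ON
THE CHARTS.  Prefix `s44ga_`.

Two node rings `S, S'` of charts of the same function field `E` (`𝔪 = (π, u, v)`, `u v = a`,
thickness `e`), with the same `0`-component (`S_{𝔭₁} = S'_{𝔭₁'} = v₀`), the Kummer field `LL / E`
(Artin–Schreier generators and splittings at both nodes), `V` the Gauss valuation ring of `LL`
extending the `∞`-components, `Wi` its order function; the inertia family `σL`; the deck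
transformation `τ`, under powers of which any two extensions of `v₀` to `LL` are conjugate
(`hconj`, = `s44mh_conj_val`); `Φ = c · fv · g ^ p`, `τ Φ = (β ^ p)⁻¹ h ^ p Φ`.

`s44ga_pair` : `νS fv ≡ νS' fv (mod p)` for the normalised node orders of `S`, `S'`.
-/
import Mathlib
import Fermat.Agent.S44.Mono.SheetPkg
import Fermat.Agent.S44.Mono.SheetAbs

set_option autoImplicit false
set_option linter.unusedSectionVars false
set_option linter.unusedVariables false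
set_option linter.style.haveILetI false

namespace Fermat.Agent.S44

open Fermat.Agent.SS IsLocalRing Polynomial AlgebraicCurve

section Pair

variable {E : Type*} [Field E]
  {LL : Type*} [Field LL] [Algebra E LL] [FiniteDimensional E LL] [Algebra.IsSeparable E LL]
  {A0 K : Type*} [CommRing A0] [IsDomain A0] [IsDiscreteValuationRing A0]
  [Field K] [Algebra A0 K] [IsFractionRing A0 K]
  [Algebra A0 LL] [Algebra K LL] [IsScalarTower A0 K LL]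
  {S : Type*} [CommRing S] [IsDomain S] [IsIntegrallyClosed S] [IsNoetherianRing S]
  [IsLocalRing S] [Algebra S E] [IsFractionRing S E] [Algebra S LL] [IsScalarTower S E LL]
  [Algebra A0 S] [IsScalarTower A0 S LL]
  {S' : Type*} [CommRing S'] [IsDomain S'] [IsIntegrallyClosed S'] [IsNoetherianRing S']
  [IsLocalRing S'] [Algebra S' E] [IsFractionRing S' E] [Algebra S' LL] [IsScalarTower S' E LL]
  [Algebra A0 S'] [IsScalarTower A0 S' LL]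

/-- **THE TWO-NODE THEOREM.** -/
theorem s44ga_pair {π : A0} (hπ : Irreducible π) {e p : ℕ} (he : e ≠ 0) (hp : p ≠ 0)
    -- the node `S`
    {u v : S} {a : A0} (ha : a ≠ 0) (huv : u * v = algebraMap A0 S a)
    (hm : maximalIdeal S = Ideal.span {algebraMap A0 S π, u, v})
    {𝔭₁ 𝔭₂ : Ideal S} (hN : s44n_Node (algebraMap A0 S π) u v e 𝔭₁ 𝔭₂)
    {P0 : S[X]} {eps : LL} (h : s44me_Gen E P0 eps) {ι₁ ι₂ : Type*} [Fintype ι₁] [Fintype ι₂]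
    {r₁ : ι₁ → S} {r₂ : ι₂ → S} (hs₁ : s44me_Split P0 𝔭₁ r₁) (hs₂ : s44me_Split P0 𝔭₂ r₂)
    -- the node `S'`
    {u' v' : S'} {a' : A0} (ha' : a' ≠ 0) (huv' : u' * v' = algebraMap A0 S' a')
    (hm' : maximalIdeal S' = Ideal.span {algebraMap A0 S' π, u', v'})
    {𝔭₁' 𝔭₂' : Ideal S'} (hN' : s44n_Node (algebraMap A0 S' π) u' v' e 𝔭₁' 𝔭₂')
    {P0' : S'[X]} {eps' : LL} (h' : s44me_Gen E P0' eps') {ι₁' ι₂' : Type*} [Fintype ι₁']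
    [Fintype ι₂'] {r₁' : ι₁' → S'} {r₂' : ι₂' → S'} (hs₁' : s44me_Split P0' 𝔭₁' r₁')
    (hs₂' : s44me_Split P0' 𝔭₂' r₂')
    -- the common components
    (v₀ : ValuationSubring E) (hv₀ : ∀ x : E, ssl_MemAt E 𝔭₁ x ↔ x ∈ v₀)
    (hv₀' : ∀ x : E, ssl_MemAt E 𝔭₁' x ↔ x ∈ v₀)
    (V : ValuationSubring LL) (hV : ∀ s : S, algebraMap S LL s ∈ V)
    (hV𝔭 : ∀ s : S, algebraMap S LL s ∈ V.nonunits ↔ s ∈ 𝔭₂)
    (hV' : ∀ s : S', algebraMap S' LL s ∈ V)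
    (hV𝔭' : ∀ s : S', algebraMap S' LL s ∈ V.nonunits ↔ s ∈ 𝔭₂')
    (Wi : LL → ℤ) (hWi : s44vw_IsW (ssl_VUnit V) (algebraMap A0 LL π) Wi)
    -- the inertia family
    {ι : Type*} (σL : ι → LL ≃+* LL) (σS : ι → S ≃+* S) (σS' : ι → S' ≃+* S')
    (σ0 : ι → A0 ≃+* A0)
    (hc : ∀ i s, σL i (algebraMap S LL s) = algebraMap S LL (σS i s))
    (hc' : ∀ i s, σL i (algebraMap S' LL s) = algebraMap S' LL (σS' i s))
    (h0 : ∀ i c, σS i (algebraMap A0 S c) = algebraMap A0 S (σ0 i c))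
    (h0' : ∀ i c, σS' i (algebraMap A0 S' c) = algebraMap A0 S' (σ0 i c))
    (hσV : ∀ i x, x ∈ V ↔ σL i x ∈ V) (hσu : ∀ i, σS i u = u) (hσu' : ∀ i, σS' i u' = u')
    (hbase : s44pa_Base (K := K) π e σL)
    -- the deck transformation
    (τ : LL ≃+* LL) (hτπ : τ (algebraMap A0 LL π) = algebraMap A0 LL π)
    (hconj : ∀ V₀ V₀' : ValuationSubring LL, (∀ x : E, algebraMap E LL x ∈ V₀ ↔ x ∈ v₀) →
      (∀ x : E, algebraMap E LL x ∈ V₀' ↔ x ∈ v₀) →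
      ∃ j : ℕ, ∀ z : LL, z ∈ V₀' ↔ (⇑τ)^[j] z ∈ V₀)
    -- the Kummer data
    {Φ β hh g : LL} {fv : E} {c : K} (hc0 : c ≠ 0) (hfv : fv ≠ 0) (hg : g ≠ 0) (hh0 : hh ≠ 0)
    (hΦ : Φ = algebraMap K LL c * algebraMap E LL fv * g ^ p)
    (hβ : ∃ ω : A0ˣ, β = algebraMap A0 LL (ω : A0)) (hτβ : τ β = β)
    (hτΦ : τ Φ = (β ^ p)⁻¹ * hh ^ p * Φ)
    (hdivS : ∀ 𝔮' : Ideal S, ssl_Horiz (algebraMap A0 S π) 𝔮' →
      ∃ G : E, G ≠ 0 ∧ ssl_UnitAt E 𝔮' (fv / G ^ p))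
    (hdivS' : ∀ 𝔮' : Ideal S', ssl_Horiz (algebraMap A0 S' π) 𝔮' →
      ∃ G : E, G ≠ 0 ∧ ssl_UnitAt E 𝔮' (fv / G ^ p))
    (hratΦ : ∀ w : Place K LL, w.ord Φ ≠ 0 → ss_RatPlace w)
    (hrath : ∀ (j : ℕ) (w : Place K LL), w.ord ((⇑τ)^[j] hh) ≠ 0 → ss_RatPlace w)
    (hσΦ : ∀ i, σL i Φ = Φ) (hσh : ∀ i (j : ℕ), σL i ((⇑τ)^[j] hh) = (⇑τ)^[j] hh)
    (hWiΦ : (e : ℤ) ∣ Wi Φ) (hWih : ∀ j : ℕ, (e : ℤ) ∣ Wi ((⇑τ)^[j] hh))
    -- the node orders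
    (νS : E → ℤ) (hνS : s44nu_IsNu (algebraMap A0 S π) u 𝔭₂ νS)
    (νS' : E → ℤ) (hνS' : s44nu_IsNu (algebraMap A0 S' π) u' 𝔭₂' νS') :
    νS fv ≡ νS' fv [ZMOD (p : ℤ)] := by
  classical
  obtain ⟨V₀, W₀, νR, hV₀E, hW₀, hW₀u, hνRadd, hνRc, hνRS, hmain⟩ :=
    s44sp_node (K := K) hπ ha huv hm he hN h hs₁ hs₂ V hV hV𝔭 σL σS σ0 hc h0 hσV hσu hbase Wi hWi
      νS hνS
  obtain ⟨V₀', W₀', νR', hV₀E', hW₀', hW₀u', hνRadd', hνRc', hνRS', hmain'⟩ :=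
    s44sp_node (K := K) hπ ha' huv' hm' he hN' h' hs₁' hs₂' V hV' hV𝔭' σL σS' σ0 hc' h0' hσV hσu'
      hbase Wi hWi νS' hνS'
  have hcK : algebraMap K LL c ≠ 0 := (_root_.map_ne_zero _).2 hc0
  have hfvL : algebraMap E LL fv ≠ 0 := (_root_.map_ne_zero _).2 hfv
  have hΦ0 : Φ ≠ 0 := by
    rw [hΦ]; exact mul_ne_zero (mul_ne_zero hcK hfvL) (pow_ne_zero _ hg)
  obtain ⟨ωβ, hωβ⟩ := hβ
  have hβ0 : β ≠ 0 := by
    rw [hωβ]
    have h1 : W₀ (algebraMap A0 LL (ωβ : A0)) = 0 := hW₀u ωβ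
    intro h0β
    have h2 : algebraMap A0 LL ((ωβ⁻¹ : A0ˣ) : A0) * algebraMap A0 LL (ωβ : A0) = 1 := by
      rw [← map_mul, ← Units.val_mul, inv_mul_cancel, Units.val_one, map_one]
    rw [h0β, mul_zero] at h2
    exact zero_ne_one h2
  -- the conjugacy of the two `0`-sheets
  obtain ⟨j, hj⟩ := hconj V₀ V₀' (fun x => (hV₀E x).trans (hv₀ x))
    (fun x => (hV₀E' x).trans (hv₀' x))
  set τj : LL →+* LL := s44mh_pow (τ : LL →+* LL) j with hτj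
  have hτj_apply : ∀ z : LL, τj z = (⇑τ)^[j] z := fun z => s44mh_pow_apply (τ : LL →+* LL) j z
  have hUU : ∀ x : LL, ssl_VUnit V₀' x ↔ ssl_VUnit V₀ (τj x) := by
    intro x
    unfold ssl_VUnit
    rw [hj x, hj x⁻¹, ← hτj_apply, ← hτj_apply, map_inv₀, _root_.map_ne_zero]
  have hτjπ : τj (algebraMap A0 LL π) = algebraMap A0 LL π := by
    rw [hτj_apply]
    exact Function.iterate_fixed hτπ j
  have htr : ∀ x : LL, x ≠ 0 → W₀' x = W₀ ((⇑τ)^[j] x) := by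
    intro x hx
    rw [← hτj_apply]
    exact s44vw_transport hW₀ hW₀' τj hτjπ hUU hx
  -- the iterates of `hh`
  have hiter0 : ∀ i : ℕ, (⇑τ)^[i] hh ≠ 0 := by
    intro i
    induction i with
    | zero => simpa using hh0
    | succ i ih => rw [Function.iterate_succ_apply']; exact (_root_.map_ne_zero τ).2 ih
  -- `e ∣ W₀ (τ^i hh)`
  have hW₀h : ∀ i : ℕ, (e : ℤ) ∣ W₀ ((⇑τ)^[i] hh) := by
    intro i
    obtain ⟨A, B, hA, -, -⟩ := hmain 1 ((⇑τ)^[i] hh) one_ne_zero (hiter0 i) (Or.inl rfl)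
      (hrath i) (fun k => hσh k i) (hWih i)
    exact ⟨A, hA⟩
  have hWβ : W₀ (β ^ p) = 0 := by
    rw [s44mh_W_pow W₀ hW₀.add hβ0, hωβ, hW₀u ωβ, mul_zero]
  have hsheet : (p : ℤ) * (e : ℤ) ∣ W₀ ((⇑τ)^[j] Φ) - W₀ Φ :=
    s44mh_sheet_dvd W₀ hW₀.add τ hΦ0 hβ0 hh0 hτβ hτΦ hWβ (e : ℤ) hW₀h j
  -- the two main congruences
  obtain ⟨A, B, hA, hB, hAB⟩ := hmain p Φ hp hΦ0
    (Or.inr ⟨c, fv, g, hc0, hg, hΦ, hdivS⟩) hratΦ hσΦ hWiΦ
  obtain ⟨A', B', hA', hB', hAB'⟩ := hmain' p Φ hp hΦ0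
    (Or.inr ⟨c, fv, g, hc0, hg, hΦ, hdivS'⟩) hratΦ hσΦ hWiΦ
  have hfin : νR Φ ≡ νR' Φ [ZMOD (p : ℤ)] := by
    refine s44pa_pair (p := p) (e := e) he hA hB hA' hB' rfl ?_ hAB hAB'
    rw [htr Φ hΦ0]
    exact hsheet
  -- unfold `νR Φ`
  have hgp : g ^ p ≠ 0 := pow_ne_zero _ hg
  have e1 : νR Φ = νS fv + (p : ℤ) * νR g := by
    rw [hΦ, hνRadd _ _ (mul_ne_zero hcK hfvL) hgp, hνRadd _ _ hcK hfvL, hνRc c hc0, hνRS fv hfv,
      s44mh_W_pow νR hνRadd hg]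
    ring
  have e2 : νR' Φ = νS' fv + (p : ℤ) * νR' g := by
    rw [hΦ, hνRadd' _ _ (mul_ne_zero hcK hfvL) hgp, hνRadd' _ _ hcK hfvL, hνRc' c hc0,
      hνRS' fv hfv, s44mh_W_pow νR' hνRadd' hg]
    ring
  rw [e1, e2] at hfin
  have h3 : νS fv ≡ νS fv + (p : ℤ) * νR g [ZMOD (p : ℤ)] := by
    rw [Int.modEq_iff_dvd]; exact ⟨νR g, by ring⟩
  have h4 : νS' fv + (p : ℤ) * νR' g ≡ νS' fv [ZMOD (p : ℤ)] := by
    rw [Int.modEq_iff_dvd]; exact ⟨-νR' g, by ring⟩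
  exact (h3.trans hfin).trans h4

end Pair

end Fermat.Agent.S44
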