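/-
Project S44 (Mazur–Ribet at `p`), cell [H2-S] of [H2] MONO-MAIN (helper4): THE TWO-NODE THEOREM ON
THE CHARTS, PACKAGED.  Prefix `s44gh_`.

`s44gh_NodeHyp` bundles the hypotheses of `s44ga_pair` (Mono/GlobalAbs.lean) which concern ONE node
ring `S` (node data, étale sheet data, the Gauss sheet, the inertia family on `S`, the horizontal
divisor of `fv`), with the auxiliary objects existentially quantified; `s44gh_pair` is
`s44ga_pair` for two such packages.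
-/
import Mathlib
import Fermat.Agent.S44.Mono.GlobalAbs

set_option autoImplicit false
set_option linter.unusedSectionVars false
set_option linter.unusedVariables false
set_option linter.style.haveILetI false

namespace Fermat.Agent.S44

open Fermat.Agent.SS IsLocalRing Polynomial AlgebraicCurve

section Hyp

variable {E : Type*} [Field E]
  {LL : Type*} [Field LL] [Algebra E LL] [FiniteDimensional E LL] [Algebra.IsSeparable E LL]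
  {A0 : Type*} [CommRing A0] [IsDomain A0] [IsDiscreteValuationRing A0] [Algebra A0 LL]
  (S : Type*) [CommRing S] [IsDomain S] [IsIntegrallyClosed S] [IsNoetherianRing S]
  [IsLocalRing S] [Algebra S E] [IsFractionRing S E] [Algebra S LL] [IsScalarTower S E LL]
  [Algebra A0 S] [IsScalarTower A0 S LL]

/-- **the hypotheses of the two-node theorem at one node ring `S`**: `𝔪_S = (π, u, v)`,
`u v = a`, thickness `e`, branches `𝔭₁` (the `0`-component) and `𝔭₂` (the Gauss component,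
`u ∉ 𝔭₂ ∋ v`); an étale generator of `LL / E` over `S` which splits on both branches; the Gauss
valuation ring `V` of `LL` lies over `𝔭₂`; the family `σL` restricts to `S`, fixing `u`; the
horizontal divisor of `fv` at `S` is divisible by `p`. -/
structure s44gh_NodeHyp (π : A0) (e p : ℕ) (𝔭₁ 𝔭₂ : Ideal S) (u : S)
    (V : ValuationSubring LL) {ι : Type*} (σL : ι → LL ≃+* LL) (σ0 : ι → A0 ≃+* A0)
    (fv : E) : Prop where
  ex_node : ∃ (v : S) (a : A0), a ≠ 0 ∧ u * v = algebraMap A0 S a ∧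
    maximalIdeal S = Ideal.span {algebraMap A0 S π, u, v} ∧
    s44n_Node (algebraMap A0 S π) u v e 𝔭₁ 𝔭₂
  ex_sheet : ∃ (P0 : S[X]) (eps : LL) (n₁ n₂ : ℕ) (r₁ : Fin n₁ → S) (r₂ : Fin n₂ → S),
    s44me_Gen E P0 eps ∧ s44me_Split P0 𝔭₁ r₁ ∧ s44me_Split P0 𝔭₂ r₂
  hV : ∀ s : S, algebraMap S LL s ∈ V
  hV𝔭 : ∀ s : S, algebraMap S LL s ∈ V.nonunits ↔ s ∈ 𝔭₂
  ex_σ : ∃ σS : ι → S ≃+* S,
    (∀ i s, σL i (algebraMap S LL s) = algebraMap S LL (σS i s)) ∧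
    (∀ i c, σS i (algebraMap A0 S c) = algebraMap A0 S (σ0 i c)) ∧ ∀ i, σS i u = u
  hdiv : ∀ 𝔮' : Ideal S, ssl_Horiz (algebraMap A0 S π) 𝔮' →
    ∃ G : E, G ≠ 0 ∧ ssl_UnitAt E 𝔮' (fv / G ^ p)

end Hyp

section Pair

variable {E : Type*} [Field E]
  {LL : Type*} [Field LL] [Algebra E LL] [FiniteDimensional E LL] [Algebra.IsSeparable E LL]
  {A0 K : Type*} [CommRing A0] [IsDomain A0] [IsDiscreteValuationRing A0]
  [Field K] [Algebra A0 K] [IsFractionRing A0 K]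
  [Algebra A0 LL] [Algebra K LL] [IsScalarTower A0 K LL]
  {S : Type*} [CommRing S] [IsDomain S] [IsIntegrallyClosed S] [IsNoetherianRing S]
  [IsLocalRing S] [Algebra S E] [IsFractionRing S E] [Algebra S LL] [IsScalarTower S E LL]
  [Algebra A0 S] [IsScalarTower A0 S LL]
  {S' : Type*} [CommRing S'] [IsDomain S'] [IsIntegrallyClosed S'] [IsNoetherianRing S']
  [IsLocalRing S'] [Algebra S' E] [IsFractionRing S' E] [Algebra S' LL] [IsScalarTower S' E LL]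
  [Algebra A0 S'] [IsScalarTower A0 S' LL]

/-- **THE TWO-NODE THEOREM, packaged form.** -/
theorem s44gh_pair {π : A0} (hπ : Irreducible π) {e p : ℕ} (he : e ≠ 0) (hp : p ≠ 0)
    {𝔭₁ 𝔭₂ : Ideal S} {u : S} {𝔭₁' 𝔭₂' : Ideal S'} {u' : S'}
    (V : ValuationSubring LL) {ι : Type*} (σL : ι → LL ≃+* LL) (σ0 : ι → A0 ≃+* A0) {fv : E}
    (H : s44gh_NodeHyp (E := E) S π e p 𝔭₁ 𝔭₂ u V σL σ0 fv)
    (H' : s44gh_NodeHyp (E := E) S' π e p 𝔭₁' 𝔭₂' u' V σL σ0 fv)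
    -- the common `0`-component
    (v₀ : ValuationSubring E) (hv₀ : ∀ x : E, ssl_MemAt E 𝔭₁ x ↔ x ∈ v₀)
    (hv₀' : ∀ x : E, ssl_MemAt E 𝔭₁' x ↔ x ∈ v₀)
    (Wi : LL → ℤ) (hWi : s44vw_IsW (ssl_VUnit V) (algebraMap A0 LL π) Wi)
    (hσV : ∀ i x, x ∈ V ↔ σL i x ∈ V)
    (hbase : s44pa_Base (K := K) π e σL)
    -- the deck transformation
    (τ : LL ≃+* LL) (hτπ : τ (algebraMap A0 LL π) = algebraMap A0 LL π)
    (hconj : ∀ V₀ V₀' : ValuationSubring LL, (∀ x : E, algebraMap E LL x ∈ V₀ ↔ x ∈ v₀) →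
      (∀ x : E, algebraMap E LL x ∈ V₀' ↔ x ∈ v₀) →
      ∃ j : ℕ, ∀ z : LL, z ∈ V₀' ↔ (⇑τ)^[j] z ∈ V₀)
    -- the Kummer data
    {Φ β hh g : LL} {c : K} (hc0 : c ≠ 0) (hfv : fv ≠ 0) (hg : g ≠ 0) (hh0 : hh ≠ 0)
    (hΦ : Φ = algebraMap K LL c * algebraMap E LL fv * g ^ p)
    (hβ : ∃ ω : A0ˣ, β = algebraMap A0 LL (ω : A0)) (hτβ : τ β = β)
    (hτΦ : τ Φ = (β ^ p)⁻¹ * hh ^ p * Φ)
    (hratΦ : ∀ w : Place K LL, w.ord Φ ≠ 0 → ss_RatPlace w)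
    (hrath : ∀ (j : ℕ) (w : Place K LL), w.ord ((⇑τ)^[j] hh) ≠ 0 → ss_RatPlace w)
    (hσΦ : ∀ i, σL i Φ = Φ) (hσh : ∀ i (j : ℕ), σL i ((⇑τ)^[j] hh) = (⇑τ)^[j] hh)
    (hWiΦ : (e : ℤ) ∣ Wi Φ) (hWih : ∀ j : ℕ, (e : ℤ) ∣ Wi ((⇑τ)^[j] hh))
    -- the node orders
    (νS : E → ℤ) (hνS : s44nu_IsNu (algebraMap A0 S π) u 𝔭₂ νS)
    (νS' : E → ℤ) (hνS' : s44nu_IsNu (algebraMap A0 S' π) u' 𝔭₂' νS') :
    νS fv ≡ νS' fv [ZMOD (p : ℤ)] := by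
  obtain ⟨v, a, ha, huv, hm, hN⟩ := H.ex_node
  obtain ⟨P0, eps, n₁, n₂, r₁, r₂, h, hs₁, hs₂⟩ := H.ex_sheet
  obtain ⟨σS, hc, h0, hσu⟩ := H.ex_σ
  obtain ⟨v', a', ha', huv', hm', hN'⟩ := H'.ex_node
  obtain ⟨P0', eps', n₁', n₂', r₁', r₂', h', hs₁', hs₂'⟩ := H'.ex_sheet
  obtain ⟨σS', hc', h0', hσu'⟩ := H'.ex_σ
  exact s44ga_pair (K := K) hπ he hp ha huv hm hN h hs₁ hs₂ ha' huv' hm' hN' h' hs₁' hs₂' v₀ hv₀ hv₀'
    V H.hV H.hV𝔭 H'.hV H'.hV𝔭 Wi hWi σL σS σS' σ0 hc hc' h0 h0' hσV hσu hσu' hbase τ hτπ hconj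
    hc0 hfv hg hh0 hΦ hβ hτβ hτΦ H.hdiv H'.hdiv hratΦ hrath hσΦ hσh hWiΦ hWih νS hνS νS' hνS'

end Pair

end Fermat.Agent.S44
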