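/-
Project S44 (Mazur–Ribet at `p`), cell [H2-S] of [H2] MONO-MAIN (helper4): THE NODE HYPOTHESES OF THE
TWO-NODE THEOREM AT A CROSSING POINT OF A CHART, abstract `ss_Model` vocabulary.  Prefix `s44gm_`.

`B ≤ B12` charts of a function field `F0` over the discrete valuation ring `A0`, `𝔫` a crossing
point of `B` with NAMED local coordinates (`s44mu_NodeAtU`), `LL = F0(y)`, `y ^ p = f`, `f` as in
`s44mci_chart_sheet`; `V` a valuation subring of `LL` whose restriction to `F0` is `V1`, and `P1` is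
the centre of `V1` on `B12`; a family of automorphisms.  Then `s44gh_NodeHyp` holds for
`S = B_𝔫`, `𝔭₁ = (P2 ∩ B) S`, `𝔭₂ = (P1 ∩ B) S`.
-/
import Mathlib
import Fermat.Agent.S44.Mono.GlobalHyp
import Fermat.Agent.S44.Mono.UNodeAbs
import Fermat.Agent.S44.Mono.CIChart

set_option autoImplicit false
set_option linter.unusedSectionVars false
set_option linter.unusedVariables false
set_option linter.style.haveILetI false

noncomputable section

namespace Fermat.Agent.S44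

open Fermat.Agent.SS Fermat.Agent.JT3 IsLocalRing Polynomial AlgebraicCurve

universe v

section chart

variable {A0 : Type*} [CommRing A0] [IsDomain A0] [IsDiscreteValuationRing A0]
  {K : Type*} [Field K] [Algebra A0 K] [IsFractionRing A0 K]
  {F0 : Type v} [Field F0] [Algebra A0 F0] [Algebra K F0] [IsScalarTower A0 K F0]
variable {B B12 : Subalgebra A0 F0} [IsFractionRing B F0] [IsNoetherianRing B]
  [IsIntegrallyClosed B]
variable (𝔫 : Ideal B) [h𝔫 : 𝔫.IsPrime] {π : A0} (hle : B ≤ B12)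

/-- **the node hypotheses at a crossing point of a chart.** -/
theorem s44gm_nodeHyp {P1 P2 : Ideal B12} [hP1 : P1.IsPrime] [hP2 : P2.IsPrime]
    (hπ : Irreducible π) (hπ𝔫 : algebraMap A0 B π ∈ 𝔫) (hϖ0 : algebraMap A0 F0 π ≠ 0)
    (hrad : Ideal.span {algebraMap A0 B12 π} = P1 ⊓ P2) {ξ : F0}
    (hξS : ξ ∈ sfc_S B.toSubring (algebraMap A0 F0 π))
    (hclear : ∀ z ∈ B12, ∃ k : ℕ, ξ ^ k * z ∈ B)
    {u v : F0} {a : A0} (hU : s44mu_NodeAtU π hle P1 P2 𝔫 u v a)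
    (huS : u ∈ ssl_locSub F0 𝔫) (hvS : v ∈ ssl_locSub F0 𝔫)
    (O : Subring F0)
    (hOB : ∀ z ∈ O, ∃ s ∈ sfc_S B.toSubring (algebraMap A0 F0 π), s * z ∈ B)
    {σ00 : A0 ≃+* A0} {p e k e' : ℕ} {ζ : A0} (D : s44t_PData π σ00 p e k ζ)
    (hae : Associated a (π ^ e'))
    {f : F0} (hf : f ≠ 0) (hord : ∀ P : Place K F0, (p : ℤ) ∣ P.ord f)
    (hrat : ∀ P : Place K F0, P.ord f ≠ 0 → ss_RatPlace P)
    (hglob : ∃ G b : F0, G ≠ 0 ∧ b ∈ O ∧
      f = G ^ p * (1 + algebraMap A0 F0 π ^ (p * e + 1) * b))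
    {LL : Type*} [Field LL] [Algebra F0 LL] [FiniteDimensional F0 LL]
    [Algebra.IsSeparable F0 LL] [Algebra A0 LL] [IsScalarTower A0 F0 LL] {y : LL}
    (hy : y ^ p = algebraMap F0 LL f) (hfin : Module.finrank F0 LL = p)
    (hgenLL : Algebra.adjoin F0 ({y} : Set LL) = ⊤)
    -- the Gauss sheet
    (V : ValuationSubring LL) (V1 : ValuationSubring F0)
    (hVV1 : ∀ z : F0, algebraMap F0 LL z ∈ V ↔ z ∈ V1)
    (hB12V1 : ∀ b ∈ B12, b ∈ V1) (hP1 : ∀ b : B12, b ∈ P1 ↔ (b : F0) ∈ V1.nonunits)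
    -- the family
    {ι : Type*} (σL : ι → LL ≃+* LL) (σE : ι → F0 ≃+* F0) (σ0 : ι → A0 ≃+* A0)
    (hσB : ∀ i, ssl_SigmaB π (σE i) B)
    (hσL : ∀ i z, σL i (algebraMap F0 LL z) = algebraMap F0 LL (σE i z))
    (hσ0 : ∀ i c, σE i (algebraMap A0 F0 c) = algebraMap A0 F0 (σ0 i c))
    (hσu : ∀ i, σE i u = u)
    -- `fv`
    {fv : F0} (hfv : fv ≠ 0) (hordV : ∀ P : Place K F0, (p : ℤ) ∣ P.ord fv) :
    haveI := ssl_loc_isNoetherianRing (F0 := F0) 𝔫
    haveI := ssl_loc_isIntegrallyClosed (F0 := F0) 𝔫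
    haveI := ssl_loc_isLocalRing (F0 := F0) 𝔫
    s44gh_NodeHyp (E := F0) (LL := LL) (A0 := A0) ↥(ssl_locSub F0 𝔫) π e' p
      (s44tl_br 𝔫 hle P2) (s44tl_br 𝔫 hle P1) (⟨u, huS⟩ : ssl_locSub F0 𝔫) V σL σ0 fv := by
  haveI := ssl_loc_isNoetherianRing (F0 := F0) 𝔫
  haveI := ssl_loc_isIntegrallyClosed (F0 := F0) 𝔫
  haveI := ssl_loc_isLocalRing (F0 := F0) 𝔫
  obtain ⟨huv, hu, hv, hgen, hu1, hv2⟩ := hU
  obtain ⟨k', Dd, H, P, r₁, r₂, ha0, hk', hD0, hfD, hPm, hPd, heps, hGen, hNode, hmax, hS1, hS2⟩ :=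
    s44mci_chart_sheet (K := K) 𝔫 hle hπ hπ𝔫 hϖ0 hrad hξS hclear huv hu hv hgen hu1 hv2 huS hvS
      O hOB D hf hord hrat hglob hy hfin hgenLL
  -- the thickness
  have hk : k' = e' := by
    have h1 : Associated (π ^ k') (π ^ e') := hk'.symm.trans hae
    exact le_antisymm ((pow_dvd_pow_iff hπ.ne_zero hπ.not_isUnit).1 h1.dvd)
      ((pow_dvd_pow_iff hπ.ne_zero hπ.not_isUnit).1 h1.symm.dvd)
  subst hk
  haveI hbr1 : (s44tl_br 𝔫 hle P1).IsPrime := hNode.prime₂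
  -- elements of `B` outside `𝔫` are units of `V1`
  have hunit : ∀ t : B, t ∉ 𝔫 → (t : F0) ∉ V1.nonunits := by
    intro t ht hmem
    have h1 : Subalgebra.inclusion hle t ∈ P1 := (hP1 _).2 hmem
    have h2 : algebraMap B (ssl_locSub F0 𝔫) t ∈ s44tl_br 𝔫 hle P1 :=
      Ideal.mem_map_of_mem _ h1
    have h3 : IsUnit (algebraMap B (ssl_locSub F0 𝔫) t) :=
      IsLocalization.map_units (M := 𝔫.primeCompl) _ ⟨t, ht⟩
    exact hbr1.ne_top (Ideal.eq_top_of_isUnit_mem _ h2 h3)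
  have hBV1 : ∀ b : B, (b : F0) ∈ V1 := fun b => hB12V1 _ (hle b.2)
  have hinvV1 : ∀ t : B, t ∉ 𝔫 → ((t : F0))⁻¹ ∈ V1 := by
    intro t ht
    by_contra hcon
    exact hunit t ht ((ValuationSubring.mem_nonunits_iff_or V1).2 (Or.inr hcon))
  have hSV1 : ∀ s : ssl_locSub F0 𝔫, (s : F0) ∈ V1 := by
    intro s
    obtain ⟨a, t, ht, h⟩ := (ssl_mem_loc 𝔫).1 s.2
    have ht0 : (t : F0) ≠ 0 := by
      intro h0
      apply ht
      have : t = 0 := Subtype.ext h0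
      rw [this]; exact 𝔫.zero_mem
    have : (s : F0) = (a : F0) * ((t : F0))⁻¹ := by
      rw [← h, mul_assoc, mul_inv_cancel₀ ht0, mul_one]
    rw [this]
    exact V1.mul_mem _ _ (hBV1 a) (hinvV1 t ht)
  have hcoe : ∀ s : ssl_locSub F0 𝔫, algebraMap (ssl_locSub F0 𝔫) LL s =
      algebraMap F0 LL (s : F0) := fun s => rfl
  have hnu : ∀ z : F0, algebraMap F0 LL z ∈ V.nonunits ↔ z ∈ V1.nonunits := by
    intro z
    rw [ValuationSubring.mem_nonunits_iff_or, ValuationSubring.mem_nonunits_iff_or, ← map_inv₀,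
      hVV1, _root_.map_eq_zero]
  refine ⟨⟨⟨v, hvS⟩, a, ha0, Subtype.ext huv, hmax, hNode⟩,
    ⟨P, _, p, p, _, _, hGen, hS1, hS2⟩, ?_, ?_, ?_, ?_⟩
  · intro s
    rw [hcoe, hVV1]
    exact hSV1 s
  · intro s
    rw [hcoe, hnu, s44tl_mem_br]
    obtain ⟨a', t, ht, h⟩ := (ssl_mem_loc 𝔫).1 s.2
    have ht0 : (t : F0) ≠ 0 := by
      intro h0
      apply ht
      have : t = 0 := Subtype.ext h0
      rw [this]; exact 𝔫.zero_mem
    constructor
    · intro hs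
      refine ⟨a', t, (hP1 _).2 ?_, ht, h⟩
      show (a' : F0) ∈ V1.nonunits
      rw [← h, mul_comm]
      exact ssm_tp_nonunits_mul V1 hs (hBV1 t) |> fun h' => by rwa [mul_comm] at h'
    · rintro ⟨a'', t', ha'', ht', h'⟩
      have ht0' : (t' : F0) ≠ 0 := by
        intro h0
        apply ht'
        have : t' = 0 := Subtype.ext h0
        rw [this]; exact 𝔫.zero_mem
      have : (s : F0) = (a'' : F0) * ((t' : F0))⁻¹ := by
        rw [← h', mul_assoc, mul_inv_cancel₀ ht0', mul_one]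
      rw [this]
      exact ssm_tp_nonunits_mul V1 ((hP1 _).1 ha'') (hinvV1 t' ht')
  · refine ⟨fun i => ssl_sigmaR 𝔫 (hσB i) hπ𝔫, ?_, ?_, ?_⟩
    · intro i s
      rw [hcoe, hcoe, hσL]
      rfl
    · intro i c
      exact Subtype.ext (hσ0 i c)
    · intro i
      exact Subtype.ext (hσu i)
  · intro 𝔮' h𝔮'
    exact ssl_hdiv_of_places (K := K) hπ hfv p hordV 𝔮' h𝔮'

end chart

end Fermat.Agent.S44
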