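/-
Project S44 (Mazur–Ribet at `p`), cell [H2-S] of [H2] MONO-MAIN (helper4): THE TWO-NODE THEOREM AT TWO
CROSSING POINTS OF A CHART, abstract `ss_Model` vocabulary.  Prefix `s44gm_`.

* `s44gm_memAt_br` : `(B_𝔫)_{(P ∩ B) B_𝔫} = V` for a valuation subring `V` of `F0` with centre `P` on
  `B12 = B[1/ξ]`, `V = (B12)_P` (so the `0`-components at two crossing points are the same
  valuation ring);
* `s44gm_pair` : `s44gh_pair` at two crossing points `𝔫, 𝔫'` of the chart `B`, with the node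
  hypotheses from `s44gm_nodeHyp` and the conjugacy of the sheets from `s44mh_conj_val`.
-/
import Mathlib
import Fermat.Agent.S44.Mono.ChartHyp
import Fermat.Agent.S44.Mono.SheetVal

set_option autoImplicit false
set_option linter.unusedSectionVars false
set_option linter.unusedVariables false
set_option linter.style.haveILetI false

noncomputable section

namespace Fermat.Agent.S44

open Fermat.Agent.SS Fermat.Agent.JT3 IsLocalRing Polynomial AlgebraicCurve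

universe v

section chart

variable {A0 : Type*} [CommRing A0] [IsDomain A0] [IsDiscreteValuationRing A0]
  {K : Type*} [Field K] [Algebra A0 K] [IsFractionRing A0 K]
  {F0 : Type v} [Field F0] [Algebra A0 F0] [Algebra K F0] [IsScalarTower A0 K F0]
variable {B B12 : Subalgebra A0 F0} [IsFractionRing B F0] [IsNoetherianRing B]
  [IsIntegrallyClosed B]

/-- the branch of a component through a crossing point localises to the valuation ring of the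
component. -/
theorem s44gm_memAt_br (𝔫 : Ideal B) [h𝔫 : 𝔫.IsPrime] (hle : B ≤ B12) {P : Ideal B12}
    [hP : P.IsPrime] (hbr : (s44tl_br 𝔫 hle P).IsPrime) {ξ : F0} (hξB : ξ ∈ B) (hξ0 : ξ ≠ 0)
    (hξinv : ξ⁻¹ ∈ B12) (hclear : ∀ z ∈ B12, ∃ k : ℕ, ξ ^ k * z ∈ B)
    (V : ValuationSubring F0) (hB12V : ∀ b ∈ B12, b ∈ V)
    (hPV : ∀ b : B12, b ∈ P ↔ (b : F0) ∈ V.nonunits)
    (hloc : ∀ z ∈ V, ∃ b s : B12, s ∉ P ∧ z * (s : F0) = (b : F0)) (x : F0) :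
    ssl_MemAt F0 (s44tl_br 𝔫 hle P) x ↔ x ∈ V := by
  have hunit : ∀ t : B, t ∉ 𝔫 → (t : F0) ∉ V.nonunits := by
    intro t ht hmem
    have h1 : Subalgebra.inclusion hle t ∈ P := (hPV _).2 hmem
    have h2 : algebraMap B (ssl_locSub F0 𝔫) t ∈ s44tl_br 𝔫 hle P :=
      Ideal.mem_map_of_mem _ h1
    have h3 : IsUnit (algebraMap B (ssl_locSub F0 𝔫) t) :=
      IsLocalization.map_units (M := 𝔫.primeCompl) _ ⟨t, ht⟩
    exact hbr.ne_top (Ideal.eq_top_of_isUnit_mem _ h2 h3)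
  have hBV : ∀ b : B, (b : F0) ∈ V := fun b => hB12V _ (hle b.2)
  have hinvV : ∀ t : B, t ∉ 𝔫 → ((t : F0))⁻¹ ∈ V := by
    intro t ht
    by_contra hcon
    exact hunit t ht ((ValuationSubring.mem_nonunits_iff_or V).2 (Or.inr hcon))
  have hne0 : ∀ t : B, t ∉ 𝔫 → (t : F0) ≠ 0 := by
    intro t ht h0
    apply ht
    have : t = 0 := Subtype.ext h0
    rw [this]; exact 𝔫.zero_mem
  have hSV : ∀ s : ssl_locSub F0 𝔫, (s : F0) ∈ V := by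
    intro s
    obtain ⟨a, t, ht, h⟩ := (ssl_mem_loc 𝔫).1 s.2
    have : (s : F0) = (a : F0) * ((t : F0))⁻¹ := by
      rw [← h, mul_assoc, mul_inv_cancel₀ (hne0 t ht), mul_one]
    rw [this]
    exact V.mul_mem _ _ (hBV a) (hinvV t ht)
  -- nonunits of `V` in `S`
  have hSnu : ∀ s : ssl_locSub F0 𝔫, (s : F0) ∈ V.nonunits → s ∈ s44tl_br 𝔫 hle P := by
    intro s hs
    obtain ⟨a', t, ht, h⟩ := (ssl_mem_loc 𝔫).1 s.2
    rw [s44tl_mem_br]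
    refine ⟨a', t, (hPV _).2 ?_, ht, h⟩
    show (a' : F0) ∈ V.nonunits
    rw [← h]
    exact ssm_tp_nonunits_mul V hs (hBV t)
  constructor
  · rintro ⟨a, t, ht, h⟩
    have ht0 : (t : F0) ≠ 0 := by
      intro h0
      apply ht
      have : t = 0 := Subtype.ext h0
      rw [this]; exact (s44tl_br 𝔫 hle P).zero_mem
    have htinv : ((t : F0))⁻¹ ∈ V := by
      by_contra hcon
      exact ht (hSnu t ((ValuationSubring.mem_nonunits_iff_or V).2 (Or.inr hcon)))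
    have h' : x * (t : F0) = (a : F0) := h
    have : x = (a : F0) * ((t : F0))⁻¹ := by
      rw [← h', mul_assoc, mul_inv_cancel₀ ht0, mul_one]
    rw [this]
    exact V.mul_mem _ _ (hSV a) htinv
  · intro hx
    obtain ⟨b, s, hs, h⟩ := hloc x hx
    obtain ⟨k₁, hk₁⟩ := hclear b b.2
    obtain ⟨k₂, hk₂⟩ := hclear s s.2
    -- common power
    have hξ12 : ξ ∈ B12 := hle hξB
    have hpowB : ∀ n : ℕ, ξ ^ n ∈ B := fun n => pow_mem hξB n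
    have hb' : ξ ^ (k₁ + k₂) * (b : F0) ∈ B := by
      rw [pow_add, mul_comm (ξ ^ k₁), mul_assoc]
      exact B.mul_mem (hpowB k₂) hk₁
    have hs' : ξ ^ (k₁ + k₂) * (s : F0) ∈ B := by
      rw [pow_add, mul_assoc]
      exact B.mul_mem (hpowB k₁) hk₂
    -- `ξ ^ n s ∉ P`
    have hξP : (⟨ξ, hξ12⟩ : B12) ∉ P := by
      intro hmem
      have h1 : (⟨ξ⁻¹, hξinv⟩ : B12) * ⟨ξ, hξ12⟩ ∈ P := P.mul_mem_left _ hmem
      have h2 : (⟨ξ⁻¹, hξinv⟩ : B12) * ⟨ξ, hξ12⟩ = 1 := Subtype.ext (inv_mul_cancel₀ hξ0)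
      rw [h2] at h1
      exact hP.ne_top ((Ideal.eq_top_iff_one _).2 h1)
    have hsP : (⟨ξ ^ (k₁ + k₂) * (s : F0), hle hs'⟩ : B12) ∉ P := by
      intro hmem
      have : (⟨ξ ^ (k₁ + k₂) * (s : F0), hle hs'⟩ : B12) = ⟨ξ, hξ12⟩ ^ (k₁ + k₂) * s :=
        Subtype.ext rfl
      rw [this] at hmem
      rcases hP.mem_or_mem hmem with h1 | h1
      · exact hξP (hP.mem_of_pow_mem _ h1)
      · exact hs h1
    refine ⟨algebraMap B (ssl_locSub F0 𝔫) ⟨_, hb'⟩, algebraMap B (ssl_locSub F0 𝔫) ⟨_, hs'⟩, ?_, ?_⟩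
    · intro hmem
      obtain ⟨a'', t, ha'', ht, h''⟩ := s44tl_mem_br.1 hmem
      have h3 : (⟨ξ ^ (k₁ + k₂) * (s : F0), hle hs'⟩ : B12) * Subalgebra.inclusion hle t ∈ P := by
        have : (⟨ξ ^ (k₁ + k₂) * (s : F0), hle hs'⟩ : B12) * Subalgebra.inclusion hle t =
            Subalgebra.inclusion hle a'' := Subtype.ext h''
        rw [this]; exact ha''
      rcases hP.mem_or_mem h3 with h4 | h4
      · exact hsP h4
      · exact hunit t ht ((hPV _).1 h4)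
    · show x * (ξ ^ (k₁ + k₂) * (s : F0)) = ξ ^ (k₁ + k₂) * (b : F0)
      rw [← h]; ring

/-- **THE TWO-NODE THEOREM AT TWO CROSSING POINTS OF A CHART.** -/
theorem s44gm_pair (𝔫 𝔫' : Ideal B) [h𝔫 : 𝔫.IsPrime] [h𝔫' : 𝔫'.IsPrime] {π : A0} (hle : B ≤ B12)
    {P1 P2 : Ideal B12} [hP1 : P1.IsPrime] [hP2 : P2.IsPrime]
    (hπ : Irreducible π) (hπ𝔫 : algebraMap A0 B π ∈ 𝔫) (hπ𝔫' : algebraMap A0 B π ∈ 𝔫')
    (hϖ0 : algebraMap A0 F0 π ≠ 0)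
    (hrad : Ideal.span {algebraMap A0 B12 π} = P1 ⊓ P2) {ξ : F0}
    (hξS : ξ ∈ sfc_S B.toSubring (algebraMap A0 F0 π)) (hξinv : ξ⁻¹ ∈ B12)
    (hclear : ∀ z ∈ B12, ∃ k : ℕ, ξ ^ k * z ∈ B)
    -- the two crossing points
    {u v : F0} {a : A0} (hU : s44mu_NodeAtU π hle P1 P2 𝔫 u v a)
    (huS : u ∈ ssl_locSub F0 𝔫) (hvS : v ∈ ssl_locSub F0 𝔫)
    {u' v' : F0} {a' : A0} (hU' : s44mu_NodeAtU π hle P1 P2 𝔫' u' v' a')
    (huS' : u' ∈ ssl_locSub F0 𝔫') (hvS' : v' ∈ ssl_locSub F0 𝔫')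
    (O : Subring F0)
    (hOB : ∀ z ∈ O, ∃ s ∈ sfc_S B.toSubring (algebraMap A0 F0 π), s * z ∈ B)
    {σ00 : A0 ≃+* A0} {p e k e' : ℕ} {ζ : A0} (D : s44t_PData π σ00 p e k ζ)
    (he' : e' ≠ 0) (hp : p ≠ 0)
    (hae : Associated a (π ^ e')) (hae' : Associated a' (π ^ e'))
    -- the Kummer extension
    {f : F0} (hf : f ≠ 0) (hord : ∀ P : Place K F0, (p : ℤ) ∣ P.ord f)
    (hrat : ∀ P : Place K F0, P.ord f ≠ 0 → ss_RatPlace P)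
    (hglob : ∃ G b : F0, G ≠ 0 ∧ b ∈ O ∧
      f = G ^ p * (1 + algebraMap A0 F0 π ^ (p * e + 1) * b))
    {LL : Type*} [Field LL] [Algebra F0 LL] [FiniteDimensional F0 LL]
    [Algebra.IsSeparable F0 LL] [Algebra A0 LL] [IsScalarTower A0 F0 LL]
    [Algebra K LL] [IsScalarTower A0 K LL] {y : LL}
    (hy : y ^ p = algebraMap F0 LL f) (hfin : Module.finrank F0 LL = p)
    (hgenLL : Algebra.adjoin F0 ({y} : Set LL) = ⊤)
    -- the Gauss sheet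
    (V : ValuationSubring LL) (V1 : ValuationSubring F0)
    (hVV1 : ∀ z : F0, algebraMap F0 LL z ∈ V ↔ z ∈ V1)
    (hB12V1 : ∀ b ∈ B12, b ∈ V1) (hP1V : ∀ b : B12, b ∈ P1 ↔ (b : F0) ∈ V1.nonunits)
    (Wi : LL → ℤ) (hWi : s44vw_IsW (ssl_VUnit V) (algebraMap A0 LL π) Wi)
    -- the `0`-component
    (V2 : ValuationSubring F0) [IsDiscreteValuationRing ↥V2]
    (hB12V2 : ∀ b ∈ B12, b ∈ V2) (hP2V : ∀ b : B12, b ∈ P2 ↔ (b : F0) ∈ V2.nonunits)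
    (hloc2 : ∀ z ∈ V2, ∃ b s : B12, s ∉ P2 ∧ z * (s : F0) = (b : F0))
    -- the family
    {ι : Type*} (σL : ι → LL ≃+* LL) (σE : ι → F0 ≃+* F0) (σ0 : ι → A0 ≃+* A0)
    (hσB : ∀ i, ssl_SigmaB π (σE i) B)
    (hσL : ∀ i z, σL i (algebraMap F0 LL z) = algebraMap F0 LL (σE i z))
    (hσ0 : ∀ i c, σE i (algebraMap A0 F0 c) = algebraMap A0 F0 (σ0 i c))
    (hσu : ∀ i, σE i u = u) (hσu' : ∀ i, σE i u' = u')
    (hσV : ∀ i x, x ∈ V ↔ σL i x ∈ V)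
    (hbase : s44pa_Base (K := K) π e' σL)
    -- the deck transformation
    (τ : LL ≃ₐ[F0] LL) (hτn : ∀ z : LL, (⇑τ)^[p] z = z)
    (hfix : ∀ z : LL, τ z = z → z ∈ (algebraMap F0 LL).range)
    -- the Kummer data
    {fv : F0} (hfv : fv ≠ 0) (hordV : ∀ P : Place K F0, (p : ℤ) ∣ P.ord fv)
    {Φ β hh g : LL} {c : K} (hc0 : c ≠ 0) (hg : g ≠ 0) (hh0 : hh ≠ 0)
    (hΦ : Φ = algebraMap K LL c * algebraMap F0 LL fv * g ^ p)
    (hβ : ∃ ω : A0ˣ, β = algebraMap A0 LL (ω : A0))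
    (hτΦ : τ Φ = (β ^ p)⁻¹ * hh ^ p * Φ)
    (hratΦ : ∀ w : Place K LL, w.ord Φ ≠ 0 → ss_RatPlace w)
    (hrath : ∀ (j : ℕ) (w : Place K LL), w.ord ((⇑τ)^[j] hh) ≠ 0 → ss_RatPlace w)
    (hσΦ : ∀ i, σL i Φ = Φ) (hσh : ∀ i (j : ℕ), σL i ((⇑τ)^[j] hh) = (⇑τ)^[j] hh)
    (hWiΦ : (e' : ℤ) ∣ Wi Φ) (hWih : ∀ j : ℕ, (e' : ℤ) ∣ Wi ((⇑τ)^[j] hh))
    -- the node orders
    (ν ν' : F0 → ℤ) :
    haveI := ssl_loc_isNoetherianRing (F0 := F0) 𝔫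
    haveI := ssl_loc_isIntegrallyClosed (F0 := F0) 𝔫
    haveI := ssl_loc_isLocalRing (F0 := F0) 𝔫
    haveI := ssl_loc_isNoetherianRing (F0 := F0) 𝔫'
    haveI := ssl_loc_isIntegrallyClosed (F0 := F0) 𝔫'
    haveI := ssl_loc_isLocalRing (F0 := F0) 𝔫'
    s44nu_IsNu (algebraMap A0 (ssl_locSub F0 𝔫) π) (⟨u, huS⟩ : ssl_locSub F0 𝔫)
        (s44tl_br 𝔫 hle P1) ν →
      s44nu_IsNu (algebraMap A0 (ssl_locSub F0 𝔫') π) (⟨u', huS'⟩ : ssl_locSub F0 𝔫')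
        (s44tl_br 𝔫' hle P1) ν' →
      ν fv ≡ ν' fv [ZMOD (p : ℤ)] := by
  haveI := ssl_loc_isNoetherianRing (F0 := F0) 𝔫
  haveI := ssl_loc_isIntegrallyClosed (F0 := F0) 𝔫
  haveI := ssl_loc_isLocalRing (F0 := F0) 𝔫
  haveI := ssl_loc_isNoetherianRing (F0 := F0) 𝔫'
  haveI := ssl_loc_isIntegrallyClosed (F0 := F0) 𝔫'
  haveI := ssl_loc_isLocalRing (F0 := F0) 𝔫'
  intro hν hν'
  have H := s44gm_nodeHyp (K := K) 𝔫 hle hπ hπ𝔫 hϖ0 hrad hξS hclear hU huS hvS O hOB D hae hf hord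
    hrat hglob hy hfin hgenLL V V1 hVV1 hB12V1 hP1V σL σE σ0 hσB hσL hσ0 hσu hfv hordV
  have H' := s44gm_nodeHyp (K := K) 𝔫' hle hπ hπ𝔫' hϖ0 hrad hξS hclear hU' huS' hvS' O hOB D hae'
    hf hord hrat hglob hy hfin hgenLL V V1 hVV1 hB12V1 hP1V σL σE σ0 hσB hσL hσ0 hσu' hfv hordV
  obtain ⟨v₁, a₁, -, -, -, hN⟩ := H.ex_node
  obtain ⟨v₁', a₁', -, -, -, hN'⟩ := H'.ex_node
  have hξB : ξ ∈ B := hξS.1
  have hξ0 : ξ ≠ 0 := hξS.2.1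
  have hv₀ := s44gm_memAt_br 𝔫 hle hN.prime₁ hξB hξ0 hξinv hclear V2 hB12V2 hP2V hloc2
  have hv₀' := s44gm_memAt_br 𝔫' hle hN'.prime₁ hξB hξ0 hξinv hclear V2 hB12V2 hP2V hloc2
  have hτπ : τ.toRingEquiv (algebraMap A0 LL π) = algebraMap A0 LL π := by
    rw [IsScalarTower.algebraMap_apply A0 F0 LL]
    exact τ.commutes _
  have hτβ : τ.toRingEquiv β = β := by
    obtain ⟨ω, rfl⟩ := hβ
    rw [IsScalarTower.algebraMap_apply A0 F0 LL]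
    exact τ.commutes _
  have hp' : 0 < p := Nat.pos_of_ne_zero hp
  have hconj : ∀ V₀ V₀' : ValuationSubring LL, (∀ x : F0, algebraMap F0 LL x ∈ V₀ ↔ x ∈ V2) →
      (∀ x : F0, algebraMap F0 LL x ∈ V₀' ↔ x ∈ V2) →
      ∃ j : ℕ, ∀ z : LL, z ∈ V₀' ↔ (⇑τ.toRingEquiv)^[j] z ∈ V₀ := by
    intro V₀ V₀' h h'
    obtain ⟨j, -, hj⟩ := s44mh_conj_val V2 τ hp' hτn hfix V₀ V₀' h h'
    exact ⟨j, hj⟩
  exact s44gh_pair (K := K) hπ he' hp V σL σ0 H H' V2 hv₀ hv₀' Wi hWi hσV hbase τ.toRingEquiv hτπ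
    hconj hc0 hfv hg hh0 hΦ hβ hτβ hτΦ hratΦ hrath hσΦ hσh hWiΦ hWih ν hν ν' hν'

end chart

end Fermat.Agent.S44
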