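/-
S44 project, cell [H2] MONO-MAIN, sub-cell [H2-CI] (helper16; SUB of helper4 #4202).  Prefix `s44mci_`.

**THE CHART BLOCK OF `s44gm_pair` (`Mono/ChartPair.lean`) FOR THE LEGENDRE `λ`-CHART.**

Setting of `s44mu_node` (`Mono/UNode.lean`): `L` a number field containing a primitive `N'`-th root of
unity, `O` a discrete valuation ring of `L` of odd residue characteristic `q ∤ N'`, `π` a uniformiser.
`E = lg_E L (N' q)`, `λ = lg_lamE (N' q)`, `B = fc_chart O {λ}`, `B12 = fc_chart O {λ, λ⁻¹}`,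
`V1 = ssm_gl_V1` (`w_∞`), `V2 = ssm_gl_V2` (`w_0`), `P_i = ssm_tp_P B12 V_i`, `ξ = λ`,
`O_glob = sfc_O B12 π` (the ring of `s44t_GlobForm`).

* `s44mci_leg_chartBlock` : `P1.IsPrime`, `P2.IsPrime`, `IsDiscreteValuationRing V2`, `hϖ0`, `hrad`, `hξS`,
  `hξinv`, `hclear`, `hOB`, `hB12V1`, `hP1V`, `hB12V2`, `hP2V`, `hloc2` — in the binder shapes of
  `s44gm_pair`;
* `s44mci_leg_pi_mem`     : `hπ𝔫` from the crossing hypothesis `ssm_tp_P B V1 ≤ 𝔫` of `s44mu_node`;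
* `s44mci_leg_hae`        : `hae : Associated (q : O) (π ^ ((q - 1) e))` from `D : s44t_PData π σ00 q e k ζ`;
* the three instances of the chart `B` are `s44mci_leg_isAlg` (⟹ `IsFractionRing B E` by instance),
  `s44mci_leg_noeth`, `s44mci_leg_ic` of `Mono/CILeg.lean`.
-/
import Mathlib
import Fermat.Agent.S44.Mono.CILeg
import Fermat.Agent.S44.Mono.ChartPair
import Fermat.Agent.S35.ToricInst.Leg

set_option autoImplicit false
set_option linter.unusedSectionVars false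
set_option linter.style.haveILetI false
set_option linter.unusedVariables false

noncomputable section

namespace Fermat.Agent.S44

open ModularCurve IntermediateField IsLocalRing Polynomial
open Fermat.Agent.JT3 Fermat.Agent.SS Fermat.Agent.S35

section NF

variable (L : Type) [Field L] [NumberField L] [Algebra L (AlgebraicClosure ℚ)]
  (O : ValuationSubring L) [IsDiscreteValuationRing O] {π : O} (hπ : Irreducible π)
variable (N' q : ℕ) [NeZero N'] [NeZero q] [hq : Fact q.Prime] [CharP (ResidueField O) q]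
  (hq2 : ¬ 2 ∣ q) (hqN' : ¬ q ∣ N') (ζ : L) (hζ : IsPrimitiveRoot ζ N')

/-- `V2 = W⁻¹ V1` is a discrete valuation ring. -/
theorem s44mci_leg_V2_isDVR :
    IsDiscreteValuationRing ↥(ssm_gl_V2 O hπ N' q hq2 hqN') := by
  haveI : IsDiscreteValuationRing ↥(ssm_gl_V1 O hπ N' q) :=
    ssm_ga_isDVR π hπ.ne_zero hπ.maximalIdeal_eq _ _
  -- the ring isomorphism `V1 ≃ V2` induced by `W⁻¹`
  let W := ssm_gl_W L N' q hq2 hqN'
  let e : ↥(ssm_gl_V1 O hπ N' q) ≃+* ↥(ssm_gl_V2 O hπ N' q hq2 hqN') :=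
    { toFun := fun z => ⟨W.symm z, by
        show W (W.symm (z : ↥(lg_E L (N' * q)))) ∈ ssm_gl_V1 O hπ N' q
        rw [RingEquiv.apply_symm_apply]; exact z.2⟩
      invFun := fun z => ⟨W z, z.2⟩
      left_inv := fun z => Subtype.ext (RingEquiv.apply_symm_apply W _)
      right_inv := fun z => Subtype.ext (RingEquiv.symm_apply_apply W _)
      map_mul' := fun a b => Subtype.ext (map_mul W.symm _ _)
      map_add' := fun a b => Subtype.ext (map_add W.symm _ _) }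
  exact IsDiscreteValuationRing.RingEquivClass.isDiscreteValuationRing e

include hζ in
set_option synthInstance.maxHeartbeats 400000 in
set_option maxHeartbeats 1600000 in
/-- **THE CHART BLOCK OF `s44gm_pair` FOR THE LEGENDRE `λ`-CHART.** -/
theorem s44mci_leg_chartBlock :
    (ssm_tp_P (fc_chart ↥O ({lg_lamE (N' * q), (lg_lamE (N' * q))⁻¹} :
      Set ↥(lg_E L (N' * q)))) (ssm_gl_V1 O hπ N' q)).IsPrime ∧
    (ssm_tp_P (fc_chart ↥O ({lg_lamE (N' * q), (lg_lamE (N' * q))⁻¹} :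
      Set ↥(lg_E L (N' * q)))) (ssm_gl_V2 O hπ N' q hq2 hqN')).IsPrime ∧
    IsDiscreteValuationRing ↥(ssm_gl_V2 O hπ N' q hq2 hqN') ∧
    -- `hϖ0`
    algebraMap ↥O ↥(lg_E L (N' * q)) π ≠ 0 ∧
    -- `hrad`
    Ideal.span {algebraMap ↥O (fc_chart ↥O ({lg_lamE (N' * q), (lg_lamE (N' * q))⁻¹} :
      Set ↥(lg_E L (N' * q)))) π} =
      ssm_tp_P (fc_chart ↥O ({lg_lamE (N' * q), (lg_lamE (N' * q))⁻¹} :
        Set ↥(lg_E L (N' * q)))) (ssm_gl_V1 O hπ N' q) ⊓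
      ssm_tp_P (fc_chart ↥O ({lg_lamE (N' * q), (lg_lamE (N' * q))⁻¹} :
        Set ↥(lg_E L (N' * q)))) (ssm_gl_V2 O hπ N' q hq2 hqN') ∧
    -- `hξS`, `hξinv`, `hclear` for `ξ = λ`
    (lg_lamE (N' * q) : ↥(lg_E L (N' * q))) ∈
      sfc_S (fc_chart ↥O ({lg_lamE (N' * q)} : Set ↥(lg_E L (N' * q)))).toSubring
        (algebraMap ↥O ↥(lg_E L (N' * q)) π) ∧
    (lg_lamE (N' * q) : ↥(lg_E L (N' * q)))⁻¹ ∈
      fc_chart ↥O ({lg_lamE (N' * q), (lg_lamE (N' * q))⁻¹} : Set ↥(lg_E L (N' * q))) ∧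
    (∀ z ∈ fc_chart ↥O ({lg_lamE (N' * q), (lg_lamE (N' * q))⁻¹} : Set ↥(lg_E L (N' * q))),
      ∃ k : ℕ, (lg_lamE (N' * q) : ↥(lg_E L (N' * q))) ^ k * z ∈
        fc_chart ↥O ({lg_lamE (N' * q)} : Set ↥(lg_E L (N' * q)))) ∧
    -- `hOB` for `O_glob = sfc_O B12 π`
    (∀ z ∈ sfc_O (fc_chart ↥O ({lg_lamE (N' * q), (lg_lamE (N' * q))⁻¹} :
        Set ↥(lg_E L (N' * q)))).toSubring (algebraMap ↥O ↥(lg_E L (N' * q)) π),
      ∃ s ∈ sfc_S (fc_chart ↥O ({lg_lamE (N' * q)} : Set ↥(lg_E L (N' * q)))).toSubring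
          (algebraMap ↥O ↥(lg_E L (N' * q)) π),
        s * z ∈ fc_chart ↥O ({lg_lamE (N' * q)} : Set ↥(lg_E L (N' * q)))) ∧
    -- `hB12V1`, `hP1V`
    (∀ b ∈ fc_chart ↥O ({lg_lamE (N' * q), (lg_lamE (N' * q))⁻¹} : Set ↥(lg_E L (N' * q))),
      b ∈ ssm_gl_V1 O hπ N' q) ∧
    (∀ b : fc_chart ↥O ({lg_lamE (N' * q), (lg_lamE (N' * q))⁻¹} : Set ↥(lg_E L (N' * q))),
      b ∈ ssm_tp_P (fc_chart ↥O ({lg_lamE (N' * q), (lg_lamE (N' * q))⁻¹} :
        Set ↥(lg_E L (N' * q)))) (ssm_gl_V1 O hπ N' q) ↔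
        (b : ↥(lg_E L (N' * q))) ∈ (ssm_gl_V1 O hπ N' q).nonunits) ∧
    -- `hB12V2`, `hP2V`, `hloc2`
    (∀ b ∈ fc_chart ↥O ({lg_lamE (N' * q), (lg_lamE (N' * q))⁻¹} : Set ↥(lg_E L (N' * q))),
      b ∈ ssm_gl_V2 O hπ N' q hq2 hqN') ∧
    (∀ b : fc_chart ↥O ({lg_lamE (N' * q), (lg_lamE (N' * q))⁻¹} : Set ↥(lg_E L (N' * q))),
      b ∈ ssm_tp_P (fc_chart ↥O ({lg_lamE (N' * q), (lg_lamE (N' * q))⁻¹} :
        Set ↥(lg_E L (N' * q)))) (ssm_gl_V2 O hπ N' q hq2 hqN') ↔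
        (b : ↥(lg_E L (N' * q))) ∈ (ssm_gl_V2 O hπ N' q hq2 hqN').nonunits) ∧
    (∀ z ∈ ssm_gl_V2 O hπ N' q hq2 hqN',
      ∃ b s : fc_chart ↥O ({lg_lamE (N' * q), (lg_lamE (N' * q))⁻¹} : Set ↥(lg_E L (N' * q))),
        s ∉ ssm_tp_P (fc_chart ↥O ({lg_lamE (N' * q), (lg_lamE (N' * q))⁻¹} :
          Set ↥(lg_E L (N' * q)))) (ssm_gl_V2 O hπ N' q hq2 hqN') ∧
        z * (s : ↥(lg_E L (N' * q))) = (b : ↥(lg_E L (N' * q)))) := by
  have hqO : ((q : ℕ) : O) ∈ maximalIdeal O := ssm_fln_q_mem L O q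
  have hq2' : q ≠ 2 := ssm_fl_ne_two q hq2
  have hp := ssm_ll_prime L N' hπ q hqO hq2' hqN' ζ hζ
  haveI := ssm_go_isScalarTower O (lg_E L (N' * q))
  have H := ssm_gl_hyp O hπ N' q hq2 hqN' hp.1
  have hx : Transcendental L (lg_lamE (L := L) (N' * q)) :=
    lgf_lam_transcendental L (N' * q) two_ne_zero
  have hC12 := ssm_tp_ff_chart12 (L := L) hπ hx
  haveI : IsIntegrallyClosed (Algebra.adjoin ↥O ({lg_lamE (N' * q)} : Set ↥(lg_E L (N' * q)))) :=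
    fc_ff_isIntegrallyClosed (fc_ff_transcendental (L := L) hx)
  haveI : FaithfulSMul (Algebra.adjoin ↥O ({lg_lamE (N' * q)} : Set ↥(lg_E L (N' * q))))
      ↥(lg_E L (N' * q)) :=
    (faithfulSMul_iff_algebraMap_injective _ _).2 Subtype.val_injective
  have M := s35ti_leg_model L O hπ N' q hq2 hqN' ζ hζ
  have hx0 := ssa_x_ne_zero M
  refine ⟨M.prime1, M.prime2, s44mci_leg_V2_isDVR L O hπ N' q hq2 hqN', ssa_pi_ne_zero M, M.hrad,
    M.hxS1, ssa_xinv_mem12, fun z hz => fc_clear1 hx0 hz, ssl_model_OB1 M,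
    fun b hb => hC12.le H.over1 hb, fun b => H.mem_P1 hC12,
    fun b hb => hC12.le H.over2 hb, fun b => H.mem_P2 hC12, ?_⟩
  intro z hz
  obtain ⟨t, ht, htn, htz⟩ := (H.chart_loc2 hC12).1 hz
  refine ⟨⟨t * z, htz⟩, ⟨t, ht⟩, ?_, ?_⟩
  · rw [H.mem_P2 hC12]
    exact htn
  · show z * t = t * z
    ring

include hζ hq2 hqN' in
set_option synthInstance.maxHeartbeats 400000 in
set_option maxHeartbeats 1600000 in
/-- `hπ𝔫` of `s44gm_pair` from the crossing hypothesis of `s44mu_node`. -/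
theorem s44mci_leg_pi_mem
    (𝔫 : Ideal (fc_chart ↥O ({lg_lamE (N' * q)} : Set ↥(lg_E L (N' * q)))))
    (h1 : ssm_tp_P (fc_chart ↥O ({lg_lamE (N' * q)} : Set ↥(lg_E L (N' * q))))
      (ssm_gl_V1 O hπ N' q) ≤ 𝔫) :
    algebraMap ↥O (fc_chart ↥O ({lg_lamE (N' * q)} : Set ↥(lg_E L (N' * q)))) π ∈ 𝔫 := by
  have hqO : ((q : ℕ) : O) ∈ maximalIdeal O := ssm_fln_q_mem L O q
  have hq2' : q ≠ 2 := ssm_fl_ne_two q hq2
  have hp := ssm_ll_prime L N' hπ q hqO hq2' hqN' ζ hζ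
  haveI := ssm_go_isScalarTower O (lg_E L (N' * q))
  have H := ssm_gl_hyp O hπ N' q hq2 hqN' hp.1
  obtain ⟨hV1, -⟩ := s44mci_leg_le_V L O hπ N' q hq2 hqN' ζ hζ
  have hx : Transcendental L (lg_lamE (L := L) (N' * q)) :=
    lgf_lam_transcendental L (N' * q) two_ne_zero
  haveI : IsIntegrallyClosed (Algebra.adjoin ↥O ({lg_lamE (N' * q)} : Set ↥(lg_E L (N' * q)))) :=
    fc_ff_isIntegrallyClosed (fc_ff_transcendental (L := L) hx)
  haveI : FaithfulSMul (Algebra.adjoin ↥O ({lg_lamE (N' * q)} : Set ↥(lg_E L (N' * q))))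
      ↥(lg_E L (N' * q)) :=
    (faithfulSMul_iff_algebraMap_injective _ _).2 Subtype.val_injective
  apply h1
  rw [ssm_tp_mem_P (fun b hb => hV1 b (fc_chart1_le _ hb))]
  exact H.over1.pi_mem

end NF

/-- `hae` of `s44gm_pair` (`a = a' = q` from `s44mu_node`): `q ~ π ^ ((q - 1) e)`. -/
theorem s44mci_leg_hae {A0 : Type*} [CommRing A0] {π : A0} {σ00 : A0 ≃+* A0} {q e k : ℕ}
    {ζ : A0} (D : s44t_PData π σ00 q e k ζ) :
    Associated ((q : ℕ) : A0) (π ^ ((q - 1) * e)) := by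
  obtain ⟨v, hv⟩ := D.p_eq
  exact ⟨v⁻¹, by rw [hv, mul_assoc, Units.mul_inv, mul_one]⟩

end Fermat.Agent.S44
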