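/-
Project S44 (Mazur–Ribet at `p`), cell [H2-S] of [H2] MONO-MAIN (helper4): THE TWO-NODE THEOREM AT TWO
CROSSING POINTS OF A CHART FOR THE TRIVIAL COVER (`LL = F0`; the case `X = 0` of MONO).
Prefix `s44gt_`.

`Φ = c · fv · g ^ p ∈ F0` fixed by the inertia family, with rational zeros and poles and Gauss
order divisible by `e` ⟹ `ν fv ≡ ν' fv (mod p)` for the normalised node orders at two crossing
points of the chart.
-/
import Mathlib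
import Fermat.Agent.S44.Mono.ChartPair

set_option autoImplicit false
set_option linter.unusedSectionVars false
set_option linter.unusedVariables false
set_option linter.style.haveILetI false

noncomputable section

namespace Fermat.Agent.S44

open Fermat.Agent.SS Fermat.Agent.JT3 IsLocalRing Polynomial AlgebraicCurve

universe v

section triv

variable {S : Type*} [CommRing S] [IsDomain S] [IsIntegrallyClosed S] [IsLocalRing S]
  {E : Type*} [Field E] [Algebra S E] [IsFractionRing S E]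

/-- the trivial étale datum: `LL = E`, `P0 = X`, `ε = 0`. -/
theorem s44gt_gen : s44me_Gen (S := S) (LL := E) E (X : S[X]) (0 : E) where
  monic := monic_X
  irr := by rw [Polynomial.map_X]; exact irreducible_X
  root := by rw [aeval_X]
  gen := by
    rw [Algebra.eq_top_iff]
    intro x
    have : x = algebraMap E E x := rfl
    rw [this]
    exact Subalgebra.algebraMap_mem _ x
  unit := ⟨1, Subalgebra.one_mem _, by rw [derivative_X, map_one, mul_one]⟩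

theorem s44gt_split (𝔭 : Ideal S) : s44me_Split (X : S[X]) 𝔭 (fun _ : Fin 1 => (0 : S)) where
  cong := ⟨0, fun n => by rw [coeff_zero]; exact 𝔭.zero_mem, by
    rw [Fin.prod_univ_one, map_zero, sub_zero, add_zero]⟩
  dist := fun i j hij => absurd (Subsingleton.elim i j) hij

end triv

section chart

variable {A0 : Type*} [CommRing A0] [IsDomain A0] [IsDiscreteValuationRing A0]
  {K : Type*} [Field K] [Algebra A0 K] [IsFractionRing A0 K]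
  {F0 : Type v} [Field F0] [Algebra A0 F0] [Algebra K F0] [IsScalarTower A0 K F0]
variable {B B12 : Subalgebra A0 F0} [IsFractionRing B F0] [IsNoetherianRing B]
  [IsIntegrallyClosed B]
variable (𝔫 : Ideal B) [h𝔫 : 𝔫.IsPrime] {π : A0} (hle : B ≤ B12)

/-- **the node hypotheses at a crossing point of a chart, trivial cover.** -/
theorem s44gt_nodeHyp {P1 P2 : Ideal B12} [hP1 : P1.IsPrime] [hP2 : P2.IsPrime]
    (hπ : Irreducible π) (hπ𝔫 : algebraMap A0 B π ∈ 𝔫) (hϖ0 : algebraMap A0 F0 π ≠ 0)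
    (hrad : Ideal.span {algebraMap A0 B12 π} = P1 ⊓ P2) {ξ : F0}
    (hξS : ξ ∈ sfc_S B.toSubring (algebraMap A0 F0 π))
    (hclear : ∀ z ∈ B12, ∃ k : ℕ, ξ ^ k * z ∈ B)
    {u v : F0} {a : A0} (hU : s44mu_NodeAtU π hle P1 P2 𝔫 u v a)
    (huS : u ∈ ssl_locSub F0 𝔫) (hvS : v ∈ ssl_locSub F0 𝔫)
    {p e' : ℕ} (hae : Associated a (π ^ e'))
    (V1 : ValuationSubring F0)
    (hB12V1 : ∀ b ∈ B12, b ∈ V1) (hP1 : ∀ b : B12, b ∈ P1 ↔ (b : F0) ∈ V1.nonunits)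
    {ι : Type*} (σE : ι → F0 ≃+* F0) (σ0 : ι → A0 ≃+* A0)
    (hσB : ∀ i, ssl_SigmaB π (σE i) B)
    (hσ0 : ∀ i c, σE i (algebraMap A0 F0 c) = algebraMap A0 F0 (σ0 i c))
    (hσu : ∀ i, σE i u = u)
    {fv : F0} (hfv : fv ≠ 0) (hordV : ∀ P : Place K F0, (p : ℤ) ∣ P.ord fv) :
    haveI := ssl_loc_isNoetherianRing (F0 := F0) 𝔫
    haveI := ssl_loc_isIntegrallyClosed (F0 := F0) 𝔫
    haveI := ssl_loc_isLocalRing (F0 := F0) 𝔫
    s44gh_NodeHyp (E := F0) (LL := F0) (A0 := A0) ↥(ssl_locSub F0 𝔫) π e' p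
      (s44tl_br 𝔫 hle P2) (s44tl_br 𝔫 hle P1) (⟨u, huS⟩ : ssl_locSub F0 𝔫) V1 σE σ0 fv := by
  haveI := ssl_loc_isNoetherianRing (F0 := F0) 𝔫
  haveI := ssl_loc_isIntegrallyClosed (F0 := F0) 𝔫
  haveI := ssl_loc_isLocalRing (F0 := F0) 𝔫
  obtain ⟨huv, hu, hv, hgen, hu1, hv2⟩ := hU
  obtain ⟨k', ha0, hk', hNode, hmax⟩ :=
    s44mci_chart_node (𝔫 := 𝔫) hle hπ hϖ0 hπ𝔫 hrad hξS hclear huv hu hv hgen hu1 hv2 huS hvS
  have hk : k' = e' := by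
    have h1 : Associated (π ^ k') (π ^ e') := hk'.symm.trans hae
    exact le_antisymm ((pow_dvd_pow_iff hπ.ne_zero hπ.not_isUnit).1 h1.dvd)
      ((pow_dvd_pow_iff hπ.ne_zero hπ.not_isUnit).1 h1.symm.dvd)
  subst hk
  haveI hbr1 : (s44tl_br 𝔫 hle P1).IsPrime := hNode.prime₂
  have hunit : ∀ t : B, t ∉ 𝔫 → (t : F0) ∉ V1.nonunits := by
    intro t ht hmem
    have h1 : Subalgebra.inclusion hle t ∈ P1 := (hP1 _).2 hmem
    have h2 : algebraMap B (ssl_locSub F0 𝔫) t ∈ s44tl_br 𝔫 hle P1 :=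
      Ideal.mem_map_of_mem _ h1
    have h3 : IsUnit (algebraMap B (ssl_locSub F0 𝔫) t) :=
      IsLocalization.map_units (M := 𝔫.primeCompl) _ ⟨t, ht⟩
    exact hbr1.ne_top (Ideal.eq_top_of_isUnit_mem _ h2 h3)
  have hBV1 : ∀ b : B, (b : F0) ∈ V1 := fun b => hB12V1 _ (hle b.2)
  have hinvV1 : ∀ t : B, t ∉ 𝔫 → ((t : F0))⁻¹ ∈ V1 := by
    intro t ht
    by_contra hcon
    exact hunit t ht ((ValuationSubring.mem_nonunits_iff_or V1).2 (Or.inr hcon))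
  have hSV1 : ∀ s : ssl_locSub F0 𝔫, (s : F0) ∈ V1 := by
    intro s
    obtain ⟨a, t, ht, h⟩ := (ssl_mem_loc 𝔫).1 s.2
    have ht0 : (t : F0) ≠ 0 := by
      intro h0
      apply ht
      have : t = 0 := Subtype.ext h0
      rw [this]; exact 𝔫.zero_mem
    have : (s : F0) = (a : F0) * ((t : F0))⁻¹ := by
      rw [← h, mul_assoc, mul_inv_cancel₀ ht0, mul_one]
    rw [this]
    exact V1.mul_mem _ _ (hBV1 a) (hinvV1 t ht)
  have hcoe : ∀ s : ssl_locSub F0 𝔫, algebraMap (ssl_locSub F0 𝔫) F0 s = (s : F0) := fun s => rfl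
  refine ⟨⟨⟨v, hvS⟩, a, ha0, Subtype.ext huv, hmax, hNode⟩,
    ⟨X, 0, 1, 1, _, _, s44gt_gen, s44gt_split _, s44gt_split _⟩, ?_, ?_, ?_, ?_⟩
  · intro s
    rw [hcoe]
    exact hSV1 s
  · intro s
    rw [hcoe, s44tl_mem_br]
    obtain ⟨a', t, ht, h⟩ := (ssl_mem_loc 𝔫).1 s.2
    constructor
    · intro hs
      refine ⟨a', t, (hP1 _).2 ?_, ht, h⟩
      show (a' : F0) ∈ V1.nonunits
      rw [← h]
      exact ssm_tp_nonunits_mul V1 hs (hBV1 t)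
    · rintro ⟨a'', t', ha'', ht', h'⟩
      have ht0' : (t' : F0) ≠ 0 := by
        intro h0
        apply ht'
        have : t' = 0 := Subtype.ext h0
        rw [this]; exact 𝔫.zero_mem
      have : (s : F0) = (a'' : F0) * ((t' : F0))⁻¹ := by
        rw [← h', mul_assoc, mul_inv_cancel₀ ht0', mul_one]
      rw [this]
      exact ssm_tp_nonunits_mul V1 ((hP1 _).1 ha'') (hinvV1 t' ht')
  · refine ⟨fun i => ssl_sigmaR 𝔫 (hσB i) hπ𝔫, ?_, ?_, ?_⟩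
    · intro i s
      rfl
    · intro i c
      exact Subtype.ext (hσ0 i c)
    · intro i
      exact Subtype.ext (hσu i)
  · intro 𝔮' h𝔮'
    exact ssl_hdiv_of_places (K := K) hπ hfv p hordV 𝔮' h𝔮'

/-- **THE TWO-NODE THEOREM AT TWO CROSSING POINTS OF A CHART, TRIVIAL COVER.** -/
theorem s44gt_pair (𝔫 𝔫' : Ideal B) [h𝔫 : 𝔫.IsPrime] [h𝔫' : 𝔫'.IsPrime] {π : A0} (hle : B ≤ B12)
    {P1 P2 : Ideal B12} [hP1 : P1.IsPrime] [hP2 : P2.IsPrime]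
    (hπ : Irreducible π) (hπ𝔫 : algebraMap A0 B π ∈ 𝔫) (hπ𝔫' : algebraMap A0 B π ∈ 𝔫')
    (hϖ0 : algebraMap A0 F0 π ≠ 0)
    (hrad : Ideal.span {algebraMap A0 B12 π} = P1 ⊓ P2) {ξ : F0}
    (hξS : ξ ∈ sfc_S B.toSubring (algebraMap A0 F0 π)) (hξinv : ξ⁻¹ ∈ B12)
    (hclear : ∀ z ∈ B12, ∃ k : ℕ, ξ ^ k * z ∈ B)
    {u v : F0} {a : A0} (hU : s44mu_NodeAtU π hle P1 P2 𝔫 u v a)
    (huS : u ∈ ssl_locSub F0 𝔫) (hvS : v ∈ ssl_locSub F0 𝔫)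
    {u' v' : F0} {a' : A0} (hU' : s44mu_NodeAtU π hle P1 P2 𝔫' u' v' a')
    (huS' : u' ∈ ssl_locSub F0 𝔫') (hvS' : v' ∈ ssl_locSub F0 𝔫')
    {p e' : ℕ} (he' : e' ≠ 0) (hp : p ≠ 0)
    (hae : Associated a (π ^ e')) (hae' : Associated a' (π ^ e'))
    -- the Gauss component
    (V1 : ValuationSubring F0)
    (hB12V1 : ∀ b ∈ B12, b ∈ V1) (hP1V : ∀ b : B12, b ∈ P1 ↔ (b : F0) ∈ V1.nonunits)
    (Wi : F0 → ℤ) (hWi : s44vw_IsW (ssl_VUnit V1) (algebraMap A0 F0 π) Wi)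
    -- the `0`-component
    (V2 : ValuationSubring F0)
    (hB12V2 : ∀ b ∈ B12, b ∈ V2) (hP2V : ∀ b : B12, b ∈ P2 ↔ (b : F0) ∈ V2.nonunits)
    (hloc2 : ∀ z ∈ V2, ∃ b s : B12, s ∉ P2 ∧ z * (s : F0) = (b : F0))
    -- the family
    {ι : Type*} (σE : ι → F0 ≃+* F0) (σ0 : ι → A0 ≃+* A0)
    (hσB : ∀ i, ssl_SigmaB π (σE i) B)
    (hσ0 : ∀ i c, σE i (algebraMap A0 F0 c) = algebraMap A0 F0 (σ0 i c))
    (hσu : ∀ i, σE i u = u) (hσu' : ∀ i, σE i u' = u')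
    (hσV : ∀ i x, x ∈ V1 ↔ σE i x ∈ V1)
    (hbase : s44pa_Base (K := K) (F := F0) π e' σE)
    -- the data
    {fv : F0} (hfv : fv ≠ 0) (hordV : ∀ P : Place K F0, (p : ℤ) ∣ P.ord fv)
    {Φ g : F0} {c : K} (hc0 : c ≠ 0) (hg : g ≠ 0)
    (hΦ : Φ = algebraMap K F0 c * fv * g ^ p)
    (hratΦ : ∀ w : Place K F0, w.ord Φ ≠ 0 → ss_RatPlace w)
    (hσΦ : ∀ i, σE i Φ = Φ) (hWiΦ : (e' : ℤ) ∣ Wi Φ)
    (ν ν' : F0 → ℤ) :
    haveI := ssl_loc_isNoetherianRing (F0 := F0) 𝔫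
    haveI := ssl_loc_isIntegrallyClosed (F0 := F0) 𝔫
    haveI := ssl_loc_isLocalRing (F0 := F0) 𝔫
    haveI := ssl_loc_isNoetherianRing (F0 := F0) 𝔫'
    haveI := ssl_loc_isIntegrallyClosed (F0 := F0) 𝔫'
    haveI := ssl_loc_isLocalRing (F0 := F0) 𝔫'
    s44nu_IsNu (algebraMap A0 (ssl_locSub F0 𝔫) π) (⟨u, huS⟩ : ssl_locSub F0 𝔫)
        (s44tl_br 𝔫 hle P1) ν →
      s44nu_IsNu (algebraMap A0 (ssl_locSub F0 𝔫') π) (⟨u', huS'⟩ : ssl_locSub F0 𝔫')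
        (s44tl_br 𝔫' hle P1) ν' →
      ν fv ≡ ν' fv [ZMOD (p : ℤ)] := by
  haveI := ssl_loc_isNoetherianRing (F0 := F0) 𝔫
  haveI := ssl_loc_isIntegrallyClosed (F0 := F0) 𝔫
  haveI := ssl_loc_isLocalRing (F0 := F0) 𝔫
  haveI := ssl_loc_isNoetherianRing (F0 := F0) 𝔫'
  haveI := ssl_loc_isIntegrallyClosed (F0 := F0) 𝔫'
  haveI := ssl_loc_isLocalRing (F0 := F0) 𝔫'
  intro hν hν'
  have H := s44gt_nodeHyp (K := K) 𝔫 hle hπ hπ𝔫 hϖ0 hrad hξS hclear hU huS hvS hae V1 hB12V1 hP1V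
    σE σ0 hσB hσ0 hσu hfv hordV
  have H' := s44gt_nodeHyp (K := K) 𝔫' hle hπ hπ𝔫' hϖ0 hrad hξS hclear hU' huS' hvS' hae' V1 hB12V1
    hP1V σE σ0 hσB hσ0 hσu' hfv hordV
  obtain ⟨v₁, a₁, -, -, -, hN⟩ := H.ex_node
  obtain ⟨v₁', a₁', -, -, -, hN'⟩ := H'.ex_node
  have hv₀ := s44gm_memAt_br 𝔫 hle hN.prime₁ hξS.1 hξS.2.1 hξinv hclear V2 hB12V2 hP2V hloc2
  have hv₀' := s44gm_memAt_br 𝔫' hle hN'.prime₁ hξS.1 hξS.2.1 hξinv hclear V2 hB12V2 hP2V hloc2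
  have hconj : ∀ V₀ V₀' : ValuationSubring F0, (∀ x : F0, algebraMap F0 F0 x ∈ V₀ ↔ x ∈ V2) →
      (∀ x : F0, algebraMap F0 F0 x ∈ V₀' ↔ x ∈ V2) →
      ∃ j : ℕ, ∀ z : F0, z ∈ V₀' ↔ (⇑(RingEquiv.refl F0))^[j] z ∈ V₀ := by
    intro V₀ V₀' h h'
    refine ⟨0, fun z => ?_⟩
    rw [Function.iterate_zero, id_eq]
    exact (h' z).trans (h z).symm
  have hiter : ∀ (j : ℕ) (z : F0), (⇑(RingEquiv.refl F0))^[j] z = z := by
    intro j z
    exact Function.iterate_fixed rfl j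
  have hW1 : Wi 1 = 0 := s44mh_W_one Wi hWi.add
  refine s44gh_pair (K := K) (β := (1 : F0)) (hh := (1 : F0)) hπ he' hp V1 σE σ0 H H' V2 hv₀ hv₀' Wi
    hWi hσV hbase (RingEquiv.refl F0) rfl hconj hc0 hfv hg one_ne_zero hΦ ⟨1, ?_⟩ rfl ?_ hratΦ ?_
    hσΦ ?_ hWiΦ ?_ ν hν ν' hν'
  · rw [Units.val_one, map_one]
  · rw [RingEquiv.refl_apply, one_pow, inv_one, one_mul, one_mul]
  · intro j w hw
    rw [hiter] at hw
    exact absurd (Place.ord_one w) hw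
  · intro i j
    rw [hiter, map_one]
  · intro j
    rw [hiter, hW1]
    exact dvd_zero _

end chart

end Fermat.Agent.S44
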