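import Mathlib
import Fermat.Agent.S44.Mono.ChartTriv
import Fermat.Agent.S44.Mono.UNode
import Fermat.Agent.S44.Mono.CILeg
import Fermat.Agent.S44.Mono.MainV
import Fermat.Agent.S44.Mono.CILegBlock
import Fermat.Agent.S44.Mono.MainSigma
import Fermat.Agent.S44.Mono.GaussSheetW

set_option autoImplicit false
set_option linter.unusedSectionVars false
set_option linter.unusedVariables false
set_option linter.style.haveILetI false

noncomputable section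

namespace Fermat.Agent.S44

open Fermat.Agent.SS Fermat.Agent.JT3 IsLocalRing Polynomial AlgebraicCurve ModularCurve


/-! ### the Gauss order function of `E` itself -/

section GaussE

variable {L : Type*} [Field L] (O : ValuationSubring L) [IsDiscreteValuationRing ↥O]
  (E : IntermediateField L (LaurentSeries L)) (hE : E ≤ gq_quotField ↥O L)

/-- **`Wi`, `hWi`, `hWiΦ` for the trivial cover**: the normalised order function of the Gauss
valuation subring of `E`, and `e ∣ Wi z` for every nonzero `z` fixed by the finite group `G`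
(`s44mv_unif`, `s44mv_W_dvd` at `Lb := E.toSubfield`). -/
theorem s44glt_exists_W {π : ↥O} (hπ : Irreducible π) [Algebra ↥O ↥E]
    (halg0 : ∀ a : ↥O, ((algebraMap ↥O ↥E a : ↥E) : LaurentSeries L) =
      algebraMap L (LaurentSeries L) (a : L))
    {G : Type*} [Group G] [Finite G] [MulSemiringAction G L]
    (hstab : ∀ (g : G) (x : L), x ∈ O → g • x ∈ O) {e : ℕ}
    (hbase : ∀ c : L, c ≠ 0 → (∀ g : G, g • c = c) →
      ∃ (n : ℤ) (ω : (↥O)ˣ), c = (π : L) ^ ((e : ℤ) * n) * ((ω : ↥O) : L)) :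
    ∃ Wi : ↥E → ℤ,
      s44vw_IsW (ssl_VUnit (gq_valSubOf π hπ.ne_zero hπ.maximalIdeal_eq E hE))
        (algebraMap ↥O ↥E π) Wi ∧
      ∀ z : ↥E, z ≠ 0 → (∀ g : G, s44mg_act g (z : LaurentSeries L) = z) → (e : ℤ) ∣ Wi z := by
  have hLb : ∀ z ∈ E.toSubfield, gq_IsQuot ↥O L z := fun z hz => hE hz
  have hconst : ∀ a : L, algebraMap L (LaurentSeries L) a ∈ E.toSubfield :=
    fun a => E.algebraMap_mem a
  obtain ⟨W, hW⟩ := s44vw_exists (s44mv_unif O E.toSubfield hLb hconst hπ)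
  have hϖ : algebraMap ↥O ↥E π =
      (⟨algebraMap L (LaurentSeries L) (π : L), hconst _⟩ : ↥E.toSubfield) :=
    Subtype.ext (halg0 π)
  refine ⟨W, ?_, ?_⟩
  · rw [hϖ]
    exact hW
  · intro z hz0 hfix
    exact s44mv_W_dvd O E.toSubfield hLb hconst hstab hπ W hW hbase z hz0 hfix

/-- the Gauss valuation subring of `E` is stable under the coefficientwise action. -/
theorem s44glt_sigma_V {π : ↥O} (hπ : Irreducible π)
    {G : Type*} [Group G] [MulSemiringAction G L]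
    (hstab : ∀ (g : G) (x : L), x ∈ O → g • x ∈ O) (g : G) (x : ↥E)
    (hgx : s44mg_act g (x : LaurentSeries L) ∈ E) :
    x ∈ gq_valSubOf π hπ.ne_zero hπ.maximalIdeal_eq E hE ↔
      (⟨s44mg_act g (x : LaurentSeries L), hgx⟩ : ↥E) ∈
        gq_valSubOf π hπ.ne_zero hπ.maximalIdeal_eq E hE := by
  rw [gq_mem_valSubOf, gq_mem_valSubOf]
  constructor
  · exact s44mg_isBdd_act O hstab g
  · intro h
    have := s44mg_isBdd_act O hstab g⁻¹ h
    rwa [s44mv_act_inv_act] at this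

end GaussE

section Leg

variable (L : Type) [Field L] [NumberField L] [Algebra L (AlgebraicClosure ℚ)]
  (O : ValuationSubring L) [IsDiscreteValuationRing O] {π : O} (hπ : Irreducible π)
  (N' q : ℕ) [NeZero N'] [NeZero q] [hq : Fact q.Prime] [CharP (ResidueField O) q]
  (hq2 : ¬ 2 ∣ q) (hqN' : ¬ q ∣ N') (ζ : L) (hζ : IsPrimitiveRoot ζ N')

include hζ in
set_option synthInstance.maxHeartbeats 400000 in
set_option maxHeartbeats 1600000 in
/-- **THE TWO-NODE THEOREM AT THE LEGENDRE COVER, TRIVIAL KUMMER COVER.** -/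
theorem s44gl_pair_triv
    -- the inertia group
    {G : Type} [Group G] [Finite G] [MulSemiringAction G L]
    (hin : ∀ γ : G, ss_Inert O (MulSemiringAction.toRingEquiv G L γ))
    {e' : ℕ} {w : (↥O)ˣ} (hqe : ((q : ℕ) : ↥O) = π ^ e' * (w : ↥O))
    (hbase : ∀ c : L, c ≠ 0 → (∀ γ : G, γ • c = c) →
      ∃ (n : ℤ) (ω : (↥O)ˣ), c = (π : L) ^ ((e' : ℤ) * n) * (ω : L))
    -- the data
    {fv g Φ : ↥(lg_E L (N' * q))} {c : L} (hc0 : c ≠ 0) (hg : g ≠ 0)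
    (hΦ : Φ = algebraMap L ↥(lg_E L (N' * q)) c * fv * g ^ q)
    (hσΦ : ∀ γ : G, coeffMap ((MulSemiringAction.toRingEquiv G L γ : L ≃+* L) : L →+* L)
      (Φ : LaurentSeries L) = (Φ : LaurentSeries L))
    (hfv : fv ≠ 0) (hordV : ∀ P : Place L ↥(lg_E L (N' * q)), (q : ℤ) ∣ P.ord fv)
    (hRΦ : ∀ v : Place L ↥(lg_E L (N' * q)), v.ord Φ ≠ 0 → ss_RatPlace v)
    -- the two crossing points, with their uniform coordinates
    (𝔫 𝔫' : Ideal ↥(fc_chart ↥O ({lg_lamE (N' * q)} : Set ↥(lg_E L (N' * q)))))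
    [h𝔫 : 𝔫.IsMaximal] [h𝔫' : 𝔫'.IsMaximal]
    (h1 : ssm_tp_P (fc_chart ↥O ({lg_lamE (N' * q)} : Set ↥(lg_E L (N' * q))))
      (ssm_gl_V1 O hπ N' q) ≤ 𝔫)
    (h1' : ssm_tp_P (fc_chart ↥O ({lg_lamE (N' * q)} : Set ↥(lg_E L (N' * q))))
      (ssm_gl_V1 O hπ N' q) ≤ 𝔫')
    {u v u' v' : ↥(lg_E L (N' * q))}
    (hU : s44mu_NodeAtU π (fc_chart1_le (lg_lamE (N' * q) : ↥(lg_E L (N' * q))))
      (ssm_tp_P (fc_chart ↥O ({lg_lamE (N' * q), (lg_lamE (N' * q))⁻¹} :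
        Set ↥(lg_E L (N' * q)))) (ssm_gl_V1 O hπ N' q))
      (ssm_tp_P (fc_chart ↥O ({lg_lamE (N' * q), (lg_lamE (N' * q))⁻¹} :
        Set ↥(lg_E L (N' * q)))) (ssm_gl_V2 O hπ N' q hq2 hqN')) 𝔫 u v ((q : ℕ) : ↥O))
    (hU' : s44mu_NodeAtU π (fc_chart1_le (lg_lamE (N' * q) : ↥(lg_E L (N' * q))))
      (ssm_tp_P (fc_chart ↥O ({lg_lamE (N' * q), (lg_lamE (N' * q))⁻¹} :
        Set ↥(lg_E L (N' * q)))) (ssm_gl_V1 O hπ N' q))
      (ssm_tp_P (fc_chart ↥O ({lg_lamE (N' * q), (lg_lamE (N' * q))⁻¹} :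
        Set ↥(lg_E L (N' * q)))) (ssm_gl_V2 O hπ N' q hq2 hqN')) 𝔫' u' v' ((q : ℕ) : ↥O))
    (hσu : ∀ σ : L ≃+* L, ss_Inert O σ → ssm_sg_aut (N' * q) σ u = u)
    (hσu' : ∀ σ : L ≃+* L, ss_Inert O σ → ssm_sg_aut (N' * q) σ u' = u')
    (ν ν' : ↥(lg_E L (N' * q)) → ℤ) :
    haveI := s44mci_leg_isAlg L O (N' * q)
    haveI := s44mci_leg_noeth L O (N' * q)
    haveI := s44mci_leg_ic L O (N' * q)
    haveI := ssl_loc_isNoetherianRing (F0 := ↥(lg_E L (N' * q))) 𝔫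
    haveI := ssl_loc_isLocalRing (F0 := ↥(lg_E L (N' * q))) 𝔫
    haveI := ssl_loc_isNoetherianRing (F0 := ↥(lg_E L (N' * q))) 𝔫'
    haveI := ssl_loc_isLocalRing (F0 := ↥(lg_E L (N' * q))) 𝔫'
    ∀ (huS : u ∈ ssl_locSub ↥(lg_E L (N' * q)) 𝔫) (huS' : u' ∈ ssl_locSub ↥(lg_E L (N' * q)) 𝔫'),
    s44nu_IsNu
        (algebraMap ↥(fc_chart ↥O ({lg_lamE (N' * q)} : Set ↥(lg_E L (N' * q))))
          (ssl_locSub ↥(lg_E L (N' * q)) 𝔫)
          (algebraMap ↥O ↥(fc_chart ↥O ({lg_lamE (N' * q)} : Set ↥(lg_E L (N' * q)))) π))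
        (⟨u, huS⟩ : ssl_locSub ↥(lg_E L (N' * q)) 𝔫)
        (s44tl_br 𝔫 (fc_chart1_le (lg_lamE (N' * q) : ↥(lg_E L (N' * q))))
          (ssm_tp_P (fc_chart ↥O ({lg_lamE (N' * q), (lg_lamE (N' * q))⁻¹} :
            Set ↥(lg_E L (N' * q)))) (ssm_gl_V1 O hπ N' q))) ν →
    s44nu_IsNu
        (algebraMap ↥(fc_chart ↥O ({lg_lamE (N' * q)} : Set ↥(lg_E L (N' * q))))
          (ssl_locSub ↥(lg_E L (N' * q)) 𝔫')
          (algebraMap ↥O ↥(fc_chart ↥O ({lg_lamE (N' * q)} : Set ↥(lg_E L (N' * q)))) π))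
        (⟨u', huS'⟩ : ssl_locSub ↥(lg_E L (N' * q)) 𝔫')
        (s44tl_br 𝔫' (fc_chart1_le (lg_lamE (N' * q) : ↥(lg_E L (N' * q))))
          (ssm_tp_P (fc_chart ↥O ({lg_lamE (N' * q), (lg_lamE (N' * q))⁻¹} :
            Set ↥(lg_E L (N' * q)))) (ssm_gl_V1 O hπ N' q))) ν' →
    ν fv ≡ ν' fv [ZMOD (q : ℤ)] := by
  classical
  obtain ⟨hP1, hP2, hdvr, hϖ0, hrad, hξS, hξinv, hclear, hOB, hB12V1, hP1V, hB12V2, hP2V, hloc2⟩ :=
    s44mci_leg_chartBlock L O hπ N' q hq2 hqN' ζ hζ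
  haveI := hP1
  haveI := hP2
  haveI := hdvr
  haveI := s44mci_leg_isAlg L O (N' * q)
  haveI := s44mci_leg_noeth L O (N' * q)
  haveI := s44mci_leg_ic L O (N' * q)
  haveI := ssl_loc_isNoetherianRing (F0 := ↥(lg_E L (N' * q))) 𝔫
  haveI := ssl_loc_isLocalRing (F0 := ↥(lg_E L (N' * q))) 𝔫
  haveI := ssl_loc_isNoetherianRing (F0 := ↥(lg_E L (N' * q))) 𝔫'
  haveI := ssl_loc_isLocalRing (F0 := ↥(lg_E L (N' * q))) 𝔫'
  intro huS huS' hν hν'
  have hqO : ((q : ℕ) : O) ∈ maximalIdeal O := ssm_fln_q_mem L O q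
  have he' : e' ≠ 0 := by
    rintro rfl
    rw [pow_zero, one_mul] at hqe
    have hu : IsUnit ((q : ℕ) : ↥O) := hqe ▸ w.isUnit
    exact (IsLocalRing.mem_maximalIdeal _).1 hqO hu
  have hq0 : q ≠ 0 := NeZero.ne q
  have hae : Associated ((q : ℕ) : ↥O) (π ^ e') :=
    ⟨w⁻¹, by rw [hqe, mul_assoc, Units.mul_inv, mul_one]⟩
  have hπ𝔫 := s44mci_leg_pi_mem L O hπ N' q hq2 hqN' ζ hζ 𝔫 h1
  have hπ𝔫' := s44mci_leg_pi_mem L O hπ N' q hq2 hqN' ζ hζ 𝔫' h1'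
  have hvS := s44mci_mem_loc_of 𝔫 hU.2.2.1
  have hvS' := s44mci_mem_loc_of 𝔫' hU'.2.2.1
  have hstab : ∀ (γ : G) (x : L), x ∈ O → γ • x ∈ O := fun γ x hx => ssm_gs_mem (hin γ) hx
  obtain ⟨Wi, hWi, hWdvd⟩ := s44glt_exists_W O (lg_E L (N' * q)) (ssm_ga_E_le_quotField O (N' * q))
    hπ (fun a => rfl) hstab hbase
  -- the family
  have hσB : ∀ γ : G, ssl_SigmaB π
      (ssm_sg_aut (N' * q) (MulSemiringAction.toRingEquiv G L γ))
      (fc_chart ↥O ({lg_lamE (N' * q)} : Set ↥(lg_E L (N' * q)))) :=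
    fun γ => s44mx_sigmaB L O hπ N' q hq2 hqN' ζ hζ _ (hin γ)
  have hσ0 : ∀ (γ : G) (a : ↥O),
      ssm_sg_aut (N' * q) (MulSemiringAction.toRingEquiv G L γ)
          (algebraMap ↥O ↥(lg_E L (N' * q)) a) =
        algebraMap ↥O ↥(lg_E L (N' * q))
          (ssm_sg_base O (MulSemiringAction.toRingEquiv G L γ) (hin γ) a) :=
    fun γ a => ssm_sg_aut_base O (N' * q) _ (hin γ) a
  have hact : ∀ (γ : G) (z : LaurentSeries L),
      coeffMap ((MulSemiringAction.toRingEquiv G L γ : L ≃+* L) : L →+* L) z = s44mg_act γ z :=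
    fun γ z => coeffMap_congr (RingHom.ext fun a => rfl) z
  have hσV : ∀ (γ : G) (x : ↥(lg_E L (N' * q))),
      x ∈ ssm_gl_V1 O hπ N' q ↔
        ssm_sg_aut (N' * q) (MulSemiringAction.toRingEquiv G L γ) x ∈ ssm_gl_V1 O hπ N' q := by
    intro γ x
    have hgx : s44mg_act γ (x : LaurentSeries L) ∈ lg_E L (N' * q) := by
      rw [← hact]
      exact ssm_gs_coeffMap_mem_E (N' * q) _ x.2
    have h := s44glt_sigma_V O (lg_E L (N' * q)) (ssm_ga_E_le_quotField O (N' * q)) hπ hstab γ x hgx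
    have e : ssm_sg_aut (N' * q) (MulSemiringAction.toRingEquiv G L γ) x =
        (⟨s44mg_act γ (x : LaurentSeries L), hgx⟩ : ↥(lg_E L (N' * q))) :=
      Subtype.ext (hact γ _)
    rw [e]
    exact h
  have hbase' : s44pa_Base (K := L) (F := ↥(lg_E L (N' * q))) π e'
      (fun γ : G => ssm_sg_aut (N' * q) (MulSemiringAction.toRingEquiv G L γ)) := by
    intro c₀ hc₀ hfix
    refine hbase c₀ hc₀ fun γ => ?_
    have h := hfix γ
    rw [ssm_sg_aut_algebraMap] at h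
    exact (algebraMap L ↥(lg_E L (N' * q))).injective h
  have hΦ0 : Φ ≠ 0 := by
    rw [hΦ]
    refine mul_ne_zero (mul_ne_zero ?_ hfv) (pow_ne_zero _ hg)
    rw [Ne, map_eq_zero]
    exact hc0
  have hσΦ' : ∀ γ : G, ssm_sg_aut (N' * q) (MulSemiringAction.toRingEquiv G L γ) Φ = Φ :=
    fun γ => Subtype.ext (hσΦ γ)
  have hWiΦ : (e' : ℤ) ∣ Wi Φ := hWdvd Φ hΦ0 fun γ => by rw [← hact]; exact hσΦ γ
  exact s44gt_pair (K := L) 𝔫 𝔫' (fc_chart1_le _) hπ hπ𝔫 hπ𝔫' hϖ0 hrad hξS hξinv hclear hU huS hvS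
    hU' huS' hvS' he' hq0 hae hae (ssm_gl_V1 O hπ N' q) hB12V1 hP1V Wi hWi
    (ssm_gl_V2 O hπ N' q hq2 hqN') hB12V2 hP2V hloc2
    (fun γ : G => ssm_sg_aut (N' * q) (MulSemiringAction.toRingEquiv G L γ))
    (fun γ : G => ssm_sg_base O (MulSemiringAction.toRingEquiv G L γ) (hin γ))
    hσB hσ0 (fun γ => hσu _ (hin γ)) (fun γ => hσu' _ (hin γ)) hσV hbase' hfv hordV hc0 hg hΦ hRΦ
    hσΦ' hWiΦ ν ν' hν hν'

end Leg

end Fermat.Agent.S44

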