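/-
Project S44 (Mazur–Ribet at `p`), cell [H2] MONO-MAIN, Layer 3 (helper4).  Prefix `s44h2_`.

Small auxiliary statements for `Mono/Main.lean`:

* `s44h2_pack_restrict` : the Kummer package `s44kq_Pack` over a group `G₁` restricts along any map
  `ρ : G₂ → G₁` compatible with the actions (in use: `G₂ = Γ|L' ≤ G₁ = H|L'`).
* `s44h2_pack_sub`      : the same for two subgroups `Γ' ≤ G'` of `Gal(L'/ℚ)` acting coefficientwise
  on `L'((q))`.
-/
import Mathlib
import Fermat.Agent.S44.Mono.KummerQ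
import Fermat.Agent.S44.Mono.KummerQL

set_option autoImplicit false
set_option linter.unusedSectionVars false
set_option linter.style.haveILetI false
set_option linter.unusedVariables false

noncomputable section

namespace Fermat.Agent.S44

open Polynomial ModularCurve

section Restrict

variable {Ω : Type*} [Field Ω] {G₁ G₂ : Type*} [Group G₁] [Group G₂]
  [MulSemiringAction G₁ Ω] [MulSemiringAction G₂ Ω]

/-- **restriction of the Kummer package** along a map of groups compatible with the actions. -/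
theorem s44h2_pack_restrict (ρ : G₂ → G₁) (hρ : ∀ (σ : G₂) (z : Ω), σ • z = ρ σ • z)
    {E : Subfield Ω} {p : ℕ} {ζ y fv β : Ω} {lc : Ω →*₀ Ω} {Lb : Subfield Ω} {τ : ↥Lb ≃+* ↥Lb}
    {c : Ω} {g Φ h : ↥Lb}
    (P : s44kq_Pack (G := G₁) E p ζ y fv β lc Lb τ c g Φ h) :
    s44kq_Pack (G := G₂) E p ζ y fv β lc Lb τ c g Φ h where
  le := P.le
  y_mem := P.y_mem
  gen := P.gen
  stable := fun σ z hz => by rw [hρ]; exact P.stable (ρ σ) z hz
  τ_E := P.τ_E
  τ_y := P.τ_y
  τ_smul := fun σ z hz => by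
    have hz' : ρ σ • (z : Ω) ∈ Lb := by rw [← hρ]; exact hz
    have h1 : (⟨σ • (z : Ω), hz⟩ : ↥Lb) = ⟨ρ σ • (z : Ω), hz'⟩ := Subtype.ext (hρ σ _)
    rw [h1, hρ]
    exact P.τ_smul (ρ σ) z hz'
  τ_fixed := P.τ_fixed
  τ_pow := P.τ_pow
  g_ne := P.g_ne
  c_ne := P.c_ne
  c_lc := P.c_lc
  Φ_eq := P.Φ_eq
  h_eq := P.h_eq
  Φ_fix := fun σ => by rw [hρ]; exact P.Φ_fix (ρ σ)
  h_fix := fun σ => by rw [hρ]; exact P.h_fix (ρ σ)
  rel := P.rel

end Restrict

section Sub

variable {K L : Type*} [Field K] [Field L] [Algebra K L]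

attribute [local instance] s44kq_lsAction

/-- **restriction of the Kummer package to a smaller subgroup of `Gal(L/K)`** (coefficientwise
action on `L((q))`). -/
theorem s44h2_pack_sub {G' Γ' : Subgroup (L ≃ₐ[K] L)} (hle : Γ' ≤ G')
    {E : Subfield (LaurentSeries L)} {p : ℕ} {ζ y fv β : LaurentSeries L}
    {lc : LaurentSeries L →*₀ LaurentSeries L} {Lb : Subfield (LaurentSeries L)}
    {τ : ↥Lb ≃+* ↥Lb} {c : LaurentSeries L} {g Φ h : ↥Lb}
    (P : s44kq_Pack (G := ↥G') E p ζ y fv β lc Lb τ c g Φ h) :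
    s44kq_Pack (G := ↥Γ') E p ζ y fv β lc Lb τ c g Φ h :=
  s44h2_pack_restrict (Subgroup.inclusion hle) (fun _ _ => rfl) P

end Sub

end Fermat.Agent.S44
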