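/-
Project S44 (Mazur–Ribet at `p`), cell [H2] MONO-MAIN, Layer 3 (helper4).  Prefix `s44h2_`.

THE INTERFACE (ND-SS) BETWEEN [H2-N] (node dictionary + uniform node + unit computation) AND
`Mono/Main.lean`: for a supersingular place `Q` of `FF_M / kA`, over every large number field `L1`
there is a crossing point `𝔫` of the `λ`-chart with uniform coordinates `(u, v)`, `u` fixed by every
inert automorphism, a normalised order `ν` at `𝔫` along the `∞`-branch and a multiplier `T` with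
`ν (φ b) = T · ord_Q (red b)` on Gauss units and `T · ord_Q ū = 12`.
-/
import Mathlib
import Fermat.Agent.S44.Mono.NodeLegRed
import Fermat.Agent.S44.Mono.UNodeAbs
import Fermat.Agent.S44.Mono.NuDef
import Fermat.Agent.S44.Mono.CILeg
import Fermat.Agent.S44.Res.Ubar

set_option autoImplicit false
set_option linter.unusedSectionVars false
set_option linter.style.haveILetI false
set_option linter.unusedVariables false

noncomputable section

namespace Fermat.Agent.S44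

open Polynomial ModularCurve AlgebraicCurve IntermediateField IsLocalRing
open Fermat.Agent.JT3 Fermat.Agent.SS Fermat.Agent.S35 Fermat.Agent.S24

local notation "Qb" => AlgebraicClosure ℚ

section ND

set_option synthInstance.maxHeartbeats 400000

variable (A : ValuationSubring Qb) {p : ℕ} [hp : Fact p.Prime] (hA : A.LiesOverPrime p)
  (M : ℕ) [NeZero M] [NeZero p] [NeZero (M * p)] (hpM : ¬ p ∣ M) (hp2 : ¬ 2 ∣ p)

/-- **(ND-SS) at one number field** `L1`, for a place `Q` of `FF_M / kA`: the supersingular node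
package. -/
def s44h2_NDAt (Q : Place (s44e_kA A) (s44e_FF A M)) (L1 : IntermediateField ℚ Qb)
    [NumberField ↥L1] [IsDiscreteValuationRing ↥(A.comap (algebraMap L1 Qb))]
    [CharP (ResidueField ↥(A.comap (algebraMap L1 Qb))) p]
    {π : ↥(A.comap (algebraMap L1 Qb))} (hπ : Irreducible π) : Prop :=
  ∃ (𝔫 : Ideal ↥(fc_chart ↥(A.comap (algebraMap L1 Qb))
        ({lg_lamE (M * p)} : Set ↥(lg_E L1 (M * p)))))
    (h𝔫 : 𝔫.IsMaximal) (u v : ↥(lg_E L1 (M * p))) (T : ℤ) (ν : ↥(lg_E L1 (M * p)) → ℤ),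
    haveI := s44mci_leg_isAlg L1 (A.comap (algebraMap L1 Qb)) (M * p)
    haveI := s44mci_leg_noeth L1 (A.comap (algebraMap L1 Qb)) (M * p)
    haveI := s44mci_leg_ic L1 (A.comap (algebraMap L1 Qb)) (M * p)
    haveI := ssl_loc_isNoetherianRing (F0 := ↥(lg_E L1 (M * p))) 𝔫
    haveI := ssl_loc_isLocalRing (F0 := ↥(lg_E L1 (M * p))) 𝔫
    ssm_tp_P (fc_chart ↥(A.comap (algebraMap L1 Qb))
        ({lg_lamE (M * p)} : Set ↥(lg_E L1 (M * p))))
      (ssm_gl_V1 (A.comap (algebraMap L1 Qb)) hπ M p) ≤ 𝔫 ∧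
    s44mu_NodeAtU π (fc_chart1_le (lg_lamE (M * p) : ↥(lg_E L1 (M * p))))
      (ssm_tp_P (fc_chart ↥(A.comap (algebraMap L1 Qb))
        ({lg_lamE (M * p), (lg_lamE (M * p))⁻¹} : Set ↥(lg_E L1 (M * p))))
        (ssm_gl_V1 (A.comap (algebraMap L1 Qb)) hπ M p))
      (ssm_tp_P (fc_chart ↥(A.comap (algebraMap L1 Qb))
        ({lg_lamE (M * p), (lg_lamE (M * p))⁻¹} : Set ↥(lg_E L1 (M * p))))
        (ssm_gl_V2 (A.comap (algebraMap L1 Qb)) hπ M p hp2 hpM)) 𝔫 u v
      ((p : ℕ) : ↥(A.comap (algebraMap L1 Qb))) ∧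
    (∀ σ : ↥L1 ≃+* ↥L1, ss_Inert (A.comap (algebraMap L1 Qb)) σ →
      ssm_sg_aut (M * p) σ u = u) ∧
    (∃ huS : u ∈ ssl_locSub ↥(lg_E L1 (M * p)) 𝔫,
      s44nu_IsNu
        (algebraMap ↥(fc_chart ↥(A.comap (algebraMap L1 Qb))
            ({lg_lamE (M * p)} : Set ↥(lg_E L1 (M * p))))
          (ssl_locSub ↥(lg_E L1 (M * p)) 𝔫)
          (algebraMap ↥(A.comap (algebraMap L1 Qb))
            ↥(fc_chart ↥(A.comap (algebraMap L1 Qb))
              ({lg_lamE (M * p)} : Set ↥(lg_E L1 (M * p)))) π))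
        (⟨u, huS⟩ : ssl_locSub ↥(lg_E L1 (M * p)) 𝔫)
        (s44tl_br 𝔫 (fc_chart1_le (lg_lamE (M * p) : ↥(lg_E L1 (M * p))))
          (ssm_tp_P (fc_chart ↥(A.comap (algebraMap L1 Qb))
            ({lg_lamE (M * p), (lg_lamE (M * p))⁻¹} : Set ↥(lg_E L1 (M * p))))
            (ssm_gl_V1 (A.comap (algebraMap L1 Qb)) hπ M p))) ν) ∧
    (∀ b : ↥(s44mz_VF (A.comap (algebraMap L1 Qb)) hπ M p), IsUnit b →
      ν (lg_phiE (L := L1) (N := M * p) (b : ↥(lg_F L1 (M * p)))) =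
        T * Q.ord (s44nlr_red A hA M hpM L1 hπ b)) ∧
    T * Q.ord (s44e_ubar A M p) = 12

/-- **(ND-SS)**: the supersingular node package over every large number field. -/
def s44h2_NDSS (Q : Place (s44e_kA A) (s44e_FF A M)) : Prop :=
  ∃ T₀ : Finset Qb, ∀ (L1 : IntermediateField ℚ Qb) [NumberField ↥L1]
    [IsDiscreteValuationRing ↥(A.comap (algebraMap L1 Qb))]
    [CharP (ResidueField ↥(A.comap (algebraMap L1 Qb))) p],
    (↑T₀ : Set Qb) ⊆ L1 →
    ∀ {π : ↥(A.comap (algebraMap L1 Qb))} (hπ : Irreducible π),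
      s44h2_NDAt A hA M hpM hp2 Q L1 hπ

end ND

end Fermat.Agent.S44
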