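/-
Project S44 (Mazur–Ribet at `p`), ruling R5, cell (U-DIV) — the `¬ IsSS` half needs (NODE⟹SS)
(helper15; prefix `s44mzc_`): THE EASY CONVERSE OF helper1's `s44mz_P2_le_chart` (`Mono/Centre.lean`).

Same setting: `O ⊆ L` a DVR of odd residue characteristic `q ∤ N'`, `E = lg_E L (N' q)`,
`V₁ = ssm_gl_V1`, `V₂ = ssm_gl_V2`, `φ = lg_phiE`, `B = fc_chart O {λ}` the `λ`-chart, `S = fc_chart O {j₂}`
the Legendre `j`-chart, `𝒱` a valuation subring of `E` containing `O` and `j₂`.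

* `s44mzc_S_nonunits` : if the centre of `𝒱` on `B` lies on the `0`-component (`P₂ ∩ B ⊆ 𝔫(𝒱)`) then every
  function on the Legendre `j`-chart vanishing on the `0`-component vanishes at `𝒱`
  (`S ∩ 𝔪(V₂) ⊆ 𝔪(𝒱)`): clear the denominator `t = λ² − λ` (`s44mz_clear`), `t⁻¹ ∈ S ⊆ 𝒱`;
* `s44mzc_ss_of_P2_le` : hence `𝒱` is supersingular in the number-field form of `s44e_IsSS` (the
  hypothesis `hSS` of `s44mz_P2_le_chart` / `s44mz_centre`), as a CONCLUSION;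
* `s44mzc_P2_le_iff`   : `P₂ ∩ B ⊆ 𝔫(𝒱)` **iff** `𝒱` is supersingular.
-/
import Mathlib
import Fermat.Agent.S44.Mono.Centre

set_option autoImplicit false
set_option linter.unusedSectionVars false
set_option linter.style.haveILetI false
set_option linter.unusedVariables false

noncomputable section

namespace Fermat.Agent.S44

open Polynomial ModularCurve IntermediateField IsLocalRing
open Fermat.Agent.JT3 Fermat.Agent.SS Fermat.Agent.S35

section Conv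

variable {L : Type*} [Field L] [CharZero L] [Algebra L (AlgebraicClosure ℚ)]
  (O : ValuationSubring L) [IsDiscreteValuationRing O] {π : O} (hπ : Irreducible π)
variable (N' q : ℕ) [NeZero N'] [NeZero q] [hq : Fact q.Prime] [CharP (ResidueField O) q]
  (hq2 : ¬ 2 ∣ q) (hqN' : ¬ q ∣ N')

set_option maxHeartbeats 1600000 in
set_option synthInstance.maxHeartbeats 200000 in
/-- if the centre of `𝒱` on the `λ`-chart lies on the `0`-component, every function on the Legendre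
`j`-chart vanishing on the `0`-component vanishes at `𝒱`. -/
theorem s44mzc_S_nonunits
    (hprime : Prime (algebraMap ↥O (fc_chart ↥O ({lg_lamE N'} : Set ↥(lg_E L N'))) π))
    (𝒱 : ValuationSubring ↥(lg_E L (N' * q)))
    (hO𝒱 : ∀ a : O, algebraMap ↥O ↥(lg_E L (N' * q)) a ∈ 𝒱)
    (hj : s44mz_j2E L (N' * q) ∈ 𝒱)
    (hnode : ssm_tp_P (fc_chart ↥O ({lg_lamE (N' * q)} : Set ↥(lg_E L (N' * q))))
        (ssm_gl_V2 O hπ N' q hq2 hqN') ≤
      ssm_tp_P (fc_chart ↥O ({lg_lamE (N' * q)} : Set ↥(lg_E L (N' * q)))) 𝒱) :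
    ∀ t ∈ fc_chart ↥O ({s44mz_j2E L (N' * q)} : Set ↥(lg_E L (N' * q))),
      t ∈ (ssm_gl_V2 O hπ N' q hq2 hqN').nonunits → t ∈ 𝒱.nonunits := by
  intro x hxS hx2
  haveI := ssm_go_isScalarTower O (lg_E L (N' * q))
  have hx : Transcendental L (lg_lamE (L := L) (N' * q)) :=
    lgf_lam_transcendental L (N' * q) two_ne_zero
  have hyA : Transcendental ↥O (lg_lamE (L := L) (N' * q)) := fc_ff_transcendental (L := L) hx
  haveI : IsIntegrallyClosed (Algebra.adjoin ↥O ({lg_lamE (N' * q)} : Set ↥(lg_E L (N' * q)))) :=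
    fc_ff_isIntegrallyClosed hyA
  haveI : FaithfulSMul (Algebra.adjoin ↥O ({lg_lamE (N' * q)} : Set ↥(lg_E L (N' * q))))
      ↥(lg_E L (N' * q)) :=
    (faithfulSMul_iff_algebraMap_injective _ _).2 Subtype.val_injective
  have H := ssm_gl_hyp O hπ N' q hq2 hqN' hprime
  have hC := ssm_tp_ff_chart (L := L) hπ hx
  obtain ⟨u, hu⟩ := s44mz_exists_u O q hq2
  have hleg := s44mz_legE L (N' * q)
  have hle := s44mz_B_le_S O q hq2 (N' * q)
  have hS𝒱 := s44mz_S_le O (N' * q) 𝒱 hO𝒱 hj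
  have hB𝒱 : ∀ b ∈ fc_chart ↥O ({lg_lamE (N' * q)} : Set ↥(lg_E L (N' * q))), b ∈ 𝒱 :=
    fun b hb => hS𝒱 b (hle hb)
  -- `t = λ² − λ ≠ 0`
  have ht0 : (lg_lamE (N' * q) : ↥(lg_E L (N' * q))) ^ 2 - lg_lamE (N' * q) ≠ 0 := by
    intro h0
    apply hx
    refine ⟨X ^ 2 - X, ?_, by simpa using h0⟩
    intro h
    have := congrArg (fun P : L[X] => P.coeff 2) h
    simp [coeff_X] at this
  set t : ↥(lg_E L (N' * q)) := (lg_lamE (N' * q) : ↥(lg_E L (N' * q))) ^ 2 - lg_lamE (N' * q)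
    with ht
  -- `t ∈ B`, `t⁻¹ ∈ S ⊆ 𝒱`
  have hlamB : (lg_lamE (N' * q) : ↥(lg_E L (N' * q))) ∈
      fc_chart ↥O ({lg_lamE (N' * q)} : Set ↥(lg_E L (N' * q))) := fc_x_mem_chart _
  have htB : t ∈ fc_chart ↥O ({lg_lamE (N' * q)} : Set ↥(lg_E L (N' * q))) :=
    sub_mem (pow_mem hlamB 2) hlamB
  have htinvS : t⁻¹ ∈ fc_chart ↥O ({s44mz_j2E L (N' * q)} : Set ↥(lg_E L (N' * q))) :=
    fc_mem_chart.2 (s44mz_tinv_integral u hu hleg ht0)
  have htinv𝒱 : t⁻¹ ∈ 𝒱 := hS𝒱 _ htinvS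
  -- clear the denominator
  obtain ⟨k, hk⟩ := s44mz_clear (A0 := ↥O) hleg hxS
  have hB2 : ∀ b ∈ fc_chart ↥O ({lg_lamE (N' * q)} : Set ↥(lg_E L (N' * q))),
      b ∈ ssm_gl_V2 O hπ N' q hq2 hqN' := fun _ hb => hC.le H.over2 hb
  have h1 : t ^ k * x ∈ (ssm_gl_V2 O hπ N' q hq2 hqN').nonunits := by
    have h0 : x * t ^ k ∈ (ssm_gl_V2 O hπ N' q hq2 hqN').nonunits :=
      ssm_tp_nonunits_mul _ hx2 (pow_mem (hB2 t htB) k)
    have e : t ^ k * x = x * t ^ k := mul_comm (t ^ k) x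
    rw [e]
    exact h0
  have h2 : (⟨t ^ k * x, hk⟩ : ↥(fc_chart ↥O ({lg_lamE (N' * q)} : Set ↥(lg_E L (N' * q))))) ∈
      ssm_tp_P (fc_chart ↥O ({lg_lamE (N' * q)} : Set ↥(lg_E L (N' * q))))
        (ssm_gl_V2 O hπ N' q hq2 hqN') := by
    rw [H.mem_P2 hC]
    exact h1
  have h3 := (ssm_tp_mem_P hB𝒱).1 (hnode h2)
  have h4 : t ^ k * x ∈ 𝒱.nonunits := h3
  have h5 : t ^ k * x * (t⁻¹) ^ k ∈ 𝒱.nonunits :=
    ssm_tp_nonunits_mul _ h4 (pow_mem htinv𝒱 k)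
  have h6 : t ^ k * x * (t⁻¹) ^ k = x := by
    rw [inv_pow]
    field_simp
  rwa [h6] at h5

set_option maxHeartbeats 1600000 in
set_option synthInstance.maxHeartbeats 200000 in
/-- **(NODE⟹SS), valuation form**: if the centre of `𝒱` on the `λ`-chart lies on the `0`-component,
then `𝒱` is supersingular: every function `b` on the base `j`-chart whose Atkin–Lehner transform
`W b` has Gauss residue `0` satisfies `φ b ∈ 𝔪(𝒱)`. -/
theorem s44mzc_ss_of_P2_le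
    (hprime : Prime (algebraMap ↥O (fc_chart ↥O ({lg_lamE N'} : Set ↥(lg_E L N'))) π))
    (𝒱 : ValuationSubring ↥(lg_E L (N' * q)))
    (hO𝒱 : ∀ a : O, algebraMap ↥O ↥(lg_E L (N' * q)) a ∈ 𝒱)
    (hj : s44mz_j2E L (N' * q) ∈ 𝒱)
    (hnode : ssm_tp_P (fc_chart ↥O ({lg_lamE (N' * q)} : Set ↥(lg_E L (N' * q))))
        (ssm_gl_V2 O hπ N' q hq2 hqN') ≤
      ssm_tp_P (fc_chart ↥O ({lg_lamE (N' * q)} : Set ↥(lg_E L (N' * q)))) 𝒱) :
    ∀ b : ↥(lg_F L (N' * q)),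
      b ∈ fc_chart ↥O ({rpz_jF L (N' * q)} : Set ↥(lg_F L (N' * q))) →
      ssm_al_W L N' q hq.out hqN' b ∈ (s44mz_VF O hπ N' q).nonunits →
      lg_phiE (L := L) (N := N' * q) b ∈ 𝒱.nonunits := by
  intro b hb hW
  refine s44mzc_S_nonunits O hπ N' q hq2 hqN' hprime 𝒱 hO𝒱 hj hnode _ ?_ ?_
  · exact (s44mz_phi_mem_iff O (N' * q) b).2 hb
  · exact (s44mz_phi_nonunits2_iff O hπ N' q hq2 hqN' b).2 hW

set_option maxHeartbeats 1600000 in
set_option synthInstance.maxHeartbeats 200000 in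
/-- the centre of `𝒱` lies on the `0`-component **iff** `𝒱` is supersingular. -/
theorem s44mzc_P2_le_iff
    (hprime : Prime (algebraMap ↥O (fc_chart ↥O ({lg_lamE N'} : Set ↥(lg_E L N'))) π))
    (𝒱 : ValuationSubring ↥(lg_E L (N' * q)))
    (hO𝒱 : ∀ a : O, algebraMap ↥O ↥(lg_E L (N' * q)) a ∈ 𝒱)
    (hj : s44mz_j2E L (N' * q) ∈ 𝒱) :
    ssm_tp_P (fc_chart ↥O ({lg_lamE (N' * q)} : Set ↥(lg_E L (N' * q))))
        (ssm_gl_V2 O hπ N' q hq2 hqN') ≤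
      ssm_tp_P (fc_chart ↥O ({lg_lamE (N' * q)} : Set ↥(lg_E L (N' * q)))) 𝒱 ↔
    ∀ b : ↥(lg_F L (N' * q)),
      b ∈ fc_chart ↥O ({rpz_jF L (N' * q)} : Set ↥(lg_F L (N' * q))) →
      ssm_al_W L N' q hq.out hqN' b ∈ (s44mz_VF O hπ N' q).nonunits →
      lg_phiE (L := L) (N := N' * q) b ∈ 𝒱.nonunits :=
  ⟨s44mzc_ss_of_P2_le O hπ N' q hq2 hqN' hprime 𝒱 hO𝒱 hj,
    s44mz_P2_le_chart O hπ N' q hq2 hqN' hprime 𝒱 hO𝒱 hj⟩

end Conv

end Fermat.Agent.S44
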