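/-
Project S44 (Mazur–Ribet at `p`), cell [H2] MONO-MAIN, glue for Layer 3 (helper26).
Prefix `s44mm_`.  Namespace `Fermat.Agent.S44`.

Binders = those of `Res/UDivDich.lean`: `L1 ⊆ Q̄`, `O1 = A ∩ L1` a DVR with uniformiser `π`,
`W1 = s44mz_VF O1 hπ M p` the Gauss ring of `lg_F L1 (M p)`, `ιF = ssm_al_iotaF L1 (M p)`.

* `s44mm_mem_VF_iff`    : `x ∈ W1 ↔ ιF x ∈ s44pg_W A …`  (the Gauss ring over `Q̄` cut out over `L1`);
* `s44mm_isUnit_of_iota`: a model of a Gauss unit of `F̄` is a unit of `W1`;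
* `s44mm_exists_norm`   : every `x ≠ 0` becomes a unit of `W1` after multiplication by a power of `π`;
* `s44mm_rep_const`, `s44mm_rep_norm` : multiplying a model of a representing function by a constant
                          (a power of `π`) gives a representing function of the same class;
* `s44mm_nu_norm`, `s44mm_nu_phi_norm` : a normalised order `ν` (`s44nu_IsNu` with `lam = π`) does not
                          see the powers of `π`: `ν (φ (π ^ n * x)) = ν (φ x)`.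
-/
import Mathlib
import Fermat.Agent.S44.Res.UDivDich
import Fermat.Agent.S44.Mono.GaussSheet
import Fermat.Agent.S44.Mono.NuDef
import Fermat.Agent.S44.Bridge.Rep

set_option autoImplicit false
set_option linter.unusedSectionVars false
set_option linter.style.haveILetI false
set_option linter.unusedVariables false

noncomputable section

namespace Fermat.Agent.S44

open Polynomial ModularCurve AlgebraicCurve IntermediateField IsLocalRing
open Fermat.Agent.JT3 Fermat.Agent.SS Fermat.Agent.S35 Fermat.Agent.S24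

/-! ### normalised orders do not see the uniformiser -/

section Nu

variable {R : Type*} [CommRing R] [IsDomain R] [IsLocalRing R] [IsNoetherianRing R]
  {F : Type*} [Field F] [Algebra R F] [IsFractionRing R F]

/-- `ν (lam ^ n * y) = ν y`. -/
theorem s44mm_nu_norm {lam u : R} {P₂ : Ideal R} {ν : F → ℤ} (h : s44nu_IsNu lam u P₂ ν)
    {c : F} (hc : c = algebraMap R F lam) (hc0 : c ≠ 0) (n : ℤ) {y : F} (hy : y ≠ 0) :
    ν (c ^ n * y) = ν y := by
  rw [h.add _ _ (zpow_ne_zero n hc0) hy, h.add.map_zpow c n hc0, hc, h.lam, mul_zero, zero_add]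

end Nu

section Norm

set_option synthInstance.maxHeartbeats 400000

variable (A : ValuationSubring s44_Qb) {p : ℕ} [hp : Fact p.Prime] (hA : A.LiesOverPrime p)
  (M : ℕ) [NeZero M] [NeZero p] [NeZero (M * p)] (hpM : ¬ p ∣ M)
  (L1 : IntermediateField ℚ s44_Qb)
  [IsDiscreteValuationRing ↥(A.comap (algebraMap L1 s44_Qb))]
  [CharP (ResidueField ↥(A.comap (algebraMap L1 s44_Qb))) p]
  {π : ↥(A.comap (algebraMap L1 s44_Qb))} (hπ : Irreducible π)

set_option hygiene false in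
local notation "O1" => ValuationSubring.comap A (algebraMap L1 s44_Qb)

/-- **the Gauss ring over `Q̄` cut out over `L1`.** -/
theorem s44mm_mem_VF_iff (x : ↥(lg_F L1 (M * p))) :
    x ∈ s44mz_VF O1 hπ M p ↔
      ssm_al_iotaF L1 (M * p) x ∈ s44pg_W A hA hp.out.ne_zero (M * p) := by
  have hq : gq_IsQuot ↥O1 L1 (x : LaurentSeries L1) := rdn_gf_le_quotField O1 (M * p) x.2
  have h := ssm_gb_isBdd_iff (algebraMap L1 s44_Qb) O1 A (fun _ => Iff.rfl) π hπ.ne_zero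
    hπ.maximalIdeal_eq hq
  exact h.symm

/-- a model of a Gauss unit of `F̄` is a unit of `W1`. -/
theorem s44mm_isUnit_of_iota (x : ↥(lg_F L1 (M * p))) (hx0 : x ≠ 0)
    (h : ssm_al_iotaF L1 (M * p) x ∈ s44pg_W A hA hp.out.ne_zero (M * p))
    (hi : (ssm_al_iotaF L1 (M * p) x)⁻¹ ∈ s44pg_W A hA hp.out.ne_zero (M * p)) :
    ∃ hx : x ∈ s44mz_VF O1 hπ M p, IsUnit (⟨x, hx⟩ : ↥(s44mz_VF O1 hπ M p)) := by
  have hx : x ∈ s44mz_VF O1 hπ M p := (s44mm_mem_VF_iff A hA M L1 hπ x).2 h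
  have hxi : x⁻¹ ∈ s44mz_VF O1 hπ M p := by
    rw [s44mm_mem_VF_iff A hA M L1 hπ, map_inv₀]
    exact hi
  exact ⟨hx, isUnit_iff_exists_inv.2 ⟨⟨x⁻¹, hxi⟩, Subtype.ext (mul_inv_cancel₀ hx0)⟩⟩

/-- a unit of `W1` is a Gauss unit of `F̄`. -/
theorem s44mm_iota_of_isUnit {x : ↥(s44mz_VF O1 hπ M p)} (hx : IsUnit x) :
    ssm_al_iotaF L1 (M * p) (x : ↥(lg_F L1 (M * p))) ∈ s44pg_W A hA hp.out.ne_zero (M * p) ∧
    (ssm_al_iotaF L1 (M * p) (x : ↥(lg_F L1 (M * p))))⁻¹ ∈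
      s44pg_W A hA hp.out.ne_zero (M * p) := by
  refine ⟨(s44mm_mem_VF_iff A hA M L1 hπ _).1 x.2, ?_⟩
  obtain ⟨y, hy⟩ := isUnit_iff_exists_inv.1 hx
  have h1 : (x : ↥(lg_F L1 (M * p))) * (y : ↥(lg_F L1 (M * p))) = 1 := congrArg Subtype.val hy
  have h2 : ((x : ↥(lg_F L1 (M * p))))⁻¹ = (y : ↥(lg_F L1 (M * p))) :=
    (eq_inv_of_mul_eq_one_right h1).symm
  rw [← map_inv₀, h2]
  exact (s44mm_mem_VF_iff A hA M L1 hπ _).1 y.2

/-- **Gauss normalisation over `L1`**: every `x ≠ 0` is a power of `π` times a unit of `W1`. -/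
theorem s44mm_exists_norm (x : ↥(lg_F L1 (M * p))) (hx0 : x ≠ 0) :
    ∃ (n : ℤ) (h : algebraMap L1 ↥(lg_F L1 (M * p)) ((π : ↥O1) : L1) ^ n * x ∈
        s44mz_VF O1 hπ M p),
      IsUnit (⟨_, h⟩ : ↥(s44mz_VF O1 hπ M p)) := by
  have hq : gq_IsQuot ↥O1 L1 (x : LaurentSeries L1) := rdn_gf_le_quotField O1 (M * p) x.2
  have hx0' : (x : LaurentSeries L1) ≠ 0 := fun h => hx0 (Subtype.ext h)
  obtain ⟨n, h1, h2⟩ := s44mv_exists_zpow O1 hπ hq hx0'
  have hπL : ((π : ↥O1) : L1) ≠ 0 := fun h => hπ.ne_zero (Subtype.ext h)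
  have hc0 : algebraMap L1 ↥(lg_F L1 (M * p)) ((π : ↥O1) : L1) ≠ 0 :=
    (_root_.map_ne_zero _).2 hπL
  obtain ⟨y, hy⟩ : ∃ y : ↥(lg_F L1 (M * p)),
      y = algebraMap L1 ↥(lg_F L1 (M * p)) ((π : ↥O1) : L1) ^ (-n) * x := ⟨_, rfl⟩
  have hycoe : (lg_F L1 (M * p)).val y =
      (x : LaurentSeries L1) / algebraMap L1 (LaurentSeries L1) ((π : ↥O1) : L1) ^ n := by
    have e : (lg_F L1 (M * p)).val y =
        (lg_F L1 (M * p)).val (algebraMap L1 ↥(lg_F L1 (M * p)) ((π : ↥O1) : L1)) ^ (-n) *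
          (lg_F L1 (M * p)).val x := by
      rw [hy, map_mul, map_zpow₀]
    rw [AlgHom.commutes, zpow_neg, ← div_eq_inv_mul] at e
    exact e
  have hycoei : (lg_F L1 (M * p)).val y⁻¹ =
      ((x : LaurentSeries L1) / algebraMap L1 (LaurentSeries L1) ((π : ↥O1) : L1) ^ n)⁻¹ := by
    rw [map_inv₀, hycoe]
  have hy0 : y ≠ 0 := by
    rw [hy]
    exact mul_ne_zero (zpow_ne_zero _ hc0) hx0
  have hyW : y ∈ s44mz_VF O1 hπ M p := by
    have : gq_IsBdd ↥O1 L1 ((lg_F L1 (M * p)).val y) := by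
      rw [hycoe]
      exact h1
    exact this
  have hyiW : y⁻¹ ∈ s44mz_VF O1 hπ M p := by
    have : gq_IsBdd ↥O1 L1 ((lg_F L1 (M * p)).val y⁻¹) := by
      rw [hycoei]
      exact h2
    exact this
  refine ⟨-n, hy ▸ hyW, ?_⟩
  subst hy
  exact isUnit_iff_exists_inv.2 ⟨⟨_, hyiW⟩, Subtype.ext (mul_inv_cancel₀ hy0)⟩

/-- multiplying a model of a representing function by a nonzero constant of `L1`. -/
theorem s44mm_rep_const {z : JZero (M * p)} {x : ↥(lg_F L1 (M * p))} {c : ↥L1} (hc : c ≠ 0)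
    (hrep : s44f_Rep (M * p) p z (ssm_al_iotaF L1 (M * p) x)) :
    s44f_Rep (M * p) p z (ssm_al_iotaF L1 (M * p) (algebraMap L1 ↥(lg_F L1 (M * p)) c * x)) := by
  have hc' : algebraMap L1 s44_Qb c ≠ 0 := (_root_.map_ne_zero _).2 hc
  have h := (s44b_rep_pth (M * p) (p := p) (z := z) (f := ssm_al_iotaF L1 (M * p) x)
    (c := algebraMap L1 s44_Qb c) (h := (1 : modularFunctionFieldBar (M * p))) hc'
    one_ne_zero).2 hrep
  rw [one_pow, mul_one] at h
  rw [map_mul, ssm_al_iotaF_algebraMap]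
  exact h

include hπ in
/-- multiplying a model of a representing function by a power of `π`. -/
theorem s44mm_rep_norm {z : JZero (M * p)} {x : ↥(lg_F L1 (M * p))} (n : ℤ)
    (hrep : s44f_Rep (M * p) p z (ssm_al_iotaF L1 (M * p) x)) :
    s44f_Rep (M * p) p z (ssm_al_iotaF L1 (M * p)
      (algebraMap L1 ↥(lg_F L1 (M * p)) ((π : ↥O1) : L1) ^ n * x)) := by
  have hπL : ((π : ↥O1) : L1) ≠ 0 := fun h => hπ.ne_zero (Subtype.ext h)
  have h := s44mm_rep_const M L1 (c := ((π : ↥O1) : L1) ^ n) (zpow_ne_zero n hπL) hrep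
  rwa [map_zpow₀] at h

/-- `φ (π ^ n * x) = π ^ n * φ x`. -/
theorem s44mm_phi_norm (x : ↥(lg_F L1 (M * p))) (n : ℤ) :
    lg_phiE (L := L1) (N := M * p)
        (algebraMap L1 ↥(lg_F L1 (M * p)) ((π : ↥O1) : L1) ^ n * x) =
      algebraMap L1 ↥(lg_E L1 (M * p)) ((π : ↥O1) : L1) ^ n *
        lg_phiE (L := L1) (N := M * p) x := by
  rw [map_mul, map_zpow₀, AlgHom.commutes]

include hπ in
/-- **a normalised order does not see the Gauss normalisation**: `ν (φ (π ^ n * x)) = ν (φ x)` for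
every `ν` with `s44nu_IsNu lam u P₂ ν` over a local ring `R ⊆ E` in which `lam` is the image of
`π`. -/
theorem s44mm_nu_phi_norm {R : Type*} [CommRing R] [IsDomain R] [IsLocalRing R]
    [IsNoetherianRing R] [Algebra R ↥(lg_E L1 (M * p))] [IsFractionRing R ↥(lg_E L1 (M * p))]
    {lam u : R} {P₂ : Ideal R} {ν : ↥(lg_E L1 (M * p)) → ℤ} (h : s44nu_IsNu lam u P₂ ν)
    (hlam : algebraMap R ↥(lg_E L1 (M * p)) lam =
      algebraMap L1 ↥(lg_E L1 (M * p)) ((π : ↥O1) : L1))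
    {x : ↥(lg_F L1 (M * p))} (hx0 : x ≠ 0) (n : ℤ) :
    ν (lg_phiE (L := L1) (N := M * p)
        (algebraMap L1 ↥(lg_F L1 (M * p)) ((π : ↥O1) : L1) ^ n * x)) =
      ν (lg_phiE (L := L1) (N := M * p) x) := by
  have hπL : ((π : ↥O1) : L1) ≠ 0 := fun h => hπ.ne_zero (Subtype.ext h)
  rw [s44mm_phi_norm]
  exact s44mm_nu_norm h hlam.symm ((_root_.map_ne_zero _).2 hπL) n
    ((_root_.map_ne_zero _).2 hx0)

end Norm

end Fermat.Agent.S44
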