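/-
Project S44 (Mazur–Ribet at `p`), cell [H2] MONO-MAIN, THE LAST STEP OF THE ASSEMBLY (helper26).
Prefix `s44mm_`.  Namespace `Fermat.Agent.S44`.

* `s44mm_mono_of_pair` : `s44bg_Mono_stmt Fr k ν` from its PAIR form
                         (`k i * ν V i = k j * ν V j` for any two indices): choice of the constant.
* `s44mm_red_unit`, `s44mm_red_ubar`, `s44mm_fbar` : the dictionary
                         `red b = s44rd_red ⟨ιF b, _⟩` on Gauss units, `red U1 = ū`, and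
                         `s44e_Fbar A M p z (red f1)` for a Gauss-unit model `f1` of a representing
                         function of `z`.
* `s44mm_k2_pair`      : `s44e_k2_mul_of_slope ∘ (ND-main) ∘ (U-NODE)` at TWO supersingular places
                         `i, j`: from the node dictionaries `ν (φ b) = T · ord_{Q_i} (red b)`,
                         `ν' (φ b) = T' · ord_{Q_j} (red b)` (all Gauss units `b`), `ν (φ U1) = 12 =
                         ν' (φ U1)` and the two-node congruence `ν (φ f1) ≡ ν' (φ f1) mod p`: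
                         `k2 i * ν_i(z) = k2 j * ν_j(z)`.

Binders = those of `Res/UDivDich.lean` (helper15).
-/
import Mathlib
import Fermat.Agent.S44.Res.UDivDich
import Fermat.Agent.S44.Res.Glue
import Fermat.Agent.S44.Big.Seams

set_option autoImplicit false
set_option linter.unusedSectionVars false
set_option linter.style.haveILetI false
set_option linter.unusedVariables false

noncomputable section

namespace Fermat.Agent.S44

open Polynomial ModularCurve AlgebraicCurve IntermediateField IsLocalRing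
open Fermat.Agent.JT3 Fermat.Agent.SS Fermat.Agent.S35 Fermat.Agent.S24

/-! ### the choice of the constant -/

section Wrapper

variable {P : FreyPackage} {M : ℕ} [NeZero M] [NeZero (M * P.p)] (Fr : s44_Frame P M)
  {Sg : Type} (k : Sg → ZMod P.p) (ν : JZero (M * P.p) → Sg → ZMod P.p)

/-- **[H2] MONO-MAIN from its pair form.** -/
theorem s44mm_mono_of_pair
    (hpair : ∀ (X V : JZero (M * P.p)) (a : s44_G → ℕ) (β : s44_Qb),
      P.p • X = 0 → P.p • V = 0 →
      Fr.as X = 0 → Fr.bs X = 0 → Fr.as V = 0 → Fr.bs V = 0 →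
      Fr.ChiEigen X → (∀ σ ∈ Fr.Γ, σ • V = V + a σ • X) →
      β ≠ 0 → β ∈ Fr.A → β⁻¹ ∈ Fr.A → (∀ σ ∈ Fr.Γ, σ β = Fr.ζ ^ a σ * β) →
      Fr.Split X → ¬ Fr.D1inf V → ∀ i j : Sg, k i * ν V i = k j * ν V j) :
    s44bg_Mono_stmt Fr k ν := by
  intro X V a β h1 h2 h3 h4 h5 h6 h7 h8 h9 h10 h11 h12 h13 h14
  by_cases hne : Nonempty Sg
  · obtain ⟨i₀⟩ := hne
    exact ⟨k i₀ * ν V i₀, fun i =>
      hpair X V a β h1 h2 h3 h4 h5 h6 h7 h8 h9 h10 h11 h12 h13 h14 i i₀⟩
  · exact ⟨0, fun i => absurd ⟨i⟩ hne⟩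

end Wrapper

/-! ### the slope step at two supersingular places -/

section Pair

set_option synthInstance.maxHeartbeats 400000

variable (A : ValuationSubring s44_Qb) {p : ℕ} [hp : Fact p.Prime] (hA : A.LiesOverPrime p)
  (M : ℕ) [NeZero M] [NeZero p] [NeZero (M * p)] (hpM : ¬ p ∣ M)
  (L1 : IntermediateField ℚ s44_Qb)
  [IsDiscreteValuationRing ↥(A.comap (algebraMap L1 s44_Qb))]
  [CharP (ResidueField ↥(A.comap (algebraMap L1 s44_Qb))) p]
  {π : ↥(A.comap (algebraMap L1 s44_Qb))} (hπ : Irreducible π)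

set_option hygiene false in
local notation "O1" => ValuationSubring.comap A (algebraMap L1 s44_Qb)

variable (red : ↥(s44mz_VF O1 hπ M p) →+* ↥(s44e_FF A M))
  (hred : ∀ (x : ↥(s44mz_VF O1 hπ M p))
    (hb : ssm_al_iotaF L1 (M * p) (x : ↥(lg_F L1 (M * p))) ∈ s44pg_W A hA hp.out.ne_zero (M * p)),
      red x = s44rd_red A hA M hpM ⟨ssm_al_iotaF L1 (M * p) (x : ↥(lg_F L1 (M * p))), hb⟩)

/-- elements of the Gauss ring `W1` over `L1` lie in the Gauss ring over `Q̄`. -/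
theorem s44mm_iota_mem (x : ↥(s44mz_VF O1 hπ M p)) :
    ssm_al_iotaF L1 (M * p) (x : ↥(lg_F L1 (M * p))) ∈ s44pg_W A hA hp.out.ne_zero (M * p) :=
  s44ec_isBdd_iotaF A L1 (M * p) (x : ↥(lg_F L1 (M * p))) x.2

include hred in
/-- `red x` is the `w_∞`-reduction of `ιF x`. -/
theorem s44mm_redOf (x : ↥(s44mz_VF O1 hπ M p)) :
    s44e_RedOf A M (ssm_al_iotaF L1 (M * p) (x : ↥(lg_F L1 (M * p)))) (red x) := by
  have hb := s44mm_iota_mem A hA M L1 hπ x
  refine ⟨hb, ?_⟩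
  rw [hred x hb]
  rfl

include hred in
/-- a Gauss unit has nonzero reduction. -/
theorem s44mm_red_ne_zero {x : ↥(s44mz_VF O1 hπ M p)} (hx : IsUnit x) : red x ≠ 0 :=
  (hx.map red).ne_zero

include hred in
/-- **`red f1` is an `f̄_z`** for every Gauss-unit model `f1` of a representing function of `z`. -/
theorem s44mm_fbar {z : JZero (M * p)} {f1 : ↥(s44mz_VF O1 hπ M p)} (hf1 : IsUnit f1)
    (hrep : s44f_Rep (M * p) p z (ssm_al_iotaF L1 (M * p) (f1 : ↥(lg_F L1 (M * p))))) :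
    s44e_Fbar A M p z (red f1) :=
  ⟨s44mm_red_ne_zero A hA M hpM L1 hπ red hred hf1, _, hrep,
    s44mm_redOf A hA M hpM L1 hπ red hred f1⟩

include hred in
/-- `red U1 = ū` for every model `U1` of the modular unit. -/
theorem s44mm_red_ubar (U1 : ↥(s44mz_VF O1 hπ M p))
    (hU1 : ssm_al_iotaF L1 (M * p) (U1 : ↥(lg_F L1 (M * p))) =
      s44hu_U p (M * p) (s44hu_dvd (rfl : M * p = M * p))) :
    red U1 = s44e_ubar A M p := by
  rw [hred U1 (s44eu_model_mem A hA M L1 hU1)]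
  exact s44eu_red_model A hA M hpM L1 hU1 _

include hred in
/-- **the slope step at ONE supersingular place**: from the node dictionary
`ν (φ b) = T · ord_Q (red b)` on Gauss units and `ν (φ U1) = 12`:
`k2_Q · ν_Q(z) = ν (φ f1) / 12` in `ZMod p`. -/
theorem s44mm_k2_one (hp5 : 5 ≤ p) (i : s44e_Sg A M p hp.out hpM)
    (U1 : ↥(s44mz_VF O1 hπ M p))
    (hU1 : ssm_al_iotaF L1 (M * p) (U1 : ↥(lg_F L1 (M * p))) =
      s44hu_U p (M * p) (s44hu_dvd (rfl : M * p = M * p)))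
    (hU1u : IsUnit U1)
    {z : JZero (M * p)} {f1 : ↥(s44mz_VF O1 hπ M p)} (hf1 : IsUnit f1)
    (hrep : s44f_Rep (M * p) p z (ssm_al_iotaF L1 (M * p) (f1 : ↥(lg_F L1 (M * p)))))
    {T : ℤ} {ν : ↥(lg_E L1 (M * p)) → ℤ}
    (hν : ∀ b : ↥(s44mz_VF O1 hπ M p), IsUnit b →
      ν (lg_phiE (L := L1) (N := M * p) (b : ↥(lg_F L1 (M * p)))) = T * Place.ord i.1 (red b))
    (h12 : ν (lg_phiE (L := L1) (N := M * p) (U1 : ↥(lg_F L1 (M * p)))) = 12) :
    s44e_k2 A M p hp.out hpM i * s44e_nu A M p hp.out hpM z i =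
      ((ν (lg_phiE (L := L1) (N := M * p) (f1 : ↥(lg_F L1 (M * p)))) : ℤ) : ZMod p) *
        (((12 : ℤ) : ZMod p))⁻¹ := by
  have hmem : ∀ (b : modularFunctionFieldBar (M * p))
      (h : gq_IsBdd ↥A s44_Qb (b : LaurentSeries s44_Qb)),
      gq_res ↥A s44_Qb ⟨(b : LaurentSeries s44_Qb), h⟩ ∈ lg_F (s44e_kA A) M :=
    fun b h => s44rd_res_mem A hA M hpM b.2 h
  have hFb := s44mm_fbar A hA M hpM L1 hπ red hred hf1 hrep
  have hUb := s44mm_red_ubar A hA M hpM L1 hπ red hred U1 hU1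
  have hc₀ : ¬ (p : ℤ) ∣ (12 : ℤ) := by
    intro h
    have h1 : (p : ℤ) ∣ ((12 : ℕ) : ℤ) := by exact_mod_cast h
    have h2 : p ∣ 12 := Int.natCast_dvd_natCast.1 h1
    have hpp := hp.out
    have h3 : p ∣ 2 * 2 * 3 := h2
    rcases hpp.dvd_mul.1 h3 with h4 | h4
    · rcases hpp.dvd_mul.1 h4 with h5 | h5
      · have := Nat.le_of_dvd (by norm_num) h5
        omega
      · have := Nat.le_of_dvd (by norm_num) h5
        omega
    · have := Nat.le_of_dvd (by norm_num) h4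
      omega
  have hu : T * Place.ord i.1 (s44e_ubar A M p) = 12 := by
    rw [← hUb, ← hν U1 hU1u, h12]
  -- `ord_Q f̄_z ≡ ord_Q (red f1)`
  have hnu : s44e_nuAll A M p z i.1 = ((Place.ord i.1 (red f1) : ℤ) : ZMod p) :=
    s44e_nuAll_eq A hp.out hA M hmem hFb i.1
  have hV : T * Place.ord i.1 (s44e_fbar A M p z) ≡
      ν (lg_phiE (L := L1) (N := M * p) (f1 : ↥(lg_F L1 (M * p)))) [ZMOD (p : ℤ)] := by
    rw [hν f1 hf1]
    have h1 : ((Place.ord i.1 (s44e_fbar A M p z) : ℤ) : ZMod p) =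
        ((Place.ord i.1 (red f1) : ℤ) : ZMod p) := by
      rw [← hnu, s44e_nuAll_def]
    have h2 := (ZMod.intCast_eq_intCast_iff _ _ p).1 h1
    exact h2.mul_left T
  exact s44e_k2_mul_of_slope A M p hp.out hpM i z hc₀ hu hV

include hred in
/-- **the slope step at TWO supersingular places** (`s44e_k2_mul_of_slope ∘ (ND-main) ∘ (U-NODE)`):
`k2 i * ν_i(z) = k2 j * ν_j(z)` from the two node dictionaries, `ν (φ U1) = 12 = ν' (φ U1)` and the
two-node congruence `ν (φ f1) ≡ ν' (φ f1) mod p`. -/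
theorem s44mm_k2_pair (hp5 : 5 ≤ p) (i j : s44e_Sg A M p hp.out hpM)
    (U1 : ↥(s44mz_VF O1 hπ M p))
    (hU1 : ssm_al_iotaF L1 (M * p) (U1 : ↥(lg_F L1 (M * p))) =
      s44hu_U p (M * p) (s44hu_dvd (rfl : M * p = M * p)))
    (hU1u : IsUnit U1)
    {z : JZero (M * p)} {f1 : ↥(s44mz_VF O1 hπ M p)} (hf1 : IsUnit f1)
    (hrep : s44f_Rep (M * p) p z (ssm_al_iotaF L1 (M * p) (f1 : ↥(lg_F L1 (M * p)))))
    {T T' : ℤ} {ν ν' : ↥(lg_E L1 (M * p)) → ℤ}
    (hν : ∀ b : ↥(s44mz_VF O1 hπ M p), IsUnit b →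
      ν (lg_phiE (L := L1) (N := M * p) (b : ↥(lg_F L1 (M * p)))) = T * Place.ord i.1 (red b))
    (hν' : ∀ b : ↥(s44mz_VF O1 hπ M p), IsUnit b →
      ν' (lg_phiE (L := L1) (N := M * p) (b : ↥(lg_F L1 (M * p)))) = T' * Place.ord j.1 (red b))
    (h12 : ν (lg_phiE (L := L1) (N := M * p) (U1 : ↥(lg_F L1 (M * p)))) = 12)
    (h12' : ν' (lg_phiE (L := L1) (N := M * p) (U1 : ↥(lg_F L1 (M * p)))) = 12)
    (hpair : ν (lg_phiE (L := L1) (N := M * p) (f1 : ↥(lg_F L1 (M * p)))) ≡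
      ν' (lg_phiE (L := L1) (N := M * p) (f1 : ↥(lg_F L1 (M * p)))) [ZMOD (p : ℤ)]) :
    s44e_k2 A M p hp.out hpM i * s44e_nu A M p hp.out hpM z i =
      s44e_k2 A M p hp.out hpM j * s44e_nu A M p hp.out hpM z j := by
  rw [s44mm_k2_one A hA M hpM L1 hπ red hred hp5 i U1 hU1 hU1u hf1 hrep hν h12,
    s44mm_k2_one A hA M hpM L1 hπ red hred hp5 j U1 hU1 hU1u hf1 hrep hν' h12',
    (ZMod.intCast_eq_intCast_iff _ _ p).2 hpair]

end Pair

end Fermat.Agent.S44
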