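/-
S44 [H2] MONO-END (helper29, architect; prefix `s44mend_`): THE LAST STEP OF `mono`.

What the geometry ([H2-S] two-node theorem + (ND-Leg) dictionary + (U-NODE)) has to deliver, PER PAIR
of supersingular places `i, i'`, and how `s44bg_Mono_stmt` follows from it with the weights
`k = s44e_k2` (ruling R5) and the residues `ν = s44e_nu`:

  one reduction `fb` of ONE representative of `V` (`s44e_Fbar A M p V fb`), multipliers `T, T'` with
  `T · ord_i ū = 12 = T' · ord_{i'} ū` and integers `c_V ≡ c_V' (mod p)` with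
  `T · ord_i fb ≡ c_V`, `T' · ord_{i'} fb ≡ c_V' (mod p)`      [`c_V = ν_𝔫(φ f_V)` at the node of `i`]

  ⟹ `k2 i · ν V i = c_V / 12 = c_V' / 12 = k2 i' · ν V i'`.

* `s44mend_ord_congr` : `T · ord_Q f̄_z ≡ T · ord_Q fb (mod p)` for ANY reduction `fb`;
* `s44mend_pair`      : the pairwise equality;
* `s44mend_exists_c`  : pairwise equal ⟹ `∃ c, ∀ i, k i · ν i = c` (also for an empty index type);
* `s44mend_mono`      : `s44bg_Mono_stmt (s44_frame2 P M hpM) (s44e_k2 …) (s44e_nu …)` from the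
                        pairwise slope data.
-/
import Mathlib
import Fermat.Agent.S44.Res.Main
import Fermat.Agent.S44.Res.Defs2
import Fermat.Agent.S44.Big.Seams

set_option autoImplicit false
set_option linter.unusedSectionVars false
set_option linter.style.haveILetI false

noncomputable section

namespace Fermat.Agent.S44

open ModularCurve AlgebraicCurve IsLocalRing Fermat.Agent.JT3 Fermat.Agent.S35 Fermat.Agent.SS
  Fermat.Agent.S24 Fermat.Agent.SS2

local notation "Qb" => AlgebraicClosure ℚ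

section General

variable (A : ValuationSubring Qb) {p : ℕ} [hp : Fact p.Prime] (hA : A.LiesOverPrime p)
  (M : ℕ) [NeZero M] [NeZero p] [NeZero (M * p)] (hpM : ¬ p ∣ M)

include hA hpM in
/-- `T · ord_Q f̄_z ≡ T · ord_Q fb (mod p)` for ANY reduction `fb` of a representative of `z`. -/
theorem s44mend_ord_congr {z : JZero (M * p)} (hz : p • z = 0) {fb : s44e_FF A M}
    (h : s44e_Fbar A M p z fb) (Q : Place (s44e_kA A) (s44e_FF A M)) (T : ℤ) :
    T * Q.ord (s44e_fbar A M p z) ≡ T * Q.ord fb [ZMOD (p : ℤ)] := by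
  have h0 := s44e_fbar_spec A hp.out hA M (s44rd_hmem A hA M hpM) hz
  obtain ⟨g, hg0, e⟩ := s44e_fbar_unique A hp.out hA M (s44rd_hmem A hA M hpM) h h0
  rw [e, Q.ord_mul (pow_ne_zero _ hg0) h.1]
  have h1 : Q.ord (g ^ p) = p * Q.ord g := by
    have := Q.ord_zpow g (p : ℤ)
    rwa [zpow_natCast] at this
  rw [h1, Int.modEq_iff_dvd]
  exact ⟨-(T * Q.ord g), by ring⟩

include hA hpM in
/-- **the pairwise form of mono.** -/
theorem s44mend_pair (hp5 : 5 ≤ p) {z : JZero (M * p)} (hz : p • z = 0)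
    (i i' : s44e_Sg A M p hp.out hpM) {fb : s44e_FF A M} (h : s44e_Fbar A M p z fb)
    {T T' cV cV' : ℤ}
    (hu : T * Place.ord i.1 (s44e_ubar A M p) = 12)
    (hu' : T' * Place.ord i'.1 (s44e_ubar A M p) = 12)
    (hV : T * Place.ord i.1 fb ≡ cV [ZMOD (p : ℤ)])
    (hV' : T' * Place.ord i'.1 fb ≡ cV' [ZMOD (p : ℤ)])
    (hc : cV ≡ cV' [ZMOD (p : ℤ)]) :
    s44e_k2 A M p hp.out hpM i * s44e_nu A M p hp.out hpM z i =
      s44e_k2 A M p hp.out hpM i' * s44e_nu A M p hp.out hpM z i' := by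
  have h12 : ¬ (p : ℤ) ∣ 12 := by
    intro hd
    have h1 : p ∣ 12 := by exact_mod_cast hd
    have h2 : p ∣ 2 ^ 2 * 3 := by norm_num; exact h1
    rcases (Nat.Prime.dvd_mul hp.out).mp h2 with h3 | h3
    · have := Nat.le_of_dvd (by norm_num) (hp.out.dvd_of_dvd_pow h3)
      omega
    · have := Nat.le_of_dvd (by norm_num) h3
      omega
  have e1 := s44e_k2_mul_of_slope A M p hp.out hpM i z h12 hu
    ((s44mend_ord_congr A hA M hpM hz h i.1 T).trans hV)
  have e2 := s44e_k2_mul_of_slope A M p hp.out hpM i' z h12 hu'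
    ((s44mend_ord_congr A hA M hpM hz h i'.1 T').trans hV')
  rw [e1, e2, (ZMod.intCast_eq_intCast_iff _ _ p).2 hc]

end General

/-- pairwise equal ⟹ constant (also on an empty index type). -/
theorem s44mend_exists_c {ι R : Type*} [Zero R] (w : ι → R) (h : ∀ i i' : ι, w i = w i') :
    ∃ c : R, ∀ i, w i = c := by
  by_cases hne : Nonempty ι
  · obtain ⟨i₀⟩ := hne
    exact ⟨w i₀, fun i => h i i₀⟩
  · exact ⟨0, fun i => absurd ⟨i⟩ hne⟩

section Frame

variable (P : FreyPackage) (M : ℕ) [NeZero M] [NeZero (M * P.p)] (hpM : ¬ P.p ∣ M)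

/-- **MONO-END**: `s44bg_Mono_stmt` for `s44_frame2` with `k = s44e_k2`, `ν = s44e_nu` from the
pairwise slope data (the output of the two-node theorem + node dictionary + unit computation). -/
theorem s44mend_mono
    (h : ∀ (X V : JZero (M * P.p)) (a : s44_G → ℕ) (β : s44_Qb),
      P.p • X = 0 → P.p • V = 0 →
      (s44_frame2 P M hpM).as X = 0 → (s44_frame2 P M hpM).bs X = 0 →
      (s44_frame2 P M hpM).as V = 0 → (s44_frame2 P M hpM).bs V = 0 →
      (s44_frame2 P M hpM).ChiEigen X →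
      (∀ σ ∈ (s44_frame2 P M hpM).Γ, σ • V = V + a σ • X) →
      β ≠ 0 → β ∈ (s44_frame2 P M hpM).A → β⁻¹ ∈ (s44_frame2 P M hpM).A →
      (∀ σ ∈ (s44_frame2 P M hpM).Γ, σ β = (s44_frame2 P M hpM).ζ ^ a σ * β) →
      (s44_frame2 P M hpM).Split X → ¬ (s44_frame2 P M hpM).D1inf V →
      ∀ i i' : s44e_Sg (s44f_A P.p P.pp) M P.p P.pp hpM,
        ∃ (fb : s44e_FF (s44f_A P.p P.pp) M) (T T' cV cV' : ℤ),
          s44e_Fbar (s44f_A P.p P.pp) M P.p V fb ∧
          T * Place.ord i.1 (s44e_ubar (s44f_A P.p P.pp) M P.p) = 12 ∧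
          T' * Place.ord i'.1 (s44e_ubar (s44f_A P.p P.pp) M P.p) = 12 ∧
          T * Place.ord i.1 fb ≡ cV [ZMOD (P.p : ℤ)] ∧
          T' * Place.ord i'.1 fb ≡ cV' [ZMOD (P.p : ℤ)] ∧
          cV ≡ cV' [ZMOD (P.p : ℤ)]) :
    s44bg_Mono_stmt (s44_frame2 P M hpM) (s44e_k2 (s44f_A P.p P.pp) M P.p P.pp hpM)
      (s44e_nu (s44f_A P.p P.pp) M P.p P.pp hpM) := by
  haveI : Fact P.p.Prime := ⟨P.pp⟩
  intro X V a β hX hV h1 h2 h3 h4 h5 h6 h7 h8 h9 h10 h11 h12
  refine s44mend_exists_c _ (fun i i' => ?_)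
  obtain ⟨fb, T, T', cV, cV', hfb, hu, hu', hcV, hcV', hc⟩ :=
    h X V a β hX hV h1 h2 h3 h4 h5 h6 h7 h8 h9 h10 h11 h12 i i'
  exact s44mend_pair (s44f_A P.p P.pp) (s44f_A_liesOver P.p P.pp) M hpM P.hp5 hV i i' hfb hu hu'
    hcV hcV' hc

end Frame

end Fermat.Agent.S44
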