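/-
Project S44 (Mazur–Ribet at `p`), cell [H2-S]/[H2-N] (N4-ex), complement (helper2): the existence
of the normalised order `ν` WITHOUT a node — only a prime `P₂` of height one which is locally
generated by `λ`, with `𝔪_R = (λ, u, v)`, `v ∈ P₂`, `u ∉ P₂` (e.g. a smooth point of the
component `P₂ = (λ)`, with `v = 0`).  Same construction as `Mono/NuExists.lean`
(`s44nx_nu`), whose general lemmas are reused.  Statement = helper12's `s44nx_exists` of finding
#4109 verbatim.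
-/
import Mathlib
import Fermat.Agent.S44.Mono.NuExists

set_option autoImplicit false
set_option linter.unusedSectionVars false
set_option linter.unusedVariables false
set_option linter.style.haveILetI false

namespace Fermat.Agent.S44

open Fermat.Agent.SS IsLocalRing

section NuExistsGen

variable {R : Type*} [CommRing R] [IsDomain R] [IsLocalRing R] [IsNoetherianRing R]
  [IsIntegrallyClosed R] {F : Type*} [Field F] [Algebra R F] [IsFractionRing R F]

/-- the witness `s44nx_nu` has the five characteristic properties (no node needed). -/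
theorem s44nx_isNu {lam u v : R} (hm : maximalIdeal R = Ideal.span {lam, u, v})
    (P₂ : Ideal R) [hP : P₂.IsPrime] (h1 : P₂.height = 1) (hlam : lam ∈ P₂) (hv : v ∈ P₂)
    (hu : u ∉ P₂) (hgen : ∀ z ∈ P₂, ∃ s : R, s ∉ P₂ ∧ lam ∣ s * z) (hlam0 : lam ≠ 0) :
    s44nu_IsNu lam u P₂ (s44nx_nu (F := F) lam u P₂) := by
  have hu𝔪 : u ∈ maximalIdeal R := by
    rw [hm]; exact Ideal.subset_span (by simp)
  have hL : algebraMap R F lam ≠ 0 := ssl_algebraMap_ne_zero hlam0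
  have hex : ∀ {x : F}, x ≠ 0 → ∃ (n : ℤ) (a s : R) (j j' : ℕ), s44nx_IsJ u P₂ a j ∧
      s44nx_IsJ u P₂ s j' ∧ x * algebraMap R F s = algebraMap R F lam ^ n * algebraMap R F a :=
    fun hx => s44nx_IsVal_exists hm P₂ h1 hlam hv hgen hx
  have hval : ∀ {x : F} {k : ℤ}, s44nx_IsVal lam u P₂ x k → s44nx_nu (F := F) lam u P₂ x = k :=
    fun h => s44nx_nu_eq hlam hlam0 hu𝔪 hu h
  refine ⟨?_, ?_, ?_, ?_, ?_⟩
  · intro x y hx hy
    obtain ⟨n, a, s, j, j', ha, hs, hxs⟩ := hex hx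
    obtain ⟨n', a', s', j₁, j₁', ha', hs', hys⟩ := hex hy
    rw [hval ⟨n, a, s, j, j', ha, hs, hxs, rfl⟩, hval ⟨n', a', s', j₁, j₁', ha', hs', hys, rfl⟩]
    refine (hval ⟨n + n', a * a', s * s', j + j₁, j' + j₁', ha.mul ha', hs.mul hs', ?_, ?_⟩)
    · rw [map_mul, map_mul, zpow_add₀ hL]
      calc x * y * (algebraMap R F s * algebraMap R F s')
          = (x * algebraMap R F s) * (y * algebraMap R F s') := by ring
        _ = _ := by rw [hxs, hys]; ring
    · push_cast; ring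
  · intro ω
    refine hval ⟨0, (ω : R), 1, 0, 0, s44nx_IsJ.of_unit ω, s44nx_IsJ.one, ?_, by simp⟩
    simp
  · refine hval ⟨1, 1, 1, 0, 0, s44nx_IsJ.one, s44nx_IsJ.one, ?_, by simp⟩
    simp
  · refine hval ⟨0, u, 1, 1, 0, s44nx_IsJ.self, s44nx_IsJ.one, ?_, by simp⟩
    simp
  · rintro x ⟨b, s, hb, hs, hxs⟩
    obtain ⟨j', ω', t', ht', hst⟩ := s44nu_decomp hm P₂ hlam hv hs
    have hsJ : s44nx_IsJ u P₂ s j' := ⟨ω', t', ht', hst⟩
    refine hval ⟨0, s + b, s, j', j', hsJ.add_mem hb, hsJ, ?_, by simp⟩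
    rw [zpow_zero, one_mul, map_add, ← hxs]
    ring

/-- **existence of the normalised order along a branch `P₂`, no node needed** (also at a smooth
point of the component `P₂ = (λ)` with `𝔪 = (λ, u, 0)`). -/
theorem s44nx_exists {lam u v : R} (hm : maximalIdeal R = Ideal.span {lam, u, v})
    (P₂ : Ideal R) [P₂.IsPrime] (h1 : P₂.height = 1) (hlam : lam ∈ P₂) (hv : v ∈ P₂)
    (hu : u ∉ P₂) (hgen : ∀ z ∈ P₂, ∃ s : R, s ∉ P₂ ∧ lam ∣ s * z) (hlam0 : lam ≠ 0) :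
    ∃ ν : F → ℤ, s44nu_IsNu lam u P₂ ν :=
  ⟨s44nx_nu lam u P₂, s44nx_isNu hm P₂ h1 hlam hv hu hgen hlam0⟩

/-- the value of the witness on `λ^n · a / s`, `a = u^j·unit`, `s = u^j'·unit` modulo `P₂`. -/
theorem s44nx_nu_eq_sub {lam u : R} {P₂ : Ideal R} [hP : P₂.IsPrime] (hlam : lam ∈ P₂)
    (hlam0 : lam ≠ 0) (hu𝔪 : u ∈ maximalIdeal R) (hu : u ∉ P₂) {x : F} {n : ℤ} {a s : R}
    {j j' : ℕ} (ha : s44nx_IsJ u P₂ a j) (hs : s44nx_IsJ u P₂ s j')
    (hx : x * algebraMap R F s = algebraMap R F lam ^ n * algebraMap R F a) :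
    s44nx_nu (F := F) lam u P₂ x = (j : ℤ) - j' :=
  s44nx_nu_eq hlam hlam0 hu𝔪 hu ⟨n, a, s, j, j', ha, hs, hx, rfl⟩

/-- `v ∈ P₂` at a node. -/
theorem s44nx_v_mem {lam u v : R} {M : ℕ} {P₁ P₂ : Ideal R}
    (hN : s44n_Node lam u v M P₁ P₂) (hu𝔪 : u ∈ maximalIdeal R) : v ∈ P₂ := by
  haveI hP : P₂.IsPrime := hN.prime₂
  obtain ⟨ε, hε⟩ := hN.mul_eq
  have hM : M ≠ 0 := by
    rintro rfl
    rw [pow_zero, one_mul] at hε
    have : IsUnit (u * v) := hε ▸ ε.isUnit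
    exact (IsLocalRing.mem_maximalIdeal _).1 hu𝔪 (isUnit_of_mul_isUnit_left this)
  have h1 : u * v ∈ P₂ := by
    rw [hε]
    exact P₂.mul_mem_right _ (Ideal.pow_mem_of_mem _ hN.lam_mem₂ _ (Nat.pos_of_ne_zero hM))
  rcases hP.mem_or_mem h1 with h2 | h2
  · exact absurd h2 hN.u_not_mem₂
  · exact h2

end NuExistsGen

end Fermat.Agent.S44
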