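/-
S44 project, cell [H2] MONO-MAIN, sub-cell [H2-N] (N4) NODE-ORD (helper12).  Prefix `s44mo_`.
Namespace `Fermat.Agent.S44`.

**The order at the centre of the reduction along a branch.**  Abstract two-component vocabulary:
`B` a chart (a subalgebra of the function field `F0`), `V1 ⊇ B` the valuation ring of a component,
`r : V1 →+* κ` a reduction map (killing `𝔪(V1)`), `v` a place of `κ / k`.  The composite valuation
ring `𝒱 = tori_comp V1 r hker v.toValuationSubring` (S35/Toric/Composite) has the centre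
`𝔫 = ssm_tp_P B 𝒱 = {b ∈ B | r b ∈ 𝔪_v}` on `B` (when `r B ⊆ O_v`).

* `s44mo_mem_centre`, `s44mo_P1_le`  : the centre, `P1 = ssm_tp_P B V1 ⊆ 𝔫`;
* `s44mo_ord_mul_u`  : if `𝔫 B_𝔫 = (u) + P1 B_𝔫` (witness form `hgen`: "`(B/P1)_𝔫` is a discrete
                       valuation ring with uniformiser `ū`"), every `b ∈ B ∖ P1` has
                       `ord_v (r b) ∈ ℕ · ord_v (r u)`;
* `s44mo_ord_u`      : if moreover `κ = Frac (r B)`, then `ord_v (r u) = 1`;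
* `s44mo_ord_unit`   : `ord_v (r z) = 0` for `z ∈ (B_𝔫)ˣ`;
* `s44mo_w1`, `s44mo_nu` : for a uniformiser `ϖ` of `V1`, the functions `w1 = ord_{V1}` and
                       `ν z = ord_v (r (z / ϖ ^ (w1 z)))` on `F0`, with the properties asked by
                       `s44n_slope_congr` (`Node/Slope.lean`): additive, `w1 ϖ = 1`, `w1 = 0` on
                       `V1ˣ`; `ν ϖ = 0`, `ν = ord_v ∘ r` on `V1ˣ`, hence `ν u = 1`, `ν = 0` on
                       `(B_𝔫)ˣ`.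
-/
import Mathlib
import Fermat.Agent.S35.Toric.Composite
import Fermat.Agent.S35.Toric.SFDPlace
import Fermat.Agent.SS.Model.TwoPrimes
import Fermat.Agent.S24.Hurwitz.Places
import Fermat.Agent.JT3.Descent.ConstExt
import Fermat.Agent.SS.Local.Height1

set_option autoImplicit false
set_option linter.unusedSectionVars false

namespace Fermat.Agent.S44

open Fermat.Agent.SS Fermat.Agent.JT3 Fermat.Agent.S35 Fermat.Agent.S24 AlgebraicCurve

section Centre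

variable {A0 : Type*} [CommRing A0] {F0 : Type*} [Field F0] [Algebra A0 F0]
  {B : Subalgebra A0 F0} (V1 : ValuationSubring F0) {κ : Type*} [Field κ] (r : ↥V1 →+* κ)
  (hker : ∀ z : ↥V1, (z : F0) ∈ V1.nonunits → r z = 0) (W : ValuationSubring κ)

/-- membership in the centre of the composite valuation. -/
theorem s44mo_mem_centre (hB : ∀ b ∈ B, b ∈ tori_comp V1 r hker W) {b : B} :
    b ∈ ssm_tp_P B (tori_comp V1 r hker W) ↔ r ⟨(b : F0), (hB _ b.2).1⟩ ∈ W.nonunits := by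
  rw [ssm_tp_mem_P hB, tori_comp_mem_nonunits_iff]
  exact ⟨fun ⟨_, h⟩ => h, fun h => ⟨_, h⟩⟩

/-- the component `P1` passes through the centre. -/
theorem s44mo_P1_le (hB : ∀ b ∈ B, b ∈ tori_comp V1 r hker W) :
    ssm_tp_P B V1 ≤ ssm_tp_P B (tori_comp V1 r hker W) := by
  intro b hb
  rw [ssm_tp_mem_P (fun b hb => (hB b hb).1)] at hb
  rw [s44mo_mem_centre V1 r hker W hB, hker _ hb]
  exact (W.nonunits).zero_mem

/-- `r` kills `P1`. -/
theorem s44mo_r_P1 (hB : ∀ b ∈ B, b ∈ tori_comp V1 r hker W) {b : B}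
    (hb : b ∈ ssm_tp_P B V1) : r ⟨(b : F0), (hB _ b.2).1⟩ = 0 := by
  rw [ssm_tp_mem_P (fun b hb => (hB b hb).1)] at hb
  exact hker _ hb

end Centre

section OrdU

variable {A0 : Type*} [CommRing A0] {F0 : Type*} [Field F0] [Algebra A0 F0]
  {B : Subalgebra A0 F0} (V1 : ValuationSubring F0) {κ : Type*} [Field κ] (r : ↥V1 →+* κ)
  (hker : ∀ z : ↥V1, (z : F0) ∈ V1.nonunits → r z = 0)
  {k : Type*} [Field k] [Algebra k κ] (v : Place k κ)
  (hB : ∀ b ∈ B, b ∈ tori_comp V1 r hker v.toValuationSubring)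

/-- **the reduction of the chart** `B → κ`. -/
noncomputable def s44mo_rB : B →+* κ :=
  r.comp ((B.val.toRingHom).codRestrict V1.toSubring (fun b => (hB _ b.2).1))

theorem s44mo_rB_apply (b : B) :
    s44mo_rB V1 r hker v hB b = r ⟨(b : F0), (hB _ b.2).1⟩ := rfl

theorem s44mo_rB_mem (b : B) : s44mo_rB V1 r hker v hB b ∈ v.toValuationSubring :=
  (hB _ b.2).2

theorem s44mo_rB_mem_nonunits {b : B} :
    s44mo_rB V1 r hker v hB b ∈ v.toValuationSubring.nonunits ↔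
      b ∈ ssm_tp_P B (tori_comp V1 r hker v.toValuationSubring) :=
  (s44mo_mem_centre V1 r hker v.toValuationSubring hB).symm

theorem s44mo_rB_P1 {b : B} (hb : b ∈ ssm_tp_P B V1) : s44mo_rB V1 r hker v hB b = 0 :=
  s44mo_r_P1 V1 r hker v.toValuationSubring hB hb

/-- an element of the chart outside the centre reduces to a unit of the place. -/
theorem s44mo_rB_ord_zero {b : B}
    (hb : b ∉ ssm_tp_P B (tori_comp V1 r hker v.toValuationSubring)) :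
    v.ord (s44mo_rB V1 r hker v hB b) = 0 :=
  tori_sfd_ord_unit v (s44mo_rB_mem V1 r hker v hB b)
    (fun h => hb ((s44mo_rB_mem_nonunits V1 r hker v hB).1 h))

theorem s44mo_rB_ne_zero {b : B}
    (hb : b ∉ ssm_tp_P B (tori_comp V1 r hker v.toValuationSubring)) :
    s44mo_rB V1 r hker v hB b ≠ 0 := by
  intro h0
  apply hb
  rw [← s44mo_rB_mem_nonunits V1 r hker v hB, h0]
  exact (v.toValuationSubring.nonunits).zero_mem

/-- **orders of the reductions of the chart are multiples of the order of `ū`**, when the centre is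
generated by `u` modulo the component `P1` (locally at the centre). -/
theorem s44mo_ord_mul_u (u : B)
    (hu : u ∈ ssm_tp_P B (tori_comp V1 r hker v.toValuationSubring))
    (hgen : ∀ b ∈ ssm_tp_P B (tori_comp V1 r hker v.toValuationSubring),
      ∃ s : B, s ∉ ssm_tp_P B (tori_comp V1 r hker v.toValuationSubring) ∧
        ∃ c : B, s * b - u * c ∈ ssm_tp_P B V1)
    (b : B) (hb : s44mo_rB V1 r hker v hB b ≠ 0) :
    ∃ n : ℕ, v.ord (s44mo_rB V1 r hker v hB b) = n * v.ord (s44mo_rB V1 r hker v hB u) := by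
  set ρ := s44mo_rB V1 r hker v hB with hρ
  suffices H : ∀ m : ℕ, ∀ b : B, ρ b ≠ 0 → v.ord (ρ b) ≤ m →
      ∃ n : ℕ, v.ord (ρ b) = n * v.ord (ρ u) by
    have h0 : 0 ≤ v.ord (ρ b) := (hw_mem_iff_ord_nonneg v hb).1 (s44mo_rB_mem V1 r hker v hB b)
    exact H (v.ord (ρ b)).toNat b hb (by omega)
  intro m
  induction m with
  | zero =>
    intro b hb hle
    have h0 : 0 ≤ v.ord (ρ b) := (hw_mem_iff_ord_nonneg v hb).1 (s44mo_rB_mem V1 r hker v hB b)
    refine ⟨0, ?_⟩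
    rw [Nat.cast_zero, zero_mul]
    have : v.ord (ρ b) ≤ 0 := by exact_mod_cast hle
    omega
  | succ m ih =>
    intro b hb hle
    by_cases hbn : b ∈ ssm_tp_P B (tori_comp V1 r hker v.toValuationSubring)
    · obtain ⟨s, hs, c, hc⟩ := hgen b hbn
      have hrel : ρ s * ρ b = ρ u * ρ c := by
        have h1 := s44mo_rB_P1 V1 r hker v hB hc
        rw [map_sub, map_mul, map_mul] at h1
        exact sub_eq_zero.1 h1
      have hs0 : v.ord (ρ s) = 0 := s44mo_rB_ord_zero V1 r hker v hB hs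
      have hsne : ρ s ≠ 0 := s44mo_rB_ne_zero V1 r hker v hB hs
      have hu0 : ρ u ≠ 0 := by
        intro h
        rw [h, zero_mul] at hrel
        exact (mul_ne_zero hsne hb) hrel
      have hc0 : ρ c ≠ 0 := by
        intro h
        rw [h, mul_zero] at hrel
        exact (mul_ne_zero hsne hb) hrel
      have hupos : 0 < v.ord (ρ u) := by
        rw [hw_ord_pos_iff v hu0]
        have h1 := (s44mo_rB_mem_nonunits V1 r hker v hB).2 hu
        rw [ValuationSubring.mem_nonunits_iff_or] at h1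
        exact h1.resolve_left hu0
      have hord : v.ord (ρ b) = v.ord (ρ u) + v.ord (ρ c) := by
        have h1 := congrArg v.ord hrel
        rw [v.ord_mul hsne hb, v.ord_mul hu0 hc0, hs0, zero_add] at h1
        exact h1
      obtain ⟨n, hn⟩ := ih c hc0 (by push_cast at hle; omega)
      refine ⟨n + 1, ?_⟩
      rw [hord, hn]
      push_cast
      ring
    · refine ⟨0, ?_⟩
      rw [s44mo_rB_ord_zero V1 r hker v hB hbn, Nat.cast_zero, zero_mul]

/-- **`ū` is a uniformiser of the place**: `ord_v (r u) = 1`, when moreover `κ = Frac (r B)`. -/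
theorem s44mo_ord_u (u : B)
    (hu : u ∈ ssm_tp_P B (tori_comp V1 r hker v.toValuationSubring))
    (hgen : ∀ b ∈ ssm_tp_P B (tori_comp V1 r hker v.toValuationSubring),
      ∃ s : B, s ∉ ssm_tp_P B (tori_comp V1 r hker v.toValuationSubring) ∧
        ∃ c : B, s * b - u * c ∈ ssm_tp_P B V1)
    (hfrac : ∀ y : κ, ∃ b s : B, s44mo_rB V1 r hker v hB s ≠ 0 ∧
      y * s44mo_rB V1 r hker v hB s = s44mo_rB V1 r hker v hB b) :
    v.ord (s44mo_rB V1 r hker v hB u) = 1 := by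
  set ρ := s44mo_rB V1 r hker v hB with hρ
  obtain ⟨t, ht⟩ := IsDiscreteValuationRing.exists_irreducible v.toValuationSubring
  have ht0 : (t : κ) ≠ 0 := fun h => ht.ne_zero (Subtype.ext h)
  have htord : v.ord (t : κ) = 1 := v.ord_coe_irreducible ht
  obtain ⟨b, s, hs, hts⟩ := hfrac (t : κ)
  have hb : ρ b ≠ 0 := by rw [← hts]; exact mul_ne_zero ht0 hs
  obtain ⟨n, hn⟩ := s44mo_ord_mul_u V1 r hker v hB u hu hgen b hb
  obtain ⟨m, hm⟩ := s44mo_ord_mul_u V1 r hker v hB u hu hgen s hs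
  have h1 := congrArg v.ord hts
  rw [v.ord_mul ht0 hs, htord, hn, hm] at h1
  have hu0 : 0 ≤ v.ord (ρ u) := by
    rcases eq_or_ne (ρ u) 0 with h | h
    · rw [h, v.ord_zero]
    · exact (hw_mem_iff_ord_nonneg v h).1 (s44mo_rB_mem V1 r hker v hB u)
  refine Int.eq_one_of_dvd_one hu0 ⟨(n : ℤ) - m, ?_⟩
  linear_combination h1

include hB in
/-- **units of the local ring of the centre reduce to units of the place.** -/
theorem s44mo_ord_unit {z : F0}
    (hz : ∃ a s : B, a ∉ ssm_tp_P B (tori_comp V1 r hker v.toValuationSubring) ∧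
      s ∉ ssm_tp_P B (tori_comp V1 r hker v.toValuationSubring) ∧ z * (s : F0) = (a : F0)) :
    ∃ h : z ∈ V1, v.ord (r ⟨z, h⟩) = 0 := by
  obtain ⟨a, s, ha, hs, hzs⟩ := hz
  rw [ssm_tp_mem_P hB] at ha hs
  set 𝒱 := tori_comp V1 r hker v.toValuationSubring with h𝒱
  have hs0 : (s : F0) ≠ 0 := ssm_tp_ne_zero 𝒱 hs
  have hz' : z = (a : F0) * (s : F0)⁻¹ := by
    rw [← hzs, mul_assoc, mul_inv_cancel₀ hs0, mul_one]
  have hz𝒱 : z ∈ 𝒱 := by
    rw [hz']; exact 𝒱.mul_mem _ _ (hB _ a.2) (ssm_tp_inv_mem 𝒱 hs)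
  have hznu : z ∉ 𝒱.nonunits := by
    rw [hz']
    refine ssm_tp_mul_not_mem 𝒱 ha ?_
    intro h
    have h1 := ssm_tp_nonunits_mul 𝒱 h (hB _ s.2)
    rw [inv_mul_cancel₀ hs0] at h1
    exact ssm_tp_one_not_mem_nonunits 𝒱 h1
  obtain ⟨h1, h2⟩ := tori_comp_unit V1 r hker v.toValuationSubring hz𝒱 hznu
  exact ⟨hz𝒱.1, tori_sfd_ord_unit v h1 h2⟩

/-- `κ = Frac (r B)` when `r` is onto and `V1` is the localisation of `B` at `P1`. -/
theorem s44mo_hfrac (hsurj : Function.Surjective r)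
    (hloc : ∀ z ∈ V1, ∃ b s : B, s ∉ ssm_tp_P B V1 ∧ z * (s : F0) = (b : F0)) (y : κ) :
    ∃ b s : B, s44mo_rB V1 r hker v hB s ≠ 0 ∧
      y * s44mo_rB V1 r hker v hB s = s44mo_rB V1 r hker v hB b := by
  obtain ⟨z, rfl⟩ := hsurj y
  obtain ⟨b, s, hs, hzs⟩ := hloc (z : F0) z.2
  have hBV : ∀ b ∈ B, b ∈ V1 := fun b hb => (hB b hb).1
  rw [ssm_tp_mem_P hBV] at hs
  refine ⟨b, s, ?_, ?_⟩
  · intro h0
    have hs0 : (s : F0) ≠ 0 := ssm_tp_ne_zero V1 hs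
    have hsi : (s : F0)⁻¹ ∈ V1 := ssm_tp_inv_mem V1 hs
    have h1 : s44mo_rB V1 r hker v hB s * r ⟨(s : F0)⁻¹, hsi⟩ = 1 := by
      rw [s44mo_rB_apply, ← map_mul]
      have : (⟨(s : F0), hBV _ s.2⟩ * ⟨(s : F0)⁻¹, hsi⟩ : ↥V1) = 1 :=
        Subtype.ext (mul_inv_cancel₀ hs0)
      rw [this, map_one]
    rw [h0, zero_mul] at h1
    exact zero_ne_one h1
  · rw [s44mo_rB_apply, s44mo_rB_apply, ← map_mul]
    congr 1
    exact Subtype.ext hzs

end OrdU

section Nu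

variable {F0 : Type*} [Field F0] (V1 : ValuationSubring F0) {κ : Type*} [Field κ] (r : ↥V1 →+* κ)
  {k : Type*} [Field k] [Algebra k κ] (v : Place k κ)
  {ϖ : F0} (hϖ : ϖ ∈ V1.nonunits) (hϖ0 : ϖ ≠ 0)
  (hunif : ∀ z : F0, z ≠ 0 → ∃ n : ℤ, ssl_VUnit V1 (z / ϖ ^ n))

open scoped Classical in
/-- **the order along the component** `V1` (with uniformiser `ϖ`). -/
noncomputable def s44mo_w1 (z : F0) : ℤ :=
  if hz : z = 0 then 0 else (hunif z hz).choose

theorem s44mo_w1_spec {z : F0} (hz : z ≠ 0) :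
    ssl_VUnit V1 (z / ϖ ^ s44mo_w1 V1 hunif z) := by
  rw [s44mo_w1, dif_neg hz]
  exact (hunif z hz).choose_spec

include hϖ hϖ0 in
/-- the exponent is unique. -/
theorem s44mo_exp_unique {z : F0} {n m : ℤ} (hn : ssl_VUnit V1 (z / ϖ ^ n))
    (hm : ssl_VUnit V1 (z / ϖ ^ m)) : n = m := by
  have hz0 : z ≠ 0 := by
    intro h0
    apply hn.1
    rw [h0, zero_div]
  have h1 : ssl_VUnit V1 (ϖ ^ (m - n)) := by
    have := ssl_vUnit_div hn hm
    have e : z / ϖ ^ n / (z / ϖ ^ m) = ϖ ^ (m - n) := by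
      rw [zpow_sub₀ hϖ0]
      have h2 : ϖ ^ n ≠ 0 := zpow_ne_zero _ hϖ0
      have h3 : ϖ ^ m ≠ 0 := zpow_ne_zero _ hϖ0
      field_simp
    rwa [e] at this
  have h2 := (dsc_zpow_mem_iff hϖ hϖ0 (m - n)).1 h1.2.1
  have h3 : 0 ≤ n - m := by
    apply (dsc_zpow_mem_iff hϖ hϖ0 (n - m)).1
    have := h1.2.2
    rwa [← zpow_neg, neg_sub] at this
  omega

include hϖ hϖ0 in
theorem s44mo_w1_eq {z : F0} {n : ℤ} (hn : ssl_VUnit V1 (z / ϖ ^ n)) :
    s44mo_w1 V1 hunif z = n := by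
  have hz0 : z ≠ 0 := by
    intro h0
    apply hn.1
    rw [h0, zero_div]
  exact s44mo_exp_unique V1 hϖ hϖ0 (s44mo_w1_spec V1 hunif hz0) hn

include hϖ hϖ0 in
theorem s44mo_w1_mul {x y : F0} (hx : x ≠ 0) (hy : y ≠ 0) :
    s44mo_w1 V1 hunif (x * y) = s44mo_w1 V1 hunif x + s44mo_w1 V1 hunif y := by
  apply s44mo_w1_eq V1 hϖ hϖ0 hunif
  have := ssl_vUnit_mul (s44mo_w1_spec V1 hunif hx) (s44mo_w1_spec V1 hunif hy)
  have e : x / ϖ ^ s44mo_w1 V1 hunif x * (y / ϖ ^ s44mo_w1 V1 hunif y) =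
      x * y / ϖ ^ (s44mo_w1 V1 hunif x + s44mo_w1 V1 hunif y) := by
    rw [zpow_add₀ hϖ0]
    have h2 : ϖ ^ s44mo_w1 V1 hunif x ≠ 0 := zpow_ne_zero _ hϖ0
    have h3 : ϖ ^ s44mo_w1 V1 hunif y ≠ 0 := zpow_ne_zero _ hϖ0
    field_simp
  rwa [e] at this

include hϖ hϖ0 in
theorem s44mo_w1_unit {z : F0} (hz : ssl_VUnit V1 z) : s44mo_w1 V1 hunif z = 0 := by
  apply s44mo_w1_eq V1 hϖ hϖ0 hunif
  rwa [zpow_zero, div_one]

include hϖ hϖ0 in
theorem s44mo_w1_unif : s44mo_w1 V1 hunif ϖ = 1 := by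
  apply s44mo_w1_eq V1 hϖ hϖ0 hunif
  rw [zpow_one, div_self hϖ0]
  exact ssl_vUnit_one

open scoped Classical in
/-- **the order at the place `v` of the normalised reduction.** -/
noncomputable def s44mo_nu (z : F0) : ℤ :=
  if hz : z = 0 then 0
  else v.ord (r ⟨z / ϖ ^ s44mo_w1 V1 hunif z, (s44mo_w1_spec V1 hunif hz).2.1⟩)

include hϖ hϖ0 in
theorem s44mo_nu_eq {z : F0} {n : ℤ} (hn : ssl_VUnit V1 (z / ϖ ^ n)) :
    s44mo_nu V1 r v hunif z = v.ord (r ⟨z / ϖ ^ n, hn.2.1⟩) := by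
  have hz0 : z ≠ 0 := by
    intro h0
    apply hn.1
    rw [h0, zero_div]
  rw [s44mo_nu, dif_neg hz0]
  congr 2
  apply Subtype.ext
  show z / ϖ ^ s44mo_w1 V1 hunif z = z / ϖ ^ n
  rw [s44mo_w1_eq V1 hϖ hϖ0 hunif hn]

/-- the reduction of a unit of `V1` is nonzero. -/
theorem s44mo_r_unit_ne_zero {z : F0} (hz : ssl_VUnit V1 z) : r ⟨z, hz.2.1⟩ ≠ 0 := by
  intro h0
  have h1 : r ⟨z, hz.2.1⟩ * r ⟨z⁻¹, hz.2.2⟩ = 1 := by
    rw [← map_mul]
    have : (⟨z, hz.2.1⟩ * ⟨z⁻¹, hz.2.2⟩ : ↥V1) = 1 := Subtype.ext (mul_inv_cancel₀ hz.1)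
    rw [this, map_one]
  rw [h0, zero_mul] at h1
  exact zero_ne_one h1

include hϖ hϖ0 in
theorem s44mo_nu_mul {x y : F0} (hx : x ≠ 0) (hy : y ≠ 0) :
    s44mo_nu V1 r v hunif (x * y) = s44mo_nu V1 r v hunif x + s44mo_nu V1 r v hunif y := by
  have h1 := s44mo_w1_spec V1 hunif hx
  have h2 := s44mo_w1_spec V1 hunif hy
  have e : x * y / ϖ ^ (s44mo_w1 V1 hunif x + s44mo_w1 V1 hunif y) =
      x / ϖ ^ s44mo_w1 V1 hunif x * (y / ϖ ^ s44mo_w1 V1 hunif y) := by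
    rw [zpow_add₀ hϖ0]
    have h2 : ϖ ^ s44mo_w1 V1 hunif x ≠ 0 := zpow_ne_zero _ hϖ0
    have h3 : ϖ ^ s44mo_w1 V1 hunif y ≠ 0 := zpow_ne_zero _ hϖ0
    field_simp
  have h3 : ssl_VUnit V1 (x * y / ϖ ^ (s44mo_w1 V1 hunif x + s44mo_w1 V1 hunif y)) := by
    rw [e]; exact ssl_vUnit_mul h1 h2
  rw [s44mo_nu_eq V1 r v hϖ hϖ0 hunif h3, s44mo_nu_eq V1 r v hϖ hϖ0 hunif h1,
    s44mo_nu_eq V1 r v hϖ hϖ0 hunif h2,
    ← v.ord_mul (s44mo_r_unit_ne_zero V1 r h1) (s44mo_r_unit_ne_zero V1 r h2), ← map_mul]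
  congr 2
  exact Subtype.ext e

include hϖ hϖ0 in
theorem s44mo_nu_unit {z : F0} (hz : ssl_VUnit V1 z) :
    s44mo_nu V1 r v hunif z = v.ord (r ⟨z, hz.2.1⟩) := by
  have h1 : ssl_VUnit V1 (z / ϖ ^ (0 : ℤ)) := by rwa [zpow_zero, div_one]
  rw [s44mo_nu_eq V1 r v hϖ hϖ0 hunif h1]
  congr 2
  apply Subtype.ext
  show z / ϖ ^ (0 : ℤ) = z
  rw [zpow_zero, div_one]

include hϖ hϖ0 in
theorem s44mo_nu_unif : s44mo_nu V1 r v hunif ϖ = 0 := by
  have h1 : ssl_VUnit V1 (ϖ / ϖ ^ (1 : ℤ)) := by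
    rw [zpow_one, div_self hϖ0]; exact ssl_vUnit_one
  rw [s44mo_nu_eq V1 r v hϖ hϖ0 hunif h1]
  have : (⟨ϖ / ϖ ^ (1 : ℤ), h1.2.1⟩ : ↥V1) = 1 := by
    apply Subtype.ext
    show ϖ / ϖ ^ (1 : ℤ) = 1
    rw [zpow_one, div_self hϖ0]
  rw [this, map_one, v.ord_one]

end Nu

section Main

variable {A0 : Type*} [CommRing A0] {F0 : Type*} [Field F0] [Algebra A0 F0]
  {B : Subalgebra A0 F0} (V1 : ValuationSubring F0) {κ : Type*} [Field κ] (r : ↥V1 →+* κ)
  (hker : ∀ z : ↥V1, (z : F0) ∈ V1.nonunits → r z = 0)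
  {k : Type*} [Field k] [Algebra k κ] (v : Place k κ)
  (hB : ∀ b ∈ B, b ∈ tori_comp V1 r hker v.toValuationSubring)
  {ϖ : F0} (hϖ : ϖ ∈ V1.nonunits) (hϖ0 : ϖ ≠ 0)
  (hunif : ∀ z : F0, z ≠ 0 → ∃ n : ℤ, ssl_VUnit V1 (z / ϖ ^ n))

include hB in
/-- a unit of the local ring of the centre is a unit of `V1`. -/
theorem s44mo_unit_vUnit {z : F0}
    (hz : ∃ a s : B, a ∉ ssm_tp_P B (tori_comp V1 r hker v.toValuationSubring) ∧
      s ∉ ssm_tp_P B (tori_comp V1 r hker v.toValuationSubring) ∧ z * (s : F0) = (a : F0)) :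
    ssl_VUnit V1 z := by
  obtain ⟨a, s, ha, hs, hzs⟩ := hz
  have ha' := ha
  have hs' := hs
  rw [ssm_tp_mem_P hB] at ha' hs'
  set 𝒱 := tori_comp V1 r hker v.toValuationSubring with h𝒱
  have hs0 : (s : F0) ≠ 0 := ssm_tp_ne_zero 𝒱 hs'
  have ha0 : (a : F0) ≠ 0 := ssm_tp_ne_zero 𝒱 ha'
  have hz' : z = (a : F0) * (s : F0)⁻¹ := by
    rw [← hzs, mul_assoc, mul_inv_cancel₀ hs0, mul_one]
  have hz0 : z ≠ 0 := by rw [hz']; exact mul_ne_zero ha0 (inv_ne_zero hs0)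
  obtain ⟨h1, -⟩ := s44mo_ord_unit V1 r hker v hB ⟨a, s, ha, hs, hzs⟩
  have hzi : z⁻¹ * (a : F0) = (s : F0) := by
    rw [hz', mul_inv, inv_inv, mul_comm (a : F0)⁻¹, mul_assoc, inv_mul_cancel₀ ha0, mul_one]
  obtain ⟨h2, -⟩ := s44mo_ord_unit V1 r hker v hB ⟨s, a, hs, ha, hzi⟩
  exact ⟨hz0, h1, h2⟩

include hϖ hϖ0 in
/-- **(N4) THE NODE ORDER.**  The function `ν = s44mo_nu` has the properties asked by the slope formula
`s44n_slope_congr`: additive, `ν ϖ = 0`, `ν u = 1` for the coordinate `u` generating the centre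
modulo the component `P1`, `ν = 0` on the units of the local ring of the centre, and
`ν = ord_v ∘ r` on the units of `V1`. -/
theorem s44mo_main (u : B)
    (hu : u ∈ ssm_tp_P B (tori_comp V1 r hker v.toValuationSubring))
    (hgen : ∀ b ∈ ssm_tp_P B (tori_comp V1 r hker v.toValuationSubring),
      ∃ s : B, s ∉ ssm_tp_P B (tori_comp V1 r hker v.toValuationSubring) ∧
        ∃ c : B, s * b - u * c ∈ ssm_tp_P B V1)
    (hfrac : ∀ y : κ, ∃ b s : B, s44mo_rB V1 r hker v hB s ≠ 0 ∧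
      y * s44mo_rB V1 r hker v hB s = s44mo_rB V1 r hker v hB b) :
    (∀ x y : F0, x ≠ 0 → y ≠ 0 →
      s44mo_nu V1 r v hunif (x * y) = s44mo_nu V1 r v hunif x + s44mo_nu V1 r v hunif y) ∧
    s44mo_nu V1 r v hunif ϖ = 0 ∧
    s44mo_nu V1 r v hunif (u : F0) = 1 ∧
    (∀ z : F0, (∃ a s : B, a ∉ ssm_tp_P B (tori_comp V1 r hker v.toValuationSubring) ∧
      s ∉ ssm_tp_P B (tori_comp V1 r hker v.toValuationSubring) ∧ z * (s : F0) = (a : F0)) →
      s44mo_nu V1 r v hunif z = 0) ∧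
    (∀ (z : F0) (h : ssl_VUnit V1 z), s44mo_nu V1 r v hunif z = v.ord (r ⟨z, h.2.1⟩)) := by
  refine ⟨fun x y hx hy => s44mo_nu_mul V1 r v hϖ hϖ0 hunif hx hy,
    s44mo_nu_unif V1 r v hϖ hϖ0 hunif, ?_, fun z hz => ?_,
    fun z h => s44mo_nu_unit V1 r v hϖ hϖ0 hunif h⟩
  · have h1 := s44mo_ord_u V1 r hker v hB u hu hgen hfrac
    have hru0 : s44mo_rB V1 r hker v hB u ≠ 0 := by
      intro h0
      rw [h0, v.ord_zero] at h1
      exact zero_ne_one h1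
    have huV : (u : F0) ∈ V1 := (hB _ u.2).1
    have hunu : (u : F0) ∉ V1.nonunits := fun h => hru0 (hker ⟨(u : F0), huV⟩ h)
    have hvu : ssl_VUnit V1 (u : F0) := ssl_vUnit_of_not_mem_nonunits huV hunu
    rw [s44mo_nu_unit V1 r v hϖ hϖ0 hunif hvu]
    exact h1
  · have hvu := s44mo_unit_vUnit V1 r hker v hB hz
    rw [s44mo_nu_unit V1 r v hϖ hϖ0 hunif hvu]
    obtain ⟨h1, h2⟩ := s44mo_ord_unit V1 r hker v hB hz
    exact h2

end Main

end Fermat.Agent.S44
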