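/-
S44 project, cell [H2] MONO-MAIN, sub-cell [H2-N] (ND) NODE DICTIONARY, part (B) (helper12).
Prefix `s44mp_`.  Namespace `Fermat.Agent.S44`.

**THE ORDER AT THE PLACE `v` OF THE NORMALISED REDUCTION IS THE NORMALISED ORDER `ν` OF THE LOCAL RING
OF THE CENTRE** (helper4's axiomatic `s44nu_IsNu`, `Mono/NuDef.lean`).

`B` a chart (noetherian, integrally closed, `Frac B = F0`), `V1 ⊇ B` the valuation ring of the
component along which one reduces, `ϖ = π` a uniformiser of `V1`, `r : V1 →+* κ` ONTO a field,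
killing `𝔪(V1)`, `v` a place of `κ / k`, `𝒱' = tori_comp V1 r hker v` the composite valuation ring,
`𝔫 = 𝔪(𝒱') ∩ B` its centre, `S = B_𝔫 = ssl_locSub F0 𝔫`, `P∞ = 𝔪(V1) ∩ S = ssm_tp_P S V1`.
`Mono/NodeOrd.lean` is applied to the chart `S` itself:

* `s44mp_loc_le`, `s44mp_mem_max_iff`, `s44mp_centre` : `S ⊆ 𝒱'`, `𝔪_S = 𝔪(𝒱') ∩ S`;
* `s44mp_Pinf_eq_map` : `P∞ = (𝔪(V1) ∩ B) · S`;
* **`s44mp_isNu`** : for ALL `u w : S` with `𝔪_S = (π, u, w)`, `w ∈ P∞`: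
  `s44nu_IsNu π u P∞ (s44mo_nu V1 r v hunif)`.
-/
import Mathlib
import Fermat.Agent.S44.Mono.NodeOrd
import Fermat.Agent.S44.Mono.NuDef
import Fermat.Agent.SS.Local.Point

set_option autoImplicit false
set_option linter.unusedSectionVars false
set_option linter.unusedVariables false
set_option linter.style.haveILetI false

namespace Fermat.Agent.S44

open Fermat.Agent.SS Fermat.Agent.JT3 Fermat.Agent.S35 Fermat.Agent.S24 AlgebraicCurve IsLocalRing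

universe v

section Loc

variable {A0 : Type*} [CommRing A0] {F0 : Type v} [Field F0] [Algebra A0 F0]
variable {B : Subalgebra A0 F0} [IsFractionRing B F0] [IsNoetherianRing B] [IsIntegrallyClosed B]
variable (𝔫 : Ideal B) [h𝔫 : 𝔫.IsPrime]

/-- the local ring of the centre of a valuation ring lies in the valuation ring. -/
theorem s44mp_loc_le (𝒱 : ValuationSubring F0) (hB : ∀ b ∈ B, b ∈ 𝒱)
    (h𝔫eq : ∀ b : B, b ∈ 𝔫 ↔ (b : F0) ∈ 𝒱.nonunits) :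
    ∀ z ∈ ssl_locSub F0 𝔫, z ∈ 𝒱 := by
  intro z hz
  obtain ⟨a, s, hs, hzs⟩ := (ssl_mem_loc 𝔫).1 hz
  have hs' : (s : F0) ∉ 𝒱.nonunits := fun h => hs ((h𝔫eq s).2 h)
  have hs0 : (s : F0) ≠ 0 := ssm_tp_ne_zero 𝒱 hs'
  have : z = (a : F0) * (s : F0)⁻¹ := by
    rw [← hzs, mul_assoc, mul_inv_cancel₀ hs0, mul_one]
  rw [this]
  exact 𝒱.mul_mem _ _ (hB _ a.2) (ssm_tp_inv_mem 𝒱 hs')

/-- `𝔪_S = 𝔪(𝒱) ∩ S`. -/
theorem s44mp_mem_max_iff (𝒱 : ValuationSubring F0) (hB : ∀ b ∈ B, b ∈ 𝒱)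
    (h𝔫eq : ∀ b : B, b ∈ 𝔫 ↔ (b : F0) ∈ 𝒱.nonunits) (z : ssl_locSub F0 𝔫) :
    haveI := ssl_loc_isLocalRing (F0 := F0) 𝔫
    z ∈ maximalIdeal (ssl_locSub F0 𝔫) ↔ (z : F0) ∈ 𝒱.nonunits := by
  haveI := ssl_loc_isLocalRing (F0 := F0) 𝔫
  obtain ⟨a, s, hs, hzs⟩ := (ssl_mem_loc 𝔫).1 z.2
  have hs' : (s : F0) ∉ 𝒱.nonunits := fun h => hs ((h𝔫eq s).2 h)
  have hs0 : (s : F0) ≠ 0 := ssm_tp_ne_zero 𝒱 hs'
  have hza : (z : F0) = (a : F0) * (s : F0)⁻¹ := by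
    rw [← hzs, mul_assoc, mul_inv_cancel₀ hs0, mul_one]
  have hzs' : z * algebraMap B (ssl_locSub F0 𝔫) s = algebraMap B (ssl_locSub F0 𝔫) a :=
    Subtype.ext hzs
  have hsu : IsUnit (algebraMap B (ssl_locSub F0 𝔫) s) := ssl_loc_isUnit 𝔫 hs
  have h1 : z ∈ maximalIdeal (ssl_locSub F0 𝔫) ↔ a ∈ 𝔫 := by
    rw [← IsLocalization.AtPrime.to_map_mem_maximal_iff (ssl_locSub F0 𝔫) 𝔫 a, ← hzs']
    exact ((Ideal.mul_unit_mem_iff_mem _ hsu)).symm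
  rw [h1, h𝔫eq, hza]
  constructor
  · intro h
    exact ssm_tp_nonunits_mul 𝒱 h (ssm_tp_inv_mem 𝒱 hs')
  · intro h
    have := ssm_tp_nonunits_mul 𝒱 h (hB _ s.2)
    rwa [mul_assoc, inv_mul_cancel₀ hs0, mul_one] at this

/-- the centre of `𝒱` on `S` is the maximal ideal. -/
theorem s44mp_centre (𝒱 : ValuationSubring F0) (hB : ∀ b ∈ B, b ∈ 𝒱)
    (h𝔫eq : ∀ b : B, b ∈ 𝔫 ↔ (b : F0) ∈ 𝒱.nonunits) :
    haveI := ssl_loc_isLocalRing (F0 := F0) 𝔫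
    ssm_tp_P (ssl_locSub F0 𝔫) 𝒱 = maximalIdeal (ssl_locSub F0 𝔫) := by
  haveI := ssl_loc_isLocalRing (F0 := F0) 𝔫
  ext z
  rw [ssm_tp_mem_P (s44mp_loc_le 𝔫 𝒱 hB h𝔫eq), s44mp_mem_max_iff 𝔫 𝒱 hB h𝔫eq]

/-- `P∞ = (𝔪(V1) ∩ B) · S` for a valuation ring `V1 ⊇ B` whose centre lies in `𝔫`. -/
theorem s44mp_Pinf_eq_map (V1 : ValuationSubring F0) (hBV : ∀ b ∈ B, b ∈ V1)
    (hle : ssm_tp_P B V1 ≤ 𝔫) :
    ssm_tp_P (ssl_locSub F0 𝔫) V1 =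
      Ideal.map (algebraMap B (ssl_locSub F0 𝔫)) (ssm_tp_P B V1) := by
  have hSV : ∀ z ∈ ssl_locSub F0 𝔫, z ∈ V1 := by
    intro z hz
    obtain ⟨a, s, hs, hzs⟩ := (ssl_mem_loc 𝔫).1 hz
    have hs' : (s : F0) ∉ V1.nonunits := fun h => hs (hle ((ssm_tp_mem_P hBV).2 h))
    have hs0 : (s : F0) ≠ 0 := ssm_tp_ne_zero V1 hs'
    have : z = (a : F0) * (s : F0)⁻¹ := by
      rw [← hzs, mul_assoc, mul_inv_cancel₀ hs0, mul_one]
    rw [this]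
    exact V1.mul_mem _ _ (hBV _ a.2) (ssm_tp_inv_mem V1 hs')
  ext z
  rw [ssm_tp_mem_P hSV, IsLocalization.mem_map_algebraMap_iff 𝔫.primeCompl]
  constructor
  · intro hz
    obtain ⟨a, s, hs, hzs⟩ := (ssl_mem_loc 𝔫).1 z.2
    have ha : a ∈ ssm_tp_P B V1 := by
      rw [ssm_tp_mem_P hBV, ← hzs]
      exact ssm_tp_nonunits_mul V1 hz (hBV _ s.2)
    exact ⟨⟨⟨a, ha⟩, ⟨s, hs⟩⟩, Subtype.ext hzs⟩
  · rintro ⟨⟨⟨a, ha⟩, ⟨s, hs⟩⟩, h⟩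
    have hzs : (z : F0) * (s : F0) = (a : F0) :=
      congrArg (fun t : ssl_locSub F0 𝔫 => (t : F0)) h
    have hs' : (s : F0) ∉ V1.nonunits := fun h => hs (hle ((ssm_tp_mem_P hBV).2 h))
    have hs0 : (s : F0) ≠ 0 := ssm_tp_ne_zero V1 hs'
    have : (z : F0) = (a : F0) * (s : F0)⁻¹ := by
      rw [← hzs, mul_assoc, mul_inv_cancel₀ hs0, mul_one]
    rw [this]
    exact ssm_tp_nonunits_mul V1 ((ssm_tp_mem_P hBV).1 ha) (ssm_tp_inv_mem V1 hs')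

end Loc

section Main

variable {A0 : Type*} [CommRing A0] {F0 : Type v} [Field F0] [Algebra A0 F0]
variable {B : Subalgebra A0 F0} [IsFractionRing B F0] [IsNoetherianRing B] [IsIntegrallyClosed B]
variable (𝔫 : Ideal B) [h𝔫 : 𝔫.IsPrime]
variable (V1 : ValuationSubring F0) {κ : Type*} [Field κ] (r : ↥V1 →+* κ)
  (hker : ∀ z : ↥V1, (z : F0) ∈ V1.nonunits → r z = 0)
  {k : Type*} [Field k] [Algebra k κ] (v : Place k κ)
  (hB : ∀ b ∈ B, b ∈ tori_comp V1 r hker v.toValuationSubring)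
  (h𝔫eq : ∀ b : B, b ∈ 𝔫 ↔ (b : F0) ∈ (tori_comp V1 r hker v.toValuationSubring).nonunits)
  {π : A0} (hϖ : algebraMap A0 F0 π ∈ V1.nonunits) (hϖ0 : algebraMap A0 F0 π ≠ 0)
  (hunif : ∀ z : F0, z ≠ 0 → ∃ n : ℤ, ssl_VUnit V1 (z / algebraMap A0 F0 π ^ n))

include hB h𝔫eq hϖ hϖ0 in
/-- **(ND)(B): the order at `v` of the normalised reduction is the normalised order of the local ring
of the centre**, for EVERY pair of local coordinates `(u, w)` with `𝔪_S = (π, u, w)`, `w` on the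
branch `P∞ = 𝔪(V1) ∩ S`. -/
theorem s44mp_isNu (hsurj : Function.Surjective r)
    (hloc : ∀ z ∈ V1, ∃ b s : B, s ∉ ssm_tp_P B V1 ∧ z * (s : F0) = (b : F0))
    (u w : ssl_locSub F0 𝔫)
    (hm : haveI := ssl_loc_isLocalRing (F0 := F0) 𝔫
      maximalIdeal (ssl_locSub F0 𝔫) =
        Ideal.span {algebraMap B (ssl_locSub F0 𝔫) (algebraMap A0 B π), u, w})
    (hw : w ∈ ssm_tp_P (ssl_locSub F0 𝔫) V1) :
    haveI := ssl_loc_isLocalRing (F0 := F0) 𝔫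
    haveI := ssl_loc_isNoetherianRing (F0 := F0) 𝔫
    s44nu_IsNu (algebraMap B (ssl_locSub F0 𝔫) (algebraMap A0 B π)) u
      (ssm_tp_P (ssl_locSub F0 𝔫) V1) (s44mo_nu V1 r v hunif) := by
  haveI := ssl_loc_isLocalRing (F0 := F0) 𝔫
  haveI := ssl_loc_isNoetherianRing (F0 := F0) 𝔫
  set 𝒱 := tori_comp V1 r hker v.toValuationSubring with h𝒱
  have hS𝒱 : ∀ z ∈ (ssl_locSub F0 𝔫), z ∈ 𝒱 := s44mp_loc_le 𝔫 𝒱 hB h𝔫eq
  have hSV : ∀ z ∈ (ssl_locSub F0 𝔫), z ∈ V1 := fun z hz => (hS𝒱 z hz).1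
  have hcentre : ssm_tp_P (ssl_locSub F0 𝔫) 𝒱 = maximalIdeal (ssl_locSub F0 𝔫) := s44mp_centre 𝔫 𝒱 hB h𝔫eq
  have hlamP : (algebraMap B (ssl_locSub F0 𝔫) (algebraMap A0 B π)) ∈ ssm_tp_P (ssl_locSub F0 𝔫) V1 := by
    rw [ssm_tp_mem_P hSV]; exact hϖ
  -- the hypotheses of `s44mo_main` for the chart `(ssl_locSub F0 𝔫)`
  have hu : u ∈ ssm_tp_P (ssl_locSub F0 𝔫) 𝒱 := by
    rw [hcentre, hm]; exact Ideal.subset_span (by simp)
  have hgen : ∀ b ∈ ssm_tp_P (ssl_locSub F0 𝔫) 𝒱, ∃ s : (ssl_locSub F0 𝔫), s ∉ ssm_tp_P (ssl_locSub F0 𝔫) 𝒱 ∧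
      ∃ c : (ssl_locSub F0 𝔫), s * b - u * c ∈ ssm_tp_P (ssl_locSub F0 𝔫) V1 := by
    intro b hb
    rw [hcentre, hm] at hb
    obtain ⟨c1, z, hz, rfl⟩ := Ideal.mem_span_insert.1 hb
    obtain ⟨c2, z', hz', rfl⟩ := Ideal.mem_span_insert.1 hz
    obtain ⟨c3, rfl⟩ := Ideal.mem_span_singleton'.1 hz'
    refine ⟨1, ?_, c2, ?_⟩
    · rw [hcentre]
      exact fun h => (IsLocalRing.mem_maximalIdeal _).1 h isUnit_one
    · have : (1 : (ssl_locSub F0 𝔫)) * (c1 * (algebraMap B (ssl_locSub F0 𝔫) (algebraMap A0 B π)) + (c2 * u + c3 * w)) - u * c2 = c1 * (algebraMap B (ssl_locSub F0 𝔫) (algebraMap A0 B π)) + c3 * w := by ring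
      rw [this]
      exact (ssm_tp_P (ssl_locSub F0 𝔫) V1).add_mem ((ssm_tp_P (ssl_locSub F0 𝔫) V1).mul_mem_left _ hlamP)
        ((ssm_tp_P (ssl_locSub F0 𝔫) V1).mul_mem_left _ hw)
  have hlocS : ∀ z ∈ V1, ∃ b s : (ssl_locSub F0 𝔫), s ∉ ssm_tp_P (ssl_locSub F0 𝔫) V1 ∧ z * (s : F0) = (b : F0) := by
    intro z hz
    obtain ⟨b, s, hs, hzs⟩ := hloc z hz
    refine ⟨algebraMap B (ssl_locSub F0 𝔫) b, algebraMap B (ssl_locSub F0 𝔫) s, ?_, hzs⟩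
    rw [ssm_tp_mem_P hSV]
    rw [ssm_tp_mem_P (fun b hb => (hB b hb).1)] at hs
    exact hs
  have hfrac := s44mo_hfrac (B := (ssl_locSub F0 𝔫)) V1 r hker v hS𝒱 hsurj hlocS
  obtain ⟨hadd, hlam, hνu, hνunit, hνV⟩ :=
    s44mo_main (B := (ssl_locSub F0 𝔫)) V1 r hker v hS𝒱 hϖ hϖ0 hunif u hu hgen hfrac
  refine ⟨hadd, ?_, hlam, hνu, ?_⟩
  · intro ω
    refine hνunit _ ⟨(ω : (ssl_locSub F0 𝔫)), 1, ?_, ?_, ?_⟩
    · rw [hcentre]
      exact fun h => (IsLocalRing.mem_maximalIdeal _).1 h ω.isUnit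
    · rw [hcentre]
      exact fun h => (IsLocalRing.mem_maximalIdeal _).1 h isUnit_one
    · show ((ω : (ssl_locSub F0 𝔫)) : F0) * ((1 : (ssl_locSub F0 𝔫)) : F0) = ((ω : (ssl_locSub F0 𝔫)) : F0)
      rw [OneMemClass.coe_one, mul_one]
  · rintro x ⟨b, s, hb, hs, hxs⟩
    rw [ssm_tp_mem_P hSV] at hb hs
    have hxs' : (x - 1) * (s : F0) = (b : F0) := hxs
    have hs0 : (s : F0) ≠ 0 := ssm_tp_ne_zero V1 hs
    have hx1 : x - 1 ∈ V1.nonunits := by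
      have : x - 1 = (b : F0) * (s : F0)⁻¹ := by
        rw [← hxs', mul_assoc, mul_inv_cancel₀ hs0, mul_one]
      rw [this]
      exact ssm_tp_nonunits_mul V1 hb (ssm_tp_inv_mem V1 hs)
    have hxV : x ∈ V1 := by
      have : x = (x - 1) + 1 := by ring
      rw [this]
      exact V1.add_mem _ _ (ValuationSubring.nonunits_subset hx1) V1.one_mem
    have hxnu : x ∉ V1.nonunits := by
      intro h
      have := ssm_tp_nonunits_add V1 h (ssm_tp_nonunits_neg V1 hx1)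
      have e : x + -(x - 1) = 1 := by ring
      rw [e] at this
      exact ssm_tp_one_not_mem_nonunits V1 this
    have hvu : ssl_VUnit V1 x := ssl_vUnit_of_not_mem_nonunits hxV hxnu
    rw [hνV x hvu]
    have hr1 : r ⟨x, hvu.2.1⟩ = 1 := by
      have e : (⟨x, hvu.2.1⟩ : ↥V1) =
          ⟨x - 1, ValuationSubring.nonunits_subset hx1⟩ + 1 := by
        apply Subtype.ext
        show x = (x - 1) + 1
        ring
      rw [e, map_add, map_one, hker _ hx1, zero_add]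
    rw [hr1, v.ord_one]

end Main

end Fermat.Agent.S44
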