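/-
S44 project, cell [H2] MONO-MAIN, sub-cell [H2-N] (ND) NODE DICTIONARY, ABSTRACT LAYER (helper12;
architect's ruling R5 #4049/#4052/#4114).  Prefix `s44nd_`.  Namespace `Fermat.Agent.S44`.
NO Legendre cover, NO number field (the Legendre instance is `Mono/NodeDictLeg.lean`, helper28).

`φ : F' →+* E'` fields (base function field → cover), `W1 ≤ F'`, `V1 ≤ E'` valuation subrings
(the Gauss valuation rings of the component along which one reduces), `V1 ∩ φ F' = φ W1` (`hφ`).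
`red : W1 →+* κ0` and `r : V1 →+* κ` reduction maps (killing the maximal ideals; `κ0`, `κ` ANY
fields), `Q` a place of `κ0 / kA`.  `𝒱_0 := tori_comp W1 red _ O_Q` is the rank-2 valuation ring of
`F'` attached to `Q`.

* **(ND-ex)**   `s44nd_exists_ext` : there is a valuation subring `𝒲 ≤ κ` with
  `φ⁻¹ (tori_comp V1 r _ 𝒲) = 𝒱_0` (Chevalley, `IsLocalRing.exists_factor_valuationRing`).
  EVERYTHING BELOW takes `𝒲` with this property `hext` as a HYPOTHESIS.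
* **(ND-smooth)** `s44nd_unit` : `φ b` a unit of the local ring of the centre ⟹ `ord_Q (red b) = 0`.
* **(ND-mult)** `s44nd_mult` : if `𝒲 = O_v` for a place `v` of `κ` and `ord_Q ∘ red` takes the
  value `1` (`hCFE`: a constant field extension is unramified), there is `T > 0` with
  `ord_v (r (φ b)) = T · ord_Q (red b)` for every unit `b` of `W1`.
* **(ND-dvr)**  `s44nd_place` : if the local ring `S = B_𝔫` of the centre has `𝔪_S = (π, u, w)`,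
  `w` on the branch `P∞ = 𝔪(V1) ∩ S`, `u ∉ P∞`, then `𝒲` is a discrete valuation ring with
  uniformiser `r u`, i.e. `𝒲 = O_v` for a place `v`.
* **(ND-main)** `s44nd_main` : ∃ `T > 0`, `ν : E' → ℤ` with `s44nu_IsNu π u' P∞ ν` for ALL local
  coordinates `(u', w')` and `ν (φ b) = T · ord_Q (red b)` for all units `b` of `W1`.
-/
import Mathlib
import Fermat.Agent.S44.Mono.NodeNu

set_option autoImplicit false
set_option linter.unusedSectionVars false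
set_option linter.unusedVariables false
set_option linter.style.haveILetI false

namespace Fermat.Agent.S44

open Fermat.Agent.SS Fermat.Agent.JT3 Fermat.Agent.S35 Fermat.Agent.S24 AlgebraicCurve IsLocalRing

universe v

section Ext

variable {F' : Type*} [Field F'] {E' : Type v} [Field E'] (φ : F' →+* E')
  (W1 : ValuationSubring F') (V1 : ValuationSubring E')
  (hφ : ∀ x : F', φ x ∈ V1 ↔ x ∈ W1)

/-- `φ` restricted to the valuation rings `W1 → V1`. -/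
def s44nd_phi1 : ↥W1 →+* ↥V1 where
  toFun x := ⟨φ (x : F'), (hφ _).2 x.2⟩
  map_one' := Subtype.ext (map_one φ)
  map_mul' x y := Subtype.ext (map_mul φ _ _)
  map_zero' := Subtype.ext (map_zero φ)
  map_add' x y := Subtype.ext (map_add φ _ _)

@[simp] theorem s44nd_phi1_coe (x : ↥W1) : ((s44nd_phi1 φ W1 V1 hφ x : ↥V1) : E') = φ (x : F') := rfl

variable {κ0 : Type*} [Field κ0] (red : ↥W1 →+* κ0)
  (hker0 : ∀ z : ↥W1, (z : F') ∈ W1.nonunits → red z = 0) (W0 : ValuationSubring κ0)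
  {κ : Type*} [Field κ] (r : ↥V1 →+* κ) (hker : ∀ z : ↥V1, (z : E') ∈ V1.nonunits → r z = 0)

include hφ in
/-- **(ND-ex) EXTENSION OF THE RANK-2 VALUATION RING** `𝒱_0 = tori_comp W1 red _ W0` of `F'` to a
valuation ring `𝒱' = tori_comp V1 r _ 𝒲 ≤ V1` of `E'` with `φ⁻¹ 𝒱' = 𝒱_0`. -/
theorem s44nd_exists_ext :
    ∃ 𝒲 : ValuationSubring κ, ∀ x : F',
      φ x ∈ tori_comp V1 r hker 𝒲 ↔ x ∈ tori_comp W1 red hker0 W0 := by
  set 𝒱0 := tori_comp W1 red hker0 W0 with h𝒱0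
  have hle : ∀ x : ↥𝒱0, (x : F') ∈ W1 := fun x => (tori_comp_le W1 red hker0 W0) x.2
  let g : ↥𝒱0 →+* ↥V1 :=
    { toFun := fun x => ⟨φ (x : F'), (hφ _).2 (hle x)⟩
      map_one' := Subtype.ext (map_one φ)
      map_mul' := fun x y => Subtype.ext (map_mul φ _ _)
      map_zero' := Subtype.ext (map_zero φ)
      map_add' := fun x y => Subtype.ext (map_add φ _ _) }
  obtain ⟨𝒲, h𝒲, hloc⟩ := IsLocalRing.exists_factor_valuationRing (r.comp g)
  refine ⟨𝒲, fun x => ⟨?_, ?_⟩⟩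
  · rintro ⟨hxV, hxr⟩
    have hxW : x ∈ W1 := (hφ x).1 hxV
    by_contra hx0
    have hxne : x ≠ 0 := fun h => hx0 (h ▸ 𝒱0.zero_mem)
    have hxi : x⁻¹ ∈ 𝒱0 := (𝒱0.mem_or_inv_mem x).resolve_left hx0
    -- the image of `x⁻¹` is a unit of `𝒲`
    have h1 : (r.comp g) ⟨x⁻¹, hxi⟩ * r ⟨φ x, hxV⟩ = 1 := by
      show r (g ⟨x⁻¹, hxi⟩) * r ⟨φ x, hxV⟩ = 1
      rw [← map_mul]
      have : g ⟨x⁻¹, hxi⟩ * ⟨φ x, hxV⟩ = 1 := by
        apply Subtype.ext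
        show φ x⁻¹ * φ x = 1
        rw [← map_mul, inv_mul_cancel₀ hxne, map_one]
      rw [this, map_one]
    have hu : IsUnit ((r.comp g).codRestrict 𝒲.toSubring h𝒲 ⟨x⁻¹, hxi⟩) := by
      refine IsUnit.of_mul_eq_one (⟨r ⟨φ x, hxV⟩, hxr⟩ : ↥𝒲.toSubring) ?_
      exact Subtype.ext h1
    have hu' : IsUnit (⟨x⁻¹, hxi⟩ : ↥𝒱0) := hloc.map_nonunit _ hu
    obtain ⟨y, hy⟩ := hu'.exists_right_inv
    have hy' : x⁻¹ * (y : F') = 1 := congrArg (fun t : ↥𝒱0 => (t : F')) hy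
    have : (y : F') = x := by
      have := congrArg (fun t => x * t) hy'
      simp only [← mul_assoc, mul_inv_cancel₀ hxne, one_mul, mul_one] at this
      exact this
    exact hx0 (this ▸ y.2)
  · intro hx
    have hxW : x ∈ W1 := (tori_comp_le W1 red hker0 W0) hx
    refine ⟨(hφ x).2 hxW, ?_⟩
    exact h𝒲 ⟨x, hx⟩

end Ext

section Mult

variable {F' : Type*} [Field F'] {E' : Type v} [Field E'] (φ : F' →+* E')
  (W1 : ValuationSubring F') (V1 : ValuationSubring E')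
  (hφ : ∀ x : F', φ x ∈ V1 ↔ x ∈ W1)
  {κ0 : Type*} [Field κ0] (red : ↥W1 →+* κ0)
  (hker0 : ∀ z : ↥W1, (z : F') ∈ W1.nonunits → red z = 0)
  {kA : Type*} [Field kA] [Algebra kA κ0] (Q : Place kA κ0)
  {κ : Type*} [Field κ] (r : ↥V1 →+* κ) (hker : ∀ z : ↥V1, (z : E') ∈ V1.nonunits → r z = 0)
  (𝒲 : ValuationSubring κ)
  (hext : ∀ x : F', φ x ∈ tori_comp V1 r hker 𝒲 ↔
    x ∈ tori_comp W1 red hker0 Q.toValuationSubring)

omit [Algebra kA κ0] in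
/-- the reduction of a unit is nonzero. -/
theorem s44nd_red_ne_zero {b : ↥W1} (hb : IsUnit b) : red b ≠ 0 := (hb.map red).ne_zero

include hext in
/-- the non-negative cones of `ord_Q ∘ red` and of "`r ∘ φ ∈ 𝒲`" agree on `W1`. -/
theorem s44nd_cone (b : ↥W1) :
    r (s44nd_phi1 φ W1 V1 hφ b) ∈ 𝒲 ↔ red b ∈ Q.toValuationSubring := by
  have h := hext (b : F')
  rw [tori_comp_mem_iff, tori_comp_mem_iff] at h
  constructor
  · intro h1
    obtain ⟨h2, h3⟩ := h.1 ⟨(hφ _).2 b.2, h1⟩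
    exact h3
  · intro h1
    obtain ⟨h2, h3⟩ := h.2 ⟨b.2, h1⟩
    exact h3

include hext in
/-- **(ND-smooth)**: if `φ b` is a unit of the composite valuation ring `𝒱'` (e.g. a unit of the
local ring of its centre on a chart), then `ord_Q (red b) = 0`. -/
theorem s44nd_unit {b : ↥W1} (hb : IsUnit b)
    (h1 : φ (b : F') ∈ tori_comp V1 r hker 𝒲) (h2 : (φ (b : F'))⁻¹ ∈ tori_comp V1 r hker 𝒲) :
    Q.ord (red b) = 0 := by
  obtain ⟨c, hc⟩ := hb.exists_right_inv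
  have hcF : (b : F') * (c : F') = 1 := congrArg (fun t : ↥W1 => (t : F')) hc
  have hb0 : (b : F') ≠ 0 := left_ne_zero_of_mul_eq_one hcF
  have hcinv : (c : F') = (b : F')⁻¹ := eq_inv_of_mul_eq_one_right hcF
  have hrb : red b * red c = 1 := by rw [← map_mul, hc, map_one]
  have hrb0 : red b ≠ 0 := left_ne_zero_of_mul_eq_one hrb
  have hrc : red c = (red b)⁻¹ := eq_inv_of_mul_eq_one_right hrb
  have hm1 : red b ∈ Q.toValuationSubring := by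
    have := (hext (b : F')).1 h1
    rw [tori_comp_mem_iff] at this
    exact this.2
  have hm2 : (red b)⁻¹ ∈ Q.toValuationSubring := by
    have h3 : φ (c : F') ∈ tori_comp V1 r hker 𝒲 := by rw [hcinv, map_inv₀]; exact h2
    have := (hext (c : F')).1 h3
    rw [tori_comp_mem_iff] at this
    rw [← hrc]
    exact this.2
  have h5 := (hw_mem_iff_ord_nonneg Q hrb0).1 hm1
  have h6 := (hw_mem_iff_ord_nonneg Q (inv_ne_zero hrb0)).1 hm2
  rw [Q.ord_inv] at h6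
  omega

include hext in
/-- the maximal ideals correspond: `φ x ∈ 𝔪(𝒱') ↔ x ∈ 𝔪(𝒱_0)`. -/
theorem s44nd_nonunits_iff (x : F') :
    φ x ∈ (tori_comp V1 r hker 𝒲).nonunits ↔
      x ∈ (tori_comp W1 red hker0 Q.toValuationSubring).nonunits := by
  rw [ValuationSubring.mem_nonunits_iff_or, ValuationSubring.mem_nonunits_iff_or, map_eq_zero,
    ← map_inv₀, hext]

include hext in
/-- `red b ∈ 𝔪_Q ⟹ φ b ∈ 𝔪(𝒱')` (the form used by (SS⟹NODE)). -/
theorem s44nd_mem_nonunits_of_red {b : ↥W1} (hb : red b ∈ Q.toValuationSubring.nonunits) :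
    φ (b : F') ∈ (tori_comp V1 r hker 𝒲).nonunits := by
  rw [s44nd_nonunits_iff φ W1 V1 red hker0 Q r hker 𝒲 hext, tori_comp_mem_nonunits_iff]
  exact ⟨b.2, hb⟩

variable {k : Type*} [Field k] [Algebra k κ] (v : Place k κ)
  (hextv : ∀ x : F', φ x ∈ tori_comp V1 r hker v.toValuationSubring ↔
    x ∈ tori_comp W1 red hker0 Q.toValuationSubring)

include hextv in
/-- **(ND-mult) THE MULTIPLIER**: when `𝒲 = O_v` for a place `v` of `κ` and `ord_Q ∘ red` takes the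
value `1` on `W1`, there is ONE integer `T > 0` with `ord_v (r (φ b)) = T · ord_Q (red b)` for every
unit `b` of `W1`. -/
theorem s44nd_mult (hCFE : ∃ t : ↥W1, Q.ord (red t) = 1) :
    ∃ T : ℕ, 0 < T ∧ ∀ b : ↥W1, IsUnit b →
      v.ord (r (s44nd_phi1 φ W1 V1 hφ b)) = (T : ℤ) * Q.ord (red b) := by
  set φ1 := s44nd_phi1 φ W1 V1 hφ with hφ1
  -- the two homomorphisms on units
  have hψ0 : ∀ b : ↥W1, IsUnit b → r (φ1 b) ≠ 0 := fun b hb => ((hb.map φ1).map r).ne_zero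
  have hχ0 : ∀ b : ↥W1, IsUnit b → red b ≠ 0 := fun b hb => (hb.map red).ne_zero
  have hcone : ∀ b : ↥W1, IsUnit b → (0 ≤ v.ord (r (φ1 b)) ↔ 0 ≤ Q.ord (red b)) := by
    intro b hb
    rw [← hw_mem_iff_ord_nonneg v (hψ0 b hb), ← hw_mem_iff_ord_nonneg Q (hχ0 b hb)]
    exact s44nd_cone φ W1 V1 hφ red hker0 Q r hker v.toValuationSubring hextv b
  have hzero : ∀ b : ↥W1, IsUnit b → Q.ord (red b) = 0 → v.ord (r (φ1 b)) = 0 := by
    intro b hb h0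
    obtain ⟨c, hc⟩ := hb.exists_right_inv
    have hcu : IsUnit c := IsUnit.of_mul_eq_one b (by rw [mul_comm]; exact hc)
    have e1 : Q.ord (red b) + Q.ord (red c) = 0 := by
      rw [← Q.ord_mul (hχ0 b hb) (hχ0 c hcu), ← map_mul, hc, map_one, Q.ord_one]
    have e2 : v.ord (r (φ1 b)) + v.ord (r (φ1 c)) = 0 := by
      rw [← v.ord_mul (hψ0 b hb) (hψ0 c hcu), ← map_mul, ← map_mul, hc, map_one, map_one,
        v.ord_one]
    have h1 := (hcone b hb).2 (by omega)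
    have h2 := (hcone c hcu).2 (by omega)
    omega
  obtain ⟨t, ht⟩ := hCFE
  have htne : red t ≠ 0 := by
    intro h
    rw [h, Q.ord_zero] at ht
    exact zero_ne_one ht
  have htu : IsUnit t := by
    by_contra hnu
    apply htne
    apply hker0
    rw [ValuationSubring.mem_nonunits_iff_exists_mem_maximalIdeal]
    exact ⟨t.2, (IsLocalRing.mem_maximalIdeal _).2 hnu⟩
  have hT0 : 0 ≤ v.ord (r (φ1 t)) := (hcone t htu).2 (by omega)
  have hTne : v.ord (r (φ1 t)) ≠ 0 := by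
    intro h0
    obtain ⟨c, hc⟩ := htu.exists_right_inv
    have hcu : IsUnit c := IsUnit.of_mul_eq_one t (by rw [mul_comm]; exact hc)
    have e1 : Q.ord (red t) + Q.ord (red c) = 0 := by
      rw [← Q.ord_mul (hχ0 t htu) (hχ0 c hcu), ← map_mul, hc, map_one, Q.ord_one]
    have e2 : v.ord (r (φ1 t)) + v.ord (r (φ1 c)) = 0 := by
      rw [← v.ord_mul (hψ0 t htu) (hψ0 c hcu), ← map_mul, ← map_mul, hc, map_one, map_one,
        v.ord_one]
    have h2 := (hcone c hcu).1 (by omega)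
    omega
  refine ⟨(v.ord (r (φ1 t))).toNat, by omega, fun b hb => ?_⟩
  rw [Int.toNat_of_nonneg hT0]
  -- `b = c · t ^ n` with `ord_Q (red c) = 0`
  obtain ⟨tu, rfl⟩ := htu
  obtain ⟨bu, rfl⟩ := hb
  obtain ⟨n, hn⟩ : ∃ n : ℤ, n = Q.ord (red (bu : ↥W1)) := ⟨_, rfl⟩
  have key : ∀ (x : (↥W1)ˣ) (m : ℤ),
      Q.ord (red ((x ^ m : (↥W1)ˣ) : ↥W1)) = m * Q.ord (red (x : ↥W1)) ∧
      v.ord (r (φ1 ((x ^ m : (↥W1)ˣ) : ↥W1))) = m * v.ord (r (φ1 (x : ↥W1))) := by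
    intro x m
    have h1 : red ((x ^ m : (↥W1)ˣ) : ↥W1) = (red (x : ↥W1)) ^ m := by
      have h2 := congrArg (fun y : κ0ˣ => (y : κ0))
        ((Units.map (red : ↥W1 →* κ0)).map_zpow x m)
      simp only [Units.coe_map, Units.val_zpow_eq_zpow_val] at h2
      exact h2
    have h2 : r (φ1 ((x ^ m : (↥W1)ˣ) : ↥W1)) = (r (φ1 (x : ↥W1))) ^ m := by
      have h3 := congrArg (fun y : κˣ => (y : κ))
        ((Units.map ((r.comp φ1 : ↥W1 →+* κ) : ↥W1 →* κ)).map_zpow x m)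
      simp only [Units.coe_map, Units.val_zpow_eq_zpow_val] at h3
      exact h3
    rw [h1, h2, Q.ord_zpow, v.ord_zpow]
    exact ⟨rfl, rfl⟩
  obtain ⟨cu, hcu⟩ : ∃ cu : (↥W1)ˣ, cu = bu * tu ^ (-n) := ⟨_, rfl⟩
  have hb_eq : bu = cu * tu ^ n := by
    rw [hcu, mul_assoc, ← zpow_add, neg_add_cancel, zpow_zero, mul_one]
  have hcχ : Q.ord (red (cu : ↥W1)) = 0 := by
    rw [hcu, Units.val_mul, map_mul, Q.ord_mul (hχ0 _ bu.isUnit) (hχ0 _ (tu ^ (-n)).isUnit),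
      (key tu (-n)).1, ht, ← hn]
    ring
  have hcψ := hzero (cu : ↥W1) cu.isUnit hcχ
  have hL : v.ord (r (φ1 (bu : ↥W1))) = n * v.ord (r (φ1 (tu : ↥W1))) := by
    rw [hb_eq, Units.val_mul, map_mul, map_mul,
      v.ord_mul (hψ0 _ cu.isUnit) (hψ0 _ (tu ^ n).isUnit), hcψ, (key tu n).2, zero_add]
  rw [hL, ← hn]
  ring

end Mult

section DvrAbs

variable {κ : Type*} [Field κ] (𝒲 : ValuationSubring κ)

/-- a positive power of a non-unit is a non-unit. -/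
theorem s44nd_pow_mem_nonunits {t : κ} (ht : t ∈ 𝒲.nonunits) {m : ℕ} (hm : m ≠ 0) :
    t ^ m ∈ 𝒲.nonunits := by
  obtain ⟨j, rfl⟩ := Nat.exists_eq_succ_of_ne_zero hm
  rw [pow_succ, mul_comm]
  exact ssm_tp_nonunits_mul 𝒲 ht (𝒲.pow_mem (ValuationSubring.nonunits_subset ht) j)

/-- **a valuation ring in which every nonzero element of the field is a power of a fixed non-unit
`t` times a unit is a discrete valuation ring** (with uniformiser `t`). -/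
theorem s44nd_dvr_of_unif {t : κ} (ht0 : t ≠ 0) (ht : t ∈ 𝒲.nonunits)
    (hfac : ∀ y : κ, y ≠ 0 → ∃ (n : ℤ) (ε : κ), ε ∈ 𝒲 ∧ ε⁻¹ ∈ 𝒲 ∧ y = t ^ n * ε) :
    IsDiscreteValuationRing ↥𝒲 ∧
      Irreducible (⟨t, ValuationSubring.nonunits_subset ht⟩ : ↥𝒲) := by
  set p : ↥𝒲 := ⟨t, ValuationSubring.nonunits_subset ht⟩ with hp
  have hp0 : p ≠ 0 := fun h => ht0 (congrArg (fun z : ↥𝒲 => (z : κ)) h)
  -- nonzero elements of `𝒲` are `p ^ m · unit`
  have hfac' : ∀ x : ↥𝒲, x ≠ 0 → ∃ (m : ℕ) (ω : (↥𝒲)ˣ), x = p ^ m * (ω : ↥𝒲) := by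
    intro x hx
    have hx0 : (x : κ) ≠ 0 := fun h => hx (Subtype.ext h)
    obtain ⟨n, ε, hε, hεi, hxe⟩ := hfac (x : κ) hx0
    have hε0 : ε ≠ 0 := by
      rintro rfl
      rw [mul_zero] at hxe
      exact hx0 hxe
    have hn : 0 ≤ n := by
      by_contra hneg
      push Not at hneg
      obtain ⟨m, hm⟩ := Int.exists_eq_neg_ofNat hneg.le
      have hm0 : m ≠ 0 := by
        rintro rfl
        simp at hm
        omega
      have h1 : t ^ m * (x : κ) = ε := by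
        rw [hxe, hm, zpow_neg, zpow_natCast, ← mul_assoc, mul_inv_cancel₀ (pow_ne_zero m ht0),
          one_mul]
      have h2 : ε ∈ 𝒲.nonunits := by
        rw [← h1]
        exact ssm_tp_nonunits_mul 𝒲 (s44nd_pow_mem_nonunits 𝒲 ht hm0) x.2
      have h3 := ssm_tp_nonunits_mul 𝒲 h2 hεi
      rw [mul_inv_cancel₀ hε0] at h3
      exact ssm_tp_one_not_mem_nonunits 𝒲 h3
    obtain ⟨m, rfl⟩ := Int.eq_ofNat_of_zero_le hn
    refine ⟨m, ⟨⟨ε, hε⟩, ⟨ε⁻¹, hεi⟩, Subtype.ext (mul_inv_cancel₀ hε0),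
      Subtype.ext (inv_mul_cancel₀ hε0)⟩, ?_⟩
    apply Subtype.ext
    show (x : κ) = t ^ m * ε
    rw [hxe, zpow_natCast]
  have hpnu : ¬ IsUnit p := by
    intro hu
    obtain ⟨q, hq⟩ := hu.exists_right_inv
    have hq' : t * (q : κ) = 1 := congrArg (fun z : ↥𝒲 => (z : κ)) hq
    have := ssm_tp_nonunits_mul 𝒲 ht q.2
    rw [hq'] at this
    exact ssm_tp_one_not_mem_nonunits 𝒲 this
  have hmax : maximalIdeal ↥𝒲 = Ideal.span {p} := by
    apply le_antisymm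
    · intro x hx
      rcases eq_or_ne x 0 with rfl | hx0
      · exact Ideal.zero_mem _
      · obtain ⟨m, ω, rfl⟩ := hfac' x hx0
        have hm0 : m ≠ 0 := by
          rintro rfl
          rw [pow_zero, one_mul] at hx
          exact (IsLocalRing.mem_maximalIdeal _).1 hx ω.isUnit
        obtain ⟨j, rfl⟩ := Nat.exists_eq_succ_of_ne_zero hm0
        rw [Ideal.mem_span_singleton]
        exact ⟨p ^ j * (ω : ↥𝒲), by rw [Nat.succ_eq_add_one, pow_succ]; ring⟩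
    · rw [Ideal.span_le, Set.singleton_subset_iff]
      exact (IsLocalRing.mem_maximalIdeal _).2 hpnu
  have hirr : Irreducible p := IsDiscreteValuationRing.irreducible_of_span_eq_maximalIdeal p hp0 hmax
  refine ⟨IsDiscreteValuationRing.ofHasUnitMulPowIrreducibleFactorization ⟨p, hirr, ?_⟩, hirr⟩
  intro x hx
  obtain ⟨m, ω, rfl⟩ := hfac' x hx
  exact ⟨m, ⟨ω, rfl⟩⟩

end DvrAbs

section Dvr

variable {A0 : Type*} [CommRing A0] {F0 : Type v} [Field F0] [Algebra A0 F0]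
variable {B : Subalgebra A0 F0} [IsFractionRing B F0] [IsNoetherianRing B] [IsIntegrallyClosed B]
variable (𝔫 : Ideal B) [h𝔫 : 𝔫.IsPrime]
variable (V1 : ValuationSubring F0) {κ : Type*} [Field κ] (r : ↥V1 →+* κ)
  (hker : ∀ z : ↥V1, (z : F0) ∈ V1.nonunits → r z = 0) (𝒲 : ValuationSubring κ)
  (hB : ∀ b ∈ B, b ∈ tori_comp V1 r hker 𝒲)
  (h𝔫eq : ∀ b : B, b ∈ 𝔫 ↔ (b : F0) ∈ (tori_comp V1 r hker 𝒲).nonunits)
  {π : A0} (hϖ : algebraMap A0 F0 π ∈ V1.nonunits)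

include hB h𝔫eq hϖ in
/-- **(ND-dvr)**: if the local ring `S = B_𝔫` of the centre of `𝒱' = tori_comp V1 r _ 𝒲` has
`𝔪_S = (π, u, w)` with `w` on the branch `P∞ = 𝔪(V1) ∩ S` and `u ∉ P∞` (a node, or a smooth point of
the component), then `𝒲` is a DISCRETE valuation ring, with uniformiser `r u`. -/
theorem s44nd_dvr (hsurj : Function.Surjective r)
    (hloc : ∀ z ∈ V1, ∃ b s : B, s ∉ ssm_tp_P B V1 ∧ z * (s : F0) = (b : F0))
    (u w : ssl_locSub F0 𝔫)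
    (hm : haveI := ssl_loc_isLocalRing (F0 := F0) 𝔫
      maximalIdeal (ssl_locSub F0 𝔫) =
        Ideal.span {algebraMap B (ssl_locSub F0 𝔫) (algebraMap A0 B π), u, w})
    (hw : w ∈ ssm_tp_P (ssl_locSub F0 𝔫) V1) (hu : u ∉ ssm_tp_P (ssl_locSub F0 𝔫) V1) :
    IsDiscreteValuationRing ↥𝒲 ∧ 𝒲 ≠ ⊤ := by
  haveI := ssl_loc_isLocalRing (F0 := F0) 𝔫
  haveI := ssl_loc_isNoetherianRing (F0 := F0) 𝔫
  set 𝒱 := tori_comp V1 r hker 𝒲 with h𝒱
  have hS𝒱 : ∀ z ∈ ssl_locSub F0 𝔫, z ∈ 𝒱 := s44mp_loc_le 𝔫 𝒱 hB h𝔫eq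
  have hSV : ∀ z ∈ ssl_locSub F0 𝔫, z ∈ V1 := fun z hz => (hS𝒱 z hz).1
  haveI hPprime : (ssm_tp_P (ssl_locSub F0 𝔫) V1).IsPrime := ssm_tp_P_isPrime hSV
  have hlamP : algebraMap B (ssl_locSub F0 𝔫) (algebraMap A0 B π) ∈
      ssm_tp_P (ssl_locSub F0 𝔫) V1 := by
    rw [ssm_tp_mem_P hSV]; exact hϖ
  -- the reduction of the local ring
  let ιS : ↥(ssl_locSub F0 𝔫) →+* ↥V1 :=
    { toFun := fun z => ⟨(z : F0), hSV z z.2⟩
      map_one' := rfl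
      map_mul' := fun _ _ => rfl
      map_zero' := rfl
      map_add' := fun _ _ => rfl }
  set rS : ↥(ssl_locSub F0 𝔫) →+* κ := r.comp ιS with hrS
  have hrS_apply : ∀ z : ssl_locSub F0 𝔫, rS z = r ⟨(z : F0), hSV z z.2⟩ := fun z => rfl
  have hkill : ∀ z : ssl_locSub F0 𝔫, z ∈ ssm_tp_P (ssl_locSub F0 𝔫) V1 → rS z = 0 := by
    intro z hz
    rw [ssm_tp_mem_P hSV] at hz
    exact hker _ hz
  have hne : ∀ z : ssl_locSub F0 𝔫, z ∉ ssm_tp_P (ssl_locSub F0 𝔫) V1 → rS z ≠ 0 := by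
    intro z hz
    rw [ssm_tp_mem_P hSV] at hz
    exact s44mo_r_unit_ne_zero V1 r (ssl_vUnit_of_not_mem_nonunits (hSV z z.2) hz)
  have hmem𝒲 : ∀ z : ssl_locSub F0 𝔫, rS z ∈ 𝒲 := fun z => (hS𝒱 z z.2).2
  have hunit : ∀ ω : (ssl_locSub F0 𝔫)ˣ, rS (ω : ssl_locSub F0 𝔫) ∈ 𝒲 ∧
      (rS (ω : ssl_locSub F0 𝔫))⁻¹ ∈ 𝒲 := by
    intro ω
    refine ⟨hmem𝒲 _, ?_⟩
    have h1 : rS (ω : ssl_locSub F0 𝔫) * rS ((ω⁻¹ : (ssl_locSub F0 𝔫)ˣ) : ssl_locSub F0 𝔫) = 1 := by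
      rw [← map_mul, ← Units.val_mul, mul_inv_cancel, Units.val_one, map_one]
    rw [← eq_inv_of_mul_eq_one_right h1]
    exact hmem𝒲 _
  -- every element outside `P∞` reduces to `(r u) ^ j · unit`
  have hdec : ∀ a : ssl_locSub F0 𝔫, a ∉ ssm_tp_P (ssl_locSub F0 𝔫) V1 →
      ∃ (j : ℕ) (ε : κ), ε ∈ 𝒲 ∧ ε⁻¹ ∈ 𝒲 ∧ rS a = rS u ^ j * ε := by
    intro a ha
    obtain ⟨j, ω, t0, ht0, hat⟩ :=
      s44nu_decomp hm (ssm_tp_P (ssl_locSub F0 𝔫) V1) hlamP hw ha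
    refine ⟨j, rS (ω : ssl_locSub F0 𝔫), (hunit ω).1, (hunit ω).2, ?_⟩
    rw [hat, map_add, map_mul, map_pow, hkill t0 ht0, add_zero]
  have ht0 : rS u ≠ 0 := hne u hu
  have ht : rS u ∈ 𝒲.nonunits := by
    have humax : u ∈ maximalIdeal (ssl_locSub F0 𝔫) := by
      rw [hm]; exact Ideal.subset_span (by simp)
    have h1 := (s44mp_mem_max_iff 𝔫 𝒱 hB h𝔫eq u).1 humax
    rw [tori_comp_mem_nonunits_iff] at h1
    obtain ⟨h2, h3⟩ := h1
    exact h3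
  have hfac : ∀ y : κ, y ≠ 0 → ∃ (n : ℤ) (ε : κ), ε ∈ 𝒲 ∧ ε⁻¹ ∈ 𝒲 ∧ y = rS u ^ n * ε := by
    intro y hy
    obtain ⟨z, rfl⟩ := hsurj y
    obtain ⟨b, s, hs, hzs⟩ := hloc (z : F0) z.2
    have hBV : ∀ b ∈ B, b ∈ V1 := fun b hb => (hB b hb).1
    rw [ssm_tp_mem_P hBV] at hs
    have hsS : algebraMap B (ssl_locSub F0 𝔫) s ∉ ssm_tp_P (ssl_locSub F0 𝔫) V1 := by
      rw [ssm_tp_mem_P hSV]; exact hs
    have hmul : r z * rS (algebraMap B (ssl_locSub F0 𝔫) s) =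
        rS (algebraMap B (ssl_locSub F0 𝔫) b) := by
      rw [hrS_apply, hrS_apply, ← map_mul]
      congr 1
      exact Subtype.ext hzs
    have hs0 := hne _ hsS
    have hbS : algebraMap B (ssl_locSub F0 𝔫) b ∉ ssm_tp_P (ssl_locSub F0 𝔫) V1 := by
      intro hmem
      have := hkill _ hmem
      rw [← hmul] at this
      exact (mul_ne_zero hy hs0) this
    obtain ⟨j, ε, hε, hεi, hbe⟩ := hdec _ hbS
    obtain ⟨j', ε', hε', hεi', hse⟩ := hdec _ hsS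
    have hε0 : ε ≠ 0 := by
      rintro rfl
      rw [mul_zero] at hbe
      exact (hne _ hbS) hbe
    have hε0' : ε' ≠ 0 := by
      rintro rfl
      rw [mul_zero] at hse
      exact hs0 hse
    refine ⟨(j : ℤ) - j', ε * ε'⁻¹, 𝒲.mul_mem _ _ hε hεi', ?_, ?_⟩
    · rw [mul_inv, inv_inv]
      exact 𝒲.mul_mem _ _ hεi hε'
    · have h1 : r z = rS (algebraMap B (ssl_locSub F0 𝔫) b) *
          (rS (algebraMap B (ssl_locSub F0 𝔫) s))⁻¹ := by
        rw [← hmul, mul_assoc, mul_inv_cancel₀ hs0, mul_one]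
      rw [h1, hbe, hse, zpow_sub₀ ht0, zpow_natCast, zpow_natCast]
      have h2 : rS u ^ j' ≠ 0 := pow_ne_zero _ ht0
      field_simp
  refine ⟨(s44nd_dvr_of_unif 𝒲 ht0 ht hfac).1, ?_⟩
  intro htop
  have h1 : (rS u)⁻¹ ∈ 𝒲 := by rw [htop]; exact ValuationSubring.mem_top _
  have := ssm_tp_nonunits_mul 𝒲 ht h1
  rw [mul_inv_cancel₀ ht0] at this
  exact ssm_tp_one_not_mem_nonunits 𝒲 this

include hB h𝔫eq hϖ in
/-- **(ND-dvr), place form**: `𝒲 = O_v` for a place `v` of `κ / k` (`k` ANY field of constants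
contained in `𝒲`). -/
theorem s44nd_place (hsurj : Function.Surjective r)
    (hloc : ∀ z ∈ V1, ∃ b s : B, s ∉ ssm_tp_P B V1 ∧ z * (s : F0) = (b : F0))
    (u w : ssl_locSub F0 𝔫)
    (hm : haveI := ssl_loc_isLocalRing (F0 := F0) 𝔫
      maximalIdeal (ssl_locSub F0 𝔫) =
        Ideal.span {algebraMap B (ssl_locSub F0 𝔫) (algebraMap A0 B π), u, w})
    (hw : w ∈ ssm_tp_P (ssl_locSub F0 𝔫) V1) (hu : u ∉ ssm_tp_P (ssl_locSub F0 𝔫) V1)
    {k : Type*} [Field k] [Algebra k κ] (hk : ∀ a : k, algebraMap k κ a ∈ 𝒲) :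
    ∃ v : Place k κ, v.toValuationSubring = 𝒲 := by
  obtain ⟨hdvr, hne⟩ := s44nd_dvr 𝔫 V1 r hker 𝒲 hB h𝔫eq hϖ hsurj hloc u w hm hw hu
  exact ⟨⟨𝒲, hk, hne, inferInstance⟩, rfl⟩

end Dvr

section Main

variable {F' : Type*} [Field F'] {A0 : Type*} [CommRing A0] {E' : Type v} [Field E']
  [Algebra A0 E'] (φ : F' →+* E') (W1 : ValuationSubring F') (V1 : ValuationSubring E')
  (hφ : ∀ x : F', φ x ∈ V1 ↔ x ∈ W1)
  {κ0 : Type*} [Field κ0] (red : ↥W1 →+* κ0)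
  (hker0 : ∀ z : ↥W1, (z : F') ∈ W1.nonunits → red z = 0)
  {kA : Type*} [Field kA] [Algebra kA κ0] (Q : Place kA κ0)
  {κ : Type*} [Field κ] (r : ↥V1 →+* κ) (hker : ∀ z : ↥V1, (z : E') ∈ V1.nonunits → r z = 0)
  (𝒲 : ValuationSubring κ)
  (hext : ∀ x : F', φ x ∈ tori_comp V1 r hker 𝒲 ↔
    x ∈ tori_comp W1 red hker0 Q.toValuationSubring)
variable {B : Subalgebra A0 E'} [IsFractionRing B E'] [IsNoetherianRing B] [IsIntegrallyClosed B]
  (𝔫 : Ideal B) [h𝔫 : 𝔫.IsPrime]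
  (hB : ∀ b ∈ B, b ∈ tori_comp V1 r hker 𝒲)
  (h𝔫eq : ∀ b : B, b ∈ 𝔫 ↔ (b : E') ∈ (tori_comp V1 r hker 𝒲).nonunits)
  {π : A0} (hϖ : algebraMap A0 E' π ∈ V1.nonunits) (hϖ0 : algebraMap A0 E' π ≠ 0)
  (hunif : ∀ z : E', z ≠ 0 → ∃ n : ℤ, ssl_VUnit V1 (z / algebraMap A0 E' π ^ n))

include hφ hext hB h𝔫eq hϖ hϖ0 hunif in
/-- **(ND-main) THE NODE DICTIONARY, abstract form.**  `Q` a place of the residue function field `κ0`
of the base, `𝒱' = tori_comp V1 r _ 𝒲` ANY valuation ring of the cover `E'` extending the rank-2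
valuation ring `𝒱_0` of `Q` (`hext`), `𝔫` its centre on the chart `B`, `S = B_𝔫`,
`P∞ = 𝔪(V1) ∩ S`.  If `𝔪_S = (π, u, w)` for SOME `u ∉ P∞`, `w ∈ P∞` (a node, or a smooth point of the
component `V1`) and `ord_Q ∘ red` takes the value `1` (`hCFE`), there are `T > 0` and `ν : E' → ℤ`
such that `ν` is THE normalised order of `S` along `P∞` (`s44nu_IsNu`, for EVERY system of local
coordinates `(u', w')`) and `ν (φ b) = T · ord_Q (red b)` for every unit `b` of `W1`. -/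
theorem s44nd_main (hsurj : Function.Surjective r)
    (hloc : ∀ z ∈ V1, ∃ b s : B, s ∉ ssm_tp_P B V1 ∧ z * (s : E') = (b : E'))
    (u w : ssl_locSub E' 𝔫)
    (hm : haveI := ssl_loc_isLocalRing (F0 := E') 𝔫
      maximalIdeal (ssl_locSub E' 𝔫) =
        Ideal.span {algebraMap B (ssl_locSub E' 𝔫) (algebraMap A0 B π), u, w})
    (hw : w ∈ ssm_tp_P (ssl_locSub E' 𝔫) V1) (hu : u ∉ ssm_tp_P (ssl_locSub E' 𝔫) V1)
    {k : Type*} [Field k] [Algebra k κ] (hk : ∀ a : k, algebraMap k κ a ∈ 𝒲)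
    (hCFE : ∃ t : ↥W1, Q.ord (red t) = 1) :
    haveI := ssl_loc_isLocalRing (F0 := E') 𝔫
    haveI := ssl_loc_isNoetherianRing (F0 := E') 𝔫
    ∃ (T : ℕ) (ν : E' → ℤ), 0 < T ∧
      (∀ u' w' : ssl_locSub E' 𝔫,
        maximalIdeal (ssl_locSub E' 𝔫) =
          Ideal.span {algebraMap B (ssl_locSub E' 𝔫) (algebraMap A0 B π), u', w'} →
        w' ∈ ssm_tp_P (ssl_locSub E' 𝔫) V1 →
        s44nu_IsNu (algebraMap B (ssl_locSub E' 𝔫) (algebraMap A0 B π)) u'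
          (ssm_tp_P (ssl_locSub E' 𝔫) V1) ν) ∧
      ∀ b : ↥W1, IsUnit b → ν (φ (b : F')) = (T : ℤ) * Q.ord (red b) := by
  haveI := ssl_loc_isLocalRing (F0 := E') 𝔫
  haveI := ssl_loc_isNoetherianRing (F0 := E') 𝔫
  obtain ⟨v, rfl⟩ := s44nd_place (k := k) 𝔫 V1 r hker 𝒲 hB h𝔫eq hϖ hsurj hloc u w hm hw hu hk
  obtain ⟨T, hT, hTb⟩ := s44nd_mult φ W1 V1 hφ red hker0 Q r hker v hext hCFE
  refine ⟨T, s44mo_nu V1 r v hunif, hT, fun u' w' hm' hw' =>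
    s44mp_isNu 𝔫 V1 r hker v hB h𝔫eq hϖ hϖ0 hunif hsurj hloc u' w' hm' hw', fun b hb => ?_⟩
  obtain ⟨c, hc⟩ := hb.exists_right_inv
  have hcF : (b : F') * (c : F') = 1 := congrArg (fun t : ↥W1 => (t : F')) hc
  have hb0 : (b : F') ≠ 0 := left_ne_zero_of_mul_eq_one hcF
  have hcinv : (c : F') = (b : F')⁻¹ := eq_inv_of_mul_eq_one_right hcF
  have hvu : ssl_VUnit V1 (φ (b : F')) := by
    refine ⟨(map_ne_zero φ).2 hb0, (hφ _).2 b.2, ?_⟩
    rw [← map_inv₀, ← hcinv]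
    exact (hφ _).2 c.2
  rw [s44mo_nu_unit V1 r v hϖ hϖ0 hunif hvu, ← hTb b hb]
  rfl

include hext hB h𝔫eq in
/-- **(ND-smooth), chart form**: if `φ b` is a unit of the local ring `B_𝔫` of the centre (fraction
form: `φ b · s = a`, `a, s ∈ B ∖ 𝔫`), then `ord_Q (red b) = 0`.  No smoothness is needed. -/
theorem s44nd_unit_chart {b : ↥W1} (hb : IsUnit b)
    (hz : ∃ a s : B, a ∉ 𝔫 ∧ s ∉ 𝔫 ∧ φ (b : F') * (s : E') = (a : E')) :
    Q.ord (red b) = 0 := by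
  obtain ⟨a, s, ha, hs, hzs⟩ := hz
  set 𝒱 := tori_comp V1 r hker 𝒲 with h𝒱
  have ha' : (a : E') ∉ 𝒱.nonunits := fun h => ha ((h𝔫eq a).2 h)
  have hs' : (s : E') ∉ 𝒱.nonunits := fun h => hs ((h𝔫eq s).2 h)
  have hs0 : (s : E') ≠ 0 := ssm_tp_ne_zero 𝒱 hs'
  have ha0 : (a : E') ≠ 0 := ssm_tp_ne_zero 𝒱 ha'
  have h1 : φ (b : F') = (a : E') * (s : E')⁻¹ := by
    rw [← hzs, mul_assoc, mul_inv_cancel₀ hs0, mul_one]
  refine s44nd_unit φ W1 V1 red hker0 Q r hker 𝒲 hext hb ?_ ?_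
  · rw [h1]
    exact 𝒱.mul_mem _ _ (hB _ a.2) (ssm_tp_inv_mem 𝒱 hs')
  · rw [h1, mul_inv, inv_inv, mul_comm]
    exact 𝒱.mul_mem _ _ (hB _ s.2) (ssm_tp_inv_mem 𝒱 ha')

end Main

end Fermat.Agent.S44
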