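/-
S44 project, cell [H2] MONO-MAIN, sub-cell [H2-N] (ND) NODE DICTIONARY, GLUE WITH THE UNIFORM NODE
(helper12).  Prefix `s44ndn_`.  Namespace `Fermat.Agent.S44`.

`Mono/NodeDict.lean` (`s44nd_main`) is stated with local coordinates `(u, w)` of `S = B_𝔫`
(`𝔪_S = (π, u, w)`, `w ∈ P∞ = 𝔪(V1) ∩ S`, `u ∉ P∞`) and the branch `P∞ = ssm_tp_P S V1`.
The uniform node `s44mu_NodeAtU π hle P1 P2 𝔫 u v a` (helper29, `Mono/UNodeAbs.lean`) and the node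
data `s44mci_chart_node` / `s44tl_br 𝔫 hle P1` (helper16, `Mono/CINode.lean`, `Tor/LocInst.lean`) are
stated with the two-chart ring `B12 ⊇ B`, `P1 = ssm_tp_P B12 V1`.  THIS FILE is the glue:

* `s44ndn_tr_eq`  : `s44tl_tr hle (ssm_tp_P B12 V1) = ssm_tp_P B V1`;
* `s44ndn_br_eq`  : `s44tl_br 𝔫 hle (ssm_tp_P B12 V1) = ssm_tp_P B_𝔫 V1`  (`= P∞`);
* `s44ndn_coords` : a uniform node gives the coordinates `(u, v)` of `s44nd_main`:
                    `u, v ∈ B_𝔫`, `𝔪 = (π, u, v)`, `v ∈ P∞`, `u ∉ P∞`;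
* **`s44ndn_main`** : `s44nd_main` at a uniform node, `ν` normalised along `s44tl_br 𝔫 hle P1`
                    w.r.t. the `u` of the uniform node;
* **`s44ndn_value`** : composite with a node computation `∀ ν, IsNu … → ν (φ b0) = c`:
                    `T · ord_Q (red b0) = c`.
-/
import Mathlib
import Fermat.Agent.S44.Mono.NodeDict
import Fermat.Agent.S44.Mono.UNodeAbs
import Fermat.Agent.S44.Mono.CINode

set_option autoImplicit false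
set_option linter.unusedSectionVars false
set_option linter.unusedVariables false
set_option linter.style.haveILetI false

namespace Fermat.Agent.S44

open Fermat.Agent.SS Fermat.Agent.JT3 Fermat.Agent.S35 Fermat.Agent.S24 AlgebraicCurve IsLocalRing

universe v

section Glue

variable {A0 : Type*} [CommRing A0] {F0 : Type v} [Field F0] [Algebra A0 F0]
variable {B B12 : Subalgebra A0 F0} [IsFractionRing B F0] [IsNoetherianRing B] [IsIntegrallyClosed B]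
variable (𝔫 : Ideal B) [h𝔫 : 𝔫.IsPrime] (hle : B ≤ B12) (V1 : ValuationSubring F0)

/-- the trace on `B` of the centre of `V1` on `B12` is the centre of `V1` on `B`. -/
theorem s44ndn_tr_eq (hB12V : ∀ b ∈ B12, b ∈ V1) :
    s44tl_tr hle (ssm_tp_P B12 V1) = ssm_tp_P B V1 := by
  have hBV : ∀ b ∈ B, b ∈ V1 := fun b hb => hB12V b (hle hb)
  ext b
  show Subalgebra.inclusion hle b ∈ ssm_tp_P B12 V1 ↔ _
  rw [ssm_tp_mem_P hB12V, ssm_tp_mem_P hBV]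
  rfl

/-- **the branch ideal of helper16's node data is `P∞ = 𝔪(V1) ∩ B_𝔫`.** -/
theorem s44ndn_br_eq (hB12V : ∀ b ∈ B12, b ∈ V1) (hpass : ssm_tp_P B V1 ≤ 𝔫) :
    s44tl_br 𝔫 hle (ssm_tp_P B12 V1) = ssm_tp_P (ssl_locSub F0 𝔫) V1 := by
  have hBV : ∀ b ∈ B, b ∈ V1 := fun b hb => hB12V b (hle hb)
  unfold s44tl_br
  rw [s44ndn_tr_eq hle V1 hB12V, s44mp_Pinf_eq_map 𝔫 V1 hBV hpass]

/-- `B_𝔫 ⊆ V1` when the centre of `V1` on `B` lies in `𝔫`. -/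
theorem s44ndn_loc_le (hBV : ∀ b ∈ B, b ∈ V1) (hpass : ssm_tp_P B V1 ≤ 𝔫) :
    ∀ z ∈ ssl_locSub F0 𝔫, z ∈ V1 := by
  intro z hz
  obtain ⟨a, s, hs, hzs⟩ := (ssl_mem_loc 𝔫).1 hz
  have hs' : (s : F0) ∉ V1.nonunits := fun h => hs (hpass ((ssm_tp_mem_P hBV).2 h))
  have hs0 : (s : F0) ≠ 0 := ssm_tp_ne_zero V1 hs'
  have : z = (a : F0) * (s : F0)⁻¹ := by
    rw [← hzs, mul_assoc, mul_inv_cancel₀ hs0, mul_one]
  rw [this]
  exact V1.mul_mem _ _ (hBV _ a.2) (ssm_tp_inv_mem V1 hs')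

/-- **the coordinates of `s44nd_main` from a uniform node.**  `P1 = ssm_tp_P B12 V1` is the component
along which one reduces; `P2` is ANY ideal of `B12`. -/
theorem s44ndn_coords (hB12V : ∀ b ∈ B12, b ∈ V1) (hpass : ssm_tp_P B V1 ≤ 𝔫)
    {π : A0} (hϖ : algebraMap A0 F0 π ∈ V1.nonunits)
    {P2 : Ideal B12} {u v : F0} {a : A0}
    (h : s44mu_NodeAtU π hle (ssm_tp_P B12 V1) P2 𝔫 u v a)
    (ha : algebraMap A0 F0 a ∈ V1.nonunits) :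
    haveI := ssl_loc_isLocalRing (F0 := F0) 𝔫
    ∃ (huS : u ∈ ssl_locSub F0 𝔫) (hvS : v ∈ ssl_locSub F0 𝔫),
      maximalIdeal (ssl_locSub F0 𝔫) =
        Ideal.span {algebraMap B (ssl_locSub F0 𝔫) (algebraMap A0 B π),
          (⟨u, huS⟩ : ssl_locSub F0 𝔫), ⟨v, hvS⟩} ∧
      (⟨v, hvS⟩ : ssl_locSub F0 𝔫) ∈ ssm_tp_P (ssl_locSub F0 𝔫) V1 ∧
      (⟨u, huS⟩ : ssl_locSub F0 𝔫) ∉ ssm_tp_P (ssl_locSub F0 𝔫) V1 := by
  haveI := ssl_loc_isLocalRing (F0 := F0) 𝔫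
  have hBV : ∀ b ∈ B, b ∈ V1 := fun b hb => hB12V b (hle hb)
  have hSV := s44ndn_loc_le 𝔫 V1 hBV hpass
  obtain ⟨huv, ⟨su, tu, hsu, htu, hsut⟩, ⟨sv, tv, hsv, htv, hsvt⟩, hgen, ⟨s1, t1, hs1, ht1, hst1⟩,
    _⟩ := h
  have huS : u ∈ ssl_locSub F0 𝔫 := ssl_loc_mem_of 𝔫 hsu hsut
  have hvS : v ∈ ssl_locSub F0 𝔫 := ssl_loc_mem_of 𝔫 hsv hsvt
  refine ⟨huS, hvS, ?_, ?_, ?_⟩
  · -- `𝔪 = (π, u, v)`
    have hmaxeq := IsLocalization.AtPrime.map_eq_maximalIdeal 𝔫 (ssl_locSub F0 𝔫)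
    have humax : (⟨u, huS⟩ : ssl_locSub F0 𝔫) ∈ maximalIdeal (ssl_locSub F0 𝔫) := by
      rw [← hmaxeq]; exact ssl_loc_mem_map_of 𝔫 hsu htu hsut
    have hvmax : (⟨v, hvS⟩ : ssl_locSub F0 𝔫) ∈ maximalIdeal (ssl_locSub F0 𝔫) := by
      rw [← hmaxeq]; exact ssl_loc_mem_map_of 𝔫 hsv htv hsvt
    have hπ𝔫 : algebraMap A0 B π ∈ 𝔫 := hpass ((ssm_tp_mem_P hBV).2 hϖ)
    have hπmax : algebraMap B (ssl_locSub F0 𝔫) (algebraMap A0 B π) ∈
        maximalIdeal (ssl_locSub F0 𝔫) := by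
      rw [← hmaxeq]; exact Ideal.mem_map_of_mem _ hπ𝔫
    apply le_antisymm
    · rw [← hmaxeq, Ideal.map_le_iff_le_comap]
      intro z hz
      obtain ⟨s, c1, c2, c3, hs, hsz⟩ := hgen z hz
      have h1 : algebraMap B (ssl_locSub F0 𝔫) s * algebraMap B (ssl_locSub F0 𝔫) z =
          algebraMap B (ssl_locSub F0 𝔫) (algebraMap A0 B π) *
              algebraMap B (ssl_locSub F0 𝔫) c1 +
            (⟨u, huS⟩ : ssl_locSub F0 𝔫) * algebraMap B (ssl_locSub F0 𝔫) c2 +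
            (⟨v, hvS⟩ : ssl_locSub F0 𝔫) * algebraMap B (ssl_locSub F0 𝔫) c3 :=
        Subtype.ext hsz
      have h2 : algebraMap B (ssl_locSub F0 𝔫) s * algebraMap B (ssl_locSub F0 𝔫) z ∈
          Ideal.span {algebraMap B (ssl_locSub F0 𝔫) (algebraMap A0 B π),
            (⟨u, huS⟩ : ssl_locSub F0 𝔫), ⟨v, hvS⟩} := by
        rw [h1]
        refine Ideal.add_mem _ (Ideal.add_mem _ ?_ ?_) ?_
        · exact Ideal.mul_mem_right _ _ (Ideal.subset_span (by simp))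
        · exact Ideal.mul_mem_right _ _ (Ideal.subset_span (by simp))
        · exact Ideal.mul_mem_right _ _ (Ideal.subset_span (by simp))
      rw [Ideal.mem_comap]
      exact (Ideal.unit_mul_mem_iff_mem _ (ssl_loc_isUnit 𝔫 hs)).1 h2
    · rw [Ideal.span_le]
      rintro x (rfl | rfl | hx)
      · exact hπmax
      · exact humax
      · rw [Set.mem_singleton_iff] at hx
        subst hx
        exact hvmax
  all_goals
    -- `u` is a unit of `V1`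
    have hs1' : (s1 : F0) ∉ V1.nonunits := fun h => hs1 ((ssm_tp_mem_P hB12V).2 h)
    have ht1' : (t1 : F0) ∉ V1.nonunits := fun h => ht1 ((ssm_tp_mem_P hB12V).2 h)
    have hs10 : (s1 : F0) ≠ 0 := ssm_tp_ne_zero V1 hs1'
    have hu_eq : u = (t1 : F0) * (s1 : F0)⁻¹ := by
      rw [← hst1, mul_comm, ← mul_assoc, inv_mul_cancel₀ hs10, one_mul]
    have hu_not : u ∉ V1.nonunits := by
      intro hmem
      apply ht1'
      rw [← hst1]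
      have := ssm_tp_nonunits_mul V1 hmem (hB12V _ s1.2)
      rwa [mul_comm] at this
  · -- `v ∈ 𝔪(V1)`
    rw [ssm_tp_mem_P hSV]
    show v ∈ V1.nonunits
    have hu0 : u ≠ 0 := ssm_tp_ne_zero V1 hu_not
    have hv_eq : v = algebraMap A0 F0 a * u⁻¹ := by
      rw [← huv, mul_comm u v, mul_assoc, mul_inv_cancel₀ hu0, mul_one]
    rw [hv_eq]
    exact ssm_tp_nonunits_mul V1 ha (ssm_tp_inv_mem V1 hu_not)
  · rw [ssm_tp_mem_P hSV]
    exact hu_not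

end Glue

section Main

variable {F' : Type*} [Field F'] {A0 : Type*} [CommRing A0] {E' : Type v} [Field E']
  [Algebra A0 E'] (φ : F' →+* E') (W1 : ValuationSubring F') (V1 : ValuationSubring E')
  (hφ : ∀ x : F', φ x ∈ V1 ↔ x ∈ W1)
  {κ0 : Type*} [Field κ0] (red : ↥W1 →+* κ0)
  (hker0 : ∀ z : ↥W1, (z : F') ∈ W1.nonunits → red z = 0)
  {kA : Type*} [Field kA] [Algebra kA κ0] (Q : Place kA κ0)
  {κ : Type*} [Field κ] (r : ↥V1 →+* κ) (hker : ∀ z : ↥V1, (z : E') ∈ V1.nonunits → r z = 0)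
  (𝒲 : ValuationSubring κ)
  (hext : ∀ x : F', φ x ∈ tori_comp V1 r hker 𝒲 ↔
    x ∈ tori_comp W1 red hker0 Q.toValuationSubring)
variable {B B12 : Subalgebra A0 E'} [IsFractionRing B E'] [IsNoetherianRing B]
  [IsIntegrallyClosed B] (𝔫 : Ideal B) [h𝔫 : 𝔫.IsPrime] (hle : B ≤ B12)
  (hB : ∀ b ∈ B, b ∈ tori_comp V1 r hker 𝒲)
  (h𝔫eq : ∀ b : B, b ∈ 𝔫 ↔ (b : E') ∈ (tori_comp V1 r hker 𝒲).nonunits)
  {π : A0} (hϖ : algebraMap A0 E' π ∈ V1.nonunits) (hϖ0 : algebraMap A0 E' π ≠ 0)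
  (hunif : ∀ z : E', z ≠ 0 → ∃ n : ℤ, ssl_VUnit V1 (z / algebraMap A0 E' π ^ n))

include hB h𝔫eq in
/-- the centre of `V1` on `B` lies in the centre `𝔫` of the composite `𝒱' ≤ V1`. -/
theorem s44ndn_pass : ssm_tp_P B V1 ≤ 𝔫 := by
  intro b hb
  have hBV : ∀ b ∈ B, b ∈ V1 := fun b hb => (hB b hb).1
  have hb' : (b : E') ∈ V1.nonunits := (ssm_tp_mem_P hBV).1 hb
  rw [h𝔫eq, tori_comp_mem_nonunits_iff]
  refine ⟨ValuationSubring.nonunits_subset hb', ?_⟩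
  rw [hker _ hb']
  exact ssm_tp_zero_mem_nonunits 𝒲

include hφ hext hB h𝔫eq hϖ hϖ0 hunif in
/-- **(ND-main) AT A UNIFORM NODE.**  The hypotheses of `s44nd_main`, the coordinates being those of a
uniform node `s44mu_NodeAtU π hle P1 P2 𝔫 u v a` (`P1 = ssm_tp_P B12 V1` the component along which one
reduces, `a ∈ 𝔪(V1)`): there are `T > 0` and `ν`, normalised order of `B_𝔫` along the branch
`s44tl_br 𝔫 hle P1` with respect to the coordinate `u` of the uniform node, such that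
`ν (φ b) = T · ord_Q (red b)` for every unit `b` of `W1`. -/
theorem s44ndn_main (hsurj : Function.Surjective r)
    (hloc : ∀ z ∈ V1, ∃ b s : B, s ∉ ssm_tp_P B V1 ∧ z * (s : E') = (b : E'))
    (hB12V : ∀ b ∈ B12, b ∈ V1)
    {P2 : Ideal B12} {u v : E'} {a : A0}
    (h : s44mu_NodeAtU π hle (ssm_tp_P B12 V1) P2 𝔫 u v a)
    (ha : algebraMap A0 E' a ∈ V1.nonunits)
    (huS : u ∈ ssl_locSub E' 𝔫)
    {k : Type*} [Field k] [Algebra k κ] (hk : ∀ a : k, algebraMap k κ a ∈ 𝒲)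
    (hCFE : ∃ t : ↥W1, Q.ord (red t) = 1) :
    haveI := ssl_loc_isLocalRing (F0 := E') 𝔫
    haveI := ssl_loc_isNoetherianRing (F0 := E') 𝔫
    ∃ (T : ℕ) (ν : E' → ℤ), 0 < T ∧
      s44nu_IsNu (algebraMap B (ssl_locSub E' 𝔫) (algebraMap A0 B π))
        (⟨u, huS⟩ : ssl_locSub E' 𝔫) (s44tl_br 𝔫 hle (ssm_tp_P B12 V1)) ν ∧
      ∀ b : ↥W1, IsUnit b → ν (φ (b : F')) = (T : ℤ) * Q.ord (red b) := by
  haveI := ssl_loc_isLocalRing (F0 := E') 𝔫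
  haveI := ssl_loc_isNoetherianRing (F0 := E') 𝔫
  have hpass : ssm_tp_P B V1 ≤ 𝔫 := s44ndn_pass V1 r hker 𝒲 𝔫 hB h𝔫eq
  obtain ⟨huS', hvS, hm, hw, hu⟩ := s44ndn_coords 𝔫 hle V1 hB12V hpass hϖ h ha
  obtain ⟨T, ν, hT, hν, hTb⟩ := s44nd_main φ W1 V1 hφ red hker0 Q r hker 𝒲 hext 𝔫 hB h𝔫eq hϖ hϖ0
    hunif hsurj hloc ⟨u, huS'⟩ ⟨v, hvS⟩ hm hw hu hk hCFE
  refine ⟨T, ν, hT, ?_, hTb⟩
  rw [s44ndn_br_eq 𝔫 hle V1 hB12V hpass]
  exact hν ⟨u, huS'⟩ ⟨v, hvS⟩ hm hw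

include hφ hext hB h𝔫eq hϖ hϖ0 hunif in
/-- **(ND-main) ∘ (node computation).**  If some unit `b0` of `W1` has `ν (φ b0) = c` for EVERY
normalised order `ν` of the node (`s44un_node`: `b0` the modular unit, `c = 12`), then the multiplier
`T` of the node dictionary satisfies `T · ord_Q (red b0) = c`. -/
theorem s44ndn_value (hsurj : Function.Surjective r)
    (hloc : ∀ z ∈ V1, ∃ b s : B, s ∉ ssm_tp_P B V1 ∧ z * (s : E') = (b : E'))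
    (hB12V : ∀ b ∈ B12, b ∈ V1)
    {P2 : Ideal B12} {u v : E'} {a : A0}
    (h : s44mu_NodeAtU π hle (ssm_tp_P B12 V1) P2 𝔫 u v a)
    (ha : algebraMap A0 E' a ∈ V1.nonunits)
    (huS : u ∈ ssl_locSub E' 𝔫)
    {k : Type*} [Field k] [Algebra k κ] (hk : ∀ a : k, algebraMap k κ a ∈ 𝒲)
    (hCFE : ∃ t : ↥W1, Q.ord (red t) = 1)
    {b0 : ↥W1} (hb0 : IsUnit b0) {c : ℤ}
    (hnode : haveI := ssl_loc_isLocalRing (F0 := E') 𝔫
      haveI := ssl_loc_isNoetherianRing (F0 := E') 𝔫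
      ∀ ν : E' → ℤ, s44nu_IsNu (algebraMap B (ssl_locSub E' 𝔫) (algebraMap A0 B π))
        (⟨u, huS⟩ : ssl_locSub E' 𝔫) (s44tl_br 𝔫 hle (ssm_tp_P B12 V1)) ν → ν (φ (b0 : F')) = c) :
    haveI := ssl_loc_isLocalRing (F0 := E') 𝔫
    haveI := ssl_loc_isNoetherianRing (F0 := E') 𝔫
    ∃ (T : ℕ) (ν : E' → ℤ), 0 < T ∧ (T : ℤ) * Q.ord (red b0) = c ∧
      s44nu_IsNu (algebraMap B (ssl_locSub E' 𝔫) (algebraMap A0 B π))
        (⟨u, huS⟩ : ssl_locSub E' 𝔫) (s44tl_br 𝔫 hle (ssm_tp_P B12 V1)) ν ∧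
      ∀ b : ↥W1, IsUnit b → ν (φ (b : F')) = (T : ℤ) * Q.ord (red b) := by
  haveI := ssl_loc_isLocalRing (F0 := E') 𝔫
  haveI := ssl_loc_isNoetherianRing (F0 := E') 𝔫
  obtain ⟨T, ν, hT, hν, hTb⟩ := s44ndn_main φ W1 V1 hφ red hker0 Q r hker 𝒲 hext 𝔫 hle hB h𝔫eq hϖ
    hϖ0 hunif hsurj hloc hB12V h ha huS hk hCFE
  exact ⟨T, ν, hT, by rw [← hTb b0 hb0]; exact hnode ν hν, hν, hTb⟩

end Main

end Fermat.Agent.S44
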