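/-
Project S44 (Mazur–Ribet at `p`), cell [H2-N] / (ND-Leg): THE LEGENDRE INSTANCE OF THE NODE DICTIONARY
(helper1; architect's ruling R6.2).  Prefix `s44ndl_`.  Namespace `Fermat.Agent.S44`.

Instance of helper12's abstract (ND) (`Mono/NodeDict.lean`, `Mono/NodeDictNode.lean`) at
`φ := lg_phiE : F = lg_F L (N' q) → E = lg_E L (N' q)`, `W1 := V_F = s44mz_VF` (Gauss), `V1 := ssm_gl_V1`,
`κ := lg_E k' N'`, `r := s44re_r` (helper28), `B := fc_chart O {λ}`.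

GENERIC PART (any reduction datum `red : V_F →+* κ0`, `Q : Place kA κ0`, any `𝒲` with `hext`):
* `s44ndl_unif`, `s44ndl_loc`, `s44ndl_B12_le`, `s44ndl_chart_inst`, `s44ndl_alg` : the geometric inputs;
* `s44ndl_const_mem`, `s44ndl_ne_top` : `k' ⊆ 𝒲 ≠ ⊤`;
* `s44ndl_centre` : `O ⊆ 𝒱'`, `j₂ ∈ 𝒱'`, `λ ∈ 𝒱'`, `B ⊆ 𝒱'`, the centre `𝔫 = 𝔪(𝒱') ∩ B` is MAXIMAL,
  `b ∈ 𝔫 ↔ b ∈ 𝔪(𝒱')`, `π ∈ 𝔪(𝒱')`, `P₁ ≤ 𝔫`   (`𝒱' = s44ndl_V 𝒲 = tori_comp V₁ r _ 𝒲`, `𝔫 = s44ndl_n 𝒲`);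
* `s44ndl_node`   : supersingular (`hSSQ`) ⟹ `P₂ ≤ 𝔫`, the UNIFORM NODE `u v = q` of helper29's
  `s44mu_node` at `𝔫`, and `T > 0`, `ν` with `s44nu_IsNu π u (s44tl_br 𝔫 _ P₁) ν` and
  `ν (φ b) = T · ord_Q (red b)` for every unit `b` of `V_F`;
* `s44ndl_smooth` : not supersingular (`hnotSS`) ⟹ `¬ P₂ ≤ 𝔫`, `ss_SmoothAt π B 𝔫`, and
  `φ b ∈ (B_𝔫)ˣ ⟹ ord_Q (red b) = 0`.
INSTANCE (`A` over `p`, `L1 ⊆ ℚ̄` a number field `∋ ζ_M`, `O = A ∩ L1`, `red := s44nlr_red`,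
`Q` a place of `FF_M / kA` with `j̄` finite):
* `s44ndl_exists_ext` : `∃ 𝒲, hext`;  `s44ndl_centre_A`, `s44ndl_node_A` (from `s44e_IsSS`),
  `s44ndl_smooth_A` (from `¬ s44e_IsSS`, for `L1 ⊇` a finite set).
-/
import Mathlib
import Fermat.Agent.S44.Mono.Centre0
import Fermat.Agent.S44.Mono.NodeLegRed
import Fermat.Agent.S44.Mono.CentreConv
import Fermat.Agent.S44.Mono.NodeDictNode
import Fermat.Agent.S44.Mono.UNode
import Fermat.Agent.S44.Mono.GaussSheet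
import Fermat.Agent.S44.Res.LegBad
import Fermat.Agent.S44.Res.LegFF
import Fermat.Agent.SS.Model.FinalLegNF

set_option autoImplicit false
set_option linter.unusedSectionVars false
set_option linter.style.haveILetI false
set_option linter.unusedVariables false
set_option synthInstance.maxHeartbeats 200000
set_option maxHeartbeats 800000

noncomputable section

namespace Fermat.Agent.S44

open Polynomial ModularCurve AlgebraicCurve IntermediateField IsLocalRing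
open Fermat.Agent.JT3 Fermat.Agent.SS Fermat.Agent.S35 Fermat.Agent.S24 Fermat.Agent.S28

section Geo

variable {L : Type*} [Field L] [CharZero L] [Algebra L (AlgebraicClosure ℚ)]
  (O : ValuationSubring L) [IsDiscreteValuationRing O] {π : O} (hπ : Irreducible π)
variable (N' q : ℕ) [NeZero N'] [NeZero q] [hq : Fact q.Prime] [CharP (ResidueField O) q]
  (hq2 : ¬ 2 ∣ q) (hqN' : ¬ q ∣ N')

/-- `V₁` is discrete with uniformiser `π`. -/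
theorem s44ndl_unif (z : ↥(lg_E L (N' * q))) (hz : z ≠ 0) :
    ∃ n : ℤ, ssl_VUnit (ssm_gl_V1 O hπ N' q)
      (z / algebraMap ↥O ↥(lg_E L (N' * q)) π ^ n) := by
  have hquot : gq_IsQuot ↥O L (z : LaurentSeries L) := ssm_ga_E_le_quotField O (N' * q) z.2
  have hz0 : (z : LaurentSeries L) ≠ 0 := fun h => hz (Subtype.ext h)
  obtain ⟨n, h1, h2⟩ := s44mv_exists_zpow O hπ hquot hz0
  refine ⟨n, ?_⟩
  have hϖ0 : algebraMap ↥O ↥(lg_E L (N' * q)) π ≠ 0 := by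
    intro h
    have h3 : algebraMap L ↥(lg_E L (N' * q)) (π : L) = 0 := h
    rw [map_eq_zero] at h3
    exact hπ.ne_zero (Subtype.ext h3)
  have hcoe : ((z / algebraMap ↥O ↥(lg_E L (N' * q)) π ^ n : ↥(lg_E L (N' * q))) :
      LaurentSeries L) = (z : LaurentSeries L) / algebraMap L (LaurentSeries L) (π : L) ^ n := by
    show (lg_E L (N' * q)).val (z / algebraMap ↥O ↥(lg_E L (N' * q)) π ^ n) = _
    rw [map_div₀, map_zpow₀]
    rfl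
  refine ⟨div_ne_zero hz (zpow_ne_zero _ hϖ0), ?_, ?_⟩
  · have : gq_IsBdd ↥O L ((z / algebraMap ↥O ↥(lg_E L (N' * q)) π ^ n : ↥(lg_E L (N' * q))) :
        LaurentSeries L) := by
      rw [hcoe]
      exact h1
    exact this
  · have : gq_IsBdd ↥O L (((z / algebraMap ↥O ↥(lg_E L (N' * q)) π ^ n)⁻¹ :
        ↥(lg_E L (N' * q))) : LaurentSeries L) := by
      rw [IntermediateField.coe_inv, hcoe]
      exact h2
    exact this


include hπ in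
theorem s44ndl_pi_ne : algebraMap ↥O ↥(lg_E L (N' * q)) π ≠ 0 := by
  intro h
  have h3 : algebraMap L ↥(lg_E L (N' * q)) (π : L) = 0 := h
  rw [map_eq_zero] at h3
  exact hπ.ne_zero (Subtype.ext h3)

include hq2 hqN' in
/-- elements of `𝔪_O` lie in `𝔪(V₁)`. -/
theorem s44ndl_max_mem (a : ↥O) (ha : a ∈ maximalIdeal ↥O) :
    algebraMap ↥O ↥(lg_E L (N' * q)) a ∈ (ssm_gl_V1 O hπ N' q).nonunits := by
  have hA1 : algebraMap ↥O ↥(lg_E L (N' * q)) a ∈ ssm_gl_V1 O hπ N' q := s44re_isBdd_const O a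
  rw [← s44re_r_eq_zero_iff O hπ N' q hq2 hqN' ⟨_, hA1⟩, s44re_r_const,
    (residue_eq_zero_iff a).2 ha, map_zero]


/-- the base `j`-chart lies in the Gauss valuation ring `V_F`. -/
theorem s44ndl_jchart_le (b : ↥(lg_F L (N' * q)))
    (hb : b ∈ fc_chart ↥O ({rpz_jF L (N' * q)} : Set ↥(lg_F L (N' * q)))) :
    b ∈ s44mz_VF O hπ N' q := by
  have hj : rpz_jF L (N' * q) ∈ s44mz_VF O hπ N' q := by
    have hy : jqModC L = coeffMap (algebraMap O L) (jqModC O) := (coeffMap_jqModC _).symm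
    have hb : gq_IsBdd O L (jqModC L) := by
      rw [hy]
      exact gq_isBdd_iota _
    exact hb
  have hadj : ∀ r : Algebra.adjoin ↥O ({rpz_jF L (N' * q)} : Set ↥(lg_F L (N' * q))),
      algebraMap (Algebra.adjoin ↥O ({rpz_jF L (N' * q)} : Set ↥(lg_F L (N' * q))))
        ↥(lg_F L (N' * q)) r ∈ s44mz_VF O hπ N' q := by
    rintro ⟨r, hr⟩
    show r ∈ s44mz_VF O hπ N' q
    induction hr using Algebra.adjoin_induction with
    | mem s hs => rw [Set.mem_singleton_iff] at hs; rw [hs]; exact hj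
    | algebraMap a => exact s44nlr_const_mem O hπ N' q a
    | add a b _ _ ha hb => exact (s44mz_VF O hπ N' q).add_mem _ _ ha hb
    | mul a b _ _ ha hb => exact (s44mz_VF O hπ N' q).mul_mem _ _ ha hb
  exact ssm_tp_mem_of_isIntegral (s44mz_VF O hπ N' q) hadj (fc_mem_chart.1 hb)

/-- `φ = lg_phiE` as a ring homomorphism. -/
abbrev s44ndl_phi (L : Type*) [Field L] (N : ℕ) [NeZero N] : ↥(lg_F L N) →+* ↥(lg_E L N) :=
  (lg_phiE (L := L) (N := N)).toRingHom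

theorem s44ndl_phi_apply (N : ℕ) [NeZero N] (x : ↥(lg_F L N)) :
    s44ndl_phi L N x = lg_phiE (L := L) (N := N) x := rfl

theorem s44ndl_phi_const (N : ℕ) [NeZero N] (a : ↥O) :
    lg_phiE (L := L) (N := N) (algebraMap ↥O ↥(lg_F L N) a) = algebraMap ↥O ↥(lg_E L N) a :=
  (lg_phiE (L := L) (N := N)).commutes (a : L)

/-- the local instances on the `λ`-chart. -/
theorem s44ndl_chart_inst :
    IsFractionRing ↥(fc_chart ↥O ({lg_lamE (N' * q)} : Set ↥(lg_E L (N' * q))))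
      ↥(lg_E L (N' * q)) ∧
    IsNoetherianRing ↥(fc_chart ↥O ({lg_lamE (N' * q)} : Set ↥(lg_E L (N' * q)))) ∧
    IsIntegrallyClosed ↥(fc_chart ↥O ({lg_lamE (N' * q)} : Set ↥(lg_E L (N' * q)))) := by
  haveI := ssm_go_isScalarTower O (lg_E L (N' * q))
  haveI := lgf_finite L (N' * q)
  have hx : Transcendental L (lg_lamE (L := L) (N' * q)) :=
    lgf_lam_transcendental L (N' * q) two_ne_zero
  exact ⟨ssm_ths_chart_isFractionRing (A0 := ↥O) (L := L) _,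
    ssm_ths_chart_isNoetherianRing (A0 := ↥O) (L := L) hx,
    ssm_ths_chart_isIntegrallyClosed (A0 := ↥O) (L := L) _⟩

section Hyp

variable (hprime : Prime (algebraMap ↥O (fc_chart ↥O ({lg_lamE N'} : Set ↥(lg_E L N'))) π))

include hq2 hqN' hprime in
/-- `V₁ = B_{P₁}`. -/
theorem s44ndl_loc (z : ↥(lg_E L (N' * q))) (hz : z ∈ ssm_gl_V1 O hπ N' q) :
    ∃ b s : ↥(fc_chart ↥O ({lg_lamE (N' * q)} : Set ↥(lg_E L (N' * q)))),
      s ∉ ssm_tp_P (fc_chart ↥O ({lg_lamE (N' * q)} : Set ↥(lg_E L (N' * q))))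
        (ssm_gl_V1 O hπ N' q) ∧ z * (s : ↥(lg_E L (N' * q))) = (b : ↥(lg_E L (N' * q))) := by
  haveI := ssm_go_isScalarTower O (lg_E L (N' * q))
  have hx : Transcendental L (lg_lamE (L := L) (N' * q)) :=
    lgf_lam_transcendental L (N' * q) two_ne_zero
  have hyA : Transcendental ↥O (lg_lamE (L := L) (N' * q)) := fc_ff_transcendental (L := L) hx
  haveI : IsIntegrallyClosed (Algebra.adjoin ↥O ({lg_lamE (N' * q)} : Set ↥(lg_E L (N' * q)))) :=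
    fc_ff_isIntegrallyClosed hyA
  haveI : FaithfulSMul (Algebra.adjoin ↥O ({lg_lamE (N' * q)} : Set ↥(lg_E L (N' * q))))
      ↥(lg_E L (N' * q)) :=
    (faithfulSMul_iff_algebraMap_injective _ _).2 Subtype.val_injective
  have H := ssm_gl_hyp O hπ N' q hq2 hqN' hprime
  have hC := ssm_tp_ff_chart (L := L) hπ hx
  obtain ⟨t, ht, htz⟩ := (H.mem_V1_iff hC).1 hz
  exact ⟨⟨_, htz⟩, t, ht, mul_comm _ _⟩

include hq2 hqN' hprime in
/-- `B₁₂ ⊆ V₁`. -/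
theorem s44ndl_B12_le (b : ↥(lg_E L (N' * q)))
    (hb : b ∈ fc_chart ↥O ({lg_lamE (N' * q), (lg_lamE (N' * q))⁻¹} : Set ↥(lg_E L (N' * q)))) :
    b ∈ ssm_gl_V1 O hπ N' q := by
  haveI := ssm_go_isScalarTower O (lg_E L (N' * q))
  have hx : Transcendental L (lg_lamE (L := L) (N' * q)) :=
    lgf_lam_transcendental L (N' * q) two_ne_zero
  have hyA : Transcendental ↥O (lg_lamE (L := L) (N' * q)) := fc_ff_transcendental (L := L) hx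
  haveI : IsIntegrallyClosed (Algebra.adjoin ↥O ({lg_lamE (N' * q)} : Set ↥(lg_E L (N' * q)))) :=
    fc_ff_isIntegrallyClosed hyA
  haveI : FaithfulSMul (Algebra.adjoin ↥O ({lg_lamE (N' * q)} : Set ↥(lg_E L (N' * q))))
      ↥(lg_E L (N' * q)) :=
    (faithfulSMul_iff_algebraMap_injective _ _).2 Subtype.val_injective
  have H := ssm_gl_hyp O hπ N' q hq2 hqN' hprime
  exact (ssm_tp_ff_chart12 (L := L) hπ hx).le H.over1 hb

end Hyp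

include hq2 hqN' in
/-- `lg_E k' N'` is algebraic over `k'(λ̄)`. -/
theorem s44ndl_alg :
    Algebra.IsAlgebraic (ResidueField O)⟮(lg_lamE N' : ↥(lg_E (ResidueField O) N'))⟯
      ↥(lg_E (ResidueField O) N') := by
  have hqO : ((q : ℕ) : O) ∈ maximalIdeal O := by
    rw [← residue_eq_zero_iff, map_natCast]
    exact CharP.cast_eq_zero _ q
  obtain ⟨ρO⟩ := lgv_exists_rhoO (L := L) (O := ↥O) (IsFractionRing.injective ↥O L) q hqO
  haveI := s44rl_finite_lam (ResidueField O) N' (s44re_two_ne_zero O q hq2) hqN'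
    ((residue ↥O).comp ρO)
  exact Algebra.IsAlgebraic.of_finite _ _

section Centre

variable (hprime : Prime (algebraMap ↥O (fc_chart ↥O ({lg_lamE N'} : Set ↥(lg_E L N'))) π))
  {κ0 : Type*} [Field κ0] (red : ↥(s44mz_VF O hπ N' q) →+* κ0)
  (hker0 : ∀ z : ↥(s44mz_VF O hπ N' q),
    (z : ↥(lg_F L (N' * q))) ∈ (s44mz_VF O hπ N' q).nonunits → red z = 0)
  {kA : Type*} [Field kA] [Algebra kA κ0] (Q : Place kA κ0)
  (𝒲 : ValuationSubring ↥(lg_E (ResidueField O) N'))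
  (hext : ∀ x : ↥(lg_F L (N' * q)),
    s44ndl_phi L (N' * q) x ∈ tori_comp (ssm_gl_V1 O hπ N' q) (s44re_r O hπ N' q hq2 hqN')
        (s44re_r_hker O hπ N' q hq2 hqN') 𝒲 ↔
      x ∈ tori_comp (s44mz_VF O hπ N' q) red hker0 Q.toValuationSubring)

include hext in
/-- the constants of `k'` lie in `𝒲`. -/
theorem s44ndl_const_mem
    (hconst : ∀ a : ↥O, red ⟨algebraMap ↥O ↥(lg_F L (N' * q)) a, s44nlr_const_mem O hπ N' q a⟩ ∈
      Q.toValuationSubring)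
    (c : ResidueField O) :
    algebraMap (ResidueField O) ↥(lg_E (ResidueField O) N') c ∈ 𝒲 := by
  obtain ⟨a, rfl⟩ := residue_surjective c
  have h1 : algebraMap ↥O ↥(lg_F L (N' * q)) a ∈
      tori_comp (s44mz_VF O hπ N' q) red hker0 Q.toValuationSubring :=
    ⟨s44nlr_const_mem O hπ N' q a, hconst a⟩
  obtain ⟨h2, h3⟩ := (hext _).2 h1
  have h4 : s44ndl_phi L (N' * q) (algebraMap ↥O ↥(lg_F L (N' * q)) a) =
      algebraMap ↥O ↥(lg_E L (N' * q)) a := s44ndl_phi_const O (N' * q) a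
  have h5 : (⟨s44ndl_phi L (N' * q) (algebraMap ↥O ↥(lg_F L (N' * q)) a), h2⟩ :
      ↥(ssm_gl_V1 O hπ N' q)) = ⟨algebraMap ↥O ↥(lg_E L (N' * q)) a, h4 ▸ h2⟩ :=
    Subtype.ext h4
  rw [h5, s44re_r_const] at h3
  exact h3

include hext in
/-- `𝒲` is not the trivial valuation ring. -/
theorem s44ndl_ne_top (hCFE : ∃ t : ↥(s44mz_VF O hπ N' q), Q.ord (red t) = 1) : 𝒲 ≠ ⊤ := by
  obtain ⟨t, ht⟩ := hCFE
  intro htop
  have hrt0 : red t ≠ 0 := by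
    intro h0
    rw [h0, Place.ord_zero] at ht
    exact zero_ne_one ht
  have htnu : (t : ↥(lg_F L (N' * q))) ∉ (s44mz_VF O hπ N' q).nonunits := fun h =>
    hrt0 (hker0 t h)
  rw [ValuationSubring.mem_nonunits_iff_or, not_or, not_not] at htnu
  obtain ⟨ht0, htinv⟩ := htnu
  -- `φ t⁻¹ ∈ 𝒱'` because `𝒲 = ⊤`
  have h1 : s44ndl_phi L (N' * q) (t : ↥(lg_F L (N' * q)))⁻¹ ∈
      tori_comp (ssm_gl_V1 O hπ N' q) (s44re_r O hπ N' q hq2 hqN')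
        (s44re_r_hker O hπ N' q hq2 hqN') 𝒲 := by
    refine ⟨(s44nlr_phi_mem_iff O hπ N' q _).2 htinv, ?_⟩
    rw [htop]
    exact ValuationSubring.mem_top _
  obtain ⟨h2, h3⟩ := (hext _).1 h1
  have h4 : red ⟨(t : ↥(lg_F L (N' * q)))⁻¹, h2⟩ = (red t)⁻¹ := by
    have hmul : t * ⟨(t : ↥(lg_F L (N' * q)))⁻¹, h2⟩ = 1 := Subtype.ext (mul_inv_cancel₀ ht0)
    have h5 : red t * red ⟨(t : ↥(lg_F L (N' * q)))⁻¹, h2⟩ = 1 := by
      rw [← map_mul, hmul, map_one]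
    exact eq_inv_of_mul_eq_one_right h5
  rw [h4] at h3
  have h6 := (hw_mem_iff_ord_nonneg Q (inv_ne_zero hrt0)).1 h3
  rw [Q.ord_inv, ht] at h6
  omega

include hext hprime in
/-- **the centre of `𝒱' = tori_comp V₁ r _ 𝒲`** on the `λ`-chart (all clauses of
`s44mz_centre_comp0`), for ANY `𝒲` with `hext`. -/
theorem s44ndl_centre
    (hconst : ∀ a : ↥O, red ⟨algebraMap ↥O ↥(lg_F L (N' * q)) a, s44nlr_const_mem O hπ N' q a⟩ ∈
      Q.toValuationSubring)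
    (hjQ : ∃ h : rpz_jF L (N' * q) ∈ s44mz_VF O hπ N' q,
      red ⟨rpz_jF L (N' * q), h⟩ ∈ Q.toValuationSubring)
    (hCFE : ∃ t : ↥(s44mz_VF O hπ N' q), Q.ord (red t) = 1) :
    (∀ a : ↥O, algebraMap ↥O ↥(lg_E L (N' * q)) a ∈
      tori_comp (ssm_gl_V1 O hπ N' q) (s44re_r O hπ N' q hq2 hqN')
        (s44re_r_hker O hπ N' q hq2 hqN') 𝒲) ∧
    s44mz_j2E L (N' * q) ∈ tori_comp (ssm_gl_V1 O hπ N' q) (s44re_r O hπ N' q hq2 hqN')
        (s44re_r_hker O hπ N' q hq2 hqN') 𝒲 ∧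
    lg_lamE (N' * q) ∈ tori_comp (ssm_gl_V1 O hπ N' q) (s44re_r O hπ N' q hq2 hqN')
        (s44re_r_hker O hπ N' q hq2 hqN') 𝒲 ∧
    (∀ b ∈ fc_chart ↥O ({lg_lamE (N' * q)} : Set ↥(lg_E L (N' * q))),
      b ∈ tori_comp (ssm_gl_V1 O hπ N' q) (s44re_r O hπ N' q hq2 hqN')
        (s44re_r_hker O hπ N' q hq2 hqN') 𝒲) ∧
    (ssm_tp_P (fc_chart ↥O ({lg_lamE (N' * q)} : Set ↥(lg_E L (N' * q))))
      (tori_comp (ssm_gl_V1 O hπ N' q) (s44re_r O hπ N' q hq2 hqN')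
        (s44re_r_hker O hπ N' q hq2 hqN') 𝒲)).IsMaximal ∧
    (∀ b : ↥(fc_chart ↥O ({lg_lamE (N' * q)} : Set ↥(lg_E L (N' * q)))),
      b ∈ ssm_tp_P (fc_chart ↥O ({lg_lamE (N' * q)} : Set ↥(lg_E L (N' * q))))
          (tori_comp (ssm_gl_V1 O hπ N' q) (s44re_r O hπ N' q hq2 hqN')
            (s44re_r_hker O hπ N' q hq2 hqN') 𝒲) ↔
        (b : ↥(lg_E L (N' * q))) ∈
          (tori_comp (ssm_gl_V1 O hπ N' q) (s44re_r O hπ N' q hq2 hqN')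
            (s44re_r_hker O hπ N' q hq2 hqN') 𝒲).nonunits) ∧
    algebraMap ↥O ↥(lg_E L (N' * q)) π ∈
      (tori_comp (ssm_gl_V1 O hπ N' q) (s44re_r O hπ N' q hq2 hqN')
        (s44re_r_hker O hπ N' q hq2 hqN') 𝒲).nonunits ∧
    ssm_tp_P (fc_chart ↥O ({lg_lamE (N' * q)} : Set ↥(lg_E L (N' * q))))
        (ssm_gl_V1 O hπ N' q) ≤
      ssm_tp_P (fc_chart ↥O ({lg_lamE (N' * q)} : Set ↥(lg_E L (N' * q))))
        (tori_comp (ssm_gl_V1 O hπ N' q) (s44re_r O hπ N' q hq2 hqN')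
          (s44re_r_hker O hπ N' q hq2 hqN') 𝒲) := by
  haveI := s44ndl_alg O N' q hq2 hqN'
  have hk𝒲 := s44ndl_const_mem O hπ N' q hq2 hqN' red hker0 Q 𝒲 hext hconst
  have hne := s44ndl_ne_top O hπ N' q hq2 hqN' red hker0 Q 𝒲 hext hCFE
  have hj : ∃ h : s44mz_j2E L (N' * q) ∈ ssm_gl_V1 O hπ N' q,
      s44re_r O hπ N' q hq2 hqN' ⟨s44mz_j2E L (N' * q), h⟩ ∈ 𝒲 := by
    obtain ⟨h1, h2⟩ := hjQ
    have h3 : rpz_jF L (N' * q) ∈
        tori_comp (s44mz_VF O hπ N' q) red hker0 Q.toValuationSubring := ⟨h1, h2⟩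
    have hφj : s44ndl_phi L (N' * q) (rpz_jF L (N' * q)) = s44mz_j2E L (N' * q) :=
      Subtype.ext rfl
    obtain ⟨h4, h5⟩ := (hext _).2 h3
    have h6 : s44mz_j2E L (N' * q) ∈ ssm_gl_V1 O hπ N' q := hφj ▸ h4
    refine ⟨h6, ?_⟩
    have h7 : (⟨s44mz_j2E L (N' * q), h6⟩ : ↥(ssm_gl_V1 O hπ N' q)) =
        ⟨s44ndl_phi L (N' * q) (rpz_jF L (N' * q)), h4⟩ := Subtype.ext hφj.symm
    rw [h7]
    exact h5
  have hA1 : ∀ a : ↥O, algebraMap ↥O ↥(lg_E L (N' * q)) a ∈ ssm_gl_V1 O hπ N' q :=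
    fun a => s44re_isBdd_const O a
  have hc := s44mz_centre_comp0 O hπ N' q hq2 hqN' hprime (residue ↥O) residue_surjective
    (s44re_r O hπ N' q hq2 hqN') (s44re_r_hker O hπ N' q hq2 hqN')
    (fun a h => s44re_r_const O hπ N' q hq2 hqN' a h)
    (lg_lamE N' : ↥(lg_E (ResidueField O) N')) 𝒲 hk𝒲 hne hj
  refine ⟨fun a => ⟨hA1 a, ?_⟩, hj, hc⟩
  rw [s44re_r_const]
  exact hk𝒲 _

end Centre

end Geo

/-! ### the node case -/

section NodeCase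

variable (L : Type) [Field L] [NumberField L] [Algebra L (AlgebraicClosure ℚ)]
  (O : ValuationSubring L) [IsDiscreteValuationRing O] {π : O} (hπ : Irreducible π)
variable (N' q : ℕ) [NeZero N'] [NeZero q] [hq : Fact q.Prime] [CharP (ResidueField O) q]
  (hq2 : ¬ 2 ∣ q) (hqN' : ¬ q ∣ N') (ζ : L) (hζ : IsPrimitiveRoot ζ N')

/-- the composite valuation ring `𝒱' = tori_comp V₁ r _ 𝒲`. -/
abbrev s44ndl_V (𝒲 : ValuationSubring ↥(lg_E (ResidueField O) N')) :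
    ValuationSubring ↥(lg_E L (N' * q)) :=
  tori_comp (ssm_gl_V1 O hπ N' q) (s44re_r O hπ N' q hq2 hqN')
    (s44re_r_hker O hπ N' q hq2 hqN') 𝒲

/-- its centre on the `λ`-chart. -/
abbrev s44ndl_n (𝒲 : ValuationSubring ↥(lg_E (ResidueField O) N')) :
    Ideal ↥(fc_chart ↥O ({lg_lamE (N' * q)} : Set ↥(lg_E L (N' * q)))) :=
  ssm_tp_P (fc_chart ↥O ({lg_lamE (N' * q)} : Set ↥(lg_E L (N' * q))))
    (s44ndl_V L O hπ N' q hq2 hqN' 𝒲)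

include hπ hq2 hqN' hζ in
/-- `π` is prime on the level-`N'` chart. -/
theorem s44ndl_prime :
    Prime (algebraMap ↥O (fc_chart ↥O ({lg_lamE N'} : Set ↥(lg_E L N'))) π) :=
  (ssm_ll_prime L N' hπ q (ssm_fln_q_mem L O q) (ssm_fl_ne_two q hq2) hqN' ζ hζ).1

variable {κ0 : Type*} [Field κ0] (red : ↥(s44mz_VF O hπ N' q) →+* κ0)
  (hker0 : ∀ z : ↥(s44mz_VF O hπ N' q),
    (z : ↥(lg_F L (N' * q))) ∈ (s44mz_VF O hπ N' q).nonunits → red z = 0)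
  {kA : Type*} [Field kA] [Algebra kA κ0] (Q : Place kA κ0)
  (𝒲 : ValuationSubring ↥(lg_E (ResidueField O) N'))
  (hext : ∀ x : ↥(lg_F L (N' * q)),
    s44ndl_phi L (N' * q) x ∈ s44ndl_V L O hπ N' q hq2 hqN' 𝒲 ↔
      x ∈ tori_comp (s44mz_VF O hπ N' q) red hker0 Q.toValuationSubring)

include hζ hext in
/-- **(ND-Leg), NODE CASE (generic reduction data).** -/
theorem s44ndl_node
    (hconst : ∀ a : ↥O, red ⟨algebraMap ↥O ↥(lg_F L (N' * q)) a, s44nlr_const_mem O hπ N' q a⟩ ∈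
      Q.toValuationSubring)
    (hjQ : ∃ h : rpz_jF L (N' * q) ∈ s44mz_VF O hπ N' q,
      red ⟨rpz_jF L (N' * q), h⟩ ∈ Q.toValuationSubring)
    (hCFE : ∃ t : ↥(s44mz_VF O hπ N' q), Q.ord (red t) = 1)
    (hSSQ : ∀ b : ↥(lg_F L (N' * q)),
      b ∈ fc_chart ↥O ({rpz_jF L (N' * q)} : Set ↥(lg_F L (N' * q))) →
      ssm_al_W L N' q hq.out hqN' b ∈ (s44mz_VF O hπ N' q).nonunits →
      ∃ h : b ∈ s44mz_VF O hπ N' q, red ⟨b, h⟩ ∈ Q.toValuationSubring.nonunits)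
    (h𝔫 : (s44ndl_n L O hπ N' q hq2 hqN' 𝒲).IsMaximal) :
    haveI := (s44ndl_chart_inst O N' q).1
    haveI := (s44ndl_chart_inst O N' q).2.1
    haveI := (s44ndl_chart_inst O N' q).2.2
    haveI := h𝔫.isPrime
    haveI := ssl_loc_isLocalRing (F0 := ↥(lg_E L (N' * q))) (s44ndl_n L O hπ N' q hq2 hqN' 𝒲)
    haveI := ssl_loc_isNoetherianRing (F0 := ↥(lg_E L (N' * q)))
      (s44ndl_n L O hπ N' q hq2 hqN' 𝒲)
    ssm_tp_P (fc_chart ↥O ({lg_lamE (N' * q)} : Set ↥(lg_E L (N' * q))))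
        (ssm_gl_V2 O hπ N' q hq2 hqN') ≤ s44ndl_n L O hπ N' q hq2 hqN' 𝒲 ∧
    ∃ u v : ↥(lg_E L (N' * q)),
      s44mu_NodeAtU π (fc_chart1_le (lg_lamE (N' * q) : ↥(lg_E L (N' * q))))
        (ssm_tp_P (fc_chart ↥O ({lg_lamE (N' * q), (lg_lamE (N' * q))⁻¹} :
          Set ↥(lg_E L (N' * q)))) (ssm_gl_V1 O hπ N' q))
        (ssm_tp_P (fc_chart ↥O ({lg_lamE (N' * q), (lg_lamE (N' * q))⁻¹} :
          Set ↥(lg_E L (N' * q)))) (ssm_gl_V2 O hπ N' q hq2 hqN'))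
        (s44ndl_n L O hπ N' q hq2 hqN' 𝒲) u v ((q : ℕ) : ↥O) ∧
      (∀ (σ : L ≃+* L), ss_Inert O σ →
        ssm_sg_aut (N' * q) σ u = u ∧ ssm_sg_aut (N' * q) σ v = v) ∧
      ∃ (huS : u ∈ ssl_locSub ↥(lg_E L (N' * q)) (s44ndl_n L O hπ N' q hq2 hqN' 𝒲))
        (T : ℕ) (ν : ↥(lg_E L (N' * q)) → ℤ), 0 < T ∧
        s44nu_IsNu
          (algebraMap ↥(fc_chart ↥O ({lg_lamE (N' * q)} : Set ↥(lg_E L (N' * q))))
            ↥(ssl_locSub ↥(lg_E L (N' * q)) (s44ndl_n L O hπ N' q hq2 hqN' 𝒲))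
            (algebraMap ↥O ↥(fc_chart ↥O ({lg_lamE (N' * q)} : Set ↥(lg_E L (N' * q)))) π))
          (⟨u, huS⟩ : ↥(ssl_locSub ↥(lg_E L (N' * q)) (s44ndl_n L O hπ N' q hq2 hqN' 𝒲)))
          (s44tl_br (s44ndl_n L O hπ N' q hq2 hqN' 𝒲)
            (fc_chart1_le (lg_lamE (N' * q) : ↥(lg_E L (N' * q))))
            (ssm_tp_P (fc_chart ↥O ({lg_lamE (N' * q), (lg_lamE (N' * q))⁻¹} :
              Set ↥(lg_E L (N' * q)))) (ssm_gl_V1 O hπ N' q))) ν ∧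
        ∀ b : ↥(s44mz_VF O hπ N' q), IsUnit b →
          ν (lg_phiE (L := L) (N := N' * q) (b : ↥(lg_F L (N' * q)))) =
            (T : ℤ) * Q.ord (red b) := by
  haveI := (s44ndl_chart_inst O N' q).1
  haveI := (s44ndl_chart_inst O N' q).2.1
  haveI := (s44ndl_chart_inst O N' q).2.2
  haveI := h𝔫.isPrime
  haveI := ssl_loc_isLocalRing (F0 := ↥(lg_E L (N' * q))) (s44ndl_n L O hπ N' q hq2 hqN' 𝒲)
  haveI := ssl_loc_isNoetherianRing (F0 := ↥(lg_E L (N' * q)))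
    (s44ndl_n L O hπ N' q hq2 hqN' 𝒲)
  have hprime := s44ndl_prime L O hπ N' q hq2 hqN' ζ hζ
  obtain ⟨hO𝒱, hj𝒱, -, hB, -, h𝔫eq, hπ𝔫, hP1⟩ :=
    s44ndl_centre O hπ N' q hq2 hqN' hprime red hker0 Q 𝒲 hext hconst hjQ hCFE
  -- supersingularity at `𝒱'`
  have hSS : ∀ b : ↥(lg_F L (N' * q)),
      b ∈ fc_chart ↥O ({rpz_jF L (N' * q)} : Set ↥(lg_F L (N' * q))) →
      ssm_al_W L N' q hq.out hqN' b ∈ (s44mz_VF O hπ N' q).nonunits →
      lg_phiE (L := L) (N := N' * q) b ∈ (s44ndl_V L O hπ N' q hq2 hqN' 𝒲).nonunits := by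
    intro b hb hWb
    have h1 : b ∈ (tori_comp (s44mz_VF O hπ N' q) red hker0 Q.toValuationSubring).nonunits :=
      (tori_comp_mem_nonunits_iff _ _ _ _).2 (hSSQ b hb hWb)
    exact (s44nd_nonunits_iff (s44ndl_phi L (N' * q)) (s44mz_VF O hπ N' q)
      (ssm_gl_V1 O hπ N' q) red hker0 Q (s44re_r O hπ N' q hq2 hqN')
      (s44re_r_hker O hπ N' q hq2 hqN') 𝒲 hext b).2 h1
  have hP2 := s44mz_P2_le_chart O hπ N' q hq2 hqN' hprime (s44ndl_V L O hπ N' q hq2 hqN' 𝒲)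
    hO𝒱 hj𝒱 hSS
  obtain ⟨u, v, hNode, hfix⟩ := s44mu_node L O hπ N' q hq2 hqN' ζ hζ
    (s44ndl_n L O hπ N' q hq2 hqN' 𝒲) h𝔫 hP1 hP2
  refine ⟨hP2, u, v, hNode, hfix, ?_⟩
  -- the data of `s44ndn_main`
  have hπmax : π ∈ maximalIdeal ↥O := by
    rw [hπ.maximalIdeal_eq]; exact Ideal.mem_span_singleton_self π
  have H1nu : algebraMap ↥O ↥(lg_E L (N' * q)) π ∈ (ssm_gl_V1 O hπ N' q).nonunits :=
    s44ndl_max_mem O hπ N' q hq2 hqN' π hπmax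
  have hϖ0 : algebraMap ↥O ↥(lg_E L (N' * q)) π ≠ 0 := s44ndl_pi_ne O hπ N' q
  have ha : algebraMap ↥O ↥(lg_E L (N' * q)) ((q : ℕ) : ↥O) ∈ (ssm_gl_V1 O hπ N' q).nonunits :=
    s44ndl_max_mem O hπ N' q hq2 hqN' _ (ssm_fln_q_mem L O q)
  have hB12V := s44ndl_B12_le O hπ N' q hq2 hqN' hprime
  have hpass : ssm_tp_P (fc_chart ↥O ({lg_lamE (N' * q)} : Set ↥(lg_E L (N' * q))))
      (ssm_gl_V1 O hπ N' q) ≤ s44ndl_n L O hπ N' q hq2 hqN' 𝒲 := hP1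
  obtain ⟨huS, -⟩ := s44ndn_coords (s44ndl_n L O hπ N' q hq2 hqN' 𝒲)
    (fc_chart1_le (lg_lamE (N' * q) : ↥(lg_E L (N' * q)))) (ssm_gl_V1 O hπ N' q) hB12V hpass
    H1nu hNode ha
  have hk𝒲 := s44ndl_const_mem O hπ N' q hq2 hqN' red hker0 Q 𝒲 hext hconst
  obtain ⟨T, ν, hT, hν, hTb⟩ := s44ndn_main (s44ndl_phi L (N' * q)) (s44mz_VF O hπ N' q)
    (ssm_gl_V1 O hπ N' q) (s44nlr_phi_mem_iff O hπ N' q) red hker0 Q
    (s44re_r O hπ N' q hq2 hqN') (s44re_r_hker O hπ N' q hq2 hqN') 𝒲 hext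
    (s44ndl_n L O hπ N' q hq2 hqN' 𝒲)
    (fc_chart1_le (lg_lamE (N' * q) : ↥(lg_E L (N' * q)))) hB h𝔫eq H1nu hϖ0
    (s44ndl_unif O hπ N' q) (s44re_r_surjective O hπ N' q hq2 hqN')
    (s44ndl_loc O hπ N' q hq2 hqN' hprime) hB12V hNode ha huS hk𝒲 hCFE
  exact ⟨huS, T, ν, hT, hν, hTb⟩


include hζ hext in
/-- **(ND-Leg), SMOOTH CASE (generic reduction data).** -/
theorem s44ndl_smooth
    (hconst : ∀ a : ↥O, red ⟨algebraMap ↥O ↥(lg_F L (N' * q)) a, s44nlr_const_mem O hπ N' q a⟩ ∈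
      Q.toValuationSubring)
    (hjQ : ∃ h : rpz_jF L (N' * q) ∈ s44mz_VF O hπ N' q,
      red ⟨rpz_jF L (N' * q), h⟩ ∈ Q.toValuationSubring)
    (hCFE : ∃ t : ↥(s44mz_VF O hπ N' q), Q.ord (red t) = 1)
    (hnotSS : ∃ b : ↥(lg_F L (N' * q)),
      b ∈ fc_chart ↥O ({rpz_jF L (N' * q)} : Set ↥(lg_F L (N' * q))) ∧
      ssm_al_W L N' q hq.out hqN' b ∈ (s44mz_VF O hπ N' q).nonunits ∧
      ∃ h : b ∈ s44mz_VF O hπ N' q, red ⟨b, h⟩ ∉ Q.toValuationSubring.nonunits)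
    (h𝔫 : (s44ndl_n L O hπ N' q hq2 hqN' 𝒲).IsMaximal) :
    ¬ ssm_tp_P (fc_chart ↥O ({lg_lamE (N' * q)} : Set ↥(lg_E L (N' * q))))
        (ssm_gl_V2 O hπ N' q hq2 hqN') ≤ s44ndl_n L O hπ N' q hq2 hqN' 𝒲 ∧
    ss_SmoothAt π (fc_chart ↥O ({lg_lamE (N' * q)} : Set ↥(lg_E L (N' * q))))
      (s44ndl_n L O hπ N' q hq2 hqN' 𝒲) ∧
    ∀ b : ↥(s44mz_VF O hπ N' q), IsUnit b →
      (∃ a s : ↥(fc_chart ↥O ({lg_lamE (N' * q)} : Set ↥(lg_E L (N' * q)))),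
        a ∉ s44ndl_n L O hπ N' q hq2 hqN' 𝒲 ∧ s ∉ s44ndl_n L O hπ N' q hq2 hqN' 𝒲 ∧
        lg_phiE (L := L) (N := N' * q) (b : ↥(lg_F L (N' * q))) * (s : ↥(lg_E L (N' * q))) =
          (a : ↥(lg_E L (N' * q)))) →
      Q.ord (red b) = 0 := by
  haveI := (s44ndl_chart_inst O N' q).1
  haveI := (s44ndl_chart_inst O N' q).2.1
  haveI := (s44ndl_chart_inst O N' q).2.2
  haveI := h𝔫.isPrime
  have hqO := ssm_fln_q_mem L O q
  have hq2' : q ≠ 2 := ssm_fl_ne_two q hq2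
  have hp := ssm_ll_prime L N' hπ q hqO hq2' hqN' ζ hζ
  have hprime := hp.1
  obtain ⟨hO𝒱, hj𝒱, -, hB, -, h𝔫eq, hπ𝔫, hP1⟩ :=
    s44ndl_centre O hπ N' q hq2 hqN' hprime red hker0 Q 𝒲 hext hconst hjQ hCFE
  have hnotP2 : ¬ ssm_tp_P (fc_chart ↥O ({lg_lamE (N' * q)} : Set ↥(lg_E L (N' * q))))
      (ssm_gl_V2 O hπ N' q hq2 hqN') ≤ s44ndl_n L O hπ N' q hq2 hqN' 𝒲 := by
    intro hnode
    obtain ⟨b, hb, hWb, hbV, hbQ⟩ := hnotSS
    have h1 := s44mzc_ss_of_P2_le O hπ N' q hq2 hqN' hprime (s44ndl_V L O hπ N' q hq2 hqN' 𝒲)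
      hO𝒱 hj𝒱 hnode b hb hWb
    have h2 := (s44nd_nonunits_iff (s44ndl_phi L (N' * q)) (s44mz_VF O hπ N' q)
      (ssm_gl_V1 O hπ N' q) red hker0 Q (s44re_r O hπ N' q hq2 hqN')
      (s44re_r_hker O hπ N' q hq2 hqN') 𝒲 hext b).1 h1
    obtain ⟨h3, h4⟩ := (tori_comp_mem_nonunits_iff _ _ _ _).1 h2
    exact hbQ h4
  refine ⟨hnotP2, ?_, ?_⟩
  · have F := ssm_fl_facts O hπ N' q hq2 hqN' hp.1
    have hs := ssm_si_smooth O hπ N' q hq2 hqN' hp.1 hp.2.1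
      (ssm_ll_ic1 L N' hπ q hqO hq2' hqN' ζ hζ) (ssm_ll_ic2 L N' hπ q hqO hq2' hqN' ζ hζ)
      (ssm_ll_reg1 L N' hπ q hqO hq2' hqN' ζ hζ) (ssm_ll_reg2 L N' hπ q hqO hq2' hqN' ζ hζ) F
    refine hs.1 _ h𝔫 ?_ hnotP2
    rw [h𝔫eq]
    exact hπ𝔫
  · intro b hb hz
    exact s44nd_unit_chart (s44ndl_phi L (N' * q)) (s44mz_VF O hπ N' q)
      (ssm_gl_V1 O hπ N' q) red hker0 Q (s44re_r O hπ N' q hq2 hqN')
      (s44re_r_hker O hπ N' q hq2 hqN') 𝒲 hext (s44ndl_n L O hπ N' q hq2 hqN' 𝒲) hB h𝔫eq hb hz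

end NodeCase

/-! ### the instance over `A` -/

section Inst

local notation "Qb" => AlgebraicClosure ℚ

variable (A : ValuationSubring Qb) {p : ℕ} [hp : Fact p.Prime] (hA : A.LiesOverPrime p)
  (M : ℕ) [NeZero M] [NeZero p] [NeZero (M * p)] (hp2 : ¬ 2 ∣ p) (hpM : ¬ p ∣ M)
  (L1 : IntermediateField ℚ Qb) [NumberField ↥L1]
  [IsDiscreteValuationRing ↥(A.comap (algebraMap L1 Qb))]
  [CharP (ResidueField ↥(A.comap (algebraMap L1 Qb))) p]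
  {π : ↥(A.comap (algebraMap L1 Qb))} (hπ : Irreducible π)
  (ζ : ↥L1) (hζ : IsPrimitiveRoot ζ M)
  (Q : Place (s44e_kA A) ↥(s44e_FF A M))

/-- `red` maps the constants of `O` into `kA ⊆ O_Q`. -/
theorem s44ndl_hconst (a : ↥(A.comap (algebraMap L1 Qb))) :
    s44nlr_red A hA M hpM L1 hπ ⟨algebraMap ↥(A.comap (algebraMap L1 Qb)) ↥(lg_F L1 (M * p)) a,
      s44nlr_const_mem (A.comap (algebraMap L1 Qb)) hπ M p a⟩ ∈ Q.toValuationSubring := by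
  rw [s44nlr_red_eq, s44nlr_resF_const, s44mi_iotaF_const]
  exact Q.algebraMap_mem' _

/-- `red j = j̄`. -/
theorem s44ndl_red_j (h : rpz_jF L1 (M * p) ∈ s44mz_VF (A.comap (algebraMap L1 Qb)) hπ M p) :
    s44nlr_red A hA M hpM L1 hπ ⟨rpz_jF L1 (M * p), h⟩ = jcr_j (k := s44e_kA A) M := by
  apply Subtype.ext
  rw [s44nlr_red_eq, s44mi_iotaF_coe,
    s44nlr_resF_iota (A.comap (algebraMap L1 Qb)) hπ M p hpM _
      (jqModC ↥(A.comap (algebraMap L1 Qb))) (coeffMap_jqModC _).symm,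
    coeffMap_jqModC, coeffMap_jqModC]
  rfl

/-- the `hext` property of a valuation subring `𝒲` of `lg_E k' M`. -/
def s44ndl_Ext (𝒲 : ValuationSubring ↥(lg_E (ResidueField ↥(A.comap (algebraMap L1 Qb))) M)) :
    Prop :=
  ∀ x : ↥(lg_F L1 (M * p)),
    s44ndl_phi L1 (M * p) x ∈ s44ndl_V L1 (A.comap (algebraMap L1 Qb)) hπ M p hp2 hpM 𝒲 ↔
      x ∈ tori_comp (s44mz_VF (A.comap (algebraMap L1 Qb)) hπ M p) (s44nlr_red A hA M hpM L1 hπ)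
        (s44nlr_red_hker A hA M hpM L1 hπ) Q.toValuationSubring

/-- **(ND-ex)**: the rank-2 valuation ring of `Q` extends to the Legendre cover. -/
theorem s44ndl_exists_ext :
    ∃ 𝒲 : ValuationSubring ↥(lg_E (ResidueField ↥(A.comap (algebraMap L1 Qb))) M),
      s44ndl_Ext A hA M hp2 hpM L1 hπ Q 𝒲 :=
  s44nd_exists_ext (s44ndl_phi L1 (M * p)) (s44mz_VF (A.comap (algebraMap L1 Qb)) hπ M p)
    (ssm_gl_V1 (A.comap (algebraMap L1 Qb)) hπ M p)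
    (s44nlr_phi_mem_iff (A.comap (algebraMap L1 Qb)) hπ M p)
    (s44nlr_red A hA M hpM L1 hπ) (s44nlr_red_hker A hA M hpM L1 hπ) Q.toValuationSubring
    (s44re_r (A.comap (algebraMap L1 Qb)) hπ M p hp2 hpM)
    (s44re_r_hker (A.comap (algebraMap L1 Qb)) hπ M p hp2 hpM)

variable (𝒲 : ValuationSubring ↥(lg_E (ResidueField ↥(A.comap (algebraMap L1 Qb))) M))
  (hext : s44ndl_Ext A hA M hp2 hpM L1 hπ Q 𝒲)

/-- `j̄` finite at `Q` ⟹ the `hjQ` hypothesis. -/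
theorem s44ndl_hjQ (hj : jcr_j (k := s44e_kA A) M ∈ Q.toValuationSubring) :
    ∃ h : rpz_jF L1 (M * p) ∈ s44mz_VF (A.comap (algebraMap L1 Qb)) hπ M p,
      s44nlr_red A hA M hpM L1 hπ ⟨rpz_jF L1 (M * p), h⟩ ∈ Q.toValuationSubring := by
  have h : rpz_jF L1 (M * p) ∈ s44mz_VF (A.comap (algebraMap L1 Qb)) hπ M p :=
    s44ndl_jchart_le (A.comap (algebraMap L1 Qb)) hπ M p _ (fc_x_mem_chart _)
  exact ⟨h, by rw [s44ndl_red_j]; exact hj⟩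

include hζ hext in
/-- **(ND-Leg), THE CENTRE** of the rank-2 valuation of a place `Q` of `FF_M / kA` with `j̄` finite, on
the `λ`-chart of the Legendre model over `O = A ∩ L1`. -/
theorem s44ndl_centre_A (hj : jcr_j (k := s44e_kA A) M ∈ Q.toValuationSubring) :
    (∀ a : ↥(A.comap (algebraMap L1 Qb)),
      algebraMap ↥(A.comap (algebraMap L1 Qb)) ↥(lg_E L1 (M * p)) a ∈
        s44ndl_V L1 (A.comap (algebraMap L1 Qb)) hπ M p hp2 hpM 𝒲) ∧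
    s44mz_j2E L1 (M * p) ∈ s44ndl_V L1 (A.comap (algebraMap L1 Qb)) hπ M p hp2 hpM 𝒲 ∧
    lg_lamE (M * p) ∈ s44ndl_V L1 (A.comap (algebraMap L1 Qb)) hπ M p hp2 hpM 𝒲 ∧
    (∀ b ∈ fc_chart ↥(A.comap (algebraMap L1 Qb)) ({lg_lamE (M * p)} : Set ↥(lg_E L1 (M * p))),
      b ∈ s44ndl_V L1 (A.comap (algebraMap L1 Qb)) hπ M p hp2 hpM 𝒲) ∧
    (s44ndl_n L1 (A.comap (algebraMap L1 Qb)) hπ M p hp2 hpM 𝒲).IsMaximal ∧
    (∀ b : ↥(fc_chart ↥(A.comap (algebraMap L1 Qb))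
        ({lg_lamE (M * p)} : Set ↥(lg_E L1 (M * p)))),
      b ∈ s44ndl_n L1 (A.comap (algebraMap L1 Qb)) hπ M p hp2 hpM 𝒲 ↔
        (b : ↥(lg_E L1 (M * p))) ∈
          (s44ndl_V L1 (A.comap (algebraMap L1 Qb)) hπ M p hp2 hpM 𝒲).nonunits) ∧
    algebraMap ↥(A.comap (algebraMap L1 Qb)) ↥(lg_E L1 (M * p)) π ∈
      (s44ndl_V L1 (A.comap (algebraMap L1 Qb)) hπ M p hp2 hpM 𝒲).nonunits ∧
    ssm_tp_P (fc_chart ↥(A.comap (algebraMap L1 Qb))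
        ({lg_lamE (M * p)} : Set ↥(lg_E L1 (M * p))))
        (ssm_gl_V1 (A.comap (algebraMap L1 Qb)) hπ M p) ≤
      s44ndl_n L1 (A.comap (algebraMap L1 Qb)) hπ M p hp2 hpM 𝒲 :=
  s44ndl_centre (A.comap (algebraMap L1 Qb)) hπ M p hp2 hpM
    (s44ndl_prime L1 (A.comap (algebraMap L1 Qb)) hπ M p hp2 hpM ζ hζ)
    (s44nlr_red A hA M hpM L1 hπ) (s44nlr_red_hker A hA M hpM L1 hπ) Q 𝒲 hext
    (s44ndl_hconst A hA M hpM L1 hπ Q) (s44ndl_hjQ A hA M hpM L1 hπ Q hj)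
    (s44nlr_hCFE A hA M hpM L1 hπ Q)

include hA in
/-- `s44e_IsSS` ⟹ the generic supersingularity hypothesis `hSSQ`. -/
theorem s44ndl_hSSQ (hQ : s44e_IsSS A M p hp.out hpM Q) (b : ↥(lg_F L1 (M * p)))
    (hb : b ∈ fc_chart ↥(A.comap (algebraMap L1 Qb))
      ({rpz_jF L1 (M * p)} : Set ↥(lg_F L1 (M * p))))
    (hW : ssm_al_W L1 M p hp.out hpM b ∈
      (s44mz_VF (A.comap (algebraMap L1 Qb)) hπ M p).nonunits) :
    ∃ h : b ∈ s44mz_VF (A.comap (algebraMap L1 Qb)) hπ M p,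
      s44nlr_red A hA M hpM L1 hπ ⟨b, h⟩ ∈ Q.toValuationSubring.nonunits := by
  have hbV : b ∈ s44mz_VF (A.comap (algebraMap L1 Qb)) hπ M p :=
    s44ndl_jchart_le (A.comap (algebraMap L1 Qb)) hπ M p b hb
  have hWb : gq_IsBdd ↥(A.comap (algebraMap L1 Qb)) L1
      ((ssm_al_W L1 M p hp.out hpM b : lg_F L1 (M * p)) : LaurentSeries L1) :=
    ValuationSubring.nonunits_subset hW
  have hW0 := (gq_mem_nonunits_iff_res π hπ.ne_zero hπ.maximalIdeal_eq (lg_F L1 (M * p))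
    (rdn_gf_le_quotField (A.comap (algebraMap L1 Qb)) (M * p)) _ hWb).1 hW
  exact ⟨hbV, s44ec_isSS_nf A hA M hpM hQ L1 b (fc_mem_chart.1 hb) hWb hW0
    (s44ec_isBdd_iotaF A L1 (M * p) b hbV)⟩

include hA hζ hext in
/-- **(ND-Leg), NODE CASE**: `Q` supersingular.  The centre `𝔫` of `Q` lies on BOTH components, carries
the uniform node `u v = p` of `s44mu_node`, and there are `T > 0`, `ν` (the normalised order of `B_𝔫`
along the `∞`-branch, `s44nu_IsNu`) with `ν (φ b) = T · ord_Q (red b)` for every Gauss unit `b`. -/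
theorem s44ndl_node_A (hQ : s44e_IsSS A M p hp.out hpM Q)
    (h𝔫 : (s44ndl_n L1 (A.comap (algebraMap L1 Qb)) hπ M p hp2 hpM 𝒲).IsMaximal) :
    haveI := (s44ndl_chart_inst (A.comap (algebraMap L1 Qb)) M p (L := L1)).1
    haveI := (s44ndl_chart_inst (A.comap (algebraMap L1 Qb)) M p (L := L1)).2.1
    haveI := (s44ndl_chart_inst (A.comap (algebraMap L1 Qb)) M p (L := L1)).2.2
    haveI := h𝔫.isPrime
    haveI := ssl_loc_isLocalRing (F0 := ↥(lg_E L1 (M * p)))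
      (s44ndl_n L1 (A.comap (algebraMap L1 Qb)) hπ M p hp2 hpM 𝒲)
    haveI := ssl_loc_isNoetherianRing (F0 := ↥(lg_E L1 (M * p)))
      (s44ndl_n L1 (A.comap (algebraMap L1 Qb)) hπ M p hp2 hpM 𝒲)
    ssm_tp_P (fc_chart ↥(A.comap (algebraMap L1 Qb))
        ({lg_lamE (M * p)} : Set ↥(lg_E L1 (M * p))))
        (ssm_gl_V2 (A.comap (algebraMap L1 Qb)) hπ M p hp2 hpM) ≤
      s44ndl_n L1 (A.comap (algebraMap L1 Qb)) hπ M p hp2 hpM 𝒲 ∧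
    ∃ u v : ↥(lg_E L1 (M * p)),
      s44mu_NodeAtU π (fc_chart1_le (lg_lamE (M * p) : ↥(lg_E L1 (M * p))))
        (ssm_tp_P (fc_chart ↥(A.comap (algebraMap L1 Qb))
          ({lg_lamE (M * p), (lg_lamE (M * p))⁻¹} : Set ↥(lg_E L1 (M * p))))
          (ssm_gl_V1 (A.comap (algebraMap L1 Qb)) hπ M p))
        (ssm_tp_P (fc_chart ↥(A.comap (algebraMap L1 Qb))
          ({lg_lamE (M * p), (lg_lamE (M * p))⁻¹} : Set ↥(lg_E L1 (M * p))))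
          (ssm_gl_V2 (A.comap (algebraMap L1 Qb)) hπ M p hp2 hpM))
        (s44ndl_n L1 (A.comap (algebraMap L1 Qb)) hπ M p hp2 hpM 𝒲) u v
        ((p : ℕ) : ↥(A.comap (algebraMap L1 Qb))) ∧
      (∀ (σ : ↥L1 ≃+* ↥L1), ss_Inert (A.comap (algebraMap L1 Qb)) σ →
        ssm_sg_aut (M * p) σ u = u ∧ ssm_sg_aut (M * p) σ v = v) ∧
      ∃ (huS : u ∈ ssl_locSub ↥(lg_E L1 (M * p))
          (s44ndl_n L1 (A.comap (algebraMap L1 Qb)) hπ M p hp2 hpM 𝒲))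
        (T : ℕ) (ν : ↥(lg_E L1 (M * p)) → ℤ), 0 < T ∧
        s44nu_IsNu
          (algebraMap ↥(fc_chart ↥(A.comap (algebraMap L1 Qb))
              ({lg_lamE (M * p)} : Set ↥(lg_E L1 (M * p))))
            ↥(ssl_locSub ↥(lg_E L1 (M * p))
              (s44ndl_n L1 (A.comap (algebraMap L1 Qb)) hπ M p hp2 hpM 𝒲))
            (algebraMap ↥(A.comap (algebraMap L1 Qb))
              ↥(fc_chart ↥(A.comap (algebraMap L1 Qb))
                ({lg_lamE (M * p)} : Set ↥(lg_E L1 (M * p)))) π))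
          (⟨u, huS⟩ : ↥(ssl_locSub ↥(lg_E L1 (M * p))
            (s44ndl_n L1 (A.comap (algebraMap L1 Qb)) hπ M p hp2 hpM 𝒲)))
          (s44tl_br (s44ndl_n L1 (A.comap (algebraMap L1 Qb)) hπ M p hp2 hpM 𝒲)
            (fc_chart1_le (lg_lamE (M * p) : ↥(lg_E L1 (M * p))))
            (ssm_tp_P (fc_chart ↥(A.comap (algebraMap L1 Qb))
              ({lg_lamE (M * p), (lg_lamE (M * p))⁻¹} : Set ↥(lg_E L1 (M * p))))
              (ssm_gl_V1 (A.comap (algebraMap L1 Qb)) hπ M p))) ν ∧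
        ∀ b : ↥(s44mz_VF (A.comap (algebraMap L1 Qb)) hπ M p), IsUnit b →
          ν (lg_phiE (L := ↥L1) (N := M * p) (b : ↥(lg_F L1 (M * p)))) =
            (T : ℤ) * Q.ord (s44nlr_red A hA M hpM L1 hπ b : ↥(s44e_FF A M)) :=
  s44ndl_node L1 (A.comap (algebraMap L1 Qb)) hπ M p hp2 hpM ζ hζ
    (s44nlr_red A hA M hpM L1 hπ) (s44nlr_red_hker A hA M hpM L1 hπ) Q 𝒲 hext
    (s44ndl_hconst A hA M hpM L1 hπ Q) (s44ndl_hjQ A hA M hpM L1 hπ Q hQ.1)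
    (s44nlr_hCFE A hA M hpM L1 hπ Q) (s44ndl_hSSQ A hA M hpM L1 hπ Q hQ) h𝔫

include hζ hext in
/-- **(ND-Leg), SMOOTH CASE**: `Q` with `j̄` finite, NOT supersingular at the level of `L1` (`hnotSS`:
a witness `b` over `L1`; see `s44ndl_witness`).  The centre `𝔫` of `Q` is not on the `0`-component, it
is a smooth point of the chart, and `φ b ∈ (B_𝔫)ˣ ⟹ ord_Q (red b) = 0`. -/
theorem s44ndl_smooth_A (hj : jcr_j (k := s44e_kA A) M ∈ Q.toValuationSubring)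
    (hnotSS : ∃ b : ↥(lg_F L1 (M * p)),
      b ∈ fc_chart ↥(A.comap (algebraMap L1 Qb))
        ({rpz_jF L1 (M * p)} : Set ↥(lg_F L1 (M * p))) ∧
      ssm_al_W L1 M p hp.out hpM b ∈ (s44mz_VF (A.comap (algebraMap L1 Qb)) hπ M p).nonunits ∧
      ∃ h : b ∈ s44mz_VF (A.comap (algebraMap L1 Qb)) hπ M p,
        s44nlr_red A hA M hpM L1 hπ ⟨b, h⟩ ∉ Q.toValuationSubring.nonunits)
    (h𝔫 : (s44ndl_n L1 (A.comap (algebraMap L1 Qb)) hπ M p hp2 hpM 𝒲).IsMaximal) :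
    ¬ ssm_tp_P (fc_chart ↥(A.comap (algebraMap L1 Qb))
        ({lg_lamE (M * p)} : Set ↥(lg_E L1 (M * p))))
        (ssm_gl_V2 (A.comap (algebraMap L1 Qb)) hπ M p hp2 hpM) ≤
      s44ndl_n L1 (A.comap (algebraMap L1 Qb)) hπ M p hp2 hpM 𝒲 ∧
    ss_SmoothAt π (fc_chart ↥(A.comap (algebraMap L1 Qb))
        ({lg_lamE (M * p)} : Set ↥(lg_E L1 (M * p))))
      (s44ndl_n L1 (A.comap (algebraMap L1 Qb)) hπ M p hp2 hpM 𝒲) ∧
    ∀ b : ↥(s44mz_VF (A.comap (algebraMap L1 Qb)) hπ M p), IsUnit b →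
      (∃ a s : ↥(fc_chart ↥(A.comap (algebraMap L1 Qb))
          ({lg_lamE (M * p)} : Set ↥(lg_E L1 (M * p)))),
        a ∉ s44ndl_n L1 (A.comap (algebraMap L1 Qb)) hπ M p hp2 hpM 𝒲 ∧
        s ∉ s44ndl_n L1 (A.comap (algebraMap L1 Qb)) hπ M p hp2 hpM 𝒲 ∧
        lg_phiE (L := ↥L1) (N := M * p) (b : ↥(lg_F L1 (M * p))) * (s : ↥(lg_E L1 (M * p))) =
          (a : ↥(lg_E L1 (M * p)))) →
      Q.ord (s44nlr_red A hA M hpM L1 hπ b : ↥(s44e_FF A M)) = 0 :=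
  s44ndl_smooth L1 (A.comap (algebraMap L1 Qb)) hπ M p hp2 hpM ζ hζ
    (s44nlr_red A hA M hpM L1 hπ) (s44nlr_red_hker A hA M hpM L1 hπ) Q 𝒲 hext
    (s44ndl_hconst A hA M hpM L1 hπ Q) (s44ndl_hjQ A hA M hpM L1 hπ Q hj)
    (s44nlr_hCFE A hA M hpM L1 hπ Q) hnotSS h𝔫

end Inst

/-! ### the witness of non-supersingularity over all large number fields -/

section Witness

local notation "Qb" => AlgebraicClosure ℚ

variable (A : ValuationSubring Qb) {p : ℕ} [hp : Fact p.Prime] (hA : A.LiesOverPrime p)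
  (M : ℕ) [NeZero M] [NeZero p] [NeZero (M * p)] (hpM : ¬ p ∣ M)

include hA in
/-- `Q` with `j̄` finite and NOT supersingular: over every number field `L1 ⊇ T₀` there is a witness
`b` in the hypothesis shape `hnotSS` of `s44ndl_smooth_A` (helper20's `s44ec_not_isSS_nf`). -/
theorem s44ndl_witness {Q : Place (s44e_kA A) ↥(s44e_FF A M)}
    (hj : jcr_j (k := s44e_kA A) M ∈ Q.toValuationSubring)
    (hQ : ¬ s44e_IsSS A M p hp.out hpM Q) :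
    ∃ T₀ : Finset Qb, ∀ (L1 : IntermediateField ℚ Qb) [FiniteDimensional ℚ L1],
      (↑T₀ : Set Qb) ⊆ L1 →
      ∀ [IsDiscreteValuationRing ↥(A.comap (algebraMap L1 Qb))]
        [CharP (ResidueField ↥(A.comap (algebraMap L1 Qb))) p]
        {π : ↥(A.comap (algebraMap L1 Qb))} (hπ : Irreducible π),
      ∃ b : ↥(lg_F L1 (M * p)),
        b ∈ fc_chart ↥(A.comap (algebraMap L1 Qb))
          ({rpz_jF L1 (M * p)} : Set ↥(lg_F L1 (M * p))) ∧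
        ssm_al_W L1 M p hp.out hpM b ∈
          (s44mz_VF (A.comap (algebraMap L1 Qb)) hπ M p).nonunits ∧
        ∃ h : b ∈ s44mz_VF (A.comap (algebraMap L1 Qb)) hπ M p,
          s44nlr_red A hA M hpM L1 hπ ⟨b, h⟩ ∉ Q.toValuationSubring.nonunits := by
  obtain ⟨T₀, hT₀⟩ := s44ec_not_isSS_nf A hA M hpM hj hQ
  refine ⟨T₀, fun L1 _ hT _ _ π hπ => ?_⟩
  obtain ⟨b1, hb, hW, hint, hW0, hnot⟩ := hT₀ L1 hT
  have hbc : b1 ∈ fc_chart ↥(A.comap (algebraMap L1 Qb))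
      ({rpz_jF L1 (M * p)} : Set ↥(lg_F L1 (M * p))) := fc_mem_chart.2 hint
  refine ⟨b1, hbc, ?_, s44ndl_jchart_le (A.comap (algebraMap L1 Qb)) hπ M p b1 hbc, hnot⟩
  exact (gq_mem_nonunits_iff_res π hπ.ne_zero hπ.maximalIdeal_eq (lg_F L1 (M * p))
    (rdn_gf_le_quotField (A.comap (algebraMap L1 Qb)) (M * p)) _ hW).2 hW0

end Witness

end Fermat.Agent.S44
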