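/-
S44, ruling R5, cell (U-NODE) (helper28; prefix `s44un_`): THE VERTICAL DIVISOR OF THE MODULAR UNIT
ON THE LEGENDRE COVER.

`(L, O, π)` a discretely valued field of characteristic zero, residue characteristic `p ∤ M` odd;
`U1 ∈ lg_F L (M p)` ANY model of the modular unit `Δ(q)/Δ(q^p)` (series `mzb_qi_U L p`).  Then

* `s44un_iotaF_U1` : `ι U1 = s44hu_U p (M p)` in `F̄_{M p}`;
* `s44un_W`        : `W U1 = p¹² · U1⁻¹` (from `s44hw_unit_W`);
* `s44un_V1`       : `φ U1` is a unit of the Gauss valuation `V1 = w_∞` of `E = lg_E L (M p)`;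
* `s44un_V2`       : `φ U1 / p¹²` is a unit of `V2 = w_∞ ∘ W`.
-/
import Mathlib
import Fermat.Agent.S44.HeckeRes.UnitW
import Fermat.Agent.SS.Model.TwoPrimesLeg
import Fermat.Agent.SS.Model.ALInst
import Fermat.Agent.SS.Local.Height1
import Fermat.Agent.JT3.Inst.Key0

set_option autoImplicit false
set_option linter.unusedSectionVars false
set_option linter.unusedVariables false
set_option linter.style.haveILetI false

noncomputable section

namespace Fermat.Agent.S44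

open ModularCurve IntermediateField IsLocalRing
open Fermat.Agent.JT3 Fermat.Agent.SS Fermat.Agent.MZ

section Vert

variable {L : Type*} [Field L] [CharZero L] [Algebra L (AlgebraicClosure ℚ)]
  (O : ValuationSubring L) [IsDiscreteValuationRing O] {π : O} (hπ : Irreducible π)
variable (M p : ℕ) [NeZero M] [NeZero p] [hp : Fact p.Prime] [CharP (ResidueField O) p]
  (hp2 : ¬ 2 ∣ p) (hpM : ¬ p ∣ M)
variable (U1 : ↥(lg_F L (M * p))) (hU1 : (U1 : LaurentSeries L) = mzb_qi_U L p)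

include hU1 in
/-- a model of the unit over `L` maps to the unit of `F̄_{M p}`. -/
theorem s44un_iotaF_U1 :
    ssm_al_iotaF L (M * p) U1 = s44hu_U p (M * p) ⟨M, mul_comm _ _⟩ := by
  apply Subtype.ext
  rw [ssm_al_coe_iotaF, hU1, s44hu_coe_U']
  exact mzb_qi_coeffMap_U _ p

include hU1 in
theorem s44un_U1_ne_zero : U1 ≠ 0 := by
  intro h
  have h1 := s44un_iotaF_U1 M p U1 hU1
  rw [h, map_zero] at h1
  exact s44hu_U_ne_zero p (M * p) ⟨M, mul_comm _ _⟩ h1.symm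

include hU1 in
theorem s44un_coe_inv : ((U1⁻¹ : ↥(lg_F L (M * p))) : LaurentSeries L) = mzb_qi_Uinv L p := by
  rw [IntermediateField.coe_inv, hU1]
  exact inv_eq_of_mul_eq_one_right (mzb_qi_U_mul_inv L p)

include hU1 in
/-- **(U-W) over `L`**: `W U1 = p¹² U1⁻¹`. -/
theorem s44un_W :
    ssm_al_W L M p hp.out hpM U1 =
      algebraMap L ↥(lg_F L (M * p)) ((p : L) ^ 12) * U1⁻¹ := by
  apply ssm_al_iotaF_injective L (M * p)
  have hc : algebraMap L (AlgebraicClosure ℚ) ((p : L) ^ 12) = (p : AlgebraicClosure ℚ) ^ 12 := by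
    rw [map_pow, map_natCast]
  rw [ssm_al_W_spec, s44un_iotaF_U1 M p U1 hU1, s44hw_unit_W M p hp.out hpM, map_mul, map_inv₀,
    s44un_iotaF_U1 M p U1 hU1, ssm_al_iotaF_algebraMap, hc]

include hU1 in
/-- `φ U1` has an `O`-integral `q`-expansion. -/
theorem s44un_isBdd_phi :
    gq_IsBdd O L ((lg_phiE (L := L) (N := M * p) U1 : ↥(lg_E L (M * p))) : LaurentSeries L) := by
  rw [lg_phiE_coe, hU1, lg_phi_apply]
  have h : qExpand L 2 (mzb_qi_U L p) =
      coeffMap (algebraMap ↥O L) (qExpand ↥O 2 (mzb_qi_U ↥O p)) := by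
    rw [coeffMap_qExpand, mzb_qi_coeffMap_U]
  rw [h]
  exact gq_isBdd_iota _

include hU1 in
theorem s44un_isBdd_phi_inv :
    gq_IsBdd O L (((lg_phiE (L := L) (N := M * p) U1)⁻¹ : ↥(lg_E L (M * p))) :
      LaurentSeries L) := by
  rw [← map_inv₀, lg_phiE_coe, s44un_coe_inv M p U1 hU1, lg_phi_apply]
  have h : qExpand L 2 (mzb_qi_Uinv L p) =
      coeffMap (algebraMap ↥O L) (qExpand ↥O 2 (mzb_qi_Uinv ↥O p)) := by
    rw [coeffMap_qExpand, mzb_qi_coeffMap_Uinv]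
  rw [h]
  exact gq_isBdd_iota _

include hU1 in
theorem s44un_phi_ne_zero : lg_phiE (L := L) (N := M * p) U1 ≠ 0 := by
  rw [Ne, map_eq_zero]
  exact s44un_U1_ne_zero M p U1 hU1

include hU1 in
/-- **`φ U1` is a unit of the Gauss valuation `w_∞`.** -/
theorem s44un_V1 : ssl_VUnit (ssm_gl_V1 O hπ M p) (lg_phiE (L := L) (N := M * p) U1) :=
  ⟨s44un_phi_ne_zero M p U1 hU1, s44un_isBdd_phi O M p U1 hU1, s44un_isBdd_phi_inv O M p U1 hU1⟩

include hU1 in
/-- `W_E (φ U1) = p¹² (φ U1)⁻¹`. -/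
theorem s44un_WE_phi :
    ssm_gl_W L M p hp2 hpM (lg_phiE (L := L) (N := M * p) U1) =
      algebraMap L ↥(lg_E L (M * p)) ((p : L) ^ 12) * (lg_phiE (L := L) (N := M * p) U1)⁻¹ := by
  have h1 : ssm_gl_W L M p hp2 hpM (lg_phiE (L := L) (N := M * p) U1) =
      lg_phiE (L := L) (N := M * p) (ssm_al_W L M p hp.out hpM U1) := by
    apply Subtype.ext
    rw [lg_phiE_coe, lg_phi_apply]
    exact ssm_al_coe_WE_phi L M p hp.out hp2 hpM U1 (lg_phiE (L := L) (N := M * p) U1).2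
  rw [h1, s44un_W M p hpM U1 hU1, map_mul, map_inv₀, AlgHom.commutes]

include hU1 in
/-- **`φ U1 / p¹²` is a unit of `w_0 = w_∞ ∘ W`.** -/
theorem s44un_V2 :
    ssl_VUnit (ssm_gl_V2 O hπ M p hp2 hpM)
      (lg_phiE (L := L) (N := M * p) U1 / algebraMap L ↥(lg_E L (M * p)) ((p : L) ^ 12)) := by
  have hp0 : algebraMap L ↥(lg_E L (M * p)) ((p : L) ^ 12) ≠ 0 := by
    rw [Ne, map_eq_zero]
    exact pow_ne_zero 12 (Nat.cast_ne_zero.2 (NeZero.ne p))
  have hG0 := s44un_phi_ne_zero M p U1 hU1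
  have hWc : ssm_gl_W L M p hp2 hpM (algebraMap L ↥(lg_E L (M * p)) ((p : L) ^ 12)) =
      algebraMap L ↥(lg_E L (M * p)) ((p : L) ^ 12) :=
    (ssm_al_WE L M p hp.out hp2 hpM).commutes _
  have hW : ssm_gl_W L M p hp2 hpM
      (lg_phiE (L := L) (N := M * p) U1 / algebraMap L ↥(lg_E L (M * p)) ((p : L) ^ 12)) =
      (lg_phiE (L := L) (N := M * p) U1)⁻¹ := by
    rw [map_div₀, hWc, s44un_WE_phi M p hp2 hpM U1 hU1]
    exact mul_div_cancel_left₀ _ hp0
  refine ⟨div_ne_zero hG0 hp0, ?_, ?_⟩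
  · show ssm_gl_W L M p hp2 hpM _ ∈ ssm_gl_V1 O hπ M p
    rw [hW]
    exact s44un_isBdd_phi_inv O M p U1 hU1
  · show ssm_gl_W L M p hp2 hpM _ ∈ ssm_gl_V1 O hπ M p
    rw [map_inv₀, hW, inv_inv]
    exact s44un_isBdd_phi O M p U1 hU1

end Vert

end Fermat.Agent.S44
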