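/-
Project S44 (Mazur–Ribet at `p`), cell [H2-N] (U-NODE), THE NODE COMPUTATION (helper13; architect's
FILE/OWNER FIX, finding 4114 (3)).  Prefix `s44un_`.  Namespace `Fermat.Agent.S44`.

`R` a noetherian integrally closed local domain with fraction field `F`, a node
`u v = λ^m · unit` with branches `P₁ ∋ u` (the `0`-sheet) and `P₂ ∋ v` (the `∞`-sheet), and
`ν : F → ℤ` ANY normalised order at the node along `P₂` (`s44nu_IsNu λ u P₂ ν`).

* `s44un_node_abs`   : `G ∈ Fˣ` without horizontal divisor, a unit at `P₂`, `G = λ^{m c} · unit` at `P₁`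
                       ⟹ `ν G = c`           (`s44n_monomial`: `G^m = u^{m c} · unit`);
* `s44un_node_uv`    : the same with `G = (u v)^c · unit` at `P₁` (`u v = a` the constant of the node:
                       `a = p`, `c = 12` for the modular unit `Δ(τ)/Δ(pτ)`, `W̄ u = p^12 u⁻¹`);
* `s44un_unitAt_of_vUnit` : a valuation subring `V` of `F` containing `R` with `𝔪_V ∩ R = 𝔮`, `𝔮` of
                       height one: the units of `V` are units at `𝔮` (`R_𝔮 = V`);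
* `s44un_node_val`   : `s44un_node_uv` with the two branch hypotheses in the valuation-subring form
                       (`G ∈ V₂ˣ`, `G / a^c ∈ V₁ˣ`, `V_i` the valuation subrings of the two components).
-/
import Mathlib
import Fermat.Agent.S44.Node.Slope
import Fermat.Agent.S44.Mono.NuDef

set_option autoImplicit false
set_option linter.unusedSectionVars false
set_option linter.style.haveILetI false

namespace Fermat.Agent.S44

open Fermat.Agent.SS IsLocalRing

section Abs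

variable {R : Type*} [CommRing R] [IsDomain R] [IsLocalRing R] [IsNoetherianRing R]
  [IsIntegrallyClosed R] {F : Type*} [Field F] [Algebra R F] [IsFractionRing R F]
  {lam u v : R} {m : ℕ} {P₁ P₂ : Ideal R}

/-- **the node computation, abstract form**: no horizontal divisor, unit along the branch `P₂`,
`λ^{m c} · unit` along the branch `P₁` ⟹ the normalised order at the node along `P₂` is `c`. -/
theorem s44un_node_abs (hN : s44n_Node lam u v m P₁ P₂) (hm : m ≠ 0) {G : F} (hG : G ≠ 0)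
    (hhor : ∀ 𝔮 : Ideal R, ssl_Horiz lam 𝔮 → ssl_UnitAt F 𝔮 G) (c : ℤ)
    (h₁ : ssl_UnitAt F P₁ (G / algebraMap R F lam ^ ((m : ℤ) * c)))
    (h₂ : ssl_UnitAt F P₂ G) {ν : F → ℤ} (hν : s44nu_IsNu lam u P₂ ν) : ν G = c := by
  have hl0 : algebraMap R F lam ≠ 0 := ssl_algebraMap_ne_zero (s44n_lam_ne_zero hN)
  have hu0 : algebraMap R F u ≠ 0 := ssl_algebraMap_ne_zero (s44n_u_ne_zero hN)
  have h₂' : ssl_UnitAt F P₂ (G / algebraMap R F lam ^ (0 : ℤ)) := by
    rw [zpow_zero, div_one]; exact h₂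
  obtain ⟨ω, hω⟩ := s44n_monomial hN hG hhor h₁ h₂'
  have hω0 : algebraMap R F (ω : R) ≠ 0 := ssl_algebraMap_ne_zero ω.ne_zero
  have h3 := congrArg ν hω
  rw [hν.add.map_pow G m hG, mul_zero, zpow_zero, one_mul, sub_zero,
    hν.add _ _ (zpow_ne_zero _ hu0) hω0, hν.add.map_zpow _ _ hu0, hν.u, hν.unit, add_zero,
    mul_one] at h3
  have hm' : (m : ℤ) ≠ 0 := by exact_mod_cast hm
  exact mul_left_cancel₀ hm' h3

/-- **the node computation**, the order along `P₁` measured by the constant `a = u v` of the node. -/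
theorem s44un_node_uv (hN : s44n_Node lam u v m P₁ P₂) (hm : m ≠ 0) {G : F} (hG : G ≠ 0)
    (hhor : ∀ 𝔮 : Ideal R, ssl_Horiz lam 𝔮 → ssl_UnitAt F 𝔮 G) (c : ℤ) {a : R} (huv : u * v = a)
    (h₁ : ssl_UnitAt F P₁ (G / algebraMap R F a ^ c))
    (h₂ : ssl_UnitAt F P₂ G) {ν : F → ℤ} (hν : s44nu_IsNu lam u P₂ ν) : ν G = c := by
  haveI := hN.prime₁
  have hl0 : algebraMap R F lam ≠ 0 := ssl_algebraMap_ne_zero (s44n_lam_ne_zero hN)
  obtain ⟨ε, hε⟩ := hN.mul_eq
  have hε0 : algebraMap R F (ε : R) ≠ 0 := ssl_algebraMap_ne_zero ε.ne_zero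
  refine s44un_node_abs hN hm hG hhor c ?_ h₂ hν
  have hεu : ssl_UnitAt F P₁ (algebraMap R F (ε : R)) :=
    ssl_unitAt_algebraMap P₁ fun hmem =>
      hN.prime₁.ne_top (Ideal.eq_top_of_isUnit_mem _ hmem ε.isUnit)
  have ha : algebraMap R F a = algebraMap R F lam ^ m * algebraMap R F (ε : R) := by
    rw [← huv, hε, map_mul, map_pow]
  have h4 : G / algebraMap R F lam ^ ((m : ℤ) * c) =
      G / algebraMap R F a ^ c * algebraMap R F (ε : R) ^ c := by
    rw [ha, mul_zpow, ← zpow_natCast (algebraMap R F lam) m, ← zpow_mul]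
    have h5 : algebraMap R F lam ^ ((m : ℤ) * c) ≠ 0 := zpow_ne_zero _ hl0
    have h6 : algebraMap R F (ε : R) ^ c ≠ 0 := zpow_ne_zero _ hε0
    field_simp
  rw [h4]
  exact ssl_unitAt_mul P₁ h₁ (ssl_unitAt_zpow P₁ hεu c)

end Abs

section Val

variable {R : Type*} [CommRing R] [IsDomain R] [IsNoetherianRing R] [IsIntegrallyClosed R]
  {F : Type*} [Field F] [Algebra R F] [IsFractionRing R F]

/-- **`R_𝔮 = V`**: `𝔮` a prime of height one of the noetherian normal domain `R`, `V` a valuation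
subring of `F = Frac R` containing `R` with `𝔪_V ∩ R = 𝔮`.  The units of `V` are units at `𝔮`. -/
theorem s44un_unitAt_of_vUnit (𝔮 : Ideal R) [h𝔮 : 𝔮.IsPrime] (h1 : 𝔮.height = 1)
    (V : ValuationSubring F) (hRV : ∀ r : R, algebraMap R F r ∈ V)
    (hV𝔮 : ∀ r : R, algebraMap R F r ∈ V.nonunits ↔ r ∈ 𝔮) {z : F} (hz : ssl_VUnit V z) :
    ssl_UnitAt F 𝔮 z := by
  -- the case `z ∈ R_𝔮`
  have key : ∀ w : F, ssl_VUnit V w → w ∈ ssl_valAt (F := F) 𝔮 h1 → ssl_UnitAt F 𝔮 w := by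
    intro w hw hwW
    obtain ⟨a, s, hs, has⟩ := (ssl_mem_valAt 𝔮 h1).1 hwW
    refine ⟨a, s, ?_, hs, has⟩
    intro ha
    have hsV : ssl_VUnit V (algebraMap R F s) :=
      ssl_vUnit_of_not_mem_nonunits (hRV s) fun h => hs ((hV𝔮 s).1 h)
    have haV : ssl_VUnit V (algebraMap R F a) := has ▸ ssl_vUnit_mul hw hsV
    exact ssl_vUnit_not_mem_nonunits haV ((hV𝔮 a).2 ha)
  rcases (ssl_valAt (F := F) 𝔮 h1).mem_or_inv_mem z with h | h
  · exact key z hz h
  · have := key z⁻¹ (ssl_vUnit_inv hz) h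
    have h2 := ssl_unitAt_inv 𝔮 this
    rwa [inv_inv] at h2

/-- the converse: units at `𝔮` are units of `V`. -/
theorem s44un_vUnit_of_unitAt (𝔮 : Ideal R)
    (V : ValuationSubring F) (hRV : ∀ r : R, algebraMap R F r ∈ V)
    (hV𝔮 : ∀ r : R, algebraMap R F r ∈ V.nonunits → r ∈ 𝔮) {z : F} (hz : ssl_UnitAt F 𝔮 z) :
    ssl_VUnit V z := by
  obtain ⟨a, s, ha, hs, has⟩ := hz
  have hsV : ssl_VUnit V (algebraMap R F s) :=
    ssl_vUnit_of_not_mem_nonunits (hRV s) fun h => hs (hV𝔮 s h)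
  have haV : ssl_VUnit V (algebraMap R F a) :=
    ssl_vUnit_of_not_mem_nonunits (hRV a) fun h => ha (hV𝔮 a h)
  have : z = algebraMap R F a / algebraMap R F s := by
    rw [eq_div_iff hsV.1, has]
  rw [this]
  exact ssl_vUnit_div haV hsV

end Val

section NodeVal

variable {R : Type*} [CommRing R] [IsDomain R] [IsLocalRing R] [IsNoetherianRing R]
  [IsIntegrallyClosed R] {F : Type*} [Field F] [Algebra R F] [IsFractionRing R F]
  {lam u v : R} {m : ℕ} {P₁ P₂ : Ideal R}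

/-- **the node computation, valuation-subring form**: `V₁`, `V₂` the valuation subrings of the two
components through the node (`R ⊆ V_i`, `𝔪_{V_i} ∩ R = P_i`); `G` without horizontal divisor,
`G ∈ V₂ˣ`, `G / a^c ∈ V₁ˣ` with `a = u v` ⟹ `ν G = c`. -/
theorem s44un_node_val (hN : s44n_Node lam u v m P₁ P₂) (hm : m ≠ 0) {G : F}
    (hhor : ∀ 𝔮 : Ideal R, ssl_Horiz lam 𝔮 → ssl_UnitAt F 𝔮 G) (c : ℤ) {a : R} (huv : u * v = a)
    (V₁ V₂ : ValuationSubring F)
    (hRV₁ : ∀ r : R, algebraMap R F r ∈ V₁) (hRV₂ : ∀ r : R, algebraMap R F r ∈ V₂)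
    (hV₁ : ∀ r : R, algebraMap R F r ∈ V₁.nonunits ↔ r ∈ P₁)
    (hV₂ : ∀ r : R, algebraMap R F r ∈ V₂.nonunits ↔ r ∈ P₂)
    (h₁ : ssl_VUnit V₁ (G / algebraMap R F a ^ c)) (h₂ : ssl_VUnit V₂ G)
    {ν : F → ℤ} (hν : s44nu_IsNu lam u P₂ ν) : ν G = c := by
  haveI := hN.prime₁
  haveI := hN.prime₂
  exact s44un_node_uv hN hm h₂.1 hhor c huv
    (s44un_unitAt_of_vUnit P₁ hN.height₁ V₁ hRV₁ hV₁ h₁)
    (s44un_unitAt_of_vUnit P₂ hN.height₂ V₂ hRV₂ hV₂ h₂) hν

end NodeVal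

end Fermat.Agent.S44
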