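/-
Project S44 (Mazur–Ribet at `p`), cell [H2-N] (U-NODE), THE NODE COMPUTATION AT A CROSSING POINT OF A
CHART (helper13).  Prefix `s44un_`.  Namespace `Fermat.Agent.S44`.

Setting of `Tor/LocInst.lean` / `Mono/CINode.lean`: `A0` a DVR (`π`), `B ≤ B12 ⊆ F0` charts, `𝔫` a
prime of `B`, `S = B_𝔫 = ssl_locSub F0 𝔫`, `P1, P2` the two components (primes of `B12`) with
valuation subrings `V1, V2` (`P_i = 𝔪(V_i) ∩ B12`), branches `s44tl_br 𝔫 hle P_i = (P_i ∩ B) B_𝔫`.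

* `s44un_loc_le`, `s44un_loc_nonunits` : `B_𝔫 ⊆ V_i` and `𝔪(V_i) ∩ B_𝔫 = (P_i ∩ B) B_𝔫` for a component
                                         through `𝔫`;
* `s44un_chart_node_of` : for the node datum `s44n_Node π u v k br(P2) br(P1)` of `B_𝔫`
                          (`s44mci_chart_node`): `G` without horizontal divisor, `G ∈ V1ˣ`,
                          `G / a^c ∈ V2ˣ` (`a = u v`) ⟹ `ν G = c` for ANY `ν` with
                          `s44nu_IsNu π u br(P1) ν`;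
* `s44un_chart_node`    : the same from the clauses of `s44mu_NodeAtU` / `ss_NodeAt`.
-/
import Mathlib
import Fermat.Agent.S44.Mono.UnitNode
import Fermat.Agent.S44.Mono.CINode

set_option autoImplicit false
set_option linter.unusedSectionVars false
set_option linter.style.haveILetI false
set_option linter.unusedVariables false

namespace Fermat.Agent.S44

open Fermat.Agent.SS Fermat.Agent.JT3 IsLocalRing

universe v

/-- `𝔪_V` is stable under multiplication by `V`. -/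
theorem s44un_mul_nonunits {F : Type*} [Field F] (V : ValuationSubring F) {z x : F} (hz : z ∈ V)
    (hx : x ∈ V.nonunits) : z * x ∈ V.nonunits := by
  rw [ValuationSubring.mem_nonunits_iff_exists_mem_maximalIdeal] at hx ⊢
  obtain ⟨hxV, hxm⟩ := hx
  exact ⟨V.mul_mem _ _ hz hxV, Ideal.mul_mem_left _ (⟨z, hz⟩ : ↥V) hxm⟩

section Chart

variable {A0 : Type*} [CommRing A0] [IsDomain A0] [IsDiscreteValuationRing A0]
  {F0 : Type v} [Field F0] [Algebra A0 F0]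
variable {B B12 : Subalgebra A0 F0} [IsFractionRing B F0] [IsNoetherianRing B]
  [IsIntegrallyClosed B]
variable {𝔫 : Ideal B} [h𝔫 : 𝔫.IsPrime] {π : A0} {hle : B ≤ B12}

/-- a component through `𝔫`: `B_𝔫 ⊆ V`. -/
theorem s44un_loc_le {P : Ideal B12} (V : ValuationSubring F0) (hBV : ∀ b : B12, (b : F0) ∈ V)
    (hP : ∀ b : B12, b ∈ P ↔ (b : F0) ∈ V.nonunits) (hpass : s44tl_tr hle P ≤ 𝔫)
    (r : ssl_locSub F0 𝔫) : (r : F0) ∈ V := by
  obtain ⟨a, s, hs, has⟩ := (ssl_mem_locSub 𝔫 (r : F0)).1 r.2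
  have hsP : Subalgebra.inclusion hle s ∉ P := fun h => hs (hpass h)
  have hsV : ssl_VUnit V ((s : B) : F0) :=
    ssl_vUnit_of_not_mem_nonunits (hBV (Subalgebra.inclusion hle s)) fun h =>
      hsP ((hP _).2 h)
  have : (r : F0) = ((a : B) : F0) * ((s : B) : F0)⁻¹ := by
    rw [eq_mul_inv_iff_mul_eq₀ hsV.1]; exact has
  rw [this]
  exact V.mul_mem _ _ (hBV (Subalgebra.inclusion hle a)) hsV.2.2

/-- a component through `𝔫`: `𝔪(V) ∩ B_𝔫 = (P ∩ B) B_𝔫`. -/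
theorem s44un_loc_nonunits {P : Ideal B12} (V : ValuationSubring F0)
    (hBV : ∀ b : B12, (b : F0) ∈ V)
    (hP : ∀ b : B12, b ∈ P ↔ (b : F0) ∈ V.nonunits) (hpass : s44tl_tr hle P ≤ 𝔫)
    (r : ssl_locSub F0 𝔫) : (r : F0) ∈ V.nonunits ↔ r ∈ s44tl_br 𝔫 hle P := by
  have hunit : ∀ s : B, s ∉ 𝔫 → ssl_VUnit V ((s : B) : F0) := fun s hs =>
    ssl_vUnit_of_not_mem_nonunits (hBV (Subalgebra.inclusion hle s)) fun h =>
      hs (hpass ((hP (Subalgebra.inclusion hle s)).2 h))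
  constructor
  · intro hr
    obtain ⟨a, s, hs, has⟩ := (ssl_mem_locSub 𝔫 (r : F0)).1 r.2
    refine s44tl_mem_br.2 ⟨a, s, ?_, hs, has⟩
    rw [hP]
    show ((a : B) : F0) ∈ V.nonunits
    have h1 : ((a : B) : F0) = ((s : B) : F0) * (r : F0) := by
      rw [mul_comm]; exact has.symm
    rw [h1]
    exact s44un_mul_nonunits V (hunit s hs).2.1 hr
  · intro hr
    obtain ⟨a, t, ha, ht, hat⟩ := s44tl_mem_br.1 hr
    have haV : ((a : B) : F0) ∈ V.nonunits := (hP _).1 ha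
    have h1 : (r : F0) = ((t : B) : F0)⁻¹ * ((a : B) : F0) := by
      rw [eq_inv_mul_iff_mul_eq₀ (hunit t ht).1, mul_comm]; exact hat
    rw [h1]
    exact s44un_mul_nonunits V (hunit t ht).2.2 haV

/-- a prime branch ideal comes from a component through `𝔫`. -/
theorem s44un_pass_of_prime {P : Ideal B12} (h : (s44tl_br 𝔫 hle P).IsPrime) :
    s44tl_tr hle P ≤ 𝔫 := by
  intro x hx
  by_contra hx𝔫
  apply h.ne_top
  exact Ideal.eq_top_of_isUnit_mem _ (Ideal.mem_map_of_mem _ hx) (ssl_loc_isUnit 𝔫 hx𝔫)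

/-- **(U-NODE)(a) at a crossing point of a chart**, from the node datum of `B_𝔫`.  `V1, V2` the
valuation subrings of the two components `P1, P2`; `G` without horizontal divisor at `B_𝔫`, a unit
of `V1`, `G / a ^ c` a unit of `V2` (`a = u v` the constant of the node).  Then `ν G = c` for any
normalised order `ν` at the node along the branch of `P1`. -/
theorem s44un_chart_node_of {P1 P2 : Ideal B12} {u v : F0} {a : A0} {k : ℕ}
    (huv : u * v = algebraMap A0 F0 a)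
    (huS : u ∈ ssl_locSub F0 𝔫) (hvS : v ∈ ssl_locSub F0 𝔫)
    (hIN : IsNoetherianRing (ssl_locSub F0 𝔫)) (hIC : IsIntegrallyClosed (ssl_locSub F0 𝔫))
    (hIL : IsLocalRing (ssl_locSub F0 𝔫))
    (hN : s44n_Node (algebraMap B (ssl_locSub F0 𝔫) (algebraMap A0 B π))
      (⟨u, huS⟩ : ssl_locSub F0 𝔫) ⟨v, hvS⟩ k (s44tl_br 𝔫 hle P2) (s44tl_br 𝔫 hle P1))
    (hk : k ≠ 0)
    (V1 V2 : ValuationSubring F0)
    (hBV1 : ∀ b : B12, (b : F0) ∈ V1) (hBV2 : ∀ b : B12, (b : F0) ∈ V2)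
    (hP1 : ∀ b : B12, b ∈ P1 ↔ (b : F0) ∈ V1.nonunits)
    (hP2 : ∀ b : B12, b ∈ P2 ↔ (b : F0) ∈ V2.nonunits)
    {G : F0}
    (hhor : ∀ 𝔮 : Ideal (ssl_locSub F0 𝔫),
      ssl_Horiz (algebraMap B (ssl_locSub F0 𝔫) (algebraMap A0 B π)) 𝔮 → ssl_UnitAt F0 𝔮 G)
    (c : ℤ) (hG1 : ssl_VUnit V1 G) (hG2 : ssl_VUnit V2 (G / algebraMap A0 F0 a ^ c))
    {ν : F0 → ℤ}
    (hν : s44nu_IsNu (algebraMap B (ssl_locSub F0 𝔫) (algebraMap A0 B π))
      (⟨u, huS⟩ : ssl_locSub F0 𝔫) (s44tl_br 𝔫 hle P1) ν) : ν G = c := by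
  have hpass1 : s44tl_tr hle P1 ≤ 𝔫 := s44un_pass_of_prime hN.prime₂
  have hpass2 : s44tl_tr hle P2 ≤ 𝔫 := s44un_pass_of_prime hN.prime₁
  have huvS : (⟨u, huS⟩ : ssl_locSub F0 𝔫) * ⟨v, hvS⟩ =
      algebraMap B (ssl_locSub F0 𝔫) (algebraMap A0 B a) := Subtype.ext huv
  exact s44un_node_val hN hk hhor c huvS V2 V1
    (fun r => s44un_loc_le V2 hBV2 hP2 hpass2 r) (fun r => s44un_loc_le V1 hBV1 hP1 hpass1 r)
    (fun r => s44un_loc_nonunits V2 hBV2 hP2 hpass2 r)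
    (fun r => s44un_loc_nonunits V1 hBV1 hP1 hpass1 r) hG2 hG1 hν

/-- **(U-NODE)(a) at an ordinary double point of a chart**, from the clauses of `s44mu_NodeAtU`
(= `ss_NodeAt` without the automorphism). -/
theorem s44un_chart_node {P1 P2 : Ideal B12} [hP1' : P1.IsPrime] [hP2' : P2.IsPrime]
    (hπ : Irreducible π) (hϖ0 : algebraMap A0 F0 π ≠ 0) (hπ𝔫 : algebraMap A0 B π ∈ 𝔫)
    (hrad : Ideal.span {algebraMap A0 B12 π} = P1 ⊓ P2) {ξ : F0}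
    (hξS : ξ ∈ sfc_S B.toSubring (algebraMap A0 F0 π))
    (hclear : ∀ z ∈ B12, ∃ k : ℕ, ξ ^ k * z ∈ B)
    {u v : F0} {a : A0} (huv : u * v = algebraMap A0 F0 a)
    (hu : ∃ s t : B, s ∉ 𝔫 ∧ t ∈ 𝔫 ∧ (s : F0) * u = t)
    (hv : ∃ s t : B, s ∉ 𝔫 ∧ t ∈ 𝔫 ∧ (s : F0) * v = t)
    (hgen : ∀ z ∈ 𝔫, ∃ s c1 c2 c3 : B, s ∉ 𝔫 ∧
      (s : F0) * (z : F0) = algebraMap A0 F0 π * c1 + u * c2 + v * c3)
    (hu1 : ∃ s t : B12, s ∉ P1 ∧ t ∉ P1 ∧ (s : F0) * u = t)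
    (hv2 : ∃ s t : B12, s ∉ P2 ∧ t ∉ P2 ∧ (s : F0) * v = t)
    (huS : u ∈ ssl_locSub F0 𝔫) (hvS : v ∈ ssl_locSub F0 𝔫)
    (V1 V2 : ValuationSubring F0)
    (hBV1 : ∀ b : B12, (b : F0) ∈ V1) (hBV2 : ∀ b : B12, (b : F0) ∈ V2)
    (hP1 : ∀ b : B12, b ∈ P1 ↔ (b : F0) ∈ V1.nonunits)
    (hP2 : ∀ b : B12, b ∈ P2 ↔ (b : F0) ∈ V2.nonunits)
    {G : F0}
    (hhor : ∀ 𝔮 : Ideal (ssl_locSub F0 𝔫),
      ssl_Horiz (algebraMap B (ssl_locSub F0 𝔫) (algebraMap A0 B π)) 𝔮 → ssl_UnitAt F0 𝔮 G)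
    (c : ℤ) (hG1 : ssl_VUnit V1 G) (hG2 : ssl_VUnit V2 (G / algebraMap A0 F0 a ^ c))
    {ν : F0 → ℤ} :
    haveI := ssl_loc_isLocalRing (F0 := F0) 𝔫
    s44nu_IsNu (algebraMap B (ssl_locSub F0 𝔫) (algebraMap A0 B π))
      (⟨u, huS⟩ : ssl_locSub F0 𝔫) (s44tl_br 𝔫 hle P1) ν → ν G = c := by
  haveI := ssl_loc_isLocalRing (F0 := F0) 𝔫
  intro hν
  obtain ⟨k, ha0, hk, hN, hmax⟩ := s44mci_chart_node hle hπ hϖ0 hπ𝔫 hrad hξS hclear huv hu hv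
    hgen hu1 hv2 huS hvS
  -- the thickness is positive
  have hk0 : k ≠ 0 := by
    rintro rfl
    obtain ⟨ε, hε⟩ := hN.mul_eq
    rw [pow_zero, one_mul] at hε
    have h1 : IsUnit ((⟨u, huS⟩ : ssl_locSub F0 𝔫) * ⟨v, hvS⟩) := hε ▸ ε.isUnit
    have h2 : (⟨u, huS⟩ : ssl_locSub F0 𝔫) ∈ maximalIdeal (ssl_locSub F0 𝔫) := by
      rw [hmax]; exact Ideal.subset_span (by simp)
    exact (mem_maximalIdeal _).1 h2 (isUnit_of_mul_isUnit_left h1)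
  exact s44un_chart_node_of huv huS hvS (ssl_loc_isNoetherianRing (F0 := F0) 𝔫)
    (ssl_loc_isIntegrallyClosed (F0 := F0) 𝔫) (ssl_loc_isLocalRing (F0 := F0) 𝔫) hN hk0 V1 V2
    hBV1 hBV2 hP1 hP2 hhor c hG1 hG2 hν

end Chart

end Fermat.Agent.S44
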