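/-
Project S44 (Mazur–Ribet at `p`), cell [H2-N] (U-NODE), THE NODE COMPUTATION, function-field form
(helper13).  Prefix `s44un_`.  Namespace `Fermat.Agent.S44`.

`A0` a DVR (`π`), `L = Frac A0`, `F0 / L` a function field, `x` a coordinate, `V1, V2` the two Gauss
valuation subrings (`ssm_tp_Hyp`), `B = fc_chart A0 {x}`, `B12 = fc_chart A0 {x, x⁻¹}`,
`P_i = ssm_tp_P B12 V_i`.  At a point `𝔫` of `B` with named node coordinates
(`s44mu_NodeAtU π _ P1 P2 𝔫 u v a`, helper29's [H2-U]):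

* `s44un_ff_node` : `G` without horizontal divisor at `B_𝔫`, `G ∈ V1ˣ`, `G / a ^ c ∈ V2ˣ` ⟹
  `ν G = c` for every `ν` with `s44nu_IsNu π u (s44tl_br 𝔫 _ P1) ν`
  (= the hypothesis `hnode` of helper12's `s44ndn_value`).
-/
import Mathlib
import Fermat.Agent.S44.Mono.UnitNodeChart
import Fermat.Agent.S44.Mono.UNodeAbs
import Fermat.Agent.SS.Model.TwoPrimes

set_option autoImplicit false
set_option linter.unusedSectionVars false
set_option linter.style.haveILetI false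
set_option linter.unusedVariables false

namespace Fermat.Agent.S44

open Fermat.Agent.SS Fermat.Agent.JT3 IsLocalRing IntermediateField

universe v

section FF

variable {A0 L : Type*} {F0 : Type v} [CommRing A0] [IsDomain A0] [IsDiscreteValuationRing A0]
  [Field L] [Field F0] [Algebra A0 L] [IsFractionRing A0 L] [Algebra L F0] [Algebra A0 F0]
  [IsScalarTower A0 L F0]

/-- **(U-NODE)(a), function-field form.**  (The three instances on the chart `fc_chart A0 {x}` are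
`fc_ff_isAlgebraic`, `fc_chart_isNoetherianRing` (from `fc_ff_finite`), `ssl_chart_isIntegrallyClosed`.) -/
theorem s44un_ff_node {π : A0} (hπ : Irreducible π) {x : F0} (hx : Transcendental L x)
    [FiniteDimensional L⟮x⟯ F0] [Algebra.IsAlgebraic (Algebra.adjoin A0 ({x} : Set F0)) F0]
    [IsNoetherianRing (fc_chart A0 ({x} : Set F0))]
    [IsIntegrallyClosed (fc_chart A0 ({x} : Set F0))]
    {V1 V2 : ValuationSubring F0}
    (H : ssm_tp_Hyp (algebraMap A0 (Algebra.adjoin A0 ({x} : Set F0)) π) V1 V2)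
    (𝔫 : Ideal (fc_chart A0 ({x} : Set F0))) [h𝔫 : 𝔫.IsPrime]
    (hπ𝔫 : algebraMap A0 (fc_chart A0 ({x} : Set F0)) π ∈ 𝔫)
    {u v : F0} {a : A0}
    (hnode : s44mu_NodeAtU π (fc_chart1_le x)
      (ssm_tp_P (fc_chart A0 ({x, x⁻¹} : Set F0)) V1)
      (ssm_tp_P (fc_chart A0 ({x, x⁻¹} : Set F0)) V2) 𝔫 u v a)
    (huS : u ∈ ssl_locSub F0 𝔫) {G : F0}
    (hhor : ∀ 𝔮 : Ideal (ssl_locSub F0 𝔫),
      ssl_Horiz (algebraMap (fc_chart A0 ({x} : Set F0)) (ssl_locSub F0 𝔫)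
        (algebraMap A0 (fc_chart A0 ({x} : Set F0)) π)) 𝔮 → ssl_UnitAt F0 𝔮 G)
    (c : ℤ) (hG1 : ssl_VUnit V1 G) (hG2 : ssl_VUnit V2 (G / algebraMap A0 F0 a ^ c))
    (ν : F0 → ℤ) :
    haveI := ssl_loc_isLocalRing (F0 := F0) 𝔫
    s44nu_IsNu (algebraMap (fc_chart A0 ({x} : Set F0)) (ssl_locSub F0 𝔫)
        (algebraMap A0 (fc_chart A0 ({x} : Set F0)) π))
      (⟨u, huS⟩ : ssl_locSub F0 𝔫)
      (s44tl_br 𝔫 (fc_chart1_le x) (ssm_tp_P (fc_chart A0 ({x, x⁻¹} : Set F0)) V1)) ν →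
    ν G = c := by
  intro hν
  have hx0 : x ≠ 0 := by
    rintro rfl
    exact hx isAlgebraic_zero
  have hxA : Transcendental A0 x := fc_ff_transcendental (L := L) hx
  haveI : IsIntegrallyClosed (Algebra.adjoin A0 ({x} : Set F0)) := fc_ff_isIntegrallyClosed hxA
  haveI : FaithfulSMul (Algebra.adjoin A0 ({x} : Set F0)) F0 :=
    (faithfulSMul_iff_algebraMap_injective _ _).2 Subtype.val_injective
  have hC := ssm_tp_ff_chart12 (L := L) hπ hx
  obtain ⟨prime1, prime2, hrad, -, -, -⟩ := ssm_tp_ff_model (L := L) hπ hx H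
  haveI := prime1
  haveI := prime2
  have hϖ0 : algebraMap A0 F0 π ≠ 0 := by
    intro h0
    have h1 : algebraMap A0 L π = 0 := by
      have h2 := h0
      rw [IsScalarTower.algebraMap_apply A0 L F0, map_eq_zero] at h2
      exact h2
    exact hπ.ne_zero ((map_eq_zero_iff _ (IsFractionRing.injective A0 L)).1 h1)
  obtain ⟨huv, hu, hv, hgen, hu1, hv2⟩ := hnode
  have hvS : v ∈ ssl_locSub F0 𝔫 := by
    obtain ⟨s, t, hs, -, hst⟩ := hv
    exact ssl_loc_mem_of 𝔫 hs hst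
  exact s44un_chart_node (hle := fc_chart1_le x) hπ hϖ0 hπ𝔫 hrad (sfc_ff_mem_S (L := L) hπ hx)
    (fun z hz => fc_clear1 hx0 hz) huv hu hv hgen hu1 hv2 huS hvS V1 V2
    (fun b => hC.le H.over1 b.2) (fun b => hC.le H.over2 b.2)
    (fun b => H.mem_P1 hC) (fun b => H.mem_P2 hC) hhor c hG1 hG2 hν

end FF

end Fermat.Agent.S44
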