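/-
S44, cell [H2-N] (U-NODE), the UNIT SIDE (helper24; prefix `s44uv_`).

`u_N = Δ(q)/Δ(q^p) ∈ F̄_N` (`s44hu_U p N hpN`, `p ∣ N`) has NO HORIZONTAL DIVISOR where `j` is finite:
* `s44uv_bar` : every valuation subring `V` of `F̄_N` containing `Q̄` and `j` contains `u_N` and
  `u_N⁻¹` (`mzc_uo_ord_eq_zero` at level `p` + `rpf_exists_place`);
* `s44uv_ext` (Chevalley), `s44uv_mem_of_algebraic`;
* `s44uv_nf`  : the same on the Legendre cover over any field `L ⊆ Q̄`: every valuation subring of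
  `lg_E L N` containing `L` and `j(q²)` contains `φ(u)^{±1}`, `u ∈ lg_F L N` with series
  `mzb_qi_U L p = Δ(q)/Δ(q^p)`;
* `s44uv_unitAt`, `s44uv_unitAt_horiz` : in the `ssl_UnitAt` shape consumed by `s44n_monomial`.
-/
import Mathlib
import Fermat.Agent.S44.HeckeRes.UnitDef
import Fermat.Agent.MZ.C.UnitOrd
import Fermat.Agent.JT3.PlaceMap.FunField
import Fermat.Agent.JT3.Riemann.FBar
import Fermat.Agent.SS.Local.Height1
import Fermat.Agent.S24.Hurwitz.Places
import Fermat.Agent.SS.Model.AL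
import Fermat.Agent.JT3.Inst.Key0
import Fermat.Agent.JT3.Descent.ConstDVR

set_option autoImplicit false
set_option linter.unusedSectionVars false
set_option linter.style.haveILetI false

noncomputable section

namespace Fermat.Agent.S44

open ModularCurve AlgebraicCurve IsLocalRing Fermat.Agent.JT3 Fermat.Agent.MZ Fermat.Agent.SS
  Fermat.Agent.S24

local notation "Qb" => AlgebraicClosure ℚ

section Abs

variable {K F : Type*} [Field K] [Field F] [Algebra K F]

/-- an element whose order vanishes at every place where `j` is finite is a unit of every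
valuation ring containing the constants and `j`. -/
theorem s44uv_abs {x : F} (hx : rt_IsSepGen K x) {j u : F} (hu0 : u ≠ 0)
    (hord : ∀ P : Place K F, 0 ≤ P.ord j → P.ord u = 0)
    (V : ValuationSubring F) (hK : ∀ c : K, algebraMap K F c ∈ V) (hj : j ∈ V) :
    u ∈ V ∧ u⁻¹ ∈ V := by
  by_cases htop : V = ⊤
  · rw [htop]
    exact ⟨ValuationSubring.mem_top _, ValuationSubring.mem_top _⟩
  · obtain ⟨P, hP⟩ := rpf_exists_place hx V hK htop
    have hj0 : 0 ≤ P.ord j := by
      by_cases hz : j = 0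
      · rw [hz, Place.ord_zero]
      · refine (hw_mem_iff_ord_nonneg P hz).1 ?_
        rw [hP]
        exact hj
    have h0 := hord P hj0
    have h1 : u ∈ P.toValuationSubring := (hw_mem_iff_ord_nonneg P hu0).2 h0.ge
    have h2 : u⁻¹ ∈ P.toValuationSubring := by
      rw [hw_mem_iff_ord_nonneg P (inv_ne_zero hu0), Place.ord_inv, h0, neg_zero]
    rw [hP] at h1 h2
    exact ⟨h1, h2⟩

end Abs

section Bar

variable (p N : ℕ) [NeZero p] [NeZero N] (hpN : p ∣ N)

include hpN in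
theorem s44uv_le : modularFunctionFieldBar p ≤ modularFunctionFieldBar N := by
  rw [← lg_F_eq_bar, ← lg_F_eq_bar]
  exact full_degeneracyC_le Qb hpN

/-- the inclusion `F̄_p → F̄_N`. -/
def s44uv_incl : modularFunctionFieldBar p →ₐ[Qb] modularFunctionFieldBar N :=
  IntermediateField.inclusion (s44uv_le p N hpN)

theorem s44uv_incl_coe (x : modularFunctionFieldBar p) :
    ((s44uv_incl p N hpN x : modularFunctionFieldBar N) : LaurentSeries Qb) = x :=
  IntermediateField.coe_inclusion (s44uv_le p N hpN) x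

theorem s44uv_incl_U : s44uv_incl p N hpN (mza_UB p) = s44hu_U p N hpN := by
  apply Subtype.ext
  rw [s44uv_incl_coe, mza_UB_coe, s44hu_coe_U]

theorem s44uv_incl_j : s44uv_incl p N hpN (mza_jB p) = br_jBar N := by
  apply Subtype.ext
  rw [s44uv_incl_coe, mza_jB_coe, coe_br_jBar, br_jqK, qExpand_one_apply]

/-- **(UH-bar)**: the modular unit is a unit of every valuation ring of `F̄_N` containing `Q̄`
and `j`. -/
theorem s44uv_bar (V : ValuationSubring (modularFunctionFieldBar N))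
    (hK : ∀ c : Qb, algebraMap Qb (modularFunctionFieldBar N) c ∈ V) (hj : br_jBar N ∈ V) :
    ssl_VUnit V (s44hu_U p N hpN) := by
  refine ⟨s44hu_U_ne_zero p N hpN, ?_⟩
  have hU0 : mza_UB p ≠ 0 := mzc_uo_UB_ne_zero p
  have hKp : ∀ c : Qb, algebraMap Qb (modularFunctionFieldBar p) c ∈
      V.comap (s44uv_incl p N hpN : modularFunctionFieldBar p →+* modularFunctionFieldBar N) := by
    intro c
    rw [ValuationSubring.mem_comap, RingHom.coe_coe, AlgHom.commutes]
    exact hK c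
  have hjp : mza_jB p ∈
      V.comap (s44uv_incl p N hpN : modularFunctionFieldBar p →+* modularFunctionFieldBar N) := by
    rw [ValuationSubring.mem_comap, RingHom.coe_coe, s44uv_incl_j]
    exact hj
  obtain ⟨h1, h2⟩ := s44uv_abs (rt_isSepGen_jBar p) hU0 (fun P hP => mzc_uo_ord_eq_zero p P hP)
    _ hKp hjp
  rw [ValuationSubring.mem_comap, RingHom.coe_coe] at h1 h2
  rw [map_inv₀] at h2
  rw [s44uv_incl_U] at h1 h2
  exact ⟨h1, h2⟩

end Bar

section Ext

variable {E Ω : Type*} [Field E] [Field Ω]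

/-- **Chevalley**: a valuation subring extends along any field embedding. -/
theorem s44uv_ext (Θ : E →+* Ω) (V : ValuationSubring E) :
    ∃ A : ValuationSubring Ω, ∀ y : E, Θ y ∈ A ↔ y ∈ V := by
  obtain ⟨A, hA, hloc⟩ := IsLocalRing.exists_factor_valuationRing (Θ.comp V.subtype)
  refine ⟨A, fun y => ⟨fun hy => ?_, fun hy => hA ⟨y, hy⟩⟩⟩
  by_contra hyV
  have hy0 : y ≠ 0 := fun h0 => hyV (h0 ▸ V.zero_mem)
  have hinv : y⁻¹ ∈ V := (V.mem_or_inv_mem y).resolve_left hyV
  have hu : IsUnit ((Θ.comp V.subtype).codRestrict A.toSubring hA ⟨y⁻¹, hinv⟩) := by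
    refine IsUnit.of_mul_eq_one (⟨Θ y, hy⟩ : A.toSubring) ?_
    apply Subtype.ext
    change Θ y⁻¹ * Θ y = 1
    rw [map_inv₀, inv_mul_cancel₀ ((map_ne_zero Θ).2 hy0)]
  have hu' : IsUnit (⟨y⁻¹, hinv⟩ : V) := hloc.map_nonunit _ hu
  obtain ⟨b, hb⟩ := hu'.exists_right_inv
  have hb' : y⁻¹ * (b : E) = 1 := congrArg Subtype.val hb
  have : (b : E) = y := by
    have h1 := congrArg (fun t => y * t) hb'
    simp only [mul_one, ← mul_assoc, mul_inv_cancel₀ hy0, one_mul] at h1
    exact h1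
  exact hyV (this ▸ b.2)

/-- a valuation subring containing the image of a field `L` contains the image of every algebraic
extension of `L`. -/
theorem s44uv_mem_of_algebraic {L K : Type*} [Field L] [Field K] [Algebra L K]
    [Algebra.IsAlgebraic L K] (A : ValuationSubring Ω) (h : K →+* Ω)
    (hL : ∀ c : L, h (algebraMap L K c) ∈ A) (z : K) : h z ∈ A := by
  apply dsc_mem_of_isIntegral
  obtain ⟨P, hP, hPz⟩ := Algebra.IsIntegral.isIntegral (R := L) z
  let φ : L →+* A := (h.comp (algebraMap L K)).codRestrict A.toSubring hL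
  refine ⟨P.map φ, hP.map φ, ?_⟩
  rw [Polynomial.eval₂_map]
  have h1 : (algebraMap (↥A) Ω).comp φ = h.comp (algebraMap L K) := RingHom.ext fun c => rfl
  rw [h1, ← Polynomial.hom_eval₂, hPz, map_zero]

end Ext

section NF

variable (L : Type*) [Field L] [CharZero L] [Algebra L Qb]
variable (p N : ℕ) [NeZero p] [NeZero N] (hpN : p ∣ N)

/-- `j(q²)` as an element of `lg_E L N`. -/
def s44uv_j2E : lg_E L N := ⟨lg_j2 L, lg_F2_le_E L N (lg_j2_mem_F2 L N)⟩

include hpN in
/-- **(UH-nf)**: at the level of a field `L ⊆ Q̄`, on the Legendre cover: every valuation subring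
of `lg_E L N` containing `L` and `j(q²)` contains `φ(u)` and `φ(u)⁻¹`, for every `u ∈ lg_F L N`
with series `Δ(q)/Δ(q^p)`. -/
theorem s44uv_nf (V : ValuationSubring ↥(lg_E L N))
    (hL : ∀ c : L, algebraMap L ↥(lg_E L N) c ∈ V) (hj : s44uv_j2E L N ∈ V)
    (x : lg_F L N) (hx : (x : LaurentSeries L) = mzb_qi_U L p) :
    ssl_VUnit V (lg_phiE (L := L) (N := N) x) := by
  -- the coefficient embedding of `lg_E L N` into `Ω = Q̄((q))`
  set Θ : ↥(lg_E L N) →+* LaurentSeries Qb :=
    (ssm_al_iota L).comp (lg_E L N).val.toRingHom with hΘ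
  have hΘa : ∀ y : ↥(lg_E L N), Θ y = ssm_al_iota L (y : LaurentSeries L) := fun y => rfl
  obtain ⟨A, hA⟩ := s44uv_ext Θ V
  -- the map `F̄_N → Ω`, `y ↦ y(q²)`
  set Ψ : ↥(modularFunctionFieldBar N) →+* LaurentSeries Qb :=
    (qExpand Qb 2).comp (modularFunctionFieldBar N).val.toRingHom with hΨ
  have hΨa : ∀ y : ↥(modularFunctionFieldBar N), Ψ y = qExpand Qb 2 (y : LaurentSeries Qb) :=
    fun y => rfl
  -- constants
  have hconstL : ∀ c : L, algebraMap Qb (LaurentSeries Qb) (algebraMap L Qb c) ∈ A := by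
    intro c
    have h1 : Θ (algebraMap L ↥(lg_E L N) c) =
        algebraMap Qb (LaurentSeries Qb) (algebraMap L Qb c) := by
      rw [hΘa]
      exact ssm_al_iota_algebraMap L c
    rw [← h1, hA]
    exact hL c
  haveI : Algebra.IsAlgebraic L Qb := by
    haveI : Algebra.IsAlgebraic ℚ Qb := AlgebraicClosure.isAlgebraic ℚ
    exact Algebra.IsAlgebraic.tower_top (K := ℚ) L
  have hconst : ∀ c : Qb, algebraMap Qb (LaurentSeries Qb) c ∈ A :=
    s44uv_mem_of_algebraic (L := L) A (algebraMap Qb (LaurentSeries Qb)) hconstL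
  have hK : ∀ c : Qb, algebraMap Qb ↥(modularFunctionFieldBar N) c ∈ A.comap Ψ := by
    intro c
    rw [ValuationSubring.mem_comap, hΨa]
    have : ((algebraMap Qb ↥(modularFunctionFieldBar N) c : modularFunctionFieldBar N) :
        LaurentSeries Qb) = algebraMap Qb (LaurentSeries Qb) c := rfl
    rw [this, algebraMap_laurentSeries_eq_single, qExpand_single, mul_zero,
      ← algebraMap_laurentSeries_eq_single]
    exact hconst c
  -- `j`
  have hjA : br_jBar N ∈ A.comap Ψ := by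
    rw [ValuationSubring.mem_comap, hΨa, coe_br_jBar, br_jqK]
    have h1 : Θ (s44uv_j2E L N) = qExpand Qb 2 (coeffEmb Qb jq) := by
      rw [hΘa]
      show ssm_al_iota L (lg_j2 L) = _
      rw [lg_j2, ssm_al_iota_qExpand, coeffMap_jqModC, mzb_qi_j_coeffEmb]
    rw [← h1, hA]
    exact hj
  obtain ⟨hu0, h1, h2⟩ := s44uv_bar p N hpN (A.comap Ψ) hK hjA
  -- the unit
  have hU : Ψ (s44hu_U p N hpN) = Θ (lg_phiE (L := L) (N := N) x) := by
    rw [hΨa, hΘa, s44hu_coe_U, lg_phiE_coe, lg_phi_apply, ssm_al_iota_qExpand, hx,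
      mzb_qi_coeffMap_U, mzb_qi_U_coeffEmb]
  rw [ValuationSubring.mem_comap] at h1 h2
  rw [map_inv₀] at h2
  rw [hU] at h1 h2
  rw [← map_inv₀, hA] at h2
  rw [hA] at h1
  refine ⟨?_, h1, h2⟩
  intro h0
  rw [h0, map_zero] at hU
  exact hu0 ((map_eq_zero Ψ).1 hU)

end NF

section Horiz

/-- constants of `K = Frac A0` are integral at every prime of an `A0`-algebra `R` not containing the
uniformiser of the discrete valuation ring `A0`. -/
theorem s44uv_memAt_const {A0 K R F : Type*} [CommRing A0] [IsDomain A0]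
    [IsDiscreteValuationRing A0] [Field K] [Algebra A0 K] [IsFractionRing A0 K] [CommRing R]
    [Field F] [Algebra R F] [Algebra A0 R] [Algebra K F] [Algebra A0 F] [IsScalarTower A0 R F]
    [IsScalarTower A0 K F] {π : A0} (hπ : Irreducible π) (𝔮 : Ideal R) [h𝔮 : 𝔮.IsPrime]
    (hπ𝔮 : algebraMap A0 R π ∉ 𝔮) (c : K) : ssl_MemAt F 𝔮 (algebraMap K F c) := by
  obtain ⟨a, b, hb, rfl⟩ := IsFractionRing.div_surjective (A := A0) c
  have hb0 : b ≠ 0 := nonZeroDivisors.ne_zero hb
  obtain ⟨n, u, hu⟩ := IsDiscreteValuationRing.eq_unit_mul_pow_irreducible hb0 hπ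
  have hb𝔮 : algebraMap A0 R b ∉ 𝔮 := by
    rw [hu, map_mul, map_pow]
    intro h
    rcases h𝔮.mem_or_mem h with h | h
    · exact h𝔮.ne_top (Ideal.eq_top_of_isUnit_mem _ h (u.isUnit.map (algebraMap A0 R)))
    · exact hπ𝔮 (h𝔮.mem_of_pow_mem n h)
  refine ⟨algebraMap A0 R a, algebraMap A0 R b, hb𝔮, ?_⟩
  have hbK : algebraMap A0 K b ≠ 0 :=
    (map_ne_zero_iff _ (IsFractionRing.injective A0 K)).2 hb0
  rw [← IsScalarTower.algebraMap_apply A0 R F, ← IsScalarTower.algebraMap_apply A0 R F,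
    IsScalarTower.algebraMap_apply A0 K F, IsScalarTower.algebraMap_apply A0 K F, ← map_mul,
    div_mul_cancel₀ _ hbK]

variable (L : Type*) [Field L] [CharZero L] [Algebra L Qb]
variable (p N : ℕ) [NeZero p] [NeZero N] (hpN : p ∣ N)

include hpN in
/-- **(UH)**, in the shape of `s44n_monomial` / `s44ms_main`: the modular unit has no horizontal
divisor through a point where `j` is finite. -/
theorem s44uv_unitAt {R : Type*} [CommRing R] [IsDomain R] [IsNoetherianRing R]
    [IsIntegrallyClosed R] [Algebra R ↥(lg_E L N)] [IsFractionRing R ↥(lg_E L N)]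
    (𝔮 : Ideal R) [𝔮.IsPrime] (h1 : 𝔮.height = 1)
    (hL : ∀ c : L, ssl_MemAt ↥(lg_E L N) 𝔮 (algebraMap L ↥(lg_E L N) c))
    (hj : ssl_MemAt ↥(lg_E L N) 𝔮 (s44uv_j2E L N))
    (x : lg_F L N) (hx : (x : LaurentSeries L) = mzb_qi_U L p) :
    ssl_UnitAt ↥(lg_E L N) 𝔮 (lg_phiE (L := L) (N := N) x) :=
  (ssl_vUnit_valAt 𝔮 h1).1 (s44uv_nf L p N hpN (ssl_valAt 𝔮 h1)
    (fun c => (ssl_mem_valAt 𝔮 h1).2 (hL c)) ((ssl_mem_valAt 𝔮 h1).2 hj) x hx)

include hpN in
/-- the same over a discrete valuation ring `A0` of `L` with uniformiser `π`, at the horizontal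
primes (`ssl_Horiz`) of an `A0`-algebra `R` containing `j(q²)`. -/
theorem s44uv_unitAt_horiz {A0 : Type*} [CommRing A0] [IsDomain A0] [IsDiscreteValuationRing A0]
    [Algebra A0 L] [IsFractionRing A0 L] {R : Type*} [CommRing R] [IsDomain R]
    [IsNoetherianRing R] [IsIntegrallyClosed R] [Algebra R ↥(lg_E L N)]
    [IsFractionRing R ↥(lg_E L N)] [Algebra A0 R] [Algebra A0 ↥(lg_E L N)]
    [IsScalarTower A0 R ↥(lg_E L N)] [IsScalarTower A0 L ↥(lg_E L N)] {π : A0}
    (hπ : Irreducible π) (𝔮 : Ideal R) (h𝔮 : ssl_Horiz (algebraMap A0 R π) 𝔮)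
    (jR : R) (hjR : algebraMap R ↥(lg_E L N) jR = s44uv_j2E L N)
    (x : lg_F L N) (hx : (x : LaurentSeries L) = mzb_qi_U L p) :
    ssl_UnitAt ↥(lg_E L N) 𝔮 (lg_phiE (L := L) (N := N) x) := by
  haveI := h𝔮.1
  refine s44uv_unitAt L p N hpN 𝔮 h𝔮.2.1 (fun c => s44uv_memAt_const hπ 𝔮 h𝔮.2.2 c) ?_ x hx
  rw [← hjR]
  exact ssl_memAt_algebraMap 𝔮 jR

end Horiz

end Fermat.Agent.S44

end
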