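/-
Project S44 (Mazur–Ribet at `p`), cell [H2-N] (U-NODE), THE SMOOTH-POINT HALF (b) (helper26;
architect's finding 4114 (3)).  Prefix `s44us_`.  Namespace `Fermat.Agent.S44`.

* `s44us_smooth_abs`   : `R` a noetherian integrally closed domain, `F = Frac R`, ONE vertical prime
                         `P = 𝔪_V ∩ R` through the point (`V ⊇ R` a valuation subring of `F`); `G ∈ Fˣ`
                         a unit of `V` and a unit at every horizontal prime ⟹ `G ∈ Rˣ`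
                         (`ssl_krull_unit`);
* `s44us_vert`         : at a prime `𝔫` of a chart `B` of a two-component model (`ssm_tp_Hyp`) lying
                         on the component `P₁` but NOT on `P₂`, the only vertical prime of height one
                         of `S = B_𝔫` is `P∞ = 𝔪(V₁) ∩ S`;
* `s44us_smooth_chart` : there, `G ∈ V₁ˣ` without horizontal divisor on `Spec S` satisfies
                         `∃ a s : B, a ∉ 𝔫 ∧ s ∉ 𝔫 ∧ G * s = a`  (the `hz` of `s44nd_unit_chart`);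
* `s44us_smooth_leg`   : the Legendre instance for `G = lg_phiE U1`, `U1` any number-field model of
                         the modular unit `Δ(q)/Δ(q^p)`.
-/
import Mathlib
import Fermat.Agent.S44.Mono.UnitNode
import Fermat.Agent.S44.Mono.NodeNu
import Fermat.Agent.S44.Mono.UnitVal
import Fermat.Agent.S44.Mono.Centre
import Fermat.Agent.SS.Model.ThickBase

set_option autoImplicit false
set_option linter.unusedSectionVars false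
set_option linter.unusedVariables false
set_option linter.style.haveILetI false

namespace Fermat.Agent.S44

open Fermat.Agent.SS Fermat.Agent.JT3 Fermat.Agent.S35 Fermat.Agent.MZ IsLocalRing ModularCurve
  IntermediateField

/-! ### the abstract statement -/

section Abs

variable {R : Type*} [CommRing R] [IsDomain R] [IsNoetherianRing R] [IsIntegrallyClosed R]
  {F : Type*} [Field F] [Algebra R F] [IsFractionRing R F]

/-- **(U-NODE)(b), abstract**: one vertical prime `P = 𝔪_V ∩ R` through the point; a unit of `V`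
without horizontal divisor is a unit of `R`. -/
theorem s44us_smooth_abs (lam : R) (P : Ideal R) [hP : P.IsPrime] (V : ValuationSubring F)
    (hRV : ∀ r : R, algebraMap R F r ∈ V)
    (hVP : ∀ r : R, algebraMap R F r ∈ V.nonunits ↔ r ∈ P)
    (hvert : ∀ 𝔮 : Ideal R, 𝔮.IsPrime → 𝔮.height = 1 → lam ∈ 𝔮 → 𝔮 = P)
    {G : F} (hGV : ssl_VUnit V G)
    (hhor : ∀ 𝔮 : Ideal R, ssl_Horiz lam 𝔮 → ssl_UnitAt F 𝔮 G) :
    ∃ ω : Rˣ, algebraMap R F (ω : R) = G := by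
  refine ssl_krull_unit hGV.1 fun 𝔮 h𝔮 h1 => ?_
  by_cases hlam : lam ∈ 𝔮
  · have e := hvert 𝔮 h𝔮 h1 hlam
    have h1P : P.height = 1 := e ▸ h1
    rw [e]
    exact s44un_unitAt_of_vUnit P h1P V hRV hVP hGV
  · exact hhor 𝔮 ⟨h𝔮, h1, hlam⟩

end Abs

/-! ### a point of a chart of a two-component model lying on one component only -/

section Chart

universe v

variable {R' : Type*} [CommRing R'] [IsDomain R'] [IsIntegrallyClosed R']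
  {A0 : Type*} [CommRing A0] {E : Type v} [Field E] [Algebra A0 E] [Algebra R' E]
  [FaithfulSMul R' E]
  {B : Subalgebra A0 E} [IsFractionRing B E] [IsNoetherianRing B] [IsIntegrallyClosed B]
  (𝔫 : Ideal B) [h𝔫 : 𝔫.IsPrime] {πR : R'} {V1 V2 : ValuationSubring E}

/-- the local ring at a point of the component `P₁` lies in `V₁`. -/
theorem s44us_loc_le (hBV : ∀ b ∈ B, b ∈ V1) (h1 : ssm_tp_P B V1 ≤ 𝔫) :
    ∀ z ∈ ssl_locSub E 𝔫, z ∈ V1 := by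
  intro z hz
  obtain ⟨a, s, hs, hzs⟩ := (ssl_mem_loc 𝔫).1 hz
  have hs' : (s : E) ∉ V1.nonunits := fun h => hs (h1 ((ssm_tp_mem_P hBV).2 h))
  have hs0 : (s : E) ≠ 0 := ssm_tp_ne_zero V1 hs'
  have : z = (a : E) * (s : E)⁻¹ := by
    rw [← hzs, mul_assoc, mul_inv_cancel₀ hs0, mul_one]
  rw [this]
  exact V1.mul_mem _ _ (hBV _ a.2) (ssm_tp_inv_mem V1 hs')

/-- **the only vertical prime of height one through a point of `P₁ ∖ P₂` is `P∞ = 𝔪(V₁) ∩ S`.** -/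
theorem s44us_vert (H : ssm_tp_Hyp πR V1 V2) (hC : ssm_tp_Chart πR B) (ϖ : B)
    (hϖ : (ϖ : E) = algebraMap R' E πR) (h1 : ssm_tp_P B V1 ≤ 𝔫) (h2 : ¬ ssm_tp_P B V2 ≤ 𝔫)
    (𝔔 : Ideal (ssl_locSub E 𝔫)) (h𝔔 : 𝔔.IsPrime) (h𝔔1 : 𝔔.height = 1)
    (hϖ𝔔 : algebraMap B (ssl_locSub E 𝔫) ϖ ∈ 𝔔) :
    𝔔 = ssm_tp_P (ssl_locSub E 𝔫) V1 := by
  haveI := h𝔔
  have hBV : ∀ b ∈ B, b ∈ V1 := fun _ hb => hC.le H.over1 hb
  set 𝔮 : Ideal B := 𝔔.under B with h𝔮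
  haveI : 𝔮.IsPrime := Ideal.comap_isPrime _ 𝔔
  have h𝔮1 : 𝔮.height = 1 := by
    rw [h𝔮, IsLocalization.height_under 𝔫.primeCompl 𝔔, h𝔔1]
  have hϖ𝔮 : ϖ ∈ 𝔮 := hϖ𝔔
  have h𝔮𝔫 : 𝔮 ≤ 𝔫 := by
    intro x hx
    by_contra hx𝔫
    have hu : IsUnit (algebraMap B (ssl_locSub E 𝔫) x) :=
      (IsLocalization.AtPrime.isUnit_to_map_iff (ssl_locSub E 𝔫) 𝔫 x).2 hx𝔫
    exact h𝔔.ne_top (Ideal.eq_top_of_isUnit_mem _ hx hu)
  haveI hP1 := H.P1_isPrime hC (B := B)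
  have hP1𝔮 : ssm_tp_P B V1 ≤ 𝔮 := by
    rcases H.P_le_of_mem hC ϖ hϖ 𝔮 hϖ𝔮 with h | h
    · exact h
    · exact absurd (h.trans h𝔮𝔫) h2
  have hϖ0 : ϖ ≠ 0 := by
    intro h0
    apply H.algebraMap_ne_zero
    rw [← hϖ, h0]
    rfl
  have hP1ne : ssm_tp_P B V1 ≠ ⊥ := by
    intro hbot
    have : ϖ ∈ ssm_tp_P B V1 := by
      rw [H.mem_P1 hC, hϖ]
      exact H.over1.pi_mem
    rw [hbot, Ideal.mem_bot] at this
    exact hϖ0 this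
  have e : ssm_tp_P B V1 = 𝔮 := ssl_eq_of_le_of_ne_bot hP1ne h𝔮1 hP1𝔮
  rw [s44mp_Pinf_eq_map 𝔫 V1 hBV h1, e, h𝔮]
  exact (IsLocalization.map_under 𝔫.primeCompl (ssl_locSub E 𝔫) 𝔔).symm

/-- **(U-NODE)(b), chart form**: at a point `𝔫` of the chart lying on `P₁` only, a unit `G` of `V₁`
without horizontal divisor on `Spec B_𝔫` is a unit of `B_𝔫`: `G * s = a` with `a, s ∈ B ∖ 𝔫`. -/
theorem s44us_smooth_chart (H : ssm_tp_Hyp πR V1 V2) (hC : ssm_tp_Chart πR B) (ϖ : B)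
    (hϖ : (ϖ : E) = algebraMap R' E πR) (h1 : ssm_tp_P B V1 ≤ 𝔫) (h2 : ¬ ssm_tp_P B V2 ≤ 𝔫)
    {G : E} (hGV : ssl_VUnit V1 G)
    (hhor : ∀ 𝔮 : Ideal (ssl_locSub E 𝔫),
      ssl_Horiz (algebraMap B (ssl_locSub E 𝔫) ϖ) 𝔮 → ssl_UnitAt E 𝔮 G) :
    ∃ a s : B, a ∉ 𝔫 ∧ s ∉ 𝔫 ∧ G * (s : E) = (a : E) := by
  haveI := ssl_loc_isNoetherianRing (F0 := E) 𝔫
  haveI := ssl_loc_isIntegrallyClosed (F0 := E) 𝔫
  have hBV : ∀ b ∈ B, b ∈ V1 := fun _ hb => hC.le H.over1 hb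
  have hSV := s44us_loc_le 𝔫 hBV h1
  haveI hPS : (ssm_tp_P (ssl_locSub E 𝔫) V1).IsPrime := ssm_tp_P_isPrime hSV
  obtain ⟨ω, hω⟩ := s44us_smooth_abs (F := E) (algebraMap B (ssl_locSub E 𝔫) ϖ)
    (ssm_tp_P (ssl_locSub E 𝔫) V1) V1 (fun r => hSV _ r.2)
    (fun r => (ssm_tp_mem_P hSV).symm)
    (fun 𝔔 h𝔔 h𝔔1 hmem => s44us_vert 𝔫 H hC ϖ hϖ h1 h2 𝔔 h𝔔 h𝔔1 hmem) hGV hhor
  obtain ⟨a, s, hs, hzs⟩ := (ssl_mem_loc 𝔫).1 (ω : ssl_locSub E 𝔫).2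
  refine ⟨a, s, ?_, hs, ?_⟩
  · intro ha
    have hsu : IsUnit (algebraMap B (ssl_locSub E 𝔫) s) :=
      (IsLocalization.AtPrime.isUnit_to_map_iff (ssl_locSub E 𝔫) 𝔫 s).2 hs
    have e : algebraMap B (ssl_locSub E 𝔫) a = (ω : ssl_locSub E 𝔫) * algebraMap B _ s :=
      Subtype.ext hzs.symm
    have hau : IsUnit (algebraMap B (ssl_locSub E 𝔫) a) := e ▸ ω.isUnit.mul hsu
    exact (IsLocalization.AtPrime.isUnit_to_map_iff (ssl_locSub E 𝔫) 𝔫 a).1 hau ha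
  · rw [← hω]
    exact hzs

end Chart

/-! ### the Legendre instance -/

section Legendre

variable {L : Type*} [Field L] [CharZero L] [Algebra L (AlgebraicClosure ℚ)]
  (O : ValuationSubring L) [IsDiscreteValuationRing O] {π : O} (hπ : Irreducible π)
variable (N' q : ℕ) [NeZero N'] [NeZero q] [hq : Fact q.Prime] [CharP (ResidueField O) q]
  (hq2 : ¬ 2 ∣ q) (hqN' : ¬ q ∣ N')

set_option maxHeartbeats 1600000 in
set_option synthInstance.maxHeartbeats 200000 in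
/-- **(U-NODE)(b), Legendre instance**: `B = fc_chart O {λ}` the `λ`-chart of `E = lg_E L (N' q)`,
`𝔫` a prime of `B` on the `∞`-component `P₁ = 𝔪(V₁) ∩ B` but not on the `0`-component
`P₂ = 𝔪(V₂) ∩ B`, with `j(q²) ∈ B_𝔫`.  For every model `U1 ∈ lg_F L (N' q)` of the modular unit
`Δ(q)/Δ(q^q)` whose image `lg_phiE U1` is a unit of the Gauss valuation ring `V₁`:
`lg_phiE U1 ∈ (B_𝔫)ˣ`, in the form `∃ a s ∈ B ∖ 𝔫, lg_phiE U1 * s = a`. -/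
theorem s44us_smooth_leg
    (hprime : Prime (algebraMap ↥O (fc_chart ↥O ({lg_lamE N'} : Set ↥(lg_E L N'))) π))
    (𝔫 : Ideal ↥(fc_chart ↥O ({lg_lamE (N' * q)} : Set ↥(lg_E L (N' * q))))) [h𝔫 : 𝔫.IsPrime]
    (h1 : ssm_tp_P (fc_chart ↥O ({lg_lamE (N' * q)} : Set ↥(lg_E L (N' * q))))
      (ssm_gl_V1 O hπ N' q) ≤ 𝔫)
    (h2 : ¬ ssm_tp_P (fc_chart ↥O ({lg_lamE (N' * q)} : Set ↥(lg_E L (N' * q))))
      (ssm_gl_V2 O hπ N' q hq2 hqN') ≤ 𝔫)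
    (hj : ∃ a s : ↥(fc_chart ↥O ({lg_lamE (N' * q)} : Set ↥(lg_E L (N' * q)))), s ∉ 𝔫 ∧
      s44uv_j2E L (N' * q) * (s : ↥(lg_E L (N' * q))) = (a : ↥(lg_E L (N' * q))))
    (U1 : ↥(lg_F L (N' * q))) (hU1 : (U1 : LaurentSeries L) = mzb_qi_U L q)
    (hV1 : ssl_VUnit (ssm_gl_V1 O hπ N' q) (lg_phiE (L := L) (N := N' * q) U1)) :
    ∃ a s : ↥(fc_chart ↥O ({lg_lamE (N' * q)} : Set ↥(lg_E L (N' * q)))), a ∉ 𝔫 ∧ s ∉ 𝔫 ∧
      lg_phiE (L := L) (N := N' * q) U1 * (s : ↥(lg_E L (N' * q))) =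
        (a : ↥(lg_E L (N' * q))) := by
  haveI := ssm_go_isScalarTower O (lg_E L (N' * q))
  have hx : Transcendental L (lg_lamE (L := L) (N' * q)) :=
    lgf_lam_transcendental L (N' * q) two_ne_zero
  have hyA : Transcendental ↥O (lg_lamE (L := L) (N' * q)) := fc_ff_transcendental (L := L) hx
  haveI : IsIntegrallyClosed (Algebra.adjoin ↥O ({lg_lamE (N' * q)} : Set ↥(lg_E L (N' * q)))) :=
    fc_ff_isIntegrallyClosed hyA
  haveI : FaithfulSMul (Algebra.adjoin ↥O ({lg_lamE (N' * q)} : Set ↥(lg_E L (N' * q))))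
      ↥(lg_E L (N' * q)) :=
    (faithfulSMul_iff_algebraMap_injective _ _).2 Subtype.val_injective
  haveI := lgf_finite L (N' * q)
  haveI : IsNoetherianRing ↥(fc_chart ↥O ({lg_lamE (N' * q)} : Set ↥(lg_E L (N' * q)))) :=
    ssm_ths_chart_isNoetherianRing (A0 := ↥O) (L := L) hx
  haveI : IsIntegrallyClosed ↥(fc_chart ↥O ({lg_lamE (N' * q)} : Set ↥(lg_E L (N' * q)))) :=
    ssm_ths_chart_isIntegrallyClosed (A0 := ↥O) (L := L) _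
  haveI : IsFractionRing ↥(fc_chart ↥O ({lg_lamE (N' * q)} : Set ↥(lg_E L (N' * q))))
      ↥(lg_E L (N' * q)) :=
    ssm_ths_chart_isFractionRing (A0 := ↥O) (L := L) _
  have H := ssm_gl_hyp O hπ N' q hq2 hqN' hprime
  have hC := ssm_tp_ff_chart (L := L) hπ hx
  haveI := ssl_loc_isNoetherianRing (F0 := ↥(lg_E L (N' * q))) 𝔫
  haveI := ssl_loc_isIntegrallyClosed (F0 := ↥(lg_E L (N' * q))) 𝔫
  -- `j(q²) ∈ B_𝔫`
  obtain ⟨aj, sj, hsj, hjs⟩ := hj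
  have hjS : s44uv_j2E L (N' * q) ∈ ssl_locSub ↥(lg_E L (N' * q)) 𝔫 :=
    (ssl_mem_loc 𝔫).2 ⟨aj, sj, hsj, hjs⟩
  refine s44us_smooth_chart 𝔫 H hC
    (algebraMap ↥O ↥(fc_chart ↥O ({lg_lamE (N' * q)} : Set ↥(lg_E L (N' * q)))) π) rfl h1 h2 hV1 ?_
  intro 𝔮 h𝔮
  exact s44uv_unitAt_horiz L q (N' * q) (dvd_mul_left q N') (A0 := ↥O)
    (R := ↥(ssl_locSub ↥(lg_E L (N' * q)) 𝔫)) hπ 𝔮 h𝔮
    (⟨s44uv_j2E L (N' * q), hjS⟩ : ↥(ssl_locSub ↥(lg_E L (N' * q)) 𝔫)) rfl U1 hU1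

/-- `j(q²) ∈ B_𝔫` at a point of the `λ`-chart with `λ̄ ≠ 0, 1` (Legendre relation). -/
theorem s44us_j2_of_lam (N : ℕ) [NeZero N]
    (𝔫 : Ideal ↥(fc_chart ↥O ({lg_lamE N} : Set ↥(lg_E L N)))) [h𝔫 : 𝔫.IsPrime]
    (hlam : (⟨lg_lamE N, fc_x_mem_chart _⟩ : ↥(fc_chart ↥O ({lg_lamE N} : Set ↥(lg_E L N)))) ∉ 𝔫)
    (hlam1 : (⟨lg_lamE N, fc_x_mem_chart _⟩ : ↥(fc_chart ↥O ({lg_lamE N} : Set ↥(lg_E L N)))) - 1
      ∉ 𝔫) :
    ∃ a s : ↥(fc_chart ↥O ({lg_lamE N} : Set ↥(lg_E L N))), s ∉ 𝔫 ∧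
      s44uv_j2E L N * (s : ↥(lg_E L N)) = (a : ↥(lg_E L N)) := by
  set lamB : ↥(fc_chart ↥O ({lg_lamE N} : Set ↥(lg_E L N))) := ⟨lg_lamE N, fc_x_mem_chart _⟩
    with hlamB
  refine ⟨256 * (lamB ^ 2 - lamB + 1) ^ 3, lamB ^ 2 * (lamB - 1) ^ 2, ?_, ?_⟩
  · intro hmem
    rcases h𝔫.mem_or_mem hmem with h | h
    · exact hlam (h𝔫.mem_of_pow_mem 2 h)
    · exact hlam1 (h𝔫.mem_of_pow_mem 2 h)
  · have h := s44mz_legE L N
    show s44mz_j2E L N * ((lg_lamE N : ↥(lg_E L N)) ^ 2 * ((lg_lamE N : ↥(lg_E L N)) - 1) ^ 2) =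
      256 * ((lg_lamE N : ↥(lg_E L N)) ^ 2 - lg_lamE N + 1) ^ 3
    rw [h]
    ring

set_option maxHeartbeats 1600000 in
set_option synthInstance.maxHeartbeats 200000 in
/-- **(U-NODE)(b), centre form** (the shape of `s44mz_centre` / `s44nd_unit_chart`): `𝒱 ≤ V₁` a
valuation subring of `E` containing `O` and `j(q²)`, `𝔫 = 𝔪(𝒱) ∩ B` its centre on the `λ`-chart, NOT
on the `0`-component.  Then `lg_phiE U1 ∈ (B_𝔫)ˣ`. -/
theorem s44us_smooth_centre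
    (hprime : Prime (algebraMap ↥O (fc_chart ↥O ({lg_lamE N'} : Set ↥(lg_E L N'))) π))
    (𝒱 : ValuationSubring ↥(lg_E L (N' * q))) (h𝒱 : 𝒱 ≤ ssm_gl_V1 O hπ N' q)
    (hO𝒱 : ∀ a : O, algebraMap ↥O ↥(lg_E L (N' * q)) a ∈ 𝒱)
    (hj : s44mz_j2E L (N' * q) ∈ 𝒱)
    (𝔫 : Ideal ↥(fc_chart ↥O ({lg_lamE (N' * q)} : Set ↥(lg_E L (N' * q))))) [h𝔫 : 𝔫.IsPrime]
    (h𝔫eq : ∀ b : ↥(fc_chart ↥O ({lg_lamE (N' * q)} : Set ↥(lg_E L (N' * q)))),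
      b ∈ 𝔫 ↔ (b : ↥(lg_E L (N' * q))) ∈ 𝒱.nonunits)
    (h2 : ¬ ssm_tp_P (fc_chart ↥O ({lg_lamE (N' * q)} : Set ↥(lg_E L (N' * q))))
      (ssm_gl_V2 O hπ N' q hq2 hqN') ≤ 𝔫)
    (U1 : ↥(lg_F L (N' * q))) (hU1 : (U1 : LaurentSeries L) = mzb_qi_U L q)
    (hV1 : ssl_VUnit (ssm_gl_V1 O hπ N' q) (lg_phiE (L := L) (N := N' * q) U1)) :
    ∃ a s : ↥(fc_chart ↥O ({lg_lamE (N' * q)} : Set ↥(lg_E L (N' * q)))), a ∉ 𝔫 ∧ s ∉ 𝔫 ∧
      lg_phiE (L := L) (N := N' * q) U1 * (s : ↥(lg_E L (N' * q))) =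
        (a : ↥(lg_E L (N' * q))) := by
  haveI := ssm_go_isScalarTower O (lg_E L (N' * q))
  have hx : Transcendental L (lg_lamE (L := L) (N' * q)) :=
    lgf_lam_transcendental L (N' * q) two_ne_zero
  have hyA : Transcendental ↥O (lg_lamE (L := L) (N' * q)) := fc_ff_transcendental (L := L) hx
  haveI : IsIntegrallyClosed (Algebra.adjoin ↥O ({lg_lamE (N' * q)} : Set ↥(lg_E L (N' * q)))) :=
    fc_ff_isIntegrallyClosed hyA
  haveI : FaithfulSMul (Algebra.adjoin ↥O ({lg_lamE (N' * q)} : Set ↥(lg_E L (N' * q))))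
      ↥(lg_E L (N' * q)) :=
    (faithfulSMul_iff_algebraMap_injective _ _).2 Subtype.val_injective
  have H := ssm_gl_hyp O hπ N' q hq2 hqN' hprime
  have hC := ssm_tp_ff_chart (L := L) hπ hx
  have hle := s44mz_B_le_S O q hq2 (N' * q)
  have hS𝒱 := s44mz_S_le O (N' * q) 𝒱 hO𝒱 hj
  have hB𝒱 : ∀ b ∈ fc_chart ↥O ({lg_lamE (N' * q)} : Set ↥(lg_E L (N' * q))), b ∈ 𝒱 :=
    fun b hb => hS𝒱 b (hle hb)
  -- `P₁ ≤ 𝔫`
  have h1 : ssm_tp_P (fc_chart ↥O ({lg_lamE (N' * q)} : Set ↥(lg_E L (N' * q))))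
      (ssm_gl_V1 O hπ N' q) ≤ 𝔫 := by
    intro b hb
    rw [H.mem_P1 hC] at hb
    rw [h𝔫eq]
    exact ValuationSubring.nonunits_le_nonunits.2 h𝒱 hb
  -- `λ, λ - 1 ∉ 𝔫`
  obtain ⟨u, hu⟩ := s44mz_exists_u O q hq2
  have hleg := s44mz_legE L (N' * q)
  have hlam𝒱 : (lg_lamE (N' * q) : ↥(lg_E L (N' * q))) ∈ 𝒱 := hB𝒱 _ (fc_x_mem_chart _)
  have h256 : ((256 : ↥(lg_E L (N' * q))))⁻¹ ∈ 𝒱 := by
    have e : ((256 : ↥(lg_E L (N' * q))))⁻¹ = algebraMap ↥O ↥(lg_E L (N' * q)) u := by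
      have h3 : algebraMap ↥O ↥(lg_E L (N' * q)) u * 256 = 1 := by
        have := congrArg (algebraMap ↥O ↥(lg_E L (N' * q))) hu
        rwa [map_mul, map_one, map_ofNat] at this
      exact (eq_inv_of_mul_eq_one_left h3).symm
    rw [e]
    exact hO𝒱 u
  have hkey : ∀ t : ↥(lg_E L (N' * q)), t ∈ 𝒱.nonunits →
      (lg_lamE (N' * q) : ↥(lg_E L (N' * q))) ^ 2 - lg_lamE (N' * q) + 1 - 1 ∈ 𝒱.nonunits →
      s44mz_j2E L (N' * q) * (lg_lamE (N' * q) : ↥(lg_E L (N' * q))) ^ 2 *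
        ((lg_lamE (N' * q) : ↥(lg_E L (N' * q))) - 1) ^ 2 ∈ 𝒱.nonunits → False := by
    intro t _ hw hR
    -- `w := λ² - λ + 1 ≡ 1`, so `256 w³` is a unit
    set w : ↥(lg_E L (N' * q)) := (lg_lamE (N' * q) : ↥(lg_E L (N' * q))) ^ 2 - lg_lamE (N' * q) + 1
      with hw'
    have hwv : 𝒱.valuation w = 1 := by
      have h3 := 𝒱.valuation.map_one_add_of_lt ((ValuationSubring.mem_nonunits_iff _).1 hw)
      rwa [add_sub_cancel] at h3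
    rw [← hleg] at hR
    have h4 : 𝒱.valuation (256 * w ^ 3) < 1 := (ValuationSubring.mem_nonunits_iff _).1 hR
    rw [map_mul, map_pow, hwv, one_pow, mul_one] at h4
    have h5 : 𝒱.valuation ((256 : ↥(lg_E L (N' * q))))⁻¹ ≤ 1 :=
      (𝒱.valuation_le_one_iff _).2 h256
    have h6 : (256 : ↥(lg_E L (N' * q))) ≠ 0 := by
      intro h0
      rw [h0, inv_zero] at h256
      have := hleg
      rw [h0, zero_mul] at this
      -- then `𝒱.valuation 0 < 1` is fine; derive contradiction from `u * 256 = 1`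
      have h3 : algebraMap ↥O ↥(lg_E L (N' * q)) u * 256 = 1 := by
        have := congrArg (algebraMap ↥O ↥(lg_E L (N' * q))) hu
        rwa [map_mul, map_one, map_ofNat] at this
      rw [h0, mul_zero] at h3
      exact zero_ne_one h3
    rw [map_inv₀] at h5
    have h7 : 𝒱.valuation (256 : ↥(lg_E L (N' * q))) ≠ 0 := (Valuation.ne_zero_iff _).2 h6
    have h8 := (inv_le_one₀ (zero_lt_iff.2 h7)).1 h5
    exact absurd h4 (not_lt.2 h8)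
  have hmulR : ∀ {x y : ↥(lg_E L (N' * q))}, x ∈ 𝒱.nonunits → y ∈ 𝒱 → x * y ∈ 𝒱.nonunits :=
    fun hx' hy' => ssm_tp_nonunits_mul 𝒱 hx' hy'
  have hj2lam : s44mz_j2E L (N' * q) * (lg_lamE (N' * q) : ↥(lg_E L (N' * q))) ^ 2 ∈ 𝒱 :=
    𝒱.mul_mem _ _ hj (pow_mem hlam𝒱 2)
  have hlam1𝒱 : (lg_lamE (N' * q) : ↥(lg_E L (N' * q))) - 1 ∈ 𝒱 := 𝒱.sub_mem hlam𝒱 𝒱.one_mem
  have hlam : (⟨lg_lamE (N' * q), fc_x_mem_chart _⟩ :
      ↥(fc_chart ↥O ({lg_lamE (N' * q)} : Set ↥(lg_E L (N' * q))))) ∉ 𝔫 := by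
    intro hmem
    rw [h𝔫eq] at hmem
    have hm : (lg_lamE (N' * q) : ↥(lg_E L (N' * q))) ∈ 𝒱.nonunits := hmem
    refine hkey _ hm ?_ ?_
    · have e : (lg_lamE (N' * q) : ↥(lg_E L (N' * q))) ^ 2 - lg_lamE (N' * q) + 1 - 1 =
          lg_lamE (N' * q) * ((lg_lamE (N' * q) : ↥(lg_E L (N' * q))) - 1) := by ring
      rw [e]
      exact hmulR hm hlam1𝒱
    · have e : s44mz_j2E L (N' * q) * (lg_lamE (N' * q) : ↥(lg_E L (N' * q))) ^ 2 *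
          ((lg_lamE (N' * q) : ↥(lg_E L (N' * q))) - 1) ^ 2 =
          lg_lamE (N' * q) * (s44mz_j2E L (N' * q) * lg_lamE (N' * q) *
            ((lg_lamE (N' * q) : ↥(lg_E L (N' * q))) - 1) ^ 2) := by ring
      rw [e]
      exact hmulR hm (𝒱.mul_mem _ _ (𝒱.mul_mem _ _ hj hlam𝒱) (pow_mem hlam1𝒱 2))
  have hlam1 : (⟨lg_lamE (N' * q), fc_x_mem_chart _⟩ :
      ↥(fc_chart ↥O ({lg_lamE (N' * q)} : Set ↥(lg_E L (N' * q))))) - 1 ∉ 𝔫 := by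
    intro hmem
    rw [h𝔫eq] at hmem
    have hm : (lg_lamE (N' * q) : ↥(lg_E L (N' * q))) - 1 ∈ 𝒱.nonunits := hmem
    refine hkey _ hm ?_ ?_
    · have e : (lg_lamE (N' * q) : ↥(lg_E L (N' * q))) ^ 2 - lg_lamE (N' * q) + 1 - 1 =
          ((lg_lamE (N' * q) : ↥(lg_E L (N' * q))) - 1) * lg_lamE (N' * q) := by ring
      rw [e]
      exact hmulR hm hlam𝒱
    · have e : s44mz_j2E L (N' * q) * (lg_lamE (N' * q) : ↥(lg_E L (N' * q))) ^ 2 *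
          ((lg_lamE (N' * q) : ↥(lg_E L (N' * q))) - 1) ^ 2 =
          ((lg_lamE (N' * q) : ↥(lg_E L (N' * q))) - 1) *
            (s44mz_j2E L (N' * q) * (lg_lamE (N' * q) : ↥(lg_E L (N' * q))) ^ 2 *
              ((lg_lamE (N' * q) : ↥(lg_E L (N' * q))) - 1)) := by ring
      rw [e]
      exact hmulR hm (𝒱.mul_mem _ _ hj2lam hlam1𝒱)
  exact s44us_smooth_leg O hπ N' q hq2 hqN' hprime 𝔫 h1 h2
    (s44us_j2_of_lam O (N' * q) 𝔫 hlam hlam1) U1 hU1 hV1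

end Legendre

end Fermat.Agent.S44
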