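/-
Project S44 (Mazur–Ribet at `p`), cell [H2-N] (U-NODE)(D), THE NODE COMPUTATION FOR THE MODULAR UNIT
AT A CROSSING POINT OF THE LEGENDRE CHART (helper28).  Prefix `s44un_`.  Namespace `Fermat.Agent.S44`.

`L ⊆ Q̄` a number field containing a primitive `N'`-th root of unity, `O` a discrete valuation ring
of `L` of odd residue characteristic `q ∤ N'`, `B = fc_chart O {λ}` the `λ`-chart of the Legendre
cover `E = lg_E L (N' q)`, `𝔫` a maximal ideal of `B` through which BOTH components pass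
(`P_i ∩ B ≤ 𝔫`, `P_i = ssm_tp_P B12 V_i`).  `U1` any model over `L` of the modular unit
`Δ(τ)/Δ(qτ)` (`(U1 : L((q))) = mzb_qi_U L q`).

* `s44un_cross_not_mem`   : at a crossing point `λ ∉ 𝔫` and `λ - 1 ∉ 𝔫` (the cusps are smooth points);
* `s44un_j_mem_loc`       : hence `j(q²) ∈ B_𝔫`;
* `s44un_hor`             : `lg_phiE U1` has no horizontal divisor at `B_𝔫`;
* **`s44un_node`**        : for the coordinates `u, v` of ANY uniform node `s44mu_NodeAtU π hle P1 P2 𝔫 u v q`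
                            (helper29's `s44mu_node`) and ANY normalised order `ν` of `B_𝔫` along the
                            branch of `P1` w.r.t. `u`: `ν (lg_phiE U1) = 12`
                            — EXACTLY the `hnode` of helper12's `s44ndn_value`.
-/
import Mathlib
import Fermat.Agent.S44.Mono.UnitNodeChart
import Fermat.Agent.S44.Mono.UNode
import Fermat.Agent.S44.Mono.UNodeVert
import Fermat.Agent.S44.Mono.UnitVal

set_option autoImplicit false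
set_option linter.unusedSectionVars false
set_option linter.unusedVariables false
set_option linter.style.haveILetI false

noncomputable section

open ModularCurve IntermediateField IsLocalRing Polynomial
open Fermat.Agent.JT3 Fermat.Agent.SS Fermat.Agent.MZ

namespace Fermat.Agent.S44

universe v

section Abs

/-- `a xq = x^q`, `b x = xq^q`, `a ≡ b ≡ 1 (𝔫)` ⟹ `x ∉ 𝔫` (`x^{q²-1} = a^q b ≡ 1`). -/
theorem s44un_not_mem_aux {B : Type*} [CommRing B] [IsDomain B] (𝔫 : Ideal B) [h𝔫 : 𝔫.IsPrime]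
    {q : ℕ} (hq : 2 ≤ q) {x xq a b : B} (hx0 : x ≠ 0) (h1 : a * xq = x ^ q)
    (h2 : b * x = xq ^ q) (ha : a - 1 ∈ 𝔫) (hb : b - 1 ∈ 𝔫) : x ∉ 𝔫 := by
  intro hx
  have hqq : q * q - 1 + 1 = q * q := by
    have : 1 ≤ q * q := Nat.one_le_iff_ne_zero.2 (by positivity)
    omega
  have h3 : x * x ^ (q * q - 1) = x * (a ^ q * b) := by
    rw [← pow_succ', hqq, pow_mul, ← h1, mul_pow, ← h2]; ring
  have h4 : x ^ (q * q - 1) = a ^ q * b := mul_left_cancel₀ hx0 h3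
  have h5 : a ^ q * b ∈ 𝔫 := by
    rw [← h4]
    refine Ideal.pow_mem_of_mem _ hx _ ?_
    have : 4 ≤ q * q := Nat.mul_le_mul hq hq
    omega
  have hone : ∀ c : B, c - 1 ∈ 𝔫 → c ∉ 𝔫 := fun c hc hc' =>
    h𝔫.ne_top ((Ideal.eq_top_iff_one _).2 (by
      have := 𝔫.sub_mem hc' hc
      rwa [sub_sub_cancel] at this))
  rcases h𝔫.mem_or_mem h5 with h | h
  · exact hone a ha (h𝔫.mem_of_pow_mem _ h)
  · exact hone b hb h

variable {A0 : Type*} [CommRing A0] {F0 : Type v} [Field F0] [Algebra A0 F0]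

/-- **the cusps are not crossing points**: if both components pass through `𝔫` then `λ ∉ 𝔫` and
`λ - 1 ∉ 𝔫` (from the Frobenius-ratio facts `ssm_i1_Facts`). -/
theorem s44un_cross_not_mem_abs {q : ℕ} (hq : 2 ≤ q) {lam lamq : F0} {V1 V2 : ValuationSubring F0}
    (F : ssm_i1_Facts A0 q lam lamq V1 V2)
    (hBV1 : ∀ b ∈ fc_chart A0 ({lam} : Set F0), b ∈ V1)
    (hBV2 : ∀ b ∈ fc_chart A0 ({lam} : Set F0), b ∈ V2)
    (𝔫 : Ideal (fc_chart A0 ({lam} : Set F0))) [h𝔫 : 𝔫.IsPrime]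
    (h1 : ssm_tp_P (fc_chart A0 ({lam} : Set F0)) V1 ≤ 𝔫)
    (h2 : ssm_tp_P (fc_chart A0 ({lam} : Set F0)) V2 ≤ 𝔫) :
    (⟨lam, fc_x_mem_chart _⟩ : fc_chart A0 ({lam} : Set F0)) ∉ 𝔫 ∧
      (⟨lam, fc_x_mem_chart _⟩ : fc_chart A0 ({lam} : Set F0)) - 1 ∉ 𝔫 := by
  have hneg : ∀ V : ValuationSubring F0, (0 : F0) - 1 ∉ V.nonunits := by
    intro V h
    rw [zero_sub] at h
    exact (ValuationSubring.mem_nonunits_iff_exists_mem_maximalIdeal.1 h).2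
      |> fun hm => (IsLocalRing.mem_maximalIdeal _).1 hm
        ⟨⟨⟨-1, V.neg_mem _ V.one_mem⟩, ⟨-1, V.neg_mem _ V.one_mem⟩, by ext; simp, by ext; simp⟩, rfl⟩
  -- the generic step
  have key : ∀ (x xq : F0) (hx : x ∈ fc_chart A0 ({lam} : Set F0))
      (hxq : xq ∈ fc_chart A0 ({lam} : Set F0))
      (ha : x ^ q / xq ∈ fc_chart A0 ({lam} : Set F0))
      (hb : xq ^ q / x ∈ fc_chart A0 ({lam} : Set F0)),
      x ^ q / xq - 1 ∈ V1.nonunits → xq ^ q / x - 1 ∈ V2.nonunits →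
      (⟨x, hx⟩ : fc_chart A0 ({lam} : Set F0)) ∉ 𝔫 := by
    intro x xq hx hxq ha hb ha1 hb1
    have hxq0 : xq ≠ 0 := by
      rintro rfl
      rw [div_zero] at ha1
      exact hneg V1 ha1
    have hx0 : x ≠ 0 := by
      rintro rfl
      rw [div_zero] at hb1
      exact hneg V2 hb1
    refine s44un_not_mem_aux 𝔫 hq (x := ⟨x, hx⟩) (xq := ⟨xq, hxq⟩) (a := ⟨x ^ q / xq, ha⟩)
      (b := ⟨xq ^ q / x, hb⟩) (fun h => hx0 (congrArg Subtype.val h)) ?_ ?_ ?_ ?_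
    · exact Subtype.ext (div_mul_cancel₀ _ hxq0)
    · exact Subtype.ext (div_mul_cancel₀ _ hx0)
    · exact h1 ((ssm_tp_mem_P hBV1).2 ha1)
    · exact h2 ((ssm_tp_mem_P hBV2).2 hb1)
  refine ⟨key lam lamq (fc_x_mem_chart _) F.lamq_mem F.w0 F.w0' F.w0_sub F.w0'_sub, ?_⟩
  exact key (lam - 1) (lamq - 1) (Subalgebra.sub_mem _ (fc_x_mem_chart _) (Subalgebra.one_mem _))
    (Subalgebra.sub_mem _ F.lamq_mem (Subalgebra.one_mem _)) F.w1 F.w1' F.w1_sub F.w1'_sub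

/-- `j ∈ B_𝔫` when `λ, λ - 1 ∉ 𝔫` (Legendre relation `256 (λ² - λ + 1)³ = j λ² (λ - 1)²`). -/
theorem s44un_j_mem_loc_abs {lam j2 : F0} [IsFractionRing (fc_chart A0 ({lam} : Set F0)) F0]
    (hleg : 256 * (lam ^ 2 - lam + 1) ^ 3 = j2 * lam ^ 2 * (lam - 1) ^ 2)
    (𝔫 : Ideal (fc_chart A0 ({lam} : Set F0))) [h𝔫 : 𝔫.IsPrime]
    (h0 : (⟨lam, fc_x_mem_chart _⟩ : fc_chart A0 ({lam} : Set F0)) ∉ 𝔫)
    (h1 : (⟨lam, fc_x_mem_chart _⟩ : fc_chart A0 ({lam} : Set F0)) - 1 ∉ 𝔫) :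
    j2 ∈ ssl_locSub F0 𝔫 := by
  rw [ssl_mem_locSub]
  set lamB : fc_chart A0 ({lam} : Set F0) := ⟨lam, fc_x_mem_chart _⟩ with hlamB
  refine ⟨256 * (lamB ^ 2 - lamB + 1) ^ 3, lamB ^ 2 * (lamB - 1) ^ 2, ?_, ?_⟩
  · intro h
    rcases h𝔫.mem_or_mem h with h | h
    · exact h0 (h𝔫.mem_of_pow_mem _ h)
    · exact h1 (h𝔫.mem_of_pow_mem _ h)
  · show j2 * ((lamB ^ 2 * (lamB - 1) ^ 2 : fc_chart A0 ({lam} : Set F0)) : F0) =
      ((256 * (lamB ^ 2 - lamB + 1) ^ 3 : fc_chart A0 ({lam} : Set F0)) : F0)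
    have e1 : ((lamB : fc_chart A0 ({lam} : Set F0)) : F0) = lam := rfl
    have e2 : (((256 : ℕ) : fc_chart A0 ({lam} : Set F0)) : F0) = ((256 : ℕ) : F0) :=
      map_natCast (algebraMap (fc_chart A0 ({lam} : Set F0)) F0) 256
    have e3 : ((256 : fc_chart A0 ({lam} : Set F0)) : F0) = 256 := by
      have h := e2
      simpa using h
    push_cast
    rw [e1, e3, hleg]
    ring

end Abs

section NF

variable (L : Type) [Field L] [NumberField L] [Algebra L (AlgebraicClosure ℚ)]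
  (O : ValuationSubring L) [IsDiscreteValuationRing O] {π : O} (hπ : Irreducible π)
variable (N' q : ℕ) [NeZero N'] [NeZero q] [hq : Fact q.Prime] [CharP (ResidueField O) q]
  (hq2 : ¬ 2 ∣ q) (hqN' : ¬ q ∣ N') (ζ : L) (hζ : IsPrimitiveRoot ζ N')

/-- the `λ`-chart of the Legendre cover has fraction field `E`. -/
theorem s44un_leg_isFractionRing (N : ℕ) [NeZero N] :
    IsFractionRing (fc_chart ↥O ({lg_lamE N} : Set ↥(lg_E L N))) ↥(lg_E L N) := by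
  haveI := ssm_go_isScalarTower O (lg_E L N)
  haveI := lgf_finite L N
  haveI : Algebra.IsAlgebraic (Algebra.adjoin ↥O ({lg_lamE N} : Set ↥(lg_E L N))) ↥(lg_E L N) :=
    fc_ff_isAlgebraic (L := L) (lg_lamE N)
  infer_instance

/-- the `λ`-chart of the Legendre cover is noetherian. -/
theorem s44un_leg_isNoetherianRing (N : ℕ) [NeZero N] :
    IsNoetherianRing (fc_chart ↥O ({lg_lamE N} : Set ↥(lg_E L N))) := by
  haveI := ssm_go_isScalarTower O (lg_E L N)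
  haveI := lgf_finite L N
  have hx : Transcendental L (lg_lamE (L := L) N) := lgf_lam_transcendental L N two_ne_zero
  have := fc_chart_isNoetherianRing (A0 := ↥O) (F0 := ↥(lg_E L N)) {lg_lamE N}
    (by rw [Finset.coe_singleton]; exact fc_ff_finite (L := L) hx)
  rwa [Finset.coe_singleton] at this

/-- the `λ`-chart of the Legendre cover is integrally closed. -/
theorem s44un_leg_isIntegrallyClosed (N : ℕ) [NeZero N] :
    IsIntegrallyClosed (fc_chart ↥O ({lg_lamE N} : Set ↥(lg_E L N))) := by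
  haveI := s44un_leg_isFractionRing L O N
  exact ssl_chart_isIntegrallyClosed {lg_lamE N}

include hζ in
/-- **the cusps are not crossing points** of the Legendre chart: `λ ∉ 𝔫` and `λ - 1 ∉ 𝔫` at every
prime `𝔫` of the `λ`-chart through which both components pass. -/
theorem s44un_cross_not_mem
    (𝔫 : Ideal (fc_chart ↥O ({lg_lamE (N' * q)} : Set ↥(lg_E L (N' * q))))) [h𝔫 : 𝔫.IsPrime]
    (h1 : ssm_tp_P (fc_chart ↥O ({lg_lamE (N' * q)} : Set ↥(lg_E L (N' * q))))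
      (ssm_gl_V1 O hπ N' q) ≤ 𝔫)
    (h2 : ssm_tp_P (fc_chart ↥O ({lg_lamE (N' * q)} : Set ↥(lg_E L (N' * q))))
      (ssm_gl_V2 O hπ N' q hq2 hqN') ≤ 𝔫) :
    (⟨lg_lamE (N' * q), fc_x_mem_chart _⟩ :
        fc_chart ↥O ({lg_lamE (N' * q)} : Set ↥(lg_E L (N' * q)))) ∉ 𝔫 ∧
      (⟨lg_lamE (N' * q), fc_x_mem_chart _⟩ :
        fc_chart ↥O ({lg_lamE (N' * q)} : Set ↥(lg_E L (N' * q)))) - 1 ∉ 𝔫 := by
  haveI := ssm_go_isScalarTower O (lg_E L (N' * q))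
  have hqO : ((q : ℕ) : O) ∈ maximalIdeal O := ssm_fln_q_mem L O q
  have hq2' : q ≠ 2 := ssm_fl_ne_two q hq2
  have hp := ssm_ll_prime L N' hπ q hqO hq2' hqN' ζ hζ
  have H := ssm_gl_hyp O hπ N' q hq2 hqN' hp.1
  have hx : Transcendental L (lg_lamE (L := L) (N' * q)) :=
    lgf_lam_transcendental L (N' * q) two_ne_zero
  have hC := ssm_tp_ff_chart (L := L) hπ hx
  haveI : IsIntegrallyClosed (Algebra.adjoin ↥O ({lg_lamE (N' * q)} : Set ↥(lg_E L (N' * q)))) :=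
    fc_ff_isIntegrallyClosed (fc_ff_transcendental (L := L) hx)
  haveI : FaithfulSMul (Algebra.adjoin ↥O ({lg_lamE (N' * q)} : Set ↥(lg_E L (N' * q))))
      ↥(lg_E L (N' * q)) :=
    (faithfulSMul_iff_algebraMap_injective _ _).2 Subtype.val_injective
  exact s44un_cross_not_mem_abs hq.out.two_le (ssm_fl_facts O hπ N' q hq2 hqN' hp.1)
    (fun b hb => hC.le H.over1 hb) (fun b hb => hC.le H.over2 hb) 𝔫 h1 h2

include hζ in
/-- `j(q²) ∈ B_𝔫` at a crossing point of the Legendre chart. -/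
theorem s44un_j_mem_loc
    [IsFractionRing (fc_chart ↥O ({lg_lamE (N' * q)} : Set ↥(lg_E L (N' * q)))) ↥(lg_E L (N' * q))]
    (𝔫 : Ideal (fc_chart ↥O ({lg_lamE (N' * q)} : Set ↥(lg_E L (N' * q))))) [h𝔫 : 𝔫.IsPrime]
    (h1 : ssm_tp_P (fc_chart ↥O ({lg_lamE (N' * q)} : Set ↥(lg_E L (N' * q))))
      (ssm_gl_V1 O hπ N' q) ≤ 𝔫)
    (h2 : ssm_tp_P (fc_chart ↥O ({lg_lamE (N' * q)} : Set ↥(lg_E L (N' * q))))
      (ssm_gl_V2 O hπ N' q hq2 hqN') ≤ 𝔫) :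
    s44uv_j2E L (N' * q) ∈ ssl_locSub ↥(lg_E L (N' * q)) 𝔫 := by
  obtain ⟨h0, h1'⟩ := s44un_cross_not_mem L O hπ N' q hq2 hqN' ζ hζ 𝔫 h1 h2
  exact s44un_j_mem_loc_abs (lgf_legendreE L (N' * q)) 𝔫 h0 h1'

include hζ in
/-- **no horizontal divisor**: the modular unit is a unit at every horizontal prime of `B_𝔫`, `𝔫` a
crossing point of the Legendre chart. -/
theorem s44un_hor
    [IsFractionRing (fc_chart ↥O ({lg_lamE (N' * q)} : Set ↥(lg_E L (N' * q)))) ↥(lg_E L (N' * q))]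
    [IsNoetherianRing (fc_chart ↥O ({lg_lamE (N' * q)} : Set ↥(lg_E L (N' * q))))]
    [IsIntegrallyClosed (fc_chart ↥O ({lg_lamE (N' * q)} : Set ↥(lg_E L (N' * q))))]
    (U1 : ↥(lg_F L (N' * q))) (hU1 : (U1 : LaurentSeries L) = mzb_qi_U L q)
    (𝔫 : Ideal (fc_chart ↥O ({lg_lamE (N' * q)} : Set ↥(lg_E L (N' * q))))) [h𝔫 : 𝔫.IsPrime]
    (h1 : ssm_tp_P (fc_chart ↥O ({lg_lamE (N' * q)} : Set ↥(lg_E L (N' * q))))
      (ssm_gl_V1 O hπ N' q) ≤ 𝔫)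
    (h2 : ssm_tp_P (fc_chart ↥O ({lg_lamE (N' * q)} : Set ↥(lg_E L (N' * q))))
      (ssm_gl_V2 O hπ N' q hq2 hqN') ≤ 𝔫)
    (𝔮 : Ideal (ssl_locSub ↥(lg_E L (N' * q)) 𝔫))
    (h𝔮 : ssl_Horiz (algebraMap (fc_chart ↥O ({lg_lamE (N' * q)} : Set ↥(lg_E L (N' * q))))
      (ssl_locSub ↥(lg_E L (N' * q)) 𝔫)
      (algebraMap ↥O (fc_chart ↥O ({lg_lamE (N' * q)} : Set ↥(lg_E L (N' * q)))) π)) 𝔮) :
    ssl_UnitAt (R := ↥(ssl_locSub ↥(lg_E L (N' * q)) 𝔫)) ↥(lg_E L (N' * q)) 𝔮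
      (lg_phiE (L := L) (N := N' * q) U1) := by
  haveI := ssm_go_isScalarTower O (lg_E L (N' * q))
  haveI := ssl_loc_isNoetherianRing (F0 := ↥(lg_E L (N' * q))) 𝔫
  haveI := ssl_loc_isIntegrallyClosed (F0 := ↥(lg_E L (N' * q))) 𝔫
  have hj := s44un_j_mem_loc L O hπ N' q hq2 hqN' ζ hζ 𝔫 h1 h2
  exact s44uv_unitAt_horiz L q (N' * q) (dvd_mul_left q N') (A0 := ↥O)
    (R := ↥(ssl_locSub ↥(lg_E L (N' * q)) 𝔫)) hπ 𝔮 h𝔮
    (⟨s44uv_j2E L (N' * q), hj⟩ : ↥(ssl_locSub ↥(lg_E L (N' * q)) 𝔫)) rfl U1 hU1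

include hζ in
set_option synthInstance.maxHeartbeats 400000 in
set_option maxHeartbeats 3200000 in
/-- **(U-NODE), THE NODE VALUE OF THE MODULAR UNIT.**  `𝔫` a crossing point of the `λ`-chart of the
Legendre cover over `(L, O, π)`, `(u, v)` the coordinates of a uniform node at `𝔫` (`u v = q`:
helper29's `s44mu_node`), `U1` a model over `L` of the modular unit `Δ(τ)/Δ(qτ)`.  Then EVERY
normalised order `ν` of `B_𝔫` along the branch of `P1` (the `∞`-component) with respect to the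
coordinate `u` takes the value `12` at `lg_phiE U1`. -/
theorem s44un_node
    [IsFractionRing (fc_chart ↥O ({lg_lamE (N' * q)} : Set ↥(lg_E L (N' * q)))) ↥(lg_E L (N' * q))]
    [IsNoetherianRing (fc_chart ↥O ({lg_lamE (N' * q)} : Set ↥(lg_E L (N' * q))))]
    [IsIntegrallyClosed (fc_chart ↥O ({lg_lamE (N' * q)} : Set ↥(lg_E L (N' * q))))]
    (U1 : ↥(lg_F L (N' * q))) (hU1 : (U1 : LaurentSeries L) = mzb_qi_U L q)
    (𝔫 : Ideal (fc_chart ↥O ({lg_lamE (N' * q)} : Set ↥(lg_E L (N' * q))))) [h𝔫 : 𝔫.IsPrime]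
    (h1 : ssm_tp_P (fc_chart ↥O ({lg_lamE (N' * q)} : Set ↥(lg_E L (N' * q))))
      (ssm_gl_V1 O hπ N' q) ≤ 𝔫)
    (h2 : ssm_tp_P (fc_chart ↥O ({lg_lamE (N' * q)} : Set ↥(lg_E L (N' * q))))
      (ssm_gl_V2 O hπ N' q hq2 hqN') ≤ 𝔫)
    {u v : ↥(lg_E L (N' * q))}
    (h : s44mu_NodeAtU π (fc_chart1_le (lg_lamE (N' * q) : ↥(lg_E L (N' * q))))
      (ssm_tp_P (fc_chart ↥O ({lg_lamE (N' * q), (lg_lamE (N' * q))⁻¹} :
        Set ↥(lg_E L (N' * q)))) (ssm_gl_V1 O hπ N' q))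
      (ssm_tp_P (fc_chart ↥O ({lg_lamE (N' * q), (lg_lamE (N' * q))⁻¹} :
        Set ↥(lg_E L (N' * q)))) (ssm_gl_V2 O hπ N' q hq2 hqN')) 𝔫 u v ((q : ℕ) : ↥O))
    (huS : u ∈ ssl_locSub ↥(lg_E L (N' * q)) 𝔫) :
    haveI := ssl_loc_isLocalRing (F0 := ↥(lg_E L (N' * q))) 𝔫
    haveI := ssl_loc_isNoetherianRing (F0 := ↥(lg_E L (N' * q))) 𝔫
    ∀ ν : ↥(lg_E L (N' * q)) → ℤ,
      s44nu_IsNu (algebraMap (fc_chart ↥O ({lg_lamE (N' * q)} : Set ↥(lg_E L (N' * q))))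
          (ssl_locSub ↥(lg_E L (N' * q)) 𝔫)
          (algebraMap ↥O (fc_chart ↥O ({lg_lamE (N' * q)} : Set ↥(lg_E L (N' * q)))) π))
        (⟨u, huS⟩ : ssl_locSub ↥(lg_E L (N' * q)) 𝔫)
        (s44tl_br 𝔫 (fc_chart1_le (lg_lamE (N' * q) : ↥(lg_E L (N' * q))))
          (ssm_tp_P (fc_chart ↥O ({lg_lamE (N' * q), (lg_lamE (N' * q))⁻¹} :
            Set ↥(lg_E L (N' * q)))) (ssm_gl_V1 O hπ N' q))) ν →
      ν (lg_phiE (L := L) (N := N' * q) U1) = 12 := by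
  intro ν hν
  haveI := ssl_loc_isLocalRing (F0 := ↥(lg_E L (N' * q))) 𝔫
  haveI := ssl_loc_isNoetherianRing (F0 := ↥(lg_E L (N' * q))) 𝔫
  haveI := ssm_go_isScalarTower O (lg_E L (N' * q))
  have hqO : ((q : ℕ) : O) ∈ maximalIdeal O := ssm_fln_q_mem L O q
  have hq2' : q ≠ 2 := ssm_fl_ne_two q hq2
  have hp := ssm_ll_prime L N' hπ q hqO hq2' hqN' ζ hζ
  have H := ssm_gl_hyp O hπ N' q hq2 hqN' hp.1
  have hx : Transcendental L (lg_lamE (L := L) (N' * q)) :=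
    lgf_lam_transcendental L (N' * q) two_ne_zero
  have hx0 : (lg_lamE (L := L) (N' * q)) ≠ 0 := fun h0 => hx (h0 ▸ isAlgebraic_zero)
  have hC := ssm_tp_ff_chart (L := L) hπ hx
  have hC12 := ssm_tp_ff_chart12 (L := L) hπ hx
  haveI : IsIntegrallyClosed (Algebra.adjoin ↥O ({lg_lamE (N' * q)} : Set ↥(lg_E L (N' * q)))) :=
    fc_ff_isIntegrallyClosed (fc_ff_transcendental (L := L) hx)
  haveI : FaithfulSMul (Algebra.adjoin ↥O ({lg_lamE (N' * q)} : Set ↥(lg_E L (N' * q))))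
      ↥(lg_E L (N' * q)) :=
    (faithfulSMul_iff_algebraMap_injective _ _).2 Subtype.val_injective
  obtain ⟨hP1, hP2, hrad, -, -⟩ := ssm_gl_model O hπ N' q hq2 hqN' hp.1
  haveI := hP1
  haveI := hP2
  have hBV1 : ∀ b ∈ fc_chart ↥O ({lg_lamE (N' * q)} : Set ↥(lg_E L (N' * q))),
      b ∈ ssm_gl_V1 O hπ N' q := fun b hb => hC.le H.over1 hb
  have hB12V1 : ∀ b ∈ fc_chart ↥O ({lg_lamE (N' * q), (lg_lamE (N' * q))⁻¹} :
      Set ↥(lg_E L (N' * q))), b ∈ ssm_gl_V1 O hπ N' q := fun b hb => hC12.le H.over1 hb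
  have hB12V2 : ∀ b ∈ fc_chart ↥O ({lg_lamE (N' * q), (lg_lamE (N' * q))⁻¹} :
      Set ↥(lg_E L (N' * q))), b ∈ ssm_gl_V2 O hπ N' q hq2 hqN' := fun b hb => hC12.le H.over2 hb
  -- `π ∈ 𝔫`
  have hϖ0 : algebraMap ↥O ↥(lg_E L (N' * q)) π ≠ 0 := H.algebraMap_ne_zero
  have hπ𝔫 : algebraMap ↥O (fc_chart ↥O ({lg_lamE (N' * q)} : Set ↥(lg_E L (N' * q)))) π ∈ 𝔫 :=
    h1 ((ssm_tp_mem_P hBV1).2 H.over1.pi_mem)
  obtain ⟨huv, hu, hv, hgen, hu1, hv2⟩ := h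
  -- `v ∈ B_𝔫`
  have hvS : v ∈ ssl_locSub ↥(lg_E L (N' * q)) 𝔫 := by
    obtain ⟨s, t, hs, -, hst⟩ := hv
    rw [ssl_mem_locSub]
    exact ⟨t, s, hs, (mul_comm _ _).trans hst⟩
  -- the two vertical values
  have hG1 := s44un_V1 O hπ N' q U1 hU1
  have hG2 := s44un_V2 O hπ N' q hq2 hqN' U1 hU1
  have hcast : algebraMap L ↥(lg_E L (N' * q)) ((q : L) ^ 12) =
      algebraMap ↥O ↥(lg_E L (N' * q)) ((q : ℕ) : ↥O) ^ (12 : ℤ) := by
    rw [map_natCast, map_pow, map_natCast]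
    norm_cast
  rw [hcast] at hG2
  exact s44un_chart_node (hle := fc_chart1_le (lg_lamE (N' * q) : ↥(lg_E L (N' * q)))) hπ hϖ0 hπ𝔫
    hrad (sfc_ff_mem_S (L := L) hπ hx) (fun z hz => fc_clear1 hx0 hz) huv hu hv hgen hu1 hv2 huS hvS
    (ssm_gl_V1 O hπ N' q) (ssm_gl_V2 O hπ N' q hq2 hqN')
    (fun b => hB12V1 b b.2) (fun b => hB12V2 b b.2)
    (fun b => ssm_tp_mem_P hB12V1) (fun b => ssm_tp_mem_P hB12V2)
    (fun 𝔮 h𝔮 => s44un_hor L O hπ N' q hq2 hqN' ζ hζ U1 hU1 𝔫 h1 h2 𝔮 h𝔮) 12 hG1 hG2 hν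

include hζ in
set_option synthInstance.maxHeartbeats 400000 in
set_option maxHeartbeats 3200000 in
/-- **(U-NODE) = `s44mu_node` + `s44un_node`**: at every maximal crossing point `𝔫` of the
`λ`-chart there is a uniform node `(u, v)`, `u v = q`, fixed by all inert automorphisms, such that
every normalised order of `B_𝔫` along the branch of `P1` w.r.t. `u` takes the value `12` at the
modular unit. -/
theorem s44un_node_exists
    [IsFractionRing (fc_chart ↥O ({lg_lamE (N' * q)} : Set ↥(lg_E L (N' * q)))) ↥(lg_E L (N' * q))]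
    [IsNoetherianRing (fc_chart ↥O ({lg_lamE (N' * q)} : Set ↥(lg_E L (N' * q))))]
    [IsIntegrallyClosed (fc_chart ↥O ({lg_lamE (N' * q)} : Set ↥(lg_E L (N' * q))))]
    (U1 : ↥(lg_F L (N' * q))) (hU1 : (U1 : LaurentSeries L) = mzb_qi_U L q)
    (𝔫 : Ideal (fc_chart ↥O ({lg_lamE (N' * q)} : Set ↥(lg_E L (N' * q))))) (h𝔫 : 𝔫.IsMaximal)
    (h1 : ssm_tp_P (fc_chart ↥O ({lg_lamE (N' * q)} : Set ↥(lg_E L (N' * q))))
      (ssm_gl_V1 O hπ N' q) ≤ 𝔫)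
    (h2 : ssm_tp_P (fc_chart ↥O ({lg_lamE (N' * q)} : Set ↥(lg_E L (N' * q))))
      (ssm_gl_V2 O hπ N' q hq2 hqN') ≤ 𝔫) :
    haveI := h𝔫.isPrime
    haveI := ssl_loc_isLocalRing (F0 := ↥(lg_E L (N' * q))) 𝔫
    haveI := ssl_loc_isNoetherianRing (F0 := ↥(lg_E L (N' * q))) 𝔫
    ∃ u v : ↥(lg_E L (N' * q)),
      s44mu_NodeAtU π (fc_chart1_le (lg_lamE (N' * q) : ↥(lg_E L (N' * q))))
        (ssm_tp_P (fc_chart ↥O ({lg_lamE (N' * q), (lg_lamE (N' * q))⁻¹} :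
          Set ↥(lg_E L (N' * q)))) (ssm_gl_V1 O hπ N' q))
        (ssm_tp_P (fc_chart ↥O ({lg_lamE (N' * q), (lg_lamE (N' * q))⁻¹} :
          Set ↥(lg_E L (N' * q)))) (ssm_gl_V2 O hπ N' q hq2 hqN')) 𝔫 u v ((q : ℕ) : ↥O) ∧
      (∀ (σ : L ≃+* L), ss_Inert O σ →
        ssm_sg_aut (N' * q) σ u = u ∧ ssm_sg_aut (N' * q) σ v = v) ∧
      ∀ (huS : u ∈ ssl_locSub ↥(lg_E L (N' * q)) 𝔫) (ν : ↥(lg_E L (N' * q)) → ℤ),
        s44nu_IsNu (algebraMap (fc_chart ↥O ({lg_lamE (N' * q)} : Set ↥(lg_E L (N' * q))))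
            (ssl_locSub ↥(lg_E L (N' * q)) 𝔫)
            (algebraMap ↥O (fc_chart ↥O ({lg_lamE (N' * q)} : Set ↥(lg_E L (N' * q)))) π))
          (⟨u, huS⟩ : ssl_locSub ↥(lg_E L (N' * q)) 𝔫)
          (s44tl_br 𝔫 (fc_chart1_le (lg_lamE (N' * q) : ↥(lg_E L (N' * q))))
            (ssm_tp_P (fc_chart ↥O ({lg_lamE (N' * q), (lg_lamE (N' * q))⁻¹} :
              Set ↥(lg_E L (N' * q)))) (ssm_gl_V1 O hπ N' q))) ν →
        ν (lg_phiE (L := L) (N := N' * q) U1) = 12 := by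
  haveI := h𝔫.isPrime
  obtain ⟨u, v, huv, hfix⟩ := s44mu_node L O hπ N' q hq2 hqN' ζ hζ 𝔫 h𝔫 h1 h2
  exact ⟨u, v, huv, hfix, fun huS ν hν =>
    s44un_node L O hπ N' q hq2 hqN' ζ hζ U1 hU1 𝔫 h1 h2 huv huS ν hν⟩

end NF

end Fermat.Agent.S44
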