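/-
Project S44 (Mazur–Ribet at `p`), cell [H2-N]: (ND-SS) = THE SUPERSINGULAR NODE PACKAGE AT A NUMBER
FIELD (helper1; request #4222 of helper4, the one input of [H2] Layer 3 from [H2-N]).
Prefix `s44ndss_`.  Namespace `Fermat.Agent.S44`.

`Q` a SUPERSINGULAR place of `FF_M / kA` (`s44e_IsSS`).  Over every number field `L1 ⊆ ℚ̄` containing a
finite set `T₀` (so that the modular unit has a model over `L1`) and a primitive `M`-th root of unity,
with `O1 = A ∩ L1` a DVR with uniformiser `π`:  there are a MAXIMAL ideal `𝔫` of the `λ`-chart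
`B = fc_chart O1 {λ}` of the Legendre model, lying on BOTH components, the uniform node `u v = p` of
helper29's `s44mu_node` at `𝔫` (fixed by the inert automorphisms), `T > 0` and the normalised order `ν`
of `B_𝔫` along the `∞`-branch w.r.t. `u` (`s44nu_IsNu`) with

  `ν (φ b) = T · ord_Q (red b)`  for every unit `b` of the Gauss ring `W1 = s44mz_VF O1 hπ M p`,
  `T · ord_Q (ū) = 12`            (`ū = s44e_ubar A M p`, the reduction of the modular unit).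

* `s44ndss_at`   : the package over a given `L1`, from a model `U1` of the modular unit over `L1`;
* `s44ndss_main` : the `∃ T₀, ∀ L1 ⊇ T₀` form requested in #4222.

`= s44ndl_exists_ext + s44ndl_centre_A + s44ndl_node_A` (helper1, `Mono/NodeDictLeg.lean`)
`+ s44un_node` (helper28) `+ s44eu_*` (helper15) `+ s44us_model_isUnit` (helper26).
-/
import Mathlib
import Fermat.Agent.S44.Mono.NodeDictLeg
import Fermat.Agent.S44.Mono.UnitNodeInst
import Fermat.Agent.S44.Mono.MainNorm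
import Fermat.Agent.S44.Res.UbarNF
import Fermat.Agent.S44.Res.UDivSmoothOut

set_option autoImplicit false
set_option linter.unusedSectionVars false
set_option linter.style.haveILetI false
set_option linter.unusedVariables false
set_option synthInstance.maxHeartbeats 400000
set_option maxHeartbeats 1600000

noncomputable section

namespace Fermat.Agent.S44

open Polynomial ModularCurve AlgebraicCurve IntermediateField IsLocalRing
open Fermat.Agent.JT3 Fermat.Agent.SS Fermat.Agent.S35 Fermat.Agent.S24 Fermat.Agent.S28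
  Fermat.Agent.MZ

section SS

local notation "Qb" => AlgebraicClosure ℚ

variable (A : ValuationSubring Qb) {p : ℕ} [hp : Fact p.Prime] (hA : A.LiesOverPrime p)
  (M : ℕ) [NeZero M] [NeZero p] [NeZero (M * p)] (hpM : ¬ p ∣ M) (hp2 : ¬ 2 ∣ p)

include hA in
/-- **(ND-SS) over a given number field `L1`**, from a model `U1` of the modular unit over `L1`. -/
theorem s44ndss_at (L1 : IntermediateField ℚ Qb) [NumberField ↥L1]
    [IsDiscreteValuationRing ↥(A.comap (algebraMap L1 Qb))]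
    [CharP (ResidueField ↥(A.comap (algebraMap L1 Qb))) p]
    {π : ↥(A.comap (algebraMap L1 Qb))} (hπ : Irreducible π)
    (ζ : ↥L1) (hζ : IsPrimitiveRoot ζ M)
    (Q : Place (s44e_kA A) ↥(s44e_FF A M)) (hQ : s44e_IsSS A M p hp.out hpM Q)
    (U1 : ↥(lg_F L1 (M * p)))
    (hU1 : ssm_al_iotaF L1 (M * p) U1 = s44hu_U p (M * p) (s44hu_dvd (rfl : M * p = M * p))) :
    ∃ (𝔫 : Ideal ↥(fc_chart ↥(A.comap (algebraMap L1 Qb))
          ({lg_lamE (M * p)} : Set ↥(lg_E L1 (M * p)))))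
      (h𝔫 : 𝔫.IsMaximal) (u v : ↥(lg_E L1 (M * p))) (T : ℕ) (ν : ↥(lg_E L1 (M * p)) → ℤ),
      haveI := (s44ndl_chart_inst (A.comap (algebraMap L1 Qb)) M p (L := L1)).1
      haveI := (s44ndl_chart_inst (A.comap (algebraMap L1 Qb)) M p (L := L1)).2.1
      haveI := (s44ndl_chart_inst (A.comap (algebraMap L1 Qb)) M p (L := L1)).2.2
      haveI := h𝔫.isPrime
      haveI := ssl_loc_isLocalRing (F0 := ↥(lg_E L1 (M * p))) 𝔫
      haveI := ssl_loc_isNoetherianRing (F0 := ↥(lg_E L1 (M * p))) 𝔫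
      ssm_tp_P (fc_chart ↥(A.comap (algebraMap L1 Qb))
          ({lg_lamE (M * p)} : Set ↥(lg_E L1 (M * p))))
          (ssm_gl_V1 (A.comap (algebraMap L1 Qb)) hπ M p) ≤ 𝔫 ∧
      ssm_tp_P (fc_chart ↥(A.comap (algebraMap L1 Qb))
          ({lg_lamE (M * p)} : Set ↥(lg_E L1 (M * p))))
          (ssm_gl_V2 (A.comap (algebraMap L1 Qb)) hπ M p hp2 hpM) ≤ 𝔫 ∧
      s44mu_NodeAtU π (fc_chart1_le (lg_lamE (M * p) : ↥(lg_E L1 (M * p))))
        (ssm_tp_P (fc_chart ↥(A.comap (algebraMap L1 Qb))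
          ({lg_lamE (M * p), (lg_lamE (M * p))⁻¹} : Set ↥(lg_E L1 (M * p))))
          (ssm_gl_V1 (A.comap (algebraMap L1 Qb)) hπ M p))
        (ssm_tp_P (fc_chart ↥(A.comap (algebraMap L1 Qb))
          ({lg_lamE (M * p), (lg_lamE (M * p))⁻¹} : Set ↥(lg_E L1 (M * p))))
          (ssm_gl_V2 (A.comap (algebraMap L1 Qb)) hπ M p hp2 hpM))
        𝔫 u v ((p : ℕ) : ↥(A.comap (algebraMap L1 Qb))) ∧
      (∀ (σ : ↥L1 ≃+* ↥L1), ss_Inert (A.comap (algebraMap L1 Qb)) σ →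
        ssm_sg_aut (M * p) σ u = u ∧ ssm_sg_aut (M * p) σ v = v) ∧
      0 < T ∧
      (∃ huS : u ∈ ssl_locSub ↥(lg_E L1 (M * p)) 𝔫,
        s44nu_IsNu
          (algebraMap ↥(fc_chart ↥(A.comap (algebraMap L1 Qb))
              ({lg_lamE (M * p)} : Set ↥(lg_E L1 (M * p))))
            ↥(ssl_locSub ↥(lg_E L1 (M * p)) 𝔫)
            (algebraMap ↥(A.comap (algebraMap L1 Qb))
              ↥(fc_chart ↥(A.comap (algebraMap L1 Qb))
                ({lg_lamE (M * p)} : Set ↥(lg_E L1 (M * p)))) π))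
          (⟨u, huS⟩ : ↥(ssl_locSub ↥(lg_E L1 (M * p)) 𝔫))
          (s44tl_br 𝔫 (fc_chart1_le (lg_lamE (M * p) : ↥(lg_E L1 (M * p))))
            (ssm_tp_P (fc_chart ↥(A.comap (algebraMap L1 Qb))
              ({lg_lamE (M * p), (lg_lamE (M * p))⁻¹} : Set ↥(lg_E L1 (M * p))))
              (ssm_gl_V1 (A.comap (algebraMap L1 Qb)) hπ M p))) ν) ∧
      (∀ b : ↥(s44mz_VF (A.comap (algebraMap L1 Qb)) hπ M p), IsUnit b →
        ν (lg_phiE (L := ↥L1) (N := M * p) (b : ↥(lg_F L1 (M * p)))) =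
          (T : ℤ) * Q.ord (s44nlr_red A hA M hpM L1 hπ b : ↥(s44e_FF A M))) ∧
      (T : ℤ) * Q.ord (s44e_ubar A M p) = 12 := by
  obtain ⟨𝒲, hext⟩ := s44ndl_exists_ext A hA M hp2 hpM L1 hπ Q
  have hc := s44ndl_centre_A A hA M hp2 hpM L1 hπ ζ hζ Q 𝒲 hext hQ.1
  have h𝔫 : (s44ndl_n L1 (A.comap (algebraMap L1 Qb)) hπ M p hp2 hpM 𝒲).IsMaximal :=
    hc.2.2.2.2.1
  have hP1 := hc.2.2.2.2.2.2.2
  haveI := (s44ndl_chart_inst (A.comap (algebraMap L1 Qb)) M p (L := L1)).1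
  haveI := (s44ndl_chart_inst (A.comap (algebraMap L1 Qb)) M p (L := L1)).2.1
  haveI := (s44ndl_chart_inst (A.comap (algebraMap L1 Qb)) M p (L := L1)).2.2
  haveI := h𝔫.isPrime
  haveI := ssl_loc_isLocalRing (F0 := ↥(lg_E L1 (M * p)))
    (s44ndl_n L1 (A.comap (algebraMap L1 Qb)) hπ M p hp2 hpM 𝒲)
  haveI := ssl_loc_isNoetherianRing (F0 := ↥(lg_E L1 (M * p)))
    (s44ndl_n L1 (A.comap (algebraMap L1 Qb)) hπ M p hp2 hpM 𝒲)
  obtain ⟨hP2, u, v, hU, hfix, huS, T, ν, hT, hν, hunit⟩ :=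
    s44ndl_node_A A hA M hp2 hpM L1 hπ ζ hζ Q 𝒲 hext hQ h𝔫
  refine ⟨s44ndl_n L1 (A.comap (algebraMap L1 Qb)) hπ M p hp2 hpM 𝒲, h𝔫, u, v, T, ν, hP1, hP2, hU,
    hfix, hT, ⟨huS, hν⟩, hunit, ?_⟩
  -- the modular unit
  have hU1' : ((U1 : ↥(lg_F L1 (M * p))) : LaurentSeries L1) = mzb_qi_U L1 p :=
    s44eu_model_coe L1 p (M * p) (s44hu_dvd (rfl : M * p = M * p)) hU1
  have hmem : U1 ∈ s44mz_VF (A.comap (algebraMap L1 Qb)) hπ M p :=
    (s44mm_mem_VF_iff A hA M L1 hπ U1).2 (s44eu_model_mem A hA M L1 hU1)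
  have hu1 : IsUnit (⟨U1, hmem⟩ : ↥(s44mz_VF (A.comap (algebraMap L1 Qb)) hπ M p)) :=
    s44us_model_isUnit A M L1 hπ ⟨U1, hmem⟩ hU1'
  have h12 := s44un_node ↥L1 (A.comap (algebraMap L1 Qb)) hπ M p hp2 hpM ζ hζ U1 hU1'
    (s44ndl_n L1 (A.comap (algebraMap L1 Qb)) hπ M p hp2 hpM 𝒲) hP1 hP2 hU huS ν hν
  have hred : s44nlr_red A hA M hpM L1 hπ ⟨U1, hmem⟩ = s44e_ubar A M p := by
    rw [s44nlr_red_apply]
    exact s44eu_red_model A hA M hpM L1 hU1 _
  rw [← hred, ← hunit _ hu1]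
  exact h12

include hA in
/-- **(ND-SS)**, the form of request #4222: `Q` supersingular; over every number field `L1 ⊇ T₀`
(with `O1 = A ∩ L1` a DVR, `π` a uniformiser, `ζ ∈ L1` a primitive `M`-th root of unity) the
supersingular node package `(𝔫, u, v, T, ν)`. -/
theorem s44ndss_main (Q : Place (s44e_kA A) ↥(s44e_FF A M))
    (hQ : s44e_IsSS A M p hp.out hpM Q) :
    ∃ T₀ : Finset Qb, ∀ (L1 : IntermediateField ℚ Qb) [FiniteDimensional ℚ L1],
      (↑T₀ : Set Qb) ⊆ L1 →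
      ∀ [IsDiscreteValuationRing ↥(A.comap (algebraMap L1 Qb))]
        [CharP (ResidueField ↥(A.comap (algebraMap L1 Qb))) p]
        {π : ↥(A.comap (algebraMap L1 Qb))} (hπ : Irreducible π)
        (ζ : ↥L1) (hζ : IsPrimitiveRoot ζ M),
      ∃ (𝔫 : Ideal ↥(fc_chart ↥(A.comap (algebraMap L1 Qb))
            ({lg_lamE (M * p)} : Set ↥(lg_E L1 (M * p)))))
        (h𝔫 : 𝔫.IsMaximal) (u v : ↥(lg_E L1 (M * p))) (T : ℕ) (ν : ↥(lg_E L1 (M * p)) → ℤ),
        haveI := (s44ndl_chart_inst (A.comap (algebraMap L1 Qb)) M p (L := L1)).1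
        haveI := (s44ndl_chart_inst (A.comap (algebraMap L1 Qb)) M p (L := L1)).2.1
        haveI := (s44ndl_chart_inst (A.comap (algebraMap L1 Qb)) M p (L := L1)).2.2
        haveI := h𝔫.isPrime
        haveI := ssl_loc_isLocalRing (F0 := ↥(lg_E L1 (M * p))) 𝔫
        haveI := ssl_loc_isNoetherianRing (F0 := ↥(lg_E L1 (M * p))) 𝔫
        ssm_tp_P (fc_chart ↥(A.comap (algebraMap L1 Qb))
            ({lg_lamE (M * p)} : Set ↥(lg_E L1 (M * p))))
            (ssm_gl_V1 (A.comap (algebraMap L1 Qb)) hπ M p) ≤ 𝔫 ∧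
        ssm_tp_P (fc_chart ↥(A.comap (algebraMap L1 Qb))
            ({lg_lamE (M * p)} : Set ↥(lg_E L1 (M * p))))
            (ssm_gl_V2 (A.comap (algebraMap L1 Qb)) hπ M p hp2 hpM) ≤ 𝔫 ∧
        s44mu_NodeAtU π (fc_chart1_le (lg_lamE (M * p) : ↥(lg_E L1 (M * p))))
          (ssm_tp_P (fc_chart ↥(A.comap (algebraMap L1 Qb))
            ({lg_lamE (M * p), (lg_lamE (M * p))⁻¹} : Set ↥(lg_E L1 (M * p))))
            (ssm_gl_V1 (A.comap (algebraMap L1 Qb)) hπ M p))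
          (ssm_tp_P (fc_chart ↥(A.comap (algebraMap L1 Qb))
            ({lg_lamE (M * p), (lg_lamE (M * p))⁻¹} : Set ↥(lg_E L1 (M * p))))
            (ssm_gl_V2 (A.comap (algebraMap L1 Qb)) hπ M p hp2 hpM))
          𝔫 u v ((p : ℕ) : ↥(A.comap (algebraMap L1 Qb))) ∧
        (∀ (σ : ↥L1 ≃+* ↥L1), ss_Inert (A.comap (algebraMap L1 Qb)) σ →
          ssm_sg_aut (M * p) σ u = u ∧ ssm_sg_aut (M * p) σ v = v) ∧
        0 < T ∧
        (∃ huS : u ∈ ssl_locSub ↥(lg_E L1 (M * p)) 𝔫,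
          s44nu_IsNu
            (algebraMap ↥(fc_chart ↥(A.comap (algebraMap L1 Qb))
                ({lg_lamE (M * p)} : Set ↥(lg_E L1 (M * p))))
              ↥(ssl_locSub ↥(lg_E L1 (M * p)) 𝔫)
              (algebraMap ↥(A.comap (algebraMap L1 Qb))
                ↥(fc_chart ↥(A.comap (algebraMap L1 Qb))
                  ({lg_lamE (M * p)} : Set ↥(lg_E L1 (M * p)))) π))
            (⟨u, huS⟩ : ↥(ssl_locSub ↥(lg_E L1 (M * p)) 𝔫))
            (s44tl_br 𝔫 (fc_chart1_le (lg_lamE (M * p) : ↥(lg_E L1 (M * p))))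
              (ssm_tp_P (fc_chart ↥(A.comap (algebraMap L1 Qb))
                ({lg_lamE (M * p), (lg_lamE (M * p))⁻¹} : Set ↥(lg_E L1 (M * p))))
                (ssm_gl_V1 (A.comap (algebraMap L1 Qb)) hπ M p))) ν) ∧
        (∀ b : ↥(s44mz_VF (A.comap (algebraMap L1 Qb)) hπ M p), IsUnit b →
          ν (lg_phiE (L := ↥L1) (N := M * p) (b : ↥(lg_F L1 (M * p)))) =
            (T : ℤ) * Q.ord (s44nlr_red A hA M hpM L1 hπ b : ↥(s44e_FF A M))) ∧
        (T : ℤ) * Q.ord (s44e_ubar A M p) = 12 := by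
  obtain ⟨T₀, hT₀⟩ := s44eu_exists_model p (M * p) (s44hu_dvd (rfl : M * p = M * p))
  refine ⟨T₀, fun L1 _ hT _ _ π hπ ζ hζ => ?_⟩
  haveI : NumberField ↥L1 := { to_charZero := inferInstance, to_finiteDimensional := inferInstance }
  obtain ⟨U1, hU1⟩ := hT₀ L1 hT
  exact s44ndss_at A hA M hpM hp2 L1 hπ ζ hζ Q hQ U1 hU1

end SS

end Fermat.Agent.S44
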