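/-
Project S44 (Mazur–Ribet at `p`), cell [H2] MONO-MAIN (helper4).  Prefix `s44h2_`.

**[H2] MONO-MAIN**: `s44bg_Mono_stmt (s44_frame2 P M hpM) (s44e_k2 …) (s44e_nu …)` from the
supersingular node packages (ND-SS) (`Mono/MainND.lean`).

For fixed `(X, V, a, β)` and two supersingular places `i, i'`: uniformise the Kummer data over a
large normal number field `L'` (`s44mr_unif` for `X ≠ 0`, `s44kx_unif_triv` for `X = 0`), restrict the
Kummer package to the image `Γ|L'` of the inertia group, and apply the pairwise slope equality at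
`L'` (`Mono/MainPair.lean`); conclude by `s44mm_mono_of_pair`.  (ND-SS) itself is helper1's `s44ndss_ndss`
(`Mono/NodeDictSSDef.lean`): `s44h2_mono` is the final theorem.
-/
import Mathlib
import Fermat.Agent.S44.Mono.MainPair
import Fermat.Agent.S44.Mono.RationalUnif
import Fermat.Agent.S44.Mono.KummerTriv
import Fermat.Agent.S44.Bridge.NF
import Fermat.Agent.S44.Mono.NodeDictSSDef

set_option autoImplicit false
set_option linter.unusedSectionVars false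
set_option linter.style.haveILetI false
set_option linter.unusedVariables false

noncomputable section

namespace Fermat.Agent.S44

open Polynomial ModularCurve AlgebraicCurve IntermediateField IsLocalRing
open Fermat.Agent.JT3 Fermat.Agent.SS Fermat.Agent.S35 Fermat.Agent.S24

local notation "Qb" => AlgebraicClosure ℚ

section Main

set_option synthInstance.maxHeartbeats 400000

variable (P : FreyPackage) (M : ℕ) [NeZero M] [NeZero (M * P.p)] (hpM : ¬ P.p ∣ M)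

attribute [local instance] s44kq_lsAction

/-- `p` is odd. -/
theorem s44h2_two_not_dvd : ¬ 2 ∣ P.p := by
  intro h
  have h1 := (Nat.prime_dvd_prime_iff_eq Nat.prime_two P.pp).1 h
  have h2 := P.hp5
  omega

set_option maxHeartbeats 3200000 in
/-- **the pairwise form of [H2] MONO-MAIN** from (ND-SS). -/
theorem s44h2_pairs
    (hND : ∀ Q : Place (s44e_kA (s44f_A P.p P.pp)) (s44e_FF (s44f_A P.p P.pp) M),
      s44e_IsSS (s44f_A P.p P.pp) M P.p P.pp hpM Q →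
      haveI : Fact P.p.Prime := ⟨P.pp⟩
      s44h2_NDSS (s44f_A P.p P.pp) (s44f_A_liesOver P.p P.pp) M hpM (s44h2_two_not_dvd P) Q)
    (X V : JZero (M * P.p)) (a : s44_G → ℕ) (β : s44_Qb)
    (hX : P.p • X = 0) (hV : P.p • V = 0)
    (hchi : (s44_frame2 P M hpM).ChiEigen X)
    (hext : ∀ σ ∈ (s44_frame2 P M hpM).Γ, σ • V = V + a σ • X)
    (hβ0 : β ≠ 0) (hβA : β ∈ (s44_frame2 P M hpM).A) (hβiA : β⁻¹ ∈ (s44_frame2 P M hpM).A)
    (hβ : ∀ σ ∈ (s44_frame2 P M hpM).Γ, σ β = (s44_frame2 P M hpM).ζ ^ a σ * β)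
    (hsplit : (s44_frame2 P M hpM).Split X)
    (i i' : s44e_Sg (s44f_A P.p P.pp) M P.p P.pp hpM) :
    s44e_k2 (s44f_A P.p P.pp) M P.p P.pp hpM i * s44e_nu (s44f_A P.p P.pp) M P.p P.pp hpM V i =
      s44e_k2 (s44f_A P.p P.pp) M P.p P.pp hpM i' *
        s44e_nu (s44f_A P.p P.pp) M P.p P.pp hpM V i' := by
  classical
  haveI : Fact P.p.Prime := ⟨P.pp⟩
  have hA := s44f_A_liesOver P.p P.pp
  have hp5 := P.hp5
  have hp2 := s44h2_two_not_dvd P
  have hζ : IsPrimitiveRoot (s44_frame2 P M hpM).ζ P.p := s44_frame2_zeta_spec P M hpM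
  obtain ⟨T₀, hT₀⟩ := hND i.1 i.2
  obtain ⟨T₀', hT₀'⟩ := hND i'.1 i'.2
  haveI : NeZero ((M : ℕ) : Qb) := ⟨by exact_mod_cast (NeZero.ne M)⟩
  obtain ⟨ζM, hζM⟩ := HasEnoughRootsOfUnity.exists_primitiveRoot Qb M
  by_cases hX0 : X = 0
  · -- the trivial Kummer cover
    obtain ⟨T₂, fV, cbar, gbar, Φbar, hRV, hall⟩ :=
      s44kx_unif_triv (M * P.p) hζ β hX V hβ0 hV hX0
    obtain ⟨L', hfd, hn, hTL', -⟩ := s44b_exists_nf (M * P.p) ∅ (T₂ ∪ T₀ ∪ T₀' ∪ {ζM})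
    have hTL'' : ∀ x ∈ (T₂ ∪ T₀ ∪ T₀' ∪ {ζM} : Finset Qb), x ∈ L' :=
      fun x hx => hTL' (Finset.mem_coe.2 hx)
    have s1 : (↑T₂ : Set Qb) ⊆ L' := fun x hx => hTL'' x (by
      simp only [Finset.mem_union]; exact Or.inl (Or.inl (Or.inl (Finset.mem_coe.1 hx))))
    have s2 : (↑T₀ : Set Qb) ⊆ L' := fun x hx => hTL'' x (by
      simp only [Finset.mem_union]; exact Or.inl (Or.inl (Or.inr (Finset.mem_coe.1 hx))))
    have s3 : (↑T₀' : Set Qb) ⊆ L' := fun x hx => hTL'' x (by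
      simp only [Finset.mem_union]; exact Or.inl (Or.inr (Finset.mem_coe.1 hx)))
    have s4 : ζM ∈ L' := hTL'' ζM (Finset.mem_union_right _ (Finset.mem_singleton_self ζM))
    haveI := hfd
    haveI := hn
    haveI : NumberField ↥L' := { to_charZero := inferInstance, to_finiteDimensional := hfd }
    haveI hdvr : IsDiscreteValuationRing ↥((s44f_A P.p P.pp).comap (algebraMap ↥L' Qb)) :=
      dsc_isDVR_comap_numberField (s44f_A P.p P.pp) P.p hA P.pp.ne_zero ↥L'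
    haveI : CharP (IsLocalRing.ResidueField ↥((s44f_A P.p P.pp).comap (algebraMap ↥L' Qb))) P.p :=
      ss_nfl_charP_residue (lg_natCast_mem_maximalIdeal (s44f_A P.p P.pp) hA ↥L')
    obtain ⟨π, hπ⟩ := IsDiscreteValuationRing.exists_irreducible
      ↥((s44f_A P.p P.pp).comap (algebraMap ↥L' Qb))
    have hζM' : IsPrimitiveRoot (⟨ζM, s4⟩ : ↥L') M :=
      (IsPrimitiveRoot.map_iff_of_injective (f := algebraMap ↥L' Qb)
        (FaithfulSMul.algebraMap_injective ↥L' Qb)).1 hζM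
    obtain ⟨fv1, c, g, Φ, hfv1, hc0, hg0, hΦ, hσΦ, -, -, -, hRΦ⟩ := hall L' hfd hn s1
    have hle := s44mn_inertia_le_G (s44_frame2 P M hpM) hζ hX hchi hext hβ L'
    exact s44h2_pair_nf_triv (s44f_A P.p P.pp) hA M hpM hp2 hp5 L' hπ ⟨ζM, s4⟩ hζM' hV
      (by rw [hfv1]; exact hRV) hc0 hg0 hΦ (fun σ => hσΦ ⟨σ.1, hle σ.2⟩) hRΦ i i'
      (hT₀ L' s2 hπ) (hT₀' L' s3 hπ)
  · -- the Kummer cover of `X ≠ 0`
    obtain ⟨T₂, fX, fV, ybar, cbar, gbar, Φbar, hbar, hRX, hRV, hlc, hyb, hall⟩ :=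
      s44mr_unif (M * P.p) hp5 hζ β hX V hβ0 hV hX0
    obtain ⟨TX, hTX⟩ := s44mci_inst_frame P M hpM hp2 hsplit hRX
    obtain ⟨L', hfd, hn, hTL', -⟩ :=
      s44b_exists_nf (M * P.p) ∅ (T₂ ∪ TX ∪ T₀ ∪ T₀' ∪ {ζM})
    have hTL'' : ∀ x ∈ (T₂ ∪ TX ∪ T₀ ∪ T₀' ∪ {ζM} : Finset Qb), x ∈ L' :=
      fun x hx => hTL' (Finset.mem_coe.2 hx)
    have s1 : (↑T₂ : Set Qb) ⊆ L' := fun x hx => hTL'' x (by
      simp only [Finset.mem_union]
      exact Or.inl (Or.inl (Or.inl (Or.inl (Finset.mem_coe.1 hx)))))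
    have s1' : (↑TX : Set Qb) ⊆ L' := fun x hx => hTL'' x (by
      simp only [Finset.mem_union]
      exact Or.inl (Or.inl (Or.inl (Or.inr (Finset.mem_coe.1 hx)))))
    have s2 : (↑T₀ : Set Qb) ⊆ L' := fun x hx => hTL'' x (by
      simp only [Finset.mem_union]; exact Or.inl (Or.inl (Or.inr (Finset.mem_coe.1 hx))))
    have s3 : (↑T₀' : Set Qb) ⊆ L' := fun x hx => hTL'' x (by
      simp only [Finset.mem_union]; exact Or.inl (Or.inr (Finset.mem_coe.1 hx)))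
    have s4 : ζM ∈ L' := hTL'' ζM (Finset.mem_union_right _ (Finset.mem_singleton_self ζM))
    haveI := hfd
    haveI := hn
    haveI : NumberField ↥L' := { to_charZero := inferInstance, to_finiteDimensional := hfd }
    haveI hdvr : IsDiscreteValuationRing ↥((s44f_A P.p P.pp).comap (algebraMap ↥L' Qb)) :=
      dsc_isDVR_comap_numberField (s44f_A P.p P.pp) P.p hA P.pp.ne_zero ↥L'
    haveI : CharP (IsLocalRing.ResidueField ↥((s44f_A P.p P.pp).comap (algebraMap ↥L' Qb))) P.p :=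
      ss_nfl_charP_residue (lg_natCast_mem_maximalIdeal (s44f_A P.p P.pp) hA ↥L')
    obtain ⟨π, hπ⟩ := IsDiscreteValuationRing.exists_irreducible
      ↥((s44f_A P.p P.pp).comap (algebraMap ↥L' Qb))
    have hζM' : IsPrimitiveRoot (⟨ζM, s4⟩ : ↥L') M :=
      (IsPrimitiveRoot.map_iff_of_injective (f := algebraMap ↥L' Qb)
        (FaithfulSMul.algebraMap_injective ↥L' Qb)).1 hζM
    obtain ⟨ζ1, β1, fx1, fv1, y, c, Lb, τ, g, Φ, h, hζ1, hβ1, hfx1, hfv1, hy, Pk, -, -, -, -, -,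
      hR⟩ := hall L' hfd hn s1
    obtain ⟨-, -, hratX, hglobX⟩ := hTX L' hfd s1' fx1 hfx1
    have hle := s44mn_inertia_le_G (s44_frame2 P M hpM) hζ hX hchi hext hβ L'
    have hζ1' : IsPrimitiveRoot ζ1 P.p :=
      (IsPrimitiveRoot.map_iff_of_injective (f := algebraMap ↥L' Qb)
        (FaithfulSMul.algebraMap_injective ↥L' Qb)).1 (by rw [hζ1]; exact hζ)
    have hβ10 : β1 ≠ 0 := by
      rintro rfl
      rw [map_zero] at hβ1
      exact hβ0 hβ1.symm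
    exact s44h2_pair_nf (s44f_A P.p P.pp) hA M hpM hp2 hp5 L' hπ ⟨ζM, s4⟩ hζM' hV hX0 hζ1'
      (by rw [hβ1]; exact hβA) (by rw [hβ1]; exact hβiA) hβ10
      (by rw [hfx1]; exact hRX) (by rw [hfv1]; exact hRV) hy (s44h2_pack_sub hle Pk) hratX
      (fun σ0 e k ζ' D => hglobX π hπ σ0 e k ζ' D) hR i i' (hT₀ L' s2 hπ) (hT₀' L' s3 hπ)

/-- **[H2] MONO-MAIN from (ND-SS).** -/
theorem s44h2_mono_of_nd
    (hND : ∀ Q : Place (s44e_kA (s44f_A P.p P.pp)) (s44e_FF (s44f_A P.p P.pp) M),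
      s44e_IsSS (s44f_A P.p P.pp) M P.p P.pp hpM Q →
      haveI : Fact P.p.Prime := ⟨P.pp⟩
      s44h2_NDSS (s44f_A P.p P.pp) (s44f_A_liesOver P.p P.pp) M hpM (s44h2_two_not_dvd P) Q) :
    s44bg_Mono_stmt (s44_frame2 P M hpM) (s44e_k2 (s44f_A P.p P.pp) M P.p P.pp hpM)
      (s44e_nu (s44f_A P.p P.pp) M P.p P.pp hpM) :=
  s44mm_mono_of_pair (s44_frame2 P M hpM) _ _
    (fun X V a β hX hV _ _ _ _ hchi hext hβ0 hβA hβiA hβ hsplit _ i j =>
      s44h2_pairs P M hpM hND X V a β hX hV hchi hext hβ0 hβA hβiA hβ hsplit i j)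

/-- **[H2] MONO-MAIN.** -/
theorem s44h2_mono :
    s44bg_Mono_stmt (s44_frame2 P M hpM) (s44e_k2 (s44f_A P.p P.pp) M P.p P.pp hpM)
      (s44e_nu (s44f_A P.p P.pp) M P.p P.pp hpM) :=
  haveI : Fact P.p.Prime := ⟨P.pp⟩
  s44h2_mono_of_nd P M hpM (fun Q hQ =>
    s44ndss_ndss (s44f_A P.p P.pp) (s44f_A_liesOver P.p P.pp) M hpM (s44h2_two_not_dvd P) Q hQ)

end Main

end Fermat.Agent.S44
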