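/-
S44 project, cell [H2] MONO-MAIN, sub-cell [H2-N] (ND) NODE DICTIONARY: two inputs of
`s44nd_main` / `s44ndn_main` which do not depend on the reduction map (helper12).
Prefix `s44ndc_`.  Namespace `Fermat.Agent.S44`.

* `s44ndc_exists_ord_one`     : every place has an element of order `1`;
* **`s44ndc_cfe_F`**          : (FIELD PART OF `hCFE`) for a place `Q` of `F_M(kA) / kA`
                                (`kA` the residue field of a place `A` of `ℚ̄` over `p`) and ANY
                                homomorphism `κ : k0 →+* kA` of fields there is `t0 ∈ F_M(k0)` with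
                                `ord_Q (ι t0) = 1` (`ι = s44mi_iotaF κ M` coefficientwise): the constant
                                field extension `F_M(kA) / F_M(k0)` is unramified;
* **`s44ndc_hCFE`**           : the closing step: if the reduction map `red : W1 →+* κ0` hits `ι y` for
                                every `y` (surjectivity of the Gauss residue onto `F_M(k0)`), then
                                `hCFE : ∃ t : W1, ord_Q (red t) = 1`;
* **`s44ndc_const_mem`**      : (`hk`) a valuation subring of a field `κ` contains the image of every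
                                field `k` all of whose nonzero elements are roots of unity;
  `s44ndc_const_mem_kA`, `s44ndc_const_mem_of_hom` : the instances `k = kA` and `k` any field with
                                a homomorphism to `kA` (e.g. the residue field of a number-field level).
-/
import Mathlib
import Fermat.Agent.S44.Mono.CfeInst
import Fermat.Agent.S44.Mono.NodeDict

set_option autoImplicit false
set_option linter.unusedSectionVars false
set_option linter.unusedVariables false
set_option linter.style.haveILetI false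

namespace Fermat.Agent.S44

open ModularCurve IntermediateField AlgebraicCurve IsLocalRing
open Fermat.Agent.JT3 Fermat.Agent.S24

section Ord

variable {K F : Type*} [Field K] [Field F] [Algebra K F]

/-- every place has an element of order `1`. -/
theorem s44ndc_exists_ord_one (v : Place K F) : ∃ t : F, v.ord t = 1 ∧ t ≠ 0 := by
  obtain ⟨π, hπ⟩ := IsDiscreteValuationRing.exists_irreducible v.toValuationSubring
  refine ⟨(π : F), v.ord_coe_irreducible hπ, ?_⟩
  intro h
  have := v.ord_coe_irreducible hπ
  rw [h, v.ord_zero] at this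
  exact zero_ne_one this

end Ord

section Cfe

variable (A : ValuationSubring (AlgebraicClosure ℚ)) {p : ℕ} [hp : Fact p.Prime]
  (hA : A.LiesOverPrime p) {k0 : Type*} [Field k0] (κ : k0 →+* IsLocalRing.ResidueField ↥A)
  (M : ℕ) [NeZero M]

include hA in
/-- **the field part of `hCFE`**: a place of `F_M(kA) / kA` has a uniformiser coming from `F_M(k0)`,
for every field `k0` with a homomorphism to `kA`. -/
theorem s44ndc_cfe_F (Q : Place (IsLocalRing.ResidueField ↥A)
    ↥(lg_F (IsLocalRing.ResidueField ↥A) M)) :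
    ∃ t0 : ↥(lg_F k0 M), Q.ord (s44mi_iotaF κ M t0) = 1 ∧ t0 ≠ 0 := by
  obtain ⟨Q0, -, -, hord⟩ := s44mi_restrict_F_kA A hA κ M Q
  obtain ⟨t0, ht0, hne⟩ := s44ndc_exists_ord_one Q0
  exact ⟨t0, by rw [hord, ht0], hne⟩

end Cfe

section Close

variable {F' : Type*} [Field F'] (W1 : ValuationSubring F') {κ0 : Type*} [Field κ0]
  (red : ↥W1 →+* κ0) {kA : Type*} [Field kA] [Algebra kA κ0] (Q : Place kA κ0)

/-- **`hCFE` from the surjectivity of the reduction map onto a subfield containing a uniformiser**. -/
theorem s44ndc_hCFE {F0 : Type*} (ι : F0 → κ0) (hsurj0 : ∀ y : F0, ∃ t : ↥W1, red t = ι y)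
    (h : ∃ t0 : F0, Q.ord (ι t0) = 1) : ∃ t : ↥W1, Q.ord (red t) = 1 := by
  obtain ⟨t0, ht0⟩ := h
  obtain ⟨t, ht⟩ := hsurj0 t0
  exact ⟨t, by rw [ht, ht0]⟩

end Close

section Const

variable {k κ : Type*} [Field k] [Field κ] [Algebra k κ]

/-- **(`hk`)**: a valuation subring contains every constant which is `0` or a root of unity. -/
theorem s44ndc_const_mem (hk : ∀ c : k, c ≠ 0 → ∃ m : ℕ, m ≠ 0 ∧ c ^ m = 1)
    (𝒲 : ValuationSubring κ) (c : k) : algebraMap k κ c ∈ 𝒲 := by
  by_cases hc : c = 0
  · rw [hc, map_zero]; exact 𝒲.zero_mem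
  · obtain ⟨m, hm, hpow⟩ := hk c hc
    by_contra hnot
    have hinv : (algebraMap k κ c)⁻¹ ∈ 𝒲 := (𝒲.mem_or_inv_mem _).resolve_left hnot
    have hc0 : algebraMap k κ c ≠ 0 := (map_ne_zero _).2 hc
    -- `c = (c⁻¹)^(m-1)`
    have h1 : algebraMap k κ c ^ m = 1 := by rw [← map_pow, hpow, map_one]
    have h2 : algebraMap k κ c = ((algebraMap k κ c)⁻¹) ^ (m - 1) := by
      obtain ⟨n, rfl⟩ : ∃ n, m = n + 1 := ⟨m - 1, by omega⟩
      rw [Nat.add_sub_cancel, inv_pow]
      rw [pow_succ] at h1
      exact (eq_inv_of_mul_eq_one_right h1)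
    exact hnot (h2 ▸ 𝒲.pow_mem hinv _)

end Const

section ConstKA

variable (A : ValuationSubring (AlgebraicClosure ℚ)) {p : ℕ} [hp : Fact p.Prime]
  (hA : A.LiesOverPrime p)

include hA in
/-- every nonzero element of `kA` is a root of unity. -/
theorem s44ndc_kA_pow (c : IsLocalRing.ResidueField ↥A) (hc : c ≠ 0) :
    ∃ m : ℕ, m ≠ 0 ∧ c ^ m = 1 := by
  obtain ⟨a, rfl⟩ := IsLocalRing.residue_surjective c
  obtain ⟨m, hm, hpow⟩ := ebf_residue_pow_eq_one A p hA a hc
  exact ⟨m, fun h => hm (h ▸ dvd_zero p), hpow⟩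

include hA in
/-- `hk` for `k = kA`. -/
theorem s44ndc_const_mem_kA {κ : Type*} [Field κ] [Algebra (IsLocalRing.ResidueField ↥A) κ]
    (𝒲 : ValuationSubring κ) (c : IsLocalRing.ResidueField ↥A) :
    algebraMap (IsLocalRing.ResidueField ↥A) κ c ∈ 𝒲 :=
  s44ndc_const_mem (s44ndc_kA_pow A hA) 𝒲 c

include hA in
/-- `hk` for any field `k0` with a homomorphism to `kA`. -/
theorem s44ndc_const_mem_of_hom {k0 : Type*} [Field k0]
    (κ' : k0 →+* IsLocalRing.ResidueField ↥A) {κ : Type*} [Field κ] [Algebra k0 κ]
    (𝒲 : ValuationSubring κ) (c : k0) : algebraMap k0 κ c ∈ 𝒲 := by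
  refine s44ndc_const_mem (fun c hc => ?_) 𝒲 c
  obtain ⟨m, hm, hpow⟩ := s44ndc_kA_pow A hA (κ' c) ((map_ne_zero κ').2 hc)
  exact ⟨m, hm, κ'.injective (by rw [map_pow, hpow, map_one])⟩

end ConstKA

end Fermat.Agent.S44
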