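/-
Project S44 (Mazur–Ribet at `p`), cell [H2-S] of [H2] MONO-MAIN (helper4): `s44gm_pair'` = `s44gm_pair`
(Mono/ChartPair.lean) without the instance hypothesis `[IsDiscreteValuationRing ↥V2]`.
Prefix `s44gm_`.
-/
import Mathlib
import Fermat.Agent.S44.Mono.ChartPair
import Fermat.Agent.S44.Mono.SheetConjInst

set_option autoImplicit false
set_option linter.unusedSectionVars false
set_option linter.unusedVariables false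
set_option linter.style.haveILetI false

noncomputable section

namespace Fermat.Agent.S44

open Fermat.Agent.SS Fermat.Agent.JT3 IsLocalRing Polynomial AlgebraicCurve

universe v

section chart

variable {A0 : Type*} [CommRing A0] [IsDomain A0] [IsDiscreteValuationRing A0]
  {K : Type*} [Field K] [Algebra A0 K] [IsFractionRing A0 K]
  {F0 : Type v} [Field F0] [Algebra A0 F0] [Algebra K F0] [IsScalarTower A0 K F0]
variable {B B12 : Subalgebra A0 F0} [IsFractionRing B F0] [IsNoetherianRing B]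
  [IsIntegrallyClosed B]

/-- **THE TWO-NODE THEOREM AT TWO CROSSING POINTS OF A CHART**, without the hypothesis that `V2` is a
discrete valuation ring (it is `(B_𝔫)_{(P2 ∩ B) B_𝔫}`). -/
theorem s44gm_pair' (𝔫 𝔫' : Ideal B) [h𝔫 : 𝔫.IsPrime] [h𝔫' : 𝔫'.IsPrime] {π : A0} (hle : B ≤ B12)
    {P1 P2 : Ideal B12} [hP1 : P1.IsPrime] [hP2 : P2.IsPrime]
    (hπ : Irreducible π) (hπ𝔫 : algebraMap A0 B π ∈ 𝔫) (hπ𝔫' : algebraMap A0 B π ∈ 𝔫')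
    (hϖ0 : algebraMap A0 F0 π ≠ 0)
    (hrad : Ideal.span {algebraMap A0 B12 π} = P1 ⊓ P2) {ξ : F0}
    (hξS : ξ ∈ sfc_S B.toSubring (algebraMap A0 F0 π)) (hξinv : ξ⁻¹ ∈ B12)
    (hclear : ∀ z ∈ B12, ∃ k : ℕ, ξ ^ k * z ∈ B)
    -- the two crossing points
    {u v : F0} {a : A0} (hU : s44mu_NodeAtU π hle P1 P2 𝔫 u v a)
    (huS : u ∈ ssl_locSub F0 𝔫) (hvS : v ∈ ssl_locSub F0 𝔫)
    {u' v' : F0} {a' : A0} (hU' : s44mu_NodeAtU π hle P1 P2 𝔫' u' v' a')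
    (huS' : u' ∈ ssl_locSub F0 𝔫') (hvS' : v' ∈ ssl_locSub F0 𝔫')
    (O : Subring F0)
    (hOB : ∀ z ∈ O, ∃ s ∈ sfc_S B.toSubring (algebraMap A0 F0 π), s * z ∈ B)
    {σ00 : A0 ≃+* A0} {p e k e' : ℕ} {ζ : A0} (D : s44t_PData π σ00 p e k ζ)
    (he' : e' ≠ 0) (hp : p ≠ 0)
    (hae : Associated a (π ^ e')) (hae' : Associated a' (π ^ e'))
    -- the Kummer extension
    {f : F0} (hf : f ≠ 0) (hord : ∀ P : Place K F0, (p : ℤ) ∣ P.ord f)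
    (hrat : ∀ P : Place K F0, P.ord f ≠ 0 → ss_RatPlace P)
    (hglob : ∃ G b : F0, G ≠ 0 ∧ b ∈ O ∧
      f = G ^ p * (1 + algebraMap A0 F0 π ^ (p * e + 1) * b))
    {LL : Type*} [Field LL] [Algebra F0 LL] [FiniteDimensional F0 LL]
    [Algebra.IsSeparable F0 LL] [Algebra A0 LL] [IsScalarTower A0 F0 LL]
    [Algebra K LL] [IsScalarTower A0 K LL] {y : LL}
    (hy : y ^ p = algebraMap F0 LL f) (hfin : Module.finrank F0 LL = p)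
    (hgenLL : Algebra.adjoin F0 ({y} : Set LL) = ⊤)
    -- the Gauss sheet
    (V : ValuationSubring LL) (V1 : ValuationSubring F0)
    (hVV1 : ∀ z : F0, algebraMap F0 LL z ∈ V ↔ z ∈ V1)
    (hB12V1 : ∀ b ∈ B12, b ∈ V1) (hP1V : ∀ b : B12, b ∈ P1 ↔ (b : F0) ∈ V1.nonunits)
    (Wi : LL → ℤ) (hWi : s44vw_IsW (ssl_VUnit V) (algebraMap A0 LL π) Wi)
    -- the `0`-component
    (V2 : ValuationSubring F0)
    (hB12V2 : ∀ b ∈ B12, b ∈ V2) (hP2V : ∀ b : B12, b ∈ P2 ↔ (b : F0) ∈ V2.nonunits)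
    (hloc2 : ∀ z ∈ V2, ∃ b s : B12, s ∉ P2 ∧ z * (s : F0) = (b : F0))
    -- the family
    {ι : Type*} (σL : ι → LL ≃+* LL) (σE : ι → F0 ≃+* F0) (σ0 : ι → A0 ≃+* A0)
    (hσB : ∀ i, ssl_SigmaB π (σE i) B)
    (hσL : ∀ i z, σL i (algebraMap F0 LL z) = algebraMap F0 LL (σE i z))
    (hσ0 : ∀ i c, σE i (algebraMap A0 F0 c) = algebraMap A0 F0 (σ0 i c))
    (hσu : ∀ i, σE i u = u) (hσu' : ∀ i, σE i u' = u')
    (hσV : ∀ i x, x ∈ V ↔ σL i x ∈ V)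
    (hbase : s44pa_Base (K := K) π e' σL)
    -- the deck transformation
    (τ : LL ≃ₐ[F0] LL) (hτn : ∀ z : LL, (⇑τ)^[p] z = z)
    (hfix : ∀ z : LL, τ z = z → z ∈ (algebraMap F0 LL).range)
    -- the Kummer data
    {fv : F0} (hfv : fv ≠ 0) (hordV : ∀ P : Place K F0, (p : ℤ) ∣ P.ord fv)
    {Φ β hh g : LL} {c : K} (hc0 : c ≠ 0) (hg : g ≠ 0) (hh0 : hh ≠ 0)
    (hΦ : Φ = algebraMap K LL c * algebraMap F0 LL fv * g ^ p)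
    (hβ : ∃ ω : A0ˣ, β = algebraMap A0 LL (ω : A0))
    (hτΦ : τ Φ = (β ^ p)⁻¹ * hh ^ p * Φ)
    (hratΦ : ∀ w : Place K LL, w.ord Φ ≠ 0 → ss_RatPlace w)
    (hrath : ∀ (j : ℕ) (w : Place K LL), w.ord ((⇑τ)^[j] hh) ≠ 0 → ss_RatPlace w)
    (hσΦ : ∀ i, σL i Φ = Φ) (hσh : ∀ i (j : ℕ), σL i ((⇑τ)^[j] hh) = (⇑τ)^[j] hh)
    (hWiΦ : (e' : ℤ) ∣ Wi Φ) (hWih : ∀ j : ℕ, (e' : ℤ) ∣ Wi ((⇑τ)^[j] hh))
    -- the node orders
    (ν ν' : F0 → ℤ) :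
    haveI := ssl_loc_isNoetherianRing (F0 := F0) 𝔫
    haveI := ssl_loc_isIntegrallyClosed (F0 := F0) 𝔫
    haveI := ssl_loc_isLocalRing (F0 := F0) 𝔫
    haveI := ssl_loc_isNoetherianRing (F0 := F0) 𝔫'
    haveI := ssl_loc_isIntegrallyClosed (F0 := F0) 𝔫'
    haveI := ssl_loc_isLocalRing (F0 := F0) 𝔫'
    s44nu_IsNu (algebraMap A0 (ssl_locSub F0 𝔫) π) (⟨u, huS⟩ : ssl_locSub F0 𝔫)
        (s44tl_br 𝔫 hle P1) ν →
      s44nu_IsNu (algebraMap A0 (ssl_locSub F0 𝔫') π) (⟨u', huS'⟩ : ssl_locSub F0 𝔫')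
        (s44tl_br 𝔫' hle P1) ν' →
      ν fv ≡ ν' fv [ZMOD (p : ℤ)] := by
  haveI := ssl_loc_isNoetherianRing (F0 := F0) 𝔫
  haveI := ssl_loc_isIntegrallyClosed (F0 := F0) 𝔫
  haveI := ssl_loc_isLocalRing (F0 := F0) 𝔫
  have H := s44gm_nodeHyp (K := K) 𝔫 hle hπ hπ𝔫 hϖ0 hrad hξS hclear hU huS hvS O hOB D hae hf hord
    hrat hglob hy hfin hgenLL V V1 hVV1 hB12V1 hP1V σL σE σ0 hσB hσL hσ0 hσu hfv hordV
  obtain ⟨v₁, a₁, -, -, -, hN⟩ := H.ex_node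
  haveI := hN.prime₁
  have hv₀ := s44gm_memAt_br 𝔫 hle hN.prime₁ hξS.1 hξS.2.1 hξinv hclear V2 hB12V2 hP2V hloc2
  haveI : IsDiscreteValuationRing ↥V2 :=
    s44mh_isDVR_of_memAt (s44tl_br 𝔫 hle P2) hN.height₁ V2 hv₀
  exact s44gm_pair (K := K) 𝔫 𝔫' hle hπ hπ𝔫 hπ𝔫' hϖ0 hrad hξS hξinv hclear hU huS hvS hU' huS' hvS'
    O hOB D he' hp hae hae' hf hord hrat hglob hy hfin hgenLL V V1 hVV1 hB12V1 hP1V Wi hWi V2
    hB12V2 hP2V hloc2 σL σE σ0 hσB hσL hσ0 hσu hσu' hσV hbase τ hτn hfix hfv hordV hc0 hg hh0 hΦ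
    hβ hτΦ hratΦ hrath hσΦ hσh hWiΦ hWih ν ν'

end chart

end Fermat.Agent.S44
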