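/-
S44 cell [H2] MONO-MAIN, SUB (H2-HT) (helper1), file 1: HILBERT THEORY AT FINITE LEVEL.
Prefix `s44ku_`.  Mathlib only.

`K/ℚ` a finite Galois extension of number fields, `w` a finite place of `K` (a nonzero prime `P`
of `𝓞 K`), `I` its inertia group in `G = Gal(K/ℚ)`.  For an intermediate field `F`, with
`H_F = s44ku_fix F ≤ G` its fixing subgroup:

* `s44ku_ramIdx_eq_card`  : `e(P | P ∩ 𝓞 F) = |inertia of P in H_F|`;
* `s44ku_val_liesOver`    : `w(x) = v_F(x) ^ |inertia of P in H_F|` for `x ∈ F`, `v_F` the place of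
                            `F` below `w`;
* `s44ku_fin_val_eq`      : if `F ≤ F'` and `I ⊓ H_F ≤ H_F'` then `F` and `F'` have the same value
                            group at `w`: every `x ∈ F'ˣ` is `t · (w-adic unit)` with `t ∈ Fˣ`.
-/
import Mathlib

set_option autoImplicit false
set_option linter.unusedSectionVars false

namespace Fermat.Agent.S44

open NumberField IsDedekindDomain

section Fin

variable {K : Type*} [Field K] [NumberField K] [IsGalois ℚ K]

/-- the fixing subgroup of an intermediate field, inside `Gal(K/ℚ)` -/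
abbrev s44ku_fix (F : IntermediateField ℚ K) : Subgroup Gal(K/ℚ) :=
  fixingSubgroup Gal(K/ℚ) (F : Set K)

theorem s44ku_mem_fix {F : IntermediateField ℚ K} {g : Gal(K/ℚ)} :
    g ∈ s44ku_fix F ↔ ∀ y ∈ F, g y = y := by
  rw [mem_fixingSubgroup_iff]
  rfl

/-- **`e = |inertia|`** for the extension `K / F`. -/
theorem s44ku_ramIdx_eq_card (F : IntermediateField ℚ K) (P : Ideal (𝓞 K)) [P.IsPrime]
    (hP0 : P ≠ ⊥) :
    P.ramificationIdx (𝓞 F) = Nat.card (P.inertia (s44ku_fix F)) := by
  have hG : IsGaloisGroup (s44ku_fix F) (𝓞 F) (𝓞 K) :=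
    IsGaloisGroup.of_isFractionRing (s44ku_fix F) (𝓞 F) (𝓞 K) F K
  have hp : (P.under (𝓞 F)).IsPrime := inferInstance
  have hp0 : P.under (𝓞 F) ≠ ⊥ := fun h0 => hP0 (Ideal.eq_bot_of_comap_eq_bot h0)
  have hpmax : (P.under (𝓞 F)).IsMaximal := Ideal.IsPrime.isMaximal hp hp0
  have : Finite (𝓞 F ⧸ P.under (𝓞 F)) := Ideal.finiteQuotientOfFreeOfNeBot _ hp0
  have : Finite (P.under (𝓞 F)).ResidueField := inferInstance
  rw [← Ideal.ramificationIdxIn_eq_ramificationIdx (P.under (𝓞 F)) P (s44ku_fix F),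
    ← Ideal.card_inertia_eq_ramificationIdxIn (G := s44ku_fix F) (P.under (𝓞 F)) P]

/-- the place of `F` below the place `w` of `K` -/
noncomputable def s44ku_below (F : IntermediateField ℚ K) (w : HeightOneSpectrum (𝓞 K)) :
    HeightOneSpectrum (𝓞 F) :=
  ⟨w.asIdeal.under (𝓞 F), inferInstance,
    fun h0 => w.ne_bot (Ideal.eq_bot_of_comap_eq_bot h0)⟩

/-- the `w`-adic valuation of an element of `F`, through the place of `F` below `w` -/
theorem s44ku_val_liesOver (F : IntermediateField ℚ K) (w : HeightOneSpectrum (𝓞 K)) (x : F) :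
    (s44ku_below F w).valuation F x ^ Nat.card (w.asIdeal.inertia (s44ku_fix F)) =
      w.valuation K (x : K) := by
  have hp0 : w.asIdeal.under (𝓞 F) ≠ ⊥ := fun h0 => w.ne_bot (Ideal.eq_bot_of_comap_eq_bot h0)
  have : w.asIdeal.LiesOver (s44ku_below F w).asIdeal := ⟨rfl⟩
  have h1 := HeightOneSpectrum.valuation_liesOver K (s44ku_below F w) w x
  rw [Ideal.ramificationIdx'_eq_ramificationIdx (s44ku_below F w).asIdeal w.asIdeal hp0,
    s44ku_ramIdx_eq_card F w.asIdeal w.ne_bot] at h1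
  exact h1

/-- the inertia group of `P` in a subgroup `H`, as a subtype of the big group -/
theorem s44ku_card_inertia_sub {G R : Type*} [Group G] [CommRing R] [MulSemiringAction G R]
    (P : Ideal R) (H : Subgroup G) :
    Nat.card (P.inertia H) = Nat.card {g : G // g ∈ P.inertia G ∧ g ∈ H} := by
  refine Nat.card_congr
    { toFun := fun g => ⟨(g : H), g.2, (g : H).2⟩
      invFun := fun g => ⟨⟨g.1, g.2.2⟩, g.2.1⟩
      left_inv := fun g => rfl
      right_inv := fun g => rfl }

/-- **Equal inertia ⟹ equal value groups.**  If every element of the inertia group of `w` fixing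
`F` fixes `F'`, then every nonzero `x ∈ F'` has the `w`-adic valuation of some nonzero `t ∈ F`. -/
theorem s44ku_fin_val_eq (F F' : IntermediateField ℚ K) (hFF' : F ≤ F')
    (w : HeightOneSpectrum (𝓞 K))
    (hI : ∀ g ∈ w.asIdeal.inertia Gal(K/ℚ), g ∈ s44ku_fix F → g ∈ s44ku_fix F')
    {x : K} (hx : x ∈ F') (hx0 : x ≠ 0) :
    ∃ t ∈ F, t ≠ 0 ∧ w.valuation K (x / t) = 1 := by
  have hcard : Nat.card (w.asIdeal.inertia (s44ku_fix F')) =
      Nat.card (w.asIdeal.inertia (s44ku_fix F)) := by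
    rw [s44ku_card_inertia_sub, s44ku_card_inertia_sub]
    refine Nat.card_congr (Equiv.subtypeEquivRight fun g => ?_)
    constructor
    · rintro ⟨h1, h2⟩
      refine ⟨h1, ?_⟩
      rw [s44ku_mem_fix] at h2 ⊢
      exact fun y hy => h2 y (hFF' hy)
    · rintro ⟨h1, h2⟩
      exact ⟨h1, hI g h1 h2⟩
  have hx0' : (⟨x, hx⟩ : F') ≠ 0 := fun h => hx0 (congrArg Subtype.val h)
  have hne : (s44ku_below F' w).valuation F' ⟨x, hx⟩ ≠ 0 := (Valuation.ne_zero_iff _).2 hx0'
  obtain ⟨t, ht⟩ := (s44ku_below F w).valuation_surjective F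
    ((s44ku_below F' w).valuation F' ⟨x, hx⟩)
  have ht0 : t ≠ 0 := by
    rintro rfl
    rw [map_zero] at ht
    exact hne ht.symm
  have h1 := s44ku_val_liesOver F w t
  have h2 := s44ku_val_liesOver F' w ⟨x, hx⟩
  rw [ht, ← hcard, h2] at h1
  have ht0' : (t : K) ≠ 0 := fun h => ht0 (Subtype.ext h)
  refine ⟨(t : K), t.2, ht0', ?_⟩
  rw [map_div₀, ← h1]
  exact div_self ((Valuation.ne_zero_iff _).2 hx0)

end Fin

end Fermat.Agent.S44
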