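/-
S44 cell [H2] MONO-MAIN, SUB (H2-HT) (helper1), file 2: HILBERT THEORY AT A PLACE `A` OF `ℚ̄`.
Prefix `s44ku_`.  Imports Mathlib + S13/Global/UnramifiedOne (inertia lifting `g1_exists_lift`, the
dictionary `g1_idealOf` / `g1_eq_valSubring`) + Mono/HilbertFin.

`Γ := A.inertiaSubgroupIn ℚ ≤ G_ℚ`, `A` above the prime `p`.

* `s44ku_val_eq`  : `L ≤ L'` number fields inside `ℚ̄` such that every `σ ∈ Γ` fixing `L` pointwise
                    fixes `L'` pointwise ⟹ `L` and `L'` have the SAME VALUE GROUP at `A`: every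
                    `x ∈ L'ˣ` is `t · (A-unit)` with `t ∈ Lˣ`  (`e(A ∩ L' | A ∩ L) = 1`).
* `s44ku_unr_val` : `x ∈ ℚ̄ˣ` fixed by every `σ ∈ Γ` fixing `L` pointwise ⟹ `v_A(x) ∈ v_A(Lˣ)`.

Proof: `K` := the normal closure of `L'`; surjectivity of `Γ →` (inertia group of `A ∩ K` in
`Gal(K/ℚ)`) is `g1_exists_lift`; `|inertia| = e` is Mathlib (`s44ku_ramIdx_eq_card`).
-/
import Mathlib
import Fermat.Agent.S13.Global.UnramifiedOne
import Fermat.Agent.S44.Mono.HilbertFin

set_option autoImplicit false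
set_option linter.style.haveILetI false
set_option linter.unusedSectionVars false

namespace Fermat.Agent.S44

open NumberField IsDedekindDomain Fermat.Agent.S13 Fermat.Agent.S14.Reduction Fermat.Agent.S54

local notation "Qb" => AlgebraicClosure ℚ

attribute [local instance] Fermat.Agent.S54.galAction
attribute [local instance] Fermat.Agent.S14.Reduction.algebraIntQbar

section Bridge

variable (A : ValuationSubring Qb)
  (K : IntermediateField ℚ Qb) [FiniteDimensional ℚ K] [IsGalois ℚ K] [NumberField K]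

/-- the prime of `𝓞 K` cut out by `A` -/
noncomputable def s44ku_primeOf : Ideal (𝓞 K) := (g1_idealOf A).under (𝓞 K)

instance s44ku_primeOf_isPrime : (s44ku_primeOf A K).IsPrime := by
  unfold s44ku_primeOf
  infer_instance

theorem s44ku_mem_primeOf {x : 𝓞 K} :
    x ∈ s44ku_primeOf A K ↔ A.valuation (((x : K) : Qb)) < 1 := by
  unfold s44ku_primeOf
  rw [Ideal.under_def, Ideal.mem_comap, g1_mem_idealOf]
  rfl

theorem s44ku_val_int_le (x : 𝓞 K) : A.valuation (((x : K) : Qb)) ≤ 1 :=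
  g1_valuation_le_one A (toIntQbar K x)

variable {A} {p : ℕ} (hp : p.Prime) (hA : A.LiesOverPrime p)

include hp hA in
theorem s44ku_primeOf_ne_bot : s44ku_primeOf A K ≠ ⊥ := by
  intro h
  have h1 : (p : 𝓞 K) ∈ s44ku_primeOf A K := by
    rw [s44ku_mem_primeOf]
    have h2 : A.valuation ((p : ℕ) : Qb) < 1 := hA
    simpa using h2
  rw [h, Ideal.mem_bot] at h1
  exact hp.ne_zero (by exact_mod_cast h1)

/-- the place of `K` cut out by `A` -/
noncomputable def s44ku_placeOf : HeightOneSpectrum (𝓞 K) :=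
  ⟨s44ku_primeOf A K, inferInstance, s44ku_primeOf_ne_bot K hp hA⟩

theorem s44ku_val_le_of_place {y : K} (hy : (s44ku_placeOf K hp hA).valuation K y ≤ 1) :
    A.valuation (y : Qb) ≤ 1 := by
  obtain ⟨n, d, hnd⟩ := (s44ku_placeOf K hp hA).exists_primeCompl_mul_eq_of_integer y hy
  have hd : A.valuation ((((d : 𝓞 K) : K) : Qb)) = 1 := by
    have h1 : (d : 𝓞 K) ∉ s44ku_primeOf A K := d.2
    rw [s44ku_mem_primeOf, not_lt] at h1
    exact le_antisymm (s44ku_val_int_le A K d) h1
  have h2 : (y : Qb) * (((d : 𝓞 K) : K) : Qb) = ((n : K) : Qb) := by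
    have := congrArg (fun z : K => (z : Qb)) hnd
    simpa using this
  have h3 : A.valuation (y : Qb) = A.valuation ((n : K) : Qb) := by
    rw [← h2, map_mul, hd, mul_one]
  rw [h3]
  exact s44ku_val_int_le A K n

theorem s44ku_val_eq_of_place {y : K} (hy : (s44ku_placeOf K hp hA).valuation K y = 1) :
    A.valuation (y : Qb) = 1 := by
  refine le_antisymm (s44ku_val_le_of_place K hp hA hy.le) ?_
  have hy0 : y ≠ 0 := by
    rintro rfl
    rw [map_zero] at hy
    exact zero_ne_one hy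
  have h1 : (s44ku_placeOf K hp hA).valuation K y⁻¹ ≤ 1 := by
    rw [map_inv₀, hy, inv_one]
  have h2 := s44ku_val_le_of_place K hp hA h1
  have h3 : A.valuation ((y⁻¹ : K) : Qb) = (A.valuation (y : Qb))⁻¹ := by
    push_cast
    rw [map_inv₀]
  rw [h3] at h2
  have h4 : A.valuation (y : Qb) ≠ 0 := by
    rw [Valuation.ne_zero_iff]
    exact_mod_cast hy0
  rwa [inv_le_one₀ (zero_lt_iff.2 h4)] at h2

include hp hA in
/-- **Hilbert theory at `A`, Galois level.** -/
theorem s44ku_val_eq_gal (L L' : IntermediateField ℚ Qb) (hLL' : L ≤ L') (hL'K : L' ≤ K)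
    (hI : ∀ σ ∈ A.inertiaSubgroupIn ℚ, (∀ y ∈ L, σ y = y) → ∀ y ∈ L', σ y = y)
    {x : Qb} (hx : x ∈ L') (hx0 : x ≠ 0) :
    ∃ t ∈ L, t ≠ 0 ∧ A.valuation (x / t) = 1 := by
  haveI hQ := g1_idealOf_liesOver hp hA
  have hAeq : A = valSubring hp (g1_idealOf A) := g1_eq_valSubring hp hA
  set F : IntermediateField ℚ K := L.comap K.val with hF
  set F' : IntermediateField ℚ K := L'.comap K.val with hF'
  have hFF' : F ≤ F' := fun y hy => hLL' hy
  have hI' : ∀ g ∈ (s44ku_placeOf K hp hA).asIdeal.inertia Gal(K/ℚ),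
      g ∈ s44ku_fix F → g ∈ s44ku_fix F' := by
    intro g hg hgF
    have hg' : ∀ x : 𝓞 K, toIntQbar K (g • x) - toIntQbar K x ∈ g1_idealOf A := by
      intro x
      have h1 := hg x
      rw [← map_sub]
      exact h1
    obtain ⟨σ, hσ, hres⟩ := g1_exists_lift K hp (g1_idealOf A) g hg'
    rw [← hAeq] at hσ
    rw [s44ku_mem_fix] at hgF ⊢
    have hcomm : ∀ y : K, σ (y : Qb) = ((g y : K) : Qb) := by
      intro y
      rw [← hres]
      exact (AlgEquiv.restrictNormal_commutes σ K y).symm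
    have hσL : ∀ y ∈ L, σ y = y := by
      intro y hy
      have hyK : y ∈ K := hL'K (hLL' hy)
      have h1 := hcomm ⟨y, hyK⟩
      rw [hgF ⟨y, hyK⟩ hy] at h1
      exact h1
    have hσL' := hI σ hσ hσL
    intro y hy
    apply Subtype.ext
    rw [← hcomm y]
    exact hσL' (y : Qb) hy
  have hxK : x ∈ K := hL'K hx
  have hx' : (⟨x, hxK⟩ : K) ∈ F' := hx
  have hx0' : (⟨x, hxK⟩ : K) ≠ 0 := fun h => hx0 (congrArg Subtype.val h)
  obtain ⟨t, htF, ht0, hval⟩ :=
    s44ku_fin_val_eq F F' hFF' (s44ku_placeOf K hp hA) hI' hx' hx0'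
  refine ⟨(t : Qb), htF, fun h => ht0 (Subtype.ext h), ?_⟩
  have := s44ku_val_eq_of_place K hp hA hval
  simpa using this

end Bridge

section Main

/-- the fixed field of one automorphism -/
def s44ku_fixField (σ : Qb ≃ₐ[ℚ] Qb) : IntermediateField ℚ Qb where
  carrier := {y | σ y = y}
  mul_mem' := fun {a b} ha hb => by
    simp only [Set.mem_ofPred_eq] at *
    rw [map_mul, ha, hb]
  one_mem' := map_one σ
  add_mem' := fun {a b} ha hb => by
    simp only [Set.mem_ofPred_eq] at *
    rw [map_add, ha, hb]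
  zero_mem' := map_zero σ
  algebraMap_mem' := fun r => σ.commutes r
  inv_mem' := fun a ha => by
    simp only [Set.mem_ofPred_eq] at *
    rw [map_inv₀, ha]


variable {A : ValuationSubring Qb} {p : ℕ} (hp : p.Prime) (hA : A.LiesOverPrime p)

include hp hA in
/-- **(H2-HT) Hilbert theory at `A`.**  If every element of the inertia group of `A` (in `G_ℚ`)
fixing `L` pointwise fixes `L'` pointwise, then `L` and `L'` have the same value group at `A`. -/
theorem s44ku_val_eq (L L' : IntermediateField ℚ Qb) [FiniteDimensional ℚ L'] (hLL' : L ≤ L')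
    (hI : ∀ σ ∈ A.inertiaSubgroupIn ℚ, (∀ y ∈ L, σ y = y) → ∀ y ∈ L', σ y = y)
    {x : Qb} (hx : x ∈ L') (hx0 : x ≠ 0) :
    ∃ t ∈ L, t ≠ 0 ∧ A.valuation (x / t) = 1 := by
  have _ : Algebra.IsAlgebraic ℚ Qb := AlgebraicClosure.isAlgebraic ℚ
  have _ : IsAlgClosure ℚ Qb := ⟨inferInstance, AlgebraicClosure.isAlgebraic ℚ⟩
  have _ : Normal ℚ Qb := inferInstance
  set K : IntermediateField ℚ Qb := IntermediateField.normalClosure ℚ L' Qb with hK
  haveI hKfd : FiniteDimensional ℚ K := normalClosure.is_finiteDimensional ℚ L' Qb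
  haveI hKn : Normal ℚ K := normalClosure.normal ℚ L' Qb
  haveI : IsGalois ℚ K := {}
  haveI : NumberField K := { to_charZero := inferInstance, to_finiteDimensional := hKfd }
  exact s44ku_val_eq_gal K hp hA L L' hLL' (IntermediateField.le_normalClosure L') hI hx hx0

include hp hA in
/-- **(UNR-VAL)**: an element of `ℚ̄ˣ` fixed by the inertia group of `L` at `A` has its valuation in
the value group of `L`. -/
theorem s44ku_unr_val (L : IntermediateField ℚ Qb) [FiniteDimensional ℚ L] {x : Qb} (hx0 : x ≠ 0)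
    (hfix : ∀ σ ∈ A.inertiaSubgroupIn ℚ, (∀ y ∈ L, σ y = y) → σ x = x) :
    ∃ t ∈ L, t ≠ 0 ∧ A.valuation (x / t) = 1 := by
  have _ : Algebra.IsAlgebraic ℚ Qb := AlgebraicClosure.isAlgebraic ℚ
  have _ : Algebra.IsIntegral ℚ Qb := Algebra.IsAlgebraic.isIntegral
  set L' : IntermediateField ℚ Qb := L ⊔ IntermediateField.adjoin ℚ {x} with hL'
  haveI : FiniteDimensional ℚ (IntermediateField.adjoin ℚ {x}) :=
    IntermediateField.adjoin.finiteDimensional (Algebra.IsIntegral.isIntegral x)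
  haveI : FiniteDimensional ℚ L' := IntermediateField.finiteDimensional_sup L _
  have hxL' : x ∈ L' :=
    (le_sup_right : IntermediateField.adjoin ℚ {x} ≤ L') (IntermediateField.mem_adjoin_simple_self ℚ x)
  refine s44ku_val_eq hp hA L L' le_sup_left ?_ hxL' hx0
  intro σ hσ hσL
  have hσx := hfix σ hσ hσL
  -- `σ` fixes `L ⊔ ℚ(x)`
  have hle : L' ≤ s44ku_fixField σ := by
    rw [hL', sup_le_iff]
    refine ⟨fun y hy => hσL y hy, ?_⟩
    rw [IntermediateField.adjoin_simple_le_iff]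
    exact hσx
  exact fun y hy => hle hy

end Main

end Fermat.Agent.S44
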