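/-
S44 cell [H2] MONO-MAIN, SUB (H2-HT) (helper1), file 3: TAMENESS.  Prefix `s44ku_`.

`A` a place of `ℚ̄` above the prime `p`, `Γ := A.inertiaSubgroupIn ℚ`, `ζ` a primitive `p`-th root of
unity, `λ := ζ - 1`.

* `s44ku_cyclo_unif` : `λ` is a uniformiser of `A ∩ ℚ(ζ)`: every `t ∈ ℚ(ζ)ˣ` is `λ ^ n · (A-unit)`.
* `s44ku_lam_unif`   : **(TAME)** if `L1 ∋ ζ` is a number field such that every `σ ∈ Γ` with
                       `σ ζ = ζ` fixes `L1` pointwise (`Γ ∩ G_{L1} = Γ ∩ ker χ`), then `λ` is a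
                       uniformiser of `A ∩ L1`: every `x ∈ L1ˣ` is `λ ^ n · (A-unit)`.  So
                       `e(A ∩ L1 | ℤ_(p)) = p - 1` exactly (`p = λ ^ (p - 1) · unit`).
-/
import Mathlib
import Fermat.Agent.S44.Mono.Hilbert
import Fermat.Agent.S44.LocP.PeuAbs

set_option autoImplicit false
set_option linter.style.haveILetI false
set_option linter.unusedSectionVars false

namespace Fermat.Agent.S44

open NumberField IsDedekindDomain Fermat.Agent.S13 Fermat.Agent.S14.Reduction Fermat.Agent.S54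

local notation "Qb" => AlgebraicClosure ℚ

attribute [local instance] Fermat.Agent.S54.galAction
attribute [local instance] Fermat.Agent.S14.Reduction.algebraIntQbar

section Tame

variable {A : ValuationSubring Qb} {p : ℕ} (hp : p.Prime) (hA : A.LiesOverPrime p)

include hp hA in
/-- `λ = ζ - 1` is a uniformiser of `A ∩ ℚ(ζ)`. -/
theorem s44ku_cyclo_unif {ζ : Qb} (hζ : IsPrimitiveRoot ζ p) {t : Qb}
    (ht : t ∈ IntermediateField.adjoin ℚ {ζ}) (ht0 : t ≠ 0) :
    ∃ n : ℤ, A.valuation (t / (ζ - 1) ^ n) = 1 := by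
  haveI : Fact p.Prime := ⟨hp⟩
  haveI : NeZero p := ⟨hp.ne_zero⟩
  have _ : Algebra.IsAlgebraic ℚ Qb := AlgebraicClosure.isAlgebraic ℚ
  have _ : Algebra.IsIntegral ℚ Qb := Algebra.IsAlgebraic.isIntegral
  set F : IntermediateField ℚ Qb := IntermediateField.adjoin ℚ {ζ} with hF
  haveI hFfd : FiniteDimensional ℚ F :=
    IntermediateField.adjoin.finiteDimensional (Algebra.IsIntegral.isIntegral ζ)
  haveI hcyc : IsCyclotomicExtension {p} ℚ F :=
    hζ.intermediateField_adjoin_isCyclotomicExtension ℚ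
  haveI : IsGalois ℚ F := IsCyclotomicExtension.isGalois {p} ℚ F
  haveI : NumberField F := { to_charZero := inferInstance, to_finiteDimensional := hFfd }
  have hζF : ζ ∈ F := IntermediateField.mem_adjoin_simple_self ℚ ζ
  set ζ' : F := ⟨ζ, hζF⟩ with hζ'
  have hζ'p : IsPrimitiveRoot ζ' p :=
    IsPrimitiveRoot.of_map_of_injective (f := algebraMap F Qb)
      (show IsPrimitiveRoot (algebraMap F Qb ζ') p from hζ) (algebraMap F Qb).injective
  -- the place of `F` cut out by `A` is `(ζ - 1)`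
  set w := s44ku_placeOf F hp hA with hw
  haveI hQ := g1_idealOf_liesOver hp hA
  haveI hlies : w.asIdeal.LiesOver (Ideal.span {(p : ℤ)}) := ⟨by
    show _ = ((g1_idealOf A).under (𝓞 F)).under ℤ
    rw [Ideal.under_under]
    exact hQ.over⟩
  have hwspan : w.asIdeal = Ideal.span {hζ'p.toInteger - 1} :=
    IsCyclotomicExtension.Rat.eq_span_zeta_sub_one_of_liesOver' p F hζ'p w.asIdeal
  have hlam0 : hζ'p.toInteger - 1 ≠ 0 := by
    intro h0
    apply w.ne_bot
    rw [hwspan, h0, Ideal.span_singleton_eq_bot]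
  have hvallam : w.valuation F (ζ' - 1) = WithZero.exp (-1 : ℤ) := by
    have h1 := w.intValuation_singleton hlam0 hwspan
    rw [← w.valuation_of_algebraMap (K := F)] at h1
    have h2 : algebraMap (𝓞 F) F (hζ'p.toInteger - 1) = ζ' - 1 := by
      rw [map_sub, map_one]
      rfl
    rw [← h2]
    exact h1
  -- the valuation of `t`
  set t' : F := ⟨t, ht⟩ with ht'
  have ht0' : t' ≠ 0 := fun h => ht0 (congrArg Subtype.val h)
  have hne : w.valuation F t' ≠ 0 := (Valuation.ne_zero_iff _).2 ht0'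
  obtain ⟨m, hm⟩ := WithZero.ne_zero_iff_exists.1 hne
  refine ⟨-(WithZero.log (w.valuation F t')), ?_⟩
  have hval : w.valuation F (t' / (ζ' - 1) ^ (-(WithZero.log (w.valuation F t')))) = 1 := by
    rw [map_div₀, map_zpow₀, hvallam, ← WithZero.exp_zsmul, smul_eq_mul, neg_mul_neg, mul_one,
      WithZero.exp_log hne]
    exact div_self hne
  have h2 := s44ku_val_eq_of_place F hp hA hval
  have hcast : ((t' / (ζ' - 1) ^ (-(WithZero.log (w.valuation F t'))) : F) : Qb) =
      t / (ζ - 1) ^ (-(WithZero.log (w.valuation F t'))) := by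
    show algebraMap F Qb (t' / (ζ' - 1) ^ (-(WithZero.log (w.valuation F t')))) = _
    rw [map_div₀, map_zpow₀, map_sub, map_one]
    rfl
  rw [hcast] at h2
  exact h2

include hp hA in
/-- **(TAME)**: if every element of the inertia group of `A` fixing `ζ` fixes the number field
`L1 ∋ ζ` pointwise, then `λ = ζ - 1` is a uniformiser of `A ∩ L1`. -/
theorem s44ku_lam_unif {ζ : Qb} (hζ : IsPrimitiveRoot ζ p) (L1 : IntermediateField ℚ Qb)
    [FiniteDimensional ℚ L1] (hζL : ζ ∈ L1)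
    (hI : ∀ σ ∈ A.inertiaSubgroupIn ℚ, σ ζ = ζ → ∀ y ∈ L1, σ y = y)
    {x : Qb} (hx : x ∈ L1) (hx0 : x ≠ 0) :
    ∃ n : ℤ, A.valuation (x / (ζ - 1) ^ n) = 1 := by
  have hle : IntermediateField.adjoin ℚ {ζ} ≤ L1 := by
    rw [IntermediateField.adjoin_simple_le_iff]
    exact hζL
  obtain ⟨t, htF, ht0, hxt⟩ := s44ku_val_eq hp hA (IntermediateField.adjoin ℚ {ζ}) L1 hle
    (fun σ hσ hσF => hI σ hσ (hσF ζ (IntermediateField.mem_adjoin_simple_self ℚ ζ))) hx hx0
  obtain ⟨n, hn⟩ := s44ku_cyclo_unif hp hA hζ htF ht0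
  refine ⟨n, ?_⟩
  have h1 : x / (ζ - 1) ^ n = (x / t) * (t / (ζ - 1) ^ n) := by
    field_simp
  rw [h1, map_mul, hxt, hn, one_mul]

/-- `v_A(p) = v_A(λ) ^ (p - 1)`: with `s44ku_lam_unif`, `e(A ∩ L1 | ℤ_(p)) = p - 1`. -/
theorem s44ku_val_p {ζ : Qb} (hζ : IsPrimitiveRoot ζ p) (hp : p.Prime) :
    A.valuation (ζ - 1) ^ (p - 1) = A.valuation (p : Qb) := by
  haveI : Fact p.Prime := ⟨hp⟩
  exact s44p_val_zeta_sub_one_pow A.valuation hζ

end Tame

end Fermat.Agent.S44
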