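/-
Project S44 (Mazur–Ribet at `p`), cell [H2] MONO-MAIN, SUB [S-TR] (helper5; for helper4 #4051 (5),
helper23's "Layer C").  Prefix `s44kt_`.

TRANSPORT OF THE KUMMER PACKAGE `s44kq_Pack` ALONG A FIELD HOMOMORPHISM `ι : Ω₁ →+* Ω₂`
(in use: `ι = coeffMap (L'₁ → L'₂) : L'₁((q)) → L'₂((q))`, `G_i ≤ Gal(L'_i/ℚ)`, `r` = restriction).

Given a package `P₁` over `(Ω₁, G₁, E₁)` and ANY package `P₂` over `(Ω₂, G₂, E₂)` for the transported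
base data `(ι ζ, ι y, ι fv, ι β)` (only its field `Lb₂ = E₂(ι y)` and deck transformation `τ₂` are kept),
the images `ι c, ι g, ι Φ, ι h` form a package over `(Ω₂, G₂, E₂)` with the same `(Lb₂, τ₂)`, and
`τ₂^[j] (ι z) = ι (τ₁^[j] z)` for all `z ∈ Lb₁`.
-/
import Mathlib
import Fermat.Agent.S44.Mono.KummerQ

set_option autoImplicit false
set_option linter.style.haveILetI false
set_option linter.unusedSectionVars false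

noncomputable section

namespace Fermat.Agent.S44

open Polynomial

section Core

variable {Ω : Type*} [Field Ω]

/-- a ring automorphism of `Lb ⊇ E(y)` which is the identity on `E` and maps `y` to `ζ y` maps
`R(y)` to `R(ζ y)`. -/
theorem s44kt_tau_eval {E Lb : Subfield Ω} (τ : ↥Lb ≃+* ↥Lb) {ζ y : Ω} (hle : E ≤ Lb)
    (hy : y ∈ Lb) (hτE : ∀ z : ↥Lb, (z : Ω) ∈ E → τ z = z)
    (hτy : ((τ ⟨y, hy⟩ : ↥Lb) : Ω) = ζ * y) (R : (↥E)[X])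
    (hz : eval₂ E.subtype y R ∈ Lb) :
    ((τ ⟨eval₂ E.subtype y R, hz⟩ : ↥Lb) : Ω) = eval₂ E.subtype (ζ * y) R := by
  let incl : ↥E →+* ↥Lb := Subfield.inclusion hle
  have h1 : (⟨eval₂ E.subtype y R, hz⟩ : ↥Lb) = eval₂ incl ⟨y, hy⟩ R := by
    apply Subtype.ext
    have := Polynomial.hom_eval₂ R incl Lb.subtype ⟨y, hy⟩
    change eval₂ E.subtype y R = Lb.subtype (eval₂ incl ⟨y, hy⟩ R)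
    rw [this]
    rfl
  rw [h1]
  have h2 : τ (eval₂ incl ⟨y, hy⟩ R) = eval₂ ((τ : ↥Lb →+* ↥Lb).comp incl) (τ ⟨y, hy⟩) R :=
    Polynomial.hom_eval₂ R incl (τ : ↥Lb →+* ↥Lb) ⟨y, hy⟩
  have h3 : (τ : ↥Lb →+* ↥Lb).comp incl = incl := by
    ext e
    have := hτE (incl e) e.2
    exact congrArg Subtype.val this
  rw [h2, h3]
  have h4 := Polynomial.hom_eval₂ R incl Lb.subtype (τ ⟨y, hy⟩)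
  have h5 : Lb.subtype (eval₂ incl (τ ⟨y, hy⟩) R) = ((eval₂ incl (τ ⟨y, hy⟩) R : ↥Lb) : Ω) := rfl
  rw [← h5, h4]
  have h6 : Lb.subtype (τ ⟨y, hy⟩) = ζ * y := hτy
  rw [h6]
  rfl

end Core

section Transport

variable {Ω₁ Ω₂ : Type*} [Field Ω₁] [Field Ω₂] {G₁ G₂ : Type*} [Group G₁] [Group G₂]
  [MulSemiringAction G₁ Ω₁] [MulSemiringAction G₂ Ω₂]

/-- **the core of the transport**: `ι` maps `Lb₁ = E₁(y)` into `Lb₂ ⊇ E₂(ι y)` and intertwines the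
deck transformations. -/
theorem s44kt_core (ι : Ω₁ →+* Ω₂) {E₁ Lb₁ : Subfield Ω₁} {E₂ Lb₂ : Subfield Ω₂}
    (hE : ∀ x ∈ E₁, ι x ∈ E₂) {ζ y : Ω₁}
    (τ₁ : ↥Lb₁ ≃+* ↥Lb₁) (hle₁ : E₁ ≤ Lb₁) (hy₁ : y ∈ Lb₁)
    (hgen₁ : ∀ z ∈ Lb₁, ∃ R : (↥E₁)[X], z = eval₂ E₁.subtype y R)
    (hτE₁ : ∀ z : ↥Lb₁, (z : Ω₁) ∈ E₁ → τ₁ z = z)
    (hτy₁ : ((τ₁ ⟨y, hy₁⟩ : ↥Lb₁) : Ω₁) = ζ * y)
    (τ₂ : ↥Lb₂ ≃+* ↥Lb₂) (hle₂ : E₂ ≤ Lb₂) (hy₂ : ι y ∈ Lb₂)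
    (hτE₂ : ∀ z : ↥Lb₂, (z : Ω₂) ∈ E₂ → τ₂ z = z)
    (hτy₂ : ((τ₂ ⟨ι y, hy₂⟩ : ↥Lb₂) : Ω₂) = ι ζ * ι y) (z : ↥Lb₁) :
    ∃ hz : ι z ∈ Lb₂, ((τ₂ ⟨ι z, hz⟩ : ↥Lb₂) : Ω₂) = ι (τ₁ z) := by
  obtain ⟨R, hR⟩ := hgen₁ z z.2
  let ιE : ↥E₁ →+* ↥E₂ := (ι.comp E₁.subtype).codRestrict E₂ (fun e => hE e e.2)
  have hcomp : E₂.subtype.comp ιE = ι.comp E₁.subtype := by
    ext e
    rfl
  -- `ι z = (R.map ιE)(ι y)`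
  have h1 : ι z = eval₂ E₂.subtype (ι y) (R.map ιE) := by
    rw [eval₂_map, hcomp, hR, Polynomial.hom_eval₂]
  have hmem : eval₂ E₂.subtype (ι y) (R.map ιE) ∈ Lb₂ :=
    s44kq_eval₂_mem Lb₂ E₂.subtype (ι y) (fun e => hle₂ e.2) hy₂ _
  have hz : ι z ∈ Lb₂ := by rw [h1]; exact hmem
  refine ⟨hz, ?_⟩
  have h2 : (⟨ι z, hz⟩ : ↥Lb₂) = ⟨eval₂ E₂.subtype (ι y) (R.map ιE), hmem⟩ := Subtype.ext h1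
  rw [h2, s44kt_tau_eval τ₂ hle₂ hy₂ hτE₂ hτy₂ (R.map ιE) hmem]
  -- `τ₁ z = R(ζ y)`
  have hz1 : eval₂ E₁.subtype y R ∈ Lb₁ := by rw [← hR]; exact z.2
  have h3 : z = ⟨eval₂ E₁.subtype y R, hz1⟩ := Subtype.ext hR
  have h4 : ((τ₁ z : ↥Lb₁) : Ω₁) = eval₂ E₁.subtype (ζ * y) R := by
    rw [h3]
    exact s44kt_tau_eval τ₁ hle₁ hy₁ hτE₁ hτy₁ R hz1
  rw [h4, eval₂_map, hcomp, Polynomial.hom_eval₂, map_mul]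

/-- the restriction of `ι` to `Lb₁ → Lb₂`. -/
theorem s44kt_iterate (ι : Ω₁ →+* Ω₂) {Lb₁ : Subfield Ω₁} {Lb₂ : Subfield Ω₂}
    (τ₁ : ↥Lb₁ ≃+* ↥Lb₁) (τ₂ : ↥Lb₂ ≃+* ↥Lb₂)
    (h : ∀ z : ↥Lb₁, ∃ hz : ι z ∈ Lb₂, ((τ₂ ⟨ι z, hz⟩ : ↥Lb₂) : Ω₂) = ι (τ₁ z))
    (j : ℕ) (z : ↥Lb₁) :
    ∃ hz : ι z ∈ Lb₂, (((⇑τ₂)^[j] ⟨ι z, hz⟩ : ↥Lb₂) : Ω₂) = ι (((⇑τ₁)^[j] z : ↥Lb₁) : Ω₁) := by
  induction j generalizing z with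
  | zero => exact ⟨(h z).1, rfl⟩
  | succ j ih =>
    obtain ⟨hz, hτ⟩ := h z
    refine ⟨hz, ?_⟩
    rw [Function.iterate_succ_apply, Function.iterate_succ_apply]
    obtain ⟨hz', hτ'⟩ := ih (τ₁ z)
    have : τ₂ ⟨ι z, hz⟩ = ⟨ι (τ₁ z), hz'⟩ := Subtype.ext hτ
    rw [this]
    exact hτ'

/-- **[S-TR] transport of the Kummer package.** -/
theorem s44kt_transport (ι : Ω₁ →+* Ω₂) (r : G₂ → G₁)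
    (hr : ∀ (σ : G₂) (x : Ω₁), σ • ι x = ι (r σ • x))
    {E₁ : Subfield Ω₁} {E₂ : Subfield Ω₂} (hE : ∀ x ∈ E₁, ι x ∈ E₂)
    {p : ℕ} {ζ y fv β : Ω₁} {lc₁ : Ω₁ →*₀ Ω₁} {lc₂ : Ω₂ →*₀ Ω₂}
    (hlc : ∀ x, lc₂ (ι x) = ι (lc₁ x))
    {Lb₁ : Subfield Ω₁} {τ₁ : ↥Lb₁ ≃+* ↥Lb₁} {c : Ω₁} {g Φ h : ↥Lb₁}
    (P₁ : s44kq_Pack (G := G₁) E₁ p ζ y fv β lc₁ Lb₁ τ₁ c g Φ h)
    {Lb₂ : Subfield Ω₂} {τ₂ : ↥Lb₂ ≃+* ↥Lb₂} {c' : Ω₂} {g' Φ' h' : ↥Lb₂}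
    (P₂ : s44kq_Pack (G := G₂) E₂ p (ι ζ) (ι y) (ι fv) (ι β) lc₂ Lb₂ τ₂ c' g' Φ' h') :
    ∃ g₂ Φ₂ h₂ : ↥Lb₂, (g₂ : Ω₂) = ι g ∧ (Φ₂ : Ω₂) = ι Φ ∧ (h₂ : Ω₂) = ι h ∧
      s44kq_Pack (G := G₂) E₂ p (ι ζ) (ι y) (ι fv) (ι β) lc₂ Lb₂ τ₂ (ι c) g₂ Φ₂ h₂ ∧
      ∀ (j : ℕ) (z : ↥Lb₁), ∃ hz : ι z ∈ Lb₂,
        (((⇑τ₂)^[j] ⟨ι z, hz⟩ : ↥Lb₂) : Ω₂) = ι (((⇑τ₁)^[j] z : ↥Lb₁) : Ω₁) := by
  have hcore : ∀ z : ↥Lb₁, ∃ hz : ι z ∈ Lb₂, ((τ₂ ⟨ι z, hz⟩ : ↥Lb₂) : Ω₂) = ι (τ₁ z) :=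
    s44kt_core ι hE τ₁ P₁.le P₁.y_mem P₁.gen P₁.τ_E (P₁.τ_y P₁.y_mem)
      τ₂ P₂.le P₂.y_mem P₂.τ_E (P₂.τ_y P₂.y_mem)
  obtain ⟨hg, hτg⟩ := hcore g
  obtain ⟨hΦ, hτΦ⟩ := hcore Φ
  obtain ⟨hh, -⟩ := hcore h
  refine ⟨⟨ι g, hg⟩, ⟨ι Φ, hΦ⟩, ⟨ι h, hh⟩, rfl, rfl, rfl, ?_, s44kt_iterate ι τ₁ τ₂ hcore⟩
  have hg0 : (g : Ω₁) ≠ 0 := fun h0 => P₁.g_ne (Subtype.ext h0)
  refine
    { le := P₂.le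
      y_mem := P₂.y_mem
      gen := P₂.gen
      stable := P₂.stable
      τ_E := P₂.τ_E
      τ_y := P₂.τ_y
      τ_smul := P₂.τ_smul
      τ_fixed := P₂.τ_fixed
      τ_pow := P₂.τ_pow
      g_ne := ?_
      c_ne := ?_
      c_lc := ?_
      Φ_eq := ?_
      h_eq := ?_
      Φ_fix := ?_
      h_fix := ?_
      rel := ?_ }
  · intro h0
    exact hg0 ((map_eq_zero ι).1 (congrArg Subtype.val h0))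
  · exact (map_ne_zero ι).2 P₁.c_ne
  · rw [hlc, P₁.c_lc]
  · change ι Φ = ι c * ι fv * ι g ^ p
    rw [P₁.Φ_eq, map_mul, map_mul, map_pow]
  · change ι h = ((τ₂ ⟨ι g, hg⟩ : ↥Lb₂) : Ω₂) / ι g * ι β
    rw [hτg, P₁.h_eq, map_mul, map_div₀]
  · intro σ
    change σ • ι Φ = ι Φ
    rw [hr, P₁.Φ_fix]
  · intro σ
    change σ • ι h = ι h
    rw [hr, P₁.h_fix]
  · change ((τ₂ ⟨ι Φ, hΦ⟩ : ↥Lb₂) : Ω₂) * ι β ^ p = ι h ^ p * ι Φ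
    rw [hτΦ, ← map_pow, ← map_mul, P₁.rel, map_mul, map_pow]

end Transport

end Fermat.Agent.S44
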