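/-
Project S44 (Mazur–Ribet at `p`), cell [H2] MONO-MAIN, Layer 2.5 for the case `X = 0` (helper25).
Prefix `s44gnt_`.

`s44gnt_pair` = `s44gl_pair_triv` (`Mono/LegPairTriv.lean`) AT a normal number field `L' ⊆ ℚ̄`,
`O' = A ∩ L'`, `Γ|L' = s44mn_G (A.inertiaSubgroupIn ℚ) L'`, FED STRAIGHT FROM THE CONCLUSION OF
`s44kx_unif_triv` (`Mono/KummerTriv.lean`): `Φ = c · φ(fv1) · g ^ p` fixed by `s44mn_G H L'` for a
subgroup `H` containing the inertia group of `A`, with rational zeros and poles.  Inside: `hin :=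
s44mi_inert`, `hbase := s44mi_base`, `hfv`/`hordV := s44gv_ord_rep`.  The remaining hypotheses are
the two node packages of `s44gl_pair_triv`, verbatim.
-/
import Mathlib
import Fermat.Agent.S44.Mono.LegPairTriv
import Fermat.Agent.S44.Mono.KummerTriv
import Fermat.Agent.S44.Mono.InertGlue
import Fermat.Agent.S44.Mono.MainOrdV

set_option autoImplicit false
set_option linter.unusedSectionVars false
set_option linter.unusedVariables false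
set_option linter.style.haveILetI false

noncomputable section

namespace Fermat.Agent.S44

open Fermat.Agent.SS Fermat.Agent.JT3 IsLocalRing Polynomial AlgebraicCurve ModularCurve

local notation "Qb" => AlgebraicClosure ℚ

section NF

variable (p : ℕ) [hp : Fact p.Prime] (A : ValuationSubring Qb) (hA : A.LiesOverPrime p)
  (L' : IntermediateField ℚ Qb) [hnf : NumberField ↥L'] [hn : Normal ℚ L']
  [IsDiscreteValuationRing ↥(A.comap (algebraMap ↥L' Qb))]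
  [CharP (ResidueField ↥(A.comap (algebraMap ↥L' Qb))) p]
  {π : ↥(A.comap (algebraMap ↥L' Qb))} (hπ : Irreducible π)
  (M : ℕ) [NeZero M] [NeZero p] (hp2 : ¬ 2 ∣ p) (hpM : ¬ p ∣ M)
  (ζ : ↥L') (hζ : IsPrimitiveRoot ζ M)

include hA hζ in
set_option synthInstance.maxHeartbeats 400000 in
set_option maxHeartbeats 1600000 in
/-- **THE TWO-NODE THEOREM AT THE LEGENDRE COVER OVER `L'`, CASE `X = 0`.** -/
theorem s44gnt_pair
    {H : Subgroup s44_G} (hΓH : A.inertiaSubgroupIn ℚ ≤ H)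
    {V : JZero (M * p)} {fV : modularFunctionFieldBar (M * p)} (hrep : s44f_Rep (M * p) p V fV)
    {fv1 : ↥(lg_F ↥L' (M * p))} {c : ↥L'} {g Φ : ↥(lg_E ↥L' (M * p))}
    (hfv1 : ssm_al_iotaF ↥L' (M * p) fv1 = fV) (hc0 : c ≠ 0) (hg0 : g ≠ 0)
    (hΦ : (Φ : LaurentSeries ↥L') = algebraMap ↥L' (LaurentSeries ↥L') c *
      lg_phi ↥L' (fv1 : LaurentSeries ↥L') * (g : LaurentSeries ↥L') ^ p)
    (hσΦ : ∀ σ : ↥(s44mn_G H L'),
      coeffMap (((σ : ↥L' ≃ₐ[ℚ] ↥L') : ↥L' ≃ₐ[ℚ] ↥L') : ↥L' →+* ↥L')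
        (Φ : LaurentSeries ↥L') = (Φ : LaurentSeries ↥L'))
    (hRΦ : ∀ v : Place ↥L' ↥(lg_E ↥L' (M * p)), v.ord Φ ≠ 0 → ss_RatPlace v)
    -- the two crossing points, with their uniform coordinates
    (𝔫 𝔫' : Ideal ↥(fc_chart ↥(A.comap (algebraMap ↥L' Qb))
      ({lg_lamE (M * p)} : Set ↥(lg_E ↥L' (M * p)))))
    [h𝔫 : 𝔫.IsMaximal] [h𝔫' : 𝔫'.IsMaximal]
    (h1 : ssm_tp_P (fc_chart ↥(A.comap (algebraMap ↥L' Qb))
        ({lg_lamE (M * p)} : Set ↥(lg_E ↥L' (M * p))))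
      (ssm_gl_V1 (A.comap (algebraMap ↥L' Qb)) hπ M p) ≤ 𝔫)
    (h1' : ssm_tp_P (fc_chart ↥(A.comap (algebraMap ↥L' Qb))
        ({lg_lamE (M * p)} : Set ↥(lg_E ↥L' (M * p))))
      (ssm_gl_V1 (A.comap (algebraMap ↥L' Qb)) hπ M p) ≤ 𝔫')
    {u v u' v' : ↥(lg_E ↥L' (M * p))}
    (hU : s44mu_NodeAtU π (fc_chart1_le (lg_lamE (M * p) : ↥(lg_E ↥L' (M * p))))
      (ssm_tp_P (fc_chart ↥(A.comap (algebraMap ↥L' Qb)) ({lg_lamE (M * p), (lg_lamE (M * p))⁻¹} :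
        Set ↥(lg_E ↥L' (M * p)))) (ssm_gl_V1 (A.comap (algebraMap ↥L' Qb)) hπ M p))
      (ssm_tp_P (fc_chart ↥(A.comap (algebraMap ↥L' Qb)) ({lg_lamE (M * p), (lg_lamE (M * p))⁻¹} :
        Set ↥(lg_E ↥L' (M * p)))) (ssm_gl_V2 (A.comap (algebraMap ↥L' Qb)) hπ M p hp2 hpM))
      𝔫 u v ((p : ℕ) : ↥(A.comap (algebraMap ↥L' Qb))))
    (hU' : s44mu_NodeAtU π (fc_chart1_le (lg_lamE (M * p) : ↥(lg_E ↥L' (M * p))))
      (ssm_tp_P (fc_chart ↥(A.comap (algebraMap ↥L' Qb)) ({lg_lamE (M * p), (lg_lamE (M * p))⁻¹} :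
        Set ↥(lg_E ↥L' (M * p)))) (ssm_gl_V1 (A.comap (algebraMap ↥L' Qb)) hπ M p))
      (ssm_tp_P (fc_chart ↥(A.comap (algebraMap ↥L' Qb)) ({lg_lamE (M * p), (lg_lamE (M * p))⁻¹} :
        Set ↥(lg_E ↥L' (M * p)))) (ssm_gl_V2 (A.comap (algebraMap ↥L' Qb)) hπ M p hp2 hpM))
      𝔫' u' v' ((p : ℕ) : ↥(A.comap (algebraMap ↥L' Qb))))
    (hσu : ∀ σ : ↥L' ≃+* ↥L', ss_Inert (A.comap (algebraMap ↥L' Qb)) σ →
      ssm_sg_aut (M * p) σ u = u)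
    (hσu' : ∀ σ : ↥L' ≃+* ↥L', ss_Inert (A.comap (algebraMap ↥L' Qb)) σ →
      ssm_sg_aut (M * p) σ u' = u')
    (ν ν' : ↥(lg_E ↥L' (M * p)) → ℤ) :
    haveI := s44mci_leg_isAlg ↥L' (A.comap (algebraMap ↥L' Qb)) (M * p)
    haveI := s44mci_leg_noeth ↥L' (A.comap (algebraMap ↥L' Qb)) (M * p)
    haveI := s44mci_leg_ic ↥L' (A.comap (algebraMap ↥L' Qb)) (M * p)
    haveI := ssl_loc_isNoetherianRing (F0 := ↥(lg_E ↥L' (M * p))) 𝔫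
    haveI := ssl_loc_isLocalRing (F0 := ↥(lg_E ↥L' (M * p))) 𝔫
    haveI := ssl_loc_isNoetherianRing (F0 := ↥(lg_E ↥L' (M * p))) 𝔫'
    haveI := ssl_loc_isLocalRing (F0 := ↥(lg_E ↥L' (M * p))) 𝔫'
    ∀ (huS : u ∈ ssl_locSub ↥(lg_E ↥L' (M * p)) 𝔫) (huS' : u' ∈ ssl_locSub ↥(lg_E ↥L' (M * p)) 𝔫'),
    s44nu_IsNu
        (algebraMap ↥(fc_chart ↥(A.comap (algebraMap ↥L' Qb))
            ({lg_lamE (M * p)} : Set ↥(lg_E ↥L' (M * p))))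
          (ssl_locSub ↥(lg_E ↥L' (M * p)) 𝔫)
          (algebraMap ↥(A.comap (algebraMap ↥L' Qb)) ↥(fc_chart ↥(A.comap (algebraMap ↥L' Qb))
            ({lg_lamE (M * p)} : Set ↥(lg_E ↥L' (M * p)))) π))
        (⟨u, huS⟩ : ssl_locSub ↥(lg_E ↥L' (M * p)) 𝔫)
        (s44tl_br 𝔫 (fc_chart1_le (lg_lamE (M * p) : ↥(lg_E ↥L' (M * p))))
          (ssm_tp_P (fc_chart ↥(A.comap (algebraMap ↥L' Qb))
            ({lg_lamE (M * p), (lg_lamE (M * p))⁻¹} :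
            Set ↥(lg_E ↥L' (M * p)))) (ssm_gl_V1 (A.comap (algebraMap ↥L' Qb)) hπ M p))) ν →
    s44nu_IsNu
        (algebraMap ↥(fc_chart ↥(A.comap (algebraMap ↥L' Qb))
            ({lg_lamE (M * p)} : Set ↥(lg_E ↥L' (M * p))))
          (ssl_locSub ↥(lg_E ↥L' (M * p)) 𝔫')
          (algebraMap ↥(A.comap (algebraMap ↥L' Qb)) ↥(fc_chart ↥(A.comap (algebraMap ↥L' Qb))
            ({lg_lamE (M * p)} : Set ↥(lg_E ↥L' (M * p)))) π))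
        (⟨u', huS'⟩ : ssl_locSub ↥(lg_E ↥L' (M * p)) 𝔫')
        (s44tl_br 𝔫' (fc_chart1_le (lg_lamE (M * p) : ↥(lg_E ↥L' (M * p))))
          (ssm_tp_P (fc_chart ↥(A.comap (algebraMap ↥L' Qb))
            ({lg_lamE (M * p), (lg_lamE (M * p))⁻¹} :
            Set ↥(lg_E ↥L' (M * p)))) (ssm_gl_V1 (A.comap (algebraMap ↥L' Qb)) hπ M p))) ν' →
    ν (lg_phiE (L := ↥L') (N := M * p) fv1) ≡ ν' (lg_phiE (L := ↥L') (N := M * p) fv1)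
      [ZMOD (p : ℤ)] := by
  classical
  haveI := s44mci_leg_isAlg ↥L' (A.comap (algebraMap ↥L' Qb)) (M * p)
  haveI := s44mci_leg_noeth ↥L' (A.comap (algebraMap ↥L' Qb)) (M * p)
  haveI := s44mci_leg_ic ↥L' (A.comap (algebraMap ↥L' Qb)) (M * p)
  haveI := ssl_loc_isNoetherianRing (F0 := ↥(lg_E ↥L' (M * p))) 𝔫
  haveI := ssl_loc_isLocalRing (F0 := ↥(lg_E ↥L' (M * p))) 𝔫
  haveI := ssl_loc_isNoetherianRing (F0 := ↥(lg_E ↥L' (M * p))) 𝔫'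
  haveI := ssl_loc_isLocalRing (F0 := ↥(lg_E ↥L' (M * p))) 𝔫'
  intro huS huS' hν hν'
  -- `p = π ^ e' · unit`
  have hp0 : ((p : ℕ) : ↥(A.comap (algebraMap ↥L' Qb))) ≠ 0 := by
    intro h
    have h1 := congrArg (Subtype.val : ↥(A.comap (algebraMap ↥L' Qb)) → ↥L') h
    have h2 : ((p : ℕ) : ↥L') = 0 := by simpa using h1
    exact (NeZero.ne p) (Nat.cast_eq_zero.1 h2)
  obtain ⟨e', w, hw⟩ := IsDiscreteValuationRing.eq_unit_mul_pow_irreducible hp0 hπ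
  have hqe : ((p : ℕ) : ↥(A.comap (algebraMap ↥L' Qb))) = π ^ e' * (w : ↥(A.comap (algebraMap ↥L' Qb))) := by
    rw [hw, mul_comm]
  have hbase : ∀ c₀ : ↥L', c₀ ≠ 0 →
      (∀ γ : ↥(s44mn_G (A.inertiaSubgroupIn ℚ) L'), γ • c₀ = c₀) →
      ∃ (n : ℤ) (ω : (↥(A.comap (algebraMap ↥L' Qb)))ˣ),
        c₀ = (π : ↥L') ^ ((e' : ℤ) * n) * ((ω : ↥(A.comap (algebraMap ↥L' Qb))) : ↥L') :=
    fun c₀ hc₀ hfix => s44mi_base p A hA L' hπ w.isUnit hqe c₀ hc₀ (fun g hg => hfix ⟨g, hg⟩)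
  obtain ⟨hfv, hordV⟩ := s44gv_ord_rep ↥L' (M * p) hrep fv1 hfv1
  have hΦ' : Φ = algebraMap ↥L' ↥(lg_E ↥L' (M * p)) c *
      lg_phiE (L := ↥L') (N := M * p) fv1 * g ^ p := Subtype.ext (by rw [hΦ]; rfl)
  have hσΦ' : ∀ γ : ↥(s44mn_G (A.inertiaSubgroupIn ℚ) L'),
      coeffMap ((MulSemiringAction.toRingEquiv ↥(s44mn_G (A.inertiaSubgroupIn ℚ) L') ↥L' γ :
        ↥L' ≃+* ↥L') : ↥L' →+* ↥L') (Φ : LaurentSeries ↥L') = (Φ : LaurentSeries ↥L') :=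
    fun γ => (coeffMap_congr (RingHom.ext fun a => rfl) _).trans
      (hσΦ ⟨γ.1, s44mn_G_mono hΓH L' γ.2⟩)
  exact s44gl_pair_triv ↥L' (A.comap (algebraMap ↥L' Qb)) hπ M p hp2 hpM ζ hζ
    (G := ↥(s44mn_G (A.inertiaSubgroupIn ℚ) L')) (fun γ => s44mi_inert A L' γ.2) hqe hbase hc0 hg0
    hΦ' hσΦ' hfv hordV hRΦ 𝔫 𝔫' h1 h1' hU hU' hσu hσu' ν ν' huS huS' hν hν'

end NF

end Fermat.Agent.S44
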