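/-
Project S44 (Mazur–Ribet at `p`), cell [H2] MONO-MAIN, Layer 3, THE BOTTOM OF `Mono/Main.lean`
(helper16).  Prefix `s44h2e_`.

At ONE number field `L1` (binders of `Mono/MainND.lean`): from TWO supersingular node packages
`s44h2_NDAt … Q L1 hπ`, `s44h2_NDAt … Q' L1 hπ`, a model `fv1 ≠ 0` over `L1` of a representing function
of `V`, and the two-node congruence in the conclusion shape of `s44gl_pair` (`Mono/LegPair.lean`),
quantified over the node data: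

  `s44h2e_end` : `∃ fb T T' cV cV', s44e_Fbar A M p V fb ∧ T · ord_Q ū = 12 ∧ T' · ord_Q' ū = 12 ∧
                   T · ord_Q fb ≡ cV ∧ T' · ord_Q' fb ≡ cV' ∧ cV ≡ cV' (mod p)`

— exactly the per-pair conclusion consumed by `s44mend_mono` (`Mono/MonoEnd.lean`).

Inside: Gauss normalisation `f1 := π ^ n · fv1` a unit of `W1` (`s44mm_exists_norm`), `fb := red f1`
(`s44mm_fbar`, `red := s44nlr_red`), `cV := ν (φ f1)`, `cV' := ν' (φ f1)`; the normalised orders do not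
see `π ^ n` (`s44mm_nu_phi_norm`).
-/
import Mathlib
import Fermat.Agent.S44.Mono.MainND
import Fermat.Agent.S44.Mono.MainNorm
import Fermat.Agent.S44.Mono.MainSlope

set_option autoImplicit false
set_option linter.unusedSectionVars false
set_option linter.style.haveILetI false
set_option linter.unusedVariables false

noncomputable section

namespace Fermat.Agent.S44

open Polynomial ModularCurve AlgebraicCurve IntermediateField IsLocalRing
open Fermat.Agent.JT3 Fermat.Agent.SS Fermat.Agent.S35 Fermat.Agent.S24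

local notation "Qb" => AlgebraicClosure ℚ

section End

set_option synthInstance.maxHeartbeats 400000

variable (A : ValuationSubring Qb) {p : ℕ} [hp : Fact p.Prime] (hA : A.LiesOverPrime p)
  (M : ℕ) [NeZero M] [NeZero p] [NeZero (M * p)] (hpM : ¬ p ∣ M) (hp2 : ¬ 2 ∣ p)

set_option maxHeartbeats 1600000 in
/-- **THE BOTTOM OF LAYER 3.** -/
theorem s44h2e_end (Q Q' : Place (s44e_kA A) (s44e_FF A M)) (L1 : IntermediateField ℚ Qb)
    [NumberField ↥L1] [IsDiscreteValuationRing ↥(A.comap (algebraMap L1 Qb))]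
    [CharP (ResidueField ↥(A.comap (algebraMap L1 Qb))) p]
    {π : ↥(A.comap (algebraMap L1 Qb))} (hπ : Irreducible π)
    (hN : s44h2_NDAt A hA M hpM hp2 Q L1 hπ) (hN' : s44h2_NDAt A hA M hpM hp2 Q' L1 hπ)
    {V : JZero (M * p)} {fv1 : ↥(lg_F L1 (M * p))} (hfv1 : fv1 ≠ 0)
    (hrepV : s44f_Rep (M * p) p V (ssm_al_iotaF L1 (M * p) fv1))
    (hpair : ∀ (𝔫 𝔫' : Ideal ↥(fc_chart ↥(A.comap (algebraMap L1 Qb))
        ({lg_lamE (M * p)} : Set ↥(lg_E L1 (M * p)))))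
      [h𝔫 : 𝔫.IsMaximal] [h𝔫' : 𝔫'.IsMaximal]
      (h1 : ssm_tp_P (fc_chart ↥(A.comap (algebraMap L1 Qb))
          ({lg_lamE (M * p)} : Set ↥(lg_E L1 (M * p))))
        (ssm_gl_V1 (A.comap (algebraMap L1 Qb)) hπ M p) ≤ 𝔫)
      (h1' : ssm_tp_P (fc_chart ↥(A.comap (algebraMap L1 Qb))
          ({lg_lamE (M * p)} : Set ↥(lg_E L1 (M * p))))
        (ssm_gl_V1 (A.comap (algebraMap L1 Qb)) hπ M p) ≤ 𝔫')
      {u v u' v' : ↥(lg_E L1 (M * p))}
      (hU : s44mu_NodeAtU π (fc_chart1_le (lg_lamE (M * p) : ↥(lg_E L1 (M * p))))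
        (ssm_tp_P (fc_chart ↥(A.comap (algebraMap L1 Qb))
          ({lg_lamE (M * p), (lg_lamE (M * p))⁻¹} : Set ↥(lg_E L1 (M * p))))
          (ssm_gl_V1 (A.comap (algebraMap L1 Qb)) hπ M p))
        (ssm_tp_P (fc_chart ↥(A.comap (algebraMap L1 Qb))
          ({lg_lamE (M * p), (lg_lamE (M * p))⁻¹} : Set ↥(lg_E L1 (M * p))))
          (ssm_gl_V2 (A.comap (algebraMap L1 Qb)) hπ M p hp2 hpM)) 𝔫 u v
        ((p : ℕ) : ↥(A.comap (algebraMap L1 Qb))))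
      (hU' : s44mu_NodeAtU π (fc_chart1_le (lg_lamE (M * p) : ↥(lg_E L1 (M * p))))
        (ssm_tp_P (fc_chart ↥(A.comap (algebraMap L1 Qb))
          ({lg_lamE (M * p), (lg_lamE (M * p))⁻¹} : Set ↥(lg_E L1 (M * p))))
          (ssm_gl_V1 (A.comap (algebraMap L1 Qb)) hπ M p))
        (ssm_tp_P (fc_chart ↥(A.comap (algebraMap L1 Qb))
          ({lg_lamE (M * p), (lg_lamE (M * p))⁻¹} : Set ↥(lg_E L1 (M * p))))
          (ssm_gl_V2 (A.comap (algebraMap L1 Qb)) hπ M p hp2 hpM)) 𝔫' u' v'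
        ((p : ℕ) : ↥(A.comap (algebraMap L1 Qb))))
      (hσu : ∀ σ : ↥L1 ≃+* ↥L1, ss_Inert (A.comap (algebraMap L1 Qb)) σ →
        ssm_sg_aut (M * p) σ u = u)
      (hσu' : ∀ σ : ↥L1 ≃+* ↥L1, ss_Inert (A.comap (algebraMap L1 Qb)) σ →
        ssm_sg_aut (M * p) σ u' = u')
      (ν ν' : ↥(lg_E L1 (M * p)) → ℤ),
      haveI := s44mci_leg_isAlg L1 (A.comap (algebraMap L1 Qb)) (M * p)
      haveI := s44mci_leg_noeth L1 (A.comap (algebraMap L1 Qb)) (M * p)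
      haveI := s44mci_leg_ic L1 (A.comap (algebraMap L1 Qb)) (M * p)
      haveI := ssl_loc_isNoetherianRing (F0 := ↥(lg_E L1 (M * p))) 𝔫
      haveI := ssl_loc_isLocalRing (F0 := ↥(lg_E L1 (M * p))) 𝔫
      haveI := ssl_loc_isNoetherianRing (F0 := ↥(lg_E L1 (M * p))) 𝔫'
      haveI := ssl_loc_isLocalRing (F0 := ↥(lg_E L1 (M * p))) 𝔫'
      ∀ (huS : u ∈ ssl_locSub ↥(lg_E L1 (M * p)) 𝔫)
        (huS' : u' ∈ ssl_locSub ↥(lg_E L1 (M * p)) 𝔫'),
      s44nu_IsNu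
          (algebraMap ↥(fc_chart ↥(A.comap (algebraMap L1 Qb))
              ({lg_lamE (M * p)} : Set ↥(lg_E L1 (M * p))))
            (ssl_locSub ↥(lg_E L1 (M * p)) 𝔫)
            (algebraMap ↥(A.comap (algebraMap L1 Qb))
              ↥(fc_chart ↥(A.comap (algebraMap L1 Qb))
                ({lg_lamE (M * p)} : Set ↥(lg_E L1 (M * p)))) π))
          (⟨u, huS⟩ : ssl_locSub ↥(lg_E L1 (M * p)) 𝔫)
          (s44tl_br 𝔫 (fc_chart1_le (lg_lamE (M * p) : ↥(lg_E L1 (M * p))))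
            (ssm_tp_P (fc_chart ↥(A.comap (algebraMap L1 Qb))
              ({lg_lamE (M * p), (lg_lamE (M * p))⁻¹} : Set ↥(lg_E L1 (M * p))))
              (ssm_gl_V1 (A.comap (algebraMap L1 Qb)) hπ M p))) ν →
      s44nu_IsNu
          (algebraMap ↥(fc_chart ↥(A.comap (algebraMap L1 Qb))
              ({lg_lamE (M * p)} : Set ↥(lg_E L1 (M * p))))
            (ssl_locSub ↥(lg_E L1 (M * p)) 𝔫')
            (algebraMap ↥(A.comap (algebraMap L1 Qb))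
              ↥(fc_chart ↥(A.comap (algebraMap L1 Qb))
                ({lg_lamE (M * p)} : Set ↥(lg_E L1 (M * p)))) π))
          (⟨u', huS'⟩ : ssl_locSub ↥(lg_E L1 (M * p)) 𝔫')
          (s44tl_br 𝔫' (fc_chart1_le (lg_lamE (M * p) : ↥(lg_E L1 (M * p))))
            (ssm_tp_P (fc_chart ↥(A.comap (algebraMap L1 Qb))
              ({lg_lamE (M * p), (lg_lamE (M * p))⁻¹} : Set ↥(lg_E L1 (M * p))))
              (ssm_gl_V1 (A.comap (algebraMap L1 Qb)) hπ M p))) ν' →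
      ν (lg_phiE (L := L1) (N := M * p) fv1) ≡
        ν' (lg_phiE (L := L1) (N := M * p) fv1) [ZMOD (p : ℤ)]) :
    ∃ (fb : s44e_FF A M) (T T' cV cV' : ℤ),
      s44e_Fbar A M p V fb ∧
      T * Q.ord (s44e_ubar A M p) = 12 ∧
      T' * Q'.ord (s44e_ubar A M p) = 12 ∧
      T * Q.ord fb ≡ cV [ZMOD (p : ℤ)] ∧
      T' * Q'.ord fb ≡ cV' [ZMOD (p : ℤ)] ∧
      cV ≡ cV' [ZMOD (p : ℤ)] := by
  obtain ⟨𝔫, h𝔫, u, v, T, ν, h1, hU, hσu, ⟨huS, hν⟩, hdict, h12⟩ := hN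
  obtain ⟨𝔫', h𝔫', u', v', T', ν', h1', hU', hσu', ⟨huS', hν'⟩, hdict', h12'⟩ := hN'
  haveI := s44mci_leg_isAlg L1 (A.comap (algebraMap L1 Qb)) (M * p)
  haveI := s44mci_leg_noeth L1 (A.comap (algebraMap L1 Qb)) (M * p)
  haveI := s44mci_leg_ic L1 (A.comap (algebraMap L1 Qb)) (M * p)
  haveI := h𝔫.isPrime
  haveI := h𝔫'.isPrime
  haveI := ssl_loc_isNoetherianRing (F0 := ↥(lg_E L1 (M * p))) 𝔫
  haveI := ssl_loc_isLocalRing (F0 := ↥(lg_E L1 (M * p))) 𝔫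
  haveI := ssl_loc_isNoetherianRing (F0 := ↥(lg_E L1 (M * p))) 𝔫'
  haveI := ssl_loc_isLocalRing (F0 := ↥(lg_E L1 (M * p))) 𝔫'
  -- the Gauss normalisation
  obtain ⟨n, hmem, hunit⟩ := s44mm_exists_norm A M L1 hπ fv1 hfv1
  have hrep1 := s44mm_rep_norm A M L1 hπ n hrepV
  have hc := hpair 𝔫 𝔫' h1 h1' hU hU' hσu hσu' ν ν' huS huS' hν hν'
  have e1 := s44mm_nu_phi_norm A M L1 hπ hν rfl hfv1 n
  have e1' := s44mm_nu_phi_norm A M L1 hπ hν' rfl hfv1 n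
  have hd := hdict ⟨_, hmem⟩ hunit
  have hd' := hdict' ⟨_, hmem⟩ hunit
  refine ⟨s44nlr_red A hA M hpM L1 hπ ⟨_, hmem⟩, T, T',
    T * Q.ord (s44nlr_red A hA M hpM L1 hπ ⟨_, hmem⟩),
    T' * Q'.ord (s44nlr_red A hA M hpM L1 hπ ⟨_, hmem⟩),
    s44mm_fbar A hA M hpM L1 hπ (s44nlr_red A hA M hpM L1 hπ) (fun x hb => rfl) hunit hrep1,
    h12, h12', Int.ModEq.refl _, Int.ModEq.refl _, ?_⟩
  rw [← hd, ← hd', e1, e1']
  exact hc

end End

end Fermat.Agent.S44
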