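/-
Project S44 (Mazur–Ribet at `p`), cell [H2] MONO-MAIN, Layer 3, the `X ≠ 0` branch (helper23).
Prefix `s44h2x_`.

`s44h2x_PairAt` : the two-node congruence for a model `fv1`, quantified over the node data
(= the conclusion block of `s44gn_pair` / `s44gnt_pair` = the `hpair` of `s44h2e_end`).
`s44h2x_pair_ne` : from the binders of `s44bg_Mono_stmt` with `X ≠ 0`: a finite set `T`, a
representing function `fV` of `V`, and for every large normal number field `L'` a model `fv1` of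
`fV` with `s44h2x_PairAt`.
-/
import Mathlib
import Fermat.Agent.S44.Mono.LegPairNF
import Fermat.Agent.S44.Mono.RationalUnif
import Fermat.Agent.S44.Mono.CIInst
import Fermat.Agent.S44.Mono.DataGlue
import Fermat.Agent.S44.Frame2
import Fermat.Agent.S44.Mono.NodeDictSSDef
import Fermat.Agent.S44.Mono.MonoEnd
import Fermat.Agent.S44.Mono.MainEnd

set_option autoImplicit false
set_option linter.unusedSectionVars false
set_option linter.unusedVariables false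
set_option linter.style.haveILetI false

noncomputable section

namespace Fermat.Agent.S44

open Fermat.Agent.SS Fermat.Agent.JT3 IsLocalRing Polynomial AlgebraicCurve ModularCurve

local notation "Qb" => AlgebraicClosure ℚ

section PairAt

variable (A : ValuationSubring Qb) {p : ℕ} [hp : Fact p.Prime] (hA : A.LiesOverPrime p)
  (M : ℕ) [NeZero M] [NeZero p] [NeZero (M * p)] (hpM : ¬ p ∣ M) (hp2 : ¬ 2 ∣ p)
  (L' : IntermediateField ℚ Qb) [NumberField ↥L']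
  [IsDiscreteValuationRing ↥(A.comap (algebraMap ↥L' Qb))]
  [CharP (ResidueField ↥(A.comap (algebraMap ↥L' Qb))) p]
  {π : ↥(A.comap (algebraMap ↥L' Qb))} (hπ : Irreducible π)

set_option synthInstance.maxHeartbeats 400000 in
set_option maxHeartbeats 1600000 in
/-- the two-node congruence for `fv1`, over all pairs of node packages. -/
def s44h2x_PairAt (fv1 : ↥(lg_F ↥L' (M * p))) : Prop :=
  ∀ (𝔫 𝔫' : Ideal ↥(fc_chart ↥(A.comap (algebraMap ↥L' Qb))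
      ({lg_lamE (M * p)} : Set ↥(lg_E ↥L' (M * p)))))
    [h𝔫 : 𝔫.IsMaximal] [h𝔫' : 𝔫'.IsMaximal]
    (h1 : ssm_tp_P (fc_chart ↥(A.comap (algebraMap ↥L' Qb))
        ({lg_lamE (M * p)} : Set ↥(lg_E ↥L' (M * p))))
      (ssm_gl_V1 (A.comap (algebraMap ↥L' Qb)) hπ M p) ≤ 𝔫)
    (h1' : ssm_tp_P (fc_chart ↥(A.comap (algebraMap ↥L' Qb))
        ({lg_lamE (M * p)} : Set ↥(lg_E ↥L' (M * p))))
      (ssm_gl_V1 (A.comap (algebraMap ↥L' Qb)) hπ M p) ≤ 𝔫')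
    {u v u' v' : ↥(lg_E ↥L' (M * p))}
    (hU : s44mu_NodeAtU π (fc_chart1_le (lg_lamE (M * p) : ↥(lg_E ↥L' (M * p))))
      (ssm_tp_P (fc_chart ↥(A.comap (algebraMap ↥L' Qb)) ({lg_lamE (M * p), (lg_lamE (M * p))⁻¹} :
        Set ↥(lg_E ↥L' (M * p)))) (ssm_gl_V1 (A.comap (algebraMap ↥L' Qb)) hπ M p))
      (ssm_tp_P (fc_chart ↥(A.comap (algebraMap ↥L' Qb)) ({lg_lamE (M * p), (lg_lamE (M * p))⁻¹} :
        Set ↥(lg_E ↥L' (M * p)))) (ssm_gl_V2 (A.comap (algebraMap ↥L' Qb)) hπ M p hp2 hpM))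
      𝔫 u v ((p : ℕ) : ↥(A.comap (algebraMap ↥L' Qb))))
    (hU' : s44mu_NodeAtU π (fc_chart1_le (lg_lamE (M * p) : ↥(lg_E ↥L' (M * p))))
      (ssm_tp_P (fc_chart ↥(A.comap (algebraMap ↥L' Qb)) ({lg_lamE (M * p), (lg_lamE (M * p))⁻¹} :
        Set ↥(lg_E ↥L' (M * p)))) (ssm_gl_V1 (A.comap (algebraMap ↥L' Qb)) hπ M p))
      (ssm_tp_P (fc_chart ↥(A.comap (algebraMap ↥L' Qb)) ({lg_lamE (M * p), (lg_lamE (M * p))⁻¹} :
        Set ↥(lg_E ↥L' (M * p)))) (ssm_gl_V2 (A.comap (algebraMap ↥L' Qb)) hπ M p hp2 hpM))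
      𝔫' u' v' ((p : ℕ) : ↥(A.comap (algebraMap ↥L' Qb))))
    (hσu : ∀ σ : ↥L' ≃+* ↥L', ss_Inert (A.comap (algebraMap ↥L' Qb)) σ →
      ssm_sg_aut (M * p) σ u = u)
    (hσu' : ∀ σ : ↥L' ≃+* ↥L', ss_Inert (A.comap (algebraMap ↥L' Qb)) σ →
      ssm_sg_aut (M * p) σ u' = u')
    (ν ν' : ↥(lg_E ↥L' (M * p)) → ℤ),
    haveI := s44mci_leg_isAlg ↥L' (A.comap (algebraMap ↥L' Qb)) (M * p)
    haveI := s44mci_leg_noeth ↥L' (A.comap (algebraMap ↥L' Qb)) (M * p)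
    haveI := s44mci_leg_ic ↥L' (A.comap (algebraMap ↥L' Qb)) (M * p)
    haveI := ssl_loc_isNoetherianRing (F0 := ↥(lg_E ↥L' (M * p))) 𝔫
    haveI := ssl_loc_isLocalRing (F0 := ↥(lg_E ↥L' (M * p))) 𝔫
    haveI := ssl_loc_isNoetherianRing (F0 := ↥(lg_E ↥L' (M * p))) 𝔫'
    haveI := ssl_loc_isLocalRing (F0 := ↥(lg_E ↥L' (M * p))) 𝔫'
    ∀ (huS : u ∈ ssl_locSub ↥(lg_E ↥L' (M * p)) 𝔫)
      (huS' : u' ∈ ssl_locSub ↥(lg_E ↥L' (M * p)) 𝔫'),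
    s44nu_IsNu
        (algebraMap ↥(fc_chart ↥(A.comap (algebraMap ↥L' Qb))
            ({lg_lamE (M * p)} : Set ↥(lg_E ↥L' (M * p))))
          (ssl_locSub ↥(lg_E ↥L' (M * p)) 𝔫)
          (algebraMap ↥(A.comap (algebraMap ↥L' Qb)) ↥(fc_chart ↥(A.comap (algebraMap ↥L' Qb))
            ({lg_lamE (M * p)} : Set ↥(lg_E ↥L' (M * p)))) π))
        (⟨u, huS⟩ : ssl_locSub ↥(lg_E ↥L' (M * p)) 𝔫)
        (s44tl_br 𝔫 (fc_chart1_le (lg_lamE (M * p) : ↥(lg_E ↥L' (M * p))))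
          (ssm_tp_P (fc_chart ↥(A.comap (algebraMap ↥L' Qb))
            ({lg_lamE (M * p), (lg_lamE (M * p))⁻¹} : Set ↥(lg_E ↥L' (M * p))))
            (ssm_gl_V1 (A.comap (algebraMap ↥L' Qb)) hπ M p))) ν →
    s44nu_IsNu
        (algebraMap ↥(fc_chart ↥(A.comap (algebraMap ↥L' Qb))
            ({lg_lamE (M * p)} : Set ↥(lg_E ↥L' (M * p))))
          (ssl_locSub ↥(lg_E ↥L' (M * p)) 𝔫')
          (algebraMap ↥(A.comap (algebraMap ↥L' Qb)) ↥(fc_chart ↥(A.comap (algebraMap ↥L' Qb))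
            ({lg_lamE (M * p)} : Set ↥(lg_E ↥L' (M * p)))) π))
        (⟨u', huS'⟩ : ssl_locSub ↥(lg_E ↥L' (M * p)) 𝔫')
        (s44tl_br 𝔫' (fc_chart1_le (lg_lamE (M * p) : ↥(lg_E ↥L' (M * p))))
          (ssm_tp_P (fc_chart ↥(A.comap (algebraMap ↥L' Qb))
            ({lg_lamE (M * p), (lg_lamE (M * p))⁻¹} : Set ↥(lg_E ↥L' (M * p))))
            (ssm_gl_V1 (A.comap (algebraMap ↥L' Qb)) hπ M p))) ν' →
    ν (lg_phiE (L := ↥L') (N := M * p) fv1) ≡ ν' (lg_phiE (L := ↥L') (N := M * p) fv1)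
      [ZMOD (p : ℤ)]

end PairAt

section Frame

variable (P : FreyPackage) (M : ℕ) [NeZero M] [NeZero (M * P.p)] (hpM : ¬ P.p ∣ M)

theorem s44h2x_hp2 : ¬ 2 ∣ P.p := by
  intro h
  have := (Nat.prime_dvd_prime_iff_eq Nat.prime_two P.pp).1 h
  have := P.hp5
  omega

set_option synthInstance.maxHeartbeats 400000 in
set_option maxHeartbeats 1600000 in
/-- **Layer 3, `X ≠ 0`.** -/
theorem s44h2x_pair_ne {X V : JZero (M * P.p)} {a : s44_G → ℕ} {β : s44_Qb}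
    (hX : P.p • X = 0) (hV : P.p • V = 0)
    (hchi : (s44_frame2 P M hpM).ChiEigen X)
    (hext : ∀ σ ∈ (s44_frame2 P M hpM).Γ, σ • V = V + a σ • X)
    (hβ0 : β ≠ 0) (hβA : β ∈ (s44_frame2 P M hpM).A) (hβiA : β⁻¹ ∈ (s44_frame2 P M hpM).A)
    (hβ : ∀ σ ∈ (s44_frame2 P M hpM).Γ, σ β = (s44_frame2 P M hpM).ζ ^ a σ * β)
    (hsplit : (s44_frame2 P M hpM).Split X) (hX0 : X ≠ 0) :
    haveI : Fact P.p.Prime := ⟨P.pp⟩
    haveI : NeZero P.p := ⟨P.pp.ne_zero⟩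
    ∃ (T : Finset Qb) (fV : modularFunctionFieldBar (M * P.p)),
      s44f_Rep (M * P.p) P.p V fV ∧
      ∀ (L' : IntermediateField ℚ Qb) [NumberField ↥L'] [Normal ℚ L']
        [IsDiscreteValuationRing ↥((s44f_A P.p P.pp).comap (algebraMap ↥L' Qb))]
        [CharP (ResidueField ↥((s44f_A P.p P.pp).comap (algebraMap ↥L' Qb))) P.p],
        (↑T : Set Qb) ⊆ L' →
        ∀ {π : ↥((s44f_A P.p P.pp).comap (algebraMap ↥L' Qb))} (hπ : Irreducible π)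
          (ζM : ↥L') (hζM : IsPrimitiveRoot ζM M),
          ∃ fv1 : ↥(lg_F ↥L' (M * P.p)), ssm_al_iotaF ↥L' (M * P.p) fv1 = fV ∧
            s44h2x_PairAt (s44f_A P.p P.pp) M hpM (s44h2x_hp2 P) L' hπ fv1 := by
  haveI : Fact P.p.Prime := ⟨P.pp⟩
  haveI : NeZero P.p := ⟨P.pp.ne_zero⟩
  have hp0 : P.p ≠ 0 := P.pp.ne_zero
  have hp5 : 5 ≤ P.p := P.hp5
  have hp2 : ¬ 2 ∣ P.p := s44h2x_hp2 P
  have hζ : IsPrimitiveRoot (s44_frame2 P M hpM).ζ P.p := s44_frame2_zeta_spec P M hpM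
  obtain ⟨T₂, fX, fV, ybar, cbar, gbar, Φbar, hbar, hRX, hRV, hlc, hyb, hall⟩ :=
    s44mr_unif (M * P.p) hp5 hζ β hX V hβ0 hV hX0
  obtain ⟨T₃, hT₃⟩ := s44mci_inst_frame P M hpM hp2 hsplit hRX
  classical
  refine ⟨T₂ ∪ T₃, fV, hRV, ?_⟩
  intro L' _ _ _ _ hsub π hπ ζM hζM
  have hfd : FiniteDimensional ℚ ↥L' := inferInstance
  have hsub2 : (↑T₂ : Set Qb) ⊆ L' := fun x hx => hsub (by
    simp only [Finset.coe_union, Set.mem_union]; exact Or.inl hx)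
  have hsub3 : (↑T₃ : Set Qb) ⊆ L' := fun x hx => hsub (by
    simp only [Finset.coe_union, Set.mem_union]; exact Or.inr hx)
  obtain ⟨ζ1, β1, fx1, fv1, y, c, Lb, τ, g, Φ, h, e1, e2, e3, e4, hy, Pk, -, -, -, -, -, hR⟩ :=
    hall L' hfd inferInstance hsub2
  have hX4 := hT₃ L' hfd hsub3 fx1 e3
  have hV2 := s44gv_ord_rep ↥L' (M * P.p) hRV fv1 e4
  have hinj : Function.Injective (algebraMap ↥L' Qb) := (algebraMap ↥L' Qb).injective
  have hζ1p : ζ1 ^ P.p = 1 := by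
    apply hinj
    rw [map_pow, e1, map_one]
    exact hζ.pow_eq_one
  have hζ11 : ζ1 ≠ 1 := by
    rintro rfl
    rw [map_one] at e1
    exact hζ.ne_one P.pp.one_lt e1.symm
  have hβ1 : β1 ∈ (s44f_A P.p P.pp).comap (algebraMap ↥L' Qb) := by
    show algebraMap ↥L' Qb β1 ∈ s44f_A P.p P.pp
    rw [e2]; exact hβA
  have hβ1i : β1⁻¹ ∈ (s44f_A P.p P.pp).comap (algebraMap ↥L' Qb) := by
    show algebraMap ↥L' Qb β1⁻¹ ∈ s44f_A P.p P.pp
    rw [map_inv₀, e2]; exact hβiA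
  have hβ10 : β1 ≠ 0 := by
    rintro rfl
    rw [map_zero] at e2
    exact hβ0 e2.symm
  have hirrF : ∀ b : ↥(lg_F ↥L' (M * P.p)), b ^ P.p ≠ fx1 :=
    s44mn_not_pth_power (M * P.p) hp0 hX0 L' (by rw [e3]; exact hRX)
  have hΓH : (s44f_A P.p P.pp).inertiaSubgroupIn ℚ ≤ s44md_H hζ β hX V :=
    s44md_inertia_le (s44_frame2 P M hpM) hζ hX hchi hext hβ
  refine ⟨fv1, e4, ?_⟩
  intro 𝔫 𝔫' _ _ h1 h1' u v u' v' hU hU' hσu hσu' ν ν'
  exact s44gn_pair (s44f_A P.p P.pp) (s44f_A_liesOver P.p P.pp) M hpM hp2 hp5 L' hπ ζM hζM hΓH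
    hζ1p hζ11 hβ1 hβ1i hβ10 hy Pk hR hirrF hX4 hV2 𝔫 𝔫' h1 h1' hU hU' hσu hσu' ν ν'

set_option synthInstance.maxHeartbeats 400000 in
set_option maxHeartbeats 1600000 in
/-- **Layer 3, `X ≠ 0`: the per-pair statement** (the `h` of `s44mend_mono`). -/
theorem s44h2x_pair (X V : JZero (M * P.p)) (a : s44_G → ℕ) (β : s44_Qb)
    (hX : P.p • X = 0) (hV : P.p • V = 0)
    (h1 : (s44_frame2 P M hpM).as X = 0) (h2 : (s44_frame2 P M hpM).bs X = 0)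
    (h3 : (s44_frame2 P M hpM).as V = 0) (h4 : (s44_frame2 P M hpM).bs V = 0)
    (hchi : (s44_frame2 P M hpM).ChiEigen X)
    (hext : ∀ σ ∈ (s44_frame2 P M hpM).Γ, σ • V = V + a σ • X)
    (hβ0 : β ≠ 0) (hβA : β ∈ (s44_frame2 P M hpM).A) (hβiA : β⁻¹ ∈ (s44_frame2 P M hpM).A)
    (hβ : ∀ σ ∈ (s44_frame2 P M hpM).Γ, σ β = (s44_frame2 P M hpM).ζ ^ a σ * β)
    (hsplit : (s44_frame2 P M hpM).Split X) (hD : ¬ (s44_frame2 P M hpM).D1inf V)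
    (hX0 : X ≠ 0)
    (i i' : s44e_Sg (s44f_A P.p P.pp) M P.p P.pp hpM) :
    ∃ (fb : s44e_FF (s44f_A P.p P.pp) M) (T T' cV cV' : ℤ),
      s44e_Fbar (s44f_A P.p P.pp) M P.p V fb ∧
      T * Place.ord i.1 (s44e_ubar (s44f_A P.p P.pp) M P.p) = 12 ∧
      T' * Place.ord i'.1 (s44e_ubar (s44f_A P.p P.pp) M P.p) = 12 ∧
      T * Place.ord i.1 fb ≡ cV [ZMOD (P.p : ℤ)] ∧
      T' * Place.ord i'.1 fb ≡ cV' [ZMOD (P.p : ℤ)] ∧
      cV ≡ cV' [ZMOD (P.p : ℤ)] := by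
  classical
  haveI : Fact P.p.Prime := ⟨P.pp⟩
  have hp2 : ¬ 2 ∣ P.p := s44h2x_hp2 P
  have hA := s44f_A_liesOver P.p P.pp
  obtain ⟨T, fV, hRV, hall⟩ :=
    s44h2x_pair_ne P M hpM hX hV hchi hext hβ0 hβA hβiA hβ hsplit hX0
  obtain ⟨T₀, hT₀⟩ := s44ndss_ndss (s44f_A P.p P.pp) hA M hpM hp2 i.1 i.2
  obtain ⟨T₀', hT₀'⟩ := s44ndss_ndss (s44f_A P.p P.pp) hA M hpM hp2 i'.1 i'.2
  obtain ⟨ζ0, hζ0⟩ := HasEnoughRootsOfUnity.exists_primitiveRoot Qb M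
  -- the number field
  obtain ⟨L1, hfd, hn, hTs, -⟩ := s44b_exists_nf (M * P.p) ∅ (T ∪ T₀ ∪ T₀' ∪ {ζ0})
  haveI : FiniteDimensional ℚ ↥L1 := hfd
  haveI : Normal ℚ ↥L1 := hn
  haveI : NumberField ↥L1 := { to_charZero := inferInstance, to_finiteDimensional := hfd }
  haveI : IsDiscreteValuationRing ↥((s44f_A P.p P.pp).comap (algebraMap ↥L1 Qb)) :=
    dsc_isDVR_comap_numberField (s44f_A P.p P.pp) P.p hA P.pp.ne_zero ↥L1
  obtain ⟨π, hπ⟩ := IsDiscreteValuationRing.exists_irreducible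
    ↥((s44f_A P.p P.pp).comap (algebraMap ↥L1 Qb))
  haveI : CharP (ResidueField ↥((s44f_A P.p P.pp).comap (algebraMap ↥L1 Qb))) P.p :=
    ss_nfl_charP_residue (lg_natCast_mem_maximalIdeal (s44f_A P.p P.pp) hA ↥L1)
  have hsT : (↑T : Set Qb) ⊆ L1 := fun x hx => hTs (by
    rw [Finset.mem_coe] at hx ⊢
    exact Finset.mem_union_left _ (Finset.mem_union_left _ (Finset.mem_union_left _ hx)))
  have hsT₀ : (↑T₀ : Set Qb) ⊆ L1 := fun x hx => hTs (by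
    rw [Finset.mem_coe] at hx ⊢
    exact Finset.mem_union_left _ (Finset.mem_union_left _ (Finset.mem_union_right _ hx)))
  have hsT₀' : (↑T₀' : Set Qb) ⊆ L1 := fun x hx => hTs (by
    rw [Finset.mem_coe] at hx ⊢
    exact Finset.mem_union_left _ (Finset.mem_union_right _ hx))
  have hζmem : ζ0 ∈ L1 := hTs (by
    rw [Finset.mem_coe]
    exact Finset.mem_union_right _ (Finset.mem_singleton_self ζ0))
  have hζ : IsPrimitiveRoot (⟨ζ0, hζmem⟩ : ↥L1) M :=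
    IsPrimitiveRoot.coe_submonoidClass_iff.1 hζ0
  obtain ⟨fv1, hfv1, hpair⟩ := hall L1 hsT hπ ⟨ζ0, hζmem⟩ hζ
  have hN := hT₀ L1 hsT₀ hπ
  have hN' := hT₀' L1 hsT₀' hπ
  have hrepV : s44f_Rep (M * P.p) P.p V (ssm_al_iotaF ↥L1 (M * P.p) fv1) := by
    rw [hfv1]; exact hRV
  have hfv10 : fv1 ≠ 0 := by
    rintro rfl
    exact hrepV.1 (map_zero _)
  exact s44h2e_end (s44f_A P.p P.pp) hA M hpM hp2 i.1 i'.1 L1 hπ hN hN' hfv10 hrepV hpair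

end Frame

end Fermat.Agent.S44
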