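/-
Project S44 (Mazur–Ribet at `p`), cell [H2] MONO-MAIN, Layer 3, THE CASE `X = 0` (helper25).
Prefix `s44h2z_`.

The per-pair statement `h` of `s44mend_mono` (`Mono/MonoEnd.lean`) in the case `X = 0`:
`s44kx_unif_triv` at a normal number field `L' ⊇ T₂ ∪ T₀(i) ∪ T₀(i') ∪ {ζ_M}`, the two supersingular
node packages of (ND-SS) (`s44ndss_ndss`), the two-node theorem `s44gnt_pair` and the bottom
`s44h2e_end`.
-/
import Mathlib
import Fermat.Agent.S44.Mono.MonoEnd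
import Fermat.Agent.S44.Mono.LegPairTrivNF
import Fermat.Agent.S44.Mono.NodeDictSSDef
import Fermat.Agent.S44.Mono.DataGroup
import Fermat.Agent.S44.Mono.MainEnd
import Fermat.Agent.S44.Frame2

set_option autoImplicit false
set_option linter.unusedSectionVars false
set_option linter.unusedVariables false
set_option linter.style.haveILetI false

noncomputable section

namespace Fermat.Agent.S44

open ModularCurve AlgebraicCurve IsLocalRing Fermat.Agent.JT3 Fermat.Agent.S35 Fermat.Agent.SS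
  Fermat.Agent.S24 Fermat.Agent.SS2

local notation "Qb" => AlgebraicClosure ℚ

section General

variable (A : ValuationSubring Qb) {p : ℕ} [hp : Fact p.Prime] (hA : A.LiesOverPrime p)
  (M : ℕ) [NeZero M] [NeZero p] [NeZero (M * p)] (hpM : ¬ p ∣ M) (hp2 : ¬ 2 ∣ p)

include hA hp2 in
set_option synthInstance.maxHeartbeats 400000 in
set_option maxHeartbeats 1600000 in
/-- **the per-pair statement, case `X = 0`**, for a general place `A` above `p`. -/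
theorem s44h2z_pair_gen {ζp : Qb} (hζp : IsPrimitiveRoot ζp p) (β : Qb) {X : JZero (M * p)}
    (hX : p • X = 0) (V : JZero (M * p)) (hβ0 : β ≠ 0) (hV : p • V = 0) (hX0 : X = 0)
    (hΓH : A.inertiaSubgroupIn ℚ ≤ s44md_H hζp β hX V)
    (i i' : s44e_Sg A M p hp.out hpM) :
    ∃ (fb : s44e_FF A M) (T T' cV cV' : ℤ),
      s44e_Fbar A M p V fb ∧
      T * Place.ord i.1 (s44e_ubar A M p) = 12 ∧
      T' * Place.ord i'.1 (s44e_ubar A M p) = 12 ∧
      T * Place.ord i.1 fb ≡ cV [ZMOD (p : ℤ)] ∧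
      T' * Place.ord i'.1 fb ≡ cV' [ZMOD (p : ℤ)] ∧
      cV ≡ cV' [ZMOD (p : ℤ)] := by
  classical
  obtain ⟨T₂, fV, cbar, gbar, Φbar, hrep, hall⟩ := s44kx_unif_triv (M * p) hζp β hX V hβ0 hV hX0
  obtain ⟨T₀, hT₀⟩ := s44ndss_ndss A hA M hpM hp2 i.1 i.2
  obtain ⟨T₀', hT₀'⟩ := s44ndss_ndss A hA M hpM hp2 i'.1 i'.2
  obtain ⟨ζ0, hζ0⟩ := HasEnoughRootsOfUnity.exists_primitiveRoot Qb M
  -- the number field
  obtain ⟨L', hfd, hn, hT, -⟩ := s44b_exists_nf (M * p) ∅ (T₂ ∪ T₀ ∪ T₀' ∪ {ζ0})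
  haveI : FiniteDimensional ℚ ↥L' := hfd
  haveI : Normal ℚ ↥L' := hn
  haveI : NumberField ↥L' := { to_charZero := inferInstance, to_finiteDimensional := hfd }
  haveI : IsDiscreteValuationRing ↥(A.comap (algebraMap ↥L' Qb)) :=
    dsc_isDVR_comap_numberField A p hA hp.out.ne_zero ↥L'
  obtain ⟨π, hπ⟩ := IsDiscreteValuationRing.exists_irreducible ↥(A.comap (algebraMap ↥L' Qb))
  haveI : CharP (ResidueField ↥(A.comap (algebraMap ↥L' Qb))) p :=
    ss_nfl_charP_residue (lg_natCast_mem_maximalIdeal A hA ↥L')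
  have hT₂' : (↑T₂ : Set Qb) ⊆ L' := fun a ha => hT (by
    rw [Finset.mem_coe] at ha ⊢
    exact Finset.mem_union_left _ (Finset.mem_union_left _ (Finset.mem_union_left _ ha)))
  have hT₀s : (↑T₀ : Set Qb) ⊆ L' := fun a ha => hT (by
    rw [Finset.mem_coe] at ha ⊢
    exact Finset.mem_union_left _ (Finset.mem_union_left _ (Finset.mem_union_right _ ha)))
  have hT₀s' : (↑T₀' : Set Qb) ⊆ L' := fun a ha => hT (by
    rw [Finset.mem_coe] at ha ⊢
    exact Finset.mem_union_left _ (Finset.mem_union_right _ ha))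
  have hζmem : ζ0 ∈ L' := hT (by
    rw [Finset.mem_coe]
    exact Finset.mem_union_right _ (Finset.mem_singleton_self ζ0))
  have hζ : IsPrimitiveRoot (⟨ζ0, hζmem⟩ : ↥L') M :=
    (IsPrimitiveRoot.map_iff_of_injective (f := algebraMap ↥L' Qb)
      (FaithfulSMul.algebraMap_injective ↥L' Qb)).1 hζ0
  obtain ⟨fv1, c, g, Φ, hfv1, hc0, hg0, hΦ, hσΦ, -, -, -, hRΦ⟩ := hall L' hfd hn hT₂'
  have hN := hT₀ L' hT₀s hπ
  have hN' := hT₀' L' hT₀s' hπ
  have hrepV : s44f_Rep (M * p) p V (ssm_al_iotaF ↥L' (M * p) fv1) := by rw [hfv1]; exact hrep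
  have hfv10 : fv1 ≠ 0 := by
    rintro rfl
    exact hrepV.1 (map_zero _)
  refine s44h2e_end A hA M hpM hp2 i.1 i'.1 L' hπ hN hN' hfv10 hrepV ?_
  intro 𝔫 𝔫' h𝔫 h𝔫' h1 h1' u v u' v' hU hU' hσu hσu' ν ν'
  exact @s44gnt_pair p _ A hA L' _ _ _ _ π hπ M _ _ hp2 hpM ⟨ζ0, hζmem⟩ hζ _ hΓH V fV hrep fv1 c g Φ
    hfv1 hc0 hg0 hΦ hσΦ hRΦ 𝔫 𝔫' h𝔫 h𝔫' h1 h1' u v u' v' hU hU' hσu hσu' ν ν'

end General

section Frame

variable (P : FreyPackage) (M : ℕ) [NeZero M] [NeZero (M * P.p)] (hpM : ¬ P.p ∣ M)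

set_option synthInstance.maxHeartbeats 400000 in
set_option maxHeartbeats 1600000 in
/-- **the per-pair statement `h` of `s44mend_mono`, case `X = 0`** (binders = those of `h`, in the
same order, + `hX0` before `i i'`). -/
theorem s44h2z_pair (X V : JZero (M * P.p)) (a : s44_G → ℕ) (β : s44_Qb)
    (hX : P.p • X = 0) (hV : P.p • V = 0)
    (h1 : (s44_frame2 P M hpM).as X = 0) (h2 : (s44_frame2 P M hpM).bs X = 0)
    (h3 : (s44_frame2 P M hpM).as V = 0) (h4 : (s44_frame2 P M hpM).bs V = 0)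
    (hchi : (s44_frame2 P M hpM).ChiEigen X)
    (hext : ∀ σ ∈ (s44_frame2 P M hpM).Γ, σ • V = V + a σ • X)
    (hβ0 : β ≠ 0) (hβA : β ∈ (s44_frame2 P M hpM).A) (hβiA : β⁻¹ ∈ (s44_frame2 P M hpM).A)
    (hβ : ∀ σ ∈ (s44_frame2 P M hpM).Γ, σ β = (s44_frame2 P M hpM).ζ ^ a σ * β)
    (hsplit : (s44_frame2 P M hpM).Split X) (hD : ¬ (s44_frame2 P M hpM).D1inf V)
    (hX0 : X = 0)
    (i i' : s44e_Sg (s44f_A P.p P.pp) M P.p P.pp hpM) :
    ∃ (fb : s44e_FF (s44f_A P.p P.pp) M) (T T' cV cV' : ℤ),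
      s44e_Fbar (s44f_A P.p P.pp) M P.p V fb ∧
      T * Place.ord i.1 (s44e_ubar (s44f_A P.p P.pp) M P.p) = 12 ∧
      T' * Place.ord i'.1 (s44e_ubar (s44f_A P.p P.pp) M P.p) = 12 ∧
      T * Place.ord i.1 fb ≡ cV [ZMOD (P.p : ℤ)] ∧
      T' * Place.ord i'.1 fb ≡ cV' [ZMOD (P.p : ℤ)] ∧
      cV ≡ cV' [ZMOD (P.p : ℤ)] := by
  haveI : Fact P.p.Prime := ⟨P.pp⟩
  haveI : NeZero P.p := ⟨P.hp0⟩
  have hp2 : ¬ 2 ∣ P.p := by
    intro h
    have h2 := (Nat.prime_dvd_prime_iff_eq Nat.prime_two P.pp).1 h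
    have h5 := P.hp5
    omega
  have hζ : IsPrimitiveRoot (s44_frame2 P M hpM).ζ P.p := s44_frame2_zeta_spec P M hpM
  exact s44h2z_pair_gen (s44f_A P.p P.pp) (s44f_A_liesOver P.p P.pp) M hpM hp2 hζ β hX V hβ0 hV hX0
    (s44md_inertia_le (s44_frame2 P M hpM) hζ hX hchi hext hβ) i i'

end Frame

end Fermat.Agent.S44
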