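import Mathlib
import Fermat.Agent.S44.Mono.NodeLegRed

/-!
# S44 (ND-Leg), base side (helper20, for helper1; prefix `s44rq_`): the reduction of `j`

Setting of `Mono/NodeLegRed.lean` (`A` over `p`, `L1 ⊆ ℚ̄`, `O = A ∩ L1` a DVR, `V_F = s44mz_VF`,
`red = s44nlr_red`).

* `s44rq_j_mem_VF`   : `j = rpz_jF L1 (M p) ∈ V_F`;
* `s44rq_nlr_red_j`  : `red j = j̄ = jcr_j M`;
* `s44rq_nlr_j2_mem` : for a place `Q` with `j̄ ∈ O_Q` and any composite `tori_comp V₁ r hker 𝒲` of the
                       cover restricting to `tori_comp V_F red _ O_Q` (`hext` of helper12's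
                       `s44nd_exists_ext`): `j₂ = φ j ∈ tori_comp V₁ r hker 𝒲`, i.e.
                       `∃ h, r ⟨j₂, h⟩ ∈ 𝒲`.
-/

set_option autoImplicit false
set_option linter.unusedSectionVars false
set_option linter.style.haveILetI false
set_option linter.unusedVariables false

noncomputable section

namespace Fermat.Agent.S44

open Polynomial ModularCurve AlgebraicCurve IntermediateField IsLocalRing
open Fermat.Agent.JT3 Fermat.Agent.SS Fermat.Agent.S35 Fermat.Agent.S24 Fermat.Agent.S28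

local notation "Qb" => AlgebraicClosure ℚ

section RedJ

variable (A : ValuationSubring Qb) {p : ℕ} [hp : Fact p.Prime] (hA : A.LiesOverPrime p)
  (M : ℕ) [NeZero M] [NeZero p] [NeZero (M * p)] (hpM : ¬ p ∣ M)
  (L1 : IntermediateField ℚ Qb)
  [IsDiscreteValuationRing ↥(A.comap (algebraMap L1 Qb))]
  [CharP (ResidueField ↥(A.comap (algebraMap L1 Qb))) p]
  {π : ↥(A.comap (algebraMap L1 Qb))} (hπ : Irreducible π)

/-- `j` as a series with coefficients in `O`. -/
theorem s44rq_j_coe :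
    ((rpz_jF L1 (M * p) : ↥(lg_F L1 (M * p))) : LaurentSeries L1) =
      coeffMap (algebraMap ↥(A.comap (algebraMap L1 Qb)) L1)
        (jqModC ↥(A.comap (algebraMap L1 Qb))) := by
  rw [coeffMap_jqModC]
  rfl

/-- `j` lies in the Gauss valuation ring of the base. -/
theorem s44rq_j_mem_VF :
    rpz_jF L1 (M * p) ∈ s44mz_VF (A.comap (algebraMap L1 Qb)) hπ M p := by
  show gq_IsBdd ↥(A.comap (algebraMap L1 Qb)) L1
    ((rpz_jF L1 (M * p) : ↥(lg_F L1 (M * p))) : LaurentSeries L1)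
  rw [s44rq_j_coe A M L1]
  exact gq_isBdd_iota _

/-- **`red j = j̄`.** -/
theorem s44rq_nlr_red_j :
    s44nlr_red A hA M hpM L1 hπ ⟨rpz_jF L1 (M * p), s44rq_j_mem_VF A M L1 hπ⟩ =
      jcr_j (k := s44e_kA A) M := by
  apply Subtype.ext
  rw [s44nlr_red_coe, gq_res_of_eq_iota _ (jqModC ↥(A.comap (algebraMap L1 Qb)))
    (s44rq_j_coe A M L1), coeffMap_jqModC, coeffMap_jqModC]
  rfl

/-- **`j₂ = φ j` lies in every composite of the cover lying over `tori_comp V_F red O_Q`**, for a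
place `Q` at which `j̄` is finite. -/
theorem s44rq_nlr_j2_mem {κ : Type*} [Field κ]
    (r : ↥(ssm_gl_V1 (A.comap (algebraMap L1 Qb)) hπ M p) →+* κ)
    (hker : ∀ z : ↥(ssm_gl_V1 (A.comap (algebraMap L1 Qb)) hπ M p),
      (z : ↥(lg_E L1 (M * p))) ∈ (ssm_gl_V1 (A.comap (algebraMap L1 Qb)) hπ M p).nonunits →
        r z = 0)
    (𝒲 : ValuationSubring κ) (Q : Place (s44e_kA A) ↥(s44e_FF A M))
    (hext : ∀ x : ↥(lg_F L1 (M * p)),
      lg_phiE (L := L1) (N := M * p) x ∈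
          tori_comp (ssm_gl_V1 (A.comap (algebraMap L1 Qb)) hπ M p) r hker 𝒲 ↔
        x ∈ tori_comp (s44mz_VF (A.comap (algebraMap L1 Qb)) hπ M p)
          (s44nlr_red A hA M hpM L1 hπ) (s44nlr_red_hker A hA M hpM L1 hπ)
          Q.toValuationSubring)
    (hj : jcr_j (k := s44e_kA A) M ∈ Q.toValuationSubring) :
    s44mz_j2E L1 (M * p) ∈
      tori_comp (ssm_gl_V1 (A.comap (algebraMap L1 Qb)) hπ M p) r hker 𝒲 := by
  have e1 : s44mz_j2E L1 (M * p) = lg_phiE (L := L1) (N := M * p) (rpz_jF L1 (M * p)) :=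
    Subtype.ext rfl
  rw [e1, hext]
  refine ⟨s44rq_j_mem_VF A M L1 hπ, ?_⟩
  rw [s44rq_nlr_red_j]
  exact hj

end RedJ

end Fermat.Agent.S44
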