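/-
S44 project, cell [H2-N] NODE DICTIONARY, step (N2)(ii) (helper10), abstract half.  Prefix `s44mss_`.

GALOIS STABILITY OF THE TWO GAUSS VALUATIONS, abstract form.

* `s44mss_over_congr`, `s44mss_over_one_sub` : `ssm_tp_Over` only depends on the subalgebra
  `A0[y]`; `A0[1 - y] = A0[y]`;
* `s44mss_over_comap` : if `V` lies over the Gauss ring of `A0[g y]` then `g⁻¹ V = V.comap g` lies
  over the Gauss ring of `A0[y]` (`g` an `A0`-semilinear... here `A0`-linear automorphism);
* `s44mss_no_swap` : in the situation of the two-valuations lemma [TV-W] (`ssm_tw_Data`), an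
  automorphism `g` of `E` whose inverse preserves `K` cannot swap `V1` and `V2 = W V1`
  (`κ(V1) = κ(R)`, but the residue of `W λ ∈ V2` is not in `κ(R)`).
-/
import Mathlib
import Fermat.Agent.SS.Model.TwoPrimes
import Fermat.Agent.SS.Model.TwoValW

set_option autoImplicit false
set_option linter.unusedSectionVars false
set_option linter.style.haveILetI false
set_option linter.unusedVariables false

namespace Fermat.Agent.S44

open Fermat.Agent.SS Polynomial IsLocalRing

section Over

universe v

variable {A0 : Type*} {F0 : Type v} [CommRing A0] [IsDomain A0] [Field F0] [Algebra A0 F0]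

/-- `ssm_tp_Over` only depends on the subalgebra. -/
theorem s44mss_over_congr {S T : Subalgebra A0 F0} (h : S = T) {π : A0}
    {V : ValuationSubring F0} (hS : ssm_tp_Over (algebraMap A0 S π) V) :
    ssm_tp_Over (algebraMap A0 T π) V := by
  subst h
  exact hS

/-- `A0[1 - y] = A0[y]`. -/
theorem s44mss_adjoin_one_sub (y : F0) :
    Algebra.adjoin A0 ({1 - y} : Set F0) = Algebra.adjoin A0 ({y} : Set F0) := by
  apply le_antisymm
  · rw [Algebra.adjoin_le_iff, Set.singleton_subset_iff]
    exact sub_mem (one_mem _) (Algebra.subset_adjoin rfl)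
  · rw [Algebra.adjoin_le_iff, Set.singleton_subset_iff]
    have h1 : (1 - y : F0) ∈ Algebra.adjoin A0 ({1 - y} : Set F0) := Algebra.subset_adjoin rfl
    have h2 : 1 - (1 - y) ∈ Algebra.adjoin A0 ({1 - y} : Set F0) := sub_mem (one_mem _) h1
    rwa [sub_sub_cancel] at h2

theorem s44mss_over_one_sub {y : F0} {π : A0} {V : ValuationSubring F0}
    (h : ssm_tp_Over (algebraMap A0 (Algebra.adjoin A0 ({y} : Set F0)) π) V) :
    ssm_tp_Over (algebraMap A0 (Algebra.adjoin A0 ({1 - y} : Set F0)) π) V :=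
  s44mss_over_congr (s44mss_adjoin_one_sub y).symm h

/-- an `A0`-linear ring automorphism maps `A0[y]` into `A0[g y]`. -/
theorem s44mss_map_adjoin (g : F0 ≃+* F0) (hg : ∀ a : A0, g (algebraMap A0 F0 a) = algebraMap A0 F0 a)
    (y : F0) {z : F0} (hz : z ∈ Algebra.adjoin A0 ({y} : Set F0)) :
    g z ∈ Algebra.adjoin A0 ({g y} : Set F0) := by
  induction hz using Algebra.adjoin_induction with
  | mem s hs =>
    rw [Set.mem_singleton_iff] at hs
    rw [hs]; exact Algebra.subset_adjoin rfl
  | algebraMap a => rw [hg]; exact Subalgebra.algebraMap_mem _ _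
  | add a b _ _ ha hb => rw [map_add]; exact add_mem ha hb
  | mul a b _ _ ha hb => rw [map_mul]; exact mul_mem ha hb

/-- if `V` lies over the Gauss ring of `A0[g y]` then `V.comap g` lies over the Gauss ring of
`A0[y]`. -/
theorem s44mss_over_comap (g : F0 ≃+* F0)
    (hg : ∀ a : A0, g (algebraMap A0 F0 a) = algebraMap A0 F0 a) {y : F0} {π : A0}
    {V : ValuationSubring F0}
    (h : ssm_tp_Over (algebraMap A0 (Algebra.adjoin A0 ({g y} : Set F0)) π) V) :
    ssm_tp_Over (algebraMap A0 (Algebra.adjoin A0 ({y} : Set F0)) π)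
      (V.comap (g : F0 →+* F0)) := by
  have hgs : ∀ a : A0, g.symm (algebraMap A0 F0 a) = algebraMap A0 F0 a := fun a => by
    rw [RingEquiv.symm_apply_eq, hg]
  constructor
  · intro a
    rw [ValuationSubring.mem_comap]
    exact h.le ⟨g (a : F0), s44mss_map_adjoin g hg y a.2⟩
  · intro a
    rw [ssm_tw_nonunits_comap]
    have h1 := h.cen ⟨g (a : F0), s44mss_map_adjoin g hg y a.2⟩
    refine h1.trans ⟨?_, ?_⟩
    · rintro ⟨c, hc⟩
      have hc' : g (a : F0) = algebraMap A0 F0 π * (c : F0) := congrArg Subtype.val hc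
      have hmem : g.symm (c : F0) ∈ Algebra.adjoin A0 ({y} : Set F0) := by
        have := s44mss_map_adjoin g.symm hgs (g y) c.2
        rwa [RingEquiv.symm_apply_apply] at this
      refine ⟨⟨g.symm (c : F0), hmem⟩, Subtype.ext ?_⟩
      show (a : F0) = algebraMap A0 F0 π * g.symm (c : F0)
      rw [← hgs π, ← map_mul, ← hc', RingEquiv.symm_apply_apply]
    · rintro ⟨c, hc⟩
      have hc' : (a : F0) = algebraMap A0 F0 π * (c : F0) := congrArg Subtype.val hc
      refine ⟨⟨g (c : F0), s44mss_map_adjoin g hg y c.2⟩, Subtype.ext ?_⟩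
      show g (a : F0) = algebraMap A0 F0 π * g (c : F0)
      rw [hc', map_mul, hg]

theorem s44mss_tr_one_sub {y : F0} (hy : Transcendental A0 y) : Transcendental A0 (1 - y) := by
  intro h
  apply hy
  have h2 : IsAlgebraic A0 (1 - (1 - y)) := IsAlgebraic.sub isAlgebraic_one h
  rwa [sub_sub_cancel] at h2

theorem s44mss_tr_inv {y : F0} (hy : Transcendental A0 y) : Transcendental A0 y⁻¹ :=
  fun h => hy (IsAlgebraic.inv_iff.1 h)

/-- **the anharmonic orbit**: a valuation ring over the Gauss ring of `A0[y]` is over the Gauss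
ring of `A0[μ]` for each of the six anharmonic transforms `μ` of `y`. -/
theorem s44mss_over_anharm {y μ : F0} (hy : Transcendental A0 y) {π : A0} (hπ : ¬ IsUnit π)
    {V : ValuationSubring F0}
    (h : ssm_tp_Over (algebraMap A0 (Algebra.adjoin A0 ({y} : Set F0)) π) V)
    (hμ : μ = y ∨ μ = 1 - y ∨ μ = 1 / y ∨ μ = 1 / (1 - y) ∨ μ = (y - 1) / y ∨ μ = y / (y - 1)) :
    ssm_tp_Over (algebraMap A0 (Algebra.adjoin A0 ({μ} : Set F0)) π) V := by
  have hy0 : y ≠ 0 := by
    rintro rfl
    exact hy isAlgebraic_zero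
  have hy1 : y - 1 ≠ 0 := by
    intro h1
    have : y = 1 := sub_eq_zero.1 h1
    exact hy (this ▸ isAlgebraic_one)
  have hinv := ssm_tp_over_inv hy (s44mss_tr_inv hy) hπ h
  rcases hμ with rfl | rfl | rfl | rfl | rfl | rfl
  · exact h
  · exact s44mss_over_one_sub h
  · rw [one_div]; exact hinv
  · rw [one_div]
    exact ssm_tp_over_inv (s44mss_tr_one_sub hy) (s44mss_tr_inv (s44mss_tr_one_sub hy)) hπ
      (s44mss_over_one_sub h)
  · have e : (y - 1) / y = 1 - y⁻¹ := by field_simp
    rw [e]
    exact s44mss_over_one_sub hinv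
  · have e : y / (y - 1) = (1 - y⁻¹)⁻¹ := by field_simp
    rw [e]
    exact ssm_tp_over_inv (s44mss_tr_one_sub (s44mss_tr_inv hy))
      (s44mss_tr_inv (s44mss_tr_one_sub (s44mss_tr_inv hy))) hπ (s44mss_over_one_sub hinv)

end Over

section NoSwap

variable {K : Type*} {E : Type*} [Field K] [Field E] [Algebra K E] [FiniteDimensional K E]
  [Algebra.IsSeparable K E]
  {R : Type*} [CommRing R] [IsDomain R] [IsDiscreteValuationRing R] [Algebra R K]
  [IsFractionRing R K] [Algebra R E] [IsScalarTower R K E]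
  {q : ℕ} {V1 : ValuationSubring E} {W : E ≃+* E} {lam : R}

/-- **no swap**: an automorphism `g` of `E` whose inverse preserves `K` does not map `V2 = W V1`
onto `V1`. -/
theorem s44mss_no_swap (D : ssm_tw_Data K R q V1 W lam) (g : E ≃+* E)
    (hgK : ∀ z : K, ∃ z' : K, g.symm (algebraMap K E z) = algebraMap K E z') :
    V1.comap (g : E →+* E) ≠ V1.comap (W : E →+* E) := by
  intro hswap
  have hmem : ∀ x : E, g x ∈ V1 ↔ W x ∈ V1 := by
    intro x
    have := congrArg (fun V : ValuationSubring E => x ∈ V) hswap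
    simpa only [ValuationSubring.mem_comap, RingEquiv.coe_toRingHom, eq_iff_iff] using this
  have hnon : ∀ x : E, g x ∈ V1.nonunits ↔ W x ∈ V1.nonunits := by
    intro x
    rw [← ssm_tw_nonunits_comap, ← ssm_tw_nonunits_comap, hswap]
  -- `a := W λ ∈ V2`
  set a : E := W (algebraMap R E lam) with ha
  have haV2 : W a ∈ V1 := by
    rw [ha, D.invol]
    exact ssm_tw_over_mem D.over1 lam
  have hga : g a ∈ V1 := (hmem a).2 haV2
  obtain ⟨r, hr⟩ := ssm_tw_res1 D (g a) hga
  -- pull `r` back through `g`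
  obtain ⟨z', hz'⟩ := hgK (algebraMap R K r)
  have hgz' : g (algebraMap K E z') = algebraMap R E r := by
    rw [← hz', RingEquiv.apply_symm_apply, ← IsScalarTower.algebraMap_apply]
  have hz'V2 : W (algebraMap K E z') ∈ V1 := by
    rw [← hmem, hgz']
    exact ssm_tw_over_mem D.over1 r
  obtain ⟨r', hr'⟩ := (D.over2 z').1 hz'V2
  have hr'E : algebraMap K E z' = algebraMap R E r' := by
    rw [← hr', ← IsScalarTower.algebraMap_apply]
  have h1 : g (a - algebraMap R E r') ∈ V1.nonunits := by
    rw [map_sub, ← hr'E, hgz']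
    exact hr
  have h2 : W (a - algebraMap R E r') ∈ V1.nonunits := (hnon _).1 h1
  rw [map_sub, ha, D.invol] at h2
  exact D.nres r' h2

end NoSwap

end Fermat.Agent.S44
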