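/-
S44 project, cell [H2-N] NODE DICTIONARY, step (N2)(ii) (helper10), Legendre instance.
Prefix `s44mss_`.

GALOIS STABILITY OF THE TWO GAUSS VALUATIONS OF THE LEGENDRE COVER.

`E = lg_E L (N' q)`, `φ(F) = lg_F2 L (N' q)`, `V1 = ssm_gl_V1` (Gauss), `V2 = ssm_gl_V2 = W V1`.
Every `g ∈ Gal(E / φ(F))` maps `V1` onto `V1` and `V2` onto `V2`
(`s44mss_gal_V1`, `s44mss_gal_V2`, membership forms `s44mss_gal_mem_V1/2`,
`s44mss_gal_nonunits_V2`).  Consequently `V2` is the unique extension of `V2 ∩ φ(F)` to `E`, and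
the characteristic polynomial over `φ(F)` of an element of `𝔪(V2)` has its lower coefficients in
`𝔪(V2)`.
-/
import Mathlib
import Fermat.Agent.S44.Mono.NodeSSGalAbs
import Fermat.Agent.SS.Model.TwoPrimesLeg
import Fermat.Agent.JT3.PlaceMap.CoverGaloisLeg

set_option autoImplicit false
set_option linter.unusedSectionVars false
set_option linter.style.haveILetI false
set_option linter.unusedVariables false

noncomputable section

namespace Fermat.Agent.S44

open ModularCurve IntermediateField IsLocalRing Fermat.Agent.JT3 Fermat.Agent.SS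

section Generic

variable {E : Type*} [Field E]

theorem s44mss_mem_of_comap_eq {V : ValuationSubring E} {g : E ≃+* E}
    (h : V.comap (g : E →+* E) = V) (x : E) : g x ∈ V ↔ x ∈ V := by
  have h1 : x ∈ V.comap (g : E →+* E) ↔ g x ∈ V := Iff.rfl
  rw [h] at h1
  exact h1.symm

theorem s44mss_nonunits_of_comap_eq {V : ValuationSubring E} {g : E ≃+* E}
    (h : V.comap (g : E →+* E) = V) (x : E) : g x ∈ V.nonunits ↔ x ∈ V.nonunits := by
  have h1 := ssm_tw_nonunits_comap V g x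
  rw [h] at h1
  exact h1.symm

end Generic

section Legendre

variable {L : Type*} [Field L] [CharZero L]

attribute [local instance] lgh_algF2E

/-- a Galois automorphism of `E / φ(F)` moves `λ` to an anharmonic transform. -/
theorem s44mss_gal_lam (N : ℕ) [NeZero N] (g : lg_E L N ≃ₐ[lg_F2 L N] lg_E L N) :
    g (lg_lamE N) = lg_lamE N ∨ g (lg_lamE N) = 1 - lg_lamE N ∨
      g (lg_lamE N) = 1 / lg_lamE N ∨
      g (lg_lamE N) = 1 / (1 - lg_lamE N) ∨ g (lg_lamE N) = (lg_lamE N - 1) / lg_lamE N ∨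
      g (lg_lamE N) = lg_lamE N / (lg_lamE N - 1) := by
  by_cases hg : g = 1
  · left; rw [hg, AlgEquiv.one_apply]
  · right; exact rcq_leg_aut_cases N g hg

/-- the six anharmonic transforms of `λ` lie in `L(λ)`. -/
theorem s44mss_anharm_mem_K {x : LaurentSeries L}
    (h : x = lg_lam L ∨ x = 1 - lg_lam L ∨ x = 1 / lg_lam L ∨ x = 1 / (1 - lg_lam L) ∨
      x = (lg_lam L - 1) / lg_lam L ∨ x = lg_lam L / (lg_lam L - 1)) : x ∈ lg_K L := by
  have hl : lg_lam L ∈ lg_K L := lg_lam_mem_K L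
  have h1 : (1 : LaurentSeries L) ∈ lg_K L := one_mem _
  rcases h with rfl | rfl | rfl | rfl | rfl | rfl
  · exact hl
  · exact sub_mem h1 hl
  · exact div_mem h1 hl
  · exact div_mem h1 (sub_mem h1 hl)
  · exact div_mem (sub_mem hl h1) hl
  · exact div_mem hl (sub_mem hl h1)

/-- a Galois automorphism of `E_N / φ(F_N)` preserves `E_{N'}` when `φ(F_{N'}) ≤ φ(F_N)`. -/
theorem s44mss_gal_sub (N' N : ℕ) [NeZero N'] [NeZero N] (hF : lg_F2 L N' ≤ lg_F2 L N)
    (hle : lg_E L N' ≤ lg_E L N) (g : lg_E L N ≃ₐ[lg_F2 L N] lg_E L N) (z : lg_E L N') :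
    ((g (IntermediateField.inclusion hle z) : lg_E L N) : LaurentSeries L) ∈ lg_E L N' := by
  let ψ : lg_E L N →ₐ[L] LaurentSeries L :=
    (lg_E L N).val.comp ((g : lg_E L N →ₐ[lg_F2 L N] lg_E L N).restrictScalars L)
  have hψ : ∀ e : lg_E L N, ψ e = ((g e : lg_E L N) : LaurentSeries L) := fun e => rfl
  set M : IntermediateField L (LaurentSeries L) := ((lg_E L N').comap ψ).map (lg_E L N).val with hM
  have h1 : lg_F2 L N' ≤ M := by
    intro x hx
    have hxN : x ∈ lg_F2 L N := hF hx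
    refine ⟨⟨x, lg_F2_le_E L N hxN⟩, ?_, rfl⟩
    show ψ ⟨x, lg_F2_le_E L N hxN⟩ ∈ lg_E L N'
    rw [hψ]
    have h2 : (⟨x, lg_F2_le_E L N hxN⟩ : lg_E L N) =
        algebraMap (lg_F2 L N) (lg_E L N) ⟨x, hxN⟩ := rfl
    rw [h2, AlgEquiv.commutes]
    exact lg_F2_le_E L N' hx
  have h2 : lg_K L ≤ M := by
    rw [lg_K, IntermediateField.adjoin_le_iff]
    rintro _ rfl
    refine ⟨lg_lamE N, ?_, rfl⟩
    show ψ (lg_lamE N) ∈ lg_E L N'
    rw [hψ]
    apply lg_K_le_E L N'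
    apply s44mss_anharm_mem_K
    have h3 := s44mss_gal_lam N g
    have hc : ((lg_lamE N : lg_E L N) : LaurentSeries L) = lg_lam L := rfl
    rcases h3 with h | h | h | h | h | h
    · left; rw [h, hc]
    · right; left
      rw [h, AddSubgroupClass.coe_sub, IntermediateField.coe_one, hc]
    · right; right; left
      rw [h, IntermediateField.coe_div, IntermediateField.coe_one, hc]
    · right; right; right; left
      rw [h, IntermediateField.coe_div, IntermediateField.coe_one, AddSubgroupClass.coe_sub,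
        IntermediateField.coe_one, hc]
    · right; right; right; right; left
      rw [h, IntermediateField.coe_div, AddSubgroupClass.coe_sub, IntermediateField.coe_one, hc]
    · right; right; right; right; right
      rw [h, IntermediateField.coe_div, AddSubgroupClass.coe_sub, IntermediateField.coe_one, hc]
  have h3 : lg_E L N' ≤ M := sup_le h1 h2
  obtain ⟨w, hw, hwz⟩ := h3 z.2
  have hwz' : (w : LaurentSeries L) = (z : LaurentSeries L) := hwz
  have hw' : ψ w ∈ lg_E L N' := hw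
  have hwi : IntermediateField.inclusion hle z = w := by
    apply Subtype.ext
    rw [IntermediateField.coe_inclusion]
    exact hwz'.symm
  rw [hwi, ← hψ]
  exact hw'

end Legendre

section Main

variable {L : Type*} [Field L] [CharZero L] [Algebra L (AlgebraicClosure ℚ)]
  (O : ValuationSubring L) [IsDiscreteValuationRing O] {π : O} (hπ : Irreducible π)
variable (N' q : ℕ) [NeZero N'] [NeZero q] [hq : Fact q.Prime] [CharP (ResidueField O) q]
  (hq2 : ¬ 2 ∣ q) (hqN' : ¬ q ∣ N')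

attribute [local instance] lgh_algF2E

/-- a Galois automorphism of `E / φ(F)` is `O`-linear. -/
theorem s44mss_gal_base (N : ℕ) [NeZero N] (g : lg_E L N ≃ₐ[lg_F2 L N] lg_E L N) (a : O) :
    g (algebraMap O (lg_E L N) a) = algebraMap O (lg_E L N) a := by
  have h : algebraMap O (lg_E L N) a = algebraMap (lg_F2 L N) (lg_E L N)
      (algebraMap O (lg_F2 L N) a) := rfl
  rw [h, AlgEquiv.commutes]

/-- `g⁻¹ V_i ∈ {V1, V2}`. -/
theorem s44mss_gal_cases
    (hprime : Prime (algebraMap ↥O (fc_chart ↥O ({lg_lamE N'} : Set ↥(lg_E L N'))) π))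
    (g : lg_E L (N' * q) ≃ₐ[lg_F2 L (N' * q)] lg_E L (N' * q))
    (V : ValuationSubring ↥(lg_E L (N' * q)))
    (hV : V = ssm_gl_V1 O hπ N' q ∨ V = ssm_gl_V2 O hπ N' q hq2 hqN') :
    V.comap ((g : ↥(lg_E L (N' * q)) ≃+* ↥(lg_E L (N' * q))) :
        ↥(lg_E L (N' * q)) →+* ↥(lg_E L (N' * q))) = ssm_gl_V1 O hπ N' q ∨
      V.comap ((g : ↥(lg_E L (N' * q)) ≃+* ↥(lg_E L (N' * q))) :
        ↥(lg_E L (N' * q)) →+* ↥(lg_E L (N' * q))) = ssm_gl_V2 O hπ N' q hq2 hqN' := by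
  have H := ssm_gl_hyp O hπ N' q hq2 hqN' hprime
  have hT : Transcendental L (lg_lamE (L := L) (N' * q)) :=
    lgf_lam_transcendental L (N' * q) two_ne_zero
  haveI := ssm_go_isScalarTower O (lg_E L (N' * q))
  have hTO : Transcendental ↥O (lg_lamE (L := L) (N' * q)) :=
    Transcendental.restrictScalars (S := L) (Subtype.val_injective) hT
  have hover : ssm_tp_Over (algebraMap ↥O
      (Algebra.adjoin ↥O ({lg_lamE (N' * q)} : Set ↥(lg_E L (N' * q)))) π) V := by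
    rcases hV with rfl | rfl
    · exact H.over1
    · exact H.over2
  have hgl := s44mss_gal_lam (N' * q) g
  have h1 := s44mss_over_anharm (μ := g (lg_lamE (N' * q))) hTO hπ.not_isUnit hover hgl
  have h2 := s44mss_over_comap (g : ↥(lg_E L (N' * q)) ≃+* ↥(lg_E L (N' * q)))
    (fun a => s44mss_gal_base O (N' * q) g a) (y := lg_lamE (N' * q)) h1
  exact H.only _ h2

omit [IsDiscreteValuationRing ↥O] [CharP (ResidueField ↥O) q] [Algebra L (AlgebraicClosure ℚ)]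
  hq in
theorem s44mss_F2_le : lg_F2 L N' ≤ lg_F2 L (N' * q) := by
  rintro x ⟨y, hy, rfl⟩
  exact ⟨y, full_degeneracyC_le L (Dvd.intro _ rfl) hy, rfl⟩

/-- no Galois automorphism swaps `V1` and `V2`. -/
theorem s44mss_gal_no_swap
    (g : lg_E L (N' * q) ≃ₐ[lg_F2 L (N' * q)] lg_E L (N' * q)) :
    (ssm_gl_V1 O hπ N' q).comap ((g : ↥(lg_E L (N' * q)) ≃+* ↥(lg_E L (N' * q))) :
        ↥(lg_E L (N' * q)) →+* ↥(lg_E L (N' * q))) ≠ ssm_gl_V2 O hπ N' q hq2 hqN' := by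
  letI := ssm_gi_algebra (ssm_al_E_le L N' q)
  letI := ssm_gi_algebraV (ssm_al_E_le L N' q)
    (gq_valSubOf π hπ.ne_zero hπ.maximalIdeal_eq (lg_E L N')
      ((ssm_al_E_le L N' q).trans (ssm_ga_E_le_quotField O (N' * q))))
  haveI := ssm_gi_isScalarTower (ssm_al_E_le L N' q)
    (gq_valSubOf π hπ.ne_zero hπ.maximalIdeal_eq (lg_E L N')
      ((ssm_al_E_le L N' q).trans (ssm_ga_E_le_quotField O (N' * q))))
  have hfr : Module.finrank ↥(lg_E L N') ↥(lg_E L (N' * q)) = q + 1 :=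
    (ssm_gt_finrank_eq (ssm_al_E_le L N' q)).trans (ssm_al_relfinrank_E L N' q hq.out hq2 hqN')
  haveI : FiniteDimensional ↥(lg_E L N') ↥(lg_E L (N' * q)) := ssm_gi_finiteDimensional hfr
  haveI : Algebra.IsSeparable ↥(lg_E L N') ↥(lg_E L (N' * q)) := ssm_gi_isSeparable
  have D := ssm_gl_data O hπ N' q hq2 hqN'
  refine s44mss_no_swap D (g : ↥(lg_E L (N' * q)) ≃+* ↥(lg_E L (N' * q))) ?_
  intro z
  have hmem := s44mss_gal_sub N' (N' * q) (s44mss_F2_le N' q) (ssm_al_E_le L N' q) g.symm z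
  exact ⟨⟨_, hmem⟩, Subtype.ext rfl⟩

include hq2 hqN' in
/-- **`Gal(E / φ(F))` stabilises the Gauss valuation `V1`.** -/
theorem s44mss_gal_V1
    (hprime : Prime (algebraMap ↥O (fc_chart ↥O ({lg_lamE N'} : Set ↥(lg_E L N'))) π))
    (g : lg_E L (N' * q) ≃ₐ[lg_F2 L (N' * q)] lg_E L (N' * q)) :
    (ssm_gl_V1 O hπ N' q).comap ((g : ↥(lg_E L (N' * q)) ≃+* ↥(lg_E L (N' * q))) :
        ↥(lg_E L (N' * q)) →+* ↥(lg_E L (N' * q))) = ssm_gl_V1 O hπ N' q := by
  rcases s44mss_gal_cases O hπ N' q hq2 hqN' hprime g _ (Or.inl rfl) with h | h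
  · exact h
  · exact absurd h (s44mss_gal_no_swap O hπ N' q hq2 hqN' g)

/-- **`Gal(E / φ(F))` stabilises the second valuation `V2 = W V1`.** -/
theorem s44mss_gal_V2
    (hprime : Prime (algebraMap ↥O (fc_chart ↥O ({lg_lamE N'} : Set ↥(lg_E L N'))) π))
    (g : lg_E L (N' * q) ≃ₐ[lg_F2 L (N' * q)] lg_E L (N' * q)) :
    (ssm_gl_V2 O hπ N' q hq2 hqN').comap ((g : ↥(lg_E L (N' * q)) ≃+* ↥(lg_E L (N' * q))) :
        ↥(lg_E L (N' * q)) →+* ↥(lg_E L (N' * q))) = ssm_gl_V2 O hπ N' q hq2 hqN' := by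
  rcases s44mss_gal_cases O hπ N' q hq2 hqN' hprime g _ (Or.inr rfl) with h | h
  · exfalso
    apply s44mss_gal_no_swap O hπ N' q hq2 hqN' g.symm
    ext x
    rw [ValuationSubring.mem_comap]
    have h1 : (g.symm x ∈ ssm_gl_V1 O hπ N' q) ↔
        g.symm x ∈ (ssm_gl_V2 O hπ N' q hq2 hqN').comap
          ((g : ↥(lg_E L (N' * q)) ≃+* ↥(lg_E L (N' * q))) :
            ↥(lg_E L (N' * q)) →+* ↥(lg_E L (N' * q))) := by rw [h]
    have h2 : ((g.symm : ↥(lg_E L (N' * q)) ≃+* ↥(lg_E L (N' * q))) :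
        ↥(lg_E L (N' * q)) →+* ↥(lg_E L (N' * q))) x = g.symm x := rfl
    rw [h2, h1, ValuationSubring.mem_comap]
    have h3 : ((g : ↥(lg_E L (N' * q)) ≃+* ↥(lg_E L (N' * q))) :
        ↥(lg_E L (N' * q)) →+* ↥(lg_E L (N' * q))) (g.symm x) = x := g.apply_symm_apply x
    rw [h3]
  · exact h

include hq2 hqN' in
theorem s44mss_gal_mem_V1
    (hprime : Prime (algebraMap ↥O (fc_chart ↥O ({lg_lamE N'} : Set ↥(lg_E L N'))) π))
    (g : lg_E L (N' * q) ≃ₐ[lg_F2 L (N' * q)] lg_E L (N' * q)) (x : lg_E L (N' * q)) :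
    g x ∈ ssm_gl_V1 O hπ N' q ↔ x ∈ ssm_gl_V1 O hπ N' q :=
  s44mss_mem_of_comap_eq (g := (g : ↥(lg_E L (N' * q)) ≃+* ↥(lg_E L (N' * q))))
    (s44mss_gal_V1 O hπ N' q hq2 hqN' hprime g) x

theorem s44mss_gal_mem_V2
    (hprime : Prime (algebraMap ↥O (fc_chart ↥O ({lg_lamE N'} : Set ↥(lg_E L N'))) π))
    (g : lg_E L (N' * q) ≃ₐ[lg_F2 L (N' * q)] lg_E L (N' * q)) (x : lg_E L (N' * q)) :
    g x ∈ ssm_gl_V2 O hπ N' q hq2 hqN' ↔ x ∈ ssm_gl_V2 O hπ N' q hq2 hqN' :=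
  s44mss_mem_of_comap_eq (g := (g : ↥(lg_E L (N' * q)) ≃+* ↥(lg_E L (N' * q))))
    (s44mss_gal_V2 O hπ N' q hq2 hqN' hprime g) x

include hq2 hqN' in
theorem s44mss_gal_nonunits_V1
    (hprime : Prime (algebraMap ↥O (fc_chart ↥O ({lg_lamE N'} : Set ↥(lg_E L N'))) π))
    (g : lg_E L (N' * q) ≃ₐ[lg_F2 L (N' * q)] lg_E L (N' * q)) (x : lg_E L (N' * q)) :
    g x ∈ (ssm_gl_V1 O hπ N' q).nonunits ↔ x ∈ (ssm_gl_V1 O hπ N' q).nonunits :=
  s44mss_nonunits_of_comap_eq (g := (g : ↥(lg_E L (N' * q)) ≃+* ↥(lg_E L (N' * q))))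
    (s44mss_gal_V1 O hπ N' q hq2 hqN' hprime g) x

theorem s44mss_gal_nonunits_V2
    (hprime : Prime (algebraMap ↥O (fc_chart ↥O ({lg_lamE N'} : Set ↥(lg_E L N'))) π))
    (g : lg_E L (N' * q) ≃ₐ[lg_F2 L (N' * q)] lg_E L (N' * q)) (x : lg_E L (N' * q)) :
    g x ∈ (ssm_gl_V2 O hπ N' q hq2 hqN').nonunits ↔
      x ∈ (ssm_gl_V2 O hπ N' q hq2 hqN').nonunits :=
  s44mss_nonunits_of_comap_eq (g := (g : ↥(lg_E L (N' * q)) ≃+* ↥(lg_E L (N' * q))))
    (s44mss_gal_V2 O hπ N' q hq2 hqN' hprime g) x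

end Main

end Fermat.Agent.S44
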