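/-
Project S44 (Mazur–Ribet at `p`), cell [H2] MONO-MAIN, SUB-H2b SHEETS (helper23).  Prefix `s44ks_`.

THE EXTENSIONS OF A DISCRETE VALUATION `V` TO A COMPLETELY SPLIT KUMMER EXTENSION `L = E(y₀)`,
`y₀ ^ p = 1 + λ ^ p b`, `λ = ζ - 1`, `b ∈ 𝔪_V`  (valuation-subring vocabulary, Mathlib only;
no completion, no Hensel, no tameness).

* `s44ks_Dom V W`      : `W ∩ E = V`.
* `s44ks_unitRep`      : (core) if `ε ∈ 𝔪_W`, `ε · cP(ε) = π · bb` with `cP ∈ V[X]`, `cP(0) ∈ Vˣ`, and
  `L = E[ε]`, then every `z ≠ 0` of `L` is `π ^ n · R₁(ε) / R₂(ε)` with `R₁ R₂ ∈ V[X]` of unit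
  constant term.
* `s44ks_sheet`        : every extension `W` of `V` lies on exactly one sheet `s < p`:
  `W (y₀ - ζ ^ s) < W λ`.
* `s44ks_unram`        : `π` stays a uniformiser of every extension.
* `s44ks_conj`         : any two extensions are conjugate under a power of `τ` (`τ y₀ = ζ y₀`).
* `s44ks_congr`        : if `τ Φ · u = h ^ p · Φ` with `u` a unit of `V`, then `W(Φ) mod p` does not
  depend on the extension `W` of `V`.
-/
import Mathlib

set_option autoImplicit false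

noncomputable section

namespace Fermat.Agent.S44

open Polynomial

variable {E L : Type*} [Field E] [Field L] [Algebra E L]

/-- `W` extends `V`: `W ∩ E = V`. -/
def s44ks_Dom (V : ValuationSubring E) (W : ValuationSubring L) : Prop :=
  ∀ e : E, algebraMap E L e ∈ W ↔ e ∈ V

section Hom

variable {K : Type*} [Field K] (f : K →+* L) {A : ValuationSubring K} {B : ValuationSubring L}

theorem s44ks_hom_le (h : ∀ x, f x ∈ B ↔ x ∈ A) (x : K) :
    B.valuation (f x) ≤ 1 ↔ A.valuation x ≤ 1 := by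
  rw [ValuationSubring.valuation_le_one_iff, ValuationSubring.valuation_le_one_iff]
  exact h x

theorem s44ks_hom_lt (h : ∀ x, f x ∈ B ↔ x ∈ A) (x : K) :
    B.valuation (f x) < 1 ↔ A.valuation x < 1 := by
  by_cases hx : x = 0
  · subst hx
    simp
  have hx' : f x ≠ 0 := (_root_.map_ne_zero _).2 hx
  rw [← not_le, ← not_le, Valuation.one_le_val_iff _ hx', Valuation.one_le_val_iff _ hx,
    ← map_inv₀, s44ks_hom_le f h]

theorem s44ks_hom_eq_one (h : ∀ x, f x ∈ B ↔ x ∈ A) (x : K) :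
    B.valuation (f x) = 1 ↔ A.valuation x = 1 := by
  constructor
  · intro h1
    exact le_antisymm ((s44ks_hom_le f h x).1 h1.le)
      (not_lt.1 fun h2 => absurd h1 ((s44ks_hom_lt f h x).2 h2).ne)
  · intro h1
    exact le_antisymm ((s44ks_hom_le f h x).2 h1.le)
      (not_lt.1 fun h2 => absurd h1 ((s44ks_hom_lt f h x).1 h2).ne)

theorem s44ks_hom_lt_lt (h : ∀ x, f x ∈ B ↔ x ∈ A) (x y : K) :
    B.valuation (f x) < B.valuation (f y) ↔ A.valuation x < A.valuation y := by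
  by_cases hy : y = 0
  · subst hy
    simp
  have hy' : f y ≠ 0 := (_root_.map_ne_zero _).2 hy
  have h1 : 0 < A.valuation y := zero_lt_iff.2 ((Valuation.ne_zero_iff _).2 hy)
  have h2 : 0 < B.valuation (f y) := zero_lt_iff.2 ((Valuation.ne_zero_iff _).2 hy')
  rw [← div_lt_one₀ h1, ← div_lt_one₀ h2, ← map_div₀, ← map_div₀, ← map_div₀,
    s44ks_hom_lt f h]

end Hom

section Dom

variable {V : ValuationSubring E} {W : ValuationSubring L}

theorem s44ks_dom_le (h : s44ks_Dom V W) (e : E) :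
    W.valuation (algebraMap E L e) ≤ 1 ↔ V.valuation e ≤ 1 :=
  s44ks_hom_le (algebraMap E L) h e

theorem s44ks_dom_lt (h : s44ks_Dom V W) (e : E) :
    W.valuation (algebraMap E L e) < 1 ↔ V.valuation e < 1 :=
  s44ks_hom_lt (algebraMap E L) h e

theorem s44ks_dom_eq_one (h : s44ks_Dom V W) (e : E) :
    W.valuation (algebraMap E L e) = 1 ↔ V.valuation e = 1 :=
  s44ks_hom_eq_one (algebraMap E L) h e

end Dom

/-- all coefficients in `V`. -/
def s44ks_Int (V : ValuationSubring E) (R : E[X]) : Prop := ∀ n, R.coeff n ∈ V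

section Int

variable {V : ValuationSubring E}

theorem s44ks_int_C {a : E} (ha : a ∈ V) : s44ks_Int V (C a) := by
  intro n
  rw [coeff_C]
  split_ifs
  · exact ha
  · exact V.zero_mem

theorem s44ks_int_X : s44ks_Int V (X : E[X]) := by
  intro n
  rw [coeff_X]
  split_ifs
  · exact V.one_mem
  · exact V.zero_mem

theorem s44ks_int_add {R S : E[X]} (hR : s44ks_Int V R) (hS : s44ks_Int V S) :
    s44ks_Int V (R + S) := by
  intro n
  rw [coeff_add]
  exact V.add_mem _ _ (hR n) (hS n)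

theorem s44ks_int_neg {R : E[X]} (hR : s44ks_Int V R) : s44ks_Int V (-R) := by
  intro n
  rw [coeff_neg]
  exact V.neg_mem _ (hR n)

theorem s44ks_int_sub {R S : E[X]} (hR : s44ks_Int V R) (hS : s44ks_Int V S) :
    s44ks_Int V (R - S) := by
  rw [sub_eq_add_neg]
  exact s44ks_int_add hR (s44ks_int_neg hS)

theorem s44ks_int_mul {R S : E[X]} (hR : s44ks_Int V R) (hS : s44ks_Int V S) :
    s44ks_Int V (R * S) := by
  intro n
  rw [coeff_mul]
  exact V.toSubring.sum_mem fun c _ => V.mul_mem _ _ (hR c.1) (hS c.2)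

theorem s44ks_int_one : s44ks_Int V (1 : E[X]) := by
  rw [← C_1]
  exact s44ks_int_C V.one_mem

theorem s44ks_int_pow {R : E[X]} (hR : s44ks_Int V R) (k : ℕ) : s44ks_Int V (R ^ k) := by
  induction k with
  | zero => rw [pow_zero]; exact s44ks_int_one
  | succ k ih => rw [pow_succ]; exact s44ks_int_mul ih hR

theorem s44ks_int_prod {ι : Type*} (s : Finset ι) (f : ι → E[X])
    (h : ∀ i ∈ s, s44ks_Int V (f i)) : s44ks_Int V (∏ i ∈ s, f i) := by
  classical
  induction s using Finset.induction_on with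
  | empty => rw [Finset.prod_empty]; exact s44ks_int_one
  | insert a s ha ih =>
    rw [Finset.prod_insert ha]
    exact s44ks_int_mul (h a (Finset.mem_insert_self a s))
      (ih fun i hi => h i (Finset.mem_insert_of_mem hi))

theorem s44ks_int_divX {R : E[X]} (hR : s44ks_Int V R) : s44ks_Int V (divX R) := by
  intro n
  rw [coeff_divX]
  exact hR (n + 1)

variable {W : ValuationSubring L}

/-- integral polynomials take integral values at integral points. -/
theorem s44ks_aeval_mem (h : s44ks_Dom V W) {R : E[X]} (hR : s44ks_Int V R) {ε : L}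
    (hε : ε ∈ W) : aeval ε R ∈ W := by
  rw [aeval_eq_sum_range]
  refine W.toSubring.sum_mem fun i _ => ?_
  rw [Algebra.smul_def]
  exact W.mul_mem _ _ ((h _).2 (hR i)) (W.toSubring.pow_mem hε i)

/-- **Lemma B**: an integral polynomial with unit constant term takes unit values on `𝔪_W`. -/
theorem s44ks_aeval_unit (h : s44ks_Dom V W) {R : E[X]} (hR : s44ks_Int V R)
    (hR0 : V.valuation (R.coeff 0) = 1) {ε : L} (hε : W.valuation ε < 1) :
    W.valuation (aeval ε R) = 1 := by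
  have hεW : ε ∈ W := (ValuationSubring.valuation_le_one_iff _ _).1 hε.le
  have h1 : aeval ε R = aeval ε (divX R) * ε + algebraMap E L (R.coeff 0) := by
    conv_lhs => rw [← divX_mul_X_add R]
    rw [map_add, map_mul, aeval_X, aeval_C]
  have h2 : W.valuation (algebraMap E L (R.coeff 0)) = 1 := (s44ks_dom_eq_one h _).2 hR0
  have h3 : W.valuation (aeval ε (divX R) * ε) < 1 := by
    rw [map_mul]
    have h4 : W.valuation (aeval ε (divX R)) ≤ 1 :=
      (ValuationSubring.valuation_le_one_iff _ _).2 (s44ks_aeval_mem h (s44ks_int_divX hR) hεW)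
    calc W.valuation (aeval ε (divX R)) * W.valuation ε ≤ 1 * W.valuation ε :=
          mul_le_mul_left h4 _
      _ = W.valuation ε := one_mul _
      _ < 1 := hε
  rw [h1, Valuation.map_add_eq_of_lt_right _ (by rw [h2]; exact h3), h2]

end Int

/-- `pi` is a uniformiser of `V` (`V` is a discrete valuation ring with parameter `pi`). -/
structure s44ks_IsUnif (V : ValuationSubring E) (pi : E) : Prop where
  lt_one : V.valuation pi < 1
  ne_zero : pi ≠ 0
  exists_zpow : ∀ e : E, e ≠ 0 → ∃ n : ℤ, V.valuation (e / pi ^ n) = 1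

section Unif

variable {V : ValuationSubring E} {pi : E}

theorem s44ks_unif_val_pos (h : s44ks_IsUnif V pi) : 0 < V.valuation pi :=
  zero_lt_iff.2 ((Valuation.ne_zero_iff _).2 h.ne_zero)

theorem s44ks_unif_val_eq {e : E} {n : ℤ}
    (hn : V.valuation (e / pi ^ n) = 1) : V.valuation e = V.valuation pi ^ n := by
  rw [map_div₀, map_zpow₀] at hn
  exact eq_of_div_eq_one hn

/-- the maximal ideal is generated by `pi`. -/
theorem s44ks_unif_div (h : s44ks_IsUnif V pi) {e : E} (he : V.valuation e < 1) :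
    e / pi ∈ V := by
  by_cases he0 : e = 0
  · rw [he0, zero_div]; exact V.zero_mem
  obtain ⟨n, hn⟩ := h.exists_zpow e he0
  have h1 := s44ks_unif_val_eq hn
  have hn1 : 0 < n := by
    by_contra hcon
    have := one_le_zpow_of_nonpos₀ (s44ks_unif_val_pos h) h.lt_one.le (not_lt.1 hcon)
    rw [← h1] at this
    exact absurd he (not_lt.2 this)
  rw [← ValuationSubring.valuation_le_one_iff, map_div₀, h1]
  have h2 : V.valuation pi ^ n / V.valuation pi = V.valuation pi ^ (n - 1) := by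
    rw [zpow_sub₀ (s44ks_unif_val_pos h).ne', zpow_one]
  rw [h2]
  exact zpow_le_one₀ (s44ks_unif_val_pos h) h.lt_one.le (by omega)

/-- clearing one denominator. -/
theorem s44ks_unif_clear (h : s44ks_IsUnif V pi) (e : E) : ∃ m : ℕ, pi ^ m * e ∈ V := by
  by_cases he0 : e = 0
  · exact ⟨0, by rw [he0, mul_zero]; exact V.zero_mem⟩
  obtain ⟨n, hn⟩ := h.exists_zpow e he0
  have h1 := s44ks_unif_val_eq hn
  refine ⟨(-n).toNat, ?_⟩
  rw [← ValuationSubring.valuation_le_one_iff, map_mul, map_pow, h1, ← zpow_natCast,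
    ← zpow_add₀ (s44ks_unif_val_pos h).ne']
  exact zpow_le_one₀ (s44ks_unif_val_pos h) h.lt_one.le (by omega)

theorem s44ks_unif_mem (h : s44ks_IsUnif V pi) : pi ∈ V :=
  (ValuationSubring.valuation_le_one_iff _ _).1 h.lt_one.le

/-- clearing the denominators of a polynomial. -/
theorem s44ks_int_clear (h : s44ks_IsUnif V pi) (R : E[X]) :
    ∃ m : ℕ, s44ks_Int V (C (pi ^ m) * R) := by
  induction R using Polynomial.induction_on' with
  | add R S hR hS =>
    obtain ⟨m₁, h₁⟩ := hR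
    obtain ⟨m₂, h₂⟩ := hS
    refine ⟨m₁ + m₂, ?_⟩
    have e1 : C (pi ^ (m₁ + m₂)) * (R + S) =
        C (pi ^ m₂) * (C (pi ^ m₁) * R) + C (pi ^ m₁) * (C (pi ^ m₂) * S) := by
      rw [pow_add, C_mul]; ring
    rw [e1]
    exact s44ks_int_add
      (s44ks_int_mul (s44ks_int_C (V.toSubring.pow_mem (s44ks_unif_mem h) _)) h₁)
      (s44ks_int_mul (s44ks_int_C (V.toSubring.pow_mem (s44ks_unif_mem h) _)) h₂)
  | monomial n a =>
    obtain ⟨m, hm⟩ := s44ks_unif_clear h a
    refine ⟨m, ?_⟩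
    rw [C_mul_monomial]
    intro k
    rw [coeff_monomial]
    split_ifs
    · exact hm
    · exact V.zero_mem

end Unif

section Core

variable {V : ValuationSubring E} {W : ValuationSubring L} {pi : E} {ε : L} {cP : E[X]} {bb : E}

/-- one step of the reduction: a non-unit constant term is absorbed by `cP(ε)`. -/
theorem s44ks_step (hrel : ε * aeval ε cP = algebraMap E L pi * algebraMap E L bb)
    (R : E[X]) (r₀ : E) (hr : R.coeff 0 = pi * r₀) :
    aeval ε cP * aeval ε R =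
      algebraMap E L pi * aeval ε (C r₀ * cP + C bb * divX R) := by
  have h1 : aeval ε R = aeval ε (divX R) * ε + algebraMap E L (pi * r₀) := by
    conv_lhs => rw [← divX_mul_X_add R]
    rw [map_add, map_mul, aeval_X, aeval_C, hr]
  have h2 : aeval ε (C r₀ * cP + C bb * divX R) =
      algebraMap E L r₀ * aeval ε cP + algebraMap E L bb * aeval ε (divX R) := by
    rw [map_add, map_mul, map_mul, aeval_C, aeval_C]
  rw [h1, h2, map_mul]
  linear_combination (aeval ε (divX R)) * hrel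

/-- the reduction process terminates. -/
theorem s44ks_process (hdom : s44ks_Dom V W) (hpi : s44ks_IsUnif V pi)
    (hε : W.valuation ε < 1) (hcP : s44ks_Int V cP) (hcP0 : V.valuation (cP.coeff 0) = 1)
    (hbb : bb ∈ V) (hrel : ε * aeval ε cP = algebraMap E L pi * algebraMap E L bb) :
    ∀ (j : ℕ) (R : E[X]), s44ks_Int V R → aeval ε R ≠ 0 →
      W.valuation (algebraMap E L pi) ^ j ≤ W.valuation (aeval ε R) →
      ∃ (k : ℕ) (R' : E[X]), s44ks_Int V R' ∧ V.valuation (R'.coeff 0) = 1 ∧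
        aeval ε R * aeval ε cP ^ k = algebraMap E L pi ^ k * aeval ε R' := by
  have hεW : ε ∈ W := (ValuationSubring.valuation_le_one_iff _ _).1 hε.le
  have hcPv : W.valuation (aeval ε cP) = 1 := s44ks_aeval_unit hdom hcP hcP0 hε
  have hpiW : W.valuation (algebraMap E L pi) < 1 := (s44ks_dom_lt hdom pi).2 hpi.lt_one
  have hpiW0 : W.valuation (algebraMap E L pi) ≠ 0 :=
    (Valuation.ne_zero_iff _).2 ((_root_.map_ne_zero _).2 hpi.ne_zero)
  -- the step, with its valuation bookkeeping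
  have key : ∀ R : E[X], s44ks_Int V R → aeval ε R ≠ 0 → V.valuation (R.coeff 0) ≠ 1 →
      ∃ R' : E[X], s44ks_Int V R' ∧ aeval ε R' ≠ 0 ∧
        aeval ε cP * aeval ε R = algebraMap E L pi * aeval ε R' ∧
        W.valuation (aeval ε R) = W.valuation (algebraMap E L pi) * W.valuation (aeval ε R') := by
    intro R hR hR0 hu
    have hlt : V.valuation (R.coeff 0) < 1 :=
      lt_of_le_of_ne ((ValuationSubring.valuation_le_one_iff _ _).2 (hR 0)) hu
    have hr₀ : R.coeff 0 / pi ∈ V := s44ks_unif_div hpi hlt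
    have hr : R.coeff 0 = pi * (R.coeff 0 / pi) := by
      rw [mul_div_cancel₀ _ hpi.ne_zero]
    have hstep := s44ks_step hrel R _ hr
    refine ⟨C (R.coeff 0 / pi) * cP + C bb * divX R,
      s44ks_int_add (s44ks_int_mul (s44ks_int_C hr₀) hcP)
        (s44ks_int_mul (s44ks_int_C hbb) (s44ks_int_divX hR)), ?_, hstep, ?_⟩
    · intro h0
      rw [h0, mul_zero] at hstep
      rcases mul_eq_zero.1 hstep with h | h
      · rw [h, _root_.map_zero] at hcPv
        exact zero_ne_one hcPv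
      · exact hR0 h
    · have := congrArg W.valuation hstep
      rw [map_mul, map_mul, hcPv, one_mul] at this
      exact this
  intro j
  induction j with
  | zero =>
    intro R hR hR0 hle
    by_cases hu : V.valuation (R.coeff 0) = 1
    · exact ⟨0, R, hR, hu, by rw [pow_zero, pow_zero, mul_one, one_mul]⟩
    exfalso
    obtain ⟨R', hR', -, -, hval⟩ := key R hR hR0 hu
    rw [pow_zero, hval] at hle
    have h1 : W.valuation (aeval ε R') ≤ 1 :=
      (ValuationSubring.valuation_le_one_iff _ _).2 (s44ks_aeval_mem hdom hR' hεW)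
    have h2 : W.valuation (algebraMap E L pi) * W.valuation (aeval ε R') < 1 :=
      lt_of_le_of_lt (mul_le_mul_right h1 _) (by rw [mul_one]; exact hpiW)
    exact absurd hle (not_le.2 h2)
  | succ j ih =>
    intro R hR hR0 hle
    by_cases hu : V.valuation (R.coeff 0) = 1
    · exact ⟨0, R, hR, hu, by rw [pow_zero, pow_zero, mul_one, one_mul]⟩
    obtain ⟨R', hR', hR'0, hstep, hval⟩ := key R hR hR0 hu
    have hle' : W.valuation (algebraMap E L pi) ^ j ≤ W.valuation (aeval ε R') := by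
      rw [hval, pow_succ'] at hle
      exact le_of_mul_le_mul_left hle (zero_lt_iff.2 hpiW0)
    obtain ⟨k, R'', hR'', hR''0, hk⟩ := ih R' hR' hR'0 hle'
    refine ⟨k + 1, R'', hR'', hR''0, ?_⟩
    rw [pow_succ, pow_succ]
    linear_combination (aeval ε cP ^ k) * hstep + (algebraMap E L pi) * hk

/-- every element of `E[ε]` is an integral polynomial in `ε` divided by a power of `π`. -/
theorem s44ks_clear_aeval (hpi : s44ks_IsUnif V pi) (hgen : ∀ z : L, ∃ R : E[X], z = aeval ε R)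
    (z : L) : ∃ (m : ℕ) (Rt : E[X]), s44ks_Int V Rt ∧ aeval ε Rt = algebraMap E L pi ^ m * z := by
  obtain ⟨R, hR⟩ := hgen z
  obtain ⟨m, hm⟩ := s44ks_int_clear hpi R
  refine ⟨m, _, hm, ?_⟩
  rw [map_mul (aeval ε), aeval_C, ← hR, ← map_pow]

/-- **Lemma A** (the core): every nonzero element of `L = E[ε]` is `π ^ n` times a quotient of two
integral polynomials in `ε` with unit constant terms. -/
theorem s44ks_unitRep (hdom : s44ks_Dom V W) (hpi : s44ks_IsUnif V pi)
    (hε : W.valuation ε < 1) (hcP : s44ks_Int V cP) (hcP0 : V.valuation (cP.coeff 0) = 1)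
    (hbb : bb ∈ V) (hrel : ε * aeval ε cP = algebraMap E L pi * algebraMap E L bb)
    (hgen : ∀ z : L, ∃ R : E[X], z = aeval ε R) {z : L} (hz : z ≠ 0) :
    ∃ (n : ℤ) (R₁ R₂ : E[X]), s44ks_Int V R₁ ∧ s44ks_Int V R₂ ∧
      V.valuation (R₁.coeff 0) = 1 ∧ V.valuation (R₂.coeff 0) = 1 ∧
      z * aeval ε R₂ = algebraMap E L pi ^ n * aeval ε R₁ := by
  have hεW : ε ∈ W := (ValuationSubring.valuation_le_one_iff _ _).1 hε.le
  have hpiL : algebraMap E L pi ≠ 0 := (_root_.map_ne_zero _).2 hpi.ne_zero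
  obtain ⟨m₁, Rt, hRt, e1⟩ := s44ks_clear_aeval hpi hgen z
  have hne : aeval ε Rt ≠ 0 := by
    rw [e1]; exact mul_ne_zero (pow_ne_zero _ hpiL) hz
  -- the bound
  obtain ⟨m₃, R₄, hR₄, e3⟩ := s44ks_clear_aeval hpi hgen (aeval ε Rt)⁻¹
  have e2 : aeval ε Rt * aeval ε R₄ = algebraMap E L pi ^ m₃ := by
    rw [e3, mul_left_comm, mul_inv_cancel₀ hne, mul_one]
  have hle : W.valuation (algebraMap E L pi) ^ m₃ ≤ W.valuation (aeval ε Rt) := by
    have h1 := congrArg W.valuation e2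
    rw [map_mul, map_pow] at h1
    rw [← h1]
    have h2 : W.valuation (aeval ε R₄) ≤ 1 :=
      (ValuationSubring.valuation_le_one_iff _ _).2 (s44ks_aeval_mem hdom hR₄ hεW)
    calc W.valuation (aeval ε Rt) * W.valuation (aeval ε R₄)
        ≤ W.valuation (aeval ε Rt) * 1 := mul_le_mul_right h2 _
      _ = W.valuation (aeval ε Rt) := mul_one _
  obtain ⟨k, R', hR', hR'0, hk⟩ :=
    s44ks_process hdom hpi hε hcP hcP0 hbb hrel m₃ _ hRt hne hle
  refine ⟨(k : ℤ) - m₁, R', cP ^ k, hR', s44ks_int_pow hcP k, hR'0, ?_, ?_⟩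
  · rw [coeff_zero_eq_eval_zero, eval_pow, ← coeff_zero_eq_eval_zero, map_pow, hcP0, one_pow]
  · rw [map_pow, zpow_sub₀ hpiL, zpow_natCast, zpow_natCast, div_mul_eq_mul_div,
      eq_div_iff (pow_ne_zero _ hpiL), ← hk, e1]
    ring

/-- consequence: the valuation of `z` at ANY extension `W'` with `ε ∈ 𝔪_{W'}` is `|π| ^ n`, with
`n` independent of `W'`. -/
theorem s44ks_val_eq (hdom : s44ks_Dom V W) (hpi : s44ks_IsUnif V pi)
    (hε : W.valuation ε < 1) (hcP : s44ks_Int V cP) (hcP0 : V.valuation (cP.coeff 0) = 1)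
    (hbb : bb ∈ V) (hrel : ε * aeval ε cP = algebraMap E L pi * algebraMap E L bb)
    (hgen : ∀ z : L, ∃ R : E[X], z = aeval ε R) {z : L} (hz : z ≠ 0) :
    ∃ n : ℤ, ∀ W' : ValuationSubring L, s44ks_Dom V W' → W'.valuation ε < 1 →
      W'.valuation (z / algebraMap E L pi ^ n) = 1 := by
  obtain ⟨n, R₁, R₂, hR₁, hR₂, h10, h20, hrep⟩ :=
    s44ks_unitRep hdom hpi hε hcP hcP0 hbb hrel hgen hz
  refine ⟨n, fun W' hdom' hε' => ?_⟩
  have hpiL : algebraMap E L pi ≠ 0 := (_root_.map_ne_zero _).2 hpi.ne_zero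
  have h1 : W'.valuation (aeval ε R₁) = 1 := s44ks_aeval_unit hdom' hR₁ h10 hε'
  have h2 : W'.valuation (aeval ε R₂) = 1 := s44ks_aeval_unit hdom' hR₂ h20 hε'
  have h3 := congrArg W'.valuation hrep
  rw [map_mul, map_mul, h1, h2, mul_one, mul_one] at h3
  rw [map_div₀, h3, div_self]
  exact (Valuation.ne_zero_iff _).2 (zpow_ne_zero _ hpiL)

end Core

/-! ### The cyclotomic units `(ζ ^ d - 1) / (ζ - 1)` -/

section Cyclo

variable {V : ValuationSubring E} {p : ℕ} {ζ : E}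

theorem s44ks_zeta_val (hζ : ζ ^ p = 1) (hp : p ≠ 0) : V.valuation ζ = 1 := by
  have h1 : V.valuation ζ ^ p = 1 := by rw [← map_pow, hζ, _root_.map_one]
  exact (pow_eq_one_iff_of_nonneg zero_le hp).1 h1

theorem s44ks_zeta_mem (hζ : ζ ^ p = 1) (hp : p ≠ 0) : ζ ∈ V :=
  (ValuationSubring.valuation_le_one_iff _ _).1 (s44ks_zeta_val hζ hp).le

theorem s44ks_gs_mem (x : E) (hx : x ∈ V) (d : ℕ) :
    ∑ i ∈ Finset.range d, x ^ i ∈ V :=
  V.toSubring.sum_mem fun i _ => V.toSubring.pow_mem hx i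

/-- `(ζ ^ d - 1) / (ζ - 1) = 1 + ζ + ⋯ + ζ ^ (d - 1)` is a unit of `V` for `p ∤ d`. -/
theorem s44ks_gs_unit (hp : p.Prime) (hζ : IsPrimitiveRoot ζ p) {d : ℕ} (hd : ¬ p ∣ d) :
    V.valuation (∑ i ∈ Finset.range d, ζ ^ i) = 1 := by
  have hζp : ζ ^ p = 1 := hζ.pow_eq_one
  have hζV : ζ ∈ V := s44ks_zeta_mem hζp hp.ne_zero
  have hcop : Nat.Coprime d p := (Nat.Coprime.symm ((Nat.Prime.coprime_iff_not_dvd hp).2 hd))
  obtain ⟨d', -, hd'⟩ := Nat.exists_mul_mod_eq_one_of_coprime hcop hp.one_lt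
  have e1 : ζ ^ (d * d') = ζ := by
    conv_lhs => rw [← Nat.div_add_mod (d * d') p, hd', pow_add, pow_mul, hζp, one_pow, one_mul,
      pow_one]
  have hne : ζ - 1 ≠ 0 := sub_ne_zero.2 (hζ.ne_one hp.one_lt)
  have e2 : (∑ i ∈ Finset.range d', (ζ ^ d) ^ i) * (∑ i ∈ Finset.range d, ζ ^ i) = 1 := by
    have h1 : (∑ i ∈ Finset.range d', (ζ ^ d) ^ i) * (ζ ^ d - 1) = (ζ ^ d) ^ d' - 1 :=
      geom_sum_mul _ _
    have h2 : (∑ i ∈ Finset.range d, ζ ^ i) * (ζ - 1) = ζ ^ d - 1 := geom_sum_mul _ _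
    rw [← pow_mul, e1, ← h2, ← mul_assoc] at h1
    exact mul_right_cancel₀ hne (by rw [h1, one_mul])
  have h3 : V.valuation (∑ i ∈ Finset.range d', (ζ ^ d) ^ i) ≤ 1 :=
    (ValuationSubring.valuation_le_one_iff _ _).2
      (s44ks_gs_mem _ (V.toSubring.pow_mem hζV d) d')
  have h4 : V.valuation (∑ i ∈ Finset.range d, ζ ^ i) ≤ 1 :=
    (ValuationSubring.valuation_le_one_iff _ _).2 (s44ks_gs_mem _ hζV d)
  have h5 := congrArg V.valuation e2
  rw [map_mul, _root_.map_one] at h5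
  refine le_antisymm h4 (not_lt.1 fun hlt => ?_)
  have h6 : V.valuation (∑ i ∈ Finset.range d', (ζ ^ d) ^ i) *
      V.valuation (∑ i ∈ Finset.range d, ζ ^ i) < 1 :=
    lt_of_le_of_lt (mul_le_mul_left h3 _) (by rw [one_mul]; exact hlt)
  rw [h5] at h6
  exact lt_irrefl _ h6

/-- `|ζ - 1| ^ (p - 1) = |p|`. -/
theorem s44ks_lam_pow_val (hp : p.Prime) (hζ : IsPrimitiveRoot ζ p) :
    V.valuation (ζ - 1) ^ (p - 1) = V.valuation (p : E) := by
  obtain ⟨n, rfl⟩ : ∃ n, p = n + 1 := ⟨p - 1, (Nat.sub_add_cancel hp.one_le).symm⟩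
  have h1 := congrArg V.valuation hζ.prod_pow_sub_one_eq_order
  rw [map_mul, map_pow, Valuation.map_neg, _root_.map_one, one_pow, one_mul, map_prod] at h1
  have h2 : ∀ k ∈ Finset.range n, V.valuation (ζ ^ (k + 1) - 1) = V.valuation (ζ - 1) := by
    intro k hk
    rw [Finset.mem_range] at hk
    rw [← geom_sum_mul, map_mul,
      s44ks_gs_unit hp hζ (Nat.not_dvd_of_pos_of_lt (Nat.succ_pos k) (by omega)), one_mul]
  rw [Finset.prod_congr rfl h2, Finset.prod_const, Finset.card_range] at h1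
  rw [Nat.add_sub_cancel, h1]
  push_cast
  rfl

/-- `ζ - 1 ∈ 𝔪_V` as soon as `p ∈ 𝔪_V`. -/
theorem s44ks_lam_lt_of_p (hp : p.Prime) (hζ : IsPrimitiveRoot ζ p)
    (h : V.valuation (p : E) < 1) : V.valuation (ζ - 1) < 1 := by
  have hmem : ζ - 1 ∈ V := V.toSubring.sub_mem (s44ks_zeta_mem hζ.pow_eq_one hp.ne_zero) V.one_mem
  refine lt_of_le_of_ne ((ValuationSubring.valuation_le_one_iff _ _).2 hmem) fun h1 => ?_
  rw [← s44ks_lam_pow_val hp hζ, h1, one_pow] at h
  exact lt_irrefl _ h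

end Cyclo

/-! ### The completely split Kummer extension -/

/-- the completely split Kummer situation: `L = E[y₀]`, `y₀ ^ p = 1 + (ζ - 1) ^ p b`, `b ∈ 𝔪_V`,
`V` discrete with uniformiser `pi`. -/
structure s44ks_Setup (V : ValuationSubring E) (pi : E) (p : ℕ) (ζ b : E) (y₀ : L) : Prop where
  unif : s44ks_IsUnif V pi
  prime : p.Prime
  prim : IsPrimitiveRoot ζ p
  lam_lt : V.valuation (ζ - 1) < 1
  b_lt : V.valuation b < 1
  pow_eq : y₀ ^ p = algebraMap E L (1 + (ζ - 1) ^ p * b)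
  gen : ∀ z : L, ∃ R : E[X], z = aeval y₀ R

/-- the cofactor polynomial `∏_{0 < d < p} (X - (ζ ^ d - 1) / (ζ - 1))`. -/
def s44ks_cP (p : ℕ) (ζ : E) : E[X] :=
  ∏ d ∈ Finset.Ico 1 p, (X - C (∑ i ∈ Finset.range d, ζ ^ i))

section Sheet0

variable {V : ValuationSubring E} {pi : E} {p : ℕ} {ζ b : E} {y₀ : L}

theorem s44ks_cP_int (hp : p ≠ 0) (hζ : ζ ^ p = 1) : s44ks_Int V (s44ks_cP p ζ) :=
  s44ks_int_prod _ _ fun d _ =>
    s44ks_int_sub s44ks_int_X (s44ks_int_C (s44ks_gs_mem _ (s44ks_zeta_mem hζ hp) d))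

theorem s44ks_cP_coeff (hp : p.Prime) (hζ : IsPrimitiveRoot ζ p) :
    V.valuation ((s44ks_cP p ζ).coeff 0) = 1 := by
  rw [coeff_zero_eq_eval_zero, s44ks_cP, eval_prod, map_prod]
  refine Finset.prod_eq_one fun d hd => ?_
  rw [Finset.mem_Ico] at hd
  rw [eval_sub, eval_X, eval_C, zero_sub, Valuation.map_neg]
  exact s44ks_gs_unit hp hζ (Nat.not_dvd_of_pos_of_lt hd.1 hd.2)

theorem s44ks_lam_ne (S : s44ks_Setup V pi p ζ b y₀) : ζ - 1 ≠ 0 :=
  sub_ne_zero.2 (S.prim.ne_one S.prime.one_lt)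

/-- the relation `ε · cP(ε) = b` for `ε = (y₀ - 1) / (ζ - 1)`. -/
theorem s44ks_rel (S : s44ks_Setup V pi p ζ b y₀) :
    (y₀ - 1) / algebraMap E L (ζ - 1) *
      aeval ((y₀ - 1) / algebraMap E L (ζ - 1)) (s44ks_cP p ζ) = algebraMap E L b := by
  have hlam : algebraMap E L (ζ - 1) ≠ 0 := (_root_.map_ne_zero _).2 (s44ks_lam_ne S)
  have hζL : IsPrimitiveRoot (algebraMap E L ζ) p :=
    S.prim.map_of_injective (algebraMap E L).injective
  have h1 := X_pow_sub_C_eq_prod hζL S.prime.pos (one_pow p)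
  have h2 := congrArg (eval y₀) h1
  rw [eval_sub, eval_pow, eval_X, eval_C, eval_prod] at h2
  have h3 : ∀ i : ℕ, eval y₀ (X - C (algebraMap E L ζ ^ i * 1)) =
      algebraMap E L (ζ - 1) *
        ((y₀ - 1) / algebraMap E L (ζ - 1) - algebraMap E L (∑ j ∈ Finset.range i, ζ ^ j)) := by
    intro i
    have h4 : (∑ j ∈ Finset.range i, ζ ^ j) * (ζ - 1) = ζ ^ i - 1 := geom_sum_mul _ _
    have h5 : algebraMap E L (∑ j ∈ Finset.range i, ζ ^ j) * algebraMap E L (ζ - 1) =
        algebraMap E L ζ ^ i - 1 := by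
      rw [← map_mul, h4, map_sub, map_pow, _root_.map_one]
    rw [eval_sub, eval_X, eval_C, mul_one, mul_sub, mul_div_cancel₀ _ hlam,
      mul_comm (algebraMap E L (ζ - 1)), h5]
    ring
  rw [Finset.prod_congr rfl (fun i _ => h3 i), Finset.prod_mul_distrib, Finset.prod_const,
    Finset.card_range, S.pow_eq, Finset.range_eq_Ico,
    Finset.prod_eq_prod_Ico_succ_bot S.prime.pos] at h2
  have h6 : aeval ((y₀ - 1) / algebraMap E L (ζ - 1)) (s44ks_cP p ζ) =
      ∏ d ∈ Finset.Ico 1 p, ((y₀ - 1) / algebraMap E L (ζ - 1) -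
        algebraMap E L (∑ j ∈ Finset.range d, ζ ^ j)) := by
    rw [s44ks_cP, map_prod]
    refine Finset.prod_congr rfl fun d _ => ?_
    rw [map_sub, aeval_X, aeval_C]
  rw [h6]
  rw [Finset.range_zero, Finset.sum_empty, _root_.map_zero, sub_zero, zero_add] at h2
  have h7 : algebraMap E L (1 + (ζ - 1) ^ p * b) - 1 =
      algebraMap E L (ζ - 1) ^ p * algebraMap E L b := by
    rw [map_add, _root_.map_one, map_mul, map_pow]; ring
  rw [h7] at h2
  exact (mul_left_cancel₀ (pow_ne_zero p hlam) h2).symm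

end Sheet0

section Sheets

variable {V : ValuationSubring E} {pi : E} {p : ℕ} {ζ b : E} {y₀ : L}

theorem s44ks_gen_eps (S : s44ks_Setup V pi p ζ b y₀) (z : L) :
    ∃ R : E[X], z = aeval ((y₀ - 1) / algebraMap E L (ζ - 1)) R := by
  have hlam : algebraMap E L (ζ - 1) ≠ 0 := (_root_.map_ne_zero _).2 (s44ks_lam_ne S)
  obtain ⟨R, hR⟩ := S.gen z
  refine ⟨R.comp (C 1 + C (ζ - 1) * X), ?_⟩
  rw [aeval_comp, hR]
  congr 2
  rw [map_add, map_mul, aeval_C, aeval_C, aeval_X, _root_.map_one, mul_div_cancel₀ _ hlam]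
  ring

/-- on the sheet `0` the valuation of `z` is `|π| ^ n` with `n` independent of the extension. -/
theorem s44ks_sheet0_val (S : s44ks_Setup V pi p ζ b y₀) {W : ValuationSubring L}
    (hdom : s44ks_Dom V W)
    (hW : W.valuation (y₀ - 1) < W.valuation (algebraMap E L (ζ - 1))) {z : L} (hz : z ≠ 0) :
    ∃ n : ℤ, ∀ W' : ValuationSubring L, s44ks_Dom V W' →
      W'.valuation (y₀ - 1) < W'.valuation (algebraMap E L (ζ - 1)) →
      W'.valuation (z / algebraMap E L pi ^ n) = 1 := by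
  have hlam : algebraMap E L (ζ - 1) ≠ 0 := (_root_.map_ne_zero _).2 (s44ks_lam_ne S)
  have hε : ∀ W' : ValuationSubring L,
      W'.valuation (y₀ - 1) < W'.valuation (algebraMap E L (ζ - 1)) →
      W'.valuation ((y₀ - 1) / algebraMap E L (ζ - 1)) < 1 := by
    intro W' h
    rw [map_div₀]
    exact (div_lt_one₀ (zero_lt_iff.2 ((Valuation.ne_zero_iff _).2 hlam))).2 h
  have hbb : b / pi ∈ V := s44ks_unif_div S.unif S.b_lt
  have hrel : (y₀ - 1) / algebraMap E L (ζ - 1) *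
      aeval ((y₀ - 1) / algebraMap E L (ζ - 1)) (s44ks_cP p ζ) =
      algebraMap E L pi * algebraMap E L (b / pi) := by
    rw [s44ks_rel S, ← map_mul, mul_div_cancel₀ _ S.unif.ne_zero]
  obtain ⟨n, hn⟩ := s44ks_val_eq hdom S.unif (hε W hW)
    (s44ks_cP_int S.prime.ne_zero S.prim.pow_eq_one) (s44ks_cP_coeff S.prime S.prim) hbb hrel
    (s44ks_gen_eps S) hz
  exact ⟨n, fun W' hdom' hW' => hn W' hdom' (hε W' hW')⟩

/-- twisting `y₀` by a root of unity. -/
theorem s44ks_setup_twist (S : s44ks_Setup V pi p ζ b y₀) (k : ℕ) :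
    s44ks_Setup V pi p ζ b (y₀ * algebraMap E L (ζ ^ k)) := by
  have hζk : algebraMap E L (ζ ^ k) ≠ 0 :=
    (_root_.map_ne_zero _).2 (pow_ne_zero _ (S.prim.ne_zero S.prime.ne_zero))
  refine ⟨S.unif, S.prime, S.prim, S.lam_lt, S.b_lt, ?_, ?_⟩
  · rw [mul_pow, S.pow_eq, ← map_pow, ← pow_mul, mul_comm k p, pow_mul, S.prim.pow_eq_one, one_pow,
      _root_.map_one, mul_one]
  · intro z
    obtain ⟨R, hR⟩ := S.gen z
    refine ⟨R.comp (C (ζ ^ k)⁻¹ * X), ?_⟩
    rw [aeval_comp, hR]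
    congr 2
    rw [map_mul, aeval_C, aeval_X, map_inv₀]
    field_simp

theorem s44ks_zetaL_val (S : s44ks_Setup V pi p ζ b y₀) (W : ValuationSubring L) (k : ℕ) :
    W.valuation (algebraMap E L (ζ ^ k)) = 1 := by
  refine s44ks_zeta_val (p := p) ?_ S.prime.ne_zero
  rw [← map_pow, ← pow_mul, mul_comm k p, pow_mul, S.prim.pow_eq_one, one_pow, _root_.map_one]

/-- on the sheet `s` the valuation of `z` is `|π| ^ n` with `n` independent of the extension. -/
theorem s44ks_sheet_val (S : s44ks_Setup V pi p ζ b y₀) {W : ValuationSubring L}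
    (hdom : s44ks_Dom V W) (s : ℕ)
    (hW : W.valuation (y₀ - algebraMap E L (ζ ^ s)) < W.valuation (algebraMap E L (ζ - 1)))
    {z : L} (hz : z ≠ 0) :
    ∃ n : ℤ, ∀ W' : ValuationSubring L, s44ks_Dom V W' →
      W'.valuation (y₀ - algebraMap E L (ζ ^ s)) < W'.valuation (algebraMap E L (ζ - 1)) →
      W'.valuation (z / algebraMap E L pi ^ n) = 1 := by
  have hks : ζ ^ (s * (p - 1)) * ζ ^ s = 1 := by
    rw [← pow_add]
    have : s * (p - 1) + s = p * s := by
      have := Nat.sub_add_cancel S.prime.one_le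
      nlinarith
    rw [this, pow_mul, S.prim.pow_eq_one, one_pow]
  have key : ∀ W' : ValuationSubring L,
      W'.valuation (y₀ * algebraMap E L (ζ ^ (s * (p - 1))) - 1) =
        W'.valuation (y₀ - algebraMap E L (ζ ^ s)) := by
    intro W'
    have e1 : y₀ * algebraMap E L (ζ ^ (s * (p - 1))) - 1 =
        algebraMap E L (ζ ^ (s * (p - 1))) * (y₀ - algebraMap E L (ζ ^ s)) := by
      rw [mul_sub, ← map_mul, hks, _root_.map_one, mul_comm]
    rw [e1, map_mul, s44ks_zetaL_val S W', one_mul]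
  obtain ⟨n, hn⟩ := s44ks_sheet0_val (s44ks_setup_twist S (s * (p - 1))) hdom
    (by rw [key]; exact hW) hz
  exact ⟨n, fun W' hdom' hW' => hn W' hdom' (by rw [key]; exact hW')⟩

/-- the product formula `∏_{i < p} (y₀ - ζ ^ i) = (ζ - 1) ^ p b`. -/
theorem s44ks_prod_eq (S : s44ks_Setup V pi p ζ b y₀) :
    ∏ i ∈ Finset.range p, (y₀ - algebraMap E L (ζ ^ i)) =
      algebraMap E L (ζ - 1) ^ p * algebraMap E L b := by
  have hζL : IsPrimitiveRoot (algebraMap E L ζ) p :=
    S.prim.map_of_injective (algebraMap E L).injective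
  have h1 := X_pow_sub_C_eq_prod hζL S.prime.pos (one_pow p)
  have h2 := congrArg (eval y₀) h1
  rw [eval_sub, eval_pow, eval_X, eval_C, eval_prod, S.pow_eq] at h2
  have h3 : ∀ i : ℕ, eval y₀ (X - C (algebraMap E L ζ ^ i * 1)) =
      y₀ - algebraMap E L (ζ ^ i) := by
    intro i
    rw [eval_sub, eval_X, eval_C, mul_one, map_pow]
  rw [Finset.prod_congr rfl (fun i _ => h3 i)] at h2
  rw [← h2, map_add, _root_.map_one, map_mul, map_pow]
  ring

/-- **every extension lies on a sheet.** -/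
theorem s44ks_sheet_exists (S : s44ks_Setup V pi p ζ b y₀) {W : ValuationSubring L}
    (hdom : s44ks_Dom V W) :
    ∃ s < p, W.valuation (y₀ - algebraMap E L (ζ ^ s)) <
      W.valuation (algebraMap E L (ζ - 1)) := by
  by_contra hcon
  push Not at hcon
  have hlam : algebraMap E L (ζ - 1) ≠ 0 := (_root_.map_ne_zero _).2 (s44ks_lam_ne S)
  have hlamv : W.valuation (algebraMap E L (ζ - 1)) ≠ 0 := (Valuation.ne_zero_iff _).2 hlam
  have h1 := congrArg W.valuation (s44ks_prod_eq S)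
  rw [map_prod, map_mul, map_pow] at h1
  have h2 : W.valuation (algebraMap E L (ζ - 1)) ^ p ≤
      ∏ i ∈ Finset.range p, W.valuation (y₀ - algebraMap E L (ζ ^ i)) := by
    calc W.valuation (algebraMap E L (ζ - 1)) ^ p
        = ∏ _i ∈ Finset.range p, W.valuation (algebraMap E L (ζ - 1)) := by
          rw [Finset.prod_const, Finset.card_range]
      _ ≤ _ := Finset.prod_le_prod' fun i hi => hcon i (Finset.mem_range.1 hi)
  rw [h1] at h2
  have h3 : W.valuation (algebraMap E L b) < 1 := (s44ks_dom_lt hdom b).2 S.b_lt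
  have h4 : W.valuation (algebraMap E L (ζ - 1)) ^ p * W.valuation (algebraMap E L b) <
      W.valuation (algebraMap E L (ζ - 1)) ^ p * 1 :=
    mul_lt_mul_of_pos_left h3 (zero_lt_iff.2 (pow_ne_zero _ hlamv))
  rw [mul_one] at h4
  exact absurd h2 (not_le.2 h4)

/-- distinct roots of unity differ by `(ζ - 1) · unit`. -/
theorem s44ks_zeta_sub_val (hp : p.Prime) (hζ : IsPrimitiveRoot ζ p) {a c : ℕ} (hac : a ≤ c)
    (hne : ζ ^ a ≠ ζ ^ c) : V.valuation (ζ ^ c - ζ ^ a) = V.valuation (ζ - 1) := by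
  have hd : ¬ p ∣ c - a := by
    rintro ⟨q, hq⟩
    apply hne
    have : c = a + p * q := by omega
    rw [this, pow_add, pow_mul, hζ.pow_eq_one, one_pow, mul_one]
  have e1 : ζ ^ c - ζ ^ a = ζ ^ a * ((∑ i ∈ Finset.range (c - a), ζ ^ i) * (ζ - 1)) := by
    rw [geom_sum_mul, mul_sub, mul_one, ← pow_add, Nat.add_sub_cancel' hac]
  rw [e1, map_mul, map_mul, s44ks_gs_unit hp hζ hd, map_pow,
    s44ks_zeta_val hζ.pow_eq_one hp.ne_zero, one_pow, one_mul, one_mul]

/-- **the sheet is unique.** -/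
theorem s44ks_sheet_unique (S : s44ks_Setup V pi p ζ b y₀) {W : ValuationSubring L}
    (hdom : s44ks_Dom V W) {s s' : ℕ}
    (hs : W.valuation (y₀ - algebraMap E L (ζ ^ s)) < W.valuation (algebraMap E L (ζ - 1)))
    (hs' : W.valuation (y₀ - algebraMap E L (ζ ^ s')) < W.valuation (algebraMap E L (ζ - 1))) :
    ζ ^ s = ζ ^ s' := by
  by_contra hne
  have h1 : W.valuation (algebraMap E L (ζ ^ s' - ζ ^ s)) <
      W.valuation (algebraMap E L (ζ - 1)) := by
    have e1 : algebraMap E L (ζ ^ s' - ζ ^ s) =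
        (y₀ - algebraMap E L (ζ ^ s)) - (y₀ - algebraMap E L (ζ ^ s')) := by
      rw [map_sub]; ring
    rw [e1]
    exact lt_of_le_of_lt (Valuation.map_sub _ _ _) (max_lt hs hs')
  rw [s44ks_hom_lt_lt (algebraMap E L) hdom] at h1
  rcases le_total s s' with h | h
  · rw [s44ks_zeta_sub_val S.prime S.prim h hne] at h1
    exact lt_irrefl _ h1
  · rw [← Valuation.map_neg, neg_sub, s44ks_zeta_sub_val S.prime S.prim h (Ne.symm hne)] at h1
    exact lt_irrefl _ h1

/-- **two extensions on the same sheet are equal.** -/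
theorem s44ks_eq_of_sheet (S : s44ks_Setup V pi p ζ b y₀) {W W' : ValuationSubring L}
    (hdom : s44ks_Dom V W) (hdom' : s44ks_Dom V W') (s : ℕ)
    (hs : W.valuation (y₀ - algebraMap E L (ζ ^ s)) < W.valuation (algebraMap E L (ζ - 1)))
    (hs' : W'.valuation (y₀ - algebraMap E L (ζ ^ s)) < W'.valuation (algebraMap E L (ζ - 1)))
    (z : L) : z ∈ W ↔ z ∈ W' := by
  by_cases hz : z = 0
  · rw [hz]; exact ⟨fun _ => W'.zero_mem, fun _ => W.zero_mem⟩
  obtain ⟨n, hn⟩ := s44ks_sheet_val S hdom s hs hz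
  have h1 := hn W hdom hs
  have h2 := hn W' hdom' hs'
  rw [map_div₀] at h1 h2
  have h1' := eq_of_div_eq_one h1
  have h2' := eq_of_div_eq_one h2
  rw [← ValuationSubring.valuation_le_one_iff, ← ValuationSubring.valuation_le_one_iff, h1', h2',
    ← map_zpow₀, s44ks_dom_le hdom, s44ks_dom_le hdom']

/-- **(S1)**: `π` stays a uniformiser of every extension (`e = 1`). -/
theorem s44ks_unram (S : s44ks_Setup V pi p ζ b y₀) {W : ValuationSubring L}
    (hdom : s44ks_Dom V W) {z : L} (hz : z ≠ 0) :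
    ∃ n : ℤ, W.valuation (z / algebraMap E L pi ^ n) = 1 := by
  obtain ⟨s, -, hs⟩ := s44ks_sheet_exists S hdom
  obtain ⟨n, hn⟩ := s44ks_sheet_val S hdom s hs hz
  exact ⟨n, hn W hdom hs⟩

end Sheets

section Tau

variable {V : ValuationSubring E} {pi : E} {p : ℕ} {ζ b : E} {y₀ : L} {τ : L →+* L}

theorem s44ks_tau_pow_algebraMap (hτE : ∀ e : E, τ (algebraMap E L e) = algebraMap E L e)
    (j : ℕ) (e : E) : (τ ^ j) (algebraMap E L e) = algebraMap E L e := by
  induction j with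
  | zero => rfl
  | succ j ih =>
    rw [pow_succ]
    show (τ ^ j) (τ (algebraMap E L e)) = _
    rw [hτE, ih]

theorem s44ks_tau_pow_y (hτE : ∀ e : E, τ (algebraMap E L e) = algebraMap E L e)
    (hτy : τ y₀ = algebraMap E L ζ * y₀) (j : ℕ) :
    (τ ^ j) y₀ = algebraMap E L (ζ ^ j) * y₀ := by
  induction j with
  | zero => rw [pow_zero, pow_zero, _root_.map_one, one_mul]; rfl
  | succ j ih =>
    rw [pow_succ]
    show (τ ^ j) (τ y₀) = _
    rw [hτy, map_mul, s44ks_tau_pow_algebraMap hτE, ih, ← mul_assoc, ← map_mul, ← pow_succ']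

/-- the conjugate `W ∘ τ ^ j` extends `V`. -/
theorem s44ks_dom_comap (hτE : ∀ e : E, τ (algebraMap E L e) = algebraMap E L e)
    {W : ValuationSubring L} (hdom : s44ks_Dom V W) (j : ℕ) :
    s44ks_Dom V (W.comap (τ ^ j)) := by
  intro e
  rw [ValuationSubring.mem_comap, s44ks_tau_pow_algebraMap hτE]
  exact hdom e

/-- the conjugate `W ∘ τ ^ j` lies on the sheet `s + j`. -/
theorem s44ks_sheet_comap (S : s44ks_Setup V pi p ζ b y₀)
    (hτE : ∀ e : E, τ (algebraMap E L e) = algebraMap E L e)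
    (hτy : τ y₀ = algebraMap E L ζ * y₀) {W : ValuationSubring L} {s : ℕ}
    (hs : W.valuation (y₀ - algebraMap E L (ζ ^ s)) < W.valuation (algebraMap E L (ζ - 1)))
    (j : ℕ) :
    (W.comap (τ ^ j)).valuation (y₀ - algebraMap E L (ζ ^ (s + j))) <
      (W.comap (τ ^ j)).valuation (algebraMap E L (ζ - 1)) := by
  rw [← s44ks_hom_lt_lt (τ ^ j) (A := W.comap (τ ^ j)) (B := W)
    (fun _ => ValuationSubring.mem_comap.symm), map_sub, s44ks_tau_pow_algebraMap hτE,
    s44ks_tau_pow_algebraMap hτE, s44ks_tau_pow_y hτE hτy]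
  have e1 : algebraMap E L (ζ ^ j) * y₀ - algebraMap E L (ζ ^ (s + j)) =
      algebraMap E L (ζ ^ j) * (y₀ - algebraMap E L (ζ ^ s)) := by
    rw [pow_add, map_mul]; ring
  rw [e1, map_mul, s44ks_zetaL_val S W, one_mul]
  exact hs

/-- **(S2)**: any two extensions of `V` are conjugate under a power of `τ`. -/
theorem s44ks_conj (S : s44ks_Setup V pi p ζ b y₀)
    (hτE : ∀ e : E, τ (algebraMap E L e) = algebraMap E L e)
    (hτy : τ y₀ = algebraMap E L ζ * y₀) {W W' : ValuationSubring L}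
    (hdom : s44ks_Dom V W) (hdom' : s44ks_Dom V W') :
    ∃ j < p, ∀ z : L, z ∈ W' ↔ (τ ^ j) z ∈ W := by
  obtain ⟨s, -, hs⟩ := s44ks_sheet_exists S hdom
  obtain ⟨s', -, hs'⟩ := s44ks_sheet_exists S hdom'
  refine ⟨(s' + s * (p - 1)) % p, Nat.mod_lt _ S.prime.pos, fun z => ?_⟩
  have h1 := s44ks_sheet_comap S hτE hτy hs ((s' + s * (p - 1)) % p)
  have e1 : ζ ^ (s + (s' + s * (p - 1)) % p) = ζ ^ s' := by
    rw [pow_add, ← pow_eq_pow_mod _ S.prim.pow_eq_one, ← pow_add]
    have : s + (s' + s * (p - 1)) = s' + p * s := by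
      have := Nat.sub_add_cancel S.prime.one_le
      nlinarith
    rw [this, pow_add, pow_mul, S.prim.pow_eq_one, one_pow, mul_one]
  rw [e1] at h1
  rw [s44ks_eq_of_sheet S hdom' (s44ks_dom_comap hτE hdom _) s' hs' h1 z,
    ValuationSubring.mem_comap]

/-- iterating the Kummer relation `τ Φ · u = h ^ p · Φ`. -/
theorem s44ks_rel_iter (hτE : ∀ e : E, τ (algebraMap E L e) = algebraMap E L e)
    {Φ h : L} {u : E} (hrel : τ Φ * algebraMap E L u = h ^ p * Φ) (j : ℕ) :
    ∃ H : L, (τ ^ j) Φ * algebraMap E L u ^ j = H ^ p * Φ := by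
  induction j with
  | zero => exact ⟨1, by rw [pow_zero, pow_zero, one_pow, mul_one, one_mul]; rfl⟩
  | succ j ih =>
    obtain ⟨H, hH⟩ := ih
    refine ⟨τ H * h, ?_⟩
    have h1 : (τ ^ (j + 1)) Φ = τ ((τ ^ j) Φ) := by rw [pow_succ']; rfl
    have h2 := congrArg τ hH
    rw [map_mul, map_mul, map_pow, map_pow, hτE] at h2
    rw [h1, pow_succ, mul_pow]
    linear_combination (algebraMap E L u) * h2 + (τ H ^ p) * hrel

/-- **(S3)**: if `τ Φ · u = h ^ p · Φ` with `u` a unit of `V` (*peu ramifié*), the order of `Φ`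
modulo `p` does not depend on the extension of `V`. -/
theorem s44ks_congr (S : s44ks_Setup V pi p ζ b y₀)
    (hτE : ∀ e : E, τ (algebraMap E L e) = algebraMap E L e)
    (hτy : τ y₀ = algebraMap E L ζ * y₀) {W W' : ValuationSubring L}
    (hdom : s44ks_Dom V W) (hdom' : s44ks_Dom V W') {Φ h : L} {u : E} (hΦ : Φ ≠ 0)
    (hu : V.valuation u = 1) (hrel : τ Φ * algebraMap E L u = h ^ p * Φ) {n n' : ℤ}
    (hn : W.valuation (Φ / algebraMap E L pi ^ n) = 1)
    (hn' : W'.valuation (Φ / algebraMap E L pi ^ n') = 1) : (p : ℤ) ∣ n' - n := by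
  obtain ⟨j, -, hj⟩ := s44ks_conj S hτE hτy hdom hdom'
  obtain ⟨H, hH⟩ := s44ks_rel_iter hτE hrel j
  have hpiL : algebraMap E L pi ≠ 0 := (_root_.map_ne_zero _).2 S.unif.ne_zero
  have hpiv : W.valuation (algebraMap E L pi) < 1 := (s44ks_dom_lt hdom pi).2 S.unif.lt_one
  have hpiv0 : 0 < W.valuation (algebraMap E L pi) :=
    zero_lt_iff.2 ((Valuation.ne_zero_iff _).2 hpiL)
  have huL : W.valuation (algebraMap E L u) = 1 := (s44ks_dom_eq_one hdom u).2 hu
  have hu0 : algebraMap E L u ≠ 0 := by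
    intro h0
    rw [h0, _root_.map_zero] at huL
    exact zero_ne_one huL
  have hτΦ : (τ ^ j) Φ ≠ 0 := (_root_.map_ne_zero _).2 hΦ
  have hH0 : H ≠ 0 := by
    rintro rfl
    rw [zero_pow S.prime.ne_zero, zero_mul] at hH
    exact mul_ne_zero hτΦ (pow_ne_zero _ hu0) hH
  obtain ⟨k, hk⟩ := s44ks_unram S hdom hH0
  -- transport `hn'` to `W`
  have h1 : W.valuation ((τ ^ j) (Φ / algebraMap E L pi ^ n')) = 1 :=
    (s44ks_hom_eq_one (τ ^ j) (A := W') (B := W) (fun z => (hj z).symm) _).2 hn'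
  rw [map_div₀ (τ ^ j), map_zpow₀ (τ ^ j), s44ks_tau_pow_algebraMap hτE, map_div₀,
    map_zpow₀] at h1
  have h2 := eq_of_div_eq_one h1
  rw [map_div₀, map_zpow₀] at hn hk
  have h3 := eq_of_div_eq_one hn
  have h4 := eq_of_div_eq_one hk
  have h5 := congrArg W.valuation hH
  rw [map_mul, map_mul, map_pow, map_pow, huL, one_pow, mul_one, h2, h3, h4, ← zpow_natCast,
    ← zpow_mul, ← zpow_add₀ hpiv0.ne'] at h5
  have h6 := zpow_right_injective₀ hpiv0 hpiv.ne h5
  exact ⟨k, by rw [h6]; ring⟩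

end Tau

end Fermat.Agent.S44
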