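/-
S44, ruling R5, cell (U-NODE) (helper28; prefix `s44un_`): THE MODULAR UNIT HAS NO HORIZONTAL
DIVISOR WHERE `j` IS FINITE — valuation-ring form on the Legendre cover over ANY field `L` of
characteristic zero inside `Q̄`.

`U1 ∈ lg_F L N` ANY model of the modular unit `Δ(q)/Δ(q^p)` (series `mzb_qi_U L p`).  For every
valuation subring `V` of `E = lg_E L N` containing the constants `L` and `j(q²)` (`lgf_j2E`):

  `s44un_horiz` : `φ U1` is a unit of `V`.

Proof: extend `V` to a valuation subring `A` of the field `Q̄((q)) ⊇ ι E` (Chevalley,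
`s52v_exists_ext`); `A` contains `Q̄` (integral over `ι L`) and `j(q²)`; `U` and `U⁻¹` satisfy monic
relations over `Q̄[j]` (`mzc_i_relation`: weakly holomorphic modular functions are integral over
`Q̄[j]`), which we push forward by `q ↦ q²`.
-/
import Mathlib
import Fermat.Agent.MZ.C.UnitOrd
import Fermat.Agent.S52.VAL.Ext
import Fermat.Agent.JT3.Inst.FunFieldFacts
import Fermat.Agent.JT3.Inst.Key0
import Fermat.Agent.SS.Model.AL
import Fermat.Agent.SS.Local.Height1
import Fermat.Agent.MZ.B.QInt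

set_option autoImplicit false
set_option linter.unusedSectionVars false
set_option linter.unusedVariables false
set_option linter.style.haveILetI false

noncomputable section

namespace Fermat.Agent.S44

open ModularCurve IntermediateField IsLocalRing Polynomial
open Fermat.Agent.JT3 Fermat.Agent.SS Fermat.Agent.MZ Fermat.Agent.S24 Fermat.Agent.S52

local notation "Qb" => AlgebraicClosure ℚ

section Horiz

variable {L : Type*} [Field L] [CharZero L] [Algebra L (AlgebraicClosure ℚ)]
variable (N p : ℕ) [NeZero N] [NeZero p]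

variable (L) in
/-- the embedding of `E = lg_E L N` into the field `Q̄((q))`. -/
def s44un_iotaE : ↥(lg_E L N) →+* LaurentSeries Qb :=
  (ssm_al_iota L).comp (algebraMap ↥(lg_E L N) (LaurentSeries L))

theorem s44un_iotaE_apply (x : ↥(lg_E L N)) :
    s44un_iotaE L N x = coeffMap (algebraMap L Qb) (x : LaurentSeries L) := rfl

/-- constants of `Q̄` lie in every valuation subring of `Q̄((q))` containing the constants of `L`. -/
theorem s44un_const_mem (A : ValuationSubring (LaurentSeries Qb))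
    (hL : ∀ c : L, algebraMap Qb (LaurentSeries Qb) (algebraMap L Qb c) ∈ A) (c : Qb) :
    algebraMap Qb (LaurentSeries Qb) c ∈ A := by
  haveI : Algebra.IsAlgebraic ℚ Qb := AlgebraicClosure.isAlgebraic ℚ
  haveI : Algebra.IsAlgebraic L Qb := Algebra.IsAlgebraic.tower_top (K := ℚ) L
  obtain ⟨P, hP, hPc⟩ := (Algebra.IsIntegral.isIntegral (R := L) c)
  -- the ring homomorphism `L → A`
  let f : L →+* A :=
    ((algebraMap Qb (LaurentSeries Qb)).comp (algebraMap L Qb)).codRestrict A.toSubring hL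
  have hint : IsIntegral A (algebraMap Qb (LaurentSeries Qb) c) := by
    refine ⟨P.map f, hP.map _, ?_⟩
    rw [eval₂_map]
    have e : (algebraMap A (LaurentSeries Qb)).comp f =
        (algebraMap Qb (LaurentSeries Qb)).comp (algebraMap L Qb) := by
      ext x
      rfl
    rw [e, ← Polynomial.hom_eval₂, hPc, map_zero]
  obtain ⟨y, hy⟩ := (IsIntegrallyClosed.isIntegral_iff (R := A) (K := LaurentSeries Qb)).1 hint
  rw [← hy]
  exact y.2

/-- a valuation subring of `Q̄((q))` containing `Q̄` and `j(q²)` contains `u(q²)` for every `u`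
satisfying a monic relation over `Q̄[j]`. -/
theorem s44un_mem_of_relation (A : ValuationSubring (LaurentSeries Qb))
    (hc : ∀ c : Qb, algebraMap Qb (LaurentSeries Qb) c ∈ A)
    (hJ : qExpand Qb 2 br_jqK ∈ A) (n : ℕ) (u : LaurentSeries Qb) (c : ℕ → Polynomial Qb)
    (hc0 : c 0 = 1)
    (h : ∑ r ∈ Finset.range (n + 1), Polynomial.aeval br_jqK (c r) * u ^ (n - r) = 0) :
    qExpand Qb 2 u ∈ A := by
  have h2 := congrArg (qExpandAlgHomC Qb 2) h
  rw [map_zero, map_sum] at h2
  have h3 : ∑ r ∈ Finset.range (n + 1),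
      Polynomial.aeval (qExpand Qb 2 br_jqK) (c r) * (qExpand Qb 2 u) ^ (n - r) = 0 := by
    rw [← h2]
    refine Finset.sum_congr rfl fun r _ => ?_
    rw [map_mul, map_pow, ← Polynomial.aeval_algHom_apply]
    rfl
  refine mzc_i_mem_of_relation A n (fun r => Polynomial.aeval (qExpand Qb 2 br_jqK) (c r))
    (by simp [hc0]) (fun r => ?_) _ h3
  rw [Polynomial.aeval_eq_sum_range]
  refine Subring.sum_mem A.toSubring fun i _ => ?_
  rw [Algebra.smul_def]
  exact A.mul_mem _ _ (hc _) (pow_mem hJ i)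

variable (U1 : ↥(lg_F L N)) (hU1 : (U1 : LaurentSeries L) = mzb_qi_U L p)

include hU1 in
/-- **no horizontal divisor where `j` is finite**: `φ U1` is a unit of every valuation subring of
`E = lg_E L N` containing the constants and `j(q²)`. -/
theorem s44un_horiz (V : ValuationSubring ↥(lg_E L N))
    (hL : ∀ c : L, algebraMap L ↥(lg_E L N) c ∈ V) (hj : lgf_j2E L N ∈ V) :
    ssl_VUnit V (lg_phiE (L := L) (N := N) U1) := by
  letI : Algebra ↥(lg_E L N) (LaurentSeries Qb) := (s44un_iotaE L N).toAlgebra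
  obtain ⟨A, hA⟩ := s52v_exists_ext (Ω := LaurentSeries Qb) V
  have hmem : ∀ x : ↥(lg_E L N), x ∈ V ↔ s44un_iotaE L N x ∈ A := by
    intro x
    rw [← hA]
    exact ValuationSubring.mem_comap
  -- constants
  have hLA : ∀ c : L, algebraMap Qb (LaurentSeries Qb) (algebraMap L Qb c) ∈ A := by
    intro c
    have h1 := (hmem _).1 (hL c)
    have h2 : s44un_iotaE L N (algebraMap L ↥(lg_E L N) c) =
        algebraMap Qb (LaurentSeries Qb) (algebraMap L Qb c) := ssm_al_iota_algebraMap L c
    rwa [h2] at h1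
  have hcA := s44un_const_mem A hLA
  -- `j(q²)`
  have hJA : qExpand Qb 2 br_jqK ∈ A := by
    have h1 := (hmem _).1 hj
    have h2 : s44un_iotaE L N (lgf_j2E L N) = qExpand Qb 2 br_jqK := by
      rw [s44un_iotaE_apply]
      show coeffMap (algebraMap L Qb) (lg_j2 L) = _
      rw [lg_j2, coeffMap_qExpand, coeffMap_jqModC, br_jqK, ← mzb_qi_j_coeffEmb]
    rwa [h2] at h1
  -- the unit and its inverse over `Q̄`
  have hu : ((mza_UB p : Fbar p) : LaurentSeries Qb) = mzb_qi_U Qb p := by
    rw [mza_UB_coe, mzb_qi_U_coeffEmb]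
  have hu' : (((mza_UB p)⁻¹ : Fbar p) : LaurentSeries Qb) = mzb_qi_Uinv Qb p := by
    rw [IntermediateField.coe_inv, hu]
    exact inv_eq_of_mul_eq_one_right (mzb_qi_U_mul_inv Qb p)
  obtain ⟨c, hc0, hc⟩ := mzc_i_relation p ((mza_UB p : Fbar p) : LaurentSeries Qb) (mza_Uan p)
    (mza_pl_weak p) (mza_UB_laurentQ p)
  obtain ⟨c', hc0', hc'⟩ := mzc_i_relation p (((mza_UB p)⁻¹ : Fbar p) : LaurentSeries Qb)
    (fun z => (mza_Uan p z)⁻¹) (mzc_uo_isWeakModFun_inv p) (mzc_uo_laurentQ_inv p)
  have m1 := s44un_mem_of_relation A hcA hJA _ _ c hc0 hc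
  have m2 := s44un_mem_of_relation A hcA hJA _ _ c' hc0' hc'
  rw [hu] at m1
  rw [hu'] at m2
  -- identify with `ι (φ U1)` and its inverse
  have e1 : s44un_iotaE L N (lg_phiE (L := L) (N := N) U1) = qExpand Qb 2 (mzb_qi_U Qb p) := by
    rw [s44un_iotaE_apply, lg_phiE_coe, hU1, lg_phi_apply, coeffMap_qExpand, mzb_qi_coeffMap_U]
  have hinvL : ((U1⁻¹ : ↥(lg_F L N)) : LaurentSeries L) = mzb_qi_Uinv L p := by
    rw [IntermediateField.coe_inv, hU1]
    exact inv_eq_of_mul_eq_one_right (mzb_qi_U_mul_inv L p)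
  have e2 : s44un_iotaE L N (lg_phiE (L := L) (N := N) U1)⁻¹ =
      qExpand Qb 2 (mzb_qi_Uinv Qb p) := by
    rw [← map_inv₀, s44un_iotaE_apply, lg_phiE_coe, hinvL, lg_phi_apply, coeffMap_qExpand,
      mzb_qi_coeffMap_Uinv]
  have hne : lg_phiE (L := L) (N := N) U1 ≠ 0 := by
    intro h0
    have h1 : qExpand Qb 2 (mzb_qi_U Qb p) = 0 := by rw [← e1, h0, map_zero]
    have h2 : qExpand Qb 2 (mzb_qi_U Qb p) * qExpand Qb 2 (mzb_qi_Uinv Qb p) = 1 := by
      rw [← map_mul, mzb_qi_U_mul_inv, map_one]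
    rw [h1, zero_mul] at h2
    exact zero_ne_one h2
  exact ⟨hne, (hmem _).2 (e1 ▸ m1), (hmem _).2 (e2 ▸ m2)⟩

end Horiz

end Fermat.Agent.S44
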