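/-
Project S44 (Mazur–Ribet at `p`), cell [H2-N] (U-NODE)(a), THE LEGENDRE INSTANCE COMPOSED WITH THE
UNIFORM NODE (helper13).  Prefix `s44un_`.  Namespace `Fermat.Agent.S44`.

Setting of helper29's `s44mu_node` (`Mono/UNode.lean`): `L ⊆ Q̄` a number field containing a primitive
`M`-th root of unity, `O` a discrete valuation ring of `L` of odd residue characteristic `p ∤ M`.

* `s44un_leg_pi_mem`  : `π ∈ 𝔫` for every prime `𝔫 ⊇ P_∞ ∩ B` of the `λ`-chart;
* **`s44un_leg_node_nf`** : at every maximal crossing point `𝔫` of the `λ`-chart with `j(q²) ∈ B_𝔫`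
  there are node coordinates `u, v` (`u v = p`, fixed by all inert automorphisms) such that
  `ν (φ U1) = 12` for every normalised order `ν` at the node along the `∞`-branch.
-/
import Mathlib
import Fermat.Agent.S44.Mono.UnitNodeLeg
import Fermat.Agent.S44.Mono.UNode

set_option autoImplicit false
set_option linter.unusedSectionVars false
set_option linter.style.haveILetI false
set_option linter.unusedVariables false

noncomputable section

namespace Fermat.Agent.S44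

open ModularCurve IntermediateField IsLocalRing
open Fermat.Agent.JT3 Fermat.Agent.SS Fermat.Agent.MZ

section PiMem

variable {L : Type*} [Field L] [CharZero L] [Algebra L (AlgebraicClosure ℚ)]
  (O : ValuationSubring L) [IsDiscreteValuationRing O] {π : O} (hπ : Irreducible π)
variable (M p : ℕ) [NeZero M] [NeZero p] [hp : Fact p.Prime] [CharP (ResidueField O) p]
  (hp2 : ¬ 2 ∣ p) (hpM : ¬ p ∣ M)

include hp2 hpM in
set_option synthInstance.maxHeartbeats 400000 in
set_option maxHeartbeats 1600000 in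
/-- `π` lies in every ideal of the `λ`-chart containing the `∞`-component. -/
theorem s44un_leg_pi_mem
    (hprime : Prime (algebraMap ↥O (fc_chart ↥O ({lg_lamE M} : Set ↥(lg_E L M))) π))
    (𝔫 : Ideal (fc_chart ↥O ({lg_lamE (M * p)} : Set ↥(lg_E L (M * p)))))
    (h1 : ssm_tp_P (fc_chart ↥O ({lg_lamE (M * p)} : Set ↥(lg_E L (M * p))))
      (ssm_gl_V1 O hπ M p) ≤ 𝔫) :
    algebraMap ↥O (fc_chart ↥O ({lg_lamE (M * p)} : Set ↥(lg_E L (M * p)))) π ∈ 𝔫 := by
  haveI : FiniteDimensional L⟮(lg_lamE (M * p) : lg_E L (M * p))⟯ ↥(lg_E L (M * p)) :=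
    lgf_finite L (M * p)
  haveI := ssm_go_isScalarTower O (lg_E L (M * p))
  have hx : Transcendental L (lg_lamE (L := L) (M * p)) :=
    lgf_lam_transcendental L (M * p) two_ne_zero
  have hxA : Transcendental ↥O (lg_lamE (L := L) (M * p)) := fc_ff_transcendental (L := L) hx
  haveI : IsIntegrallyClosed
      (Algebra.adjoin ↥O ({lg_lamE (M * p)} : Set ↥(lg_E L (M * p)))) :=
    fc_ff_isIntegrallyClosed hxA
  haveI : FaithfulSMul (Algebra.adjoin ↥O ({lg_lamE (M * p)} : Set ↥(lg_E L (M * p))))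
      ↥(lg_E L (M * p)) :=
    (faithfulSMul_iff_algebraMap_injective _ _).2 Subtype.val_injective
  have H := ssm_gl_hyp O hπ M p hp2 hpM hprime
  have hC := ssm_tp_ff_chart (L := L) hπ hx
  apply h1
  rw [H.mem_P1 hC]
  exact H.over1.pi_mem

end PiMem

section NF

variable (L : Type) [Field L] [NumberField L] [Algebra L (AlgebraicClosure ℚ)]
  (O : ValuationSubring L) [IsDiscreteValuationRing O] {π : O} (hπ : Irreducible π)
variable (M p : ℕ) [NeZero M] [NeZero p] [hp : Fact p.Prime] [CharP (ResidueField O) p]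
  (hp2 : ¬ 2 ∣ p) (hpM : ¬ p ∣ M) (ζ : L) (hζ : IsPrimitiveRoot ζ M)

include hζ in
set_option synthInstance.maxHeartbeats 400000 in
set_option maxHeartbeats 3200000 in
/-- **(U-NODE)(a) over a number field**: at every maximal crossing point of the `λ`-chart of the
Legendre model where `j(q²)` is finite, uniform node coordinates `u v = p` and
`ν (φ U1) = 12` for every normalised order `ν` at the node along the `∞`-branch. -/
theorem s44un_leg_node_nf
    (U1 : ↥(lg_F L (M * p))) (hU1 : (U1 : LaurentSeries L) = mzb_qi_U L p)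
    (𝔫 : Ideal (fc_chart ↥O ({lg_lamE (M * p)} : Set ↥(lg_E L (M * p))))) (h𝔫 : 𝔫.IsMaximal)
    (h1 : ssm_tp_P (fc_chart ↥O ({lg_lamE (M * p)} : Set ↥(lg_E L (M * p))))
      (ssm_gl_V1 O hπ M p) ≤ 𝔫)
    (h2 : ssm_tp_P (fc_chart ↥O ({lg_lamE (M * p)} : Set ↥(lg_E L (M * p))))
      (ssm_gl_V2 O hπ M p hp2 hpM) ≤ 𝔫) :
    haveI : FiniteDimensional L⟮(lg_lamE (M * p) : lg_E L (M * p))⟯ ↥(lg_E L (M * p)) :=
      lgf_finite L (M * p)
    haveI := ssm_go_isScalarTower O (lg_E L (M * p))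
    haveI : Algebra.IsAlgebraic
        (Algebra.adjoin ↥O ({lg_lamE (M * p)} : Set ↥(lg_E L (M * p)))) ↥(lg_E L (M * p)) :=
      fc_ff_isAlgebraic (L := L) (lg_lamE (M * p) : ↥(lg_E L (M * p)))
    haveI : IsNoetherianRing (fc_chart ↥O ({lg_lamE (M * p)} : Set ↥(lg_E L (M * p)))) := by
      have := fc_chart_isNoetherianRing (A0 := ↥O) (F0 := ↥(lg_E L (M * p))) {lg_lamE (M * p)}
        (by rw [Finset.coe_singleton]
            exact fc_ff_finite (L := L) (lgf_lam_transcendental L (M * p) two_ne_zero))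
      rwa [Finset.coe_singleton] at this
    haveI : IsIntegrallyClosed (fc_chart ↥O ({lg_lamE (M * p)} : Set ↥(lg_E L (M * p)))) :=
      ssl_chart_isIntegrallyClosed {lg_lamE (M * p)}
    haveI := h𝔫.isPrime
    haveI := ssl_loc_isLocalRing (F0 := ↥(lg_E L (M * p))) 𝔫
    ∃ u v : ↥(lg_E L (M * p)),
      s44mu_NodeAtU π (fc_chart1_le (lg_lamE (M * p) : ↥(lg_E L (M * p))))
        (ssm_tp_P (fc_chart ↥O ({lg_lamE (M * p), (lg_lamE (M * p))⁻¹} :
          Set ↥(lg_E L (M * p)))) (ssm_gl_V1 O hπ M p))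
        (ssm_tp_P (fc_chart ↥O ({lg_lamE (M * p), (lg_lamE (M * p))⁻¹} :
          Set ↥(lg_E L (M * p)))) (ssm_gl_V2 O hπ M p hp2 hpM)) 𝔫 u v ((p : ℕ) : ↥O) ∧
      (∀ (σ : L ≃+* L), ss_Inert O σ →
        ssm_sg_aut (M * p) σ u = u ∧ ssm_sg_aut (M * p) σ v = v) ∧
      ∀ (huS : u ∈ ssl_locSub ↥(lg_E L (M * p)) 𝔫)
        (hj : s44uv_j2E L (M * p) ∈ ssl_locSub ↥(lg_E L (M * p)) 𝔫)
        (ν : ↥(lg_E L (M * p)) → ℤ),
        s44nu_IsNu (algebraMap (fc_chart ↥O ({lg_lamE (M * p)} : Set ↥(lg_E L (M * p))))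
            (ssl_locSub ↥(lg_E L (M * p)) 𝔫)
            (algebraMap ↥O (fc_chart ↥O ({lg_lamE (M * p)} : Set ↥(lg_E L (M * p)))) π))
          (⟨u, huS⟩ : ssl_locSub ↥(lg_E L (M * p)) 𝔫)
          (s44tl_br 𝔫 (fc_chart1_le (lg_lamE (M * p) : ↥(lg_E L (M * p))))
            (ssm_tp_P (fc_chart ↥O ({lg_lamE (M * p), (lg_lamE (M * p))⁻¹} :
              Set ↥(lg_E L (M * p)))) (ssm_gl_V1 O hπ M p))) ν →
        ν (lg_phiE (L := L) (N := M * p) U1) = 12 := by
  haveI := h𝔫.isPrime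
  have hqO : ((p : ℕ) : O) ∈ maximalIdeal O := ssm_fln_q_mem L O p
  have hp2' : p ≠ 2 := ssm_fl_ne_two p hp2
  have hprime := (ssm_ll_prime L M hπ p hqO hp2' hpM ζ hζ).1
  obtain ⟨u, v, hnode, hfix⟩ := s44mu_node L O hπ M p hp2 hpM ζ hζ 𝔫 h𝔫 h1 h2
  refine ⟨u, v, hnode, hfix, ?_⟩
  intro huS hj ν hν
  exact s44un_leg_node O hπ M p hp2 hpM hprime U1 hU1 𝔫
    (s44un_leg_pi_mem O hπ M p hp2 hpM hprime 𝔫 h1) hnode huS hj ν hν

end NF

end Fermat.Agent.S44

end
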